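import Fermat.Agent.P5.H96LawIface
import Fermat.Agent.S37.Inertia

/-!
# P5 (wave 5, S19), block GEO: transport of charts under the decomposition group (helper36)

`A` a valuation subring of `ℚ̄`, `τ` in the decomposition group of `A` (`τ A = A`).  Every notion
of the interface `H96LawIface` is equivariant under `τ`:

* `h36q_mem_iff`, `h36q_nonunits_iff` : `τ a ∈ A ↔ a ∈ A`, `τ a ∈ 𝔪_A ↔ a ∈ 𝔪_A`;
* `h36q_valueAt_iff`, `h36q_isFinAt_iff`, `h36q_modelAt_iff`, `h36q_congAt_iff`,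
  `h36q_sameRed_iff` : values, charts of the model, same reduction;
* `h36q_redKer_smul`, `h36q_redKerPic_smul`, `h36q_redKerPic_iff` : the kernel of reduction is
  stable under the decomposition group;
* `h36q_isCls_smul` : classes of `∑ (P i - Q i)`;
* `h36qSmul τ c` : the transported chart, `h36q_isCoord_smul`, `h36q_valid_smul`,
  `h36q_link_smul`;
* `h36q_orbit` : **assembly** — the orbit under the decomposition group of a seed family of
  valid charts, each of which is the target of a link from the seed, satisfies the first four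
  conjuncts of `H96GeoInputs`;
* `h36q_geoInputs_of_seed` : `H96GeoInputs M A` from a seed and the three chart-independent
  conjuncts.
-/

set_option autoImplicit false
set_option linter.style.haveILetI false
set_option linter.unusedSectionVars false

open AlgebraicCurve ModularCurve

noncomputable section

namespace Fermat.Agent.P5

open Fermat.Agent.S37 Fermat.Agent.S37.GalI

variable {M : ℕ} [NeZero M] {g : ℕ} {A : ValuationSubring Kbar}

/-! ### The decomposition group and `A` -/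

theorem h36q_inv_mem {τ : GQ} (hτ : τ ∈ A.decompositionSubgroup ℚ) :
    τ⁻¹ ∈ A.decompositionSubgroup ℚ := (A.decompositionSubgroup ℚ).inv_mem hτ

theorem h36q_apply_mem {τ : GQ} (hτ : τ ∈ A.decompositionSubgroup ℚ) {a : Kbar} (ha : a ∈ A) :
    τ a ∈ A :=
  ((⟨τ, hτ⟩ : A.decompositionSubgroup ℚ) • (⟨a, ha⟩ : A)).2

theorem h36q_mem_iff {τ : GQ} (hτ : τ ∈ A.decompositionSubgroup ℚ) (a : Kbar) :
    τ a ∈ A ↔ a ∈ A := by
  refine ⟨fun h => ?_, h36q_apply_mem hτ⟩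
  have h1 := h36q_apply_mem (h36q_inv_mem hτ) h
  have h2 : τ⁻¹ (τ a) = a := by
    show τ.symm (τ a) = a
    exact τ.symm_apply_apply a
  rwa [h2] at h1

theorem h36q_apply_nonunits {τ : GQ} (hτ : τ ∈ A.decompositionSubgroup ℚ) {a : Kbar}
    (ha : a ∈ A.nonunits) : τ a ∈ A.nonunits := by
  by_cases h0 : a = 0
  · subst h0
    rw [map_zero]
    exact zero_mem_nonunits A
  · have h1 : τ a ≠ 0 := fun h => h0 ((map_eq_zero τ).mp h)
    rw [mem_nonunits_iff_inv A h1, ← map_inv₀, h36q_mem_iff hτ]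
    exact (mem_nonunits_iff_inv A h0).mp ha

theorem h36q_nonunits_iff {τ : GQ} (hτ : τ ∈ A.decompositionSubgroup ℚ) (a : Kbar) :
    τ a ∈ A.nonunits ↔ a ∈ A.nonunits := by
  refine ⟨fun h => ?_, h36q_apply_nonunits hτ⟩
  have h1 := h36q_apply_nonunits (h36q_inv_mem hτ) h
  have h2 : τ⁻¹ (τ a) = a := by
    show τ.symm (τ a) = a
    exact τ.symm_apply_apply a
  rwa [h2] at h1

theorem h36q_inv_apply (τ : GQ) (a : Kbar) : τ⁻¹ (τ a) = a := by
  show τ.symm (τ a) = a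
  exact τ.symm_apply_apply a

theorem h36q_apply_inv (τ : GQ) (a : Kbar) : τ (τ⁻¹ a) = a := by
  show τ (τ.symm a) = a
  exact τ.apply_symm_apply a

/-- the inertia group is normalised by the decomposition group. -/
theorem h36q_conj_mem {τ σ : GQ} (hτ : τ ∈ A.decompositionSubgroup ℚ)
    (hσ : σ ∈ A.inertiaSubgroupIn ℚ) : τ * σ * τ⁻¹ ∈ A.inertiaSubgroupIn ℚ := by
  obtain ⟨i', hi', rfl⟩ := hσ
  refine ⟨(⟨τ, hτ⟩ : A.decompositionSubgroup ℚ) * i' * (⟨τ, hτ⟩ : A.decompositionSubgroup ℚ)⁻¹,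
    ?_, rfl⟩
  have hn : (A.inertiaSubgroup ℚ).Normal := by
    unfold ValuationSubring.inertiaSubgroup
    exact MonoidHom.normal_ker _
  exact hn.conj_mem i' hi' ⟨τ, hτ⟩

/-! ### Galois and `gal` -/

theorem h36q_gal_inv (τ : GQ) : gal M τ⁻¹ = (gal M τ)⁻¹ := map_inv _ _

theorem h36q_gal_inv_smul (τ : GQ) (f : FF M) : gal M τ⁻¹ • (gal M τ • f) = f := by
  rw [h36q_gal_inv, inv_smul_smul]

theorem h36q_gal_smul_inv (τ : GQ) (f : FF M) : gal M τ • (gal M τ⁻¹ • f) = f := by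
  rw [h36q_gal_inv, smul_inv_smul]

theorem h36q_gal_inv_smul_place (τ : GQ) (v : Place Kbar (FF M)) :
    gal M τ⁻¹ • (gal M τ • v) = v := by
  rw [h36q_gal_inv, inv_smul_smul]

theorem h36q_gal_smul_inv_place (τ : GQ) (v : Place Kbar (FF M)) :
    gal M τ • (gal M τ⁻¹ • v) = v := by
  rw [h36q_gal_inv, smul_inv_smul]

/-! ### Values -/

theorem h36q_valueAt_iff (τ : GQ) (v : Place Kbar (FF M)) (f : FF M) (a : Kbar) :
    ValueAt (gal M τ • v) (gal M τ • f) (τ a) ↔ ValueAt v f a := by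
  refine ⟨fun h => ?_, valueAt_gal τ⟩
  have h1 := valueAt_gal τ⁻¹ h
  rwa [h36q_gal_inv_smul, h36q_gal_inv_smul_place, h36q_inv_apply] at h1

theorem h36q_valueAt_smul_iff (τ : GQ) (v : Place Kbar (FF M)) (f : FF M) (a : Kbar) :
    ValueAt (gal M τ • v) f a ↔ ValueAt v (gal M τ⁻¹ • f) (τ⁻¹ a) := by
  rw [← h36q_valueAt_iff τ v (gal M τ⁻¹ • f) (τ⁻¹ a), h36q_gal_smul_inv, h36q_apply_inv]

theorem h36q_isFinAt_smul {τ : GQ} (hτ : τ ∈ A.decompositionSubgroup ℚ)
    {v : Place Kbar (FF M)} (h : IsFinAt A v) : IsFinAt A (gal M τ • v) := by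
  obtain ⟨a, ha, hv⟩ := h
  have h3 := valueAt_gal τ hv
  rw [gal_smul_jB] at h3
  exact ⟨τ a, h36q_apply_mem hτ ha, h3⟩

theorem h36q_isFinAt_iff {τ : GQ} (hτ : τ ∈ A.decompositionSubgroup ℚ)
    (v : Place Kbar (FF M)) : IsFinAt A (gal M τ • v) ↔ IsFinAt A v := by
  refine ⟨fun h => ?_, h36q_isFinAt_smul hτ⟩
  have h1 := h36q_isFinAt_smul (h36q_inv_mem hτ) h
  rwa [h36q_gal_inv_smul_place] at h1

/-! ### The charts of the model -/

theorem h36q_ringAdj_smul {τ : GQ} (hτ : τ ∈ A.decompositionSubgroup ℚ) {x : FF M}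
    (hx : gal M τ • x = x) {f : FF M} (hf : f ∈ ringAdj M A x) :
    gal M τ • f ∈ ringAdj M A x := by
  unfold ringAdj at hf ⊢
  induction hf using Subring.closure_induction with
  | mem y hy =>
    rcases hy with ⟨a, ha, rfl⟩ | hy
    · apply Subring.subset_closure
      left
      refine ⟨τ a, h36q_apply_mem hτ ha, ?_⟩
      show cst M (τ a) = gal M τ • cst M a
      rw [gal_smul_cst]
    · apply Subring.subset_closure
      right
      rw [Set.mem_singleton_iff] at hy ⊢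
      rw [hy, hx]
  | zero => rw [smul_zero]; exact Subring.zero_mem _
  | one => rw [smul_one]; exact Subring.one_mem _
  | add y z _ _ ihy ihz => rw [smul_add]; exact Subring.add_mem _ ihy ihz
  | neg y _ ihy => rw [smul_neg]; exact Subring.neg_mem _ ihy
  | mul y z _ _ ihy ihz => rw [smul_mul']; exact Subring.mul_mem _ ihy ihz

theorem h36q_modelAt_smul {τ : GQ} (hτ : τ ∈ A.decompositionSubgroup ℚ) {x : FF M}
    (hx : gal M τ • x = x) {f : FF M} (hf : f ∈ modelAt M A x) :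
    gal M τ • f ∈ modelAt M A x := by
  obtain ⟨p, hp, hpf⟩ := hf
  -- the conjugate polynomial
  let φ : ringAdj M A x →+* ringAdj M A x :=
    { toFun := fun y => ⟨gal M τ • (y : FF M), h36q_ringAdj_smul hτ hx y.2⟩
      map_one' := Subtype.ext (smul_one _)
      map_mul' := fun y z => Subtype.ext (smul_mul' _ _ _)
      map_zero' := Subtype.ext (smul_zero _)
      map_add' := fun y z => Subtype.ext (smul_add _ _ _) }
  refine ⟨p.map φ, hp.map φ, ?_⟩
  have h1 : ∀ q : Polynomial (ringAdj M A x),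
      Polynomial.eval₂ (algebraMap (ringAdj M A x) (FF M)) (gal M τ • f) (q.map φ)
        = gal M τ • Polynomial.eval₂ (algebraMap (ringAdj M A x) (FF M)) f q := by
    intro q
    induction q using Polynomial.induction_on' with
    | add q r hq hr =>
      rw [Polynomial.map_add, Polynomial.eval₂_add, Polynomial.eval₂_add, hq, hr, smul_add]
    | monomial n a =>
      rw [Polynomial.map_monomial, Polynomial.eval₂_monomial, Polynomial.eval₂_monomial,
        smul_mul', smul_pow']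
      rfl
  rw [h1, hpf, smul_zero]

theorem h36q_modelAt_iff {τ : GQ} (hτ : τ ∈ A.decompositionSubgroup ℚ) {x : FF M}
    (hx : gal M τ • x = x) (f : FF M) :
    gal M τ • f ∈ modelAt M A x ↔ f ∈ modelAt M A x := by
  refine ⟨fun h => ?_, h36q_modelAt_smul hτ hx⟩
  have hx' : gal M τ⁻¹ • x = x := by
    have := congrArg (fun y => gal M τ⁻¹ • y) hx
    simp only [h36q_gal_inv_smul] at this
    exact this.symm
  have h1 := h36q_modelAt_smul (h36q_inv_mem hτ) hx' h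
  rwa [h36q_gal_inv_smul] at h1

theorem h36q_modelFin_iff {τ : GQ} (hτ : τ ∈ A.decompositionSubgroup ℚ) (f : FF M) :
    gal M τ • f ∈ modelFin M A ↔ f ∈ modelFin M A :=
  h36q_modelAt_iff hτ (gal_smul_jB τ) f

theorem h36q_modelInf_iff {τ : GQ} (hτ : τ ∈ A.decompositionSubgroup ℚ) (f : FF M) :
    gal M τ • f ∈ modelInf M A ↔ f ∈ modelInf M A :=
  h36q_modelAt_iff hτ (gal_smul_jB_inv τ) f

/-! ### Same reduction -/

theorem h36q_congAt_smul {τ : GQ} (hτ : τ ∈ A.decompositionSubgroup ℚ)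
    {v w : Place Kbar (FF M)} {f : FF M} (h : CongAt A v w f) :
    CongAt A (gal M τ • v) (gal M τ • w) (gal M τ • f) := by
  obtain ⟨a, b, ha, hb, hv, hw, hab⟩ := h
  refine ⟨τ a, τ b, h36q_apply_mem hτ ha, h36q_apply_mem hτ hb, valueAt_gal τ hv,
    valueAt_gal τ hw, ?_⟩
  rw [← map_sub]
  exact h36q_apply_nonunits hτ hab

theorem h36q_sameRed_smul {τ : GQ} (hτ : τ ∈ A.decompositionSubgroup ℚ)
    {v w : Place Kbar (FF M)} (h : SameRed A v w) :
    SameRed A (gal M τ • v) (gal M τ • w) := by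
  rcases h with ⟨hv, hw, hf⟩ | ⟨hv, hw, hf⟩
  · left
    refine ⟨h36q_isFinAt_smul hτ hv, h36q_isFinAt_smul hτ hw, fun f hfm => ?_⟩
    have h1 : gal M τ⁻¹ • f ∈ modelFin M A := by
      rw [← h36q_modelFin_iff hτ, h36q_gal_smul_inv]
      exact hfm
    have h2 := h36q_congAt_smul hτ (hf _ h1)
    rwa [h36q_gal_smul_inv] at h2
  · right
    refine ⟨fun h => hv ((h36q_isFinAt_iff hτ v).mp h),
      fun h => hw ((h36q_isFinAt_iff hτ w).mp h), fun f hfm => ?_⟩
    have h1 : gal M τ⁻¹ • f ∈ modelInf M A := by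
      rw [← h36q_modelInf_iff hτ, h36q_gal_smul_inv]
      exact hfm
    have h2 := h36q_congAt_smul hτ (hf _ h1)
    rwa [h36q_gal_smul_inv] at h2

theorem h36q_sameRed_iff {τ : GQ} (hτ : τ ∈ A.decompositionSubgroup ℚ)
    (v w : Place Kbar (FF M)) :
    SameRed A (gal M τ • v) (gal M τ • w) ↔ SameRed A v w := by
  refine ⟨fun h => ?_, h36q_sameRed_smul hτ⟩
  have h1 := h36q_sameRed_smul (h36q_inv_mem hτ) h
  rwa [h36q_gal_inv_smul_place, h36q_gal_inv_smul_place] at h1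

/-- `SameRed A (τ v) w ↔ SameRed A v (τ⁻¹ w)`. -/
theorem h36q_sameRed_smul_iff {τ : GQ} (hτ : τ ∈ A.decompositionSubgroup ℚ)
    (v w : Place Kbar (FF M)) :
    SameRed A v (gal M τ • w) ↔ SameRed A (gal M τ⁻¹ • v) w := by
  rw [← h36q_sameRed_iff hτ (gal M τ⁻¹ • v) w, h36q_gal_smul_inv_place]

/-! ### The kernel of reduction -/

theorem h36q_redKer_smul {τ : GQ} (hτ : τ ∈ A.decompositionSubgroup ℚ)
    {D : Divisor Kbar (FF M)} (hD : D ∈ redKer M A) : gal M τ • D ∈ redKer M A := by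
  unfold redKer at hD ⊢
  induction hD using AddSubgroup.closure_induction with
  | mem E hE =>
    obtain ⟨v, w, hvw, rfl⟩ := hE
    apply AddSubgroup.subset_closure
    refine ⟨gal M τ • v, gal M τ • w, h36q_sameRed_smul hτ hvw, ?_⟩
    rw [smul_sub, SemilinearAut.smul_single, SemilinearAut.smul_single]
  | zero => rw [smul_zero]; exact AddSubgroup.zero_mem _
  | add E E' _ _ hE hE' => rw [smul_add]; exact AddSubgroup.add_mem _ hE hE'
  | neg E _ hE => rw [smul_neg]; exact AddSubgroup.neg_mem _ hE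

/-- **the kernel of reduction is stable under the decomposition group.** -/
theorem h36q_redKerPic_smul {τ : GQ} (hτ : τ ∈ A.decompositionSubgroup ℚ)
    {x : JZero M} (hx : x ∈ redKerPic M A) : τ • x ∈ redKerPic M A := by
  obtain ⟨D, hD, rfl⟩ := hx
  refine ⟨SemilinearAut.degZeroSMulHom (gal M τ) D, ?_, ?_⟩
  · rw [SemilinearAut.coe_degZeroSMulHom]
    exact h36q_redKer_smul hτ hD
  · rfl

theorem h36q_redKerPic_iff {τ : GQ} (hτ : τ ∈ A.decompositionSubgroup ℚ) (x : JZero M) :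
    τ • x ∈ redKerPic M A ↔ x ∈ redKerPic M A := by
  refine ⟨fun h => ?_, h36q_redKerPic_smul hτ⟩
  have h1 := h36q_redKerPic_smul (h36q_inv_mem hτ) h
  rwa [inv_smul_smul] at h1

/-! ### Classes -/

theorem h36q_isCls_smul (τ : GQ) {x : JZero M} {P Q : Fin g → Place Kbar (FF M)}
    (h : h96m_IsCls x P Q) :
    h96m_IsCls (τ • x) (fun i => gal M τ • P i) (fun i => gal M τ • Q i) := by
  obtain ⟨D, hD, rfl⟩ := h
  refine ⟨SemilinearAut.degZeroSMulHom (gal M τ) D, ?_, rfl⟩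
  rw [SemilinearAut.coe_degZeroSMulHom, hD, Finset.smul_sum]
  refine Finset.sum_congr rfl fun i _ => ?_
  rw [smul_sub, SemilinearAut.smul_single, SemilinearAut.smul_single]

theorem h36q_isCls_iff (τ : GQ) (x : JZero M) (P Q : Fin g → Place Kbar (FF M)) :
    h96m_IsCls (τ • x) (fun i => gal M τ • P i) (fun i => gal M τ • Q i) ↔ h96m_IsCls x P Q := by
  refine ⟨fun h => ?_, h36q_isCls_smul τ⟩
  have h1 := h36q_isCls_smul τ⁻¹ h
  simp only [h36q_gal_inv_smul_place, inv_smul_smul] at h1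
  exact h1

/-! ### Transport of charts -/

/-- the ring endomorphism `f ↦ τ f` of `FF M`. -/
def h36qRing (M : ℕ) (τ : GQ) : FF M →+* FF M :=
  MulSemiringAction.toRingHom (SemilinearAut Kbar (FF M)) (FF M) (gal M τ)

@[simp]
theorem h36qRing_apply (τ : GQ) (f : FF M) : h36qRing M τ f = gal M τ • f := rfl

/-- the transported chart. -/
def h36qSmul (τ : GQ) (c : H96Chart M g) : H96Chart M g where
  Q i := gal M τ • c.Q i
  t i := gal M τ • c.t i
  O i := (c.O i).map (h36qRing M τ)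

@[simp]
theorem h36qSmul_Q (τ : GQ) (c : H96Chart M g) (i : Fin g) :
    (h36qSmul τ c).Q i = gal M τ • c.Q i := rfl

@[simp]
theorem h36qSmul_t (τ : GQ) (c : H96Chart M g) (i : Fin g) :
    (h36qSmul τ c).t i = gal M τ • c.t i := rfl

theorem h36q_smul_mem_O (τ : GQ) (c : H96Chart M g) (i : Fin g) {f : FF M} (hf : f ∈ c.O i) :
    gal M τ • f ∈ (h36qSmul τ c).O i :=
  ⟨f, hf, rfl⟩

theorem h36q_mem_O_iff (τ : GQ) (c : H96Chart M g) (i : Fin g) (f : FF M) :
    f ∈ (h36qSmul τ c).O i ↔ gal M τ⁻¹ • f ∈ c.O i := by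
  constructor
  · rintro ⟨f₀, hf₀, rfl⟩
    rw [h36qRing_apply, h36q_gal_inv_smul]
    exact hf₀
  · intro h
    refine ⟨gal M τ⁻¹ • f, h, ?_⟩
    rw [h36qRing_apply, h36q_gal_smul_inv]

theorem h36qSmul_mul (τ' τ : GQ) (c : H96Chart M g) :
    h36qSmul τ' (h36qSmul τ c) = h36qSmul (τ' * τ) c := by
  have e : gal M (τ' * τ) = gal M τ' * gal M τ := map_mul _ _ _
  have hQ : (fun i => gal M τ' • (gal M τ • c.Q i)) = fun i => gal M (τ' * τ) • c.Q i := by
    funext i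
    rw [e, mul_smul]
  have ht : (fun i => gal M τ' • (gal M τ • c.t i)) = fun i => gal M (τ' * τ) • c.t i := by
    funext i
    rw [e, mul_smul]
  have hO : (fun i => ((c.O i).map (h36qRing M τ)).map (h36qRing M τ'))
      = fun i => (c.O i).map (h36qRing M (τ' * τ)) := by
    funext i
    have h1 : (h36qRing M τ').comp (h36qRing M τ) = h36qRing M (τ' * τ) := by
      refine RingHom.ext fun f => ?_
      show gal M τ' • (gal M τ • f) = gal M (τ' * τ) • f
      rw [e, mul_smul]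
    rw [Subring.map_map, h1]
  show H96Chart.mk (fun i => gal M τ' • (gal M τ • c.Q i))
      (fun i => gal M τ' • (gal M τ • c.t i))
      (fun i => ((c.O i).map (h36qRing M τ)).map (h36qRing M τ')) = H96Chart.mk _ _ _
  rw [hQ, ht, hO]

theorem h36qSmul_one (c : H96Chart M g) : h36qSmul 1 c = c := by
  have e : gal M 1 = 1 := map_one _
  have hQ : (fun i => gal M 1 • c.Q i) = c.Q := by
    funext i
    rw [e, one_smul]
  have ht : (fun i => gal M 1 • c.t i) = c.t := by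
    funext i
    rw [e, one_smul]
  have hO : (fun i => (c.O i).map (h36qRing M 1)) = c.O := by
    funext i
    have h1 : h36qRing M 1 = RingHom.id (FF M) := by
      refine RingHom.ext fun f => ?_
      show gal M 1 • f = f
      rw [e, one_smul]
    rw [h1, Subring.map_id]
  show H96Chart.mk (fun i => gal M 1 • c.Q i) (fun i => gal M 1 • c.t i)
      (fun i => (c.O i).map (h36qRing M 1)) = c
  rw [hQ, ht, hO]

theorem h36qSmul_inv_smul (τ : GQ) (c : H96Chart M g) : h36qSmul τ⁻¹ (h36qSmul τ c) = c := by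
  rw [h36qSmul_mul, inv_mul_cancel, h36qSmul_one]

theorem h36qSmul_smul_inv (τ : GQ) (c : H96Chart M g) : h36qSmul τ (h36qSmul τ⁻¹ c) = c := by
  rw [h36qSmul_mul, mul_inv_cancel, h36qSmul_one]

/-- **equivariance of the coordinates** (this is the stability clause of `H96GeoInputs`). -/
theorem h36q_isCoord_smul {τ : GQ} (hτ : τ ∈ A.decompositionSubgroup ℚ) (c : H96Chart M g)
    {x : JZero M} {i : Fin g} {a : Kbar} (h : c.IsCoord A x i a) :
    (h36qSmul τ c).IsCoord A (τ • x) i (τ a) := by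
  obtain ⟨P, hP, hcls, hval⟩ := h
  exact ⟨fun i => gal M τ • P i, fun i => h36q_sameRed_smul hτ (hP i), h36q_isCls_smul τ hcls,
    valueAt_gal τ hval⟩

theorem h36q_isCoord_inv {τ : GQ} (hτ : τ ∈ A.decompositionSubgroup ℚ) (c : H96Chart M g)
    {x : JZero M} {i : Fin g} {a : Kbar} (h : (h36qSmul τ c).IsCoord A x i a) :
    c.IsCoord A (τ⁻¹ • x) i (τ⁻¹ a) := by
  have h1 := h36q_isCoord_smul (h36q_inv_mem hτ) (h36qSmul τ c) h
  rwa [h36qSmul_inv_smul] at h1

/-- values at `τ⁻¹ P`. -/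
theorem h36q_valueAt_inv (τ : GQ) {P : Place Kbar (FF M)} {f : FF M} {a : Kbar}
    (h : ValueAt P (gal M τ • f) a) : ValueAt (gal M τ⁻¹ • P) f (τ⁻¹ a) := by
  have h1 := valueAt_gal τ⁻¹ h
  rwa [h36q_gal_inv_smul] at h1

/-- values at `τ P₀` seen from `P = τ P₀`. -/
theorem h36q_valueAt_of_inv (τ : GQ) {P : Place Kbar (FF M)} {f : FF M} {a : Kbar}
    (h : ValueAt (gal M τ⁻¹ • P) f a) : ValueAt P (gal M τ • f) (τ a) := by
  have h1 := valueAt_gal τ h
  rwa [h36q_gal_smul_inv_place] at h1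

theorem h36q_smul_inv_eq {P P' : Place Kbar (FF M)} (τ : GQ)
    (h : gal M τ⁻¹ • P = gal M τ⁻¹ • P') : P = P' := by
  have := congrArg (fun v => gal M τ • v) h
  simpa only [h36q_gal_smul_inv_place] using this

/-- **transport of validity.** -/
theorem h36q_valid_smul {τ : GQ} (hτ : τ ∈ A.decompositionSubgroup ℚ) {c : H96Chart M g}
    (hc : c.Valid A) : (h36qSmul τ c).Valid A where
  t_zero i := by
    have h := valueAt_gal τ (hc.t_zero i)
    rwa [map_zero] at h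
  t_small i P hP := by
    have hP' : SameRed A (gal M τ⁻¹ • P) (c.Q i) := (h36q_sameRed_smul_iff hτ P (c.Q i)).mp hP
    obtain ⟨a, ha, hv⟩ := hc.t_small i _ hP'
    exact ⟨τ a, h36q_apply_nonunits hτ ha, h36q_valueAt_of_inv τ hv⟩
  t_inj i P P' a hP hP' hv hv' := by
    have h1 : SameRed A (gal M τ⁻¹ • P) (c.Q i) := (h36q_sameRed_smul_iff hτ P (c.Q i)).mp hP
    have h2 : SameRed A (gal M τ⁻¹ • P') (c.Q i) := (h36q_sameRed_smul_iff hτ P' (c.Q i)).mp hP'
    exact h36q_smul_inv_eq τ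
      (hc.t_inj i _ _ (τ⁻¹ a) h1 h2 (h36q_valueAt_inv τ hv) (h36q_valueAt_inv τ hv'))
  refl i := h36q_sameRed_smul hτ (hc.refl i)
  O_cst i a ha := by
    rw [h36q_mem_O_iff, gal_smul_cst]
    exact hc.O_cst i _ (h36q_apply_mem (h36q_inv_mem hτ) ha)
  O_t i := h36q_smul_mem_O τ c i (hc.O_t i)
  O_val i f hf P hP := by
    have hP' : SameRed A (gal M τ⁻¹ • P) (c.Q i) := (h36q_sameRed_smul_iff hτ P (c.Q i)).mp hP
    obtain ⟨a, ha, hv⟩ := hc.O_val i _ ((h36q_mem_O_iff τ c i f).mp hf) _ hP'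
    refine ⟨τ a, h36q_apply_mem hτ ha, ?_⟩
    have h1 := h36q_valueAt_of_inv τ hv
    rwa [h36q_gal_smul_inv] at h1
  O_div i f hf P hP a a' hv hv' := by
    have hP' : SameRed A (gal M τ⁻¹ • P) (c.Q i) := (h36q_sameRed_smul_iff hτ P (c.Q i)).mp hP
    have hf₀ := (h36q_mem_O_iff τ c i f).mp hf
    have hv₀ : ValueAt (gal M τ⁻¹ • P) (gal M τ⁻¹ • f) (τ⁻¹ a) := valueAt_gal τ⁻¹ hv
    have hv₀' : ValueAt (gal M τ⁻¹ • P) (c.t i) (τ⁻¹ a') := h36q_valueAt_inv τ hv'
    obtain ⟨h, hh, he⟩ := hc.O_div i _ hf₀ _ hP' _ _ hv₀ hv₀'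
    refine ⟨gal M τ • h, h36q_smul_mem_O τ c i hh, ?_⟩
    have h1 := congrArg (fun y => gal M τ • y) he
    simp only [smul_sub, smul_mul', gal_smul_cst, h36q_gal_smul_inv, h36q_apply_inv] at h1
    exact h1
  rep x hx := by
    have hx' : τ⁻¹ • x ∈ redKerPic M A := h36q_redKerPic_smul (h36q_inv_mem hτ) hx
    obtain ⟨P, hP, hcls⟩ := hc.rep _ hx'
    refine ⟨fun i => gal M τ • P i, fun i => h36q_sameRed_smul hτ (hP i), ?_⟩
    have h1 := h36q_isCls_smul τ hcls
    rwa [smul_inv_smul] at h1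
  rep_unique x P P' hP hP' hcls hcls' := by
    have h1 : ∀ i, SameRed A (gal M τ⁻¹ • P i) (c.Q i) :=
      fun i => (h36q_sameRed_smul_iff hτ (P i) (c.Q i)).mp (hP i)
    have h2 : ∀ i, SameRed A (gal M τ⁻¹ • P' i) (c.Q i) :=
      fun i => (h36q_sameRed_smul_iff hτ (P' i) (c.Q i)).mp (hP' i)
    have h3 : h96m_IsCls (τ⁻¹ • x) (fun i => gal M τ⁻¹ • P i) c.Q := by
      have := h36q_isCls_smul τ⁻¹ hcls
      simpa only [h36qSmul_Q, h36q_gal_inv_smul_place] using this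
    have h4 : h96m_IsCls (τ⁻¹ • x) (fun i => gal M τ⁻¹ • P' i) c.Q := by
      have := h36q_isCls_smul τ⁻¹ hcls'
      simpa only [h36qSmul_Q, h36q_gal_inv_smul_place] using this
    have h5 := hc.rep_unique _ _ _ h1 h2 h3 h4
    funext i
    exact h36q_smul_inv_eq τ (congrFun h5 i)
  inert σ hσ x i a h := by
    have h1 := h36q_isCoord_inv hτ c h
    have hσ' : τ⁻¹ * σ * τ ∈ A.inertiaSubgroupIn ℚ := by
      have := h36q_conj_mem (h36q_inv_mem hτ) hσ
      rwa [inv_inv] at this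
    have h2 := hc.inert _ hσ' _ _ _ h1
    have h3 := h36q_isCoord_smul hτ c h2
    have e1 : τ • (τ⁻¹ * σ * τ) • τ⁻¹ • x = σ • x := by
      rw [← mul_smul, ← mul_smul]
      congr 1
      group
    have e2 : τ ((τ⁻¹ * σ * τ) (τ⁻¹ a)) = σ a := by
      show τ (τ⁻¹ (σ (τ (τ⁻¹ a)))) = σ a
      rw [h36q_apply_inv, h36q_apply_inv]
    rwa [e1, e2] at h3

/-! ### Transport of links -/

/-- Galois and the linear combinations of the link. -/
theorem h36q_comb_smul (τ : GQ) (bs : FF M) (b : Fin g ⊕ Fin g → FF M)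
    (co : Fin g ⊕ Fin g → Kbar) :
    gal M τ • (bs + ∑ j, cst M (co j) * b j)
      = gal M τ • bs + ∑ j, cst M (τ (co j)) * (gal M τ • b j) := by
  rw [smul_add, Finset.smul_sum]
  congr 1
  refine Finset.sum_congr rfl fun j _ => ?_
  rw [smul_mul', gal_smul_cst]

/-- the combination with coefficients `co` is the transport of the combination with
coefficients `τ⁻¹ co`. -/
theorem h36q_comb_eq (τ : GQ) (bs : FF M) (b : Fin g ⊕ Fin g → FF M)
    (co : Fin g ⊕ Fin g → Kbar) :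
    gal M τ • bs + ∑ j, cst M (co j) * (gal M τ • b j)
      = gal M τ • (bs + ∑ j, cst M (τ⁻¹ (co j)) * b j) := by
  rw [h36q_comb_smul]
  have e : ∀ j, τ (τ⁻¹ (co j)) = co j := fun j => h36q_apply_inv τ (co j)
  simp only [e]

theorem h36q_comb_inv (τ : GQ) (bs : FF M) (b : Fin g ⊕ Fin g → FF M)
    (co : Fin g ⊕ Fin g → Kbar) :
    gal M τ⁻¹ • (gal M τ • bs + ∑ j, cst M (co j) * (gal M τ • b j))
      = bs + ∑ j, cst M (τ⁻¹ (co j)) * b j := by
  rw [h36q_comb_eq, h36q_gal_inv_smul]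

/-- **transport of links.** -/
def h36qLink {τ : GQ} (hτ : τ ∈ A.decompositionSubgroup ℚ) {c c' : H96Chart M g}
    (L : H96Link A c c') : H96Link A (h36qSmul τ c) (h36qSmul τ c') where
  b j := gal M τ • L.b j
  bs := gal M τ • L.bs
  b_mem j i := ⟨h36q_smul_mem_O τ c i (L.b_mem j i).1, h36q_smul_mem_O τ c' i (L.b_mem j i).2⟩
  bs_mem i := ⟨h36q_smul_mem_O τ c i (L.bs_mem i).1, h36q_smul_mem_O τ c' i (L.bs_mem i).2⟩
  N0 := L.N0.map (τ : Kbar → Kbar)
  N0_val i j := valueAt_gal τ (L.N0_val i j)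
  N0_der i j := by
    obtain ⟨h, hh, he, hv⟩ := L.N0_der i j
    refine ⟨gal M τ • h, h36q_smul_mem_O τ c i hh, ?_, valueAt_gal τ hv⟩
    have h1 := congrArg (fun y => gal M τ • y) he
    simp only [smul_sub, smul_mul', gal_smul_cst] at h1
    exact h1
  N0_unit := by
    have hdet : (L.N0.map (τ : Kbar → Kbar)).det = τ L.N0.det := by
      have := RingHom.map_det (τ : Kbar →+* Kbar) L.N0
      exact this.symm
    obtain ⟨h0, hinv⟩ := L.N0_unit
    rw [hdet]
    refine ⟨fun h => h0 ((map_eq_zero τ).mp h), ?_⟩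
    rw [← map_inv₀]
    exact h36q_apply_mem hτ hinv
  step P P' hP hP' co hco := by
    have h1 : ∀ i, SameRed A (gal M τ⁻¹ • P i) (c.Q i) :=
      fun i => (h36q_sameRed_smul_iff hτ (P i) (c.Q i)).mp (hP i)
    have h2 : ∀ i, SameRed A (gal M τ⁻¹ • P' i) (c.Q i) :=
      fun i => (h36q_sameRed_smul_iff hτ (P' i) (c.Q i)).mp (hP' i)
    have h3 : ∀ i, ∃ h ∈ c.O i, ∃ a a', ValueAt (gal M τ⁻¹ • P i) (c.t i) a ∧
        ValueAt (gal M τ⁻¹ • P' i) (c.t i) a' ∧
        L.bs + ∑ j, cst M (τ⁻¹ (co j)) * L.b j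
          = (c.t i - cst M a) * (c.t i - cst M a') * h := by
      intro i
      obtain ⟨h, hh, a, a', hv, hv', he⟩ := hco i
      refine ⟨gal M τ⁻¹ • h, (h36q_mem_O_iff τ c i h).mp hh, τ⁻¹ a, τ⁻¹ a',
        h36q_valueAt_inv τ hv, h36q_valueAt_inv τ hv', ?_⟩
      have h4 := congrArg (fun y => gal M τ⁻¹ • y) he
      simp only [h36qSmul_t] at h4
      rw [h36q_comb_inv] at h4
      rw [h4]
      simp only [smul_sub, smul_mul', gal_smul_cst, h36q_gal_inv_smul]
    obtain ⟨E, hE, hEv, hEcls⟩ := L.step _ _ h1 h2 _ h3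
    refine ⟨fun i => gal M τ • E i, fun i => h36q_sameRed_smul hτ (hE i), fun i => ?_,
      fun x y hx hy => ?_⟩
    · have h5 := valueAt_gal τ (hEv i)
      rw [map_zero, ← h36q_comb_eq] at h5
      exact h5
    · have hx' : h96m_IsCls (τ⁻¹ • x) (fun i => gal M τ⁻¹ • P i) c.Q := by
        have := h36q_isCls_smul τ⁻¹ hx
        simpa only [h36qSmul_Q, h36q_gal_inv_smul_place] using this
      have hy' : h96m_IsCls (τ⁻¹ • y) (fun i => gal M τ⁻¹ • P' i) c.Q := by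
        have := h36q_isCls_smul τ⁻¹ hy
        simpa only [h36qSmul_Q, h36q_gal_inv_smul_place] using this
      have h6 := h36q_isCls_smul τ (hEcls _ _ hx' hy')
      have e1 : τ • -(τ⁻¹ • x + τ⁻¹ • y) = -(x + y) := by
        rw [smul_neg, smul_add, smul_inv_smul, smul_inv_smul]
      rw [e1] at h6
      exact h6
  der_unit co hco := by
    have h3 : ∀ i, ∃ h ∈ c.O i,
        L.bs + ∑ j, cst M (τ⁻¹ (co j)) * L.b j = c.t i * c.t i * h := by
      intro i
      obtain ⟨h, hh, he⟩ := hco i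
      refine ⟨gal M τ⁻¹ • h, (h36q_mem_O_iff τ c i h).mp hh, ?_⟩
      have h4 := congrArg (fun y => gal M τ⁻¹ • y) he
      simp only [h36qSmul_t] at h4
      rw [h36q_comb_inv] at h4
      rw [h4]
      simp only [smul_mul', h36q_gal_inv_smul]
    intro i
    obtain ⟨h, hh, d, he, hv, hd0, hdA⟩ := L.der_unit _ h3 i
    refine ⟨gal M τ • h, h36q_smul_mem_O τ c' i hh, τ d, ?_, valueAt_gal τ hv,
      fun h => hd0 ((map_eq_zero τ).mp h), ?_⟩
    · rw [h36q_comb_eq, he, smul_mul']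
      rfl
    · rw [← map_inv₀]
      exact h36q_apply_mem hτ hdA

/-! ### The orbit of a seed -/

/-- the orbit of a family of charts under the decomposition group. -/
def h36qOrbit (A : ValuationSubring Kbar) (𝒮 : Set (H96Chart M g)) : Set (H96Chart M g) :=
  {c | ∃ τ ∈ A.decompositionSubgroup ℚ, ∃ c₀ ∈ 𝒮, c = h36qSmul τ c₀}

theorem h36q_subset_orbit (𝒮 : Set (H96Chart M g)) : 𝒮 ⊆ h36qOrbit A 𝒮 := fun c hc =>
  ⟨1, (A.decompositionSubgroup ℚ).one_mem, c, hc, (h36qSmul_one c).symm⟩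

/-- **assembly**: the orbit of a seed satisfies the four chart conjuncts of `H96GeoInputs`. -/
theorem h36q_orbit (𝒮 : Set (H96Chart M g)) (hne : ∃ c, c ∈ 𝒮)
    (hval : ∀ c ∈ 𝒮, c.Valid A)
    (hlink : ∀ c' ∈ 𝒮, ∃ c ∈ 𝒮, Nonempty (H96Link A c c')) :
    (∃ c, c ∈ h36qOrbit A 𝒮) ∧
    (∀ c ∈ h36qOrbit A 𝒮, c.Valid A) ∧
    (∀ c' ∈ h36qOrbit A 𝒮, ∃ c ∈ h36qOrbit A 𝒮, Nonempty (H96Link A c c')) ∧
    (∀ τ ∈ A.decompositionSubgroup ℚ, ∀ c ∈ h36qOrbit A 𝒮, ∃ cτ ∈ h36qOrbit A 𝒮,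
        ∀ (x : JZero M) (i : Fin g) (a : Kbar),
          c.IsCoord A x i a → cτ.IsCoord A (τ • x) i (τ a)) := by
  refine ⟨?_, ?_, ?_, ?_⟩
  · obtain ⟨c, hc⟩ := hne
    exact ⟨c, h36q_subset_orbit 𝒮 hc⟩
  · rintro c ⟨τ, hτ, c₀, hc₀, rfl⟩
    exact h36q_valid_smul hτ (hval c₀ hc₀)
  · rintro c' ⟨τ, hτ, c₀', hc₀', rfl⟩
    obtain ⟨c₀, hc₀, ⟨L⟩⟩ := hlink c₀' hc₀'
    exact ⟨h36qSmul τ c₀, ⟨τ, hτ, c₀, hc₀, rfl⟩, ⟨h36qLink hτ L⟩⟩
  · rintro τ hτ c ⟨τ₀, hτ₀, c₀, hc₀, rfl⟩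
    refine ⟨h36qSmul τ (h36qSmul τ₀ c₀), ⟨τ * τ₀, (A.decompositionSubgroup ℚ).mul_mem hτ hτ₀,
      c₀, hc₀, h36qSmul_mul τ τ₀ c₀⟩, fun x i a h => h36q_isCoord_smul hτ _ h⟩

/-- **`H96GeoInputs` from a seed**: a nonempty family of valid charts, each the target of a
link from the family, together with the unramified lifts and the triviality of inertia modulo
the kernel of reduction (the stability of the kernel of reduction under the decomposition group
is `h36q_redKerPic_smul`). -/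
theorem h36q_geoInputs_of_seed (𝒮 : Set (H96Chart M g)) (hne : ∃ c, c ∈ 𝒮)
    (hval : ∀ c ∈ 𝒮, c.Valid A)
    (hlink : ∀ c' ∈ 𝒮, ∃ c ∈ 𝒮, Nonempty (H96Link A c c'))
    (hlift : ∀ y : JZero M, ∃ c₀ : JZero M, (∀ σ ∈ A.inertiaSubgroupIn ℚ, σ • c₀ = c₀) ∧
      y - c₀ ∈ redKerPic M A)
    (hin : ∀ σ ∈ A.inertiaSubgroupIn ℚ, ∀ x : JZero M, σ • x - x ∈ redKerPic M A) :
    H96GeoInputs M A := by
  obtain ⟨h1, h2, h3, h4⟩ := h36q_orbit (A := A) 𝒮 hne hval hlink
  exact ⟨g, h36qOrbit A 𝒮, h1, h2, h3, h4, hlift, hin,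
    fun τ hτ x hx => h36q_redKerPic_smul hτ hx⟩

end Fermat.Agent.P5
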