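import Fermat.Agent.P5.H37DiscIface
import Fermat.Agent.P5.H36ChartGal

/-!
# P5 (wave 5, S19), block GEO-DISC: the field `inert` of `H96Chart.Valid` (helper37)

A chart whose centres and parameters are fixed by the inertia group has inertia-equivariant
coordinates (`h37j_inert_of_fixed`); hence a chart all of whose centres carry a disc calculus
`H37DiscAt` is valid as soon as it has the chart property `rep`, `rep_unique`
(`h37j_valid_of_disc`).  This removes the hypothesis `hinert` of `h37i_valid_of_disc`.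
-/

set_option autoImplicit false

open AlgebraicCurve ModularCurve

noncomputable section

namespace Fermat.Agent.P5

open Fermat.Agent.S37

/-- the inertia group lies in the decomposition group. -/
theorem h37j_inertia_le_decomp {A : ValuationSubring Kbar} {σ : GQ}
    (hσ : σ ∈ A.inertiaSubgroupIn ℚ) : σ ∈ A.decompositionSubgroup ℚ := by
  obtain ⟨τ, -, rfl⟩ := hσ
  exact τ.2

/-- **`inert`**: inertia-fixed centres and parameters give inertia-equivariant coordinates. -/
theorem h37j_inert_of_fixed {M : ℕ} [NeZero M] {g : ℕ} (A : ValuationSubring Kbar)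
    (c : H96Chart M g)
    (hQ : ∀ i, ∀ σ ∈ A.inertiaSubgroupIn ℚ, gal M σ • c.Q i = c.Q i)
    (ht : ∀ i, ∀ σ ∈ A.inertiaSubgroupIn ℚ, gal M σ • c.t i = c.t i) :
    ∀ σ ∈ A.inertiaSubgroupIn ℚ, ∀ (x : JZero M) (i : Fin g) (a : Kbar),
      c.IsCoord A x i a → c.IsCoord A (σ • x) i (σ a) := by
  intro σ hσ x i a h
  obtain ⟨P, hP, hcls, hval⟩ := h36q_isCoord_smul (h37j_inertia_le_decomp hσ) c h
  have hQ' : (h36qSmul σ c).Q = c.Q := funext fun k => hQ k σ hσ
  have ht' : (h36qSmul σ c).t i = c.t i := ht i σ hσ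
  refine ⟨P, fun k => ?_, ?_, ?_⟩
  · have := hP k
    rwa [hQ'] at this
  · rwa [hQ'] at hcls
  · rwa [ht'] at hval

/-- a chart all of whose centres carry a disc calculus is valid as soon as it has the chart
property. -/
theorem h37j_valid_of_disc {M : ℕ} [NeZero M] {g : ℕ} (A : ValuationSubring Kbar)
    (c : H96Chart M g) (hd : ∀ i, H37DiscAt A (c.Q i) (c.t i) (c.O i))
    (hrep : ∀ x ∈ redKerPic M A, ∃ P : Fin g → Place Kbar (FF M),
      (∀ i, SameRed A (P i) (c.Q i)) ∧ h96m_IsCls x P c.Q)
    (hrep_unique : ∀ (x : JZero M) (P P' : Fin g → Place Kbar (FF M)),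
      (∀ i, SameRed A (P i) (c.Q i)) → (∀ i, SameRed A (P' i) (c.Q i)) →
      h96m_IsCls x P c.Q → h96m_IsCls x P' c.Q → P = P') : c.Valid A :=
  h37i_valid_of_disc A c hd hrep hrep_unique
    (h37j_inert_of_fixed A c (fun i => (hd i).Q_fixed) (fun i => (hd i).t_fixed))

end Fermat.Agent.P5
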