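import Fermat.Agent.P5.H13RRIface
import Fermat.Agent.Jac.KummerFF
import Fermat.Agent.S37.Defs

/-!
# Wave 5, pillar (P), block GEO-RR (helper40): the generic fibre instantiates the interface

Interface: `P5/H13RRIface.lean` (helper13).  `K` algebraically closed of characteristic zero,
`x : F` transcendental, `F` finite over `K(x)`.

* `h40r_zeros`      : `H13rZeros K F x` (from the landed fundamental identity `fi_general`).
* `h40r_base`       : `H13rBase K F` (places of degree one, principal divisors of degree `0`,
  only constants are regular everywhere, infinitely many places).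
* `h40r_zeros_FF`, `h40r_base_FF`, `h40r_transcendental_FF`, `h40r_finite_FF` : the same for
  `F = FF N`, `x = j`.
* `h40r_riemann_FF` : `H13rRiemann → ∃ g, H13rIsGenus ℚ̄ (FF N) g`.
-/

set_option autoImplicit false
set_option linter.style.haveILetI false

noncomputable section

namespace Fermat.Agent.P5

open AlgebraicCurve IntermediateField Fermat.Agent.S24 Fermat.Agent.Jac.K1

section General

variable {K F : Type*} [Field K] [Field F] [Algebra K F] [IsAlgClosed K] [CharZero K]

/-- the fundamental identity in the shape of the interface. -/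
theorem h40r_zeros (x : F) (hx : Transcendental K x) [FiniteDimensional K⟮x⟯ F] :
    H13rZeros K F x := by
  obtain ⟨hz, s, hs, hsum⟩ := fi_general (K := K) (F := F) x hx
  rintro y (⟨c, rfl⟩ | rfl)
  · exact hz c
  · refine ⟨s, fun v => ?_, ?_⟩
    · rw [hs v, Place.ord_inv]
      omega
    · rw [← hsum]
      exact Finset.sum_congr rfl fun v _ => Place.ord_inv v x

/-- a function which is regular everywhere is constant. -/
theorem h40r_const (x : F) [FiniteDimensional K⟮x⟯ F] (f : F)
    (hf : ∀ v : Place K F, 0 ≤ v.ord f) : f ∈ Set.range (algebraMap K F) := by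
  rcases eq_or_ne f 0 with rfl | hf0
  · exact ⟨0, map_zero _⟩
  have hdeg : ∀ v : Place K F, v.deg = 1 := fun v =>
    DiffPlace.place_deg_eq_one x (Algebra.IsAlgebraic.of_finite _ _) v
  obtain ⟨D, hD, hD0⟩ := (hasPrincipalDivisors_of_finite (K := K) x).exists_divisor f hf0
  rw [DiffPlace.degree_eq_sum hdeg D] at hD0
  have hnn : ∀ v ∈ D.support, 0 ≤ D v := fun v _ => by rw [hD v]; exact hf v
  have hzero : ∀ v ∈ D.support, D v = 0 :=
    (Finset.sum_eq_zero_iff_of_nonneg hnn).mp hD0
  have hord : ∀ v : Place K F, v.ord f = 0 := by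
    intro v
    by_cases hv : v ∈ D.support
    · rw [← hD v]
      exact hzero v hv
    · rw [← hD v]
      exact Finsupp.notMem_support_iff.mp hv
  obtain ⟨c, hc⟩ := constantsOnly_of_finite (K := K) x f hf0 hord
  exact ⟨c, hc⟩

/-- there are infinitely many places. -/
theorem h40r_infinite (x : F) (hx : Transcendental K x) [FiniteDimensional K⟮x⟯ F] :
    Infinite (Place K F) := by
  obtain ⟨hz, -⟩ := fi_general (K := K) (F := F) x hx
  have hex : ∀ c : K, ∃ v : Place K F, 0 < v.ord (x - algebraMap K F c) := by
    intro c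
    obtain ⟨s, hs, hsum⟩ := hz c
    have hne : s.Nonempty := by
      by_contra h
      rw [Finset.not_nonempty_iff_eq_empty] at h
      rw [h, Finset.sum_empty] at hsum
      have hpos : 0 < Module.finrank K⟮x⟯ F := Module.finrank_pos
      omega
    obtain ⟨v, hv⟩ := hne
    exact ⟨v, (hs v).mp hv⟩
  choose φ hφ using hex
  haveI : Infinite K := IsAlgClosed.instInfinite
  refine Infinite.of_injective φ ?_
  intro c c' h
  by_contra hne
  have h1 : 0 < (φ c).ord (x - algebraMap K F c) := hφ c
  have h2 : 0 < (φ c).ord (x - algebraMap K F c') := by rw [h]; exact hφ c'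
  have h3 : (x - algebraMap K F c') - (x - algebraMap K F c) = algebraMap K F (c - c') := by
    rw [map_sub]; ring
  have hm1 := DiffPlace.mem_maximalIdeal_of_ord_pos (φ c)
    (z := ⟨_, DiffPlace.mem_of_ord_nonneg (φ c) h1.le⟩) h1
  have hm2 := DiffPlace.mem_maximalIdeal_of_ord_pos (φ c)
    (z := ⟨_, DiffPlace.mem_of_ord_nonneg (φ c) h2.le⟩) h2
  have hm3 := (IsLocalRing.maximalIdeal (φ c).toValuationSubring).sub_mem hm2 hm1
  have hu : IsUnit (algebraMap K (φ c).toValuationSubring (c - c')) :=
    (IsUnit.mk0 (c - c') (sub_ne_zero.mpr hne)).map _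
  have hm4 : algebraMap K (φ c).toValuationSubring (c - c') ∈
      IsLocalRing.maximalIdeal (φ c).toValuationSubring := by
    have h5 : algebraMap K (φ c).toValuationSubring (c - c') =
        (⟨_, DiffPlace.mem_of_ord_nonneg (φ c) h2.le⟩ : (φ c).toValuationSubring) -
          ⟨_, DiffPlace.mem_of_ord_nonneg (φ c) h1.le⟩ := by
      apply Subtype.ext
      rw [(φ c).coe_algebraMap]
      exact h3.symm
    rw [h5]
    exact hm3
  exact (IsLocalRing.mem_maximalIdeal _).mp hm4 hu

/-- the basic facts. -/
theorem h40r_base (x : F) (hx : Transcendental K x) [FiniteDimensional K⟮x⟯ F] :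
    H13rBase K F where
  deg_one v := DiffPlace.place_deg_eq_one x (Algebra.IsAlgebraic.of_finite _ _) v
  pd f hf := (hasPrincipalDivisors_of_finite (K := K) x).exists_divisor f hf
  const f hf := h40r_const x f hf
  inj := (algebraMap K F).injective
  infinite := h40r_infinite x hx

end General

section Modular

variable (N : ℕ) [NeZero N]

theorem h40r_transcendental_FF :
    Transcendental Fermat.Agent.S37.Kbar (Fermat.Agent.S37.jB N) := transcendental_jBar N

theorem h40r_finite_FF :
    FiniteDimensional (Fermat.Agent.S37.Kbar)⟮Fermat.Agent.S37.jB N⟯ (Fermat.Agent.S37.FF N) :=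
  finiteDimensional_FF N

theorem h40r_zeros_FF :
    H13rZeros Fermat.Agent.S37.Kbar (Fermat.Agent.S37.FF N) (Fermat.Agent.S37.jB N) :=
  haveI := finiteDimensional_FF N
  h40r_zeros (jBar N) (transcendental_jBar N)

theorem h40r_base_FF : H13rBase Fermat.Agent.S37.Kbar (Fermat.Agent.S37.FF N) :=
  haveI := finiteDimensional_FF N
  h40r_base (jBar N) (transcendental_jBar N)

/-- Riemann's theorem for `FF N`, from the frozen leaf. -/
theorem h40r_riemann_FF
    (h : H13rRiemann Fermat.Agent.S37.Kbar (Fermat.Agent.S37.FF N)) :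
    ∃ g : ℕ, H13rIsGenus Fermat.Agent.S37.Kbar (Fermat.Agent.S37.FF N) g :=
  h (h40r_base_FF N) (Fermat.Agent.S37.jB N) (h40r_transcendental_FF N) (h40r_finite_FF N)
    (h40r_zeros_FF N)

end Modular

end Fermat.Agent.P5
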