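import Fermat.Agent.S37.Defs
import Fermat.Prelude.Def_FLTPrelim_Ramification

/-!
# P5 (wave 5, S19): block GEO-LAW, frozen interface (sub-architect helper96)

`M` a level, `A` a valuation subring of `ℚ̄` over `ℓ ∤ M`, `J¹ = redKerPic M A` the kernel of
reduction (P-RED), `I`, `D` the inertia and decomposition groups of `A`.

* `H96Chart M g` : `g` places `Q i` with functions `t i` (local parameters) and rings `O i`
  of "integral regular functions on the residue disc of `Q i`".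
* `H96Chart.Valid A c` : the disc calculus (values of `t` in the maximal ideal, injectivity,
  integral values and the DIVISION property of `O i`), the chart property
  (`rep`, `rep_unique`: every class of `J¹` is `[∑ (P i - Q i)]` for unique `P i` in the discs),
  and `I`-equivariance of the coordinates.
* `H96Link A c c'` : the linear-algebra package computing `-(x + y)` in the chart `c'` from
  `x, y` in the chart `c`: `2g + 1` functions `bs, b j` (a basis of `L(E₀)`, `E₀ ∼ 2 D₀ + D₁`),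
  unit jet determinant at `D₀`, the STEP property (a combination vanishing on `D_x + D_y` has its
  other zeros `E i` in the discs of `c'` and `[∑ (E i - Q' i)] = -(x + y)`), and unit
  derivative at `D₁`.
* `H96GeoInputs M A` : what GEO-DISC + GEO-RR deliver.
* `H96LocOrder A act G` : the local order, input of ALG-DESC.
* `H96LawStatement` : TARGET of GEO-LAW.
-/

set_option autoImplicit false

open AlgebraicCurve ModularCurve

noncomputable section

namespace Fermat.Agent.P5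

open Fermat.Agent.S37

/-- `x` is the class of `∑ (P i - Q i)`. -/
def h96m_IsCls {M : ℕ} [NeZero M] {g : ℕ} (x : JZero M) (P Q : Fin g → Place Kbar (FF M)) :
    Prop :=
  ∃ D : Divisor.degZero (K := Kbar) (F := FF M),
    (D : Divisor Kbar (FF M)) =
      ∑ i, (Finsupp.single (P i) (1 : ℤ) - Finsupp.single (Q i) (1 : ℤ)) ∧
    x = Pic0.mk D

/-- A chart: centres, parameters, rings of good functions. -/
structure H96Chart (M : ℕ) [NeZero M] (g : ℕ) where
  /-- the centres -/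
  Q : Fin g → Place Kbar (FF M)
  /-- the parameters -/
  t : Fin g → FF M
  /-- integral regular functions on the residue disc of `Q i` -/
  O : Fin g → Subring (FF M)

variable {M : ℕ} [NeZero M] {g : ℕ}

/-- `a` is the `i`-th coordinate of `x` in the chart `c`. -/
def H96Chart.IsCoord (A : ValuationSubring Kbar) (c : H96Chart M g) (x : JZero M) (i : Fin g)
    (a : Kbar) : Prop :=
  ∃ P : Fin g → Place Kbar (FF M), (∀ i, SameRed A (P i) (c.Q i)) ∧ h96m_IsCls x P c.Q ∧
    ValueAt (P i) (c.t i) a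

/-- A valid chart. -/
structure H96Chart.Valid (A : ValuationSubring Kbar) (c : H96Chart M g) : Prop where
  t_zero : ∀ i, ValueAt (c.Q i) (c.t i) 0
  t_small : ∀ i P, SameRed A P (c.Q i) → ∃ a ∈ A.nonunits, ValueAt P (c.t i) a
  t_inj : ∀ i P P' a, SameRed A P (c.Q i) → SameRed A P' (c.Q i) →
    ValueAt P (c.t i) a → ValueAt P' (c.t i) a → P = P'
  refl : ∀ i, SameRed A (c.Q i) (c.Q i)
  O_cst : ∀ i a, a ∈ A → cst M a ∈ c.O i
  O_t : ∀ i, c.t i ∈ c.O i
  O_val : ∀ i, ∀ f ∈ c.O i, ∀ P, SameRed A P (c.Q i) → ∃ a ∈ A, ValueAt P f a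
  O_div : ∀ i, ∀ f ∈ c.O i, ∀ P, SameRed A P (c.Q i) → ∀ a a', ValueAt P f a →
    ValueAt P (c.t i) a' → ∃ h ∈ c.O i, f - cst M a = (c.t i - cst M a') * h
  rep : ∀ x ∈ redKerPic M A, ∃ P : Fin g → Place Kbar (FF M),
    (∀ i, SameRed A (P i) (c.Q i)) ∧ h96m_IsCls x P c.Q
  rep_unique : ∀ (x : JZero M) (P P' : Fin g → Place Kbar (FF M)),
    (∀ i, SameRed A (P i) (c.Q i)) → (∀ i, SameRed A (P' i) (c.Q i)) →
    h96m_IsCls x P c.Q → h96m_IsCls x P' c.Q → P = P'
  inert : ∀ σ ∈ A.inertiaSubgroupIn ℚ, ∀ (x : JZero M) (i : Fin g) (a : Kbar),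
    c.IsCoord A x i a → c.IsCoord A (σ • x) i (σ a)

/-- The link package from the source chart `c` to the target chart `c'`. -/
structure H96Link (A : ValuationSubring Kbar) (c c' : H96Chart M g) where
  /-- `2g` basis functions -/
  b : Fin g ⊕ Fin g → FF M
  /-- the normalising basis function -/
  bs : FF M
  b_mem : ∀ j i, b j ∈ c.O i ∧ b j ∈ c'.O i
  bs_mem : ∀ i, bs ∈ c.O i ∧ bs ∈ c'.O i
  /-- the jets (value, derivative) of the `b j` at the centres of `c` -/
  N0 : Matrix (Fin g ⊕ Fin g) (Fin g ⊕ Fin g) Kbar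
  N0_val : ∀ i j, ValueAt (c.Q i) (b j) (N0 (Sum.inl i) j)
  N0_der : ∀ i j, ∃ h ∈ c.O i, b j - cst M (N0 (Sum.inl i) j) = c.t i * h ∧
    ValueAt (c.Q i) h (N0 (Sum.inr i) j)
  N0_unit : N0.det ≠ 0 ∧ (N0.det)⁻¹ ∈ A
  step : ∀ (P P' : Fin g → Place Kbar (FF M)), (∀ i, SameRed A (P i) (c.Q i)) →
    (∀ i, SameRed A (P' i) (c.Q i)) → ∀ co : Fin g ⊕ Fin g → Kbar,
    (∀ i, ∃ h ∈ c.O i, ∃ a a', ValueAt (P i) (c.t i) a ∧ ValueAt (P' i) (c.t i) a' ∧
      bs + ∑ j, cst M (co j) * b j = (c.t i - cst M a) * (c.t i - cst M a') * h) →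
    ∃ E : Fin g → Place Kbar (FF M), (∀ i, SameRed A (E i) (c'.Q i)) ∧
      (∀ i, ValueAt (E i) (bs + ∑ j, cst M (co j) * b j) 0) ∧
      ∀ x y : JZero M, h96m_IsCls x P c.Q → h96m_IsCls y P' c.Q →
        h96m_IsCls (-(x + y)) E c'.Q
  der_unit : ∀ co : Fin g ⊕ Fin g → Kbar,
    (∀ i, ∃ h ∈ c.O i, bs + ∑ j, cst M (co j) * b j = c.t i * c.t i * h) →
    ∀ i, ∃ h ∈ c'.O i, ∃ d : Kbar, bs + ∑ j, cst M (co j) * b j = c'.t i * h ∧
      ValueAt (c'.Q i) h d ∧ d ≠ 0 ∧ d⁻¹ ∈ A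

/-- **What GEO-DISC + GEO-RR deliver** at the level `M` and the valuation subring `A`:
a family `𝒞` of valid charts (for instance: all charts with unramified centres and parameters,
`O i` the full local rings of the model), in which every chart is the target of a link, stable
under the decomposition group; unramified lifts of all residue classes; inertia acts trivially
modulo `J¹`; `J¹` is stable under the decomposition group. -/
def H96GeoInputs (M : ℕ) [NeZero M] (A : ValuationSubring Kbar) : Prop :=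
  ∃ (g : ℕ) (𝒞 : Set (H96Chart M g)),
    (∃ c, c ∈ 𝒞) ∧
    (∀ c ∈ 𝒞, c.Valid A) ∧
    (∀ c' ∈ 𝒞, ∃ c ∈ 𝒞, Nonempty (H96Link A c c')) ∧
    (∀ τ ∈ A.decompositionSubgroup ℚ, ∀ c ∈ 𝒞, ∃ cτ ∈ 𝒞,
        ∀ (x : JZero M) (i : Fin g) (a : Kbar), c.IsCoord A x i a → cτ.IsCoord A (τ • x) i (τ a)) ∧
    (∀ y : JZero M, ∃ c₀ : JZero M, (∀ σ ∈ A.inertiaSubgroupIn ℚ, σ • c₀ = c₀) ∧
      y - c₀ ∈ redKerPic M A) ∧
    (∀ σ ∈ A.inertiaSubgroupIn ℚ, ∀ x : JZero M, σ • x - x ∈ redKerPic M A) ∧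
    (∀ τ ∈ A.decompositionSubgroup ℚ, ∀ x ∈ redKerPic M A, τ • x ∈ redKerPic M A)

/-- **The local order** (input of ALG-DESC): a set `G` of `ℚ̄`-valued functions on the
`G_ℚ`-module `X`, integral at `A`, inertia-equivariant, stable under the decomposition group,
separating, closed under `f ↦ f (x + y)` in Sweedler form over `A`. -/
structure H96LocOrder (A : ValuationSubring Kbar) {X : Type} [AddCommGroup X]
    (act : GQ → X → X) (G : Set (X → Kbar)) : Prop where
  int : ∀ f ∈ G, ∀ x, f x ∈ A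
  inert : ∀ f ∈ G, ∀ σ ∈ A.inertiaSubgroupIn ℚ, ∀ x, f (act σ x) = σ (f x)
  decomp : ∀ f ∈ G, ∀ τ ∈ A.decompositionSubgroup ℚ, (fun x => τ (f (act τ⁻¹ x))) ∈ G
  sep : ∀ x y : X, (∀ f ∈ G, f x = f y) → x = y
  comul : ∀ f ∈ G, ∃ (n : ℕ) (a b : Fin n → X → Kbar),
    (∀ i, a i ∈ Algebra.adjoin A G) ∧ (∀ i, b i ∈ Algebra.adjoin A G) ∧
    ∀ x y, f (x + y) = ∑ i, a i x * b i y

/-- the Galois action on the `m`-torsion of `J₀(M)`. -/
def h96m_act (M : ℕ) [NeZero M] (m : ℤ) (σ : GQ)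
    (x : ↥(Submodule.torsionBy ℤ (JZero M) m)) : ↥(Submodule.torsionBy ℤ (JZero M) m) :=
  ⟨σ • (x : JZero M), by
    have hx : m • (x : JZero M) = 0 := (Submodule.mem_torsionBy_iff _ _).1 x.2
    refine (Submodule.mem_torsionBy_iff _ _).2 ?_
    have h1 : m • (σ • (x : JZero M)) = σ • (m • (x : JZero M)) :=
      (map_zsmul (DistribSMul.toAddMonoidHom (JZero M) σ) m (x : JZero M)).symm
    rw [h1, hx]
    exact smul_zero (A := JZero M) σ⟩

@[simp]
theorem h96m_act_coe (M : ℕ) [NeZero M] (m : ℤ) (σ : GQ)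
    (x : ↥(Submodule.torsionBy ℤ (JZero M) m)) :
    ((h96m_act M m σ x : ↥(Submodule.torsionBy ℤ (JZero M) m)) : JZero M) = σ • (x : JZero M) :=
  rfl

/-- **TARGET of GEO-LAW**: from the geometric inputs, a local order on every torsion level. -/
def H96LawStatement : Prop :=
  ∀ (M : ℕ) [NeZero M] (A : ValuationSubring Kbar) (ℓ : ℕ), ℓ.Prime → A.LiesOverPrime ℓ →
    H96GeoInputs M A → ∀ m : ℤ, Finite ↥(Submodule.torsionBy ℤ (JZero M) m) →
    ∃ G : Set (↥(Submodule.torsionBy ℤ (JZero M) m) → Kbar), H96LocOrder A (h96m_act M m) G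

end Fermat.Agent.P5
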