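import Fermat.Agent.P5.H97Order
import Fermat.Agent.P5.H96LawIface

/-!
# Wave 5, pillar (P): TOP skeleton for S19 / S32 (architect helper98)

FROZEN top-level interface Props.  The chain (findings #1220, #1221, #1224):

```
GEO-DISC + GEO-RR : H96GeoInputs M A            (P5/H96LawIface.lean, helper96; good levels M)
GEO-LAW           : H96LawStatement             (GeoInputs ⟹ local order H96LocOrder on J₀(M)[m])
ALG-DESC          : H98pDescent                 (local order at ONE A over p ⟹ h97c_HasOrder)
LEVEL             : H98pLevel                   (order at a good level ⟹ order at level N)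
ADAPT (A1)        : H98pAdapter                 (h97c_HasOrder ⟹ h97c_Flat = Prelude shape)
TOP               : P5/Top.lean                 (ADAPT + orders on J₀(N)[ℓ^k] ⟹ S19)
A2 (for S32)      : H98pSubquot                 (flatness passes to Galois subquotients of powers)
```

Vocabulary (landed): `h97c_IsOrder`, `h97c_HasOrder`, `h97c_Flat` (P5/H97Order.lean, helper97);
`H96LocOrder`, `h96m_act`, `H96GeoInputs`, `H96LawStatement` (P5/H96LawIface.lean, helper96).
Functions are `M → ℚ̄`; "equivariant" means `f (act σ x) = σ (f x)`.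
-/

set_option autoImplicit false

open ModularCurve

noncomputable section

namespace Fermat.Agent.P5

/-- `ℚ̄`. -/
abbrev H98pQb : Type := AlgebraicClosure ℚ

/-- `G_ℚ`. -/
abbrev H98pGQ : Type := AlgebraicClosure ℚ ≃ₐ[ℚ] AlgebraicClosure ℚ

/-- `M = J₀(N)[ℓ^k]`, exactly the type of the frozen statement S19. -/
abbrev H98pM (N ℓ k : ℕ) : Type := ↥(Submodule.torsionBy ℤ (JZero N) ((ℓ : ℤ) ^ k))

/-- The Galois action on `J₀(N)[ℓ^k]` (`= h96m_act N (ℓ ^ k)`). -/
abbrev h98pAct (N : ℕ) [NeZero N] (ℓ k : ℕ) : H98pGQ → H98pM N ℓ k → H98pM N ℓ k :=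
  h96m_act N ((ℓ : ℤ) ^ k)

/-- `act` is a continuous action by group automorphisms: an action, additive, trivial on an
open subgroup (the fixing group of a number field). -/
structure H98pIsGalAct {M : Type} [AddCommGroup M] (act : H98pGQ → M → M) : Prop where
  one : ∀ x, act 1 x = x
  mul : ∀ σ τ x, act (σ * τ) x = act σ (act τ x)
  add : ∀ σ x y, act σ (x + y) = act σ x + act σ y
  cont : ∃ L : IntermediateField ℚ H98pQb, FiniteDimensional ℚ L ∧
    ∀ σ : H98pGQ, (∀ y ∈ L, σ y = y) → ∀ x, act σ x = x

/-- **ADAPT (A1).** A function order over `ℤ_(p)` on a finite abelian group is the function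
algebra of a finite flat cocommutative Hopf algebra over `ℤ_(p)` whose `ℚ̄`-points are `M`,
Galois-equivariantly. -/
def H98pAdapter : Prop :=
  ∀ (p : ℕ) [Fact p.Prime] (M : Type) [AddCommGroup M] [Finite M] (act : H98pGQ → M → M),
    h97c_HasOrder p M act → h97c_Flat p M act

/-- **ALG-DESC.** A local order (`H96LocOrder`: integral at `A`, inertia-equivariant, stable
under the decomposition group, separating, Sweedler-closed over `A`) at ONE valuation subring
`A` of `ℚ̄` over `p`, on a finite abelian group with a continuous Galois action, descends to a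
function order over `ℤ_(p)`. -/
def H98pDescent : Prop :=
  ∀ (p : ℕ) [Fact p.Prime] (M : Type) [AddCommGroup M] [Finite M] (act : H98pGQ → M → M),
    H98pIsGalAct act →
    ∀ (A : ValuationSubring H98pQb), A.LiesOverPrime p →
    ∀ G : Set (M → H98pQb), H96LocOrder A act G → h97c_HasOrder p M act

/-- The target of DESC ∘ LAW ∘ GEO at the level `N`: a function order on `J₀(N)[ℓ^k]`. -/
def H98pOrdZ (N : ℕ) [NeZero N] (ℓ k : ℕ) : Prop :=
  h97c_HasOrder ℓ (H98pM N ℓ k) (h98pAct N ℓ k)

/-- **LEVEL.** Every level `N` prime to `ℓ` embeds into a level `N'` prime to `ℓ` at which the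
geometric inputs hold (a "good" level), compatibly with orders: an order on `J₀(N')[ℓ^k]`
restricts to an order on `J₀(N)[ℓ^k]` (pull-back along the degeneracy map is injective,
additive and Galois-equivariant). -/
def H98pLevel : Prop :=
  ∀ (N : ℕ) [NeZero N] (ℓ : ℕ) [Fact ℓ.Prime], ¬ ℓ ∣ N →
    ∃ (N' : ℕ) (_ : NeZero N'), ¬ ℓ ∣ N' ∧
      (∃ A : ValuationSubring H98pQb, A.LiesOverPrime ℓ ∧ H96GeoInputs N' A) ∧
      ∀ k : ℕ, H98pOrdZ N' ℓ k → H98pOrdZ N ℓ k

/-- **A2.** Flatness passes to Galois-subquotients of finite powers: if `M` is flat and `W` is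
the image, under an additive equivariant map `φ`, of a Galois-stable subgroup `X` of `M^r`,
then `W` is flat. -/
def H98pSubquot : Prop :=
  ∀ (p : ℕ) [Fact p.Prime] (M W : Type) [AddCommGroup M] [AddCommGroup W] [Finite M] [Finite W]
    (actM : H98pGQ → M → M) (actW : H98pGQ → W → W),
    H98pIsGalAct actM → H98pIsGalAct actW → h97c_Flat p M actM →
    ∀ (r : ℕ) (X : AddSubgroup (Fin r → M)) (φ : X →+ W),
      (∀ σ, ∀ x ∈ X, (fun i => actM σ (x i)) ∈ X) →
      (∀ σ (x y : X), (∀ i, (y : Fin r → M) i = actM σ ((x : Fin r → M) i)) →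
        φ y = actW σ (φ x)) →
      Function.Surjective φ →
      h97c_Flat p W actW

end Fermat.Agent.P5
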