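import Fermat.Agent.P5.H69Level
import Fermat.Agent.P5.Skeleton

/-!
# Wave 5, pillar (P), row TOP-LEVEL (helper69, prefix `h69v_`): `H98pLevel` from GEO at good levels

* `H69vGeoGood` : the GEO half, at the levels `M` with `auxLevel ℓ ∣ M`, `ℓ ∤ M` (row TOP-GEO);
* `h69v_ordZ_level` : the restriction half in the vocabulary of `P5/Skeleton.lean`:
  `H98pOrdZ (goodLevel ℓ N) ℓ k → H98pOrdZ N ℓ k`;
* `h69v_level_of_geo : H69vGeoGood → H98pLevel` (the exact frozen Prop of `P5/Skeleton.lean`);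
* `h69v_level_of_geo' ` : the same with GEO only at the levels `goodLevel ℓ N`.
-/

set_option autoImplicit false

open AlgebraicCurve ModularCurve

noncomputable section

namespace Fermat.Agent.P5

open Fermat.Agent.S37

/-- **GEO at good levels** (row TOP-GEO): at every level `M` prime to `ℓ` and divisible by the
auxiliary level, the geometric inputs hold for SOME valuation subring of `ℚ̄` over `ℓ`. -/
def H69vGeoGood : Prop :=
  ∀ (ℓ : ℕ) [Fact ℓ.Prime] (M : ℕ) [NeZero M], auxLevel ℓ ∣ M → ¬ ℓ ∣ M →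
    ∃ A : ValuationSubring H98pQb, A.LiesOverPrime ℓ ∧ H96GeoInputs M A

theorem h69v_act_eq (N : ℕ) [NeZero N] (n : ℤ) : h69vAct N n = h96m_act N n := rfl

/-- the restriction half of LEVEL, in the vocabulary of the skeleton. -/
theorem h69v_ordZ_level (N : ℕ) [NeZero N] (ℓ : ℕ) [hℓ : Fact ℓ.Prime] (k : ℕ)
    (h : H98pOrdZ (goodLevel ℓ N) ℓ k) : H98pOrdZ N ℓ k :=
  h69v_hasOrder_level (p := ℓ) ℓ N ((ℓ : ℤ) ^ k)
    (pow_ne_zero k (Int.natCast_ne_zero.mpr hℓ.out.ne_zero)) h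

/-- **TOP-LEVEL**, with GEO only at the levels `goodLevel ℓ N`. -/
theorem h69v_level_of_geo'
    (hGeo : ∀ (N : ℕ) [NeZero N] (ℓ : ℕ) [Fact ℓ.Prime], ¬ ℓ ∣ N →
      ∃ A : ValuationSubring H98pQb, A.LiesOverPrime ℓ ∧ H96GeoInputs (goodLevel ℓ N) A) :
    H98pLevel := fun N _ ℓ hℓ hℓN =>
  ⟨goodLevel ℓ N, inferInstance, not_dvd_goodLevel hℓ.out hℓN, hGeo N ℓ hℓN,
    fun k h => h69v_ordZ_level N ℓ k h⟩

/-- **TOP-LEVEL.**  The frozen `H98pLevel` from GEO at good levels. -/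
theorem h69v_level_of_geo (hGeo : H69vGeoGood) : H98pLevel :=
  h69v_level_of_geo' fun N _ ℓ hℓ hℓN =>
    hGeo ℓ (goodLevel ℓ N) (auxLevel_dvd_goodLevel ℓ N) (not_dvd_goodLevel hℓ.out hℓN)

end Fermat.Agent.P5
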