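import Mathlib
import Fermat.Prelude.Def_AlgebraicCurve_Repartitions

/-!
# Wave 5, pillar (P), block GEO-RR: weak Riemann–Roch in the Prelude vocabulary (helper13)

Interface of the block, for an ABSTRACT function field `F / K` (`Place K F`, `Divisor K F`,
`riemannRochSpace D` of the Prelude).  It is meant to be instantiated twice: at the generic fibre
`FF N / ℚ̄` and at the special fibre (residue field of the Gauss valuation over `𝔽̄_ℓ`).

* `h13rL K F D`  : `ℓ(D) = dim_K L(D)`.
* `H13rBase K F` : the basic facts (all places of degree one, principal divisors have degree `0`,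
  only constants are regular everywhere, infinitely many places).
* `H13rZeros K F x` : the fundamental identity for `x` (sum of the orders of the zeros of every
  `x - c` and of `1/x` is `[F : K(x)]`).
* `H13rIsGenus K F g` : `deg D + 1 ≤ ℓ(D) + g` for all `D`, with equality above some `D₁`.

Frozen leaves (every one a `Prop`; nothing is assumed):

* `H13rFin`      : `L(D)` is finite-dimensional, `ℓ(D + P) ≤ ℓ(D) + 1`, `L(D) = 0` for `deg D < 0`.
* `H13rInv`      : `ℓ(D + div f) = ℓ(D)`.
* `H13rRiemann`  : Riemann's theorem `∃ g, H13rIsGenus K F g`.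
* `H13rLarge`    : `deg E ≥ deg D₁ + g ⇒ ℓ(E) + g = deg E + 1`; `deg D ≥ g ⇒ L(D) ≠ 0`.
* `H13rMono`     : `D₀ ≤ E`, `ℓ(D₀) + g = deg D₀ + 1 ⇒ ℓ(E) + g = deg E + 1`.
* `H13rMoving`   : outside every finite set of places there are `g` distinct places `Q₁ … Q_g` with
  `ℓ(Q₁ + ⋯ + Q_g) = 1` (a non-special reduced divisor of degree `g`).
-/

set_option autoImplicit false

noncomputable section

namespace Fermat.Agent.P5

open AlgebraicCurve

variable (K F : Type*) [Field K] [Field F] [Algebra K F]

/-- `ℓ(D) = dim_K L(D)`. -/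
def h13rL (D : Divisor K F) : ℕ := Module.finrank K (riemannRochSpace D)

/-- the reduced effective divisor `∑_{v ∈ T} v`. -/
def h13rSum (T : Finset (Place K F)) : Divisor K F := ∑ v ∈ T, Finsupp.single v (1 : ℤ)

/-- basic facts on the places of a function field with algebraically closed constants. -/
structure H13rBase : Prop where
  deg_one : ∀ v : Place K F, v.deg = 1
  pd : ∀ f : F, f ≠ 0 → ∃ D : Divisor K F, (∀ v : Place K F, D v = v.ord f) ∧
    Divisor.degree D = 0
  const : ∀ f : F, (∀ v : Place K F, 0 ≤ v.ord f) → f ∈ Set.range (algebraMap K F)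
  inj : Function.Injective (algebraMap K F)
  infinite : Infinite (Place K F)

/-- the fundamental identity for the zeros of `y = x - c` and of `y = 1/x`. -/
def H13rZeros (x : F) : Prop :=
  ∀ y : F, ((∃ c : K, y = x - algebraMap K F c) ∨ y = x⁻¹) →
    ∃ s : Finset (Place K F), (∀ v, v ∈ s ↔ 0 < v.ord y) ∧
      ∑ v ∈ s, v.ord y = (Module.finrank (IntermediateField.adjoin K {x}) F : ℤ)

/-- `g` is the (weak) genus: Riemann's inequality for all divisors, equality above `D₁`. -/
def H13rIsGenus (g : ℕ) : Prop :=
  (∀ D : Divisor K F, Divisor.degree D + 1 ≤ (h13rL K F D : ℤ) + g) ∧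
    ∃ D₁ : Divisor K F, ∀ D : Divisor K F, D₁ ≤ D →
      (h13rL K F D : ℤ) + g = Divisor.degree D + 1

/-! ### The frozen leaves -/

/-- **RR-FIN**: finiteness, the one-step bound and vanishing in negative degree. -/
def H13rFin : Prop :=
  H13rBase K F →
    (∀ D : Divisor K F, Module.Finite K (riemannRochSpace D)) ∧
    (∀ (D : Divisor K F) (P : Place K F),
      h13rL K F (D + Finsupp.single P 1) ≤ h13rL K F D + 1) ∧
    (∀ D : Divisor K F, Divisor.degree D < 0 → riemannRochSpace D = ⊥) ∧
    h13rL K F 0 = 1

/-- **RR-INV**: `ℓ` is invariant under linear equivalence. -/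
def H13rInv : Prop :=
  ∀ (D E : Divisor K F) (f : F), f ≠ 0 → (∀ v : Place K F, E v = D v + v.ord f) →
    h13rL K F E = h13rL K F D

/-- **RR-RIEMANN**: Riemann's theorem. -/
def H13rRiemann : Prop :=
  H13rBase K F → ∀ x : F, Transcendental K x →
    FiniteDimensional (IntermediateField.adjoin K {x}) F → H13rZeros K F x →
      ∃ g : ℕ, H13rIsGenus K F g

/-- **RR-LARGE**: divisors of large degree are non-special; divisors of degree `≥ g` are
linearly equivalent to effective divisors. -/
def H13rLarge : Prop :=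
  H13rBase K F → ∀ g : ℕ, H13rIsGenus K F g →
    (∃ c : ℤ, ∀ E : Divisor K F, c ≤ Divisor.degree E →
      (h13rL K F E : ℤ) + g = Divisor.degree E + 1) ∧
    (∀ D : Divisor K F, (g : ℤ) ≤ Divisor.degree D → riemannRochSpace D ≠ ⊥)

/-- **RR-MONO**: the index of speciality decreases. -/
def H13rMono : Prop :=
  H13rBase K F → ∀ g : ℕ, H13rIsGenus K F g → ∀ D₀ E : Divisor K F, D₀ ≤ E →
    (h13rL K F D₀ : ℤ) + g = Divisor.degree D₀ + 1 →
      (h13rL K F E : ℤ) + g = Divisor.degree E + 1

/-- **RR-MOVING**: a non-special reduced divisor of degree `g` outside any finite set. -/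
def H13rMoving : Prop :=
  H13rBase K F → ∀ g : ℕ, H13rIsGenus K F g → ∀ S : Finset (Place K F),
    ∃ T : Finset (Place K F), Disjoint T S ∧ T.card = g ∧ h13rL K F (h13rSum K F T) = 1

end Fermat.Agent.P5
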