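import Mathlib

/-!
# Wave 5 (P), block GEO-RR: abstract "peel-off" lemma (helper3)

Vocabulary-free core of "there is a non-special reduced effective divisor of degree `g`
inside any reduced effective divisor `D` with `l(D) = deg D + 1 - g`".

`L s` plays the role of the Riemann-Roch space of the reduced divisor `∑_{a ∈ s} a`.
No duality, no differentials: only monotonicity, `L(s) ⊓ L(t) ≤ L(s ∩ t)`,
`dim L(∅) = 1` and `dim L(s) ≤ dim L(s \ {a}) + 1`.
-/

set_option autoImplicit false

namespace Fermat.Agent.P5

open Module

section Peel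

variable {K V ι : Type*} [Field K] [AddCommGroup V] [Module K V] [DecidableEq ι]

/-- If erasing any single point of `s` does not change `L s`, then `L s ≤ L (s \ t)` for all `t`. -/
theorem h3r_le_sdiff (L : Finset ι → Submodule K V)
    (hinf : ∀ s t, L s ⊓ L t ≤ L (s ∩ t))
    (s : Finset ι) (hall : ∀ a ∈ s, L s ≤ L (s.erase a)) (t : Finset ι) :
    L s ≤ L (s \ t) := by
  induction t using Finset.induction_on with
  | empty => simp
  | insert a t _ ih =>
    by_cases ha : a ∈ s
    · have h1 : L s ≤ L (s \ t) ⊓ L (s.erase a) := le_inf ih (hall a ha)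
      have h2 : (s \ t) ∩ s.erase a = s \ insert a t := by
        ext x
        simp only [Finset.mem_inter, Finset.mem_sdiff, Finset.mem_erase, Finset.mem_insert]
        tauto
      exact h2 ▸ h1.trans (hinf _ _)
    · have h2 : s \ insert a t = s \ t := by
        ext x
        simp only [Finset.mem_sdiff, Finset.mem_insert]
        constructor
        · rintro ⟨hx, hxt⟩
          exact ⟨hx, fun h => hxt (Or.inr h)⟩
        · rintro ⟨hx, hxt⟩
          refine ⟨hx, ?_⟩
          rintro (rfl | h)
          · exact ha hx
          · exact hxt h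
      exact h2 ▸ ih

/-- If `dim L s ≥ 2` (and `dim L ∅ = 1`) then some point of `s` can be erased with a strict
drop of `L`. -/
theorem h3r_exists_erase_lt (L : Finset ι → Submodule K V)
    (hmono : ∀ s t, s ⊆ t → L s ≤ L t)
    (hfin : ∀ s, Module.Finite K (L s))
    (hinf : ∀ s t, L s ⊓ L t ≤ L (s ∩ t))
    (h0 : Module.finrank K (L ∅) = 1)
    (s : Finset ι) (hs : 2 ≤ Module.finrank K (L s)) :
    ∃ a ∈ s, L (s.erase a) < L s := by
  by_contra hcon
  have hall : ∀ a ∈ s, L s ≤ L (s.erase a) := by
    intro a ha
    by_contra hle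
    exact hcon ⟨a, ha, lt_of_le_of_ne (hmono _ _ (Finset.erase_subset a s))
      (fun h => hle h.ge)⟩
  have h1 : L s ≤ L ∅ := by
    have := h3r_le_sdiff L hinf s hall s
    simpa using this
  have := hfin ∅
  have h2 : Module.finrank K (L s) ≤ Module.finrank K (L ∅) :=
    Submodule.finrank_mono h1
  omega

/-- **Peel-off lemma.** If `dim L(s) + g = #s + 1` then there is `t ⊆ s` with `#t = g` and
`dim L(t) = 1`. -/
theorem h3r_peel (L : Finset ι → Submodule K V)
    (hmono : ∀ s t, s ⊆ t → L s ≤ L t)
    (hfin : ∀ s, Module.Finite K (L s))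
    (hinf : ∀ s t, L s ⊓ L t ≤ L (s ∩ t))
    (h0 : Module.finrank K (L ∅) = 1)
    (hstep : ∀ s a, a ∈ s → Module.finrank K (L s) ≤ Module.finrank K (L (s.erase a)) + 1)
    (g : ℕ) (s : Finset ι) (hs : Module.finrank K (L s) + g = s.card + 1) :
    ∃ t, t ⊆ s ∧ t.card = g ∧ Module.finrank K (L t) = 1 := by
  induction s using Finset.strongInduction with
  | H s ih =>
    have hge : 1 ≤ Module.finrank K (L s) := by
      have := hfin s
      have := Submodule.finrank_mono (hmono ∅ s (Finset.empty_subset s))
      omega
    rcases Nat.lt_or_ge (Module.finrank K (L s)) 2 with h2 | h2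
    · exact ⟨s, subset_rfl, by omega, by omega⟩
    · obtain ⟨a, ha, hlt⟩ := h3r_exists_erase_lt L hmono hfin hinf h0 s h2
      have := hfin s
      have hlt' : Module.finrank K (L (s.erase a)) < Module.finrank K (L s) :=
        Submodule.finrank_lt_finrank_of_lt hlt
      have hst := hstep s a ha
      have hcard : (s.erase a).card + 1 = s.card := Finset.card_erase_add_one ha
      obtain ⟨t, hts, htc, htr⟩ := ih (s.erase a) (Finset.erase_ssubset ha) (by omega)
      exact ⟨t, hts.trans (Finset.erase_subset a s), htc, htr⟩

/-- Variant: the peeled set `t` is "non-special" in the sense `dim L(t) + g = #t + 1`, and every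
intermediate set `t ⊆ u ⊆ s` obtained on the way is too.  Here we only record the monotonicity of
the defect `#s + 1 - dim L(s)`. -/
theorem h3r_defect_mono (L : Finset ι → Submodule K V)
    (hstep : ∀ s a, a ∈ s → Module.finrank K (L s) ≤ Module.finrank K (L (s.erase a)) + 1)
    (s t : Finset ι) (hst : s ⊆ t) :
    Module.finrank K (L t) + s.card ≤ Module.finrank K (L s) + t.card := by
  induction t using Finset.strongInduction with
  | H t ih =>
    by_cases h : s = t
    · subst h; exact le_rfl
    · obtain ⟨a, hat, has⟩ : ∃ a ∈ t, a ∉ s := by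
        by_contra hcon
        push Not at hcon
        exact h (Finset.Subset.antisymm hst hcon)
      have hsub : s ⊆ t.erase a := fun x hx =>
        Finset.mem_erase.mpr ⟨fun hxa => has (hxa ▸ hx), hst hx⟩
      have := ih (t.erase a) (Finset.erase_ssubset hat) hsub
      have h1 := hstep t a hat
      have hcard : (t.erase a).card + 1 = t.card := Finset.card_erase_add_one hat
      omega

end Peel

end Fermat.Agent.P5
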