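import Mathlib
import Fermat.Prelude.Def_AlgebraicCurve_Repartitions

/-!
# Pillar P5 (S19), block GEO-RR: the spaces `L(D)` in the Prelude vocabulary (helper78)

`K` a field, `F` a field over `K`, `AlgebraicCurve.Place K F`, `Divisor K F`,
`riemannRochSpace D = {f | ∀ v, f = 0 ∨ - D v ≤ v.ord f}` (Prelude).  General place-theoretic
facts (no chart, no genus):

* `h78p_L_mono` : `D ≤ D' → L(D) ≤ L(D')`.
* `h78p_step` : the leading-coefficient map `L(D + P) → κ(P)` with kernel `L(D)`.
* `h78p_step_finrank` : `l(D + P) ≤ l(D) + deg P` (finite-dimensionality propagates).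
* `h78p_finrank_le` : `D ≤ D' → l(D') ≤ l(D) + deg D' - deg D`.
* `h78p_mulEquiv` : `L(D + div f) ≃ L(D)`.
-/

set_option autoImplicit false
set_option linter.style.haveILetI false

open AlgebraicCurve WithZero

noncomputable section

namespace Fermat.Agent.P5

variable {K F : Type*} [Field K] [Field F] [Algebra K F]

theorem h78p_mem_L {D : Divisor K F} {f : F} :
    f ∈ riemannRochSpace D ↔ ∀ v : Place K F, v.adicValuation f ≤ exp (D v) := Iff.rfl

/-- `L` is monotone. -/
theorem h78p_L_mono {D D' : Divisor K F} (h : D ≤ D') :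
    riemannRochSpace D ≤ riemannRochSpace D' := fun _ hf v =>
  (hf v).trans (exp_le_exp.mpr (Finsupp.le_def.mp h v))

/-- membership in the valuation ring. -/
theorem h78p_mem_of_val_le_one (v : Place K F) {x : F} (hx : v.adicValuation x ≤ 1) :
    x ∈ v.toValuationSubring := by
  by_contra hmem
  have hx0 : x ≠ 0 := fun h => hmem (h ▸ v.toValuationSubring.zero_mem)
  have hinv : x⁻¹ ∈ v.toValuationSubring :=
    (v.toValuationSubring.mem_or_inv_mem x).resolve_left hmem
  have h1 : v.adicValuation x⁻¹ ≤ 1 := v.adicValuation_le_one_of_mem hinv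
  rw [map_inv₀] at h1
  have hx1 : v.adicValuation x = 1 := by
    have hpos : 0 < v.adicValuation x := zero_lt_iff.mpr (v.adicValuation_ne_zero hx0)
    have h2 : 1 ≤ v.adicValuation x := by
      by_contra hlt
      rw [not_le] at hlt
      have := (one_lt_inv₀ hpos).mpr hlt
      exact absurd h1 (not_le.mpr this)
    exact le_antisymm hx h2
  -- a unit of the valuation ring
  have hu : IsUnit (⟨x⁻¹, hinv⟩ : v.toValuationSubring) := by
    rw [← v.adicValuation_coe_eq_one_iff]
    show v.adicValuation x⁻¹ = 1
    rw [map_inv₀, hx1, inv_one]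
  obtain ⟨u, hu⟩ := hu
  have h3 : ((u⁻¹ : v.toValuationSubringˣ) : v.toValuationSubring) * ⟨x⁻¹, hinv⟩ = 1 := by
    rw [← hu]
    exact u.inv_mul
  have h4 : (((u⁻¹ : v.toValuationSubringˣ) : v.toValuationSubring) : F) = x := by
    have := congrArg (Subtype.val) h3
    simp only [MulMemClass.coe_mul, OneMemClass.coe_one] at this
    field_simp at this
    exact this
  exact hmem (h4 ▸ ((u⁻¹ : v.toValuationSubringˣ) : v.toValuationSubring).2)

/-- an element of the valuation ring is in the maximal ideal iff its valuation is `< 1`. -/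
theorem h78p_residue_eq_zero_iff (v : Place K F) (x : v.toValuationSubring) :
    IsLocalRing.residue v.toValuationSubring x = 0 ↔ v.adicValuation (x : F) < 1 := by
  rw [IsLocalRing.residue_eq_zero_iff, IsLocalRing.mem_maximalIdeal, mem_nonunits_iff,
    ← v.adicValuation_coe_eq_one_iff]
  have hle : v.adicValuation (x : F) ≤ 1 := v.adicValuation_le_one_of_mem x.2
  constructor
  · intro h
    exact lt_of_le_of_ne hle h
  · intro h
    exact h.ne

/-- the values of `(D + P)`. -/
theorem h78p_add_single_self (D : Divisor K F) (P : Place K F) :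
    (D + Finsupp.single P 1 : Divisor K F) P = D P + 1 := by
  classical
  rw [Finsupp.add_apply, Finsupp.single_eq_same]

theorem h78p_add_single_ne (D : Divisor K F) {P v : Place K F} (h : v ≠ P) :
    (D + Finsupp.single P 1 : Divisor K F) v = D v := by
  classical
  rw [Finsupp.add_apply, Finsupp.single_eq_of_ne h, add_zero]

/-- **the leading-coefficient map** `L(D + P) → κ(P)`, with kernel `L(D)`. -/
theorem h78p_step (D : Divisor K F) (P : Place K F) :
    ∃ φ : ↥(riemannRochSpace (D + Finsupp.single P 1)) →ₗ[K] P.ResidueField,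
      ∀ f : ↥(riemannRochSpace (D + Finsupp.single P 1)),
        φ f = 0 ↔ (f : F) ∈ riemannRochSpace D := by
  classical
  obtain ⟨π, hπ⟩ := IsDiscreteValuationRing.exists_irreducible P.toValuationSubring
  have hπv : ∀ n : ℤ, P.adicValuation ((π : F) ^ n) = exp (-n) := by
    intro n
    rw [map_zpow₀, P.adicValuation_coe_irreducible hπ, ← exp_zsmul]
    congr 1
    simp
  have hval : ∀ f : F, P.adicValuation (f * (π : F) ^ (D P + 1)) =
      P.adicValuation f * exp (-(D P + 1)) := fun f => by rw [map_mul, hπv]
  have hmem : ∀ f ∈ riemannRochSpace (D + Finsupp.single P 1),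
      f * (π : F) ^ (D P + 1) ∈ P.toValuationSubring := by
    intro f hf
    apply h78p_mem_of_val_le_one
    rw [hval]
    have h1 := hf P
    rw [h78p_add_single_self] at h1
    calc P.adicValuation f * exp (-(D P + 1)) ≤ exp (D P + 1) * exp (-(D P + 1)) :=
          mul_le_mul' h1 le_rfl
      _ = 1 := by rw [← exp_add, add_neg_cancel, exp_zero]
  let φ : ↥(riemannRochSpace (D + Finsupp.single P 1)) →ₗ[K] P.ResidueField :=
    { toFun := fun f => IsLocalRing.residue P.toValuationSubring
        ⟨(f : F) * (π : F) ^ (D P + 1), hmem f f.2⟩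
      map_add' := fun f g => by
        rw [← map_add]
        congr 1
        apply Subtype.ext
        show ((f + g : ↥(riemannRochSpace (D + Finsupp.single P 1))) : F) * _ = _
        rw [Submodule.coe_add, add_mul]
        rfl
      map_smul' := fun c f => by
        have hc : algebraMap K P.ResidueField c =
            IsLocalRing.residue P.toValuationSubring (algebraMap K P.toValuationSubring c) := rfl
        rw [RingHom.id_apply, Algebra.smul_def, hc, ← map_mul]
        congr 1
        apply Subtype.ext
        show ((c • f : ↥(riemannRochSpace (D + Finsupp.single P 1))) : F) * _ = _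
        rw [Submodule.coe_smul, Algebra.smul_def, mul_assoc]
        rfl }
  refine ⟨φ, fun f => ?_⟩
  show IsLocalRing.residue P.toValuationSubring
    ⟨(f : F) * (π : F) ^ (D P + 1), hmem f f.2⟩ = 0 ↔ _
  rw [h78p_residue_eq_zero_iff]
  show P.adicValuation ((f : F) * (π : F) ^ (D P + 1)) < 1 ↔ _
  rw [hval]
  constructor
  · intro h v
    by_cases hv : v = P
    · subst hv
      rcases eq_or_ne (f : F) 0 with h0 | h0
      · rw [h0, map_zero]
        exact zero_le
      · rw [v.adicValuation_eq_exp_neg_ord h0, ← exp_add, ← exp_zero, exp_lt_exp] at h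
        rw [v.adicValuation_eq_exp_neg_ord h0, exp_le_exp]
        omega
    · have := f.2 v
      rwa [h78p_add_single_ne D hv] at this
  · intro h
    have h1 := h P
    calc P.adicValuation (f : F) * exp (-(D P + 1)) ≤ exp (D P) * exp (-(D P + 1)) :=
          mul_le_mul' h1 le_rfl
      _ = exp (-1) := by
          rw [← exp_add]
          congr 1
          ring
      _ < 1 := by
          rw [← exp_zero, exp_lt_exp]
          norm_num

/-- **`l(D + P) ≤ l(D) + deg P`**; finite-dimensionality propagates. -/
theorem h78p_step_finrank (D : Divisor K F) (P : Place K F)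
    [Module.Finite K P.ResidueField] (hfin : Module.Finite K ↥(riemannRochSpace D)) :
    Module.Finite K ↥(riemannRochSpace (D + Finsupp.single P 1)) ∧
      Module.finrank K ↥(riemannRochSpace (D + Finsupp.single P 1)) ≤
        Module.finrank K ↥(riemannRochSpace D) + P.deg := by
  classical
  obtain ⟨φ, hφ⟩ := h78p_step D P
  have hle : riemannRochSpace D ≤ riemannRochSpace (D + Finsupp.single P 1) := by
    refine h78p_L_mono (Finsupp.le_def.mpr fun v => ?_)
    by_cases hv : v = P
    · subst hv
      rw [h78p_add_single_self]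
      omega
    · rw [h78p_add_single_ne D hv]
  have hker : LinearMap.ker φ =
      (riemannRochSpace D).comap (riemannRochSpace (D + Finsupp.single P 1)).subtype := by
    ext f
    rw [LinearMap.mem_ker, hφ]
    rfl
  let e : ↥(LinearMap.ker φ) ≃ₗ[K] ↥(riemannRochSpace D) :=
    (LinearEquiv.ofEq _ _ hker).trans (Submodule.comapSubtypeEquivOfLe hle)
  haveI : Module.Finite K ↥(LinearMap.ker φ) := Module.Finite.equiv e.symm
  haveI : Module.Finite K (↥(riemannRochSpace (D + Finsupp.single P 1)) ⧸ LinearMap.ker φ) :=
    Module.Finite.equiv φ.quotKerEquivRange.symm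
  haveI hF : Module.Finite K ↥(riemannRochSpace (D + Finsupp.single P 1)) :=
    Module.Finite.of_submodule_quotient (LinearMap.ker φ)
  refine ⟨hF, ?_⟩
  have h1 := LinearMap.finrank_range_add_finrank_ker φ
  have h2 : Module.finrank K ↥(LinearMap.range φ) ≤ P.deg := Submodule.finrank_le _
  have h3 : Module.finrank K ↥(LinearMap.ker φ) = Module.finrank K ↥(riemannRochSpace D) :=
    LinearEquiv.finrank_eq e
  omega

/-- `l(D + n P) ≤ l(D) + n deg P`. -/
theorem h78p_nsmul_finrank (D : Divisor K F) (P : Place K F)
    [Module.Finite K P.ResidueField] (hfin : Module.Finite K ↥(riemannRochSpace D)) (n : ℕ) :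
    Module.Finite K ↥(riemannRochSpace (D + Finsupp.single P (n : ℤ))) ∧
      Module.finrank K ↥(riemannRochSpace (D + Finsupp.single P (n : ℤ))) ≤
        Module.finrank K ↥(riemannRochSpace D) + n * P.deg := by
  classical
  induction n with
  | zero =>
    have e : (D + Finsupp.single P ((0 : ℕ) : ℤ) : Divisor K F) = D := by simp
    rw [e]
    exact ⟨hfin, by omega⟩
  | succ n ih =>
    have e : (D + Finsupp.single P ((n + 1 : ℕ) : ℤ) : Divisor K F) =
        (D + Finsupp.single P (n : ℤ)) + Finsupp.single P 1 := by
      rw [add_assoc, ← Finsupp.single_add]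
      push_cast
      rfl
    rw [e]
    obtain ⟨h1, h2⟩ := h78p_step_finrank (D + Finsupp.single P (n : ℤ)) P ih.1
    refine ⟨h1, ?_⟩
    have := ih.2
    rw [Nat.add_mul, one_mul]
    omega

/-- **`D ≤ D' ⟹ l(D') ≤ l(D) + deg D' - deg D`**; finite-dimensionality propagates. -/
theorem h78p_finrank_le (hres : ∀ v : Place K F, Module.Finite K v.ResidueField)
    {D D' : Divisor K F} (h : D ≤ D') (hfin : Module.Finite K ↥(riemannRochSpace D)) :
    Module.Finite K ↥(riemannRochSpace D') ∧
      (Module.finrank K ↥(riemannRochSpace D') : ℤ) ≤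
        Module.finrank K ↥(riemannRochSpace D) + (Divisor.degree D' - Divisor.degree D) := by
  classical
  have key : ∀ E : Divisor K F, 0 ≤ E → ∀ D : Divisor K F,
      Module.Finite K ↥(riemannRochSpace D) →
      Module.Finite K ↥(riemannRochSpace (D + E)) ∧
        (Module.finrank K ↥(riemannRochSpace (D + E)) : ℤ) ≤
          Module.finrank K ↥(riemannRochSpace D) + Divisor.degree E := by
    intro E
    induction E using Finsupp.induction with
    | zero =>
      intro _ D hD
      rw [add_zero, map_zero, add_zero]
      exact ⟨hD, le_rfl⟩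
    | single_add a b f haf hb ih =>
      intro hE D hD
      have hb0 : 0 ≤ b := by
        have := Finsupp.le_def.mp hE a
        rw [Finsupp.add_apply, Finsupp.single_eq_same, Finsupp.notMem_support_iff.mp haf,
          add_zero] at this
        simpa using this
      have hf0 : 0 ≤ f := by
        refine Finsupp.le_def.mpr fun v => ?_
        by_cases hv : v = a
        · subst hv
          rw [Finsupp.notMem_support_iff.mp haf]
          rfl
        · have := Finsupp.le_def.mp hE v
          rw [Finsupp.add_apply, Finsupp.single_eq_of_ne hv, zero_add] at this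
          exact this
      obtain ⟨h1, h2⟩ := ih hf0 D hD
      obtain ⟨n, rfl⟩ := Int.eq_ofNat_of_zero_le hb0
      haveI := hres a
      obtain ⟨h3, h4⟩ := h78p_nsmul_finrank (D + f) a h1 n
      have e : D + (Finsupp.single a (n : ℤ) + f) = (D + f) + Finsupp.single a (n : ℤ) := by
        abel
      rw [e, map_add, Divisor.degree_single]
      refine ⟨h3, ?_⟩
      have h4' : (Module.finrank K ↥(riemannRochSpace (D + f + Finsupp.single a (n : ℤ))) : ℤ) ≤
          Module.finrank K ↥(riemannRochSpace (D + f)) + (n : ℤ) * (a.deg : ℤ) := by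
        exact_mod_cast h4
      linarith
  have h0 : 0 ≤ D' - D := sub_nonneg.mpr h
  obtain ⟨h1, h2⟩ := key (D' - D) h0 D hfin
  rw [add_sub_cancel] at h1 h2
  rw [map_sub] at h2
  exact ⟨h1, h2⟩

end Fermat.Agent.P5
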