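import Mathlib
import Fermat.Agent.P5.H13RRIface
import Fermat.Agent.P5.H78RRPlace
import Fermat.Agent.P5.H3RRPeel

/-!
# Pillar P5 (S19), block GEO-RR: the formal leaves of `P5/H13RRIface.lean` (helper78)

Exact frozen Props of helper13's interface, for an abstract function field `F / K`:

* `h78q_fin`    : `H13rFin K F`   (finiteness, one-step bound, `L(D) = 0` for `deg D < 0`, `ℓ(0) = 1`);
* `h78q_inv`    : `H13rInv K F`   (invariance under linear equivalence);
* `h78q_mono`   : `H13rMono K F`  (non-special divisors are stable upwards);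
* `h78q_large`  : `H13rLarge K F` (large degree ⟹ non-special; `deg D ≥ g ⟹ L(D) ≠ 0`);
* `h78q_moving` : `H13rMoving K F` (a non-special reduced divisor of degree `g` outside any finite
  set; peel-off lemma `h3r_peel` of helper3).
-/

set_option autoImplicit false
set_option linter.style.haveILetI false

open AlgebraicCurve WithZero

noncomputable section

namespace Fermat.Agent.P5

variable (K F : Type*) [Field K] [Field F] [Algebra K F]

/-! ## Preliminaries -/

variable {K F}

/-- the degree of an effective divisor is non-negative. -/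
theorem h78q_degree_nonneg {D : Divisor K F} (hD : 0 ≤ D) : 0 ≤ Divisor.degree D := by
  classical
  have h : Divisor.degree D = D.sum fun v n => n * (v.deg : ℤ) := by
    simp [Divisor.degree, Finsupp.liftAddHom_apply]
  rw [h]
  refine Finset.sum_nonneg fun v _ => ?_
  exact mul_nonneg (Finsupp.le_def.mp hD v) (Int.natCast_nonneg _)

/-- residue fields are finite over `K`. -/
theorem h78q_hres (hB : H13rBase K F) (v : Place K F) : Module.Finite K v.ResidueField := by
  refine Module.finite_of_finrank_pos ?_
  have h : Module.finrank K v.ResidueField = 1 := hB.deg_one v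
  omega

/-- `L(0)` is the field of constants. -/
theorem h78q_L_zero (hB : H13rBase K F) :
    riemannRochSpace (0 : Divisor K F) = LinearMap.range (Algebra.linearMap K F) := by
  ext f
  rw [mem_riemannRochSpace_iff, LinearMap.mem_range]
  constructor
  · intro h
    have h' : ∀ v : Place K F, 0 ≤ v.ord f := by
      intro v
      rcases h v with h0 | h1
      · rw [h0, Place.ord_zero]
      · simpa using h1
    obtain ⟨a, ha⟩ := hB.const f h'
    exact ⟨a, ha⟩
  · rintro ⟨a, rfl⟩ v
    have h1 := v.adicValuation_algebraMap_le_one a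
    have h2 := (v.adicValuation_le_one_iff).mp h1
    simpa using h2

theorem h78q_finite_zero (hB : H13rBase K F) :
    Module.Finite K ↥(riemannRochSpace (0 : Divisor K F)) := by
  rw [h78q_L_zero hB]
  infer_instance

theorem h78q_finrank_zero (hB : H13rBase K F) : h13rL K F 0 = 1 := by
  unfold h13rL
  rw [h78q_L_zero hB, LinearMap.finrank_range_of_inj, Module.finrank_self]
  exact hB.inj

/-- every `L(D)` is finite-dimensional. -/
theorem h78q_finite (hB : H13rBase K F) (D : Divisor K F) :
    Module.Finite K ↥(riemannRochSpace D) := by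
  have h1 : (0 : Divisor K F) ≤ D ⊔ 0 := le_sup_right
  have h2 : D ≤ D ⊔ 0 := le_sup_left
  haveI := (h78p_finrank_le (h78q_hres hB) h1 (h78q_finite_zero hB)).1
  exact Module.Finite.of_injective (Submodule.inclusion (h78p_L_mono h2))
    (Submodule.inclusion_injective _)

/-- the monotonicity bound in terms of `h13rL`. -/
theorem h78q_le (hB : H13rBase K F) {D D' : Divisor K F} (h : D ≤ D') :
    (h13rL K F D' : ℤ) ≤ h13rL K F D + (Divisor.degree D' - Divisor.degree D) :=
  (h78p_finrank_le (h78q_hres hB) h (h78q_finite hB D)).2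

/-! ## RR-FIN -/

/-- **RR-FIN.** -/
theorem h78q_fin : H13rFin K F := by
  intro hB
  refine ⟨h78q_finite hB, fun D P => ?_, fun D hD => ?_, h78q_finrank_zero hB⟩
  · haveI := h78q_hres hB P
    have h := (h78p_step_finrank D P (h78q_finite hB D)).2
    rw [hB.deg_one P] at h
    exact h
  · rw [eq_bot_iff]
    intro f hf
    rw [Submodule.mem_bot]
    by_contra hf0
    obtain ⟨E, hE, hE0⟩ := hB.pd f hf0
    have hnn : (0 : Divisor K F) ≤ D + E := by
      refine Finsupp.le_def.mpr fun v => ?_
      rw [Finsupp.add_apply, hE v]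
      rcases (mem_riemannRochSpace_iff.mp hf) v with h0 | h1
      · exact absurd h0 hf0
      · simp only [Finsupp.coe_zero, Pi.zero_apply]
        omega
    have := h78q_degree_nonneg hnn
    rw [map_add, hE0, add_zero] at this
    omega

/-! ## RR-INV -/

/-- multiplication by `f` maps `L(E)` into `L(D)` when `E = D + div f`. -/
theorem h78q_mul_mem {D E : Divisor K F} {f : F} (hf : f ≠ 0)
    (h : ∀ v : Place K F, E v = D v + v.ord f) {g : F} (hg : g ∈ riemannRochSpace E) :
    g * f ∈ riemannRochSpace D := by
  rw [mem_riemannRochSpace_iff] at hg ⊢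
  intro v
  rcases eq_or_ne g 0 with rfl | hg0
  · left
    rw [zero_mul]
  · right
    rcases hg v with h0 | h1
    · exact absurd h0 hg0
    · rw [v.ord_mul hg0 hf]
      have := h v
      omega

/-- the linear equivalence `L(D + div f) ≃ L(D)`. -/
def h78q_mulEquiv {D E : Divisor K F} {f : F} (hf : f ≠ 0)
    (h : ∀ v : Place K F, E v = D v + v.ord f) :
    ↥(riemannRochSpace E) ≃ₗ[K] ↥(riemannRochSpace D) where
  toFun g := ⟨(g : F) * f, h78q_mul_mem hf h g.2⟩
  invFun g := ⟨(g : F) * f⁻¹, h78q_mul_mem (D := E) (E := D) (inv_ne_zero hf)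
    (fun v => by rw [h v, v.ord_inv]; ring) g.2⟩
  map_add' g g' := Subtype.ext (by simp [add_mul])
  map_smul' c g := Subtype.ext (by simp [Algebra.smul_def, mul_assoc])
  left_inv g := Subtype.ext (by simp [hf])
  right_inv g := Subtype.ext (by simp [hf])

/-- **RR-INV.** -/
theorem h78q_inv : H13rInv K F := fun _ _ _ hf h =>
  LinearEquiv.finrank_eq (h78q_mulEquiv hf h)

/-! ## RR-MONO -/

/-- **RR-MONO.** -/
theorem h78q_mono : H13rMono K F := by
  intro hB g hg D₀ E hle h0
  have h1 := h78q_le hB hle
  have h2 := hg.1 E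
  omega

/-! ## RR-LARGE -/

/-- a non-zero element of `L(D)` when `ℓ(D) > 0`. -/
theorem h78q_exists_ne_zero {D : Divisor K F} (h : 0 < h13rL K F D) :
    ∃ f : F, f ≠ 0 ∧ f ∈ riemannRochSpace D := by
  have hnt : Nontrivial ↥(riemannRochSpace D) := Module.nontrivial_of_finrank_pos (R := K) h
  obtain ⟨x, hx⟩ := exists_ne (0 : ↥(riemannRochSpace D))
  exact ⟨x, fun h0 => hx (Subtype.ext h0), x.2⟩

/-- **RR-LARGE.** -/
theorem h78q_large : H13rLarge K F := by
  intro hB g hg
  obtain ⟨D₁, hD₁⟩ := hg.2
  refine ⟨⟨Divisor.degree D₁ + g, fun E hE => ?_⟩, fun D hD hbot => ?_⟩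
  · have h1 := hg.1 (E - D₁)
    rw [map_sub] at h1
    have hpos : 0 < h13rL K F (E - D₁) := by
      have : (0 : ℤ) < (h13rL K F (E - D₁) : ℤ) := by omega
      exact_mod_cast this
    obtain ⟨f, hf0, hf⟩ := h78q_exists_ne_zero hpos
    obtain ⟨Ef, hEf, hEf0⟩ := hB.pd f hf0
    have hle : D₁ ≤ E + Ef := by
      refine Finsupp.le_def.mpr fun v => ?_
      rw [Finsupp.add_apply, hEf v]
      rcases (mem_riemannRochSpace_iff.mp hf) v with h0 | h1
      · exact absurd h0 hf0
      · rw [Finsupp.sub_apply] at h1
        omega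
    have h2 := hD₁ (E + Ef) hle
    rw [map_add, hEf0, add_zero] at h2
    have h3 : h13rL K F (E + Ef) = h13rL K F E :=
      h78q_inv E (E + Ef) f hf0 (fun v => by rw [Finsupp.add_apply, hEf v])
    rw [h3] at h2
    exact h2
  · have h1 := hg.1 D
    have h2 : h13rL K F D = 0 := by
      unfold h13rL
      rw [hbot]
      exact finrank_bot K F
    rw [h2] at h1
    simp only [Nat.cast_zero, zero_add] at h1
    omega

end Fermat.Agent.P5
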