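import Fermat.Agent.P5.H94RedGal
import Fermat.Agent.Red.HKMod

/-!
# P5 (wave 5, S19), block GEO (helper94): unramified lifts of classes

`h94q_unram_lift_of` : if every place of `FF M` has the same reduction as an inertia-fixed
place, then every class of `J₀(M)` is congruent modulo the kernel of reduction to an
inertia-fixed class (conjunct 5 of `H96GeoInputs`).
-/

set_option autoImplicit false
set_option linter.unusedSectionVars false
set_option linter.unusedVariables false
set_option linter.style.haveILetI false
set_option linter.style.longLine false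

open AlgebraicCurve ModularCurve

noncomputable section

namespace Fermat.Agent.P5

open Fermat.Agent.S37 Fermat.Agent.S37.GalI

variable {M : ℕ} [NeZero M] {A : ValuationSubring Kbar}

/-- transport of a divisor along a map of places preserves the degree. -/
theorem h94q_degree_mapDomain (r : Place Kbar (FF M) → Place Kbar (FF M))
    (D : Divisor Kbar (FF M)) :
    Divisor.degree (Finsupp.mapDomain r D) = Divisor.degree D := by
  induction D using Finsupp.induction_linear with
  | zero => rw [Finsupp.mapDomain_zero]
  | add D E hD hE => rw [Finsupp.mapDomain_add, map_add, map_add, hD, hE]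
  | single v n =>
    rw [Finsupp.mapDomain_single, Divisor.degree_single, Divisor.degree_single,
      Fermat.Agent.Red.HKMod.place_deg_FF, Fermat.Agent.Red.HKMod.place_deg_FF]

/-- `D - r D ∈ redKer` if `r` does not move the reduction of a place. -/
theorem h94q_sub_mapDomain_mem_redKer (r : Place Kbar (FF M) → Place Kbar (FF M))
    (hr : ∀ v, SameRed A v (r v)) (D : Divisor Kbar (FF M)) :
    D - Finsupp.mapDomain r D ∈ redKer M A := by
  induction D using Finsupp.induction_linear with
  | zero => rw [Finsupp.mapDomain_zero, sub_zero]; exact (redKer M A).zero_mem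
  | add D E hD hE =>
    rw [Finsupp.mapDomain_add, add_sub_add_comm]
    exact (redKer M A).add_mem hD hE
  | single v n =>
    rw [Finsupp.mapDomain_single]
    have e : (Finsupp.single v n - Finsupp.single (r v) n : Divisor Kbar (FF M))
        = n • (Finsupp.single v (1 : ℤ) - Finsupp.single (r v) (1 : ℤ)) := by
      rw [smul_sub, Finsupp.smul_single, Finsupp.smul_single, smul_eq_mul, mul_one]
    rw [e]
    exact (redKer M A).zsmul_mem (single_sub_single_mem_redKer (hr v)) n

/-- a divisor supported on fixed places is fixed. -/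
theorem h94q_smul_mapDomain (g : SemilinearAut Kbar (FF M))
    (r : Place Kbar (FF M) → Place Kbar (FF M)) (hr : ∀ v, g • r v = r v)
    (D : Divisor Kbar (FF M)) :
    g • Finsupp.mapDomain r D = Finsupp.mapDomain r D := by
  induction D using Finsupp.induction_linear with
  | zero => rw [Finsupp.mapDomain_zero, smul_zero]
  | add D E hD hE => rw [Finsupp.mapDomain_add, smul_add, hD, hE]
  | single v n => rw [Finsupp.mapDomain_single, SemilinearAut.smul_single, hr]

/-- **unramified lifts of classes** (conjunct 5 of `H96GeoInputs`) from unramified lifts of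
places. -/
theorem h94q_unram_lift_of (M : ℕ) [NeZero M] (A : ValuationSubring Kbar)
    (H : ∀ v : Place Kbar (FF M), ∃ v₀ : Place Kbar (FF M),
      (∀ σ ∈ A.inertiaSubgroupIn ℚ, gal M σ • v₀ = v₀) ∧ SameRed A v v₀) :
    ∀ y : JZero M, ∃ c₀ : JZero M, (∀ σ ∈ A.inertiaSubgroupIn ℚ, σ • c₀ = c₀) ∧
      y - c₀ ∈ redKerPic M A := by
  choose r hr using H
  intro y
  obtain ⟨D, rfl⟩ := Pic0.mk_surjective y
  have hE0 : Finsupp.mapDomain r (D : Divisor Kbar (FF M))
      ∈ Divisor.degZero (K := Kbar) (F := FF M) := by
    rw [Divisor.mem_degZero, h94q_degree_mapDomain]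
    exact Divisor.mem_degZero.mp D.2
  refine ⟨Pic0.mk ⟨Finsupp.mapDomain r (D : Divisor Kbar (FF M)), hE0⟩, fun σ hσ => ?_, ?_⟩
  · have h1 : SemilinearAut.degZeroSMulHom (gal M σ)
        (⟨Finsupp.mapDomain r (D : Divisor Kbar (FF M)), hE0⟩ :
          Divisor.degZero (K := Kbar) (F := FF M))
        = ⟨Finsupp.mapDomain r (D : Divisor Kbar (FF M)), hE0⟩ :=
      Subtype.ext (h94q_smul_mapDomain (gal M σ) r (fun v => (hr v).1 σ hσ) _)
    show Pic0.mk (SemilinearAut.degZeroSMulHom (gal M σ) _) = _
    rw [h1]
  · exact ⟨D - ⟨Finsupp.mapDomain r (D : Divisor Kbar (FF M)), hE0⟩,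
      h94q_sub_mapDomain_mem_redKer r (fun v => (hr v).2) _, rfl⟩

end Fermat.Agent.P5
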