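import Fermat.Agent.P5.H4RepLink
import Fermat.Agent.P5.H37DiscInert
import Fermat.Agent.P5.H94UnramLift
import Fermat.Agent.P5.H69LevelTop
import Fermat.Agent.P5.H40RRInst
import Fermat.Agent.P5.H78RRLeaves
import Fermat.Agent.S54.Frobenius

/-!
# P5 (wave 5, S19), rows GEO-SEED / GEO-ASM: the CONDITIONAL wiring of TOP-GEO (helper10)

Everything here is a definition or a theorem; nothing is assumed.  The file fixes the exact
shapes in which the GEO producers meet:

* `H10sRiemann M g` : generic Riemann, `g ≤ deg D → L(D) ≠ ⊥` (`h10s_riemann_of_genus`: from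
  `H13rIsGenus ℚ̄ (FF M) g`).
* `H10sChartAt A c` : a SEED chart: every centre carries a disc calculus `H37DiscAt`
  (GEO-DISC), the centres have pairwise distinct reductions, the reduction of `∑ Q i` is
  non-special (`H4rNonSpec`, GEO-NONSPEC).
* `H10sLinkAt A c c'` : the raw link package of `h4r_link` (GEO-LINK): divisorial data
  `H4rLinkData`, membership in the rings of the discs, the jet matrix `N0` with unit
  determinant, unit derivative of `bs` at the centres of `c'`.
* `H10sSeedAt M A` : two seed charts with raw links both ways.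
* `h10s_valid`, `h10s_link` : a seed chart is valid; a raw link package gives an `H96Link`.
* `h10s_geoInputs` : `H10sSeedAt M A` + unramified lifts of places ⟹ `H96GeoInputs M A`.
* `H10sSeed`, `H10sUnr` : the two remaining atoms, at all good levels;
  `h10s_geoGood : H10sSeed → H10sUnr → H69vGeoGood` (the open atom of TOP-LEVEL), and the
  weakest form `h10s_geoGood_of_exists` (SOME `A` over `ℓ`).
* `H10sCentres`, `H10sLink` and `h10s_seed_of : H37DiscExists → H10sCentres → H10sLink →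
  H10sSeed` : the seed from GEO-DISC, the choice of the centres and the construction of links
  for charts with disc calculus.
-/

set_option autoImplicit false
set_option linter.unusedSectionVars false
set_option linter.unusedVariables false
set_option linter.style.longLine false
set_option linter.style.haveILetI false

open AlgebraicCurve ModularCurve

noncomputable section

namespace Fermat.Agent.P5

open Fermat.Agent.S37

variable {M : ℕ} [NeZero M] {g : ℕ}

/-! ## The shapes -/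

/-- generic Riemann in the form used by the charts: a divisor of degree `≥ g` is linearly
equivalent to an effective divisor. -/
def H10sRiemann (M : ℕ) [NeZero M] (g : ℕ) : Prop :=
  ∀ D : Divisor Kbar (FF M), (g : ℤ) ≤ Divisor.degree D → riemannRochSpace D ≠ ⊥

/-- a SEED chart: disc calculus at every centre, pairwise distinct reductions of the centres,
non-special reduction of `∑ Q i`. -/
structure H10sChartAt (A : ValuationSubring Kbar) (c : H96Chart M g) : Prop where
  disc : ∀ i, H37DiscAt A (c.Q i) (c.t i) (c.O i)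
  sep : ∀ i j, SameRed A (c.Q i) (c.Q j) → i = j
  nonspec : H4rNonSpec A c.Q

/-- the raw link package from `c` to `c'` (exactly the inputs of `h4r_link`). -/
def H10sLinkAt (A : ValuationSubring Kbar) (c c' : H96Chart M g) : Prop :=
  ∃ (b : Fin g ⊕ Fin g → FF M) (bs : FF M)
    (N0 : Matrix (Fin g ⊕ Fin g) (Fin g ⊕ Fin g) Kbar),
    H4rLinkData A c c' b bs ∧
    (∀ j i, b j ∈ c.O i ∧ b j ∈ c'.O i) ∧
    (∀ i, bs ∈ c.O i ∧ bs ∈ c'.O i) ∧
    (∀ i j, ValueAt (c.Q i) (b j) (N0 (Sum.inl i) j)) ∧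
    (∀ i j, ∃ h ∈ c.O i, b j - cst M (N0 (Sum.inl i) j) = c.t i * h ∧
      ValueAt (c.Q i) h (N0 (Sum.inr i) j)) ∧
    (N0.det ≠ 0 ∧ (N0.det)⁻¹ ∈ A) ∧
    (∀ i, ∃ h ∈ c'.O i, ∃ d : Kbar, bs = c'.t i * h ∧
      ValueAt (c'.Q i) h d ∧ d ≠ 0 ∧ d⁻¹ ∈ A)

/-- the SEED at `(M, A)`: two seed charts with raw links both ways. -/
def H10sSeedAt (M : ℕ) [NeZero M] (A : ValuationSubring Kbar) : Prop :=
  ∃ (g : ℕ) (c c' : H96Chart M g), H10sRiemann M g ∧ H10sChartAt A c ∧ H10sChartAt A c' ∧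
    H10sLinkAt A c c' ∧ H10sLinkAt A c' c

/-- unramified lifts of places at `(M, A)` (the shape of `h94q_unram_lift_of`,
`H73gUnrPlaces`). -/
def H10sUnrAt (M : ℕ) [NeZero M] (A : ValuationSubring Kbar) : Prop :=
  ∀ v : Place Kbar (FF M), ∃ Q : Place Kbar (FF M),
    (∀ σ ∈ A.inertiaSubgroupIn ℚ, gal M σ • Q = Q) ∧ SameRed A v Q

/-! ## Elementary facts -/

/-- generic Riemann from the weak genus of the generic fibre. -/
theorem h10s_riemann_of_genus (hg : H13rIsGenus Kbar (FF M) g) : H10sRiemann M g :=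
  (h78q_large (K := Kbar) (F := FF M) (h40r_base_FF M) g hg).2

/-- there is a place which is not finite (a pole of `j`). -/
theorem h10s_exists_notFin (A : ValuationSubring Kbar) :
    ∃ v : Place Kbar (FF M), ¬ IsFinAt A v := by
  by_contra hcon
  push Not at hcon
  have h1 : ∀ v : Place Kbar (FF M), 0 ≤ v.ord (jB M) := fun v => by
    obtain ⟨a, -, hv⟩ := hcon v
    exact Fermat.Agent.S24.DiffPlace.ord_nonneg_of_mem v (h4r_mem_of_valueAt hv)
  obtain ⟨a, ha⟩ := (h40r_base_FF M).const (jB M) h1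
  refine h40r_transcendental_FF M ?_
  rw [← ha]
  exact isAlgebraic_algebraMap a

/-- a non-finite place is outside the discs of finite centres. -/
theorem h10s_out (A : ValuationSubring Kbar) (Q : Fin g → Place Kbar (FF M))
    (hfin : ∀ i, IsFinAt A (Q i)) : ∃ v : Place Kbar (FF M), ∀ i, ¬ SameRed A v (Q i) := by
  obtain ⟨v, hv⟩ := h10s_exists_notFin (M := M) A
  refine ⟨v, fun i h => ?_⟩
  rcases h with ⟨h1, -, -⟩ | ⟨-, h2, -⟩
  · exact hv h1
  · exact h2 (hfin i)

/-- `H4rNonSpec` depends only on the reductions of the centres. -/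
theorem h10s_nonspec_congr (A : ValuationSubring Kbar) {P Q : Fin g → Place Kbar (FF M)}
    (h : ∀ i, SameRed A (P i) (Q i)) (hQ : H4rNonSpec A Q) : H4rNonSpec A P := by
  intro D hD hpos w
  refine hQ D hD (fun w' => ?_) w
  have h1 := hpos w'
  rw [map_add] at h1 ⊢
  rwa [h4r_red_sum_congr A w' h] at h1

/-! ## Validity and links -/

/-- a seed chart is valid. -/
theorem h10s_valid (A : ValuationSubring Kbar) (c : H96Chart M g) (hR : H10sRiemann M g)
    (hc : H10sChartAt A c) : c.Valid A := by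
  haveI : HasPrincipalDivisors Kbar (FF M) := Fermat.Agent.Red.HKMod.hasPrincipalDivisors_FF M
  exact h37j_valid_of_disc A c hc.disc
    (h4r_rep A c.Q (Fermat.Agent.Red.HKMod.place_deg_FF M) hR hc.sep hc.nonspec)
    (h4r_rep_unique A c.Q hc.sep hc.nonspec (h10s_out A c.Q fun i => (hc.disc i).Q_fin))

/-- a raw link package between seed charts gives a link. -/
theorem h10s_link (A : ValuationSubring Kbar) (c c' : H96Chart M g)
    (hc : H10sChartAt A c) (hc' : H10sChartAt A c') (hL : H10sLinkAt A c c') :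
    Nonempty (H96Link A c c') := by
  haveI : HasPrincipalDivisors Kbar (FF M) := Fermat.Agent.Red.HKMod.hasPrincipalDivisors_FF M
  obtain ⟨b, bs, N0, hD, hb, hbs, hval, hder, hunit, hbsder⟩ := hL
  exact ⟨h4r_link A c c' (Fermat.Agent.Red.HKMod.place_deg_FF M)
    (fun i => (hc.disc i).O_val) (fun i => (hc.disc i).O_t) (fun i => (hc.disc i).t_zero)
    hc.sep hc'.sep hc'.nonspec (h10s_out A c'.Q fun i => (hc'.disc i).Q_fin)
    b bs hD hb hbs N0 hval hder hunit hbsder⟩

/-! ## The geometric inputs from a seed -/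

/-- **GEO-ASM at `(M, A)`**: a seed and unramified lifts of places give the geometric inputs of
GEO-LAW. -/
theorem h10s_geoInputs (A : ValuationSubring Kbar) {ℓ : ℕ} (hℓ : ℓ.Prime) (hℓM : ¬ ℓ ∣ M)
    (hA : A.LiesOverPrime ℓ) (hseed : H10sSeedAt M A) (hunr : H10sUnrAt M A) :
    H96GeoInputs M A := by
  obtain ⟨g, c, c', hR, hc, hc', hL, hL'⟩ := hseed
  have hv := h10s_valid A c hR hc
  have hv' := h10s_valid A c' hR hc'
  have hl := h10s_link A c c' hc hc' hL
  have hl' := h10s_link A c' c hc' hc hL'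
  refine h36q_geoInputs_of_seed (A := A) ({c, c'} : Set (H96Chart M g))
    ⟨c, Set.mem_insert _ _⟩ ?_ ?_ (h94q_unram_lift_of M A hunr)
    (h94q_inertia_mod M A ℓ hℓ hℓM hA)
  · intro x hx
    rcases hx with h | h
    · rw [h]; exact hv
    · rw [Set.mem_singleton_iff.1 h]; exact hv'
  · intro x hx
    rcases hx with h | h
    · rw [h]; exact ⟨c', Set.mem_insert_of_mem _ rfl, hl'⟩
    · rw [Set.mem_singleton_iff.1 h]; exact ⟨c, Set.mem_insert _ _, hl⟩

/-! ## The atoms at all good levels -/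

/-- **SEED** at all good levels. -/
def H10sSeed : Prop :=
  ∀ (ℓ : ℕ), ℓ.Prime → ∀ (M : ℕ) [NeZero M], ¬ ℓ ∣ M → auxLevel ℓ ∣ M →
    ∀ A : ValuationSubring Kbar, A.LiesOverPrime ℓ → H10sSeedAt M A

/-- **UNR-PLACE** (all places, finite or not) at all good levels. -/
def H10sUnr : Prop :=
  ∀ (ℓ : ℕ), ℓ.Prime → ∀ (M : ℕ) [NeZero M], ¬ ℓ ∣ M → auxLevel ℓ ∣ M →
    ∀ A : ValuationSubring Kbar, A.LiesOverPrime ℓ → H10sUnrAt M A

/-- **TOP-GEO, weakest conditional form**: a seed and unramified lifts for SOME `A` over `ℓ`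
at every good level. -/
theorem h10s_geoGood_of_exists
    (h : ∀ (ℓ : ℕ), ℓ.Prime → ∀ (M : ℕ) [NeZero M], ¬ ℓ ∣ M → auxLevel ℓ ∣ M →
      ∃ A : ValuationSubring Kbar, A.LiesOverPrime ℓ ∧ H10sSeedAt M A ∧ H10sUnrAt M A) :
    H69vGeoGood := by
  intro ℓ hℓ M _ haux hℓM
  obtain ⟨A, hA, hseed, hunr⟩ := h ℓ hℓ.out M hℓM haux
  exact ⟨A, hA, h10s_geoInputs A hℓ.out hℓM hA hseed hunr⟩

/-- **TOP-GEO, conditional form**: `H10sSeed → H10sUnr → H69vGeoGood`. -/
theorem h10s_geoGood (hseed : H10sSeed) (hunr : H10sUnr) : H69vGeoGood :=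
  h10s_geoGood_of_exists fun ℓ hℓ M _ hℓM haux => by
    obtain ⟨A, hA⟩ := Fermat.Agent.S54.exists_liesOverPrime hℓ
    exact ⟨A, hA, hseed ℓ hℓ M hℓM haux A hA, hunr ℓ hℓ M hℓM haux A hA⟩

/-! ## The seed from GEO-DISC, the centres and the links -/

/-- **CENTRES**: at a good level there are two `g`-tuples of finite places, with `2g` pairwise
distinct reductions, whose reductions are non-special; `g` satisfies generic Riemann. -/
def H10sCentres : Prop :=
  ∀ (ℓ : ℕ), ℓ.Prime → ∀ (M : ℕ) [NeZero M], ¬ ℓ ∣ M → auxLevel ℓ ∣ M →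
    ∀ A : ValuationSubring Kbar, A.LiesOverPrime ℓ →
    ∃ (g : ℕ) (Q Q' : Fin g → Place Kbar (FF M)), H10sRiemann M g ∧
      (∀ i, IsFinAt A (Q i)) ∧ (∀ i, IsFinAt A (Q' i)) ∧
      (∀ i j, SameRed A (Q i) (Q j) → i = j) ∧ (∀ i j, SameRed A (Q' i) (Q' j) → i = j) ∧
      (∀ i j, ¬ SameRed A (Q i) (Q' j)) ∧ H4rNonSpec A Q ∧ H4rNonSpec A Q'

/-- **LINK**: two seed charts with disjoint sets of discs carry a raw link package. -/
def H10sLink : Prop :=
  ∀ (ℓ : ℕ), ℓ.Prime → ∀ (M : ℕ) [NeZero M], ¬ ℓ ∣ M → auxLevel ℓ ∣ M →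
    ∀ A : ValuationSubring Kbar, A.LiesOverPrime ℓ →
    ∀ (g : ℕ) (c c' : H96Chart M g), H10sRiemann M g → H10sChartAt A c → H10sChartAt A c' →
      (∀ i j, ¬ SameRed A (c.Q i) (c'.Q j)) → H10sLinkAt A c c'

/-- **GEO-SEED**: the seed from GEO-DISC, the choice of the centres and the links. -/
theorem h10s_seed_of (hdisc : H37DiscExists) (hcen : H10sCentres) (hlink : H10sLink) :
    H10sSeed := by
  intro ℓ hℓ M _ hℓM haux A hA
  obtain ⟨g, Q, Q', hR, hfin, hfin', hsep, hsep', hcross, hNS, hNS'⟩ :=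
    hcen ℓ hℓ M hℓM haux A hA
  have hd : ∀ i, ∃ (Q₁ : Place Kbar (FF M)) (t : FF M) (O : Subring (FF M)),
      SameRed A (Q i) Q₁ ∧ H37DiscAt A Q₁ t O :=
    fun i => hdisc ℓ hℓ M hℓM haux A hA (Q i) (hfin i)
  have hd' : ∀ i, ∃ (Q₁ : Place Kbar (FF M)) (t : FF M) (O : Subring (FF M)),
      SameRed A (Q' i) Q₁ ∧ H37DiscAt A Q₁ t O :=
    fun i => hdisc ℓ hℓ M hℓM haux A hA (Q' i) (hfin' i)
  choose Q₁ t O hQ₁ hD using hd
  choose Q₁' t' O' hQ₁' hD' using hd'
  have hsym : ∀ {v w : Place Kbar (FF M)}, SameRed A v w → SameRed A w v :=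
    fun h => Fermat.Agent.Red.Match.sameRed_symm h
  have htr : ∀ {u v w : Place Kbar (FF M)}, SameRed A u v → SameRed A v w → SameRed A u w :=
    fun h1 h2 => Fermat.Agent.Red.Match.sameRed_trans h1 h2
  have hc : H10sChartAt A (⟨Q₁, t, O⟩ : H96Chart M g) :=
    { disc := hD
      sep := fun i j h => hsep i j (htr (htr (hQ₁ i) h) (hsym (hQ₁ j)))
      nonspec := h10s_nonspec_congr A (fun i => hsym (hQ₁ i)) hNS }
  have hc' : H10sChartAt A (⟨Q₁', t', O'⟩ : H96Chart M g) :=
    { disc := hD'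
      sep := fun i j h => hsep' i j (htr (htr (hQ₁' i) h) (hsym (hQ₁' j)))
      nonspec := h10s_nonspec_congr A (fun i => hsym (hQ₁' i)) hNS' }
  have hx : ∀ i j, ¬ SameRed A (Q₁ i) (Q₁' j) :=
    fun i j h => hcross i j (htr (htr (hQ₁ i) h) (hsym (hQ₁' j)))
  have hx' : ∀ i j, ¬ SameRed A (Q₁' i) (Q₁ j) := fun i j h => hx j i (hsym h)
  exact ⟨g, ⟨Q₁, t, O⟩, ⟨Q₁', t', O'⟩, hR, hc, hc',
    hlink ℓ hℓ M hℓM haux A hA g _ _ hR hc hc' hx,
    hlink ℓ hℓ M hℓM haux A hA g _ _ hR hc' hc hx'⟩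

/-- **TOP-GEO from the four atoms** DISC, CENTRES, LINK, UNR. -/
theorem h10s_geoGood_of_atoms (hdisc : H37DiscExists) (hcen : H10sCentres)
    (hlink : H10sLink) (hunr : H10sUnr) : H69vGeoGood :=
  h10s_geoGood (h10s_seed_of hdisc hcen hlink) hunr

end Fermat.Agent.P5
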