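import Fermat.Agent.P5.H13RRIface
import Fermat.Agent.S24.FICore
import Fermat.Agent.S24.FIWrap

/-!
# Wave 5, pillar (P), block GEO-RR-SF (helper11): the abstract, characteristic-free slice

`k` an algebraically closed field of ANY characteristic, `F` a field over `k`, `y : F`
transcendental with `F` finite over `k(y)`.  A *chart* for `y` is a Dedekind domain `B` with
fraction field `F`, containing `k`, with an element `yB` mapping to `y`, which is a finitely
generated module over `k[yB]`.

* `h11s_zeros_core` : the zeros of `y` form a finite set and their orders add up to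
  `[F : k(y)]` (the landed `FICore.fi_zeros` needs characteristic zero, only to know that the
  integral closure of `k[y]` is such a chart).
* `h11s_zeros_chart` : the same for `y - c`.
* `h11s_zeros` : `H13rZeros k F x` from a chart for `x` and a chart for `x⁻¹`.
-/

set_option autoImplicit false
set_option linter.style.haveILetI false
set_option linter.unusedSectionVars false

noncomputable section

namespace Fermat.Agent.P5

open AlgebraicCurve IntermediateField Polynomial Fermat.Agent.S24 Fermat.Agent.S24.FICore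

open scoped IntermediateField.algebraAdjoinAdjoin

section Chart

variable {k F : Type*} [Field k] [Field F] [Algebra k F]
variable {B : Type*} [CommRing B] [IsDedekindDomain B] [Algebra k B] [Algebra B F]
  [IsScalarTower k B F] [IsFractionRing B F]

/-- the `k`-algebra homomorphism `k[y] → B` of a chart. -/
def h11sPhi (y : F) (hy : Transcendental k y) (yB : B) : Algebra.adjoin k {y} →ₐ[k] B :=
  (Polynomial.aeval yB : Polynomial k →ₐ[k] B).comp (adjoinEquiv y hy).symm.toAlgHom

theorem h11sPhi_apply (y : F) (hy : Transcendental k y) (yB : B) (p : Polynomial k) :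
    h11sPhi y hy yB (adjoinEquiv y hy p) = Polynomial.aeval yB p := by
  simp [h11sPhi]

theorem h11s_coe_adjoinEquiv (y : F) (hy : Transcendental k y) (p : Polynomial k) :
    ((adjoinEquiv y hy p : Algebra.adjoin k {y}) : F) = Polynomial.aeval y p := by
  simp [adjoinEquiv]

theorem h11s_algebraMap_phi (y : F) (hy : Transcendental k y) (yB : B)
    (hyB : algebraMap B F yB = y) (a : Algebra.adjoin k {y}) :
    algebraMap B F (h11sPhi y hy yB a) = (a : F) := by
  obtain ⟨p, rfl⟩ := (adjoinEquiv y hy).surjective a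
  rw [h11sPhi_apply, h11s_coe_adjoinEquiv]
  have := Polynomial.aeval_algHom_apply (IsScalarTower.toAlgHom k B F) yB p
  rw [IsScalarTower.coe_toAlgHom'] at this
  rw [← this, hyB]

/-- **Zeros of `y` from a chart** (characteristic free). -/
theorem h11s_zeros_core [IsAlgClosed k] (y : F) (hy : Transcendental k y)
    [FiniteDimensional k⟮y⟯ F] (yB : B) (hyB : algebraMap B F yB = y)
    (hfin : ∃ S : Finset B, ∀ b : B, ∃ c : B → Polynomial k,
      b = ∑ s ∈ S, Polynomial.aeval yB (c s) * s) :
    ∃ s : Finset (Place k F), (∀ v, v ∈ s ↔ 0 < v.ord y) ∧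
      ∑ v ∈ s, v.ord y = (Module.finrank k⟮y⟯ F : ℤ) := by
  classical
  letI algAB : Algebra (Algebra.adjoin k {y}) B := (h11sPhi y hy yB).toRingHom.toAlgebra
  have halg : ∀ a : Algebra.adjoin k {y}, algebraMap (Algebra.adjoin k {y}) B a
      = h11sPhi y hy yB a := fun _ => rfl
  haveI tow1 : IsScalarTower (Algebra.adjoin k {y}) B F :=
    IsScalarTower.of_algebraMap_eq fun a => by
      rw [halg, h11s_algebraMap_phi y hy yB hyB]; rfl
  haveI tow2 : IsScalarTower k (Algebra.adjoin k {y}) B :=
    IsScalarTower.of_algebraMap_eq fun a => by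
      rw [halg]; exact ((h11sPhi y hy yB).commutes a).symm
  have hinj : Function.Injective (algebraMap (Algebra.adjoin k {y}) B) := by
    intro a b hab
    apply Subtype.ext
    have := congrArg (algebraMap B F) hab
    rwa [halg, halg, h11s_algebraMap_phi y hy yB hyB, h11s_algebraMap_phi y hy yB hyB] at this
  haveI tf : Module.IsTorsionFree (Algebra.adjoin k {y}) B :=
    Module.isTorsionFree_iff_algebraMap_injective.mpr hinj
  haveI hPID := isPrincipalIdealRing_adjoin y hy
  haveI fin : Module.Finite (Algebra.adjoin k {y}) B := by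
    obtain ⟨S, hS⟩ := hfin
    refine ⟨⟨S, ?_⟩⟩
    rw [eq_top_iff]
    intro b _
    obtain ⟨c, hc⟩ := hS b
    rw [hc]
    refine Submodule.sum_mem _ fun s hs => ?_
    have : Polynomial.aeval yB (c s) * s = (adjoinEquiv y hy (c s)) • s := by
      rw [Algebra.smul_def, halg, h11sPhi_apply]
    rw [this]
    exact Submodule.smul_mem _ _ (Submodule.subset_span hs)
  haveI flat : Module.Flat (Algebra.adjoin k {y}) B := inferInstance
  have hmax := span_gen_isMaximal y hy
  have hpne : (Ideal.span {gen (K := k) y}) ≠ ⊥ :=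
    Ideal.span_singleton_eq_bot.not.mpr (gen_ne_zero y hy)
  have hf : ∀ q : (Ideal.span {gen (K := k) y}).primesOver B,
      q.1.inertiaDeg (Algebra.adjoin k {y}) = 1 :=
    fun q => inertiaDeg_eq_one_aux (K := k) (F := F) y (Algebra.adjoin k {y}) B
      (Ideal.span {gen (K := k) y}) hpne q
  have hint : ∀ b : B, IsIntegral (Algebra.adjoin k {y}) (algebraMap B F b) := by
    intro b
    have h1 : IsIntegral (Algebra.adjoin k {y}) b := IsIntegral.of_finite _ b
    exact h1.map (IsScalarTower.toAlgHom (Algebra.adjoin k {y}) B F)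
  have hB : ∀ v : Place k F, 0 < v.ord (algebraMap (Algebra.adjoin k {y}) F (gen y)) →
      ∀ b : B, algebraMap B F b ∈ v.toValuationSubring := by
    intro v hv b
    exact mem_of_isIntegral_adjoin y v (DiffPlace.mem_of_ord_nonneg v hv.le) (hint b)
  obtain ⟨s, hs, hsum⟩ := exists_finset_sum_ord (K := k) (F := F)
    (A := Algebra.adjoin k {y}) (B := B) (gen y) (gen_ne_zero y hy) hf hB
  refine ⟨s, hs, ?_⟩
  rw [show y = algebraMap (Algebra.adjoin k {y}) F (gen y) from rfl, hsum]
  congr 1
  exact (IsFractionRing.finrank_eq (Algebra.adjoin k {y}) k⟮y⟯ B F).symm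

/-- **Zeros of `y - c` from a chart for `y`** (characteristic free). -/
theorem h11s_zeros_chart [IsAlgClosed k] (y : F) (hy : Transcendental k y)
    [hfd : FiniteDimensional k⟮y⟯ F] (yB : B) (hyB : algebraMap B F yB = y)
    (hfin : ∃ S : Finset B, ∀ b : B, ∃ c : B → Polynomial k,
      b = ∑ s ∈ S, Polynomial.aeval yB (c s) * s) (c : k) :
    ∃ s : Finset (Place k F), (∀ v, v ∈ s ↔ 0 < v.ord (y - algebraMap k F c)) ∧
      ∑ v ∈ s, v.ord (y - algebraMap k F c) = (Module.finrank k⟮y⟯ F : ℤ) := by
  haveI : FiniteDimensional k⟮y - algebraMap k F c⟯ F :=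
    fiw_finiteDimensional_of_eq (fiw_adjoin_sub_const y c) hfd
  have hyB' : algebraMap B F (yB - algebraMap k B c) = y - algebraMap k F c := by
    rw [map_sub, hyB, ← IsScalarTower.algebraMap_apply]
  have hfin' : ∃ S : Finset B, ∀ b : B, ∃ c' : B → Polynomial k,
      b = ∑ s ∈ S, Polynomial.aeval (yB - algebraMap k B c) (c' s) * s := by
    obtain ⟨S, hS⟩ := hfin
    refine ⟨S, fun b => ?_⟩
    obtain ⟨c0, hc0⟩ := hS b
    refine ⟨fun s => (c0 s).comp (X + C c), ?_⟩
    rw [hc0]
    refine Finset.sum_congr rfl fun s _ => ?_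
    congr 1
    rw [Polynomial.aeval_comp]
    congr 1
    simp
  obtain ⟨s, hs, hsum⟩ := h11s_zeros_core (y - algebraMap k F c)
    (fiw_transcendental_sub_const hy c) (yB - algebraMap k B c) hyB' hfin'
  exact ⟨s, hs, by rw [hsum, fiw_finrank_of_eq (fiw_adjoin_sub_const y c)]⟩

/-- there are infinitely many places, from the zeros of the `x - c`. -/
theorem h11s_infinite_of_zeros [IsAlgClosed k] (x : F) [FiniteDimensional k⟮x⟯ F]
    (hz : ∀ c : k, ∃ s : Finset (Place k F), (∀ v, v ∈ s ↔ 0 < v.ord (x - algebraMap k F c)) ∧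
      ∑ v ∈ s, v.ord (x - algebraMap k F c) = (Module.finrank k⟮x⟯ F : ℤ)) :
    Infinite (Place k F) := by
  have hex : ∀ c : k, ∃ v : Place k F, 0 < v.ord (x - algebraMap k F c) := by
    intro c
    obtain ⟨s, hs, hsum⟩ := hz c
    have hne : s.Nonempty := by
      by_contra h
      rw [Finset.not_nonempty_iff_eq_empty] at h
      rw [h, Finset.sum_empty] at hsum
      have hpos : 0 < Module.finrank k⟮x⟯ F := Module.finrank_pos
      omega
    obtain ⟨v, hv⟩ := hne
    exact ⟨v, (hs v).mp hv⟩
  choose φ hφ using hex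
  haveI : Infinite k := IsAlgClosed.instInfinite
  refine Infinite.of_injective φ ?_
  intro c c' h
  by_contra hne
  have h1 : 0 < (φ c).ord (x - algebraMap k F c) := hφ c
  have h2 : 0 < (φ c).ord (x - algebraMap k F c') := by rw [h]; exact hφ c'
  have h3 : (x - algebraMap k F c') - (x - algebraMap k F c) = algebraMap k F (c - c') := by
    rw [map_sub]; ring
  have hm1 := DiffPlace.mem_maximalIdeal_of_ord_pos (φ c)
    (z := ⟨_, DiffPlace.mem_of_ord_nonneg (φ c) h1.le⟩) h1
  have hm2 := DiffPlace.mem_maximalIdeal_of_ord_pos (φ c)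
    (z := ⟨_, DiffPlace.mem_of_ord_nonneg (φ c) h2.le⟩) h2
  have hm3 := (IsLocalRing.maximalIdeal (φ c).toValuationSubring).sub_mem hm2 hm1
  have hu : IsUnit (algebraMap k (φ c).toValuationSubring (c - c')) :=
    (IsUnit.mk0 (c - c') (sub_ne_zero.mpr hne)).map _
  have hm4 : algebraMap k (φ c).toValuationSubring (c - c') ∈
      IsLocalRing.maximalIdeal (φ c).toValuationSubring := by
    have h5 : algebraMap k (φ c).toValuationSubring (c - c') =
        (⟨_, DiffPlace.mem_of_ord_nonneg (φ c) h2.le⟩ : (φ c).toValuationSubring) -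
          ⟨_, DiffPlace.mem_of_ord_nonneg (φ c) h1.le⟩ := by
      apply Subtype.ext
      rw [(φ c).coe_algebraMap]
      exact h3.symm
    rw [h5]
    exact hm3
  exact (IsLocalRing.mem_maximalIdeal _).mp hm4 hu

/-- every place at which `y` is regular comes from a maximal ideal of a chart for `y`. -/
theorem h11s_place_chart (y : F) (yB : B)
    (hyB : algebraMap B F yB = y)
    (hfin : ∃ S : Finset B, ∀ b : B, ∃ c : B → Polynomial k,
      b = ∑ s ∈ S, Polynomial.aeval yB (c s) * s)
    (v : Place k F) (hv : y ∈ v.toValuationSubring) :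
    ∃ P : IsDedekindDomain.HeightOneSpectrum B,
      Place.ofHeightOneSpectrum (K := k) (F := F) P = v := by
  classical
  refine exists_ofHeightOneSpectrum_eq (R := B) v fun b => ?_
  -- `b` is a combination of the generators with coefficients in `k[yB]`
  obtain ⟨S, hS⟩ := hfin
  -- the subalgebra `k[yB]`-span of `S` is a finite `k[yB]`-module, so `b` is integral
  let φ : Polynomial k →ₐ[k] B := Polynomial.aeval yB
  letI : Algebra (Polynomial k) B := φ.toRingHom.toAlgebra
  have hfm : Module.Finite (Polynomial k) B := by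
    refine ⟨⟨S, ?_⟩⟩
    rw [eq_top_iff]
    intro b' _
    obtain ⟨c, hc⟩ := hS b'
    rw [hc]
    refine Submodule.sum_mem _ fun s hs => ?_
    have : Polynomial.aeval yB (c s) * s = (c s) • s := by
      rw [Algebra.smul_def]; rfl
    rw [this]
    exact Submodule.smul_mem _ _ (Submodule.subset_span hs)
  have hb : IsIntegral (Polynomial k) b := IsIntegral.of_finite _ b
  obtain ⟨p, hp, hpb⟩ := hb
  -- push the integral equation to `F`
  have hA : ∀ q : Polynomial k, algebraMap B F (algebraMap (Polynomial k) B q)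
      ∈ v.toValuationSubring := by
    intro q
    have h1 : algebraMap B F (algebraMap (Polynomial k) B q) = Polynomial.aeval y q := by
      have h2 : algebraMap (Polynomial k) B q = Polynomial.aeval yB q := rfl
      rw [h2]
      have := Polynomial.aeval_algHom_apply (IsScalarTower.toAlgHom k B F) yB q
      rw [IsScalarTower.coe_toAlgHom'] at this
      rw [← this, hyB]
    rw [h1]
    let Sv : Subalgebra k F :=
      { v.toValuationSubring.toSubring.toSubsemiring with
        algebraMap_mem' := v.algebraMap_mem' }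
    have : Polynomial.aeval y q ∈ Sv := by
      rw [← Polynomial.aeval_subalgebra_coe q Sv ⟨y, hv⟩]
      exact (Polynomial.aeval (⟨y, hv⟩ : Sv) q).2
    exact this
  -- `algebraMap B F b` is integral over the valuation ring
  let ψ : Polynomial k →+* v.toValuationSubring :=
    ((algebraMap B F).comp (algebraMap (Polynomial k) B)).codRestrict
      v.toValuationSubring.toSubring hA
  have hint : IsIntegral v.toValuationSubring (algebraMap B F b) := by
    refine ⟨p.map ψ, hp.map ψ, ?_⟩
    have h3 : Polynomial.eval₂ (algebraMap v.toValuationSubring F) (algebraMap B F b) (p.map ψ)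
        = algebraMap B F (Polynomial.eval₂ (algebraMap (Polynomial k) B) b p) := by
      rw [Polynomial.eval₂_map, Polynomial.hom_eval₂]
      rfl
    rw [h3, hpb, map_zero]
  obtain ⟨z, hz⟩ := (IsIntegrallyClosed.isIntegral_iff (R := v.toValuationSubring) (K := F)).mp
    hint
  rw [← hz]
  exact z.2

/-- an element which is a polynomial in `x` and a polynomial in `x⁻¹` is a constant. -/
theorem h11s_adjoin_inter (x : F) (hx : Transcendental k x) (z : F)
    (h1 : z ∈ Algebra.adjoin k {x}) (h2 : z ∈ Algebra.adjoin k {x⁻¹}) :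
    z ∈ Set.range (algebraMap k F) := by
  have hx0 : x ≠ 0 := fun h => hx (h ▸ isAlgebraic_zero)
  rw [Algebra.adjoin_singleton_eq_range_aeval] at h1 h2
  obtain ⟨p, rfl⟩ := h1
  obtain ⟨q, hq⟩ := h2
  rcases eq_or_ne p 0 with rfl | hp0
  · exact ⟨0, by simp⟩
  letI : Invertible (x⁻¹) := invertibleOfNonzero (inv_ne_zero hx0)
  have hinv : ⅟(x⁻¹) = x := by rw [invOf_eq_inv, inv_inv]
  have h3 := Polynomial.eval₂_reverse_mul_pow (algebraMap k F) (x⁻¹) q
  rw [hinv] at h3
  -- `aeval x (reverse q) = x ^ m * aeval x p`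
  have h4 : Polynomial.aeval x (X ^ q.natDegree * p) = Polynomial.aeval x q.reverse := by
    have hq' : Polynomial.eval₂ (algebraMap k F) x⁻¹ q = Polynomial.aeval x p := by
      rw [← Polynomial.aeval_def]; exact hq
    rw [hq'] at h3
    rw [map_mul, map_pow, Polynomial.aeval_X, Polynomial.aeval_def x q.reverse]
    have h5 : Polynomial.eval₂ (algebraMap k F) x q.reverse
        = Polynomial.aeval x p * x ^ q.natDegree := by
      rw [← h3, mul_assoc, ← mul_pow, inv_mul_cancel₀ hx0, one_pow, mul_one]
    rw [h5, mul_comm]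
  have h6 : X ^ q.natDegree * p = q.reverse := transcendental_iff_injective.mp hx h4
  have h7 : (X ^ q.natDegree * p).natDegree = q.natDegree + p.natDegree := by
    rw [Polynomial.natDegree_mul (pow_ne_zero _ Polynomial.X_ne_zero) hp0,
      Polynomial.natDegree_X_pow]
  have h8 : q.reverse.natDegree ≤ q.natDegree := Polynomial.reverse_natDegree_le q
  rw [← h6, h7] at h8
  have h9 : p.natDegree = 0 := by omega
  obtain ⟨c, hc⟩ := Polynomial.natDegree_eq_zero.mp h9
  refine ⟨c, ?_⟩
  rw [← hc]
  exact (Polynomial.aeval_C x c).symm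

/-- the elements of a chart for `y` are integral over `k[y]`. -/
theorem h11s_isIntegral_chart (y : F) (hy : Transcendental k y) (yB : B)
    (hyB : algebraMap B F yB = y)
    (hfin : ∃ S : Finset B, ∀ b : B, ∃ c : B → Polynomial k,
      b = ∑ s ∈ S, Polynomial.aeval yB (c s) * s) (b : B) :
    IsIntegral (Algebra.adjoin k {y}) (algebraMap B F b) := by
  classical
  letI algAB : Algebra (Algebra.adjoin k {y}) B := (h11sPhi y hy yB).toRingHom.toAlgebra
  have halg : ∀ a : Algebra.adjoin k {y}, algebraMap (Algebra.adjoin k {y}) B a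
      = h11sPhi y hy yB a := fun _ => rfl
  haveI tow1 : IsScalarTower (Algebra.adjoin k {y}) B F :=
    IsScalarTower.of_algebraMap_eq fun a => by
      rw [halg, h11s_algebraMap_phi y hy yB hyB]; rfl
  haveI fin : Module.Finite (Algebra.adjoin k {y}) B := by
    obtain ⟨S, hS⟩ := hfin
    refine ⟨⟨S, ?_⟩⟩
    rw [eq_top_iff]
    intro b _
    obtain ⟨c, hc⟩ := hS b
    rw [hc]
    refine Submodule.sum_mem _ fun s hs => ?_
    have : Polynomial.aeval yB (c s) * s = (adjoinEquiv y hy (c s)) • s := by
      rw [Algebra.smul_def, halg, h11sPhi_apply]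
    rw [this]
    exact Submodule.smul_mem _ _ (Submodule.subset_span hs)
  have h1 : IsIntegral (Algebra.adjoin k {y}) b := IsIntegral.of_finite _ b
  exact h1.map (IsScalarTower.toAlgHom (Algebra.adjoin k {y}) B F)

/-- the coefficients of the minimal polynomial over `k(y)` of an element integral over `k[y]`
lie in `k[y]`. -/
theorem h11s_minpoly_coeff (y : F) (hy : Transcendental k y) (f : F)
    (hf : IsIntegral (Algebra.adjoin k {y}) f) (n : ℕ) :
    ((minpoly k⟮y⟯ f).map (algebraMap k⟮y⟯ F)).coeff n ∈ Algebra.adjoin k {y} := by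
  haveI hPID := isPrincipalIdealRing_adjoin y hy
  have h1 : minpoly k⟮y⟯ f
      = (minpoly (Algebra.adjoin k {y}) f).map (algebraMap (Algebra.adjoin k {y}) k⟮y⟯) :=
    minpoly.isIntegrallyClosed_eq_field_fractions' k⟮y⟯ hf
  rw [h1, Polynomial.map_map, ← IsScalarTower.algebraMap_eq, Polynomial.coeff_map]
  exact ((minpoly (Algebra.adjoin k {y}) f).coeff n).2

theorem h11s_minpoly_map_congr (f : F) {E₁ E₂ : IntermediateField k F} (h : E₁ = E₂) :
    (minpoly E₁ f).map (algebraMap E₁ F) = (minpoly E₂ f).map (algebraMap E₂ F) := by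
  subst h
  rfl

/-- a function which is regular at all the places of a chart lies in the chart. -/
theorem h11s_mem_chart (f : F) (hf : ∀ v : Place k F, 0 ≤ v.ord f) :
    f ∈ Set.range (algebraMap B F) := by
  have := IsDedekindDomain.HeightOneSpectrum.mem_integers_of_valuation_le_one
    (R := B) (K := F) f (fun P => by
      have h1 := DiffPlace.mem_of_ord_nonneg (Place.ofHeightOneSpectrum (K := k) (F := F) P)
        (hf _)
      rw [Place.ofHeightOneSpectrum_toValuationSubring,
        Valuation.mem_valuationSubring_iff] at h1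
      exact h1)
  exact this

end Chart

section TwoCharts

variable {k F : Type*} [Field k] [Field F] [Algebra k F]
variable {B : Type*} [CommRing B] [IsDedekindDomain B] [Algebra k B] [Algebra B F]
  [IsScalarTower k B F] [IsFractionRing B F]
variable {B' : Type*} [CommRing B'] [IsDedekindDomain B'] [Algebra k B'] [Algebra B' F]
  [IsScalarTower k B' F] [IsFractionRing B' F]

/-- **ZEROS**: the fundamental identity for `x - c` and `x⁻¹` from a chart for `x` and a chart
for `x⁻¹`; `k` algebraically closed of any characteristic. -/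
theorem h11s_zeros [IsAlgClosed k] (x : F) (hx : Transcendental k x)
    [hfd : FiniteDimensional k⟮x⟯ F]
    (xB : B) (hxB : algebraMap B F xB = x)
    (hfin : ∃ S : Finset B, ∀ b : B, ∃ c : B → Polynomial k,
      b = ∑ s ∈ S, Polynomial.aeval xB (c s) * s)
    (xB' : B') (hxB' : algebraMap B' F xB' = x⁻¹)
    (hfin' : ∃ S : Finset B', ∀ b : B', ∃ c : B' → Polynomial k,
      b = ∑ s ∈ S, Polynomial.aeval xB' (c s) * s) :
    H13rZeros k F x := by
  rintro y (⟨c, rfl⟩ | rfl)
  · exact h11s_zeros_chart x hx xB hxB hfin c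
  · haveI : FiniteDimensional k⟮x⁻¹⟯ F :=
      fiw_finiteDimensional_of_eq (fiw_adjoin_inv x) hfd
    obtain ⟨s, hs, hsum⟩ := h11s_zeros_core x⁻¹ (fiw_transcendental_inv hx) xB' hxB' hfin'
    exact ⟨s, hs, by rw [hsum, fiw_finrank_of_eq (fiw_adjoin_inv x)]⟩

/-- **CONST**: a function which is regular at every place is constant (no separability, no
principal divisors: `B ∩ B' = k`). -/
theorem h11s_const [IsAlgClosed k] (x : F) (hx : Transcendental k x)
    [hfd : FiniteDimensional k⟮x⟯ F]
    (xB : B) (hxB : algebraMap B F xB = x)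
    (hfin : ∃ S : Finset B, ∀ b : B, ∃ c : B → Polynomial k,
      b = ∑ s ∈ S, Polynomial.aeval xB (c s) * s)
    (xB' : B') (hxB' : algebraMap B' F xB' = x⁻¹)
    (hfin' : ∃ S : Finset B', ∀ b : B', ∃ c : B' → Polynomial k,
      b = ∑ s ∈ S, Polynomial.aeval xB' (c s) * s)
    (f : F) (hf : ∀ v : Place k F, 0 ≤ v.ord f) : f ∈ Set.range (algebraMap k F) := by
  classical
  haveI : FiniteDimensional k⟮x⁻¹⟯ F :=
    fiw_finiteDimensional_of_eq (fiw_adjoin_inv x) hfd
  obtain ⟨b, hb⟩ := h11s_mem_chart (k := k) (B := B) f hf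
  obtain ⟨b', hb'⟩ := h11s_mem_chart (k := k) (B := B') f hf
  have hi1 : IsIntegral (Algebra.adjoin k {x}) f := by
    rw [← hb]; exact h11s_isIntegral_chart x hx xB hxB hfin b
  have hi2 : IsIntegral (Algebra.adjoin k {x⁻¹}) f := by
    rw [← hb']
    exact h11s_isIntegral_chart x⁻¹ (fiw_transcendental_inv hx) xB' hxB' hfin' b'
  have hcoef : ∀ n, ((minpoly k⟮x⟯ f).map (algebraMap k⟮x⟯ F)).coeff n
      ∈ Set.range (algebraMap k F) := by
    intro n
    refine h11s_adjoin_inter x hx _ (h11s_minpoly_coeff x hx f hi1 n) ?_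
    rw [← h11s_minpoly_map_congr f (fiw_adjoin_inv (K := k) x)]
    exact h11s_minpoly_coeff x⁻¹ (fiw_transcendental_inv hx) f hi2 n
  have hlift : (minpoly k⟮x⟯ f).map (algebraMap k⟮x⟯ F) ∈ Polynomial.lifts (algebraMap k F) :=
    (Polynomial.lifts_iff_coeff_lifts _).mpr hcoef
  obtain ⟨q, hq'⟩ := hlift
  have hq : q.map (algebraMap k F) = (minpoly k⟮x⟯ f).map (algebraMap k⟮x⟯ F) := hq'
  have hint : IsIntegral k⟮x⟯ f := IsIntegral.of_finite _ f
  have hq0 : q ≠ 0 := by
    rintro rfl
    rw [Polynomial.map_zero] at hq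
    have h0 : minpoly k⟮x⟯ f = 0 :=
      Polynomial.map_injective _ (algebraMap k⟮x⟯ F).injective (by rw [← hq, Polynomial.map_zero])
    exact minpoly.ne_zero hint h0
  have hroot : Polynomial.aeval f q = 0 := by
    rw [Polynomial.aeval_def, ← Polynomial.eval_map, hq, Polynomial.eval_map,
      ← Polynomial.aeval_def, minpoly.aeval]
  obtain ⟨c, hc⟩ := pd_exists_algebraMap_eq (K := k) (F := F) ⟨q, hq0, hroot⟩
  exact ⟨c, hc⟩

/-- **BASE**: the basic facts on the places from two charts and the existence of principal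
divisors. -/
theorem h11s_base_of_pd [IsAlgClosed k] (x : F) (hx : Transcendental k x)
    [hfd : FiniteDimensional k⟮x⟯ F]
    (xB : B) (hxB : algebraMap B F xB = x)
    (hfin : ∃ S : Finset B, ∀ b : B, ∃ c : B → Polynomial k,
      b = ∑ s ∈ S, Polynomial.aeval xB (c s) * s)
    (xB' : B') (hxB' : algebraMap B' F xB' = x⁻¹)
    (hfin' : ∃ S : Finset B', ∀ b : B', ∃ c : B' → Polynomial k,
      b = ∑ s ∈ S, Polynomial.aeval xB' (c s) * s)
    (hpd : ∀ f : F, f ≠ 0 → ∃ D : Divisor k F, (∀ v : Place k F, D v = v.ord f) ∧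
      Divisor.degree D = 0) :
    H13rBase k F where
  deg_one v := DiffPlace.place_deg_eq_one x (Algebra.IsAlgebraic.of_finite _ _) v
  pd := hpd
  const f hf := h11s_const x hx xB hxB hfin xB' hxB' hfin' f hf
  inj := (algebraMap k F).injective
  infinite := h11s_infinite_of_zeros x fun c => h11s_zeros_chart x hx xB hxB hfin c

/-- every place comes from a maximal ideal of one of the two charts. -/
theorem h11s_place_two_charts (x : F)
    (xB : B) (hxB : algebraMap B F xB = x)
    (hfin : ∃ S : Finset B, ∀ b : B, ∃ c : B → Polynomial k,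
      b = ∑ s ∈ S, Polynomial.aeval xB (c s) * s)
    (xB' : B') (hxB' : algebraMap B' F xB' = x⁻¹)
    (hfin' : ∃ S : Finset B', ∀ b : B', ∃ c : B' → Polynomial k,
      b = ∑ s ∈ S, Polynomial.aeval xB' (c s) * s)
    (v : Place k F) :
    (∃ P : IsDedekindDomain.HeightOneSpectrum B,
        Place.ofHeightOneSpectrum (K := k) (F := F) P = v) ∨
      (∃ P : IsDedekindDomain.HeightOneSpectrum B',
        Place.ofHeightOneSpectrum (K := k) (F := F) P = v) := by
  rcases v.toValuationSubring.mem_or_inv_mem x with h | h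
  · exact Or.inl (h11s_place_chart x xB hxB hfin v h)
  · exact Or.inr (h11s_place_chart x⁻¹ xB' hxB' hfin' v h)

end TwoCharts

end Fermat.Agent.P5
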