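import Fermat.Agent.P5.H96LawIface

/-!
# P5 (wave 5, S19), block GEO-DISC: frozen interface (sub-architect helper37)

One residue disc of the model of `X₀(M)` over a valuation subring `A` of `ℚ̄`, in the P-RED
vocabulary (`Place`, `ValueAt`, `SameRed`, `modelFin`):

* `H37DiscAt A Q t O` : the disc calculus at the centre `Q`: `Q` and `t` are inertia-fixed,
  `t(Q) = 0`, `t` maps the residue disc of `Q` injectively into `𝔪_A`, `O` is a ring of functions
  with integral values on the disc, containing the constants of `A`, `t` and the finite chart,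
  local (functions with a unit value at `Q` are invertible in `O`) and closed under DIVISION:
  `f - f(P) = (t - t(P)) h`, `h ∈ O`, at every point `P` of the disc.
  The fields `t_zero … O_div` are verbatim the per-centre fields of `H96Chart.Valid`
  (`P5/H96LawIface.lean`, helper96).
* `H37DiscExists` : **GEO-DISC**: at a good level, every FINITE place lies in the residue disc of
  an inertia-fixed centre with such a datum.

Intended proof: `O` = the local ring of the chart over `A` at the closed point (= localisation of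
the `A`-span of the chart over the inertia ring); `t = u - u(Q)`, `u` the rational local parameter
of R-L0 (`H62L0`); `O_div` by the diagonal lemma `h37d_division` (`P5/H37Diag.lean`) or by
Nakayama over `A` (helper41); `t_inj` from `O_div`; `Q` by UNR-PLACE (helper91 / helper90).
Every declaration is a definition; nothing is assumed.
-/

set_option autoImplicit false

open AlgebraicCurve ModularCurve

noncomputable section

namespace Fermat.Agent.P5

open Fermat.Agent.S37

/-- the disc calculus at the centre `Q` with parameter `t` and ring `O`. -/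
structure H37DiscAt {M : ℕ} [NeZero M] (A : ValuationSubring Kbar) (Q : Place Kbar (FF M))
    (t : FF M) (O : Subring (FF M)) : Prop where
  Q_fixed : ∀ σ ∈ A.inertiaSubgroupIn ℚ, gal M σ • Q = Q
  t_fixed : ∀ σ ∈ A.inertiaSubgroupIn ℚ, gal M σ • t = t
  Q_fin : IsFinAt A Q
  t_zero : ValueAt Q t 0
  t_small : ∀ P, SameRed A P Q → ∃ a ∈ A.nonunits, ValueAt P t a
  t_inj : ∀ P P' a, SameRed A P Q → SameRed A P' Q → ValueAt P t a → ValueAt P' t a → P = P'
  refl : SameRed A Q Q
  O_cst : ∀ a, a ∈ A → cst M a ∈ O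
  O_t : t ∈ O
  O_model : ∀ b ∈ modelFin M A, b ∈ O
  O_unit : ∀ f ∈ O, ∀ a, ValueAt Q f a → a ≠ 0 → a⁻¹ ∈ A → f⁻¹ ∈ O
  O_val : ∀ f ∈ O, ∀ P, SameRed A P Q → ∃ a ∈ A, ValueAt P f a
  O_div : ∀ f ∈ O, ∀ P, SameRed A P Q → ∀ a a', ValueAt P f a → ValueAt P t a' →
    ∃ h ∈ O, f - cst M a = (t - cst M a') * h

/-- **GEO-DISC.**  At a good level every finite place lies in the residue disc of an
inertia-fixed centre with a disc calculus. -/
def H37DiscExists : Prop :=
  ∀ (ℓ : ℕ), ℓ.Prime → ∀ (M : ℕ) [NeZero M], ¬ ℓ ∣ M → auxLevel ℓ ∣ M →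
    ∀ A : ValuationSubring Kbar, A.LiesOverPrime ℓ →
    ∀ v : Place Kbar (FF M), IsFinAt A v →
      ∃ (Q : Place Kbar (FF M)) (t : FF M) (O : Subring (FF M)),
        SameRed A v Q ∧ H37DiscAt A Q t O

/-- a chart all of whose centres carry a disc calculus has the DISC fields of
`H96Chart.Valid`. -/
theorem h37i_valid_of_disc {M : ℕ} [NeZero M] {g : ℕ} (A : ValuationSubring Kbar)
    (c : H96Chart M g) (hd : ∀ i, H37DiscAt A (c.Q i) (c.t i) (c.O i))
    (hrep : ∀ x ∈ redKerPic M A, ∃ P : Fin g → Place Kbar (FF M),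
      (∀ i, SameRed A (P i) (c.Q i)) ∧ h96m_IsCls x P c.Q)
    (hrep_unique : ∀ (x : JZero M) (P P' : Fin g → Place Kbar (FF M)),
      (∀ i, SameRed A (P i) (c.Q i)) → (∀ i, SameRed A (P' i) (c.Q i)) →
      h96m_IsCls x P c.Q → h96m_IsCls x P' c.Q → P = P')
    (hinert : ∀ σ ∈ A.inertiaSubgroupIn ℚ, ∀ (x : JZero M) (i : Fin g) (a : Kbar),
      c.IsCoord A x i a → c.IsCoord A (σ • x) i (σ a)) : c.Valid A where
  t_zero i := (hd i).t_zero
  t_small i := (hd i).t_small
  t_inj i := (hd i).t_inj
  refl i := (hd i).refl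
  O_cst i := (hd i).O_cst
  O_t i := (hd i).O_t
  O_val i := (hd i).O_val
  O_div i := (hd i).O_div
  rep := hrep
  rep_unique := hrep_unique
  inert := hinert

end Fermat.Agent.P5
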