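import Fermat.Agent.Red.MatchLoc
import Fermat.Agent.Red.GGChartAsm
import Fermat.Agent.Red.GGSection
import Fermat.Agent.S36.H62RegIface
import Fermat.Agent.P5.H37DiscIface

/-!
# P5 (wave 5, S19), block GEO-DISC, leaf DISC-INST-B (helper12): the ring of a residue disc

`M` a level, `A` a valuation subring of `ℚ̄`, `Q` a place of `F_M` (finite at `j`).

* `h12dO A Q : Subring (FF M)` : the local ring of the normal model at the reduction of `Q`:
  the functions `f = g / s` with `g, s` in the finite chart `modelFin M A` and `s(Q)` a unit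
  of `A` (integral regular functions on the residue disc of `Q`).
* `h12d_modelFin_le`, `h12d_chart0_le`, `h12d_cst_mem` (`O_cst`), `h12d_t_mem` (`O_t`).
* `h12d_val` (`O_val`) : a function of `h12dO A Q` has a value in `A` at every place of the
  disc of `Q`; `h12d_val_unit` : unit values stay units on the disc; `h12d_val_cong`.
* `h12d_inv_mem` : `h12dO A Q` is local (a function with unit value at `Q` is invertible).
* `h12d_place_ext` : a place finite at `j` is determined by the chart functions vanishing at it.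
* `h12d_t_inj` : the division property `O_div` for `t` implies that `t` is injective on the disc.
* `h12d_discAt_of` : `H37DiscAt A Q t (h12dO A Q)` from an inertia-fixed centre `Q`, an
  inertia-fixed `t ∈ h12dO A Q` with `t(Q) = 0` and the division property.
-/

set_option autoImplicit false
set_option linter.unusedSectionVars false
set_option linter.unusedVariables false
set_option linter.style.longLine false

open AlgebraicCurve ModularCurve

noncomputable section

namespace Fermat.Agent.P5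

open Fermat.Agent.S37 Fermat.Agent.Red.Match Fermat.Agent.Red.GG Fermat.Agent.S36

variable {M : ℕ} [NeZero M]

/-! ## Units of `A` as values -/

omit [NeZero M] in
/-- a value congruent to a unit of `A` is a unit of `A`. -/
theorem h12d_unit_of_cong (A : ValuationSubring Kbar) {a b : Kbar} (hb : A.valuation b = 1)
    (hab : a - b ∈ A.nonunits) : A.valuation a = 1 := by
  have h1 : A.valuation (a - b) < A.valuation b := by
    rw [hb]
    exact (A.mem_nonunits_iff).mp hab
  have h2 : A.valuation ((a - b) + b) = A.valuation b := Valuation.map_add_eq_of_lt_right _ h1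
  rw [sub_add_cancel] at h2
  rw [h2, hb]

omit [NeZero M] in
theorem h12d_mem_of_val_one (A : ValuationSubring Kbar) {a : Kbar} (ha : A.valuation a = 1) :
    a ∈ A := by
  rw [← A.valuation_le_one_iff, ha]

omit [NeZero M] in
theorem h12d_inv_mem_of_val_one (A : ValuationSubring Kbar) {a : Kbar}
    (ha : A.valuation a = 1) : a⁻¹ ∈ A := by
  rw [← A.valuation_le_one_iff, map_inv₀, ha, inv_one]

omit [NeZero M] in
theorem h12d_ne_zero_of_val_one (A : ValuationSubring Kbar) {a : Kbar}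
    (ha : A.valuation a = 1) : a ≠ 0 := by
  rintro rfl
  rw [map_zero] at ha
  exact zero_ne_one ha

/-! ## The ring of the disc -/

/-- **the local ring of the normal model at the reduction of `Q`**: functions `f = g / s`,
`g, s ∈ modelFin M A`, `s(Q)` a unit of `A`. -/
def h12dO (A : ValuationSubring Kbar) (Q : Place Kbar (FF M)) : Subring (FF M) where
  carrier := {f | ∃ s g : FF M, s ∈ modelFin M A ∧ g ∈ modelFin M A ∧
    (∃ a : Kbar, ValueAt Q s a ∧ A.valuation a = 1) ∧ s * f = g}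
  mul_mem' := by
    rintro f f' ⟨s, g, hs, hg, ⟨a, hsa, ha⟩, h⟩ ⟨s', g', hs', hg', ⟨a', hsa', ha'⟩, h'⟩
    refine ⟨s * s', g * g', mul_mem hs hs', mul_mem hg hg',
      ⟨a * a', valueAt_mul hsa hsa', by rw [map_mul, ha, ha', one_mul]⟩, ?_⟩
    rw [← h, ← h']
    ring
  one_mem' := ⟨1, 1, one_mem _, one_mem _, ⟨1, valueAt_one Q, map_one _⟩, by ring⟩
  add_mem' := by
    rintro f f' ⟨s, g, hs, hg, ⟨a, hsa, ha⟩, h⟩ ⟨s', g', hs', hg', ⟨a', hsa', ha'⟩, h'⟩
    refine ⟨s * s', g * s' + g' * s, mul_mem hs hs',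
      add_mem (mul_mem hg hs') (mul_mem hg' hs),
      ⟨a * a', valueAt_mul hsa hsa', by rw [map_mul, ha, ha', one_mul]⟩, ?_⟩
    rw [← h, ← h']
    ring
  zero_mem' := ⟨1, 0, one_mem _, zero_mem _, ⟨1, valueAt_one Q, map_one _⟩, by ring⟩
  neg_mem' := by
    rintro f ⟨s, g, hs, hg, hu, h⟩
    refine ⟨s, -g, hs, neg_mem hg, hu, ?_⟩
    rw [← h]
    ring

theorem h12d_mem_O {A : ValuationSubring Kbar} {Q : Place Kbar (FF M)} {f : FF M} :
    f ∈ h12dO A Q ↔ ∃ s g : FF M, s ∈ modelFin M A ∧ g ∈ modelFin M A ∧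
      (∃ a : Kbar, ValueAt Q s a ∧ A.valuation a = 1) ∧ s * f = g :=
  Iff.rfl

/-- the finite chart over `A` lies in the ring of the disc. -/
theorem h12d_modelFin_le (A : ValuationSubring Kbar) (Q : Place Kbar (FF M)) :
    modelFin M A ≤ h12dO A Q := fun f hf =>
  ⟨1, f, one_mem _, hf, ⟨1, valueAt_one Q, map_one _⟩, one_mul f⟩

/-- the chart over the inertia ring lies in the ring of the disc. -/
theorem h12d_chart0_le (A : ValuationSubring Kbar) (Q : Place Kbar (FF M)) :
    h62rChart A M (jB M) ≤ h12dO A Q := fun f hf =>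
  h12d_modelFin_le A Q (h62r_mem_chart.mp hf).1

/-- **`O_cst`.** -/
theorem h12d_cst_mem (A : ValuationSubring Kbar) (Q : Place Kbar (FF M)) {a : Kbar}
    (ha : a ∈ A) : cst M a ∈ h12dO A Q :=
  h12d_modelFin_le A Q (cst_mem_modelAt M A (jB M) ha)

/-- **`O_t`**: a parameter `t = u - u(Q)` with `u` in the finite chart. -/
theorem h12d_t_mem (A : ValuationSubring Kbar) (Q : Place Kbar (FF M)) {u : FF M}
    (hu : u ∈ modelFin M A) {c : Kbar} (hc : c ∈ A) : u - cst M c ∈ h12dO A Q :=
  sub_mem (h12d_modelFin_le A Q hu) (h12d_cst_mem A Q hc)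

/-! ## Values on the disc -/

/-- chart functions take congruent values in `A` on a disc. -/
theorem h12d_congAt {A : ValuationSubring Kbar} {P Q : Place Kbar (FF M)}
    (hQ : IsFinAt A Q) (hPQ : SameRed A P Q) {f : FF M} (hf : f ∈ modelFin M A) :
    CongAt A P Q f := by
  rcases hPQ with ⟨-, -, h⟩ | ⟨-, h, -⟩
  · exact h f hf
  · exact (h hQ).elim

/-- a chart function with unit value at `Q` has unit values on the disc of `Q`. -/
theorem h12d_val_unit {A : ValuationSubring Kbar} {P Q : Place Kbar (FF M)}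
    (hQ : IsFinAt A Q) (hPQ : SameRed A P Q) {s : FF M} (hs : s ∈ modelFin M A)
    {a : Kbar} (hsa : ValueAt Q s a) (ha : A.valuation a = 1) :
    ∃ b : Kbar, ValueAt P s b ∧ A.valuation b = 1 := by
  obtain ⟨b, a', -, -, hPb, hQa', hba'⟩ := h12d_congAt hQ hPQ hs
  have e : a' = a := valueAt_unique hQa' hsa
  rw [e] at hba'
  exact ⟨b, hPb, h12d_unit_of_cong A ha hba'⟩

/-- the value of a quotient. -/
theorem h12d_valueAt_div {P : Place Kbar (FF M)} {s g f : FF M} {b c : Kbar}
    (hs : ValueAt P s b) (hb : b ≠ 0) (hg : ValueAt P g c) (h : s * f = g) :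
    ValueAt P f (c * b⁻¹) := by
  have hs0 : s ≠ 0 := by
    rintro rfl
    exact hb (valueAt_unique hs (valueAt_zero P))
  have e : f = g * s⁻¹ := by
    rw [← h]
    field_simp
  rw [e]
  exact valueAt_mul hg (valueAt_inv hs hb)

/-- **`O_val`**: a function of the ring of the disc has a value in `A` at every place of the
disc. -/
theorem h12d_val {A : ValuationSubring Kbar} {P Q : Place Kbar (FF M)}
    (hQ : IsFinAt A Q) (hPQ : SameRed A P Q) {f : FF M} (hf : f ∈ h12dO A Q) :
    ∃ a ∈ A, ValueAt P f a := by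
  obtain ⟨s, g, hs, hg, ⟨a, hsa, ha⟩, h⟩ := hf
  obtain ⟨b, hPb, hb⟩ := h12d_val_unit hQ hPQ hs hsa ha
  have hP : IsFinAt A P := (sameRed_isFinAt_iff hPQ).mpr hQ
  obtain ⟨c, hc⟩ := exists_valueAt_modelFin hP ⟨g, hg⟩
  refine ⟨(c : Kbar) * b⁻¹, A.mul_mem _ _ c.2 (h12d_inv_mem_of_val_one A hb), ?_⟩
  exact h12d_valueAt_div hPb (h12d_ne_zero_of_val_one A hb) hc h

/-- the values of a function of the ring of the disc at two places of the disc are congruent
modulo `𝔪_A`. -/
theorem h12d_val_cong {A : ValuationSubring Kbar} {P Q : Place Kbar (FF M)}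
    (hQ : IsFinAt A Q) (hPQ : SameRed A P Q) {f : FF M} (hf : f ∈ h12dO A Q)
    {a b : Kbar} (hPa : ValueAt P f a) (hQb : ValueAt Q f b) : a - b ∈ A.nonunits := by
  obtain ⟨s, g, hs, hg, ⟨u, hsu, hu⟩, h⟩ := hf
  obtain ⟨u', u₀, -, -, hPu', hQu₀, huu⟩ := h12d_congAt hQ hPQ hs
  obtain ⟨c', c₀, hc', hc₀, hPc', hQc₀, hcc⟩ := h12d_congAt hQ hPQ hg
  have e1 : u₀ = u := valueAt_unique hQu₀ hsu
  rw [e1] at huu
  have hu' : A.valuation u' = 1 := h12d_unit_of_cong A hu huu
  have hu0 : u ≠ 0 := h12d_ne_zero_of_val_one A hu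
  have hu'0 : u' ≠ 0 := h12d_ne_zero_of_val_one A hu'
  have ea : a = c' * u'⁻¹ := valueAt_unique hPa (h12d_valueAt_div hPu' hu'0 hPc' h)
  have eb : b = c₀ * u⁻¹ := valueAt_unique hQb (h12d_valueAt_div hsu hu0 hQc₀ h)
  have key : a - b = ((c' - c₀) * u - c₀ * (u' - u)) * (u'⁻¹ * u⁻¹) := by
    rw [ea, eb]
    field_simp
    ring
  rw [key]
  have hinv : u'⁻¹ * u⁻¹ ∈ A :=
    A.mul_mem _ _ (h12d_inv_mem_of_val_one A hu') (h12d_inv_mem_of_val_one A hu)
  have h1 : (c' - c₀) * u ∈ A.nonunits :=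
    h71_mul_mem_nonunits A hcc (h12d_mem_of_val_one A hu)
  have h2 : c₀ * (u' - u) ∈ A.nonunits := by
    rw [mul_comm]
    exact h71_mul_mem_nonunits A huu hc₀
  have h3 : (c' - c₀) * u - c₀ * (u' - u) ∈ A.nonunits := by
    rw [A.mem_nonunits_iff] at h1 h2 ⊢
    exact lt_of_le_of_lt (Valuation.map_sub _ _ _) (max_lt h1 h2)
  exact h71_mul_mem_nonunits A h3 hinv

/-- **the ring of the disc is local**: a function with unit value at `Q` is invertible. -/
theorem h12d_inv_mem {A : ValuationSubring Kbar} {Q : Place Kbar (FF M)}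
    (hQ : IsFinAt A Q) {f : FF M} (hf : f ∈ h12dO A Q) {a : Kbar} (hfa : ValueAt Q f a)
    (ha : A.valuation a = 1) : f⁻¹ ∈ h12dO A Q := by
  obtain ⟨s, g, hs, hg, ⟨u, hsu, hu⟩, h⟩ := hf
  have hu0 : u ≠ 0 := h12d_ne_zero_of_val_one A hu
  have ha0 : a ≠ 0 := h12d_ne_zero_of_val_one A ha
  have hf0 : f ≠ 0 := by
    rintro rfl
    exact ha0 (valueAt_unique hfa (valueAt_zero Q))
  have hgv : ValueAt Q g (u * a) := by
    rw [← h]
    exact valueAt_mul hsu hfa
  refine ⟨g, s, hg, hs, ⟨u * a, hgv, by rw [map_mul, hu, ha, one_mul]⟩, ?_⟩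
  rw [← h]
  field_simp

/-! ## A place is determined by the chart -/

/-- **a place finite at `j` is determined by the chart functions vanishing at it.** -/
theorem h12d_place_ext (A : ValuationSubring Kbar) {P P' : Place Kbar (FF M)}
    (hP : IsFinAt A P) (hP' : IsFinAt A P')
    (h : ∀ f ∈ modelFin M A, ValueAt P f 0 → ValueAt P' f 0) : P = P' := by
  obtain ⟨a, -, hja⟩ := hP
  obtain ⟨a', -, hja'⟩ := hP'
  have key := GGC97_hinj A (jB M) (GGC97_transcendental_jB M)
    ⟨P, valueAt_mem hja⟩ ⟨P', valueAt_mem hja'⟩ (by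
      intro b hb
      have h1 : ValueAt P (b : FF M) 0 := (h71_adicValuation_lt_one_iff_valueAt P _).mp hb
      exact (h71_adicValuation_lt_one_iff_valueAt P' _).mpr (h (b : FF M) b.2 h1))
  exact congrArg Subtype.val key

/-- a place finite at `j` is determined by its values on the chart. -/
theorem h12d_place_ext_val (A : ValuationSubring Kbar) {P P' : Place Kbar (FF M)}
    (hP : IsFinAt A P) (hP' : IsFinAt A P')
    (h : ∀ f ∈ modelFin M A, ∀ a : Kbar, ValueAt P f a → ValueAt P' f a) : P = P' :=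
  h12d_place_ext A hP hP' fun f hf h0 => h f hf 0 h0

/-- **`t_inj` from `O_div`**: if every function of the ring of the disc is divisible by
`t - t(P)` after subtracting its value at `P`, then `t` is injective on the disc. -/
theorem h12d_t_inj {A : ValuationSubring Kbar} {Q : Place Kbar (FF M)} (hQ : IsFinAt A Q)
    (t : FF M)
    (hdiv : ∀ f ∈ h12dO A Q, ∀ P, SameRed A P Q → ∀ a a', ValueAt P f a →
      ValueAt P t a' → ∃ h ∈ h12dO A Q, f - cst M a = (t - cst M a') * h)
    {P P' : Place Kbar (FF M)} {a : Kbar} (hPQ : SameRed A P Q) (hP'Q : SameRed A P' Q)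
    (hPa : ValueAt P t a) (hP'a : ValueAt P' t a) : P = P' := by
  have hP : IsFinAt A P := (sameRed_isFinAt_iff hPQ).mpr hQ
  have hP' : IsFinAt A P' := (sameRed_isFinAt_iff hP'Q).mpr hQ
  refine h12d_place_ext A hP hP' fun f hf h0 => ?_
  obtain ⟨h, hh, e⟩ := hdiv f (h12d_modelFin_le A Q hf) P hPQ 0 a h0 hPa
  obtain ⟨b, -, hb⟩ := h12d_val hQ hP'Q hh
  have h1 : ValueAt P' ((t - cst M a) * h) ((a - a) * b) :=
    valueAt_mul (valueAt_sub hP'a (valueAt_cst P' a)) hb
  rw [← e, sub_self, zero_mul] at h1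
  have h2 : ValueAt P' (f - cst M 0 + cst M 0) (0 + 0) := valueAt_add h1 (valueAt_cst P' 0)
  rw [sub_add_cancel, add_zero] at h2
  exact h2

/-! ## The fields of `H37DiscAt` for the ring of the disc -/

/-- **`O_unit`** in the shape of `H37DiscAt`. -/
theorem h12d_O_unit {A : ValuationSubring Kbar} {Q : Place Kbar (FF M)} (hQ : IsFinAt A Q) :
    ∀ f ∈ h12dO A Q, ∀ a, ValueAt Q f a → a ≠ 0 → a⁻¹ ∈ A → f⁻¹ ∈ h12dO A Q := by
  intro f hf a hfa ha0 hainv
  obtain ⟨b, hb, hfb⟩ := h12d_val hQ (sameRed_refl A Q) hf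
  have e : b = a := valueAt_unique hfb hfa
  rw [e] at hb
  have h1 : A.valuation a ≤ 1 := (A.valuation_le_one_iff a).mpr hb
  have h2 : A.valuation a⁻¹ ≤ 1 := (A.valuation_le_one_iff a⁻¹).mpr hainv
  have h3 : A.valuation a ≠ 0 := (A.valuation.ne_zero_iff).mpr ha0
  have h4 : 1 ≤ A.valuation a := by
    rw [map_inv₀] at h2
    exact (inv_le_one₀ (zero_lt_iff.mpr h3)).mp h2
  exact h12d_inv_mem hQ hf hfa (le_antisymm h1 h4)

/-- **`t_small`**: a function of the ring of the disc vanishing at `Q` has its values on the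
disc in `𝔪_A`. -/
theorem h12d_t_small {A : ValuationSubring Kbar} {Q : Place Kbar (FF M)} (hQ : IsFinAt A Q)
    {t : FF M} (ht : t ∈ h12dO A Q) (ht0 : ValueAt Q t 0) :
    ∀ P, SameRed A P Q → ∃ a ∈ A.nonunits, ValueAt P t a := by
  intro P hPQ
  obtain ⟨a, -, ha⟩ := h12d_val hQ hPQ ht
  refine ⟨a, ?_, ha⟩
  have h1 := h12d_val_cong hQ hPQ ht ha ht0
  rwa [sub_zero] at h1

/-- **the disc calculus for the ring of the disc**: everything except the existence of an
inertia-fixed centre with an inertia-fixed parameter and the division property. -/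
theorem h12d_discAt_of {A : ValuationSubring Kbar} {Q : Place Kbar (FF M)} {t : FF M}
    (hQfix : ∀ σ ∈ A.inertiaSubgroupIn ℚ, gal M σ • Q = Q)
    (htfix : ∀ σ ∈ A.inertiaSubgroupIn ℚ, gal M σ • t = t)
    (hQ : IsFinAt A Q) (ht0 : ValueAt Q t 0) (ht : t ∈ h12dO A Q)
    (hdiv : ∀ f ∈ h12dO A Q, ∀ P, SameRed A P Q → ∀ a a', ValueAt P f a →
      ValueAt P t a' → ∃ h ∈ h12dO A Q, f - cst M a = (t - cst M a') * h) :
    H37DiscAt A Q t (h12dO A Q) where
  Q_fixed := hQfix
  t_fixed := htfix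
  Q_fin := hQ
  t_zero := ht0
  t_small := h12d_t_small hQ ht ht0
  t_inj := fun P P' a hPQ hP'Q hPa hP'a => h12d_t_inj hQ t hdiv hPQ hP'Q hPa hP'a
  refl := sameRed_refl A Q
  O_cst := fun a ha => h12d_cst_mem A Q ha
  O_t := ht
  O_model := h12d_modelFin_le A Q
  O_unit := h12d_O_unit hQ
  O_val := fun f hf P hPQ => h12d_val hQ hPQ hf
  O_div := hdiv

end Fermat.Agent.P5
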