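import Fermat.Agent.P5.H13SFIface
import Fermat.Agent.Jac.KummerFF

/-!
# Wave 5, block GEO-RR: the generic fibre satisfies the basic facts (helper13)

* `h13g_zeros`, `h13g_base` : `H13rZeros K F x` and `H13rBase K F` for a function field `F / K`
  (`K` algebraically closed of characteristic `0`, `x` transcendental, `F` finite over `K(x)`).
* `h13g_gBase : H13gBase` : the frozen leaf GF-BASE.
* `h13g_zeros_FF` : `H13rZeros ℚ̄ (FF M) (jB M)`.
-/

set_option autoImplicit false

open AlgebraicCurve IntermediateField

noncomputable section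

namespace Fermat.Agent.P5

open Fermat.Agent.S24 Fermat.Agent.S37

section General

variable {K F : Type*} [Field K] [Field F] [Algebra K F]

/-- the fundamental identity in the shape `H13rZeros`. -/
theorem h13g_zeros [IsAlgClosed K] [CharZero K] (x : F) (hx : Transcendental K x)
    [hfin : FiniteDimensional K⟮x⟯ F] : H13rZeros K F x := by
  rintro y (⟨c, rfl⟩ | rfl)
  · haveI : FiniteDimensional K⟮x - algebraMap K F c⟯ F :=
      fiw_finiteDimensional_of_eq (fiw_adjoin_sub_const x c) hfin
    obtain ⟨s, hs, hsum⟩ :=
      FICore.fi_zeros (x - algebraMap K F c) (fiw_transcendental_sub_const hx c)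
    exact ⟨s, hs, by rw [hsum, fiw_finrank_of_eq (fiw_adjoin_sub_const x c)]⟩
  · haveI : FiniteDimensional K⟮x⁻¹⟯ F :=
      fiw_finiteDimensional_of_eq (fiw_adjoin_inv x) hfin
    obtain ⟨s, hs, hsum⟩ := FICore.fi_zeros x⁻¹ (fiw_transcendental_inv hx)
    exact ⟨s, hs, by rw [hsum, fiw_finrank_of_eq (fiw_adjoin_inv x)]⟩

/-- the degree of a divisor when all places have degree one. -/
theorem h13g_degree_eq_sum (hdeg : ∀ v : Place K F, v.deg = 1) (D : Divisor K F) :
    Divisor.degree D = ∑ v ∈ D.support, D v := by
  unfold Divisor.degree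
  rw [Finsupp.liftAddHom_apply, Finsupp.sum]
  refine Finset.sum_congr rfl fun v _ => ?_
  rw [AddMonoidHom.coe_mulRight, hdeg v, Nat.cast_one]
  exact mul_one _

/-- a function without poles has no zeros. -/
theorem h13g_ord_eq_zero (hdeg : ∀ v : Place K F, v.deg = 1)
    (hpd : ∀ f : F, f ≠ 0 → ∃ D : Divisor K F, (∀ v : Place K F, D v = v.ord f) ∧
      Divisor.degree D = 0)
    (f : F) (hf0 : f ≠ 0) (hf : ∀ v : Place K F, 0 ≤ v.ord f) (v : Place K F) :
    v.ord f = 0 := by
  obtain ⟨D, hD, hD0⟩ := hpd f hf0
  rw [h13g_degree_eq_sum hdeg] at hD0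
  have h1 := (Finset.sum_eq_zero_iff_of_nonneg (fun w _ => by rw [hD w]; exact hf w)).1 hD0
  by_cases hv : v ∈ D.support
  · rw [← hD v]
    exact h1 v hv
  · rw [← hD v]
    exact Finsupp.notMem_support_iff.1 hv

/-- the zero of `x - c` chosen by the fundamental identity. -/
theorem h13g_exists_zero [IsAlgClosed K] [CharZero K] (x : F) (hx : Transcendental K x)
    [hfin : FiniteDimensional K⟮x⟯ F] (c : K) :
    ∃ v : Place K F, 0 < v.ord (x - algebraMap K F c) := by
  obtain ⟨s, hs, hsum⟩ := h13g_zeros x hx (x - algebraMap K F c) (Or.inl ⟨c, rfl⟩)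
  have hpos : (0 : ℤ) < (Module.finrank K⟮x⟯ F : ℤ) := by
    exact_mod_cast (Module.finrank_pos : 0 < Module.finrank K⟮x⟯ F)
  by_contra hne
  have hs' : s = ∅ := by
    apply Finset.eq_empty_of_forall_notMem
    intro v hv
    exact hne ⟨v, (hs v).1 hv⟩
  rw [hs', Finset.sum_empty] at hsum
  omega

/-- the basic facts for a function field over an algebraically closed field of
characteristic `0`. -/
theorem h13g_base [IsAlgClosed K] [CharZero K] (x : F) (hx : Transcendental K x)
    [hfin : FiniteDimensional K⟮x⟯ F] : H13rBase K F := by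
  have hdeg : ∀ v : Place K F, v.deg = 1 := fun v =>
    DiffPlace.place_deg_eq_one x (Algebra.IsAlgebraic.of_finite _ _) v
  have hpd : ∀ f : F, f ≠ 0 → ∃ D : Divisor K F, (∀ v : Place K F, D v = v.ord f) ∧
      Divisor.degree D = 0 :=
    (Fermat.Agent.Jac.K1.hasPrincipalDivisors_of_finite x).exists_divisor
  refine ⟨hdeg, hpd, ?_, (algebraMap K F).injective, ?_⟩
  · intro f hf
    by_cases hf0 : f = 0
    · exact ⟨0, by rw [map_zero, hf0]⟩
    · obtain ⟨c, hc⟩ := Fermat.Agent.Jac.K1.constantsOnly_of_finite x f hf0
        (h13g_ord_eq_zero hdeg hpd f hf0 hf)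
      exact ⟨c, hc⟩
  · choose φ hφ using h13g_exists_zero x hx
    have hinj : Function.Injective φ := by
      intro c c' h
      by_contra hcc
      have h1 := hφ c
      have h2 := hφ c'
      rw [h] at h1
      have hne : algebraMap K F (c' - c) ≠ 0 := by
        intro h0
        apply hcc
        have := (algebraMap K F).injective (h0.trans (map_zero _).symm)
        exact (sub_eq_zero.1 this).symm
      have hsub : algebraMap K F (c' - c) =
          (x - algebraMap K F c) - (x - algebraMap K F c') := by
        rw [map_sub]; ring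
      -- both terms are non-units of the valuation ring, so is the difference
      have hlt : ∀ y : F, 0 < (φ c').ord y → (φ c').adicValuation y < 1 := by
        intro y hy
        by_contra hge
        rw [not_lt] at hge
        have hy0 : y ≠ 0 := by
          rintro rfl
          rw [Place.ord_zero] at hy
          exact lt_irrefl _ hy
        rw [(φ c').adicValuation_eq_exp_neg_ord hy0, ← WithZero.exp_zero,
          WithZero.exp_le_exp] at hge
        omega
      have hval : (φ c').adicValuation (algebraMap K F (c' - c)) < 1 := by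
        rw [hsub]
        exact lt_of_le_of_lt (Valuation.map_sub _ _ _) (max_lt (hlt _ h1) (hlt _ h2))
      -- but a nonzero constant is a unit
      have hu1 : (φ c').adicValuation (algebraMap K F (c' - c)) ≤ 1 :=
        (φ c').adicValuation_algebraMap_le_one _
      have hc0 : c' - c ≠ 0 := fun h0 => hne (by rw [h0, map_zero])
      have hu2 : (φ c').adicValuation (algebraMap K F (c' - c)⁻¹) ≤ 1 :=
        (φ c').adicValuation_algebraMap_le_one _
      have hmul : (φ c').adicValuation (algebraMap K F (c' - c)) *
          (φ c').adicValuation (algebraMap K F (c' - c)⁻¹) = 1 := by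
        rw [← map_mul, ← map_mul, mul_inv_cancel₀ hc0, map_one, map_one]
      have hlt1 : (φ c').adicValuation (algebraMap K F (c' - c)) *
          (φ c').adicValuation (algebraMap K F (c' - c)⁻¹) < 1 :=
        mul_lt_one_of_lt_of_le hval hu2
      exact absurd hmul (ne_of_lt hlt1)
    have : Infinite K := IsAlgClosed.instInfinite
    exact Infinite.of_injective φ hinj

end General

/-- **GF-BASE**. -/
theorem h13g_gBase : H13gBase := by
  intro M _
  have := Fermat.Agent.Jac.K1.finiteDimensional_FF M
  exact h13g_base (jBar M) (transcendental_jBar M)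

/-- the fundamental identity for `j` on the generic fibre. -/
theorem h13g_zeros_FF (M : ℕ) [NeZero M] :
    H13rZeros Fermat.Agent.S37.Kbar (Fermat.Agent.S37.FF M) (Fermat.Agent.S37.jB M) := by
  have := Fermat.Agent.Jac.K1.finiteDimensional_FF M
  exact h13g_zeros (jBar M) (transcendental_jBar M)

end Fermat.Agent.P5
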