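import Mathlib
import Fermat.Prelude.Def_AlgebraicCurve_Repartitions

/-!
# Wave 5 (P), block GEO-RR: the one-step bound `l(D + P) ≤ l(D) + deg P` (helper3)

Prelude vocabulary (`AlgebraicCurve.Place`, `Divisor`, `riemannRochSpace`), any field `K`,
any extension `F/K`.  Leading-coefficient map at `P`.
-/

set_option autoImplicit false

namespace Fermat.Agent.P5

open AlgebraicCurve WithZero

section Step

universe u v

variable {K : Type u} {F : Type v} [Field K] [Field F] [Algebra K F]

theorem h3r_rrs_mono {D D' : Divisor K F} (h : D ≤ D') :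
    riemannRochSpace D ≤ riemannRochSpace D' := fun _ hf v =>
  (hf v).trans (exp_le_exp.mpr (Finsupp.le_def.mp h v))

theorem h3r_add_single_same (D : Divisor K F) (P : Place K F) (n : ℤ) :
    (D + Finsupp.single P n : Divisor K F) P = D P + n := by
  rw [Finsupp.add_apply, Finsupp.single_eq_same]

theorem h3r_add_single_ne (D : Divisor K F) (P : Place K F) (n : ℤ) {v : Place K F}
    (hv : v ≠ P) : (D + Finsupp.single P n : Divisor K F) v = D v := by
  classical
  rw [Finsupp.add_apply, Finsupp.single_apply, if_neg (Ne.symm hv), add_zero]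

theorem h3r_le_add_single (D : Divisor K F) (P : Place K F) {n : ℤ} (hn : 0 ≤ n) :
    D ≤ D + Finsupp.single P n := by
  classical
  rw [Finsupp.le_def]
  intro v
  rw [Finsupp.add_apply, Finsupp.single_apply]
  split_ifs <;> omega

/-- `f ≠ 0` with `0 ≤ ord_P f` lies in the valuation ring of `P`. -/
theorem h3r_mem_of_ord_nonneg (P : Place K F) {f : F} (hf : f ≠ 0) (h : 0 ≤ P.ord f) :
    f ∈ P.toValuationSubring := by
  obtain ⟨π, hπ⟩ := IsDiscreteValuationRing.exists_irreducible P.toValuationSubring
  obtain ⟨u, hu⟩ := P.exists_unit_mul_zpow hf hπ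
  obtain ⟨k, hk⟩ := Int.eq_ofNat_of_zero_le h
  rw [hu, hk, zpow_natCast]
  exact P.toValuationSubring.mul_mem _ _ (u : P.toValuationSubring).2
    (P.toValuationSubring.pow_mem π.2 k)

theorem h3r_mem_iff (P : Place K F) {f : F} :
    f ∈ P.toValuationSubring ↔ f = 0 ∨ 0 ≤ P.ord f := by
  constructor
  · intro h
    exact P.adicValuation_le_one_iff.mp (P.adicValuation_le_one_of_mem h)
  · rintro (rfl | h)
    · exact P.toValuationSubring.zero_mem
    · rcases eq_or_ne f 0 with rfl | hf
      · exact P.toValuationSubring.zero_mem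
      · exact h3r_mem_of_ord_nonneg P hf h

/-- A nonzero element of the valuation ring lies in the maximal ideal iff `0 < ord`. -/
theorem h3r_mem_maximalIdeal_iff (P : Place K F) (a : P.toValuationSubring) (ha : a ≠ 0) :
    a ∈ IsLocalRing.maximalIdeal P.toValuationSubring ↔ 0 < P.ord (a : F) := by
  have haF : (a : F) ≠ 0 := by simpa using ha
  have h0 : 0 ≤ P.ord (a : F) := ((h3r_mem_iff P).mp a.2).resolve_left haF
  rw [IsLocalRing.mem_maximalIdeal, mem_nonunits_iff, ← P.adicValuation_coe_eq_one_iff,
    P.adicValuation_eq_exp_neg_ord haF]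
  constructor
  · intro h
    rcases h0.lt_or_eq with h1 | h1
    · exact h1
    · exact absurd (by rw [← h1]; simp) h
  · intro h h1
    have : exp (-P.ord (a : F)) = exp (0 : ℤ) := by rw [h1]; simp
    have := WithZero.exp_injective this
    omega

/-- `π ^ (D P + 1) * f` lies in the valuation ring of `P` for `f ∈ L(D + P)`. -/
theorem h3r_shift_mem (P : Place K F) (D : Divisor K F) {π : P.toValuationSubring}
    (hπ : Irreducible π) {f : F} (hf : f ∈ riemannRochSpace (D + Finsupp.single P 1)) :
    (π : F) ^ (D P + 1) * f ∈ P.toValuationSubring := by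
  rcases eq_or_ne f 0 with rfl | hf0
  · simp
  have hπF : (π : F) ≠ 0 := by
    simpa [ne_eq, ZeroMemClass.coe_eq_zero] using hπ.ne_zero
  have h1 := (mem_riemannRochSpace_iff.mp hf P).resolve_left hf0
  rw [h3r_add_single_same] at h1
  refine h3r_mem_of_ord_nonneg P (mul_ne_zero (zpow_ne_zero _ hπF) hf0) ?_
  rw [P.ord_mul (zpow_ne_zero _ hπF) hf0, P.ord_zpow, P.ord_coe_irreducible hπ]
  omega

/-- The shift map `L(D + P) → O_P`, `f ↦ π ^ (D P + 1) * f`. -/
noncomputable def h3rShift (P : Place K F) (D : Divisor K F) {π : P.toValuationSubring}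
    (hπ : Irreducible π) :
    ↥(riemannRochSpace (D + Finsupp.single P 1)) →ₗ[K] ↥P.toValuationSubring where
  toFun f := ⟨(π : F) ^ (D P + 1) * f.1, h3r_shift_mem P D hπ f.2⟩
  map_add' f g := by
    apply Subtype.ext
    simp [mul_add]
  map_smul' c f := by
    apply Subtype.ext
    show (π : F) ^ (D P + 1) * (c • f.1) =
      ((c • (⟨(π : F) ^ (D P + 1) * f.1, h3r_shift_mem P D hπ f.2⟩ : ↥P.toValuationSubring) :
        ↥P.toValuationSubring) : F)
    rw [Algebra.smul_def, Algebra.smul_def]
    show _ = ((algebraMap K ↥P.toValuationSubring c : ↥P.toValuationSubring) : F) * _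
    rw [P.coe_algebraMap]
    ring

/-- The leading-coefficient map `L(D + P) → κ(P)`. -/
noncomputable def h3rLead (P : Place K F) (D : Divisor K F) {π : P.toValuationSubring}
    (hπ : Irreducible π) :
    ↥(riemannRochSpace (D + Finsupp.single P 1)) →ₗ[K] P.ResidueField :=
  (IsScalarTower.toAlgHom K ↥P.toValuationSubring P.ResidueField).toLinearMap ∘ₗ h3rShift P D hπ

theorem h3r_lead_eq_zero_iff (P : Place K F) (D : Divisor K F) {π : P.toValuationSubring}
    (hπ : Irreducible π) (f : ↥(riemannRochSpace (D + Finsupp.single P 1))) :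
    h3rLead P D hπ f = 0 ↔ (f : F) ∈ riemannRochSpace D := by
  have hπF : (π : F) ≠ 0 := by
    simpa [ne_eq, ZeroMemClass.coe_eq_zero] using hπ.ne_zero
  have hres : h3rLead P D hπ f = IsLocalRing.residue _ (h3rShift P D hπ f) := rfl
  rw [hres, IsLocalRing.residue_eq_zero_iff]
  rcases eq_or_ne (f : F) 0 with hf0 | hf0
  · have : h3rShift P D hπ f = 0 := by
      apply Subtype.ext
      show (π : F) ^ (D P + 1) * f.1 = 0
      rw [hf0, mul_zero]
    rw [this, hf0]
    exact ⟨fun _ => Submodule.zero_mem _, fun _ => Submodule.zero_mem _⟩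
  have hne : h3rShift P D hπ f ≠ 0 := by
    intro h
    have := congrArg (fun x : ↥P.toValuationSubring => (x : F)) h
    simp only [ZeroMemClass.coe_zero] at this
    exact mul_ne_zero (zpow_ne_zero _ hπF) hf0 this
  rw [h3r_mem_maximalIdeal_iff P _ hne]
  have hcoe : ((h3rShift P D hπ f : ↥P.toValuationSubring) : F) = (π : F) ^ (D P + 1) * f.1 := rfl
  rw [hcoe, P.ord_mul (zpow_ne_zero _ hπF) hf0, P.ord_zpow, P.ord_coe_irreducible hπ,
    mem_riemannRochSpace_iff]
  constructor
  · intro h v
    right
    by_cases hv : v = P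
    · subst hv; omega
    · have h1 := (mem_riemannRochSpace_iff.mp f.2 v).resolve_left hf0
      rw [h3r_add_single_ne D P 1 hv] at h1
      exact h1
  · intro h
    have := (h P).resolve_left hf0
    omega

/-- **One-step bound, cardinal form.** -/
theorem h3r_rank_step (P : Place K F) (D : Divisor K F) :
    Module.rank K ↥(riemannRochSpace (D + Finsupp.single P 1)) ≤
      Module.rank K ↥(riemannRochSpace D) + Module.rank K P.ResidueField := by
  obtain ⟨π, hπ⟩ := IsDiscreteValuationRing.exists_irreducible P.toValuationSubring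
  have hle : riemannRochSpace D ≤ riemannRochSpace (D + Finsupp.single P 1) :=
    h3r_rrs_mono (h3r_le_add_single D P (by norm_num))
  have hF := LinearMap.rank_range_add_rank_ker (h3rLead P D hπ)
  have hker : LinearMap.ker (h3rLead P D hπ) =
      (riemannRochSpace D).submoduleOf (riemannRochSpace (D + Finsupp.single P 1)) := by
    ext f
    rw [LinearMap.mem_ker, h3r_lead_eq_zero_iff]
    rfl
  have hk : Module.rank K ↥(LinearMap.ker (h3rLead P D hπ)) =
      Module.rank K ↥(riemannRochSpace D) := by
    rw [hker]
    exact (Submodule.submoduleOfEquivOfLe hle).rank_eq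
  rw [← hF, hk, add_comm]
  gcongr
  exact Submodule.rank_le _

/-- **One-step bound**: `L(D)` and `κ(P)` finite-dimensional ⟹ `L(D + P)` finite-dimensional and
`l(D + P) ≤ l(D) + deg P`. -/
theorem h3r_finrank_step (P : Place K F) (D : Divisor K F)
    [Module.Finite K ↥(riemannRochSpace D)] [Module.Finite K P.ResidueField] :
    Module.Finite K ↥(riemannRochSpace (D + Finsupp.single P 1)) ∧
      Module.finrank K ↥(riemannRochSpace (D + Finsupp.single P 1)) ≤
        Module.finrank K ↥(riemannRochSpace D) + P.deg := by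
  have h := h3r_rank_step P D
  have hlt : Module.rank K ↥(riemannRochSpace (D + Finsupp.single P 1)) < Cardinal.aleph0 :=
    lt_of_le_of_lt h (Cardinal.add_lt_aleph0 (Module.rank_lt_aleph0 K _)
      (Module.rank_lt_aleph0 K _))
  have hfin : Module.Finite K ↥(riemannRochSpace (D + Finsupp.single P 1)) :=
    Module.rank_lt_aleph0_iff.mp hlt
  refine ⟨hfin, ?_⟩
  have e1 := Module.finrank_eq_rank K ↥(riemannRochSpace (D + Finsupp.single P 1))
  have e2 := Module.finrank_eq_rank K ↥(riemannRochSpace D)
  have e3 := Module.finrank_eq_rank K P.ResidueField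
  rw [← e1, ← e2, ← e3] at h
  show _ ≤ _ + Module.finrank K P.ResidueField
  exact_mod_cast h

/-- The form asked by GEO-RR: `deg P = 1`, `L(D + P)` finite-dimensional. -/
theorem h3r_finrank_step_one (P : Place K F) (hP : P.deg = 1) (D : Divisor K F)
    [Module.Finite K ↥(riemannRochSpace (D + Finsupp.single P 1))] :
    Module.finrank K ↥(riemannRochSpace (D + Finsupp.single P 1)) ≤
      Module.finrank K ↥(riemannRochSpace D) + 1 := by
  have hle : riemannRochSpace D ≤ riemannRochSpace (D + Finsupp.single P 1) :=
    h3r_rrs_mono (h3r_le_add_single D P (by norm_num))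
  have : Module.Finite K ↥(riemannRochSpace D) :=
    Module.Finite.of_injective (Submodule.inclusion hle) (Submodule.inclusion_injective _)
  have : Module.Finite K P.ResidueField :=
    Module.finite_of_finrank_pos (by
      have : Module.finrank K P.ResidueField = 1 := hP
      omega)
  have := (h3r_finrank_step P D).2
  rw [hP] at this
  exact this

/-- The same without any finiteness hypothesis on `L(D + P)` (if it is not finite-dimensional its
`finrank` is `0`). -/
theorem h3r_finrank_step_one' (P : Place K F) (hP : P.deg = 1) (D : Divisor K F) :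
    Module.finrank K ↥(riemannRochSpace (D + Finsupp.single P 1)) ≤
      Module.finrank K ↥(riemannRochSpace D) + 1 := by
  by_cases h : Module.Finite K ↥(riemannRochSpace (D + Finsupp.single P 1))
  · exact h3r_finrank_step_one P hP D
  · rw [Module.finrank_of_not_finite h]
    omega

end Step

end Fermat.Agent.P5
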