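import Mathlib
import Fermat.Prelude.Def_AlgebraicCurve_Repartitions
import Fermat.Agent.P5.H13RRIface
import Fermat.Agent.P5.H3RRStep

/-!
# Wave 5 (P), block GEO-RR: the leaves `H13rInv` and `H13rFin` (helper3)

* `h3r_inv : H13rInv K F` : `ℓ(D + div f) = ℓ(D)` (multiplication by `f`).
* `h3r_fin : H13rFin K F` : under `H13rBase`, every `L(D)` is finite-dimensional,
  `ℓ(D + P) ≤ ℓ(D) + 1`, `L(D) = 0` for `deg D < 0`, `ℓ(0) = 1`.
-/

set_option autoImplicit false

namespace Fermat.Agent.P5

open AlgebraicCurve

section Inv

variable {K F : Type*} [Field K] [Field F] [Algebra K F]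

theorem h3r_mul_mem {D E : Divisor K F} {f : F} (hf : f ≠ 0)
    (h : ∀ v : Place K F, E v = D v + v.ord f) {g : F} (hg : g ∈ riemannRochSpace E) :
    g * f ∈ riemannRochSpace D := by
  rw [mem_riemannRochSpace_iff] at hg ⊢
  intro v
  rcases eq_or_ne g 0 with rfl | hg0
  · left; simp
  · right
    have := (hg v).resolve_left hg0
    rw [v.ord_mul hg0 hf, h v] at *
    omega

theorem h3r_mul_inv_mem {D E : Divisor K F} {f : F} (hf : f ≠ 0)
    (h : ∀ v : Place K F, E v = D v + v.ord f) {g : F} (hg : g ∈ riemannRochSpace D) :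
    g * f⁻¹ ∈ riemannRochSpace E := by
  rw [mem_riemannRochSpace_iff] at hg ⊢
  intro v
  rcases eq_or_ne g 0 with rfl | hg0
  · left; simp
  · right
    have := (hg v).resolve_left hg0
    rw [v.ord_mul hg0 (inv_ne_zero hf), v.ord_inv, h v]
    omega

/-- Multiplication by `f` is an isomorphism `L(D + div f) ≃ L(D)`. -/
noncomputable def h3rMulEquiv (D E : Divisor K F) (f : F) (hf : f ≠ 0)
    (h : ∀ v : Place K F, E v = D v + v.ord f) :
    ↥(riemannRochSpace E) ≃ₗ[K] ↥(riemannRochSpace D) where
  toFun g := ⟨g.1 * f, h3r_mul_mem hf h g.2⟩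
  invFun g := ⟨g.1 * f⁻¹, h3r_mul_inv_mem hf h g.2⟩
  map_add' a b := by
    apply Subtype.ext
    simp [add_mul]
  map_smul' c a := by
    apply Subtype.ext
    simp [Algebra.smul_def, mul_assoc]
  left_inv a := by
    apply Subtype.ext
    simp [hf]
  right_inv a := by
    apply Subtype.ext
    simp [hf]

/-- **RR-INV**. -/
theorem h3r_inv : H13rInv K F := fun D E f hf h => by
  unfold h13rL
  exact (h3rMulEquiv D E f hf h).finrank_eq

end Inv

section Fin

variable {K F : Type*} [Field K] [Field F] [Algebra K F]

/-- `L(0)` is the image of the constants, under `H13rBase.const`. -/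
theorem h3r_rrs_zero (hconst : ∀ f : F, (∀ v : Place K F, 0 ≤ v.ord f) →
      f ∈ Set.range (algebraMap K F)) :
    riemannRochSpace (0 : Divisor K F) = LinearMap.range (Algebra.linearMap K F) := by
  ext f
  rw [mem_riemannRochSpace_iff, LinearMap.mem_range]
  constructor
  · intro h
    have : ∀ v : Place K F, 0 ≤ v.ord f := by
      intro v
      rcases h v with rfl | h1
      · simp
      · simpa using h1
    obtain ⟨a, ha⟩ := hconst f this
    exact ⟨a, ha⟩
  · rintro ⟨a, rfl⟩ v
    have h1 : v.adicValuation (algebraMap K F a) ≤ 1 := v.adicValuation_algebraMap_le_one a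
    have := v.adicValuation_le_one_iff.mp h1
    simpa using this

theorem h3r_finite_zero (hconst : ∀ f : F, (∀ v : Place K F, 0 ≤ v.ord f) →
      f ∈ Set.range (algebraMap K F)) :
    Module.Finite K ↥(riemannRochSpace (0 : Divisor K F)) := by
  rw [h3r_rrs_zero hconst]
  exact Module.Finite.range _

theorem h3r_finrank_zero (hconst : ∀ f : F, (∀ v : Place K F, 0 ≤ v.ord f) →
      f ∈ Set.range (algebraMap K F)) :
    Module.finrank K ↥(riemannRochSpace (0 : Divisor K F)) = 1 := by
  rw [h3r_rrs_zero hconst]
  rw [LinearMap.finrank_range_of_inj (f := Algebra.linearMap K F)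
    (algebraMap K F).injective]
  exact Module.finrank_self K

/-- Adding `n` times a place with finite residue field keeps `L` finite-dimensional. -/
theorem h3r_finite_add_single (P : Place K F) [Module.Finite K P.ResidueField]
    (D : Divisor K F) (hD : Module.Finite K ↥(riemannRochSpace D)) (n : ℕ) :
    Module.Finite K ↥(riemannRochSpace (D + Finsupp.single P (n : ℤ))) := by
  induction n with
  | zero =>
    have : D + Finsupp.single P ((0 : ℕ) : ℤ) = D := by
      rw [Nat.cast_zero, Finsupp.single_zero, add_zero]
    rw [this]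
    exact hD
  | succ n ih =>
    have h1 : D + Finsupp.single P ((n + 1 : ℕ) : ℤ) =
        (D + Finsupp.single P (n : ℤ)) + Finsupp.single P 1 := by
      rw [add_assoc, ← Finsupp.single_add]
      push_cast
      rfl
    rw [h1]
    have := ih
    exact (h3r_finrank_step P (D + Finsupp.single P (n : ℤ))).1

/-- All `L(D)` are finite-dimensional as soon as `L(0)` is and residue fields are finite. -/
theorem h3r_finite_all (hres : ∀ P : Place K F, Module.Finite K P.ResidueField)
    (h0 : Module.Finite K ↥(riemannRochSpace (0 : Divisor K F))) (D : Divisor K F) :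
    Module.Finite K ↥(riemannRochSpace D) := by
  classical
  induction D using Finsupp.induction with
  | zero => exact h0
  | single_add a b f _ _ ih =>
    have := hres a
    rcases le_or_gt 0 b with hb | hb
    · obtain ⟨n, rfl⟩ := Int.eq_ofNat_of_zero_le hb
      rw [add_comm]
      exact h3r_finite_add_single a f ih n
    · have hle : Finsupp.single a b + f ≤ f := by
        rw [Finsupp.le_def]
        intro v
        rw [Finsupp.add_apply, Finsupp.single_apply]
        split_ifs <;> omega
      have := ih
      exact Module.Finite.of_injective (Submodule.inclusion (h3r_rrs_mono hle))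
        (Submodule.inclusion_injective _)

/-- The degree of an effective divisor is nonnegative. -/
theorem h3r_degree_nonneg (D : Divisor K F) (hD : ∀ v : Place K F, 0 ≤ D v) :
    0 ≤ Divisor.degree D := by
  classical
  have : Divisor.degree D = D.sum fun v n => n * (v.deg : ℤ) := by
    unfold Divisor.degree
    rw [Finsupp.liftAddHom_apply]
    rfl
  rw [this]
  apply Finset.sum_nonneg
  intro v _
  exact mul_nonneg (hD v) (by positivity)

/-- `L(D) = 0` if `deg D < 0`. -/
theorem h3r_rrs_eq_bot (hpd : ∀ f : F, f ≠ 0 → ∃ D : Divisor K F,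
      (∀ v : Place K F, D v = v.ord f) ∧ Divisor.degree D = 0)
    (D : Divisor K F) (hD : Divisor.degree D < 0) : riemannRochSpace D = ⊥ := by
  rw [eq_bot_iff]
  intro f hf
  rw [Submodule.mem_bot]
  by_contra hf0
  obtain ⟨E, hE, hE0⟩ := hpd f hf0
  have h1 : 0 ≤ Divisor.degree (D + E) := by
    apply h3r_degree_nonneg
    intro v
    have := (mem_riemannRochSpace_iff.mp hf v).resolve_left hf0
    rw [Finsupp.add_apply, hE v]
    omega
  rw [map_add, hE0, add_zero] at h1
  omega

/-- **RR-FIN**. -/
theorem h3r_fin : H13rFin K F := by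
  intro hB
  have hres : ∀ P : Place K F, Module.Finite K P.ResidueField := fun P =>
    Module.finite_of_finrank_pos (by
      have : Module.finrank K P.ResidueField = 1 := hB.deg_one P
      omega)
  refine ⟨h3r_finite_all hres (h3r_finite_zero hB.const), ?_, h3r_rrs_eq_bot hB.pd, ?_⟩
  · intro D P
    exact h3r_finrank_step_one' P (hB.deg_one P) D
  · exact h3r_finrank_zero hB.const

end Fin

end Fermat.Agent.P5
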