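import Fermat.Agent.P5.H13RRIface
import Fermat.Agent.P5.H3RRStep
import Fermat.Agent.P5.H3RRFin

/-!
# P5 (wave 5, S19), block GEO-RR: Riemann's theorem, direct proof (helper43)

`h43r_riemann : H13rFin K F → H13rInv K F → H13rRiemann K F` (exact frozen Props of
`P5/H13RRIface.lean`), by the classical argument (Stichtenoth 1.4.14): NO lattices, NO integral
closures.

* `B = (x)_∞`, `deg B = d = [F : K(x)]` (from `H13rZeros` for `1/x`);
* a basis `u i` of `F / K(x)`, `C ≥ 0` bounding the poles of the `u i`: the `(n + 1) d` elements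
  `x ^ j u i`, `j ≤ n`, are `K`-linearly independent in `L(n B + C)`;
* hence the defect `deg A - ℓ(A)` is bounded on the multiples of `B`, hence (moving `A⁺` below
  `n B` by a principal divisor) on all divisors; `g - 1` is its maximum.
-/

set_option autoImplicit false
set_option linter.unusedSectionVars false
set_option linter.unusedVariables false
set_option linter.style.haveILetI false

noncomputable section

namespace Fermat.Agent.P5

open AlgebraicCurve

universe u v

variable {K : Type u} {F : Type v} [Field K] [Field F] [Algebra K F]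

/-! ## Degrees -/

theorem h43r_degree_eq_sum (hdeg : ∀ v : Place K F, v.deg = 1) (D : Divisor K F) :
    Divisor.degree D = D.sum fun _ n => n := by
  unfold Divisor.degree
  rw [Finsupp.liftAddHom_apply]
  refine Finsupp.sum_congr fun v _ => ?_
  simp [hdeg v]

theorem h43r_degree_single (hdeg : ∀ v : Place K F, v.deg = 1) (P : Place K F) (n : ℤ) :
    Divisor.degree (Finsupp.single P n : Divisor K F) = n := by
  rw [Divisor.degree_single, hdeg P]; simp

theorem h43r_degree_nonneg (hdeg : ∀ v : Place K F, v.deg = 1) {D : Divisor K F}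
    (hD : 0 ≤ D) : 0 ≤ Divisor.degree D := by
  rw [h43r_degree_eq_sum hdeg]
  exact Finset.sum_nonneg fun v _ => by simpa using Finsupp.le_def.mp hD v

/-! ## The step bound for `D ≤ D + T` -/

theorem h43r_step_single (hdeg : ∀ v : Place K F, v.deg = 1) (D : Divisor K F)
    (P : Place K F) (b : ℕ) :
    h13rL K F (D + Finsupp.single P (b : ℤ)) ≤ h13rL K F D + b := by
  induction b with
  | zero => simp
  | succ b ih =>
    have h1 : D + Finsupp.single P ((b + 1 : ℕ) : ℤ)
        = (D + Finsupp.single P (b : ℤ)) + Finsupp.single P 1 := by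
      rw [add_assoc, ← Finsupp.single_add]; push_cast; rfl
    rw [h1]
    have h2 := h3r_finrank_step_one' P (hdeg P) (D + Finsupp.single P (b : ℤ))
    unfold h13rL at ih ⊢
    omega

theorem h43r_step_add (hdeg : ∀ v : Place K F, v.deg = 1) (T : Divisor K F) :
    0 ≤ T → ∀ D : Divisor K F,
      (h13rL K F (D + T) : ℤ) ≤ h13rL K F D + Divisor.degree T := by
  classical
  induction T using Finsupp.induction with
  | zero => intro _ D; simp
  | single_add a b f ha hb ih =>
    intro h0 D
    have hfa : f a = 0 := Finsupp.notMem_support_iff.mp ha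
    have hb0 : 0 ≤ b := by
      have := Finsupp.le_def.mp h0 a
      simpa [hfa] using this
    have hf0 : 0 ≤ f := by
      rw [Finsupp.le_def]
      intro v
      by_cases hva : v = a
      · subst hva; rw [hfa]; simp
      · have := Finsupp.le_def.mp h0 v
        simpa [Finsupp.single_apply, Ne.symm hva] using this
    obtain ⟨n, rfl⟩ := Int.eq_ofNat_of_zero_le hb0
    have h1 := ih hf0 (D + Finsupp.single a (n : ℤ))
    have h2 := h43r_step_single hdeg D a n
    have h3 : D + (Finsupp.single a (n : ℤ) + f) = D + Finsupp.single a (n : ℤ) + f := by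
      rw [add_assoc]
    rw [h3, map_add, h43r_degree_single hdeg]
    have h2' : (h13rL K F (D + Finsupp.single a (n : ℤ)) : ℤ) ≤ h13rL K F D + n := by
      exact_mod_cast h2
    linarith

theorem h43r_step_le (hdeg : ∀ v : Place K F, v.deg = 1) {D E : Divisor K F} (h : D ≤ E) :
    (h13rL K F E : ℤ) ≤ h13rL K F D + (Divisor.degree E - Divisor.degree D) := by
  have h1 := h43r_step_add hdeg (E - D) (sub_nonneg.mpr h) D
  rw [add_sub_cancel, map_sub] at h1
  exact h1

/-- monotonicity of the defect. -/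
theorem h43r_defect_le (hdeg : ∀ v : Place K F, v.deg = 1) {D E : Divisor K F} (h : D ≤ E) :
    Divisor.degree D - h13rL K F D ≤ Divisor.degree E - h13rL K F E := by
  have := h43r_step_le hdeg h
  linarith

/-! ## The pole divisor of `x` and a bound for the poles of finitely many functions -/

theorem h43r_exists_pole (hdeg : ∀ v : Place K F, v.deg = 1) (x : F)
    (hz : H13rZeros K F x) :
    ∃ B : Divisor K F, 0 ≤ B ∧ (∀ v : Place K F, -B v ≤ v.ord x) ∧
      Divisor.degree B = (Module.finrank (IntermediateField.adjoin K {x}) F : ℤ) := by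
  classical
  obtain ⟨s, hs, hsum⟩ := hz x⁻¹ (Or.inr rfl)
  have hB : ∀ v : Place K F,
      (∑ w ∈ s, (Finsupp.single w (w.ord x⁻¹) : Divisor K F)) v
        = if v ∈ s then v.ord x⁻¹ else 0 := by
    intro v
    rw [Finsupp.finsetSum_apply]
    simp only [Finsupp.single_apply]
    rw [Finset.sum_ite_eq' s v]
  refine ⟨∑ w ∈ s, (Finsupp.single w (w.ord x⁻¹) : Divisor K F), ?_, ?_, ?_⟩
  · rw [Finsupp.le_def]
    intro v
    rw [hB v]
    split_ifs with h
    · simpa using le_of_lt ((hs v).mp h)
    · simp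
  · intro v
    rw [hB v]
    split_ifs with h
    · rw [Place.ord_inv]; simp
    · have h1 : ¬ 0 < v.ord x⁻¹ := fun h2 => h ((hs v).mpr h2)
      rw [Place.ord_inv] at h1
      simp only [neg_zero]
      omega
  · rw [map_sum]
    rw [← hsum]
    refine Finset.sum_congr rfl fun v _ => ?_
    exact h43r_degree_single hdeg v _

theorem h43r_exists_bound
    (hpd : ∀ f : F, f ≠ 0 → ∃ D : Divisor K F, (∀ v : Place K F, D v = v.ord f) ∧
      Divisor.degree D = 0)
    {ι : Type*} [Fintype ι] (u : ι → F) :
    ∃ C : Divisor K F, 0 ≤ C ∧ ∀ i (v : Place K F), -C v ≤ v.ord (u i) := by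
  classical
  have hex : ∀ i, ∃ D : Divisor K F, ∀ v : Place K F, D v = v.ord (u i) := by
    intro i
    by_cases hi : u i = 0
    · exact ⟨0, fun v => by rw [hi]; simp⟩
    · obtain ⟨D, hD, -⟩ := hpd (u i) hi
      exact ⟨D, hD⟩
  choose D hD using hex
  refine ⟨∑ i, Finsupp.mapRange (fun n : ℤ => |n|) abs_zero (D i), ?_, ?_⟩
  · rw [Finsupp.le_def]
    intro v
    rw [Finsupp.finsetSum_apply]
    simp only [Finsupp.mapRange_apply, Finsupp.coe_zero, Pi.zero_apply]
    exact Finset.sum_nonneg fun i _ => abs_nonneg _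
  · intro i v
    rw [Finsupp.finsetSum_apply]
    simp only [Finsupp.mapRange_apply]
    have h1 : |D i v| ≤ ∑ j, |D j v| :=
      Finset.single_le_sum (f := fun j => |D j v|) (fun j _ => abs_nonneg _)
        (Finset.mem_univ i)
    have h2 : -|D i v| ≤ D i v := neg_abs_le _
    rw [← hD i v]
    linarith

/-! ## The functions `x ^ j u i` -/

theorem h43r_ord_pow (v : Place K F) (x : F) (j : ℕ) : v.ord (x ^ j) = j * v.ord x := by
  have := v.ord_zpow x (j : ℤ)
  rwa [zpow_natCast] at this

theorem h43r_mem (x : F) {B C : Divisor K F} (hB0 : 0 ≤ B)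
    (hB : ∀ v : Place K F, -B v ≤ v.ord x) (w : F)
    (hC : ∀ v : Place K F, -C v ≤ v.ord w) (n j : ℕ) (hj : j ≤ n) :
    x ^ j * w ∈ riemannRochSpace (n • B + C) := by
  rw [mem_riemannRochSpace_iff]
  intro v
  by_cases h0 : x ^ j * w = 0
  · exact Or.inl h0
  · right
    have hx0 : x ^ j ≠ 0 := left_ne_zero_of_mul h0
    have hw0 : w ≠ 0 := right_ne_zero_of_mul h0
    rw [v.ord_mul hx0 hw0, h43r_ord_pow]
    have h1 := hB v
    have h2 := hC v
    have h3 : 0 ≤ B v := by simpa using Finsupp.le_def.mp hB0 v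
    have h4 : (n • B + C) v = n * B v + C v := by
      simp [Finsupp.add_apply, Finsupp.smul_apply]
    rw [h4]
    have h5 : (j : ℤ) ≤ n := by exact_mod_cast hj
    nlinarith

/-- `K`-linear independence of the `x ^ j u i`, `u` a basis of `F` over `K(x)`. -/
theorem h43r_linearIndependent (x : F) (hx : Transcendental K x) {ι : Type*} [Fintype ι]
    (u : Module.Basis ι (IntermediateField.adjoin K {x}) F) (n : ℕ) :
    LinearIndependent K (fun p : Fin (n + 1) × ι => x ^ (p.1 : ℕ) * u p.2) := by
  classical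
  rw [Fintype.linearIndependent_iff]
  intro c hc p
  -- the polynomials
  set P : ι → Polynomial K := fun i => ∑ j : Fin (n + 1), Polynomial.monomial (j : ℕ) (c (j, i))
    with hP
  have hmem : ∀ i, Polynomial.aeval x (P i) ∈ IntermediateField.adjoin K {x} := by
    intro i
    have h1 : Polynomial.aeval x (P i) ∈ Algebra.adjoin K {x} :=
      Polynomial.aeval_mem_adjoin_singleton K x
    exact IntermediateField.algebra_adjoin_le_adjoin K {x} h1
  have haev : ∀ i, Polynomial.aeval x (P i) = ∑ j : Fin (n + 1), c (j, i) • x ^ (j : ℕ) := by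
    intro i
    rw [hP]
    simp only [map_sum, Polynomial.aeval_monomial]
    refine Finset.sum_congr rfl fun j _ => ?_
    rw [Algebra.smul_def]
  have hsum : ∑ i, (⟨Polynomial.aeval x (P i), hmem i⟩ : IntermediateField.adjoin K {x}) • u i
      = 0 := by
    rw [← hc, Fintype.sum_prod_type, Finset.sum_comm]
    refine Finset.sum_congr rfl fun i _ => ?_
    have h1 : (⟨Polynomial.aeval x (P i), hmem i⟩ : IntermediateField.adjoin K {x}) • u i
        = Polynomial.aeval x (P i) * u i := rfl
    rw [h1, haev i, Finset.sum_mul]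
    refine Finset.sum_congr rfl fun j _ => ?_
    rw [smul_mul_assoc]
  have hzero := (Fintype.linearIndependent_iff.mp u.linearIndependent) _ hsum
  have hP0 : P p.2 = 0 := by
    have h1 := hzero p.2
    have h2 : Polynomial.aeval x (P p.2) = 0 := congrArg Subtype.val h1
    exact (transcendental_iff.mp hx) _ h2
  have hcoeff : (P p.2).coeff (p.1 : ℕ) = c (p.1, p.2) := by
    rw [hP]
    simp only [Polynomial.finsetSum_coeff, Polynomial.coeff_monomial]
    rw [Finset.sum_eq_single p.1]
    · simp
    · intro j _ hj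
      rw [if_neg]
      exact fun h => hj (Fin.ext h)
    · intro h; exact absurd (Finset.mem_univ _) h
  rw [hP0, Polynomial.coeff_zero] at hcoeff
  rw [← hcoeff]

/-- the lower bound `(n + 1) d ≤ ℓ(n B + C)`. -/
theorem h43r_lower (hfinD : ∀ D : Divisor K F, Module.Finite K (riemannRochSpace D))
    (x : F) (hx : Transcendental K x)
    [FiniteDimensional (IntermediateField.adjoin K {x}) F]
    {B C : Divisor K F} (hB0 : 0 ≤ B) (hB : ∀ v : Place K F, -B v ≤ v.ord x)
    (hC : ∀ (i : Module.Free.ChooseBasisIndex (IntermediateField.adjoin K {x}) F)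
      (v : Place K F),
      -C v ≤ v.ord (Module.Free.chooseBasis (IntermediateField.adjoin K {x}) F i))
    (n : ℕ) :
    (n + 1) * Module.finrank (IntermediateField.adjoin K {x}) F ≤ h13rL K F (n • B + C) := by
  classical
  set u := Module.Free.chooseBasis (IntermediateField.adjoin K {x}) F with hu
  have hli := h43r_linearIndependent x hx u n
  have hmem : ∀ p : Fin (n + 1) × Module.Free.ChooseBasisIndex (IntermediateField.adjoin K {x}) F,
      x ^ (p.1 : ℕ) * u p.2 ∈ riemannRochSpace (n • B + C) := fun p =>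
    h43r_mem x hB0 hB (u p.2) (hC p.2) n p.1 (Nat.lt_succ_iff.mp p.1.2)
  have hli' : LinearIndependent K
      (fun p : Fin (n + 1) × Module.Free.ChooseBasisIndex (IntermediateField.adjoin K {x}) F =>
        (⟨x ^ (p.1 : ℕ) * u p.2, hmem p⟩ : riemannRochSpace (n • B + C))) := by
    refine LinearIndependent.of_comp (riemannRochSpace (n • B + C)).subtype ?_
    exact hli
  haveI := hfinD (n • B + C)
  have hcard := hli'.fintype_card_le_finrank
  rw [Fintype.card_prod, Fintype.card_fin,
    ← Module.finrank_eq_card_chooseBasisIndex] at hcard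
  exact hcard

/-! ## Riemann's theorem -/

/-- **the defect is bounded** (Stichtenoth 1.4.14). -/
theorem h43r_defect_bounded (hFin : H13rFin K F) (hInv : H13rInv K F) (hb : H13rBase K F)
    (x : F) (hx : Transcendental K x)
    (hfd : FiniteDimensional (IntermediateField.adjoin K {x}) F) (hz : H13rZeros K F x) :
    ∃ γ : ℤ, ∀ A : Divisor K F, Divisor.degree A - h13rL K F A ≤ γ := by
  classical
  obtain ⟨hfinD, hstep, hneg, hL0⟩ := hFin hb
  haveI := hfd
  obtain ⟨B, hB0, hB, hdegB⟩ := h43r_exists_pole hb.deg_one x hz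
  obtain ⟨C, hC0, hC⟩ := h43r_exists_bound hb.pd
    (fun i => Module.Free.chooseBasis (IntermediateField.adjoin K {x}) F i)
  set d := Module.finrank (IntermediateField.adjoin K {x}) F with hd
  have hdpos : 0 < d := Module.finrank_pos
  have hdposZ : (1 : ℤ) ≤ d := by exact_mod_cast hdpos
  have hdegnB : ∀ n : ℕ, Divisor.degree (n • B) = n * d := by
    intro n
    rw [map_nsmul, hdegB]; simp
  -- lower bound for `ℓ(n B)`
  have hlow : ∀ n : ℕ, ((n + 1) * d : ℤ) - Divisor.degree C ≤ h13rL K F (n • B) := by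
    intro n
    have h1 := h43r_lower hfinD x hx hB0 hB hC n
    have h2 := h43r_step_add hb.deg_one C hC0 (n • B)
    have h1' : ((n + 1) * d : ℤ) ≤ h13rL K F (n • B + C) := by exact_mod_cast h1
    linarith
  refine ⟨Divisor.degree C - d, ?_⟩
  intro A
  set Ap : Divisor K F := A ⊔ 0 with hAp
  have hAAp : A ≤ Ap := le_sup_left
  have hAp0 : 0 ≤ Ap := le_sup_right
  have ha0 : 0 ≤ Divisor.degree Ap := h43r_degree_nonneg hb.deg_one hAp0
  have hC0' : 0 ≤ Divisor.degree C := h43r_degree_nonneg hb.deg_one hC0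
  set n : ℕ := (Divisor.degree C + Divisor.degree Ap).toNat with hn
  have hnZ : (n : ℤ) = Divisor.degree C + Divisor.degree Ap :=
    Int.toNat_of_nonneg (by linarith)
  -- `ℓ(n B - A⁺) > 0`
  have h1 := h43r_step_add hb.deg_one Ap hAp0 (n • B - Ap)
  rw [sub_add_cancel] at h1
  have h2 := hlow n
  have h3 : (0 : ℤ) < h13rL K F (n • B - Ap) := by
    have h4 : ((n : ℤ) + 1) ≤ (n + 1) * d := by nlinarith
    linarith
  have h3' : 0 < Module.finrank K (riemannRochSpace (n • B - Ap)) := by
    unfold h13rL at h3; exact_mod_cast h3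
  haveI := hfinD (n • B - Ap)
  obtain ⟨⟨z, hzmem⟩, hz0⟩ := Module.finrank_pos_iff_exists_ne_zero.mp h3'
  have hz0' : z ≠ 0 := fun h => hz0 (Subtype.ext h)
  obtain ⟨Z, hZ, hZdeg⟩ := hb.pd z hz0'
  have hD : Ap - Z ≤ n • B := by
    rw [Finsupp.le_def]
    intro v
    have h5 := (mem_riemannRochSpace_iff.mp hzmem v).resolve_left hz0'
    rw [← hZ v] at h5
    have h6 : (n • B - Ap : Divisor K F) v = (n • B : Divisor K F) v - Ap v :=
      Finsupp.sub_apply _ _ _
    rw [h6] at h5
    have h7 : (Ap - Z : Divisor K F) v = Ap v - Z v := Finsupp.sub_apply _ _ _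
    rw [h7]
    linarith
  have hl : h13rL K F Ap = h13rL K F (Ap - Z) := by
    refine hInv (Ap - Z) Ap z hz0' ?_
    intro v
    have h7 : (Ap - Z : Divisor K F) v = Ap v - Z v := Finsupp.sub_apply _ _ _
    rw [h7, ← hZ v]; ring
  have hdegD : Divisor.degree (Ap - Z) = Divisor.degree Ap := by
    rw [map_sub, hZdeg, sub_zero]
  have e1 := h43r_defect_le hb.deg_one hAAp
  have e2 := h43r_defect_le hb.deg_one hD
  have e3 : Divisor.degree (n • B) - h13rL K F (n • B) ≤ Divisor.degree C - d := by
    rw [hdegnB]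
    have := hlow n
    linarith
  rw [hdegD, ← hl] at e2
  linarith

/-- **Riemann's theorem** (frozen leaf `H13rRiemann`), from `H13rFin` and `H13rInv`. -/
theorem h43r_riemann (hFin : H13rFin K F) (hInv : H13rInv K F) : H13rRiemann K F := by
  intro hb x hx hfd hz
  obtain ⟨γ, hγ⟩ := h43r_defect_bounded hFin hInv hb x hx hfd hz
  obtain ⟨hfinD, hstep, hneg, hL0⟩ := hFin hb
  obtain ⟨t₀, ⟨D₁, hD₁⟩, hmax⟩ := Int.exists_greatest_of_bdd
    (P := fun t : ℤ => ∃ A : Divisor K F, t = Divisor.degree A - h13rL K F A)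
    ⟨γ, fun t ⟨A, hA⟩ => hA ▸ hγ A⟩ ⟨_, 0, rfl⟩
  have ht₀ : -1 ≤ t₀ := by
    have := hmax _ ⟨0, rfl⟩
    rw [map_zero, hL0] at this
    simpa using this
  have hg : ((t₀ + 1).toNat : ℤ) = t₀ + 1 := Int.toNat_of_nonneg (by linarith)
  refine ⟨(t₀ + 1).toNat, ?_, D₁, ?_⟩
  · intro D
    have := hmax _ ⟨D, rfl⟩
    rw [hg]; linarith
  · intro D hD
    have h1 := h43r_defect_le hb.deg_one hD
    have h2 := hmax _ ⟨D, rfl⟩
    rw [hg]
    rw [← hD₁] at h1
    linarith

/-- **Riemann's theorem, unconditional** (`H13rFin`, `H13rInv` = helper3's `h3r_fin`,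
`h3r_inv`). -/
theorem h43r_riemann_final : H13rRiemann K F :=
  h43r_riemann h3r_fin h3r_inv

end Fermat.Agent.P5
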