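import Fermat.Agent.P5.H13RRIface

/-!
# Wave 5, pillar (P), block GEO-RR: the one-step bound (helper68)

For a place `P` and a divisor `D`:  `ℓ(D + P) ≤ ℓ(D) + deg P`, by the leading-coefficient map
`L(D + P) → κ(P)`, `h ↦ (h π^(D P + 1)) mod 𝔪_P`, whose kernel is `L(D)`.
No hypothesis (junk values of `finrank` included).  Mathlib + Prelude only.
-/

set_option autoImplicit false

noncomputable section

namespace Fermat.Agent.P5

open AlgebraicCurve

variable {K F : Type*} [Field K] [Field F] [Algebra K F]

theorem h68r_ord_nonneg_of_mem (v : Place K F) {f : F} (hf : f ∈ v.toValuationSubring) :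
    0 ≤ v.ord f := by
  have h1 := v.adicValuation_le_one_of_mem hf
  rcases v.adicValuation_le_one_iff.1 h1 with rfl | h2
  · simp
  · exact h2

theorem h68r_mem_of_ord_nonneg (v : Place K F) {f : F} (h : f = 0 ∨ 0 ≤ v.ord f) :
    f ∈ v.toValuationSubring := by
  rcases eq_or_ne f 0 with rfl | hf0
  · exact v.toValuationSubring.zero_mem
  · have hf : 0 ≤ v.ord f := h.resolve_left hf0
    obtain ⟨π, hπ⟩ := IsDiscreteValuationRing.exists_irreducible v.toValuationSubring
    obtain ⟨u, hu⟩ := v.exists_unit_mul_zpow hf0 hπ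
    rw [hu]
    obtain ⟨n, hn⟩ := Int.eq_ofNat_of_zero_le hf
    rw [hn, zpow_natCast]
    exact v.toValuationSubring.mul_mem _ _ (Subtype.mem _)
      (v.toValuationSubring.pow_mem (Subtype.mem _) n)

/-- a nonzero element of the valuation ring lies in the maximal ideal iff its order is
positive. -/
theorem h68r_mem_maximalIdeal_iff (v : Place K F) (x : v.toValuationSubring)
    (hx : (x : F) ≠ 0) :
    x ∈ IsLocalRing.maximalIdeal v.toValuationSubring ↔ 0 < v.ord (x : F) := by
  have h0 : 0 ≤ v.ord (x : F) := h68r_ord_nonneg_of_mem v x.2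
  rw [IsLocalRing.mem_maximalIdeal, mem_nonunits_iff, ← v.adicValuation_coe_eq_one_iff,
    v.adicValuation_eq_exp_neg_ord hx]
  constructor
  · intro h
    rcases h0.lt_or_eq with h1 | h1
    · exact h1
    · exfalso
      apply h
      rw [← h1]
      simp
  · intro h h1
    have h2 : WithZero.exp (-v.ord (x : F)) = WithZero.exp (0 : ℤ) := by
      rw [h1]; simp
    have h3 := WithZero.exp_injective h2
    omega

/-- a uniformizer in `F`. -/
theorem h68r_exists_unif (v : Place K F) : ∃ π : F, π ≠ 0 ∧ v.ord π = 1 := by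
  obtain ⟨π, hπ⟩ := IsDiscreteValuationRing.exists_irreducible v.toValuationSubring
  refine ⟨(π : F), ?_, v.ord_coe_irreducible hπ⟩
  simpa [ne_eq, ZeroMemClass.coe_eq_zero] using hπ.ne_zero

theorem h68r_riemannRochSpace_mono {D E : Divisor K F} (h : D ≤ E) :
    riemannRochSpace D ≤ riemannRochSpace E := by
  intro f hf
  rw [mem_riemannRochSpace_iff] at hf ⊢
  intro v
  rcases hf v with h1 | h1
  · exact Or.inl h1
  · right
    have := Finsupp.le_def.mp h v
    linarith

section OneStep

variable (D : Divisor K F) (P : Place K F) (π : F) (hπ0 : π ≠ 0) (hπ : P.ord π = 1)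

include hπ0 hπ in
theorem h68r_twist_mem {h : F} (hh : h ∈ riemannRochSpace (D + Finsupp.single P 1)) :
    h * π ^ (D P + 1) ∈ P.toValuationSubring := by
  apply h68r_mem_of_ord_nonneg
  rcases eq_or_ne h 0 with rfl | h0
  · left; simp
  · right
    have h1 := ((mem_riemannRochSpace_iff.1 hh) P).resolve_left h0
    have h2 : (D + Finsupp.single P 1 : Divisor K F) P = D P + 1 := by
      rw [Finsupp.add_apply, Finsupp.single_eq_same]
    rw [h2] at h1
    rw [P.ord_mul h0 (zpow_ne_zero _ hπ0), P.ord_zpow, hπ]
    linarith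

/-- the twisted inclusion `L(D + P) → 𝒪_P`. -/
def h68rTwist : ↥(riemannRochSpace (D + Finsupp.single P 1)) →ₗ[K] ↥P.toValuationSubring where
  toFun h := ⟨(h : F) * π ^ (D P + 1), h68r_twist_mem D P π hπ0 hπ h.2⟩
  map_add' a b := by
    apply Subtype.ext
    show ((a : F) + (b : F)) * π ^ (D P + 1) = (a : F) * π ^ (D P + 1) + (b : F) * π ^ (D P + 1)
    ring
  map_smul' c a := by
    apply Subtype.ext
    show (c • (a : F)) * π ^ (D P + 1) = algebraMap K F c * ((a : F) * π ^ (D P + 1))
    rw [Algebra.smul_def, mul_assoc]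

/-- the leading coefficient map `L(D + P) → κ(P)`. -/
def h68rLead : ↥(riemannRochSpace (D + Finsupp.single P 1)) →ₗ[K] P.ResidueField :=
  (IsScalarTower.toAlgHom K ↥P.toValuationSubring P.ResidueField).toLinearMap ∘ₗ
    h68rTwist D P π hπ0 hπ

theorem h68r_lead_ker_le :
    (LinearMap.ker (h68rLead D P π hπ0 hπ)).map
        (riemannRochSpace (D + Finsupp.single P 1)).subtype ≤ riemannRochSpace D := by
  rintro _ ⟨h, hker, rfl⟩
  have hker' : IsLocalRing.residue ↥P.toValuationSubring (h68rTwist D P π hπ0 hπ h) = 0 := by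
    have := LinearMap.mem_ker.1 hker
    simpa [h68rLead] using this
  rw [IsLocalRing.residue_eq_zero_iff] at hker'
  show (h : F) ∈ riemannRochSpace D
  rw [mem_riemannRochSpace_iff]
  intro v
  rcases eq_or_ne (h : F) 0 with h0 | h0
  · exact Or.inl h0
  · right
    have hmem := (mem_riemannRochSpace_iff.1 h.2 v).resolve_left h0
    by_cases hv : v = P
    · subst hv
      have hne : ((h68rTwist D v π hπ0 hπ h : ↥v.toValuationSubring) : F) ≠ 0 :=
        mul_ne_zero h0 (zpow_ne_zero _ hπ0)
      have h1 := (h68r_mem_maximalIdeal_iff v _ hne).1 hker'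
      have h2 : ((h68rTwist D v π hπ0 hπ h : ↥v.toValuationSubring) : F)
          = (h : F) * π ^ (D v + 1) := rfl
      rw [h2, v.ord_mul h0 (zpow_ne_zero _ hπ0), v.ord_zpow, hπ] at h1
      linarith
    · have h2 : (D + Finsupp.single P 1 : Divisor K F) v = D v := by
        rw [Finsupp.add_apply, Finsupp.single_eq_of_ne hv, add_zero]
      rw [h2] at hmem
      exact hmem

end OneStep

/-- **the one-step bound**: `ℓ(D + P) ≤ ℓ(D) + deg P`, provided `κ(P)` is finite over `K`
(for instance `deg P ≠ 0`). -/
theorem h68r_one_step_deg (D : Divisor K F) (P : Place K F) [Module.Finite K P.ResidueField] :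
    h13rL K F (D + Finsupp.single P 1) ≤ h13rL K F D + P.deg := by
  unfold h13rL
  by_cases hfin : Module.Finite K ↥(riemannRochSpace (D + Finsupp.single P 1))
  · obtain ⟨π, hπ0, hπ⟩ := h68r_exists_unif P
    have hle : riemannRochSpace D ≤ riemannRochSpace (D + Finsupp.single P 1) :=
      h68r_riemannRochSpace_mono (by
        rw [Finsupp.le_def]; intro v
        rw [Finsupp.add_apply]
        have : (0 : ℤ) ≤ (Finsupp.single P (1 : ℤ)) v := by
          by_cases hv : v = P
          · subst hv; simp
          · rw [Finsupp.single_eq_of_ne hv]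
        linarith)
    haveI : Module.Finite K ↥(riemannRochSpace D) :=
      Module.Finite.of_injective (Submodule.inclusion hle) (Submodule.inclusion_injective hle)
    set ψ := h68rLead D P π hπ0 hπ with hψ
    have h1 := LinearMap.finrank_range_add_finrank_ker ψ
    have h2 : Module.finrank K ↥(LinearMap.range ψ) ≤ Module.finrank K P.ResidueField :=
      Submodule.finrank_le _
    have h3 : Module.finrank K ↥(LinearMap.ker ψ) ≤ Module.finrank K ↥(riemannRochSpace D) := by
      have e := Submodule.equivMapOfInjective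
        (riemannRochSpace (D + Finsupp.single P 1)).subtype
        (Submodule.injective_subtype _) (LinearMap.ker ψ)
      rw [e.finrank_eq]
      exact Submodule.finrank_mono (h68r_lead_ker_le D P π hπ0 hπ)
    show Module.finrank K ↥(riemannRochSpace (D + Finsupp.single P 1)) ≤
      Module.finrank K ↥(riemannRochSpace D) + Module.finrank K P.ResidueField
    omega
  · rw [Module.finrank_of_not_finite hfin]
    exact Nat.zero_le _

/-- **the one-step bound** at a place of degree one: `ℓ(D + P) ≤ ℓ(D) + 1`. -/
theorem h68r_one_step (D : Divisor K F) (P : Place K F) (hP : P.deg = 1) :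
    h13rL K F (D + Finsupp.single P 1) ≤ h13rL K F D + 1 := by
  haveI : Module.Finite K P.ResidueField :=
    Module.finite_of_finrank_pos (by
      have : Module.finrank K P.ResidueField = 1 := hP
      omega)
  have := h68r_one_step_deg D P
  rw [hP] at this
  exact this

end Fermat.Agent.P5
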