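import Fermat.Agent.P5.H68RRInv
import Fermat.Agent.P5.H68RROneStep

/-!
# Wave 5, pillar (P), block GEO-RR, leaves `H13rLarge` and `H13rMono` (helper68)

* `h68r_large : H13rLarge K F` : divisors of large degree are non-special; `deg D ≥ g ⇒ L(D) ≠ 0`.
* `h68r_mono  : H13rMono K F`  : `D₀ ≤ E`, `D₀` non-special `⇒ E` non-special.

Tools: `h68r_degree_nonneg`, `h68r_degree_pos` (degree of effective divisors),
`h68r_le_add` (`ℓ(E) ≤ ℓ(D₀) + deg (E - D₀)` for `D₀ ≤ E`).  Mathlib + Prelude only.
-/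

set_option autoImplicit false

noncomputable section

namespace Fermat.Agent.P5

open AlgebraicCurve

variable {K F : Type*} [Field K] [Field F] [Algebra K F]

theorem h68r_ne_bot_of_pos {D : Divisor K F} (h : 0 < h13rL K F D) :
    riemannRochSpace D ≠ ⊥ := by
  intro hb
  unfold h13rL at h
  rw [hb, finrank_bot] at h
  exact lt_irrefl _ h

theorem h68r_degree_eq_sum (T : Divisor K F) :
    Divisor.degree T = ∑ v ∈ T.support, T v * (v.deg : ℤ) := by
  unfold Divisor.degree
  rw [Finsupp.liftAddHom_apply]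
  rfl

theorem h68r_degree_nonneg {T : Divisor K F} (hT : 0 ≤ T) : 0 ≤ Divisor.degree T := by
  rw [h68r_degree_eq_sum]
  refine Finset.sum_nonneg fun v _ => ?_
  have h1 : (0 : ℤ) ≤ T v := Finsupp.le_def.mp hT v
  positivity

theorem h68r_degree_pos (hdeg : ∀ v : Place K F, v.deg = 1) {T : Divisor K F} (hT : 0 ≤ T)
    (hne : T ≠ 0) : 0 < Divisor.degree T := by
  rw [h68r_degree_eq_sum]
  obtain ⟨v, hv⟩ : ∃ v, T v ≠ 0 := by
    by_contra hcon
    push_neg at hcon
    exact hne (Finsupp.ext hcon)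
  have h1 : ∀ w ∈ T.support, (0 : ℤ) ≤ T w * (w.deg : ℤ) := fun w _ => by
    have : (0 : ℤ) ≤ T w := Finsupp.le_def.mp hT w
    positivity
  have h2 : (0 : ℤ) < T v * (v.deg : ℤ) := by
    have h3 : (0 : ℤ) ≤ T v := Finsupp.le_def.mp hT v
    have h4 : (0 : ℤ) < T v := lt_of_le_of_ne h3 (Ne.symm hv)
    rw [hdeg v]
    simpa using h4
  exact Finset.sum_pos' h1 ⟨v, Finsupp.mem_support_iff.2 hv, h2⟩

theorem h68r_degree_mono {D E : Divisor K F} (h : D ≤ E) :
    Divisor.degree D ≤ Divisor.degree E := by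
  have h1 : (0 : Divisor K F) ≤ E - D := sub_nonneg.2 h
  have h2 := h68r_degree_nonneg h1
  rw [map_sub] at h2
  linarith

/-- `ℓ(E) ≤ ℓ(D₀) + deg (E - D₀)` for `D₀ ≤ E` (all places of degree one). -/
theorem h68r_le_add (hdeg : ∀ v : Place K F, v.deg = 1) :
    ∀ (n : ℕ) (D₀ E : Divisor K F), D₀ ≤ E → Divisor.degree E - Divisor.degree D₀ = n →
      h13rL K F E ≤ h13rL K F D₀ + n := by
  intro n
  induction n with
  | zero =>
    intro D₀ E hle hd
    have h1 : E - D₀ = 0 := by
      by_contra hne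
      have := h68r_degree_pos hdeg (sub_nonneg.2 hle) hne
      rw [map_sub] at this
      simp at hd
      linarith
    have h2 : E = D₀ := sub_eq_zero.1 h1
    rw [h2]
    exact Nat.le_refl _
  | succ n ih =>
    intro D₀ E hle hd
    have hne : E ≠ D₀ := by
      rintro rfl
      simp at hd
      omega
    obtain ⟨v, hv⟩ : ∃ v, D₀ v < E v := by
      by_contra hcon
      push_neg at hcon
      exact hne (Finsupp.ext fun w => le_antisymm (hcon w) (Finsupp.le_def.mp hle w))
    have hle' : D₀ ≤ E - Finsupp.single v 1 := by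
      rw [Finsupp.le_def]
      intro w
      rw [Finsupp.sub_apply]
      by_cases hw : w = v
      · subst hw
        rw [Finsupp.single_eq_same]
        omega
      · rw [Finsupp.single_eq_of_ne hw, sub_zero]
        exact Finsupp.le_def.mp hle w
    have hd' : Divisor.degree (E - Finsupp.single v 1) - Divisor.degree D₀ = n := by
      rw [map_sub, Divisor.degree_single, hdeg v]
      push_cast at hd ⊢
      linarith
    have h1 := ih D₀ (E - Finsupp.single v 1) hle' hd'
    have h2 := h68r_one_step (E - Finsupp.single v 1) v (hdeg v)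
    rw [sub_add_cancel] at h2
    omega

/-- **RR-LARGE** (exact frozen Prop of `P5/H13RRIface.lean`). -/
theorem h68r_large (K F : Type*) [Field K] [Field F] [Algebra K F] : H13rLarge K F := by
  intro hB g hg
  obtain ⟨hR, D₁, hD₁⟩ := hg
  refine ⟨⟨Divisor.degree D₁ + g, ?_⟩, ?_⟩
  · intro E hE
    have h1 := hR (E - D₁)
    rw [map_sub] at h1
    have hpos : 0 < h13rL K F (E - D₁) := by
      have : (0 : ℤ) < (h13rL K F (E - D₁) : ℤ) := by linarith
      exact_mod_cast this
    obtain ⟨f, hfmem, hf0⟩ :=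
      Submodule.exists_mem_ne_zero_of_ne_bot (h68r_ne_bot_of_pos hpos)
    obtain ⟨Df, hDf, hdegf⟩ := hB.pd f hf0
    have hle : D₁ ≤ E + Df := by
      rw [Finsupp.le_def]
      intro v
      have h2 := ((mem_riemannRochSpace_iff.1 hfmem) v).resolve_left hf0
      rw [Finsupp.add_apply, hDf v]
      rw [Finsupp.sub_apply] at h2
      linarith
    have h3 := hD₁ (E + Df) hle
    have h4 : h13rL K F (E + Df) = h13rL K F E :=
      h68r_inv K F E (E + Df) f hf0 (fun v => by rw [Finsupp.add_apply, hDf v])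
    rw [h4, map_add, hdegf, add_zero] at h3
    exact h3
  · intro D hD
    have h1 := hR D
    apply h68r_ne_bot_of_pos
    have : (0 : ℤ) < (h13rL K F D : ℤ) := by linarith
    exact_mod_cast this

/-- **RR-MONO** (exact frozen Prop of `P5/H13RRIface.lean`). -/
theorem h68r_mono (K F : Type*) [Field K] [Field F] [Algebra K F] : H13rMono K F := by
  intro hB g hg D₀ E hle h0
  obtain ⟨hR, -⟩ := hg
  have h1 := hR E
  have h2 : 0 ≤ Divisor.degree E - Divisor.degree D₀ := by
    have := h68r_degree_mono hle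
    linarith
  obtain ⟨n, hn⟩ := Int.eq_ofNat_of_zero_le h2
  have h3 := h68r_le_add hB.deg_one n D₀ E hle hn
  have h4 : (h13rL K F E : ℤ) ≤ (h13rL K F D₀ : ℤ) + n := by exact_mod_cast h3
  linarith

end Fermat.Agent.P5
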