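import Fermat.Agent.P5.H78RRMoving
import Fermat.Agent.P5.H43Riemann
import Fermat.Agent.P5.H68RRLarge

/-!
# Wave 5, block GEO-RR-ABS: the weak Riemann–Roch package (helper13)

All the frozen leaves of `P5/H13RRIface.lean` are theorems (helper3, helper43, helper68,
helper78).  This file bundles them for the consumers:

`h13r_package` : for a function field `F / K` with `H13rBase K F`, a transcendental `x` with
`F` finite over `K(x)` and the fundamental identity `H13rZeros K F x`, there is `g` with

1. `H13rIsGenus K F g` (Riemann's inequality for all divisors, equality above some `D₁`);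
2. every `L(D)` is finite-dimensional, `ℓ(D + P) ≤ ℓ(D) + 1`, `L(D) = 0` if `deg D < 0`,
   `ℓ(0) = 1`;
3. `ℓ(E) + g = deg E + 1` for `deg E ≥ c`; `L(D) ≠ 0` for `deg D ≥ g`;
4. non-speciality passes to larger divisors;
5. outside every finite set of places there is a reduced non-special divisor of degree `g`;
6. `ℓ` is invariant under linear equivalence.
-/

set_option autoImplicit false

open AlgebraicCurve

noncomputable section

namespace Fermat.Agent.P5

variable {K F : Type*} [Field K] [Field F] [Algebra K F]

/-- **The weak Riemann–Roch package.** -/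
theorem h13r_package (hB : H13rBase K F) (x : F) (hx : Transcendental K x)
    (hfin : FiniteDimensional (IntermediateField.adjoin K {x}) F) (hZ : H13rZeros K F x) :
    ∃ g : ℕ, H13rIsGenus K F g ∧
      ((∀ D : Divisor K F, Module.Finite K (riemannRochSpace D)) ∧
        (∀ (D : Divisor K F) (P : Place K F),
          h13rL K F (D + Finsupp.single P 1) ≤ h13rL K F D + 1) ∧
        (∀ D : Divisor K F, Divisor.degree D < 0 → riemannRochSpace D = ⊥) ∧
        h13rL K F 0 = 1) ∧
      ((∃ c : ℤ, ∀ E : Divisor K F, c ≤ Divisor.degree E →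
          (h13rL K F E : ℤ) + g = Divisor.degree E + 1) ∧
        (∀ D : Divisor K F, (g : ℤ) ≤ Divisor.degree D → riemannRochSpace D ≠ ⊥)) ∧
      (∀ D₀ E : Divisor K F, D₀ ≤ E →
        (h13rL K F D₀ : ℤ) + g = Divisor.degree D₀ + 1 →
          (h13rL K F E : ℤ) + g = Divisor.degree E + 1) ∧
      (∀ S : Finset (Place K F),
        ∃ T : Finset (Place K F), Disjoint T S ∧ T.card = g ∧
          h13rL K F (h13rSum K F T) = 1) ∧
      (∀ (D E : Divisor K F) (f : F), f ≠ 0 → (∀ v : Place K F, E v = D v + v.ord f) →
        h13rL K F E = h13rL K F D) := by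
  obtain ⟨g, hg⟩ := h43r_riemann_final hB x hx hfin hZ
  exact ⟨g, hg, h3r_fin hB, h68r_large K F hB g hg, h68r_mono K F hB g hg,
    h78m_moving hB g hg, h3r_inv⟩

end Fermat.Agent.P5
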