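import Fermat.Agent.Red.GV.Bar
import Fermat.Agent.P5.H13RRIface

/-!
# Wave 5, pillar (P), block GEO-RR: the special fibre, frozen interface (helper13)

`M` a good level (`ℓ ∤ M`, `auxLevel ℓ ∣ M`), `A` a valuation subring of `ℚ̄` over `ℓ`,
`k = A / 𝔪_A`, `V = gaussV A M` the Gauss ring, `red = gaussR A M : V → k((q))`.

* `h13sK A`, `h13sFt A M` : the residue field `k` and the function field of the special fibre
  (type synonyms with their own instances); `h13sF A M` is the subfield of `k((q))` generated
  by the reductions (it IS the set of reductions: leaf `H13sField`), `h13sIncl` the inclusion.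
* `h13sRed A M x` : the reduction of a Gauss-integral function as an element of `h13sFt A M`.
* `H13sIsRed A M r` : `r` is THE reduction map of places (surjective, fibres = classes of
  `SameRed`, reduction of the divisor of a Gauss unit).

Frozen leaves (every one a `Prop`; nothing is assumed):

* `H13sField`  : every element of `h13sF A M` is a reduction.
* `H13sBase`   : `H13rBase k (h13sF A M)` and `H13gBase`: `H13rBase ℚ̄ (FF M)`.
* `H13sRedDiv` : `∃ r, H13sIsRed A M r`.
* `H13sGenus`  : both fibres have a weak genus, and the two are EQUAL.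
* `H13sSemi`   : semicontinuity in the useful form: for every divisor `E` of the generic fibre
  there are `ℓ(E)` Gauss-integral functions in `L(E)` whose reductions are linearly independent
  and lie in `L(r_* E)`; if `ℓ(E) = ℓ~(r_* E)` they form a basis of `L(E)` (over `ℚ̄`), their
  reductions a basis of `L(r_* E)`, and every Gauss-integral element of `L(E)` is an
  `A`-combination.
-/

set_option autoImplicit false

open AlgebraicCurve ModularCurve

noncomputable section

namespace Fermat.Agent.P5

open Fermat.Agent.S37 Fermat.Agent.Red.GV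

/-- the residue field of `A` (a type synonym with its own instances, to keep instance
search short). -/
def h13sK (A : ValuationSubring Kbar) : Type := IsLocalRing.ResidueField A

set_option synthInstance.maxHeartbeats 400000 in
instance h13sK_field (A : ValuationSubring Kbar) : Field (h13sK A) :=
  inferInstanceAs (Field (IsLocalRing.ResidueField A))

/-- the residue map `A → k`. -/
def h13sPi (A : ValuationSubring Kbar) : A →+* h13sK A := IsLocalRing.residue A

/-- the Gauss reduction, with values in `k((q))`. -/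
def h13sR (A : ValuationSubring Kbar) (M : ℕ) : gaussV A M →+* LaurentSeries (h13sK A) :=
  gaussR A M

/-- the function field of the special fibre, as a subfield of `k((q))`. -/
def h13sF (A : ValuationSubring Kbar) (M : ℕ) :
    IntermediateField (h13sK A) (LaurentSeries (h13sK A)) :=
  IntermediateField.adjoin (h13sK A) (Set.range (h13sR A M))

/-- the function field of the special fibre, as a type. -/
def h13sFt (A : ValuationSubring Kbar) (M : ℕ) : Type := ↥(h13sF A M)

instance h13sFt_field (A : ValuationSubring Kbar) (M : ℕ) : Field (h13sFt A M) :=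
  inferInstanceAs (Field ↥(h13sF A M))

instance h13sFt_algebra (A : ValuationSubring Kbar) (M : ℕ) :
    Algebra (h13sK A) (h13sFt A M) :=
  inferInstanceAs (Algebra (h13sK A) ↥(h13sF A M))

/-- the inclusion of the special fibre field into `k((q))`. -/
def h13sIncl (A : ValuationSubring Kbar) (M : ℕ) :
    h13sFt A M →ₐ[h13sK A] LaurentSeries (h13sK A) :=
  (h13sF A M).val

/-- the reduction of a Gauss-integral function, in the function field of the special fibre. -/
def h13sRed (A : ValuationSubring Kbar) (M : ℕ) (x : gaussV A M) : h13sFt A M :=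
  (⟨h13sR A M x, IntermediateField.subset_adjoin _ _ ⟨x, rfl⟩⟩ : ↥(h13sF A M))

@[simp]
theorem h13sIncl_red (A : ValuationSubring Kbar) (M : ℕ) (x : gaussV A M) :
    h13sIncl A M (h13sRed A M x) = gaussR A M x := rfl

/-- `x` is a Gauss unit. -/
def h13sUnit (A : ValuationSubring Kbar) (M : ℕ) (x : FF M) : Prop :=
  x ∈ gaussV A M ∧ x⁻¹ ∈ gaussV A M

/-- the push-forward of a divisor along a map of places. -/
def h13sPush {A : ValuationSubring Kbar} {M : ℕ}
    (r : Place Kbar (FF M) → Place (h13sK A) (h13sFt A M)) (D : Divisor Kbar (FF M)) :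
    Divisor (h13sK A) (h13sFt A M) :=
  Finsupp.mapDomain r D

/-- `r` is the reduction map of places. -/
def H13sIsRed (A : ValuationSubring Kbar) (M : ℕ) [NeZero M]
    (r : Place Kbar (FF M) → Place (h13sK A) (h13sFt A M)) : Prop :=
  Function.Surjective r ∧
  (∀ v w : Place Kbar (FF M), r v = r w ↔ SameRed A v w) ∧
  (∀ (f : FF M) (hf : f ∈ gaussV A M), f⁻¹ ∈ gaussV A M →
    ∀ D : Divisor Kbar (FF M), (∀ v : Place Kbar (FF M), D v = v.ord f) →
      ∀ Q : Place (h13sK A) (h13sFt A M),
        h13sPush r D Q = Q.ord (h13sRed A M ⟨f, hf⟩))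

/-! ### The frozen leaves -/

/-- **SF-FIELD**: the special fibre field is the set of reductions. -/
def H13sField : Prop :=
  ∀ (ℓ : ℕ), ℓ.Prime → ∀ (M : ℕ) [NeZero M], ¬ ℓ ∣ M → auxLevel ℓ ∣ M →
    ∀ A : ValuationSubring Kbar, A.LiesOverPrime ℓ →
      ∀ y : h13sFt A M, ∃ x : gaussV A M, h13sRed A M x = y

/-- **SF-BASE**: the basic facts on the places of the special fibre. -/
def H13sBase : Prop :=
  ∀ (ℓ : ℕ), ℓ.Prime → ∀ (M : ℕ) [NeZero M], ¬ ℓ ∣ M → auxLevel ℓ ∣ M →
    ∀ A : ValuationSubring Kbar, A.LiesOverPrime ℓ →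
      H13rBase (h13sK A) (h13sFt A M)

/-- **GF-BASE**: the basic facts on the places of the generic fibre. -/
def H13gBase : Prop :=
  ∀ (M : ℕ) [NeZero M], H13rBase Kbar (FF M)

/-- **RED-DIV**: the reduction map of places, with the reduction of principal divisors. -/
def H13sRedDiv : Prop :=
  ∀ (ℓ : ℕ), ℓ.Prime → ∀ (M : ℕ) [NeZero M], ¬ ℓ ∣ M → auxLevel ℓ ∣ M →
    ∀ A : ValuationSubring Kbar, A.LiesOverPrime ℓ →
      ∃ r : Place Kbar (FF M) → Place (h13sK A) (h13sFt A M), H13sIsRed A M r

/-- **GENUS**: both fibres have a weak genus, and the two are equal. -/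
def H13sGenus : Prop :=
  ∀ (ℓ : ℕ), ℓ.Prime → ∀ (M : ℕ) [NeZero M], ¬ ℓ ∣ M → auxLevel ℓ ∣ M →
    ∀ A : ValuationSubring Kbar, A.LiesOverPrime ℓ →
      ∃ g : ℕ, H13rIsGenus Kbar (FF M) g ∧ H13rIsGenus (h13sK A) (h13sFt A M) g

/-- **SEMI**: integral bases of `L(E)` and semicontinuity. -/
def H13sSemi : Prop :=
  ∀ (ℓ : ℕ), ℓ.Prime → ∀ (M : ℕ) [NeZero M], ¬ ℓ ∣ M → auxLevel ℓ ∣ M →
    ∀ A : ValuationSubring Kbar, A.LiesOverPrime ℓ →
    ∀ r : Place Kbar (FF M) → Place (h13sK A) (h13sFt A M), H13sIsRed A M r →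
    ∀ E : Divisor Kbar (FF M),
      ∃ b : Fin (h13rL Kbar (FF M) E) → FF M,
        (∀ i, b i ∈ riemannRochSpace E) ∧
        (∀ i, b i ∈ gaussV A M) ∧
        (∀ (i : Fin (h13rL Kbar (FF M) E)) (hi : b i ∈ gaussV A M),
          h13sRed A M ⟨b i, hi⟩ ∈ riemannRochSpace (h13sPush r E)) ∧
        (∀ c : Fin (h13rL Kbar (FF M) E) → Kbar,
          (∑ i, cst M (c i) * b i) ∈ gaussV A M → ∀ i, c i ∈ A) ∧
        (∀ f ∈ riemannRochSpace E, ∃ c : Fin (h13rL Kbar (FF M) E) → Kbar,
          f = ∑ i, cst M (c i) * b i) ∧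
        (h13rL Kbar (FF M) E = h13rL (h13sK A) (h13sFt A M) (h13sPush r E) →
          ∀ y ∈ riemannRochSpace (h13sPush r E),
            ∃ (f : FF M) (hf : f ∈ gaussV A M), f ∈ riemannRochSpace E ∧
              h13sRed A M ⟨f, hf⟩ = y)

end Fermat.Agent.P5
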