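import Mathlib

/-!
# Wave 5, pillar (P), block ALG-CLOS (helper16, prefix `h16p_`): closed function algebras on
finite sets

`K` a field, `A : ValuationSubring K`, `S` a finite type, functions `S → K`, `π : K`.

* `h16pCong A c f g` : `f ≡ g` modulo `c A`, pointwise.
* `h16pClosed A π L` : `L` is `π`-adically closed in `S → K` (pointwise limits).
* `h16pSep A π` : `⋂ πⁿ A = 0`.
* `h16p_closed_of_fg` : a finitely generated `A`-submodule of `S → K` is closed.
-/

set_option autoImplicit false

open Polynomial

noncomputable section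

namespace Fermat.Agent.P5

section Defs

variable {K : Type*} [Field K] (A : ValuationSubring K) {S : Type*}

/-- `f ≡ g` modulo `c A`, pointwise. -/
def h16pCong (c : K) (f g : S → K) : Prop := ∀ s, ∃ a ∈ A, f s - g s = c * a

/-- `L` is `π`-adically closed in `S → K`. -/
def h16pClosed (π : K) (L : Set (S → K)) : Prop :=
  ∀ f : S → K, (∀ n : ℕ, ∃ g ∈ L, h16pCong A (π ^ n) f g) → f ∈ L

/-- `⋂ πⁿ A = 0`. -/
def h16pSep (π : K) : Prop := ∀ x : K, (∀ n : ℕ, ∃ a ∈ A, x = π ^ n * a) → x = 0

end Defs

section Basic

variable {K : Type*} [Field K] {A : ValuationSubring K} {S : Type*}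

theorem h16p_sep_pow_dvd {π : K} (hπ : h16pSep A π) {d : K} (hd : d ≠ 0) :
    ∃ n : ℕ, ∃ a ∈ A, π ^ n = d * a := by
  by_contra hcon
  simp only [not_exists, not_and] at hcon
  apply hd
  apply hπ
  intro n
  have h1 : π ^ n / d ∉ A := fun h => hcon n _ h (by field_simp)
  have h2 : (π ^ n / d)⁻¹ ∈ A := (A.mem_or_inv_mem _).resolve_left h1
  have h3 : π ^ n ≠ 0 := by
    intro h0
    apply h1
    rw [h0, zero_div]
    exact zero_mem _
  refine ⟨_, h2, ?_⟩
  field_simp

/-- a common denominator of a finite family. -/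
theorem h16p_common_den {ι : Type*} (t : Finset ι) (x : ι → K) :
    ∃ d ∈ A, d ≠ 0 ∧ ∀ i ∈ t, d * x i ∈ A := by
  classical
  induction t using Finset.induction_on with
  | empty => exact ⟨1, one_mem _, one_ne_zero, fun i hi => absurd hi (Finset.notMem_empty i)⟩
  | insert j t hj ih =>
    obtain ⟨d, hdA, hd0, hd⟩ := ih
    by_cases hx : x j ∈ A
    · refine ⟨d, hdA, hd0, fun i hi => ?_⟩
      rcases Finset.mem_insert.mp hi with rfl | hi
      · exact mul_mem hdA hx
      · exact hd i hi
    · have hx' : (x j)⁻¹ ∈ A := (A.mem_or_inv_mem _).resolve_left hx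
      have hx0 : x j ≠ 0 := fun h => hx (h ▸ zero_mem _)
      refine ⟨d * (x j)⁻¹, mul_mem hdA hx', mul_ne_zero hd0 (inv_ne_zero hx0), fun i hi => ?_⟩
      rcases Finset.mem_insert.mp hi with rfl | hi
      · have : d * (x i)⁻¹ * x i = d := by field_simp
        rw [this]
        exact hdA
      · have : d * (x j)⁻¹ * x i = (x j)⁻¹ * (d * x i) := by ring
        rw [this]
        exact mul_mem hx' (hd i hi)

end Basic

section Closed

variable {K : Type*} [Field K] {A : ValuationSubring K} {S : Type*} [Finite S]

/-- **(C1)** a finitely generated `A`-submodule of `S → K` is `π`-adically closed. -/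
theorem h16p_closed_of_fg {π : K} (hπ : h16pSep A π) (L : Submodule A (S → K)) (hfg : L.FG) :
    h16pClosed A π (L : Set (S → K)) := by
  classical
  letI : Fintype S := Fintype.ofFinite S
  obtain ⟨G, hG⟩ := hfg
  obtain ⟨b, hbG, hbspan, hli0⟩ := exists_linearIndependent K (G : Set (S → K))
  have hli : LinearIndepOn K id b := hli0
  let B := Module.Basis.extend hli
  letI : Fintype (hli.extend (Set.subset_univ b)) := FiniteDimensional.fintypeBasisIndex B
  have hbL : ∀ v ∈ b, v ∈ L := fun v hv => hG ▸ Submodule.subset_span (hbG hv)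
  -- elements of `L` lie in the `K`-span of `b`
  have hLspan : ∀ g ∈ L, g ∈ Submodule.span K b := by
    intro g hg
    rw [hbspan]
    rw [← hG] at hg
    refine Submodule.span_induction (p := fun x _ => x ∈ Submodule.span K (G : Set (S → K)))
      (fun x hx => Submodule.subset_span hx) (zero_mem _) (fun x y _ _ hx hy => add_mem hx hy)
      (fun a x _ hx => ?_) hg
    have : a • x = (a : K) • x := rfl
    rw [this]
    exact Submodule.smul_mem _ _ hx
  -- coordinates outside `b` vanish on `L`
  have hzero : ∀ g ∈ L, ∀ i : hli.extend (Set.subset_univ b), (i : S → K) ∉ b →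
      B.repr g i = 0 := by
    intro g hg i hi
    have h1 : g ∈ Submodule.span K (B '' {j | (j : S → K) ∈ b}) := by
      have : B '' {j | (j : S → K) ∈ b} = b := by
        ext v
        constructor
        · rintro ⟨j, hj, rfl⟩
          rw [Module.Basis.extend_apply_self]
          exact hj
        · intro hv
          refine ⟨⟨v, hli.subset_extend _ hv⟩, hv, ?_⟩
          rw [Module.Basis.extend_apply_self]
      rw [this]
      exact hLspan g hg
    have h2 := B.repr_support_subset_of_mem_span _ h1
    by_contra h3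
    exact hi (h2 (Finsupp.mem_support_iff.mpr h3))
  -- common denominator
  obtain ⟨d, hdA, hd0, hd⟩ := h16p_common_den (A := A)
    (Finset.univ : Finset ((hli.extend (Set.subset_univ b)) × S))
    (fun p => B.repr (Pi.single p.2 (1 : K)) p.1)
  have hcoord : ∀ (c : K) (h : S → K), (∀ s, ∃ a ∈ A, h s = c * a) →
      ∀ i, ∃ a ∈ A, d * B.repr h i = c * a := by
    intro c h hh i
    choose a haA ha using hh
    have e : h = ∑ s, (c * a s) • (Pi.single s (1 : K) : S → K) := by
      funext s
      rw [Finset.sum_apply, Finset.sum_eq_single s]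
      · simp [ha]
      · intro s' _ hs'
        simp [hs'.symm]
      · intro hs
        exact absurd (Finset.mem_univ s) hs
    refine ⟨∑ s, a s * (d * B.repr (Pi.single s (1 : K)) i), ?_, ?_⟩
    · exact sum_mem fun s _ => mul_mem (haA s) (hd (i, s) (Finset.mem_univ _))
    · conv_lhs => rw [e]
      rw [map_sum, Finsupp.coe_finsetSum, Finset.sum_apply, Finset.mul_sum, Finset.mul_sum]
      refine Finset.sum_congr rfl fun s _ => ?_
      rw [map_smul, Finsupp.smul_apply, smul_eq_mul]
      ring
  intro f hf
  -- the coordinates of `f` outside `b` vanish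
  have hf0 : ∀ i : hli.extend (Set.subset_univ b), (i : S → K) ∉ b → B.repr f i = 0 := by
    intro i hi
    have : d * B.repr f i = 0 := by
      apply hπ
      intro n
      obtain ⟨g, hg, hfg⟩ := hf n
      obtain ⟨a, haA, ha⟩ := hcoord (π ^ n) (f - g) (fun s => by simpa using hfg s) i
      refine ⟨a, haA, ?_⟩
      rw [← ha, map_sub, Finsupp.sub_apply, hzero g hg i hi, sub_zero]
    exact (mul_eq_zero.mp this).resolve_left hd0
  obtain ⟨n, a₀, ha₀A, ha₀⟩ := h16p_sep_pow_dvd hπ hd0
  obtain ⟨g, hg, hfg⟩ := hf n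
  have hsub : f - g ∈ L := by
    rw [← B.sum_repr (f - g)]
    refine sum_mem fun i _ => ?_
    by_cases hi : (i : S → K) ∈ b
    · obtain ⟨a, haA, ha⟩ := hcoord (π ^ n) (f - g) (fun s => by simpa using hfg s) i
      have h1 : B.repr (f - g) i = a₀ * a := by
        have : d * B.repr (f - g) i = d * (a₀ * a) := by rw [ha, ha₀]; ring
        exact mul_left_cancel₀ hd0 this
      rw [h1, Module.Basis.extend_apply_self]
      have : (a₀ * a) • (i : S → K) = (⟨a₀ * a, mul_mem ha₀A haA⟩ : A) • (i : S → K) := rfl
      rw [this]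
      exact L.smul_mem _ (hbL _ hi)
    · rw [map_sub, Finsupp.sub_apply, hf0 i hi, hzero g hg i hi, sub_zero, zero_smul]
      exact zero_mem _
  have : f = g + (f - g) := by abel
  rw [this]
  exact add_mem hg hsub

end Closed

section Val

variable {K : Type*} [Field K] {A : ValuationSubring K} {S : Type*}

theorem h16p_val_le_iff (x c : K) :
    A.valuation x ≤ A.valuation c ↔ ∃ a ∈ A, x = c * a := by
  constructor
  · intro h
    by_cases hc : c = 0
    · rw [hc, map_zero] at h
      have hx : x = 0 := (map_eq_zero _).mp (le_antisymm h zero_le)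
      exact ⟨0, zero_mem _, by rw [hx, mul_zero]⟩
    · refine ⟨x / c, ?_, by field_simp⟩
      rw [← A.valuation_le_one_iff, map_div₀]
      exact div_le_one_of_le₀ h zero_le
  · rintro ⟨a, ha, rfl⟩
    rw [map_mul]
    exact mul_le_of_le_one_right' ((A.valuation_le_one_iff a).mpr ha)

theorem h16p_cong_iff (c : K) (f g : S → K) :
    h16pCong A c f g ↔ ∀ s, A.valuation (f s - g s) ≤ A.valuation c :=
  forall_congr' fun _ => (h16p_val_le_iff _ _).symm

theorem h16p_val_eq_one_iff (x : K) : A.valuation x = 1 ↔ x ∈ A ∧ x⁻¹ ∈ A ∧ x ≠ 0 := by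
  constructor
  · intro h
    have hx0 : x ≠ 0 := fun h0 => by rw [h0, map_zero] at h; exact zero_ne_one h
    refine ⟨(A.valuation_le_one_iff x).mp h.le, ?_, hx0⟩
    rw [← A.valuation_le_one_iff, map_inv₀, h, inv_one]
  · rintro ⟨h1, h2, h3⟩
    have a1 := (A.valuation_le_one_iff x).mpr h1
    have a2 := (A.valuation_le_one_iff x⁻¹).mpr h2
    rw [map_inv₀] at a2
    have hv0 : A.valuation x ≠ 0 := (_root_.map_ne_zero _).mpr h3
    refine le_antisymm a1 ?_
    have := (one_le_inv₀ (zero_lt_iff.mpr hv0)).mp
    by_contra hlt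
    rw [not_le] at hlt
    have h4 : 1 < (A.valuation x)⁻¹ := (one_lt_inv₀ (zero_lt_iff.mpr hv0)).mpr hlt
    exact absurd a2 (not_le.mpr h4)

end Val

section Alg

variable {K : Type*} [Field K] {A : ValuationSubring K} {S : Type*} [Finite S]

/-- the characteristic polynomial of an `A`-valued function. -/
def h16pChar (x : S → K) (hx : ∀ s, x s ∈ A) : Polynomial A :=
  letI : Fintype S := Fintype.ofFinite S
  ∏ s, (X - C (⟨x s, hx s⟩ : A))

theorem h16p_char_monic (x : S → K) (hx : ∀ s, x s ∈ A) : (h16pChar x hx).Monic := by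
  letI : Fintype S := Fintype.ofFinite S
  exact monic_prod_of_monic _ _ fun s _ => monic_X_sub_C _

theorem h16p_char_aeval (x : S → K) (hx : ∀ s, x s ∈ A) : aeval x (h16pChar x hx) = 0 := by
  letI : Fintype S := Fintype.ofFinite S
  funext s₀
  have h1 : (aeval x (h16pChar x hx)) s₀ = aeval (x s₀) (h16pChar x hx) := by
    have := Polynomial.aeval_algHom_apply (Pi.evalAlgHom A (fun _ : S => K) s₀) x
      (h16pChar x hx)
    simpa using this.symm
  rw [h1, Pi.zero_apply, h16pChar, map_prod]
  refine Finset.prod_eq_zero (Finset.mem_univ s₀) ?_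
  simp

/-- an `A`-valued function on a finite set is integral over `A`. -/
theorem h16p_isIntegral (x : S → K) (hx : ∀ s, x s ∈ A) : IsIntegral A x :=
  ⟨h16pChar x hx, h16p_char_monic x hx, by
    have := h16p_char_aeval x hx
    rwa [aeval_def] at this⟩

/-- **(C2)** the algebra generated by finitely many `A`-valued functions is a finitely generated
module. -/
theorem h16p_adjoin_fg (t : Set (S → K)) (ht : t.Finite) (hint : ∀ x ∈ t, ∀ s, x s ∈ A) :
    (Algebra.adjoin A t).toSubmodule.FG :=
  fg_adjoin_of_finite ht fun x hx => h16p_isIntegral x (hint x hx)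

/-- the functions of the algebra generated by `A`-valued functions are `A`-valued. -/
theorem h16p_adjoin_int (t : Set (S → K)) (hint : ∀ x ∈ t, ∀ s, x s ∈ A) :
    ∀ f ∈ Algebra.adjoin A t, ∀ s, f s ∈ A := by
  intro f hf
  induction hf using Algebra.adjoin_induction with
  | mem x hx => exact hint x hx
  | algebraMap r => exact fun s => r.2
  | add x y _ _ hx hy => exact fun s => add_mem (hx s) (hy s)
  | mul x y _ _ hx hy => exact fun s => mul_mem (hx s) (hy s)

/-- **(C2')** a function of `L` whose values are units of `A` is invertible in `L`. -/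
theorem h16p_inv_mem (L : Subalgebra A (S → K)) (u : S → K) (hu : u ∈ L)
    (hu1 : ∀ s, A.valuation (u s) = 1) : u⁻¹ ∈ L := by
  classical
  letI : Fintype S := Fintype.ofFinite S
  have hx : ∀ s, u s ∈ A := fun s => ((h16p_val_eq_one_iff (u s)).mp (hu1 s)).1
  have hxi : ∀ s, (u s)⁻¹ ∈ A := fun s => ((h16p_val_eq_one_iff (u s)).mp (hu1 s)).2.1
  have hx0 : ∀ s, u s ≠ 0 := fun s => ((h16p_val_eq_one_iff (u s)).mp (hu1 s)).2.2
  set P := h16pChar u hx with hP
  -- the constant coefficient is a unit
  have hc0 : ((P.coeff 0 : A) : K) = ∏ s, (-(u s)) := by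
    rw [hP, h16pChar, coeff_zero_eq_eval_zero, eval_prod]
    show A.subtype _ = _
    rw [map_prod]
    refine Finset.prod_congr rfl fun s _ => ?_
    simp
  let c' : A := ⟨∏ s, (-(u s)⁻¹), prod_mem fun s _ => neg_mem (hxi s)⟩
  have hcc : ((P.coeff 0 : A) : K) * (c' : K) = 1 := by
    rw [hc0]
    show (∏ s, (-(u s))) * ∏ s, (-(u s)⁻¹) = 1
    rw [← Finset.prod_mul_distrib]
    refine Finset.prod_eq_one fun s _ => ?_
    have := hx0 s
    field_simp
  -- `u * Q(u) = - c₀`
  have hQ : u * aeval u P.divX = - algebraMap A (S → K) (P.coeff 0) := by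
    have h1 : aeval u P = 0 := h16p_char_aeval u hx
    have h2 : P = P.divX * X + C (P.coeff 0) := (divX_mul_X_add P).symm
    rw [h2, map_add, map_mul, aeval_X, aeval_C] at h1
    rw [mul_comm]
    exact eq_neg_of_add_eq_zero_left h1
  have hQL : aeval u P.divX ∈ L := by
    have := Polynomial.aeval_subalgebra_coe P.divX L (⟨u, hu⟩ : L)
    rw [show ((⟨u, hu⟩ : L) : S → K) = u from rfl] at this
    rw [← this]
    exact (aeval (⟨u, hu⟩ : L) P.divX).2
  have hw : u⁻¹ = -(c' • aeval u P.divX) := by
    funext s
    have h3 := congrFun hQ s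
    simp only [Pi.mul_apply, Pi.neg_apply] at h3
    rw [Pi.inv_apply, Pi.neg_apply, Pi.smul_apply]
    have h4 : (algebraMap A (S → K) (P.coeff 0)) s = ((P.coeff 0 : A) : K) := rfl
    rw [h4] at h3
    have h5 : c' • (aeval u P.divX) s = (c' : K) * (aeval u P.divX) s := rfl
    rw [h5]
    have h6 : u s * (-((c' : K) * (aeval u P.divX) s)) = 1 := by
      have : u s * (-((c' : K) * (aeval u P.divX) s)) =
          -((c' : K) * (u s * (aeval u P.divX) s)) := by ring
      rw [this, h3]
      have : -((c' : K) * -((P.coeff 0 : A) : K)) = ((P.coeff 0 : A) : K) * (c' : K) := by ring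
      rw [this, hcc]
    exact (eq_inv_of_mul_eq_one_right h6).symm ▸ rfl
  rw [hw]
  exact neg_mem (L.smul_mem hQL c')

end Alg

section Newton

variable {K : Type*} [Field K] {A : ValuationSubring K} {S : Type*}

/-- the ring of `A`-valued functions. -/
def h16pInt (A : ValuationSubring K) (S : Type*) : Subring (S → K) where
  carrier := {f | ∀ s, f s ∈ A}
  mul_mem' ha hb s := mul_mem (ha s) (hb s)
  one_mem' _ := one_mem _
  add_mem' ha hb s := add_mem (ha s) (hb s)
  zero_mem' _ := zero_mem _
  neg_mem' ha s := neg_mem (ha s)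

theorem h16p_mem_int (f : S → K) : f ∈ h16pInt A S ↔ ∀ s, f s ∈ A := Iff.rfl

/-- the inclusion of an algebra of `A`-valued functions. -/
def h16pIncl (L : Subalgebra A (S → K)) (hLint : ∀ f ∈ L, ∀ s, f s ∈ A) :
    L →+* h16pInt A S where
  toFun f := ⟨f.1, hLint f.1 f.2⟩
  map_one' := rfl
  map_mul' _ _ := rfl
  map_zero' := rfl
  map_add' _ _ := rfl

theorem h16p_subtype_comp_incl (L : Subalgebra A (S → K)) (hLint : ∀ f ∈ L, ∀ s, f s ∈ A) :
    (h16pInt A S).subtype.comp (h16pIncl L hLint) = algebraMap L (S → K) := rfl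

/-- evaluation of a polynomial over `L` at an `A`-valued function, computed in the ring of
`A`-valued functions. -/
theorem h16p_eval_coe (L : Subalgebra A (S → K)) (hLint : ∀ f ∈ L, ∀ s, f s ∈ A)
    (F : Polynomial L) (x : h16pInt A S) :
    (((F.map (h16pIncl L hLint)).eval x : h16pInt A S) : S → K) = aeval (x : S → K) F := by
  have h1 : (((F.map (h16pIncl L hLint)).eval x : h16pInt A S) : S → K) =
      (h16pInt A S).subtype ((F.map (h16pIncl L hLint)).eval x) := rfl
  rw [h1, ← Polynomial.eval₂_at_apply, Polynomial.eval₂_map, h16p_subtype_comp_incl, aeval_def]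
  rfl

/-- values of polynomials over `L` at elements of `L` lie in `L`. -/
theorem h16p_aeval_mem (L : Subalgebra A (S → K)) (F : Polynomial L) (x : S → K) (hx : x ∈ L) :
    aeval x F ∈ L := by
  rw [aeval_def, eval₂_eq_sum_range]
  exact sum_mem fun i _ => mul_mem (F.coeff i).2 (pow_mem hx i)

variable [Finite S]

/-- **(C3)** Newton: a topologically nilpotent simple root of a polynomial over a closed algebra
`L` of `A`-valued functions lies in `L`. -/
theorem h16p_newton {π : K} (L : Subalgebra A (S → K)) (hLint : ∀ f ∈ L, ∀ s, f s ∈ A)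
    (hcl : h16pClosed A π (L : Set (S → K))) (F : Polynomial L) (y : S → K)
    (hy1 : ∀ s, A.valuation (y s) < 1) (N : ℕ) (hyN : ∀ s, A.valuation (y s) ^ N ≤ A.valuation π)
    (hroot : aeval y F = 0)
    (hder : ∀ s, A.valuation ((aeval y (derivative F)) s) = 1) : y ∈ L := by
  classical
  set v := A.valuation with hv
  have hyA : ∀ s, y s ∈ A := fun s => (A.valuation_le_one_iff _).mp (hy1 s).le
  set T := h16pInt A S with hT
  set FT : Polynomial T := F.map (h16pIncl L hLint) with hFT
  let yT : T := ⟨y, hyA⟩
  have hval : ∀ t : T, ∀ s, v ((t : S → K) s) ≤ 1 := fun t s => (A.valuation_le_one_iff _).mpr (t.2 s)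
  -- the Newton step
  have key : ∀ n : ℕ, ∃ x ∈ L, ∀ s, v (y s - x s) ≤ v (y s) ^ (n + 1) := by
    intro n
    induction n with
    | zero => exact ⟨0, zero_mem _, fun s => by simp⟩
    | succ n ih =>
      obtain ⟨x, hxL, hx⟩ := ih
      have hxA : ∀ s, x s ∈ A := hLint x hxL
      let xT : T := ⟨x, hxA⟩
      -- the derivative at `x` is a unit
      have hdvd : xT - yT ∣ (derivative FT).eval xT - (derivative FT).eval yT :=
        Polynomial.sub_dvd_eval_sub xT yT (derivative FT)
      obtain ⟨t, ht⟩ := hdvd
      have hdx : (((derivative FT).eval xT : T) : S → K) = aeval x (derivative F) := by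
        rw [hFT, derivative_map]
        exact h16p_eval_coe L hLint (derivative F) xT
      have hdy : (((derivative FT).eval yT : T) : S → K) = aeval y (derivative F) := by
        rw [hFT, derivative_map]
        exact h16p_eval_coe L hLint (derivative F) yT
      have hu1 : ∀ s, v ((aeval x (derivative F)) s) = 1 := by
        intro s
        have h1 : (aeval x (derivative F)) s =
            (aeval y (derivative F)) s + (x s - y s) * (t : S → K) s := by
          have := congrFun (congrArg Subtype.val ht) s
          change (((derivative FT).eval xT : T) : S → K) s -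
            (((derivative FT).eval yT : T) : S → K) s = (x s - y s) * (t : S → K) s at this
          rw [hdx, hdy] at this
          rw [← this]
          ring
        rw [h1]
        have h2 : v ((x s - y s) * (t : S → K) s) < 1 := by
          rw [map_mul]
          have h3 : v (x s - y s) < 1 := by
            rw [← neg_sub, Valuation.map_neg]
            exact lt_of_le_of_lt (hx s) (pow_lt_one₀ zero_le (hy1 s) (Nat.succ_ne_zero n))
          exact lt_of_le_of_lt (mul_le_of_le_one_right' (hval t s)) h3
        rw [Valuation.map_add_eq_of_lt_left]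
        · exact hder s
        · rw [hder s]
          exact h2
      have hwL : (aeval x (derivative F))⁻¹ ∈ L :=
        h16p_inv_mem L _ (h16p_aeval_mem L _ x hxL) hu1
      set w := (aeval x (derivative F))⁻¹ with hw
      have huw : ∀ s, (aeval x (derivative F)) s * w s = 1 := by
        intro s
        have h0 : (aeval x (derivative F)) s ≠ 0 := by
          intro h
          have := hu1 s
          rw [h, map_zero] at this
          exact zero_ne_one this
        rw [hw, Pi.inv_apply]
        exact mul_inv_cancel₀ h0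
      have hw1 : ∀ s, v (w s) ≤ 1 := fun s => (A.valuation_le_one_iff _).mpr (hLint w hwL s)
      refine ⟨x - aeval x F * w, sub_mem hxL (mul_mem (h16p_aeval_mem L F x hxL) hwL), ?_⟩
      intro s
      -- the expansion
      obtain ⟨k, hk⟩ := Polynomial.binomExpansion FT xT (yT - xT)
      have e1 : xT + (yT - xT) = yT := by ring
      rw [e1] at hk
      have hk' := congrFun (congrArg Subtype.val hk) s
      have hFy : ((FT.eval yT : T) : S → K) = aeval y F := h16p_eval_coe L hLint F yT
      have hFx : ((FT.eval xT : T) : S → K) = aeval x F := h16p_eval_coe L hLint F xT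
      change ((FT.eval yT : T) : S → K) s = ((FT.eval xT : T) : S → K) s +
        (((derivative FT).eval xT : T) : S → K) s * (y s - x s) +
          (k : S → K) s * (y s - x s) ^ 2 at hk'
      rw [hFy, hFx, hdx, hroot, Pi.zero_apply] at hk'
      have hk'' : (0 : K) = (aeval x F) s + (aeval x (derivative F)) s * (y s - x s) +
          (k : S → K) s * (y s - x s) ^ 2 := hk'
      have e2 : y s - (x - aeval x F * w) s =
          - ((k : S → K) s * w s * (y s - x s) ^ 2) := by
        have h5 : (aeval x F) s = - ((aeval x (derivative F)) s * (y s - x s)) -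
            (k : S → K) s * (y s - x s) ^ 2 := by linear_combination -hk''
        simp only [Pi.sub_apply, Pi.mul_apply]
        rw [h5]
        linear_combination (-(y s - x s)) * huw s
      rw [e2, Valuation.map_neg, map_mul, map_mul, map_pow]
      calc v ((k : S → K) s) * v (w s) * v (y s - x s) ^ 2
          ≤ 1 * 1 * v (y s - x s) ^ 2 :=
            mul_le_mul' (mul_le_mul' (hval k s) (hw1 s)) le_rfl
        _ = v (y s - x s) ^ 2 := by rw [one_mul, one_mul]
        _ ≤ (v (y s) ^ (n + 1)) ^ 2 := pow_le_pow_left' (hx s) 2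
        _ = v (y s) ^ (n + 1 + 1) * v (y s) ^ n := by rw [← pow_mul, ← pow_add]; congr 1; ring
        _ ≤ v (y s) ^ (n + 1 + 1) * 1 :=
            mul_le_mul' le_rfl (pow_le_one' (hy1 s).le n)
        _ = v (y s) ^ (n + 1 + 1) := mul_one _
  apply hcl
  intro m
  obtain ⟨x, hxL, hx⟩ := key (N * m)
  refine ⟨x, hxL, ?_⟩
  rw [h16p_cong_iff]
  intro s
  calc v (y s - x s) ≤ v (y s) ^ (N * m + 1) := hx s
    _ = v (y s) ^ (N * m) * v (y s) := pow_succ _ _
    _ ≤ v (y s) ^ (N * m) * 1 := mul_le_mul' le_rfl (hy1 s).le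
    _ = (v (y s) ^ N) ^ m := by rw [mul_one, pow_mul]
    _ ≤ v π ^ m := pow_le_pow_left' (hyN s) m
    _ = v (π ^ m) := (map_pow _ _ _).symm

end Newton

end Fermat.Agent.P5
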