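import Mathlib

/-!
# Wave 5 (P), block ALG-CLOS (helper91): the product algebra and divided differences

`K` a field, `A` a commutative ring with `Algebra A K` (e.g. a valuation subring of `K`),
`S`, `S'` types, `R : Subalgebra A (S → K)`, `R' : Subalgebra A (S' → K)`.

* `h91cProd R R' : Subalgebra A (S × S' → K)` : the image of `R ⊗ R'`, i.e. the functions
  `(x, y) ↦ ∑ i, a i x * b i y` with `a i ∈ R`, `b i ∈ R'` (`h91c_mem_prod_iff`, Sweedler form
  indexed by `Fin n`);
* `h91c_prod_fg` : if `R` and `R'` are finitely generated `A`-modules, so is `h91cProd R R'`;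
* `h91c_fst_mem`, `h91c_snd_mem` : functions of one variable;
* `h91cDD p x y` : the divided difference polynomial `(p(x) - p(y)) / (x - y)`, with
  `h91c_dd_mul : h91cDD p x y * (x - y) = p(x) - p(y)` and `h91c_dd_diag : h91cDD p x x = p'(x)`;
* `h91c_divDiff_mem` (**C5**) : for `p : A[X]`, `u : S → K`, `u' : S' → K` the function
  `(s, s') ↦ (p(u s) - p(u' s')) / (u s - u' s')` (value `p'(u s)` where `u s = u' s'`) lies in
  `h91cProd (adjoin A {u}) (adjoin A {u'})`.
-/

set_option autoImplicit false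

noncomputable section

namespace Fermat.Agent.P5

open TensorProduct Polynomial

section Prod

variable {K : Type*} [Field K] {A : Type*} [CommRing A] [Algebra A K] {S S' : Type*}

/-- functions of the first variable. -/
def h91cFst (A : Type*) [CommRing A] [Algebra A K] (S S' : Type*) :
    (S → K) →ₐ[A] (S × S' → K) where
  toFun a := fun x => a x.1
  map_one' := rfl
  map_mul' _ _ := rfl
  map_zero' := rfl
  map_add' _ _ := rfl
  commutes' _ := rfl

/-- functions of the second variable. -/
def h91cSnd (A : Type*) [CommRing A] [Algebra A K] (S S' : Type*) :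
    (S' → K) →ₐ[A] (S × S' → K) where
  toFun b := fun x => b x.2
  map_one' := rfl
  map_mul' _ _ := rfl
  map_zero' := rfl
  map_add' _ _ := rfl
  commutes' _ := rfl

@[simp] theorem h91c_fst_apply (a : S → K) (x : S × S') : h91cFst A S S' a x = a x.1 := rfl

@[simp] theorem h91c_snd_apply (b : S' → K) (x : S × S') : h91cSnd A S S' b x = b x.2 := rfl

/-- the map `R ⊗ R' → (S × S' → K)`. -/
def h91cMap (R : Subalgebra A (S → K)) (R' : Subalgebra A (S' → K)) :
    (R ⊗[A] R') →ₐ[A] (S × S' → K) :=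
  Algebra.TensorProduct.productMap ((h91cFst A S S').comp R.val) ((h91cSnd A S S').comp R'.val)

@[simp] theorem h91c_map_tmul (R : Subalgebra A (S → K)) (R' : Subalgebra A (S' → K))
    (a : R) (b : R') (x : S × S') :
    h91cMap R R' (a ⊗ₜ[A] b) x = (a : S → K) x.1 * (b : S' → K) x.2 := by
  simp [h91cMap, Algebra.TensorProduct.productMap_apply_tmul]

/-- **the product algebra**: the image of `R ⊗ R'` in the functions on `S × S'`. -/
def h91cProd (R : Subalgebra A (S → K)) (R' : Subalgebra A (S' → K)) :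
    Subalgebra A (S × S' → K) :=
  (h91cMap R R').range

theorem h91c_map_sweedler (R : Subalgebra A (S → K)) (R' : Subalgebra A (S' → K))
    (t : R ⊗[A] R') :
    ∃ (n : ℕ) (a : Fin n → S → K) (b : Fin n → S' → K),
      (∀ i, a i ∈ R) ∧ (∀ i, b i ∈ R') ∧
        ∀ x y, h91cMap R R' t (x, y) = ∑ i, a i x * b i y := by
  induction t using TensorProduct.induction_on with
  | zero =>
    exact ⟨0, fun i => i.elim0, fun i => i.elim0, fun i => i.elim0, fun i => i.elim0,
      fun x y => by simp⟩
  | tmul a b =>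
    refine ⟨1, fun _ => (a : S → K), fun _ => (b : S' → K), fun _ => a.2, fun _ => b.2,
      fun x y => ?_⟩
    simp
  | add t₁ t₂ h₁ h₂ =>
    obtain ⟨n, a, b, ha, hb, h⟩ := h₁
    obtain ⟨m, a', b', ha', hb', h'⟩ := h₂
    refine ⟨n + m, Fin.append a a', Fin.append b b', ?_, ?_, fun x y => ?_⟩
    · intro i
      refine Fin.addCases (fun j => ?_) (fun j => ?_) i
      · rw [Fin.append_left]; exact ha j
      · rw [Fin.append_right]; exact ha' j
    · intro i
      refine Fin.addCases (fun j => ?_) (fun j => ?_) i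
      · rw [Fin.append_left]; exact hb j
      · rw [Fin.append_right]; exact hb' j
    · have e : (h91cMap R R' (t₁ + t₂)) (x, y) =
          (h91cMap R R' t₁) (x, y) + (h91cMap R R' t₂) (x, y) := by
        rw [map_add]; rfl
      rw [e, Fin.sum_univ_add]
      simp only [Fin.append_left, Fin.append_right]
      rw [← h x y, ← h' x y]

theorem h91c_map_sum_tmul (R : Subalgebra A (S → K)) (R' : Subalgebra A (S' → K))
    {ι : Type*} (s : Finset ι) (a : ι → R) (b : ι → R') (x : S × S') :
    h91cMap R R' (∑ i ∈ s, a i ⊗ₜ[A] b i) x =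
      ∑ i ∈ s, (a i : S → K) x.1 * (b i : S' → K) x.2 := by
  rw [map_sum, Finset.sum_apply]
  exact Finset.sum_congr rfl fun i _ => h91c_map_tmul R R' (a i) (b i) x

/-- Sweedler form of the elements of the product algebra. -/
theorem h91c_mem_prod_iff (R : Subalgebra A (S → K)) (R' : Subalgebra A (S' → K))
    (f : S × S' → K) :
    f ∈ h91cProd R R' ↔ ∃ (n : ℕ) (a : Fin n → S → K) (b : Fin n → S' → K),
      (∀ i, a i ∈ R) ∧ (∀ i, b i ∈ R') ∧ ∀ x y, f (x, y) = ∑ i, a i x * b i y := by
  constructor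
  · intro hf
    obtain ⟨t, rfl⟩ := (AlgHom.mem_range _).mp hf
    exact h91c_map_sweedler R R' t
  · rintro ⟨n, a, b, ha, hb, h⟩
    refine (AlgHom.mem_range _).mpr
      ⟨∑ i, (⟨a i, ha i⟩ : R) ⊗ₜ[A] (⟨b i, hb i⟩ : R'), ?_⟩
    funext ⟨x, y⟩
    rw [h x y, h91c_map_sum_tmul]

theorem h91c_fst_mem (R : Subalgebra A (S → K)) (R' : Subalgebra A (S' → K)) {a : S → K}
    (ha : a ∈ R) : (fun x : S × S' => a x.1) ∈ h91cProd R R' :=
  (h91c_mem_prod_iff R R' _).mpr
    ⟨1, fun _ => a, fun _ => 1, fun _ => ha, fun _ => R'.one_mem, fun x y => by simp⟩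

theorem h91c_snd_mem (R : Subalgebra A (S → K)) (R' : Subalgebra A (S' → K)) {b : S' → K}
    (hb : b ∈ R') : (fun x : S × S' => b x.2) ∈ h91cProd R R' :=
  (h91c_mem_prod_iff R R' _).mpr
    ⟨1, fun _ => 1, fun _ => b, fun _ => R.one_mem, fun _ => hb, fun x y => by simp⟩

theorem h91c_prod_mono {R₁ R₂ : Subalgebra A (S → K)} {R₁' R₂' : Subalgebra A (S' → K)}
    (h : R₁ ≤ R₂) (h' : R₁' ≤ R₂') : h91cProd R₁ R₁' ≤ h91cProd R₂ R₂' := by
  intro f hf
  obtain ⟨n, a, b, ha, hb, hab⟩ := (h91c_mem_prod_iff R₁ R₁' f).mp hf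
  exact (h91c_mem_prod_iff R₂ R₂' f).mpr ⟨n, a, b, fun i => h (ha i), fun i => h' (hb i), hab⟩

/-- the product of finitely generated modules is finitely generated. -/
theorem h91c_prod_fg (R : Subalgebra A (S → K)) (R' : Subalgebra A (S' → K))
    (hR : (Subalgebra.toSubmodule R).FG) (hR' : (Subalgebra.toSubmodule R').FG) :
    (Subalgebra.toSubmodule (h91cProd R R')).FG := by
  have : Module.Finite A R := Module.Finite.iff_fg.mpr hR
  have : Module.Finite A R' := Module.Finite.iff_fg.mpr hR'
  have h1 : Subalgebra.toSubmodule (h91cProd R R') =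
      LinearMap.range (h91cMap R R').toLinearMap := by
    ext f
    rfl
  rw [h1, LinearMap.range_eq_map]
  exact (Module.Finite.fg_top).map _

end Prod

section DD

variable {K : Type*} [Field K] {A : Type*} [CommRing A] [Algebra A K]

/-- the divided difference `(p(x) - p(y)) / (x - y)` as a polynomial expression in `x`, `y`. -/
def h91cDD (p : A[X]) (x y : K) : K :=
  p.sum fun k c => algebraMap A K c * ∑ i ∈ Finset.range k, x ^ i * y ^ (k - 1 - i)

theorem h91c_geom (x y : K) (k : ℕ) :
    (∑ i ∈ Finset.range k, x ^ i * y ^ (k - 1 - i)) * (x - y) = x ^ k - y ^ k :=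
  (Commute.all x y).geom_sum₂_mul k

theorem h91c_dd_mul (p : A[X]) (x y : K) :
    h91cDD p x y * (x - y) = aeval x p - aeval y p := by
  rw [h91cDD, Polynomial.sum, Finset.sum_mul, aeval_def, aeval_def, eval₂_eq_sum, eval₂_eq_sum,
    Polynomial.sum, Polynomial.sum, ← Finset.sum_sub_distrib]
  refine Finset.sum_congr rfl fun k _ => ?_
  rw [mul_assoc, h91c_geom, mul_sub]

theorem h91c_dd_diag (p : A[X]) (x : K) :
    h91cDD p x x = aeval x (derivative p) := by
  rw [h91cDD, Polynomial.sum, aeval_def, derivative_apply, Polynomial.sum, eval₂_finsetSum]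
  refine Finset.sum_congr rfl fun k _ => ?_
  have h1 : ∑ i ∈ Finset.range k, x ^ i * x ^ (k - 1 - i) = (k : K) * x ^ (k - 1) := by
    rw [Finset.sum_congr rfl (fun i hi => ?_), Finset.sum_const, Finset.card_range,
      nsmul_eq_mul]
    rw [← pow_add]
    congr 1
    have := Finset.mem_range.mp hi
    omega
  rw [h1, eval₂_mul, eval₂_C, eval₂_X_pow]
  simp [mul_assoc]

theorem h91c_dd_eq_div (p : A[X]) {x y : K} (h : x ≠ y) :
    h91cDD p x y = (aeval x p - aeval y p) / (x - y) := by
  rw [eq_div_iff (sub_ne_zero.mpr h), h91c_dd_mul]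

/-- **C5**: the divided difference of `p` along `u ∈ R`, `u' ∈ R'` lies in the product algebra. -/
theorem h91c_dd_mem {S S' : Type*} (R : Subalgebra A (S → K)) (R' : Subalgebra A (S' → K))
    (p : A[X]) {u : S → K} {u' : S' → K} (hu : u ∈ R) (hu' : u' ∈ R') :
    (fun x : S × S' => h91cDD p (u x.1) (u' x.2)) ∈ h91cProd R R' := by
  have h1 := h91c_fst_mem R R' hu
  have h2 := h91c_snd_mem R R' hu'
  have e : (fun x : S × S' => h91cDD p (u x.1) (u' x.2)) =
      p.sum fun k c => algebraMap A (S × S' → K) c *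
        ∑ i ∈ Finset.range k,
          (fun x : S × S' => u x.1) ^ i * (fun x : S × S' => u' x.2) ^ (k - 1 - i) := by
    funext x
    simp [h91cDD, Polynomial.sum, Finset.sum_apply]
  rw [e]
  exact Subalgebra.sum_mem _ fun k _ => Subalgebra.mul_mem _ (Subalgebra.algebraMap_mem _ _)
    (Subalgebra.sum_mem _ fun i _ =>
      Subalgebra.mul_mem _ (Subalgebra.pow_mem _ h1 _) (Subalgebra.pow_mem _ h2 _))

/-- the divided difference function: `(p(u s) - p(u' s')) / (u s - u' s')` off the diagonal,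
`p'(u s)` on it, lies in the product algebra. -/
theorem h91c_divDiff_mem {S S' : Type*} (R : Subalgebra A (S → K)) (R' : Subalgebra A (S' → K))
    (p : A[X]) {u : S → K} {u' : S' → K} (hu : u ∈ R) (hu' : u' ∈ R') (f : S × S' → K)
    (hoff : ∀ x, u x.1 ≠ u' x.2 → f x = (aeval (u x.1) p - aeval (u' x.2) p) / (u x.1 - u' x.2))
    (hdiag : ∀ x, u x.1 = u' x.2 → f x = aeval (u x.1) (derivative p)) :
    f ∈ h91cProd R R' := by
  have e : f = fun x : S × S' => h91cDD p (u x.1) (u' x.2) := by
    funext x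
    by_cases h : u x.1 = u' x.2
    · rw [hdiag x h, ← h, h91c_dd_diag]
    · rw [hoff x h, h91c_dd_eq_div p h]
  rw [e]
  exact h91c_dd_mem R R' p hu hu'

end DD

end Fermat.Agent.P5

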