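import Fermat.Agent.P5.H96ClosIface
import Fermat.Agent.P5.H16Clos
import Fermat.Agent.P5.H91ClosProd

/-!
# Wave 5, pillar (P), block ALG-CLOS (helper16, prefix `h16q_`): the frozen Props of
`P5/H96ClosIface.lean`

* `h16q_inv      : H96cInv`
* `h16q_sweedler : H96cSweedler`
* `h16q_approx   : H96cApprox`
* `h16q_newton   : H96cNewton`
* `h16q_archQbar : H96cArchQbar`
-/

set_option autoImplicit false
set_option linter.style.haveILetI false

open Polynomial

noncomputable section

namespace Fermat.Agent.P5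

/-- **C-INV.** -/
theorem h16q_inv : H96cInv := by
  intro K _ A S _ R hint u hu hunit
  have h1 : ∀ s, A.valuation (u s) = 1 := fun s =>
    (h16p_val_eq_one_iff (u s)).mpr ⟨hint u hu s, (hunit s).2, (hunit s).1⟩
  exact h16p_inv_mem R u hu h1

/-- **C-SWEEDLER.** -/
theorem h16q_sweedler : H96cSweedler := by
  intro K _ A S S' R R' F hF
  have hle : h96c_prod A R R' ≤ h91cProd R R' := by
    apply Algebra.adjoin_le
    rintro G (⟨f, hf, rfl⟩ | ⟨f, hf, rfl⟩)
    · exact h91c_fst_mem R R' hf
    · exact h91c_snd_mem R R' hf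
  obtain ⟨n, a, b, ha, hb, h⟩ := (h91c_mem_prod_iff R R' F).mp (hle hF)
  exact ⟨n, a, b, ha, hb, fun p => h p.1 p.2⟩

/-- **C-APPROX (conductor).** -/
theorem h16q_approx : H96cApprox := by
  intro K _ A S _ R hint hsep
  classical
  letI : Fintype S := Fintype.ofFinite S
  have hex : ∀ s s' : S, s ≠ s' → ∃ f ∈ R, f s ≠ f s' := by
    intro s s' hne
    by_contra h
    simp only [not_exists, not_and, not_not] at h
    exact hne (hsep s s' h)
  choose! φ hφR hφ using hex
  -- the Lagrange products
  let e : S → (S → K) := fun s => ∏ s' ∈ Finset.univ.erase s, (fun x => φ s s' x - φ s s' s')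
  have heR : ∀ s, e s ∈ R := by
    intro s
    refine prod_mem fun s' hs' => ?_
    have hne : s ≠ s' := (Finset.ne_of_mem_erase hs').symm
    have h1 : (fun x => φ s s' x - φ s s' s') =
        φ s s' - algebraMap A (S → K) ⟨φ s s' s', hint _ (hφR s s' hne) s'⟩ := rfl
    rw [h1]
    exact sub_mem (hφR s s' hne) (R.algebraMap_mem _)
  have he_apply : ∀ s x, e s x = ∏ s' ∈ Finset.univ.erase s, (φ s s' x - φ s s' s') := by
    intro s x
    show (∏ s' ∈ Finset.univ.erase s, (fun x => φ s s' x - φ s s' s')) x = _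
    rw [Finset.prod_apply]
  have he_off : ∀ s x, x ≠ s → e s x = 0 := by
    intro s x hx
    rw [he_apply]
    exact Finset.prod_eq_zero (Finset.mem_erase.mpr ⟨hx, Finset.mem_univ x⟩) (sub_self _)
  have he_ne : ∀ s, e s s ≠ 0 := by
    intro s
    rw [he_apply]
    refine Finset.prod_ne_zero_iff.mpr fun s' hs' => ?_
    exact sub_ne_zero.mpr (hφ s s' (Finset.ne_of_mem_erase hs').symm)
  have he_A : ∀ s, e s s ∈ A := fun s => hint _ (heR s) s
  refine ⟨∏ s, e s s, prod_mem fun s _ => he_A s,
    Finset.prod_ne_zero_iff.mpr fun s _ => he_ne s, ?_⟩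
  rintro f ⟨g, hg, hfg⟩
  choose a haA ha using hfg
  have hk : ∀ s, a s * ∏ t ∈ Finset.univ.erase s, e t t ∈ A := fun s =>
    mul_mem (haA s) (prod_mem fun t _ => he_A t)
  have hsum : f - g = ∑ s, (⟨_, hk s⟩ : A) • e s := by
    funext x
    rw [Pi.sub_apply, ha x, Finset.sum_apply, Finset.sum_eq_single x]
    · show _ = (a x * ∏ t ∈ Finset.univ.erase x, e t t) * e x x
      rw [← Finset.mul_prod_erase Finset.univ (fun t => e t t) (Finset.mem_univ x)]
      ring
    · intro s _ hs
      show (a s * ∏ t ∈ Finset.univ.erase s, e t t) * e s x = 0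
      rw [he_off s x (Ne.symm hs), mul_zero]
    · intro hx
      exact absurd (Finset.mem_univ x) hx
  have : f = g + (f - g) := by abel
  rw [this, hsum]
  exact add_mem hg (sum_mem fun s _ => R.smul_mem (heR s) _)

end Fermat.Agent.P5
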