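import Mathlib

/-!
# Wave 5, pillar (P), S32: the lattice comparison, interface (helper30, prefix `h30x_` / `H30x`)

Goal of the block: for a Hecke–Galois datum `(T, ρ)` of level `N` (`p ∤ N`) and an ideal `I` of
finite index, the `G_ℚ`-module `V / I V` is an equivariant quotient of a `G_ℚ`-stable subgroup of
a finite power of `J₀(N)[p ^ k]`.  No reducedness of the Hecke algebra, no lifting of `ρ` to the
big Hecke algebra, no Tate module: everything happens at finite level.

Three pure-algebra leaves (Mathlib only), frozen here as `Prop`s: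

* `H30xAnnSubq` : for finite `G`-modules `W`, `V`: if every element of `ℤ[G]` killing `W` kills
  `V`, then `V` is an equivariant quotient of a stable subgroup of `W ^ r`
  (`ℤ[G] / Ann W` embeds in `W ^ W`; `V` is a quotient of `ℤ[G] ^ V`).
* `H30xLoc` : localisation of a finite Hecke module at the maximal ideal of `T`: a subgroup `W`
  of `W₀`, stable under everything commuting with the Hecke operators, on which the Hecke
  elements with unit image in `T` are injective, and which still satisfies the key property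
  (`Θ Q = 0` on `W` implies `π Q ∈ I`).
* `H30xKey` : the annihilator comparison.  `W` a finite `G`-module with commuting Hecke action
  `Θ`, `τ g`, `δ g` Hecke elements with `g + δ(g) g⁻¹ = τ(g)` on `W`, `δ` multiplicative on `W`;
  `ρ` a rank-2 representation over the local ring `T` with `tr ρ(g) ≡ π τ(g)`,
  `det ρ(g) ≡ π δ(g)` mod `I`, `T`-span of `ρ(G)` everything, `2` a unit; key property and
  injectivity of units as in `H30xLoc`.  Then every integer combination of group elements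
  killing `W` maps `V` into `I V`.

Proof of `H30xKey` (sketch).  Write `ι(g) = Θ(δ g) ρW(g⁻¹)` and extend `ρW, ι, τ` additively to
finite integer combinations.  `ι` is anti-multiplicative and `ρW(z) + ι(z) = Θ(τ z)`.
If `ρW(y) = 0` then `ι(y) = Θ(τ y)` is central, and for all `a`: `ρW(y a) = 0`, so
`ι(a) ι(y) = ι(y a) = Θ(τ (y a))` is central; hence `[ρW b, ρW a] ι(y) = 0` for all `a, b`.
Polarisation: `ρW(z) ι(w) + ρW(w) ι(z) = Θ(B(z, w))` with `B(g, h) = δ(h) τ(g h⁻¹)` and
`π B(z, w) ≡ tr (ρ z · adj (ρ w))` mod `I`.  As the span of `ρ(G)` is `End V`, some integer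
combination `c` of commutators `a b - b a` has `det ρ(c)` a unit (otherwise `tr (X adj Y) ∈ 𝔪` on
the `T`-span of the commutators, which contains `E₁₂, E₂₁`); then `π B(c, c) ≡ 2 det ρ(c)` is a
unit, `2 ρW(c) ι(c) = Θ(B(c,c))` is injective, `W` is finite, so `ρW(c)` is bijective and
`ι(y) = 0`.  Therefore `Θ(τ y) = 0`, `π (τ y) ∈ I`, i.e. `tr (ρ(x) ρ(h)) ∈ I` for all `h`
(`y = x h`), and the trace form gives `ρ(x) V ⊆ I V`.
-/

set_option autoImplicit false

open IsLocalRing

namespace Fermat.Agent.P5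

/-- **LC-ANN** (Mathlib only). -/
def H30xAnnSubq : Prop :=
  ∀ (G : Type) [Group G] (W V : Type) [AddCommGroup W] [AddCommGroup V] [Finite W] [Finite V]
    (ρW : G →* AddMonoid.End W) (ρV : G →* AddMonoid.End V),
    (∀ (m : ℕ) (n : Fin m → ℤ) (g : Fin m → G),
      (∀ w : W, ∑ i, n i • ρW (g i) w = 0) → ∀ v : V, ∑ i, n i • ρV (g i) v = 0) →
    ∃ (r : ℕ) (X : AddSubgroup (Fin r → W)) (f : X →+ V),
      Function.Surjective f ∧
      ∀ (g : G) (x : X), ∃ y : X,
        (∀ i, (y : Fin r → W) i = ρW g ((x : Fin r → W) i)) ∧ f y = ρV g (f x)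

/-- **LC-LOC** (Mathlib only). -/
def H30xLoc : Prop :=
  ∀ (W₀ : Type) [AddCommGroup W₀] [Finite W₀] (P : Type) [CommRing P]
    (Θ₀ : P →+* AddMonoid.End W₀) (T : Type) [CommRing T] [IsLocalRing T]
    [Finite (ResidueField T)] (π : P →+* T) (I : Ideal T),
    (∀ Q : P, Θ₀ Q = 0 → π Q ∈ I) →
    ∃ W : AddSubgroup W₀,
      (∀ φ : AddMonoid.End W₀, (∀ a : P, Commute (Θ₀ a) φ) → ∀ w ∈ W, φ w ∈ W) ∧
      (∀ Q : P, (∀ w ∈ W, Θ₀ Q w = 0) → π Q ∈ I) ∧
      (∀ u : P, π u ∉ maximalIdeal T → ∀ w ∈ W, Θ₀ u w = 0 → w = 0)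

/-- **LC-KEY** (Mathlib only). -/
def H30xKey : Prop :=
  ∀ (G : Type) [Group G] (W : Type) [AddCommGroup W] [Finite W]
    (ρW : G →* AddMonoid.End W) (P : Type) [CommRing P] (Θ : P →+* AddMonoid.End W)
    (T : Type) [CommRing T] [IsLocalRing T] (π : P →+* T) (I : Ideal T)
    (V : Type) [AddCommGroup V] [Module T V] [Module.Free T V] [Module.Finite T V]
    (ρ : G →* Module.End T V) (τ δ : G → P),
    Module.finrank T V = 2 →
    (2 : T) ∉ maximalIdeal T →
    (∀ (a : P) (g : G), Commute (Θ a) (ρW g)) →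
    (∀ g : G, ρW g + Θ (δ g) * ρW g⁻¹ = Θ (τ g)) →
    (∀ g h : G, Θ (δ (g * h)) = Θ (δ g) * Θ (δ h)) →
    Θ (δ 1) = 1 →
    (∀ g : G, LinearMap.trace T V (ρ g) - π (τ g) ∈ I) →
    (∀ g : G, LinearMap.det (ρ g) - π (δ g) ∈ I) →
    Submodule.span T (Set.range ρ) = ⊤ →
    (∀ Q : P, Θ Q = 0 → π Q ∈ I) →
    (∀ u : P, π u ∉ maximalIdeal T → Function.Injective (Θ u)) →
    ∀ (m : ℕ) (n : Fin m → ℤ) (g : Fin m → G),
      (∀ w : W, ∑ i, n i • ρW (g i) w = 0) →
      ∀ v : V, ∑ i, n i • ρ (g i) v ∈ I • (⊤ : Submodule T V)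

end Fermat.Agent.P5
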