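import Mathlib
import Fermat.Agent.P5.H30LatIface

/-!
# Wave 5, pillar (P), S32, row S32-LC-KEY (second seat helper16, prefix `h16k_`):
the annihilator comparison `H30xKey`

Mathlib only.  Notation of `P5/H30LatIface.lean`.  `ℤ[G]` is `G →₀ ℤ`; all maps are extended
additively by `Finsupp.linearCombination`.
-/

set_option autoImplicit false
set_option linter.style.haveILetI false

open IsLocalRing Matrix

noncomputable section

namespace Fermat.Agent.P5

/-! ## `2 × 2` matrices -/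

section Mat

variable {T : Type} [CommRing T]

/-- the polar form of the determinant. -/
def h16kB (X Y : Matrix (Fin 2) (Fin 2) T) : T := X.trace * Y.trace - (X * Y).trace

theorem h16k_det_add (X Y : Matrix (Fin 2) (Fin 2) T) :
    (X + Y).det = X.det + Y.det + h16kB X Y := by
  simp only [h16kB, det_fin_two, trace_fin_two, Matrix.add_apply, Matrix.mul_apply,
    Fin.sum_univ_two]
  ring

theorem h16k_B_self (X : Matrix (Fin 2) (Fin 2) T) : h16kB X X = 2 * X.det := by
  simp only [h16kB, det_fin_two, trace_fin_two, Matrix.mul_apply, Fin.sum_univ_two]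
  ring

theorem h16k_B_add_left (X X' Y : Matrix (Fin 2) (Fin 2) T) :
    h16kB (X + X') Y = h16kB X Y + h16kB X' Y := by
  simp only [h16kB, trace_add, add_mul]
  ring

theorem h16k_B_add_right (X Y Y' : Matrix (Fin 2) (Fin 2) T) :
    h16kB X (Y + Y') = h16kB X Y + h16kB X Y' := by
  simp only [h16kB, trace_add, mul_add]
  ring

theorem h16k_B_smul_left (t : T) (X Y : Matrix (Fin 2) (Fin 2) T) :
    h16kB (t • X) Y = t * h16kB X Y := by
  simp only [h16kB, trace_smul, Matrix.smul_mul, smul_eq_mul]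
  ring

theorem h16k_B_smul_right (t : T) (X Y : Matrix (Fin 2) (Fin 2) T) :
    h16kB X (t • Y) = t * h16kB X Y := by
  simp only [h16kB, trace_smul, Matrix.mul_smul, smul_eq_mul]
  ring

theorem h16k_B_zsmul_left (n : ℤ) (X Y : Matrix (Fin 2) (Fin 2) T) :
    h16kB (n • X) Y = n • h16kB X Y := by
  rw [← Int.cast_smul_eq_zsmul T n X, h16k_B_smul_left, zsmul_eq_mul]

theorem h16k_B_zsmul_right (n : ℤ) (X Y : Matrix (Fin 2) (Fin 2) T) :
    h16kB X (n • Y) = n • h16kB X Y := by
  rw [← Int.cast_smul_eq_zsmul T n Y, h16k_B_smul_right, zsmul_eq_mul]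

theorem h16k_trace_mul_adjugate (X Y : Matrix (Fin 2) (Fin 2) T) :
    (X * adjugate Y).trace = h16kB X Y := by
  rw [show Y = !![Y 0 0, Y 0 1; Y 1 0, Y 1 1] from (Matrix.etaExpand_eq Y).symm,
    adjugate_fin_two_of]
  simp only [h16kB, trace_fin_two, Matrix.mul_apply, Fin.sum_univ_two, of_apply, cons_val',
    cons_val_zero, cons_val_one, empty_val', cons_val_fin_one]
  ring

/-- `det Y · tr (X Y⁻¹) = tr X tr Y - tr (X Y)`. -/
theorem h16k_det_mul_trace (X Y Y' : Matrix (Fin 2) (Fin 2) T) (h1 : Y' * Y = 1) :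
    Y.det * (X * Y').trace = h16kB X Y := by
  have h2 : adjugate Y = Y.det • Y' := by
    have := congrArg (fun Z => Y' * Z) (Matrix.mul_adjugate Y)
    simp only [← Matrix.mul_assoc, h1, Matrix.one_mul, Matrix.mul_smul, Matrix.mul_one] at this
    exact this
  rw [← h16k_trace_mul_adjugate, h2, Matrix.mul_smul, trace_smul, smul_eq_mul]

/-- the entries of `Y` are traces. -/
theorem h16k_entry (Y : Matrix (Fin 2) (Fin 2) T) (i j : Fin 2) :
    Y i j = (Y * Matrix.single j i (1 : T)).trace := by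
  rw [Matrix.trace_mul_comm]
  simp [Matrix.trace, Matrix.mul_apply, Matrix.single_apply, Fin.sum_univ_two]
  fin_cases i <;> fin_cases j <;> simp

/-- an additive group of matrices whose span contains all commutators contains a matrix with
unit determinant. -/
theorem h16k_exists_unit_det [IsLocalRing T] (S : AddSubgroup (Matrix (Fin 2) (Fin 2) T))
    (hS : ∀ X Y : Matrix (Fin 2) (Fin 2) T,
      X * Y - Y * X ∈ Submodule.span T (S : Set (Matrix (Fin 2) (Fin 2) T))) :
    ∃ X ∈ S, X.det ∉ maximalIdeal T := by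
  by_contra hcon
  simp only [not_exists, not_and, not_not] at hcon
  have h1 : ∀ X ∈ S, ∀ Y ∈ S, h16kB X Y ∈ maximalIdeal T := by
    intro X hX Y hY
    have e : h16kB X Y = (X + Y).det - X.det - Y.det := by rw [h16k_det_add]; ring
    rw [e]
    exact sub_mem (sub_mem (hcon _ (S.add_mem hX hY)) (hcon _ hX)) (hcon _ hY)
  have h2 : ∀ X ∈ Submodule.span T (S : Set (Matrix (Fin 2) (Fin 2) T)), ∀ Y ∈ S,
      h16kB X Y ∈ maximalIdeal T := by
    intro X hX Y hY
    induction hX using Submodule.span_induction with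
    | mem X hX => exact h1 X hX Y hY
    | zero =>
      have : h16kB (0 : Matrix (Fin 2) (Fin 2) T) Y = 0 := by simp [h16kB]
      rw [this]
      exact zero_mem _
    | add X X' _ _ hX hX' =>
      rw [h16k_B_add_left]
      exact add_mem hX hX'
    | smul t X _ hX =>
      rw [h16k_B_smul_left]
      exact Ideal.mul_mem_left _ _ hX
  have h3 : ∀ X ∈ Submodule.span T (S : Set (Matrix (Fin 2) (Fin 2) T)),
      ∀ Y ∈ Submodule.span T (S : Set (Matrix (Fin 2) (Fin 2) T)),
      h16kB X Y ∈ maximalIdeal T := by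
    intro X hX Y hY
    induction hY using Submodule.span_induction with
    | mem Y hY => exact h2 X hX Y hY
    | zero =>
      have : h16kB X (0 : Matrix (Fin 2) (Fin 2) T) = 0 := by simp [h16kB]
      rw [this]
      exact zero_mem _
    | add Y Y' _ _ hY hY' =>
      rw [h16k_B_add_right]
      exact add_mem hY hY'
    | smul t Y _ hY =>
      rw [h16k_B_smul_right]
      exact Ideal.mul_mem_left _ _ hY
  have e12 : Matrix.single (0 : Fin 2) (1 : Fin 2) (1 : T) =
      Matrix.single 0 0 1 * Matrix.single 0 1 1 - Matrix.single 0 1 1 * Matrix.single 0 0 1 := by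
    ext i j
    fin_cases i <;> fin_cases j <;> simp
  have e21 : Matrix.single (1 : Fin 2) (0 : Fin 2) (1 : T) =
      Matrix.single 1 1 1 * Matrix.single 1 0 1 - Matrix.single 1 0 1 * Matrix.single 1 1 1 := by
    ext i j
    fin_cases i <;> fin_cases j <;> simp
  have m12 : Matrix.single (0 : Fin 2) (1 : Fin 2) (1 : T) ∈
      Submodule.span T (S : Set (Matrix (Fin 2) (Fin 2) T)) := by
    rw [e12]; exact hS _ _
  have m21 : Matrix.single (1 : Fin 2) (0 : Fin 2) (1 : T) ∈
      Submodule.span T (S : Set (Matrix (Fin 2) (Fin 2) T)) := by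
    rw [e21]; exact hS _ _
  have h4 := h3 _ m12 _ m21
  have h5 : h16kB (Matrix.single (0 : Fin 2) (1 : Fin 2) (1 : T))
      (Matrix.single (1 : Fin 2) (0 : Fin 2) (1 : T)) = -1 := by
    simp [h16kB, Matrix.trace]
  rw [h5] at h4
  have h6 : (1 : T) ∈ maximalIdeal T := by
    have := neg_mem h4
    rwa [neg_neg] at this
  exact (Ideal.ne_top_iff_one _).mp (maximalIdeal.isMaximal T).ne_top h6

end Mat

/-! ## Additive extensions to `ℤ[G]` -/

section Ext

variable {G : Type} [Group G] {W : Type} [AddCommGroup W]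
  (ρW : G →* AddMonoid.End W) {P : Type} [CommRing P] (Θ : P →+* AddMonoid.End W)
  (τ δ : G → P)

/-- `ρW` on `ℤ[G]`. -/
def h16kRW : (G →₀ ℤ) →ₗ[ℤ] AddMonoid.End W := Finsupp.linearCombination ℤ (fun g => ρW g)

/-- `ι(g) = Θ (δ g) ρW(g⁻¹)` on `ℤ[G]`. -/
def h16kI : (G →₀ ℤ) →ₗ[ℤ] AddMonoid.End W :=
  Finsupp.linearCombination ℤ (fun g => Θ (δ g) * ρW g⁻¹)

/-- `τ` on `ℤ[G]`. -/
def h16kT : (G →₀ ℤ) →ₗ[ℤ] P := Finsupp.linearCombination ℤ τ

/-- right translation on `ℤ[G]`. -/
def h16kRt (a : G) : (G →₀ ℤ) →ₗ[ℤ] (G →₀ ℤ) := Finsupp.lmapDomain ℤ ℤ (· * a)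

/-- the polar form `B(g, h) = δ(h) τ(g h⁻¹)` on `ℤ[G]`. -/
def h16kBt : (G →₀ ℤ) →ₗ[ℤ] (G →₀ ℤ) →ₗ[ℤ] P :=
  Finsupp.linearCombination ℤ
    (fun g => Finsupp.linearCombination ℤ (fun h => δ h * τ (g * h⁻¹)))

@[simp] theorem h16kRW_single (g : G) (n : ℤ) :
    h16kRW ρW (Finsupp.single g n) = n • ρW g := Finsupp.linearCombination_single _ _ _

@[simp] theorem h16kI_single (g : G) (n : ℤ) :
    h16kI ρW Θ δ (Finsupp.single g n) = n • (Θ (δ g) * ρW g⁻¹) :=
  Finsupp.linearCombination_single _ _ _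

@[simp] theorem h16kT_single (g : G) (n : ℤ) :
    h16kT τ (Finsupp.single g n) = n • τ g := Finsupp.linearCombination_single _ _ _

@[simp] theorem h16kRt_single (a g : G) (n : ℤ) :
    h16kRt a (Finsupp.single g n) = Finsupp.single (g * a) n := by
  simp [h16kRt, Finsupp.lmapDomain_apply, Finsupp.mapDomain_single]

@[simp] theorem h16kBt_single (g h : G) (n m : ℤ) :
    h16kBt τ δ (Finsupp.single g n) (Finsupp.single h m) = n • m • (δ h * τ (g * h⁻¹)) := by
  simp [h16kBt, Finsupp.linearCombination_single]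

/-- `ρW(z) + ι(z) = Θ (τ z)`. -/
theorem h16k_rel (hrel : ∀ g : G, ρW g + Θ (δ g) * ρW g⁻¹ = Θ (τ g)) (z : G →₀ ℤ) :
    h16kRW ρW z + h16kI ρW Θ δ z = Θ (h16kT τ z) := by
  induction z using Finsupp.induction_linear with
  | zero => simp
  | add z w hz hw =>
    rw [map_add, map_add, map_add, map_add, ← hz, ← hw]
    abel
  | single g n =>
    rw [h16kRW_single, h16kI_single, h16kT_single, map_zsmul, ← hrel]
    exact (zsmul_add _ _ _).symm

theorem h16k_RW_rt (a : G) (z : G →₀ ℤ) :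
    h16kRW ρW (h16kRt a z) = h16kRW ρW z * ρW a := by
  induction z using Finsupp.induction_linear with
  | zero => simp
  | add z w hz hw => rw [map_add, map_add, map_add, hz, hw, add_mul]
  | single g n => rw [h16kRt_single, h16kRW_single, h16kRW_single, map_mul, smul_mul_assoc]

theorem h16k_I_rt (hcomm : ∀ (a : P) (g : G), Commute (Θ a) (ρW g))
    (hδ : ∀ g h : G, Θ (δ (g * h)) = Θ (δ g) * Θ (δ h)) (a : G) (z : G →₀ ℤ) :
    h16kI ρW Θ δ (h16kRt a z) = (Θ (δ a) * ρW a⁻¹) * h16kI ρW Θ δ z := by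
  induction z using Finsupp.induction_linear with
  | zero => simp
  | add z w hz hw => rw [map_add, map_add, map_add, hz, hw, mul_add]
  | single g n =>
    rw [h16kRt_single, h16kI_single, h16kI_single, mul_smul_comm]
    congr 1
    rw [hδ, _root_.mul_inv_rev, map_mul]
    have h1 : Θ (δ g) * Θ (δ a) = Θ (δ a) * Θ (δ g) := by
      rw [← map_mul, ← map_mul, mul_comm]
    have h2 := (hcomm (δ g) a⁻¹).eq
    calc Θ (δ g) * Θ (δ a) * (ρW a⁻¹ * ρW g⁻¹)
        = Θ (δ a) * (Θ (δ g) * ρW a⁻¹) * ρW g⁻¹ := by rw [h1]; noncomm_ring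
      _ = Θ (δ a) * (ρW a⁻¹ * Θ (δ g)) * ρW g⁻¹ := by rw [h2]
      _ = Θ (δ a) * ρW a⁻¹ * (Θ (δ g) * ρW g⁻¹) := by noncomm_ring

/-- polarisation: `ρW(z) ι(w) + ρW(w) ι(z) = Θ (B(z, w))`. -/
theorem h16k_polar (hcomm : ∀ (a : P) (g : G), Commute (Θ a) (ρW g))
    (hrel : ∀ g : G, ρW g + Θ (δ g) * ρW g⁻¹ = Θ (τ g))
    (hδ : ∀ g h : G, Θ (δ (g * h)) = Θ (δ g) * Θ (δ h)) (z w : G →₀ ℤ) :
    h16kRW ρW z * h16kI ρW Θ δ w + h16kRW ρW w * h16kI ρW Θ δ z = Θ (h16kBt τ δ z w) := by
  induction z using Finsupp.induction_linear with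
  | zero => simp
  | add z z' hz hz' =>
    rw [map_add, map_add, map_add, LinearMap.add_apply, map_add, ← hz, ← hz', add_mul, mul_add]
    abel
  | single g n =>
    induction w using Finsupp.induction_linear with
    | zero => simp
    | add w w' hw hw' =>
      rw [map_add, map_add, map_add, map_add, ← hw, ← hw', add_mul, mul_add]
      abel
    | single h m =>
      rw [h16kRW_single, h16kI_single, h16kRW_single, h16kI_single, h16kBt_single,
        map_zsmul, map_zsmul, map_mul]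
      have key : ρW g * (Θ (δ h) * ρW h⁻¹) + ρW h * (Θ (δ g) * ρW g⁻¹) =
          Θ (δ h) * Θ (τ (g * h⁻¹)) := by
        have h1 : Θ (δ g) = Θ (δ (g * h⁻¹)) * Θ (δ h) := by
          rw [← hδ, inv_mul_cancel_right]
        have h2 : ρW g * ρW h⁻¹ = ρW (g * h⁻¹) := (map_mul ρW g h⁻¹).symm
        have h3 : ρW h * ρW g⁻¹ = ρW (g * h⁻¹)⁻¹ := by
          rw [_root_.mul_inv_rev, inv_inv, map_mul]
        have c1 := (hcomm (δ h) g).eq
        have c2 := (hcomm (δ g) h).eq
        have c3 : Θ (δ (g * h⁻¹)) * Θ (δ h) = Θ (δ h) * Θ (δ (g * h⁻¹)) := by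
          rw [← map_mul, ← map_mul, mul_comm]
        calc ρW g * (Θ (δ h) * ρW h⁻¹) + ρW h * (Θ (δ g) * ρW g⁻¹)
            = (ρW g * Θ (δ h)) * ρW h⁻¹ + (ρW h * Θ (δ g)) * ρW g⁻¹ := by noncomm_ring
          _ = (Θ (δ h) * ρW g) * ρW h⁻¹ + (Θ (δ g) * ρW h) * ρW g⁻¹ := by rw [c1, c2]
          _ = Θ (δ h) * (ρW g * ρW h⁻¹) + Θ (δ g) * (ρW h * ρW g⁻¹) := by noncomm_ring
          _ = Θ (δ h) * ρW (g * h⁻¹) + Θ (δ h) * (Θ (δ (g * h⁻¹)) * ρW (g * h⁻¹)⁻¹) := by
              rw [h2, h3, h1, c3, mul_assoc]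
          _ = Θ (δ h) * (ρW (g * h⁻¹) + Θ (δ (g * h⁻¹)) * ρW (g * h⁻¹)⁻¹) := by
              rw [mul_add]
          _ = Θ (δ h) * Θ (τ (g * h⁻¹)) := by rw [hrel]
      rw [← key]
      simp only [smul_mul_assoc, mul_smul_comm]
      rw [smul_comm m n (ρW g * (Θ (δ h) * ρW h⁻¹)), zsmul_add, zsmul_add]

end Ext


/-! ## The core argument, in matrix form -/

section Core

variable {G : Type} [Group G] {W : Type} [AddCommGroup W]
  (ρW : G →* AddMonoid.End W) {P : Type} [CommRing P] (Θ : P →+* AddMonoid.End W)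
  {T : Type} [CommRing T] (π : P →+* T) (I : Ideal T)
  (ρM : G →* Matrix (Fin 2) (Fin 2) T) (τ δ : G → P)

/-- `ρM` on `ℤ[G]`. -/
def h16kRM : (G →₀ ℤ) →ₗ[ℤ] Matrix (Fin 2) (Fin 2) T :=
  Finsupp.linearCombination ℤ (fun g => ρM g)

@[simp] theorem h16kRM_single (g : G) (n : ℤ) :
    h16kRM ρM (Finsupp.single g n) = n • ρM g := Finsupp.linearCombination_single _ _ _

theorem h16k_RM_rt (a : G) (z : G →₀ ℤ) :
    h16kRM ρM (h16kRt a z) = h16kRM ρM z * ρM a := by
  induction z using Finsupp.induction_linear with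
  | zero => simp
  | add z w hz hw => rw [map_add, map_add, map_add, hz, hw, add_mul]
  | single g n => rw [h16kRt_single, h16kRM_single, h16kRM_single, map_mul, smul_mul_assoc]

theorem h16k_trace_T (htr : ∀ g : G, (ρM g).trace - π (τ g) ∈ I) (z : G →₀ ℤ) :
    (h16kRM ρM z).trace - π (h16kT τ z) ∈ I := by
  induction z using Finsupp.induction_linear with
  | zero => simp
  | add z w hz hw =>
    rw [map_add, map_add, Matrix.trace_add, map_add]
    have := add_mem hz hw
    convert this using 1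
    ring
  | single g n =>
    rw [h16kRM_single, h16kT_single, Matrix.trace_smul, map_zsmul, ← smul_sub]
    exact zsmul_mem (htr g) n

theorem h16k_polar_M (htr : ∀ g : G, (ρM g).trace - π (τ g) ∈ I)
    (hdet : ∀ g : G, (ρM g).det - π (δ g) ∈ I) (z w : G →₀ ℤ) :
    h16kB (h16kRM ρM z) (h16kRM ρM w) - π (h16kBt τ δ z w) ∈ I := by
  induction z using Finsupp.induction_linear with
  | zero => simp [h16kB]
  | add z z' hz hz' =>
    rw [map_add, h16k_B_add_left, map_add, LinearMap.add_apply, map_add]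
    have := add_mem hz hz'
    convert this using 1
    ring
  | single g n =>
    induction w using Finsupp.induction_linear with
    | zero => simp [h16kB]
    | add w w' hw hw' =>
      rw [map_add, h16k_B_add_right, map_add, map_add]
      have := add_mem hw hw'
      convert this using 1
      ring
    | single h m =>
      rw [h16kRM_single, h16kRM_single, h16kBt_single, h16k_B_zsmul_left, h16k_B_zsmul_right,
        map_zsmul, map_zsmul, ← smul_sub, ← smul_sub]
      refine zsmul_mem (zsmul_mem ?_ m) n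
      have h1 : ρM h⁻¹ * ρM h = 1 := by rw [← map_mul, inv_mul_cancel, map_one]
      rw [← h16k_det_mul_trace (ρM g) (ρM h) (ρM h⁻¹) h1, ← map_mul ρM, map_mul π]
      have e : (ρM h).det * (ρM (g * h⁻¹)).trace - π (δ h) * π (τ (g * h⁻¹)) =
          ((ρM h).det - π (δ h)) * (ρM (g * h⁻¹)).trace +
            π (δ h) * ((ρM (g * h⁻¹)).trace - π (τ (g * h⁻¹))) := by ring
      rw [e]
      exact add_mem (I.mul_mem_right _ (hdet h)) (I.mul_mem_left _ (htr _))

/-- if `ρW(y) = 0` then the commutators of `ρW(G)` kill `ι(y)`. -/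
theorem h16k_comm_kill (hcomm : ∀ (a : P) (g : G), Commute (Θ a) (ρW g))
    (hrel : ∀ g : G, ρW g + Θ (δ g) * ρW g⁻¹ = Θ (τ g))
    (hδ : ∀ g h : G, Θ (δ (g * h)) = Θ (δ g) * Θ (δ h)) (hδ1 : Θ (δ 1) = 1)
    (y : G →₀ ℤ) (hy : h16kRW ρW y = 0) (a b : G) :
    (ρW a * ρW b - ρW b * ρW a) * h16kI ρW Θ δ y = 0 := by
  have hc : h16kI ρW Θ δ y = Θ (h16kT τ y) := by
    have := h16k_rel ρW Θ τ δ hrel y
    rwa [hy, zero_add] at this
  have hq : ∀ a : G, ∃ q : P, ρW a * h16kI ρW Θ δ y = Θ q := by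
    intro a
    have h1 : h16kRW ρW (h16kRt a⁻¹ y) = 0 := by rw [h16k_RW_rt, hy, zero_mul]
    have h2 := h16k_rel ρW Θ τ δ hrel (h16kRt a⁻¹ y)
    rw [h1, zero_add, h16k_I_rt ρW Θ δ hcomm hδ, inv_inv] at h2
    refine ⟨δ a * h16kT τ (h16kRt a⁻¹ y), ?_⟩
    rw [map_mul, ← h2, ← mul_assoc, ← mul_assoc, ← hδ, mul_inv_cancel, hδ1, one_mul]
  obtain ⟨q, hq⟩ := hq b
  have e1 : ρW a * (ρW b * h16kI ρW Θ δ y) = ρW b * (ρW a * h16kI ρW Θ δ y) := by
    calc ρW a * (ρW b * h16kI ρW Θ δ y) = ρW a * Θ q := by rw [hq]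
      _ = Θ q * ρW a := ((hcomm q a).eq).symm
      _ = ρW b * h16kI ρW Θ δ y * ρW a := by rw [hq]
      _ = ρW b * (h16kI ρW Θ δ y * ρW a) := mul_assoc _ _ _
      _ = ρW b * (ρW a * h16kI ρW Θ δ y) := by rw [hc, (hcomm _ a).eq]
  rw [sub_mul, mul_assoc, mul_assoc, e1, sub_self]

variable (G) in
/-- the additive group generated by the commutators `ab - ba` in `ℤ[G]`. -/
def h16kC : AddSubgroup (G →₀ ℤ) :=
  AddSubgroup.closure (Set.range (fun ab : G × G =>
    Finsupp.single (ab.1 * ab.2) (1 : ℤ) - Finsupp.single (ab.2 * ab.1) (1 : ℤ)))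

theorem h16k_C_kill (hcomm : ∀ (a : P) (g : G), Commute (Θ a) (ρW g))
    (hrel : ∀ g : G, ρW g + Θ (δ g) * ρW g⁻¹ = Θ (τ g))
    (hδ : ∀ g h : G, Θ (δ (g * h)) = Θ (δ g) * Θ (δ h)) (hδ1 : Θ (δ 1) = 1)
    (y : G →₀ ℤ) (hy : h16kRW ρW y = 0) (z : G →₀ ℤ) (hz : z ∈ h16kC G) :
    h16kRW ρW z * h16kI ρW Θ δ y = 0 := by
  unfold h16kC at hz
  induction hz using AddSubgroup.closure_induction with
  | mem x hx =>
    obtain ⟨⟨a, b⟩, rfl⟩ := hx
    have := h16k_comm_kill ρW Θ τ δ hcomm hrel hδ hδ1 y hy a b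
    simpa [map_sub] using this
  | zero => simp
  | add x x' _ _ hx hx' => rw [map_add, add_mul, hx, hx', add_zero]
  | neg x _ hx => rw [map_neg, neg_mul, hx, neg_zero]

theorem h16k_exists_C [IsLocalRing T] (hspan : Submodule.span T (Set.range ρM) = ⊤) :
    ∃ z ∈ h16kC G, (h16kRM ρM z).det ∉ maximalIdeal T := by
  have key := h16k_exists_unit_det ((h16kC G).map (h16kRM ρM).toAddMonoidHom) ?_
  · obtain ⟨X, ⟨z, hz, rfl⟩, hX⟩ := key
    exact ⟨z, hz, hX⟩
  · intro X Y
    have hX : X ∈ Submodule.span T (Set.range ρM) := by rw [hspan]; trivial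
    have hY : Y ∈ Submodule.span T (Set.range ρM) := by rw [hspan]; trivial
    induction hX using Submodule.span_induction with
    | mem X hX =>
      obtain ⟨a, rfl⟩ := hX
      induction hY using Submodule.span_induction with
      | mem Y hY =>
        obtain ⟨b, rfl⟩ := hY
        apply Submodule.subset_span
        refine ⟨Finsupp.single (a * b) 1 - Finsupp.single (b * a) 1,
          AddSubgroup.subset_closure ⟨(a, b), rfl⟩, ?_⟩
        simp [map_sub]
      | zero => simp
      | add Y Y' _ _ hY hY' =>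
        have := add_mem hY hY'
        convert this using 1
        noncomm_ring
      | smul t Y _ hY =>
        have := Submodule.smul_mem _ t hY
        convert this using 1
        rw [smul_sub, Matrix.mul_smul, Matrix.smul_mul]
    | zero => simp
    | add X X' _ _ hX hX' =>
      have := add_mem hX hX'
      convert this using 1
      noncomm_ring
    | smul t X _ hX =>
      have := Submodule.smul_mem _ t hX
      convert this using 1
      rw [smul_sub, Matrix.mul_smul, Matrix.smul_mul]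

/-- **the annihilator comparison, matrix form.** -/
theorem h16k_core [Finite W] [IsLocalRing T] (h2 : (2 : T) ∉ maximalIdeal T)
    (hcomm : ∀ (a : P) (g : G), Commute (Θ a) (ρW g))
    (hrel : ∀ g : G, ρW g + Θ (δ g) * ρW g⁻¹ = Θ (τ g))
    (hδ : ∀ g h : G, Θ (δ (g * h)) = Θ (δ g) * Θ (δ h)) (hδ1 : Θ (δ 1) = 1)
    (htr : ∀ g : G, (ρM g).trace - π (τ g) ∈ I)
    (hdet : ∀ g : G, (ρM g).det - π (δ g) ∈ I)
    (hspan : Submodule.span T (Set.range ρM) = ⊤)
    (hkey : ∀ Q : P, Θ Q = 0 → π Q ∈ I)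
    (hinj : ∀ u : P, π u ∉ maximalIdeal T → Function.Injective (Θ u))
    (y : G →₀ ℤ) (hy : h16kRW ρW y = 0) (i j : Fin 2) : h16kRM ρM y i j ∈ I := by
  by_cases hI : I = ⊤
  · rw [hI]; trivial
  have hIm : I ≤ maximalIdeal T := IsLocalRing.le_maximalIdeal hI
  obtain ⟨z, hz, hzdet⟩ := h16k_exists_C (G := G) ρM hspan
  have hu : π (h16kBt τ δ z z) ∉ maximalIdeal T := by
    intro hmem
    have h1 := hIm (h16k_polar_M π I ρM τ δ htr hdet z z)
    rw [h16k_B_self] at h1
    have h3 : 2 * (h16kRM ρM z).det ∈ maximalIdeal T := by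
      have := add_mem h1 hmem
      rwa [sub_add_cancel] at this
    rcases (maximalIdeal.isMaximal T).isPrime.mem_or_mem h3 with h | h
    · exact h2 h
    · exact hzdet h
  have hinj' := hinj _ hu
  have hpol := h16k_polar ρW Θ τ δ hcomm hrel hδ z z
  have hsurj : Function.Surjective (h16kRW ρW z) := by
    have hs : Function.Surjective (Θ (h16kBt τ δ z z)) :=
      Finite.surjective_of_injective hinj'
    intro w
    obtain ⟨w', hw'⟩ := hs w
    refine ⟨(h16kI ρW Θ δ z + h16kI ρW Θ δ z) w', ?_⟩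
    rw [← hw', ← hpol]
    exact map_add (h16kRW ρW z) _ _
  have hinjz : Function.Injective (h16kRW ρW z) := Finite.injective_iff_surjective.mpr hsurj
  have hB : ∀ y' : G →₀ ℤ, h16kRW ρW y' = 0 → π (h16kT τ y') ∈ I := by
    intro y' hy'
    have h1 := h16k_C_kill ρW Θ τ δ hcomm hrel hδ hδ1 y' hy' z hz
    have h3 : h16kI ρW Θ δ y' = 0 := by
      ext w
      apply hinjz
      have := DFunLike.congr_fun h1 w
      simpa using this
    have h4 := h16k_rel ρW Θ τ δ hrel y'
    rw [hy', h3, zero_add] at h4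
    exact hkey _ h4.symm
  have hC : ∀ h : G, (h16kRM ρM y * ρM h).trace ∈ I := by
    intro h
    have h1 : h16kRW ρW (h16kRt h y) = 0 := by rw [h16k_RW_rt, hy, zero_mul]
    have h3 := hB _ h1
    have h4 := h16k_trace_T π I ρM τ htr (h16kRt h y)
    rw [h16k_RM_rt] at h4
    have := add_mem h4 h3
    rwa [sub_add_cancel] at this
  have hD : ∀ X : Matrix (Fin 2) (Fin 2) T, (h16kRM ρM y * X).trace ∈ I := by
    intro X
    have hX : X ∈ Submodule.span T (Set.range ρM) := by rw [hspan]; trivial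
    induction hX using Submodule.span_induction with
    | mem X hX => obtain ⟨h, rfl⟩ := hX; exact hC h
    | zero => simp
    | add X X' _ _ hX hX' => rw [mul_add, Matrix.trace_add]; exact add_mem hX hX'
    | smul t X _ hX =>
      rw [Matrix.mul_smul, Matrix.trace_smul]
      exact I.mul_mem_left _ hX
  rw [h16k_entry (h16kRM ρM y) i j]
  exact hD _

end Core

/-! ## The frozen statement -/

/-- **S32-LC-KEY**: the annihilator comparison `H30xKey`. -/
theorem h16k_key : H30xKey := by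
  intro G _ W _ _ ρW P _ Θ T _ _ π I V _ _ _ _ ρ τ δ hrank h2 hcomm hrel hδ hδ1 htr hdet hspan
    hkey hinj m n g hy v
  classical
  let b : Module.Basis (Fin 2) T V := Module.finBasisOfFinrankEq T V hrank
  let M : Module.End T V ≃ₐ[T] Matrix (Fin 2) (Fin 2) T := LinearMap.toMatrixAlgEquiv b
  let ρM : G →* Matrix (Fin 2) (Fin 2) T :=
    (M : Module.End T V →* Matrix (Fin 2) (Fin 2) T).comp ρ
  have hρM : ∀ g, ρM g = LinearMap.toMatrix b b (ρ g) := fun g => rfl
  have htrM : ∀ g, (ρM g).trace - π (τ g) ∈ I := by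
    intro g
    have := htr g
    rwa [LinearMap.trace_eq_matrix_trace T b] at this
  have hdetM : ∀ g, (ρM g).det - π (δ g) ∈ I := by
    intro g
    have := hdet g
    rwa [← LinearMap.det_toMatrix b] at this
  have hspanM : Submodule.span T (Set.range ρM) = ⊤ := by
    have e : Set.range ρM = (M.toLinearEquiv : Module.End T V →ₗ[T] _) '' Set.range ρ := by
      ext X
      constructor
      · rintro ⟨g, rfl⟩
        exact ⟨ρ g, ⟨g, rfl⟩, rfl⟩
      · rintro ⟨_, ⟨g, rfl⟩, rfl⟩
        exact ⟨g, rfl⟩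
    rw [e, Submodule.span_image, hspan, Submodule.map_top, LinearMap.range_eq_top]
    exact M.toLinearEquiv.surjective
  let y : G →₀ ℤ := ∑ i, Finsupp.single (g i) (n i)
  have hyW : h16kRW ρW y = 0 := by
    have e : h16kRW ρW y = ∑ i, n i • ρW (g i) := by
      simp only [y, map_sum, h16kRW_single]
    rw [e]
    ext w
    have key : ∀ s : Finset (Fin m),
        (∑ i ∈ s, n i • ρW (g i)) w = ∑ i ∈ s, n i • ρW (g i) w := by
      intro s
      induction s using Finset.induction_on with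
      | empty => rfl
      | insert a s ha ih =>
        rw [Finset.sum_insert ha, Finset.sum_insert ha, ← ih]
        rfl
    rw [key]
    exact hy w
  have hent := h16k_core ρW Θ π I ρM τ δ h2 hcomm hrel hδ hδ1 htrM hdetM hspanM hkey hinj y hyW
  have hf : ∑ i, n i • ρ (g i) v = (∑ i, n i • ρ (g i)) v := by
    simp [LinearMap.sum_apply]
  have hRM : h16kRM ρM y = M (∑ i, n i • ρ (g i)) := by
    simp [y, map_sum, ρM]
  rw [hf]
  generalize (∑ i, n i • ρ (g i)) = f at hRM
  have hfb : ∀ j, f (b j) ∈ I • (⊤ : Submodule T V) := by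
    intro j
    rw [← b.sum_repr (f (b j))]
    refine Submodule.sum_mem _ (fun i _ => Submodule.smul_mem_smul ?_ trivial)
    have := hent i j
    rw [hRM] at this
    rwa [LinearMap.toMatrixAlgEquiv_apply] at this
  rw [← b.sum_repr v, map_sum]
  refine Submodule.sum_mem _ (fun j _ => ?_)
  rw [map_smul]
  exact Submodule.smul_mem _ _ (hfb j)

end Fermat.Agent.P5
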