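import Fermat.Agent.P5.H13SFIface

/-!
# Wave 5, pillar (P), block GEO-RR, special fibre (helper40): the leaf `H13sField`

`h40f_field : H13sField` (exact frozen Prop of `P5/H13SFIface.lean`, helper13): the function
field of the special fibre (the subfield of `k((q))` generated by the Gauss reductions) IS the
set of reductions.  The image of `gaussR` is a subring containing the constants `k` (reduction of
the constants of `A`) and closed under inverses (a Gauss-integral function with non-zero
reduction is a Gauss unit).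

* `h40f_red_cst`     : the reduction of the constant `a ∈ A` is the constant `π a`.
* `h40f_red_inv`     : `red x ≠ 0 ⇒ x⁻¹` is Gauss-integral and `red (x⁻¹) = (red x)⁻¹`.
* `h40fImg`          : the image of the reduction, as an intermediate field of `k((q)) / k`.
* `h40f_field`       : `H13sField`.
* `h40f_red_surjective`, `h40f_exists_unit` : every element of the special fibre field is a
  reduction; every non-zero element is the reduction of a Gauss unit.
-/

set_option autoImplicit false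
set_option linter.unusedSectionVars false
set_option linter.style.haveILetI false

open AlgebraicCurve ModularCurve

noncomputable section

namespace Fermat.Agent.P5

open Fermat.Agent.S37 Fermat.Agent.Red.GV

section Img

variable (A : ValuationSubring Kbar) (M : ℕ)

/-- the constant `a ∈ A` as a Gauss-integral function. -/
def h40fCst (a : A) : gaussV A M :=
  ⟨cst M (a : Kbar), algebraMap_mem_gaussSubring A (IsLocalRing.residue A) M a⟩

/-- the reduction of a constant. -/
theorem h40f_red_cst (a : A) :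
    h13sR A M (h40fCst A M a) = HahnSeries.C (h13sPi A a) :=
  gaussRed_algebraMap A (IsLocalRing.residue A) M a

theorem h40f_algebraMap_eq (c : h13sK A) :
    algebraMap (h13sK A) (LaurentSeries (h13sK A)) c = HahnSeries.C c := by
  rw [algebraMap_laurentSeries_eq_single]
  rfl

theorem h40f_pi_surjective : Function.Surjective (h13sPi A) :=
  IsLocalRing.residue_surjective

variable {ℓ : ℕ} [NeZero M]

/-- a Gauss-integral function with non-zero reduction is a Gauss unit. -/
theorem h40f_inv_mem (hℓ : ℓ.Prime) (hM : ¬ ℓ ∣ M) (hA : A.LiesOverPrime ℓ)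
    (x : gaussV A M) (hx : h13sR A M x ≠ 0) : (x : FF M)⁻¹ ∈ gaussV A M := by
  by_contra h
  exact hx ((gaussR_eq_zero_iff A M hℓ hM hA x).mpr (Or.inr h))

theorem h40f_ne_zero (hℓ : ℓ.Prime) (hM : ¬ ℓ ∣ M) (hA : A.LiesOverPrime ℓ)
    (x : gaussV A M) (hx : h13sR A M x ≠ 0) : (x : FF M) ≠ 0 := by
  intro h
  exact hx ((gaussR_eq_zero_iff A M hℓ hM hA x).mpr (Or.inl h))

/-- the reduction of the inverse. -/
theorem h40f_red_inv (hℓ : ℓ.Prime) (hM : ¬ ℓ ∣ M) (hA : A.LiesOverPrime ℓ)
    (x : gaussV A M) (hx : h13sR A M x ≠ 0) :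
    h13sR A M ⟨(x : FF M)⁻¹, h40f_inv_mem A M hℓ hM hA x hx⟩ = (h13sR A M x)⁻¹ := by
  have h1 : (⟨(x : FF M)⁻¹, h40f_inv_mem A M hℓ hM hA x hx⟩ : gaussV A M) * x = 1 := by
    apply Subtype.ext
    exact inv_mul_cancel₀ (h40f_ne_zero A M hℓ hM hA x hx)
  have h2 := congrArg (h13sR A M) h1
  rw [map_mul, map_one] at h2
  exact eq_inv_of_mul_eq_one_left h2

/-- the image of the reduction, as an intermediate field of `k((q)) / k`. -/
def h40fImg (hℓ : ℓ.Prime) (hM : ¬ ℓ ∣ M) (hA : A.LiesOverPrime ℓ) :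
    IntermediateField (h13sK A) (LaurentSeries (h13sK A)) where
  carrier := Set.range (h13sR A M)
  mul_mem' := by
    rintro _ _ ⟨x, rfl⟩ ⟨y, rfl⟩
    exact ⟨x * y, map_mul _ _ _⟩
  one_mem' := ⟨1, map_one _⟩
  add_mem' := by
    rintro _ _ ⟨x, rfl⟩ ⟨y, rfl⟩
    exact ⟨x + y, map_add _ _ _⟩
  zero_mem' := ⟨0, map_zero _⟩
  algebraMap_mem' := by
    intro c
    obtain ⟨a, rfl⟩ := h40f_pi_surjective A c
    exact ⟨h40fCst A M a, by rw [h40f_red_cst, h40f_algebraMap_eq]⟩
  inv_mem' := by
    rintro _ ⟨x, rfl⟩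
    by_cases hx : h13sR A M x = 0
    · exact ⟨0, by rw [hx, inv_zero, map_zero]⟩
    · exact ⟨_, h40f_red_inv A M hℓ hM hA x hx⟩

theorem h40f_mem_img (hℓ : ℓ.Prime) (hM : ¬ ℓ ∣ M) (hA : A.LiesOverPrime ℓ)
    (y : LaurentSeries (h13sK A)) :
    y ∈ h40fImg A M hℓ hM hA ↔ ∃ x : gaussV A M, h13sR A M x = y := Iff.rfl

/-- the special fibre field is the image of the reduction. -/
theorem h40f_F_eq (hℓ : ℓ.Prime) (hM : ¬ ℓ ∣ M) (hA : A.LiesOverPrime ℓ) :
    h13sF A M = h40fImg A M hℓ hM hA := by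
  apply le_antisymm
  · rw [h13sF, IntermediateField.adjoin_le_iff]
    rintro _ ⟨x, rfl⟩
    exact ⟨x, rfl⟩
  · rintro _ ⟨x, rfl⟩
    exact IntermediateField.subset_adjoin _ _ ⟨x, rfl⟩

/-- every element of the special fibre field is a reduction. -/
theorem h40f_red_surjective (hℓ : ℓ.Prime) (hM : ¬ ℓ ∣ M) (hA : A.LiesOverPrime ℓ)
    (y : h13sFt A M) : ∃ x : gaussV A M, h13sRed A M x = y := by
  have hy : h13sIncl A M y ∈ h13sF A M := y.2
  rw [h40f_F_eq A M hℓ hM hA] at hy
  obtain ⟨x, hx⟩ := hy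
  exact ⟨x, Subtype.ext hx⟩

/-- every non-zero element of the special fibre field is the reduction of a Gauss unit. -/
theorem h40f_exists_unit (hℓ : ℓ.Prime) (hM : ¬ ℓ ∣ M) (hA : A.LiesOverPrime ℓ)
    (y : h13sFt A M) (hy : y ≠ 0) :
    ∃ (f : FF M) (hf : f ∈ gaussV A M), f⁻¹ ∈ gaussV A M ∧ h13sRed A M ⟨f, hf⟩ = y := by
  obtain ⟨x, rfl⟩ := h40f_red_surjective A M hℓ hM hA y
  have hx : h13sR A M x ≠ 0 := by
    intro h
    apply hy
    exact Subtype.ext h
  exact ⟨x, x.2, h40f_inv_mem A M hℓ hM hA x hx, rfl⟩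

end Img

/-- **SF-FIELD** (exact frozen Prop): the special fibre field is the set of reductions. -/
theorem h40f_field : H13sField := by
  intro ℓ hℓ M _ hM _ A hA y
  exact h40f_red_surjective A M hℓ hM hA y

end Fermat.Agent.P5
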