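import Fermat.Agent.P5.H38LinkIface
import Fermat.Agent.P5.H40SFField

/-!
# P5 (wave 5, S19), row GEO-LINK, leaf LINK-DIMS (helper16, prefix `h16d_`)

`h16d_dimsLeaf : H38lDimsLeaf` (exact frozen Prop of `P5/H38LinkIface.lean`, helper38): the
Riemann–Roch input `H38lDims A r c c'` of the link, from the frozen leaves of GEO-RR.

* `h16d_semicont` : semicontinuity `ℓ(E) ≤ ℓ~(r_* E)` from `H13sSemi` (the integral basis of
  `L(E)` is orthonormal, so its reductions are linearly independent over `k`).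
* dimensions on the special fibre by `H13rMono` from `ℓ~(r_* D₀) = 1`;
* `ℓ(E) ≥ 2g + 1` on the generic fibre by Riemann's inequality, hence `ℓ(E) = ℓ~(r_* E)` and
  the lifting clause of `H13sSemi` applies.
-/

set_option autoImplicit false
set_option linter.unusedSectionVars false
set_option linter.unusedVariables false

open AlgebraicCurve ModularCurve

noncomputable section

namespace Fermat.Agent.P5

open Fermat.Agent.S37 Fermat.Agent.Red.GV

/-! ### Divisors -/

section Div

variable {K F : Type*} [Field K] [Field F] [Algebra K F]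

theorem h16d_single_nonneg (v : Place K F) : (0 : Divisor K F) ≤ Finsupp.single v (1 : ℤ) := by
  classical
  intro w
  rw [Finsupp.single_apply]
  split_ifs
  · exact zero_le_one
  · exact le_rfl

theorem h16d_sum_nonneg {ι : Type*} (s : Finset ι) (Q : ι → Place K F) :
    (0 : Divisor K F) ≤ ∑ i ∈ s, Finsupp.single (Q i) (1 : ℤ) :=
  Finset.sum_nonneg fun i _ => h16d_single_nonneg (Q i)

theorem h16d_degree_sum (hdeg : ∀ v : Place K F, v.deg = 1) {ι : Type*} (s : Finset ι)
    (Q : ι → Place K F) :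
    Divisor.degree (∑ i ∈ s, Finsupp.single (Q i) (1 : ℤ)) = s.card := by
  rw [map_sum]
  simp [Divisor.degree_single, hdeg]

theorem h16d_sub_single {g : ℕ} (Q : Fin g → Place K F) (i : Fin g) :
    (∑ j, Finsupp.single (Q j) (1 : ℤ)) - Finsupp.single (Q i) (1 : ℤ) =
      ∑ j ∈ Finset.univ.erase i, Finsupp.single (Q j) (1 : ℤ) := by
  rw [← Finset.add_sum_erase Finset.univ _ (Finset.mem_univ i), add_sub_cancel_left]

end Div


/-! ### Semicontinuity -/

section Semi

variable {A : ValuationSubring Kbar} {M : ℕ} [NeZero M] {ℓ : ℕ}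

/-- the value in `FF M` of an `A`-combination. -/
theorem h16d_coe_sum {n : ℕ} (a : Fin n → A) (b : Fin n → FF M) (hb : ∀ i, b i ∈ gaussV A M) :
    ((∑ i, h40fCst A M (a i) * (⟨b i, hb i⟩ : gaussV A M) : gaussV A M) : FF M) =
      ∑ i, cst M (a i : Kbar) * b i := by
  rw [← Subring.coe_subtype, map_sum]
  rfl

/-- **orthonormal families have linearly independent reductions.** -/
theorem h16d_red_indep (hℓ : ℓ.Prime) (hM : ¬ ℓ ∣ M) (hA : A.LiesOverPrime ℓ)
    {n : ℕ} (b : Fin n → FF M) (hb : ∀ i, b i ∈ gaussV A M)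
    (horth : ∀ c : Fin n → Kbar, (∑ i, cst M (c i) * b i) ∈ gaussV A M → ∀ i, c i ∈ A)
    (κ : Fin n → h13sK A)
    (hκ : ∑ i, κ i • h13sRed A M ⟨b i, hb i⟩ = 0) : ∀ i, κ i = 0 := by
  classical
  choose a ha using fun i => h40f_pi_surjective A (κ i)
  have hfred : h13sR A M (∑ i, h40fCst A M (a i) * (⟨b i, hb i⟩ : gaussV A M)) = 0 := by
    rw [map_sum]
    have h1 := congrArg (h13sIncl A M) hκ
    rw [map_sum, map_zero] at h1
    rw [← h1]
    refine Finset.sum_congr rfl fun i _ => ?_
    rw [map_mul, h40f_red_cst, ha, Algebra.smul_def, map_mul, AlgHom.commutes,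
      h13sIncl_red, h40f_algebraMap_eq]
    rfl
  have hfval := h16d_coe_sum a b hb
  obtain ⟨c, hcA, hcf⟩ : ∃ c : Kbar, c ∉ A ∧
      cst M c * (∑ i, cst M (a i : Kbar) * b i) ∈ gaussV A M := by
    rcases (gaussR_eq_zero_iff A M hℓ hM hA _).mp hfred with h0 | hinv
    · refine ⟨(ℓ : Kbar)⁻¹, ?_, ?_⟩
      · have h1 : (ℓ : Kbar) ∈ A.nonunits := hA
        rcases A.mem_nonunits_iff_or.mp h1 with h2 | h2
        · exact absurd h2 (Nat.cast_ne_zero.mpr hℓ.ne_zero)
        · exact h2
      · rw [← hfval, h0, mul_zero]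
        exact zero_mem _
    · rw [hfval] at hinv
      have hne : (∑ i, cst M (a i : Kbar) * b i) ≠ 0 := by
        intro h
        apply hinv
        rw [h, inv_zero]
        exact zero_mem _
      obtain ⟨c, hc0, hu, hui⟩ := exists_cst_mul_unit A M hℓ hM hA _ hne
      refine ⟨c, ?_, hu⟩
      intro hcA
      apply hinv
      have hc1 : cst M c ≠ 0 := by
        intro h
        apply hc0
        exact (map_eq_zero (algebraMap Kbar (FF M))).mp h
      have e : (∑ i, cst M (a i : Kbar) * b i)⁻¹ =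
          cst M c * (cst M c * ∑ i, cst M (a i : Kbar) * b i)⁻¹ := by
        rw [mul_inv, ← mul_assoc, mul_inv_cancel₀ hc1, one_mul]
      rw [e]
      exact mul_mem ((cst_mem_gaussV_iff A M hA c).mpr hcA) hui
  have h1 : ∀ i, c * (a i : Kbar) ∈ A := by
    apply horth
    have e : ∑ i, cst M (c * (a i : Kbar)) * b i = cst M c * ∑ i, cst M (a i : Kbar) * b i := by
      rw [Finset.mul_sum]
      refine Finset.sum_congr rfl fun i _ => ?_
      simp only [cst, map_mul, mul_assoc]
    rw [e]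
    exact hcf
  intro i
  rw [← ha i]
  by_contra hne
  have hunit : IsUnit (a i) := (IsLocalRing.residue_ne_zero_iff_isUnit (a i)).mp hne
  obtain ⟨u, hu⟩ := hunit
  apply hcA
  have e : c = (c * (a i : Kbar)) * (((u⁻¹ : Aˣ) : A) : Kbar) := by
    have h3 : (a i) * ((u⁻¹ : Aˣ) : A) = 1 := by
      rw [← hu]
      exact Units.mul_inv u
    have h2 : ((a i : A) : Kbar) * (((u⁻¹ : Aˣ) : A) : Kbar) = 1 :=
      congrArg Subtype.val h3
    rw [mul_assoc, h2, mul_one]
  rw [e]
  exact mul_mem (h1 i) (Subtype.mem _)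

/-- **semicontinuity**: `ℓ(E) ≤ ℓ~(r_* E)`. -/
theorem h16d_semicont (hSemi : H13sSemi) (hℓ : ℓ.Prime) (hM : ¬ ℓ ∣ M) (haux : auxLevel ℓ ∣ M)
    (hA : A.LiesOverPrime ℓ) (r : Place Kbar (FF M) → Place (h13sK A) (h13sFt A M))
    (hr : H13sIsRed A M r)
    (hfin : ∀ D : Divisor (h13sK A) (h13sFt A M), Module.Finite (h13sK A) (riemannRochSpace D))
    (E : Divisor Kbar (FF M)) :
    h13rL Kbar (FF M) E ≤ h13rL (h13sK A) (h13sFt A M) (h13sPush r E) := by
  obtain ⟨b, hbL, hbV, hbred, horth, hspan, hlift⟩ := hSemi ℓ hℓ M hM haux A hA r hr E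
  have := hfin (h13sPush r E)
  have hli : LinearIndependent (h13sK A)
      (fun i => (⟨h13sRed A M ⟨b i, hbV i⟩, hbred i (hbV i)⟩ :
        riemannRochSpace (h13sPush r E))) := by
    rw [Fintype.linearIndependent_iff]
    intro κ hκ
    apply h16d_red_indep hℓ hM hA b hbV horth κ
    have h1 := congrArg (Submodule.subtype (riemannRochSpace (h13sPush r E))) hκ
    rw [map_sum, map_zero] at h1
    rw [← h1]
    refine Finset.sum_congr rfl fun i _ => ?_
    rw [map_smul]
    rfl
  have h2 := hli.fintype_card_le_finrank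
  rw [Fintype.card_fin] at h2
  exact h2

end Semi


/-! ### The leaf -/

section Main

variable {A : ValuationSubring Kbar} {M : ℕ} [NeZero M] {g : ℕ}

theorem h16d_push_sum (r : Place Kbar (FF M) → Place (h13sK A) (h13sFt A M))
    (Q : Fin g → Place Kbar (FF M)) :
    h13sPush r (h38lSum Q) = ∑ i, Finsupp.single (r (Q i)) (1 : ℤ) := by
  unfold h13sPush h38lSum
  rw [Finsupp.mapDomain_finsetSum]
  exact Finset.sum_congr rfl fun i _ => Finsupp.mapDomain_single

theorem h16d_push_D (r : Place Kbar (FF M) → Place (h13sK A) (h13sFt A M))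
    (c c' : H96Chart M g) :
    h13sPush r (h38lD c c') =
      h13sPush r (h38lSum c.Q) + h13sPush r (h38lSum c.Q) + h13sPush r (h38lSum c'.Q) := by
  unfold h13sPush h38lD
  rw [Finsupp.mapDomain_add, Finsupp.mapDomain_add]

theorem h16d_le_add {K F : Type*} [Field K] [Field F] [Algebra K F] (D X : Divisor K F)
    (hX : 0 ≤ X) : D ≤ D + X := by
  intro v
  have h := hX v
  simp only [Finsupp.coe_add, Pi.add_apply, Finsupp.coe_zero, Pi.zero_apply] at h ⊢
  omega

theorem h16d_add_nonneg {K F : Type*} [Field K] [Field F] [Algebra K F] (X Y : Divisor K F)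
    (hX : 0 ≤ X) (hY : 0 ≤ Y) : 0 ≤ X + Y := by
  intro v
  have h := hX v
  have h' := hY v
  simp only [Finsupp.coe_add, Pi.add_apply, Finsupp.coe_zero, Pi.zero_apply] at h h' ⊢
  omega

/-- **LINK-DIMS** (exact frozen Prop of `P5/H38LinkIface.lean`). -/
theorem h16d_dimsLeaf : H38lDimsLeaf := by
  intro hSemi ℓ hℓ M _ hM haux A hA r hr hBG hBS hFG hFS hMG hMS g hgG hgS c c' hinj hinj'
    hdisj hS0 hS1
  classical
  obtain ⟨hfinS, -, -, -⟩ := hFS hBS
  have hmono := hMS hBS g hgS
  have hE : h13sPush r (h38lD c c') =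
      h13sPush r (h38lSum c.Q) + h13sPush r (h38lSum c.Q) + h13sPush r (h38lSum c'.Q) :=
    h16d_push_D r c c'
  have hD0e := h16d_push_sum r c.Q
  have hD1e := h16d_push_sum r c'.Q
  have hD0n : 0 ≤ h13sPush r (h38lSum c.Q) := by
    rw [hD0e]
    exact h16d_sum_nonneg _ _
  have hD1n : 0 ≤ h13sPush r (h38lSum c'.Q) := by
    rw [hD1e]
    exact h16d_sum_nonneg _ _
  have hdeg0 : Divisor.degree (h13sPush r (h38lSum c.Q)) = g := by
    rw [hD0e, h16d_degree_sum hBS.deg_one]
    simp
  have hdeg1 : Divisor.degree (h13sPush r (h38lSum c'.Q)) = g := by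
    rw [hD1e, h16d_degree_sum hBS.deg_one]
    simp
  have hbase : (h13rL (h13sK A) (h13sFt A M) (h13sPush r (h38lSum c.Q)) : ℤ) + g =
      Divisor.degree (h13sPush r (h38lSum c.Q)) + 1 := by
    rw [hS0, hdeg0]
    push_cast
    ring
  -- the dimension on the special fibre
  have hdimS : h13rL (h13sK A) (h13sFt A M) (h13sPush r (h38lD c c')) = 2 * g + 1 := by
    have h1 := hmono (h13sPush r (h38lSum c.Q)) (h13sPush r (h38lD c c')) (by
      rw [hE, add_assoc]
      exact h16d_le_add _ _ (h16d_add_nonneg _ _ hD0n hD1n)) hbase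
    rw [hE, map_add, map_add, hdeg0, hdeg1, ← hE] at h1
    omega
  -- the generic fibre
  have hdegG : Divisor.degree (h38lD c c') = 3 * g := by
    unfold h38lD h38lSum
    rw [map_add, map_add, h16d_degree_sum hBG.deg_one, h16d_degree_sum hBG.deg_one]
    simp
    ring
  have hdegG1 : Divisor.degree (h38lSum c'.Q) = g := by
    unfold h38lSum
    rw [h16d_degree_sum hBG.deg_one]
    simp
  have hlow : 2 * g + 1 ≤ h13rL Kbar (FF M) (h38lD c c') := by
    have h1 := hgG.1 (h38lD c c')
    rw [hdegG] at h1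
    omega
  have hup := h16d_semicont hSemi hℓ hM haux hA r hr hfinS (h38lD c c')
  have heq : h13rL Kbar (FF M) (h38lD c c') =
      h13rL (h13sK A) (h13sFt A M) (h13sPush r (h38lD c c')) := by
    omega
  refine ⟨?_, hdimS, ?_, ?_, hS1, ?_⟩
  · -- lift
    obtain ⟨b, -, -, -, -, -, hlift⟩ := hSemi ℓ hℓ M hM haux A hA r hr (h38lD c c')
    exact hlift heq
  · -- dimS_sub
    intro i
    have hsub : h13sPush r (h38lD c c') - Finsupp.single (r (c.Q i)) 1 =
        h13sPush r (h38lSum c.Q) +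
          ((∑ j ∈ Finset.univ.erase i, Finsupp.single (r (c.Q j)) (1 : ℤ)) +
            h13sPush r (h38lSum c'.Q)) := by
      rw [← h16d_sub_single (fun j => r (c.Q j)) i, ← hD0e, hE]
      abel
    have h1 := hmono (h13sPush r (h38lSum c.Q))
      (h13sPush r (h38lD c c') - Finsupp.single (r (c.Q i)) 1) (by
        rw [hsub]
        exact h16d_le_add _ _ (h16d_add_nonneg _ _ (h16d_sum_nonneg _ _) hD1n)) hbase
    rw [map_sub, hE, map_add, map_add, hdeg0, hdeg1, Divisor.degree_single, hBS.deg_one,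
      ← hE] at h1
    push_cast at h1
    omega
  · -- dimS_sub'
    intro i
    have hsub : h13sPush r (h38lD c c') - Finsupp.single (r (c'.Q i)) 1 =
        h13sPush r (h38lSum c.Q) +
          (h13sPush r (h38lSum c.Q) +
            (∑ j ∈ Finset.univ.erase i, Finsupp.single (r (c'.Q j)) (1 : ℤ))) := by
      rw [← h16d_sub_single (fun j => r (c'.Q j)) i, ← hD1e, hE]
      abel
    have h1 := hmono (h13sPush r (h38lSum c.Q))
      (h13sPush r (h38lD c c') - Finsupp.single (r (c'.Q i)) 1) (by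
        rw [hsub]
        exact h16d_le_add _ _ (h16d_add_nonneg _ _ hD0n (h16d_sum_nonneg _ _))) hbase
    rw [map_sub, hE, map_add, map_add, hdeg0, hdeg1, Divisor.degree_single, hBS.deg_one,
      ← hE] at h1
    push_cast at h1
    omega
  · -- dimG1
    have h1 := hgG.1 (h38lSum c'.Q)
    rw [hdegG1] at h1
    have h2 := h16d_semicont hSemi hℓ hM haux hA r hr hfinS (h38lSum c'.Q)
    rw [hS1] at h2
    omega

end Main

end Fermat.Agent.P5
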