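import Fermat.Agent.P5.H98Descent
import Fermat.Agent.Red.ModelO.ZlNoeth

/-!
# Wave 5, pillar (P): `ℤ_(p)` and `ℚ̄` instances for the descent lemmas (helper98)

* `h98p_isFractionRing`, `h98p_isPID` : `ℤ_(p) = GaloisRep.ratLocalizedAt p` is a principal ideal
  domain with fraction field `ℚ`;
* `h98p_fix` : the fixed field of `G_ℚ` in `ℚ̄` is `ℚ`;
* `h98p_zp_basis`, `h98p_zp_eval_zero`, `h98p_zp_act_add` : the descent statements of
  `H98Descent.lean` for function orders over `ℤ_(p)` inside `M → ℚ̄`.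
-/

set_option autoImplicit false
set_option linter.style.haveILetI false

open scoped TensorProduct

namespace Fermat.Agent.P5

local notation "Qb98" => (AlgebraicClosure ℚ)
local notation "GQ98" => (AlgebraicClosure ℚ ≃ₐ[ℚ] AlgebraicClosure ℚ)

theorem h98p_intCast_mem (p : ℕ) (n : ℤ) : (n : ℚ) ∈ GaloisRep.ratLocalizedAt p :=
  intCast_mem _ n

theorem h98p_isFractionRing (p : ℕ) : IsFractionRing (GaloisRep.ratLocalizedAt p) ℚ := by
  haveI : FaithfulSMul (GaloisRep.ratLocalizedAt p) ℚ :=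
    (faithfulSMul_iff_algebraMap_injective _ _).mpr Subtype.val_injective
  refine IsFractionRing.of_field _ _ fun z => ?_
  refine ⟨⟨(z.num : ℚ), h98p_intCast_mem p _⟩, ⟨((z.den : ℤ) : ℚ), h98p_intCast_mem p _⟩, ?_⟩
  show z = (z.num : ℚ) / ((z.den : ℤ) : ℚ)
  rw [Int.cast_natCast]
  exact (Rat.num_div_den z).symm

theorem h98p_isPID (p : ℕ) [hp : Fact p.Prime] :
    IsPrincipalIdealRing (GaloisRep.ratLocalizedAt p) := by
  haveI := Fermat.Agent.Red.ModelO.h85_isLocalization_ratLocalizedAt p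
  refine ⟨fun I => ?_⟩
  rw [← IsLocalization.map_under (Ideal.span {(p : ℤ)}).primeCompl
    (GaloisRep.ratLocalizedAt p) I]
  obtain ⟨g, hg⟩ := (IsPrincipalIdealRing.principal (Ideal.under ℤ I)).principal
  rw [hg, Ideal.submodule_span_eq, Ideal.map_span, Set.image_singleton]
  exact ⟨⟨_, rfl⟩⟩

/-- The fixed field of `G_ℚ` is `ℚ`. -/
theorem h98p_fix (c : Qb98) (hc : ∀ σ : GQ98, σ c = c) :
    c ∈ Set.range (algebraMap ℚ Qb98) :=
  haveI : IsAlgClosure ℚ Qb98 := ⟨inferInstance, AlgebraicClosure.isAlgebraic ℚ⟩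
  haveI : IsGalois ℚ Qb98 := IsAlgClosure.isGalois ℚ Qb98
  (InfiniteGalois.mem_range_algebraMap_iff_fixed c).mpr hc

section zp

variable (p : ℕ) [Fact p.Prime] {M : Type*} [Finite M]

/-- A function order over `ℤ_(p)` has a `ℤ_(p)`-basis which is a `ℚ̄`-basis of all functions. -/
theorem h98p_zp_basis (act : GQ98 → M → M)
    (𝓗 : Subalgebra (GaloisRep.ratLocalizedAt p) (M → Qb98))
    (hfg : (Subalgebra.toSubmodule 𝓗).FG)
    (heq : ∀ f ∈ 𝓗, ∀ σ x, f (act σ x) = σ (f x))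
    (hsep : ∀ x y, (∀ f ∈ 𝓗, f x = f y) → x = y) :
    ∃ (n : ℕ) (b : Module.Basis (Fin n) (GaloisRep.ratLocalizedAt p) 𝓗),
      LinearIndependent Qb98 (fun i => ((b i : 𝓗) : M → Qb98)) ∧
      Submodule.span Qb98 (Set.range fun i => ((b i : 𝓗) : M → Qb98)) = ⊤ ∧ n = Nat.card M :=
  haveI := h98p_isFractionRing p
  haveI := h98p_isPID p
  h98p_order_basis (F := ℚ) h98p_fix act 𝓗 hfg heq hsep

theorem h98p_zp_good (act : GQ98 → M → M)
    (𝓗 : Subalgebra (GaloisRep.ratLocalizedAt p) (M → Qb98))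
    (hfg : (Subalgebra.toSubmodule 𝓗).FG)
    (heq : ∀ f ∈ 𝓗, ∀ σ x, f (act σ x) = σ (f x))
    (hsep : ∀ x y, (∀ f ∈ 𝓗, f x = f y) → x = y) :
    H98pGood (GaloisRep.ratLocalizedAt p) Qb98 𝓗.val.toLinearMap :=
  haveI := h98p_isFractionRing p
  haveI := h98p_isPID p
  h98p_order_good (F := ℚ) h98p_fix act 𝓗 hfg heq hsep

omit [Fact p.Prime] in
theorem h98p_zp_algebraMap_injective :
    Function.Injective (algebraMap (GaloisRep.ratLocalizedAt p) Qb98) :=
  haveI := h98p_isFractionRing p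
  h98p_algebraMap_injective ℚ

omit [Finite M] in
/-- Values at a fixed point lie in `ℤ_(p)`. -/
theorem h98p_zp_eval_fixed (act : GQ98 → M → M)
    (𝓗 : Subalgebra (GaloisRep.ratLocalizedAt p) (M → Qb98))
    (hfg : (Subalgebra.toSubmodule 𝓗).FG)
    (heq : ∀ f ∈ 𝓗, ∀ σ x, f (act σ x) = σ (f x))
    (x₀ : M) (hx₀ : ∀ σ, act σ x₀ = x₀) (f : M → Qb98) (hf : f ∈ 𝓗) :
    f x₀ ∈ Set.range (algebraMap (GaloisRep.ratLocalizedAt p) Qb98) :=
  haveI := h98p_isFractionRing p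
  haveI := h98p_isPID p
  h98p_eval_fixed_mem (F := ℚ) h98p_fix act 𝓗 hfg heq x₀ hx₀ f hf

end zp

end Fermat.Agent.P5
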