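import Fermat.Agent.P5.Skeleton
import Fermat.Agent.P5.H98Zp

/-!
# Wave 5, pillar (P), block ALG-DESC, leaf (i) (helper19): finite generation

`A` a valuation subring of `ℚ̄` over `p`, `M` a finite set with a continuous action of `G_ℚ`.

* `h19f_rat_mem` : `A ∩ ℚ = ℤ_(p)`;
* `h19f_isIntegral` : an element of `ℚ̄` all of whose conjugates lie in `A` is integral over
  `ℤ_(p)`;
* `h19f_mem_field` : the values of an equivariant function lie in the number field cut out by
  the action;
* `h19f_fg` : every `ℤ_(p)`-module of equivariant `A`-valued functions on `M` is finitely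
  generated.
-/

set_option autoImplicit false

open GaloisRep Polynomial

noncomputable section

namespace Fermat.Agent.P5

/-- integers lie in every valuation subring. -/
theorem h19f_int_mem (A : ValuationSubring H98pQb) (n : ℤ) : ((n : ℤ) : H98pQb) ∈ A :=
  intCast_mem A n

/-- `A ∩ ℚ = ℤ_(p)`. -/
theorem h19f_rat_mem (p : ℕ) [hp : Fact p.Prime] (A : ValuationSubring H98pQb)
    (hA : A.LiesOverPrime p) (c : ℚ) (hc : algebraMap ℚ H98pQb c ∈ A) :
    c ∈ ratLocalizedAt p := by
  show c.den.Coprime p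
  by_contra hcop
  have hpd : p ∣ c.den := by
    by_contra h
    exact hcop ((Nat.Prime.coprime_iff_not_dvd hp.out).2 h).symm
  -- `p ∤ c.num`
  have hpn : ¬ (p : ℤ) ∣ c.num := by
    intro h
    have h1 : p ∣ c.num.natAbs := Int.natCast_dvd.1 h
    have h2 : p ∣ Nat.gcd c.num.natAbs c.den := Nat.dvd_gcd h1 hpd
    rw [c.reduced] at h2
    exact hp.out.one_lt.ne' (Nat.dvd_one.1 h2)
  have hcop' : IsCoprime (p : ℤ) c.num :=
    (Nat.Prime.coprime_iff_not_dvd hp.out).2
      (fun h => hpn (Int.natCast_dvd.2 h)) |> fun h =>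
        (Int.isCoprime_iff_gcd_eq_one).2 (by simpa [Int.gcd] using h)
  obtain ⟨u, v, huv⟩ := hcop'
  -- valuations
  have hvp : A.valuation (p : H98pQb) < 1 := (A.mem_nonunits_iff).1 hA
  have hvc : A.valuation (algebraMap ℚ H98pQb c) ≤ 1 := (A.valuation_le_one_iff _).2 hc
  obtain ⟨k, hk⟩ := hpd
  have hden : A.valuation ((c.den : ℕ) : H98pQb) < 1 := by
    rw [hk, Nat.cast_mul, map_mul]
    have h1 : A.valuation ((k : ℕ) : H98pQb) ≤ 1 :=
      (A.valuation_le_one_iff _).2 (natCast_mem A k)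
    calc A.valuation (p : H98pQb) * A.valuation ((k : ℕ) : H98pQb)
        ≤ A.valuation (p : H98pQb) * 1 := by gcongr
      _ = A.valuation (p : H98pQb) := mul_one _
      _ < 1 := hvp
  have hnum_eq : ((c.num : ℤ) : H98pQb) = algebraMap ℚ H98pQb c * ((c.den : ℕ) : H98pQb) := by
    have h1 : (c.num : ℚ) = c * (c.den : ℚ) := (Rat.mul_den_eq_num c).symm
    have h2 : algebraMap ℚ H98pQb (c.num : ℚ) = algebraMap ℚ H98pQb (c * (c.den : ℚ)) :=
      congrArg (algebraMap ℚ H98pQb) h1
    rw [map_intCast, map_mul, map_natCast] at h2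
    exact h2
  have hnum : A.valuation ((c.num : ℤ) : H98pQb) < 1 := by
    rw [hnum_eq, map_mul]
    calc A.valuation (algebraMap ℚ H98pQb c) * A.valuation ((c.den : ℕ) : H98pQb)
        ≤ 1 * A.valuation ((c.den : ℕ) : H98pQb) := by gcongr
      _ = A.valuation ((c.den : ℕ) : H98pQb) := one_mul _
      _ < 1 := hden
  have hone : (1 : H98pQb) = (u : H98pQb) * (p : H98pQb) + (v : H98pQb) * ((c.num : ℤ) : H98pQb) := by
    have := congrArg (Int.cast : ℤ → H98pQb) huv
    push_cast at this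
    exact this.symm
  have hu : A.valuation ((u : ℤ) : H98pQb) ≤ 1 := (A.valuation_le_one_iff _).2 (intCast_mem A u)
  have hv : A.valuation ((v : ℤ) : H98pQb) ≤ 1 := (A.valuation_le_one_iff _).2 (intCast_mem A v)
  have h1 : A.valuation ((u : H98pQb) * (p : H98pQb)) < 1 := by
    rw [map_mul]
    calc A.valuation ((u : ℤ) : H98pQb) * A.valuation (p : H98pQb)
        ≤ 1 * A.valuation (p : H98pQb) := by gcongr
      _ = A.valuation (p : H98pQb) := one_mul _
      _ < 1 := hvp
  have h2 : A.valuation ((v : H98pQb) * ((c.num : ℤ) : H98pQb)) < 1 := by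
    rw [map_mul]
    calc A.valuation ((v : ℤ) : H98pQb) * A.valuation ((c.num : ℤ) : H98pQb)
        ≤ 1 * A.valuation ((c.num : ℤ) : H98pQb) := by gcongr
      _ = A.valuation ((c.num : ℤ) : H98pQb) := one_mul _
      _ < 1 := hnum
  have h3 : A.valuation (1 : H98pQb) < 1 := by
    rw [hone]
    exact lt_of_le_of_lt (Valuation.map_add _ _ _) (max_lt h1 h2)
  rw [map_one] at h3
  exact lt_irrefl _ h3

/-- `ℤ_(p) ⊆ A`. -/
theorem h19f_zp_mem (p : ℕ) [Fact p.Prime] (A : ValuationSubring H98pQb)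
    (hA : A.LiesOverPrime p) (c : ratLocalizedAt p) :
    algebraMap (ratLocalizedAt p) H98pQb c ∈ A := by
  have hcop : (c : ℚ).den.Coprime p := c.2
  have hcop' : IsCoprime (((c : ℚ).den : ℕ) : ℤ) (p : ℤ) := Nat.isCoprime_iff_coprime.2 hcop
  obtain ⟨u, v, huv⟩ := hcop'
  have hvp : A.valuation (p : H98pQb) < 1 := (A.mem_nonunits_iff).1 hA
  have hu : A.valuation ((u : ℤ) : H98pQb) ≤ 1 := (A.valuation_le_one_iff _).2 (intCast_mem A u)
  have hv : A.valuation ((v : ℤ) : H98pQb) ≤ 1 := (A.valuation_le_one_iff _).2 (intCast_mem A v)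
  have hd : A.valuation (((c : ℚ).den : ℕ) : H98pQb) ≤ 1 :=
    (A.valuation_le_one_iff _).2 (natCast_mem A _)
  have hone : (1 : H98pQb) = (u : H98pQb) * (((c : ℚ).den : ℕ) : H98pQb)
      + (v : H98pQb) * (p : H98pQb) := by
    have := congrArg (Int.cast : ℤ → H98pQb) huv
    push_cast at this
    exact this.symm
  have hden : A.valuation (((c : ℚ).den : ℕ) : H98pQb) = 1 := by
    refine le_antisymm hd (not_lt.1 fun hlt => ?_)
    have h1 : A.valuation ((u : H98pQb) * (((c : ℚ).den : ℕ) : H98pQb)) < 1 := by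
      rw [map_mul]
      calc A.valuation ((u : ℤ) : H98pQb) * A.valuation (((c : ℚ).den : ℕ) : H98pQb)
          ≤ 1 * A.valuation (((c : ℚ).den : ℕ) : H98pQb) := by gcongr
        _ = A.valuation (((c : ℚ).den : ℕ) : H98pQb) := one_mul _
        _ < 1 := hlt
    have h2 : A.valuation ((v : H98pQb) * (p : H98pQb)) < 1 := by
      rw [map_mul]
      calc A.valuation ((v : ℤ) : H98pQb) * A.valuation (p : H98pQb)
          ≤ 1 * A.valuation (p : H98pQb) := by gcongr
        _ = A.valuation (p : H98pQb) := one_mul _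
        _ < 1 := hvp
    have h3 : A.valuation (1 : H98pQb) < 1 := by
      rw [hone]
      exact lt_of_le_of_lt (Valuation.map_add _ _ _) (max_lt h1 h2)
    rw [map_one] at h3
    exact lt_irrefl _ h3
  have hnum_eq : (((c : ℚ).num : ℤ) : H98pQb)
      = algebraMap ℚ H98pQb (c : ℚ) * (((c : ℚ).den : ℕ) : H98pQb) := by
    have h1 : (((c : ℚ).num : ℤ) : ℚ) = (c : ℚ) * (((c : ℚ).den : ℕ) : ℚ) :=
      (Rat.mul_den_eq_num (c : ℚ)).symm
    have h2 : algebraMap ℚ H98pQb (((c : ℚ).num : ℤ) : ℚ)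
        = algebraMap ℚ H98pQb ((c : ℚ) * (((c : ℚ).den : ℕ) : ℚ)) :=
      congrArg (algebraMap ℚ H98pQb) h1
    rw [map_intCast, map_mul, map_natCast] at h2
    exact h2
  have hval : A.valuation (algebraMap ℚ H98pQb (c : ℚ)) ≤ 1 := by
    have h1 : A.valuation (((c : ℚ).num : ℤ) : H98pQb) ≤ 1 :=
      (A.valuation_le_one_iff _).2 (intCast_mem A _)
    rw [hnum_eq, map_mul, hden, mul_one] at h1
    exact h1
  exact (A.valuation_le_one_iff _).1 hval

/-- An element of `ℚ̄` all of whose conjugates lie in `A` is integral over `ℤ_(p)`. -/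
theorem h19f_isIntegral (p : ℕ) [Fact p.Prime] (A : ValuationSubring H98pQb)
    (hA : A.LiesOverPrime p) (α : H98pQb) (h : ∀ σ : H98pGQ, σ α ∈ A) :
    IsIntegral (ratLocalizedAt p) α := by
  have : IsAlgClosure ℚ H98pQb := ⟨inferInstance, AlgebraicClosure.isAlgebraic ℚ⟩
  have : IsGalois ℚ H98pQb := IsAlgClosure.isGalois ℚ H98pQb
  have halg : IsAlgebraic ℚ α := Algebra.IsAlgebraic.isAlgebraic α
  have hint : IsIntegral ℚ α := halg.isIntegral
  have hmon : (minpoly ℚ α).Monic := minpoly.monic hint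
  have hFmon : ((minpoly ℚ α).map (algebraMap ℚ H98pQb)).Monic := hmon.map _
  have hsplit : ((minpoly ℚ α).map (algebraMap ℚ H98pQb)).Splits := IsAlgClosed.splits _
  have hF := hsplit.eq_prod_roots_of_monic hFmon
  -- the roots lie in `A`
  have hroots : ∀ r ∈ ((minpoly ℚ α).map (algebraMap ℚ H98pQb)).roots, r ∈ A := by
    intro r hr
    have h0 : aeval r (minpoly ℚ α) = 0 := by
      rw [mem_roots hFmon.ne_zero, IsRoot.def, eval_map] at hr
      exact hr
    obtain ⟨σ, hσ⟩ := minpoly.exists_algEquiv_of_root halg h0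
    have h1 : r = σ.symm α := by
      rw [← hσ]
      exact (σ.symm_apply_apply r).symm
    rw [h1]
    exact h σ.symm
  -- so the coefficients lie in `A`
  have hlift : (minpoly ℚ α).map (algebraMap ℚ H98pQb) ∈ lifts A.subtype := by
    rw [hF]
    refine Subsemiring.multiset_prod_mem _ _ ?_
    intro q hq
    rw [Multiset.mem_map] at hq
    obtain ⟨r, hr, rfl⟩ := hq
    rw [mem_lifts]
    refine ⟨X - C ⟨r, hroots r hr⟩, ?_⟩
    simp
  have hcoeff : ∀ n, (minpoly ℚ α).coeff n ∈ ratLocalizedAt p := by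
    intro n
    refine h19f_rat_mem p A hA _ ?_
    obtain ⟨a, ha⟩ := (lifts_iff_coeff_lifts _).1 hlift n
    rw [coeff_map] at ha
    rw [← ha]
    exact a.2
  have hlift' : minpoly ℚ α ∈ lifts (algebraMap (ratLocalizedAt p) ℚ) := by
    rw [lifts_iff_coeff_lifts]
    intro n
    exact ⟨⟨_, hcoeff n⟩, rfl⟩
  obtain ⟨g, hg, -, hgmon⟩ := lifts_and_degree_eq_and_monic hlift' hmon
  refine ⟨g, hgmon, ?_⟩
  have h2 : eval₂ (algebraMap ℚ H98pQb) α (g.map (algebraMap (ratLocalizedAt p) ℚ)) = 0 := by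
    rw [hg]
    exact minpoly.aeval ℚ α
  rw [eval₂_map] at h2
  exact h2

/-- The values of an equivariant function lie in the field cut out by the action. -/
theorem h19f_mem_field {M : Type} (act : H98pGQ → M → M)
    (L : IntermediateField ℚ H98pQb)
    (hL : ∀ σ : H98pGQ, (∀ y ∈ L, σ y = y) → ∀ x, act σ x = x)
    (f : M → H98pQb) (hf : ∀ σ x, f (act σ x) = σ (f x)) (x : M) : f x ∈ L := by
  have : IsAlgClosure ℚ H98pQb := ⟨inferInstance, AlgebraicClosure.isAlgebraic ℚ⟩
  have : IsGalois ℚ H98pQb := IsAlgClosure.isGalois ℚ H98pQb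
  rw [← InfiniteGalois.fixedField_fixingSubgroup L, IntermediateField.mem_fixedField_iff]
  intro σ hσ
  have h1 : ∀ y ∈ L, σ y = y := fun y hy =>
    (IntermediateField.mem_fixingSubgroup_iff L σ).1 hσ y hy
  rw [← hf σ x, hL σ h1 x]

/-- **DESC leaf (i).** Every `ℤ_(p)`-module of equivariant `A`-valued functions on a finite set
with a continuous action of `G_ℚ` is finitely generated. -/
theorem h19f_fg (p : ℕ) [Fact p.Prime] (M : Type) [Finite M] (act : H98pGQ → M → M)
    (hcont : ∃ L : IntermediateField ℚ H98pQb, FiniteDimensional ℚ L ∧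
      ∀ σ : H98pGQ, (∀ y ∈ L, σ y = y) → ∀ x, act σ x = x)
    (A : ValuationSubring H98pQb) (hA : A.LiesOverPrime p)
    (𝓗 : Submodule (ratLocalizedAt p) (M → H98pQb))
    (hint : ∀ f ∈ 𝓗, ∀ x, f x ∈ A)
    (heq : ∀ f ∈ 𝓗, ∀ σ x, f (act σ x) = σ (f x)) : 𝓗.FG := by
  obtain ⟨L, hLfin, hL⟩ := hcont
  have := h98p_isFractionRing p
  have := h98p_isPID p
  have hfinC : Module.Finite (ratLocalizedAt p) (integralClosure (ratLocalizedAt p) L) :=
    IsIntegralClosure.finite (ratLocalizedAt p) ℚ L (integralClosure (ratLocalizedAt p) L)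
  -- the comparison map
  let Φ : (M → integralClosure (ratLocalizedAt p) L) →ₗ[ratLocalizedAt p] (M → H98pQb) :=
    LinearMap.pi fun x =>
      ((L.val.toLinearMap.restrictScalars (ratLocalizedAt p)).comp
        (integralClosure (ratLocalizedAt p) L).val.toLinearMap).comp
        (LinearMap.proj x)
  have hΦ : ∀ g x, Φ g x = ((g x : L) : H98pQb) := fun g x => rfl
  have hrange : (LinearMap.range Φ).FG := by
    have : Module.Finite (ratLocalizedAt p) (M → integralClosure (ratLocalizedAt p) L) :=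
      Module.Finite.pi
    exact Module.Finite.iff_fg.1 (Module.Finite.range Φ)
  have htower : IsScalarTower (ratLocalizedAt p) L H98pQb :=
    IsScalarTower.of_algebraMap_eq fun x => rfl
  have hle : 𝓗 ≤ LinearMap.range Φ := by
    intro f hf
    have h1 : ∀ x, f x ∈ L := fun x => h19f_mem_field act L hL f (heq f hf) x
    have h2 : ∀ x, IsIntegral (ratLocalizedAt p) (f x) := fun x =>
      h19f_isIntegral p A hA (f x) fun σ => by
        rw [← heq f hf σ x]
        exact hint f hf _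
    have h3 : ∀ x, (⟨f x, h1 x⟩ : L) ∈ integralClosure (ratLocalizedAt p) L := by
      intro x
      rw [mem_integralClosure_iff]
      have h4 : IsIntegral (ratLocalizedAt p) (algebraMap L H98pQb ⟨f x, h1 x⟩) := h2 x
      exact (isIntegral_algebraMap_iff (algebraMap L H98pQb).injective).1 h4
    refine ⟨fun x => ⟨⟨f x, h1 x⟩, h3 x⟩, ?_⟩
    funext x
    rw [hΦ]
  have hnoeth : IsNoetherian (ratLocalizedAt p) (LinearMap.range Φ) :=
    isNoetherian_of_fg_of_noetherian _ hrange
  have : IsNoetherian (ratLocalizedAt p) 𝓗 := isNoetherian_of_le hle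
  exact Module.Finite.iff_fg.1 inferInstance

/-- The candidate order: the `G_ℚ`-equivariant functions in the `A`-algebra generated by `G`. -/
def h19fOrd (p : ℕ) [Fact p.Prime] {M : Type} (act : H98pGQ → M → M)
    (A : ValuationSubring H98pQb) (hA : A.LiesOverPrime p) (G : Set (M → H98pQb)) :
    Subalgebra (ratLocalizedAt p) (M → H98pQb) where
  carrier := {f | f ∈ Algebra.adjoin A G ∧ ∀ σ x, f (act σ x) = σ (f x)}
  mul_mem' := by
    rintro f g ⟨hf, hf'⟩ ⟨hg, hg'⟩
    refine ⟨mul_mem hf hg, fun σ x => ?_⟩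
    simp only [Pi.mul_apply, hf' σ x, hg' σ x, map_mul]
  add_mem' := by
    rintro f g ⟨hf, hf'⟩ ⟨hg, hg'⟩
    refine ⟨add_mem hf hg, fun σ x => ?_⟩
    simp only [Pi.add_apply, hf' σ x, hg' σ x, map_add]
  algebraMap_mem' := by
    intro c
    refine ⟨?_, fun σ x => ?_⟩
    · have h1 : algebraMap (ratLocalizedAt p) (M → H98pQb) c
          = algebraMap A (M → H98pQb) ⟨_, h19f_zp_mem p A hA c⟩ := rfl
      rw [h1]
      exact Subalgebra.algebraMap_mem _ _
    · have _ := x
      show algebraMap ℚ H98pQb (c : ℚ) = σ (algebraMap ℚ H98pQb (c : ℚ))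
      exact (σ.commutes _).symm

theorem h19f_mem_ord (p : ℕ) [Fact p.Prime] {M : Type} (act : H98pGQ → M → M)
    (A : ValuationSubring H98pQb) (hA : A.LiesOverPrime p) (G : Set (M → H98pQb))
    (f : M → H98pQb) :
    f ∈ h19fOrd p act A hA G ↔ f ∈ Algebra.adjoin A G ∧ ∀ σ x, f (act σ x) = σ (f x) :=
  Iff.rfl

/-- Elements of `A[G]` are `A`-valued when the elements of `G` are. -/
theorem h19f_adjoin_int {M : Type} (A : ValuationSubring H98pQb) (G : Set (M → H98pQb))
    (hint : ∀ f ∈ G, ∀ x, f x ∈ A) : ∀ f ∈ Algebra.adjoin A G, ∀ x, f x ∈ A := by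
  intro f hf
  induction hf using Algebra.adjoin_induction with
  | mem f hf => exact hint f hf
  | algebraMap r => exact fun x => r.2
  | add f g _ _ hf hg => exact fun x => A.add_mem _ _ (hf x) (hg x)
  | mul f g _ _ hf hg => exact fun x => A.mul_mem _ _ (hf x) (hg x)

/-- **DESC leaf (i)**, in the form used by the assembly: the candidate order is a finitely
generated `ℤ_(p)`-module. -/
theorem h19f_ord_fg (p : ℕ) [Fact p.Prime] (M : Type) [AddCommGroup M] [Finite M]
    (act : H98pGQ → M → M) (hact : H98pIsGalAct act)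
    (A : ValuationSubring H98pQb) (hA : A.LiesOverPrime p) (G : Set (M → H98pQb))
    (hint : ∀ f ∈ G, ∀ x, f x ∈ A) :
    (Subalgebra.toSubmodule (h19fOrd p act A hA G)).FG :=
  h19f_fg p M act hact.cont A hA _
    (fun f hf => h19f_adjoin_int A G hint f hf.1) (fun _ hf => hf.2)

theorem h19f_ord_equivariant (p : ℕ) [Fact p.Prime] {M : Type} (act : H98pGQ → M → M)
    (A : ValuationSubring H98pQb) (hA : A.LiesOverPrime p) (G : Set (M → H98pQb)) :
    ∀ f ∈ h19fOrd p act A hA G, ∀ σ x, f (act σ x) = σ (f x) :=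
  fun _ hf => hf.2

end Fermat.Agent.P5
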