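import Fermat.Agent.P5.H98Descent

/-!
# Wave 5, pillar (P), block A2 (helper1): function orders, subgroups and products

Abstract frame: `R` a commutative ring, `F`, `K` fields, `K/F`, `M` an additive group with a map
`act : Aut_F(K) → M → M`.  A *function order* `H1Ord R act 𝓗` is an `R`-subalgebra `𝓗` of
`M → K`, finitely generated as a module, consisting of equivariant functions, separating the
points of `M` and closed under `f ↦ f (x + y)` in Sweedler form (the global twin of the local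
`FHO` of the S56 closure; `R = ℤ_(p)`, `F = ℚ`, `K = ℚ̄` is the Prelude case).

* `h1s_ord_sub` : restriction of a function order along an injective equivariant additive map
  `N → M` (subgroups, transport along isomorphisms);
* `h1s_ord_prod` : the product order on `M₁ × M₂`.
-/

set_option autoImplicit false
set_option linter.style.haveILetI false
set_option linter.unusedSectionVars false

namespace Fermat.Agent.P5

/-! ## precomposition -/

/-- precomposition with `φ : N → M`, as an algebra map `(M → K) → (N → K)`. -/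
noncomputable def h1s_pre (R K : Type*) [CommSemiring R] [Semiring K] [Algebra R K]
    {M N : Type*} (φ : N → M) : (M → K) →ₐ[R] (N → K) :=
  AlgHom.pi (fun n => Pi.evalAlgHom R (fun _ : M => K) (φ n))

@[simp] theorem h1s_pre_apply {R K : Type*} [CommSemiring R] [Semiring K] [Algebra R K]
    {M N : Type*} (φ : N → M) (f : M → K) (n : N) : h1s_pre R K φ f n = f (φ n) := rfl

/-! ## Sweedler form -/

section Sw

variable {R K M N : Type*} [CommRing R] [Field K] [Algebra R K]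

/-- `F` is a finite sum of products `a i x * b i y` with `a i ∈ C`, `b i ∈ D`. -/
def h1s_Sw (C : Subalgebra R (M → K)) (D : Subalgebra R (N → K)) (F : M → N → K) : Prop :=
  ∃ (n : ℕ) (a : Fin n → M → K) (b : Fin n → N → K),
    (∀ i, a i ∈ C) ∧ (∀ i, b i ∈ D) ∧ ∀ x y, F x y = ∑ i, a i x * b i y

variable {C : Subalgebra R (M → K)} {D : Subalgebra R (N → K)}

theorem h1s_Sw_of_fintype {ι : Type*} [Fintype ι] {F : M → N → K} (a : ι → M → K)
    (b : ι → N → K) (ha : ∀ i, a i ∈ C) (hb : ∀ i, b i ∈ D)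
    (hF : ∀ x y, F x y = ∑ i, a i x * b i y) : h1s_Sw C D F := by
  classical
  let e := Fintype.equivFin ι
  refine ⟨Fintype.card ι, fun j => a (e.symm j), fun j => b (e.symm j), fun j => ha _,
    fun j => hb _, fun x y => ?_⟩
  rw [hF]
  exact (Equiv.sum_comp e.symm (fun i => a i x * b i y)).symm

theorem h1s_Sw_zero : h1s_Sw C D (fun _ _ => 0) :=
  ⟨0, fun i => i.elim0, fun i => i.elim0, fun i => i.elim0, fun i => i.elim0,
    fun _ _ => by simp⟩

theorem h1s_Sw_tmul {a : M → K} {b : N → K} (ha : a ∈ C) (hb : b ∈ D) :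
    h1s_Sw C D (fun x y => a x * b y) :=
  ⟨1, fun _ => a, fun _ => b, fun _ => ha, fun _ => hb, fun _ _ => by simp⟩

theorem h1s_Sw_add {F G : M → N → K} (hF : h1s_Sw C D F) (hG : h1s_Sw C D G) :
    h1s_Sw C D (fun x y => F x y + G x y) := by
  obtain ⟨n, a, b, ha, hb, hab⟩ := hF
  obtain ⟨n', a', b', ha', hb', hab'⟩ := hG
  refine h1s_Sw_of_fintype (ι := Fin n ⊕ Fin n') (Sum.elim a a') (Sum.elim b b') ?_ ?_ ?_
  · rintro (i | i)
    · exact ha i
    · exact ha' i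
  · rintro (i | i)
    · exact hb i
    · exact hb' i
  · intro x y
    show F x y + G x y = _
    rw [Fintype.sum_sum_type, hab, hab']
    rfl

theorem h1s_Sw_mul {F G : M → N → K} (hF : h1s_Sw C D F) (hG : h1s_Sw C D G) :
    h1s_Sw C D (fun x y => F x y * G x y) := by
  obtain ⟨n, a, b, ha, hb, hab⟩ := hF
  obtain ⟨n', a', b', ha', hb', hab'⟩ := hG
  refine h1s_Sw_of_fintype (ι := Fin n × Fin n') (fun ij => a ij.1 * a' ij.2)
    (fun ij => b ij.1 * b' ij.2) (fun ij => C.mul_mem (ha _) (ha' _))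
    (fun ij => D.mul_mem (hb _) (hb' _)) ?_
  intro x y
  show F x y * G x y = _
  rw [Fintype.sum_prod_type, hab, hab', Finset.sum_mul_sum]
  refine Finset.sum_congr rfl fun i _ => Finset.sum_congr rfl fun j _ => ?_
  simp only [Pi.mul_apply]
  ring

theorem h1s_Sw_smul {F : M → N → K} (r : R) (hF : h1s_Sw C D F) :
    h1s_Sw C D (fun x y => algebraMap R K r * F x y) := by
  obtain ⟨n, a, b, ha, hb, hab⟩ := hF
  refine ⟨n, fun i => r • a i, b, fun i => C.smul_mem (ha i) r, hb, fun x y => ?_⟩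
  show algebraMap R K r * F x y = _
  rw [hab, Finset.mul_sum]
  refine Finset.sum_congr rfl fun i _ => ?_
  simp only [Pi.smul_apply, Algebra.smul_def]
  ring

theorem h1s_Sw_congr {F G : M → N → K} (h : ∀ x y, F x y = G x y) (hF : h1s_Sw C D F) :
    h1s_Sw C D G := by
  obtain ⟨n, a, b, ha, hb, hab⟩ := hF
  exact ⟨n, a, b, ha, hb, fun x y => by rw [← h x y, hab]⟩

theorem h1s_Sw_sum {ι : Type*} (s : Finset ι) {F : ι → M → N → K}
    (hF : ∀ i ∈ s, h1s_Sw C D (F i)) : h1s_Sw C D (fun x y => ∑ i ∈ s, F i x y) := by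
  classical
  induction s using Finset.induction_on with
  | empty => exact h1s_Sw_congr (fun x y => by simp) h1s_Sw_zero
  | insert i s hi ih =>
    refine h1s_Sw_congr (fun x y => ?_)
      (h1s_Sw_add (hF i (Finset.mem_insert_self i s))
        (ih fun j hj => hF j (Finset.mem_insert_of_mem hj)))
    rw [Finset.sum_insert hi]

end Sw

/-! ## function orders -/

/-- A function order for the Galois module `M` (values in `K`, coefficients in `R`). -/
structure H1Ord (R : Type*) {F K M : Type*} [CommRing R] [Field F] [Field K] [Algebra F K]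
    [Algebra R K] [Add M] (act : (K ≃ₐ[F] K) → M → M) (𝓗 : Subalgebra R (M → K)) : Prop where
  fg : (Subalgebra.toSubmodule 𝓗).FG
  equivariant : ∀ f ∈ 𝓗, ∀ σ x, f (act σ x) = σ (f x)
  separates : ∀ x y : M, (∀ f ∈ 𝓗, f x = f y) → x = y
  comul : ∀ f ∈ 𝓗, ∃ (n : ℕ) (a b : Fin n → M → K),
    (∀ i, a i ∈ 𝓗) ∧ (∀ i, b i ∈ 𝓗) ∧ ∀ x y, f (x + y) = ∑ i, a i x * b i y

section Sub

variable {R F K M N : Type*} [CommRing R] [Field F] [Field K] [Algebra F K] [Algebra R K]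
  [AddCommGroup M] [AddCommGroup N]

/-- **A2-SUB.** Restriction of a function order along an injective, equivariant, additive map
(subgroups; transport along isomorphisms). -/
theorem h1s_ord_sub {act : (K ≃ₐ[F] K) → M → M} {𝓗 : Subalgebra R (M → K)}
    (h : H1Ord R act 𝓗) (ι : N →+ M) (hι : Function.Injective ι)
    (actN : (K ≃ₐ[F] K) → N → N) (hact : ∀ σ y, ι (actN σ y) = act σ (ι y)) :
    H1Ord R actN (𝓗.map (h1s_pre R K ι)) := by
  refine ⟨?_, ?_, ?_, ?_⟩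
  · have h1 : Subalgebra.toSubmodule (𝓗.map (h1s_pre R K ι)) =
        (Subalgebra.toSubmodule 𝓗).map (h1s_pre R K ι).toLinearMap := by
      ext g
      simp [Subalgebra.mem_map]
    rw [h1]
    exact h.fg.map _
  · rintro _ ⟨f, hf, rfl⟩ σ y
    show f (ι (actN σ y)) = σ (f (ι y))
    rw [hact, h.equivariant f hf]
  · intro y y' hyy'
    refine hι (h.separates _ _ fun f hf => ?_)
    exact hyy' _ ⟨f, hf, rfl⟩
  · rintro _ ⟨f, hf, rfl⟩
    obtain ⟨n, a, b, ha, hb, hab⟩ := h.comul f hf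
    refine ⟨n, fun i => h1s_pre R K ι (a i), fun i => h1s_pre R K ι (b i),
      fun i => ⟨a i, ha i, rfl⟩, fun i => ⟨b i, hb i, rfl⟩, fun y y' => ?_⟩
    show f (ι (y + y')) = _
    rw [map_add, hab]
    rfl

end Sub

/-! ## products -/

section Prod

variable {R F K M₁ M₂ : Type*} [CommRing R] [Field F] [Field K] [Algebra F K] [Algebra R K]
  [AddCommGroup M₁] [AddCommGroup M₂]

/-- the product of two subalgebras of functions, inside the functions on the product. -/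
noncomputable def h1s_prodAlg (𝓗₁ : Subalgebra R (M₁ → K)) (𝓗₂ : Subalgebra R (M₂ → K)) :
    Subalgebra R (M₁ × M₂ → K) :=
  𝓗₁.map (h1s_pre R K Prod.fst) ⊔ 𝓗₂.map (h1s_pre R K Prod.snd)

theorem h1s_prodAlg_fst {𝓗₁ : Subalgebra R (M₁ → K)} (𝓗₂ : Subalgebra R (M₂ → K))
    {f : M₁ → K} (hf : f ∈ 𝓗₁) : (fun z : M₁ × M₂ => f z.1) ∈ h1s_prodAlg 𝓗₁ 𝓗₂ :=
  (le_sup_left : _ ≤ h1s_prodAlg 𝓗₁ 𝓗₂) ⟨f, hf, rfl⟩

theorem h1s_prodAlg_snd (𝓗₁ : Subalgebra R (M₁ → K)) {𝓗₂ : Subalgebra R (M₂ → K)}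
    {f : M₂ → K} (hf : f ∈ 𝓗₂) : (fun z : M₁ × M₂ => f z.2) ∈ h1s_prodAlg 𝓗₁ 𝓗₂ :=
  (le_sup_right : _ ≤ h1s_prodAlg 𝓗₁ 𝓗₂) ⟨f, hf, rfl⟩

theorem h1s_prodAlg_tmul {𝓗₁ : Subalgebra R (M₁ → K)} {𝓗₂ : Subalgebra R (M₂ → K)}
    {f : M₁ → K} {g : M₂ → K} (hf : f ∈ 𝓗₁) (hg : g ∈ 𝓗₂) :
    (fun z : M₁ × M₂ => f z.1 * g z.2) ∈ h1s_prodAlg 𝓗₁ 𝓗₂ :=
  (h1s_prodAlg 𝓗₁ 𝓗₂).mul_mem (h1s_prodAlg_fst 𝓗₂ hf) (h1s_prodAlg_snd 𝓗₁ hg)

/-- induction principle for the product algebra. -/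
theorem h1s_prodAlg_induction {𝓗₁ : Subalgebra R (M₁ → K)} {𝓗₂ : Subalgebra R (M₂ → K)}
    {P : (M₁ × M₂ → K) → Prop}
    (hmul : ∀ f ∈ 𝓗₁, ∀ g ∈ 𝓗₂, P (fun z => f z.1 * g z.2))
    (hadd : ∀ u v, P u → P v → P (u + v))
    {u : M₁ × M₂ → K} (hu : u ∈ h1s_prodAlg 𝓗₁ 𝓗₂) : P u := by
  have h1 : u ∈ Subalgebra.toSubmodule (𝓗₁.map (h1s_pre R K Prod.fst)) *
      Subalgebra.toSubmodule (𝓗₂.map (h1s_pre R K Prod.snd)) := by
    rw [Subalgebra.mul_toSubmodule]
    exact hu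
  refine Submodule.mul_induction_on h1 ?_ ?_
  · rintro _ ⟨f, hf, rfl⟩ _ ⟨g, hg, rfl⟩
    exact hmul f hf g hg
  · intro x y hx hy
    exact hadd x y hx hy

/-- **A2-PROD.** The product of two function orders. -/
theorem h1s_ord_prod {act₁ : (K ≃ₐ[F] K) → M₁ → M₁} {act₂ : (K ≃ₐ[F] K) → M₂ → M₂}
    {𝓗₁ : Subalgebra R (M₁ → K)} {𝓗₂ : Subalgebra R (M₂ → K)}
    (h₁ : H1Ord R act₁ 𝓗₁) (h₂ : H1Ord R act₂ 𝓗₂) :
    H1Ord R (fun σ (z : M₁ × M₂) => (act₁ σ z.1, act₂ σ z.2)) (h1s_prodAlg 𝓗₁ 𝓗₂) := by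
  refine ⟨?_, ?_, ?_, ?_⟩
  · show (Subalgebra.toSubmodule (𝓗₁.map (h1s_pre R K Prod.fst) ⊔
      𝓗₂.map (h1s_pre R K Prod.snd))).FG
    rw [← Subalgebra.mul_toSubmodule]
    refine Submodule.FG.mul ?_ ?_
    · have h1 : Subalgebra.toSubmodule (𝓗₁.map (h1s_pre R K (Prod.fst : M₁ × M₂ → M₁))) =
          (Subalgebra.toSubmodule 𝓗₁).map (h1s_pre R K (Prod.fst : M₁ × M₂ → M₁)).toLinearMap := by
        ext g
        simp [Subalgebra.mem_map]
      rw [h1]
      exact h₁.fg.map _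
    · have h1 : Subalgebra.toSubmodule (𝓗₂.map (h1s_pre R K (Prod.snd : M₁ × M₂ → M₂))) =
          (Subalgebra.toSubmodule 𝓗₂).map (h1s_pre R K (Prod.snd : M₁ × M₂ → M₂)).toLinearMap := by
        ext g
        simp [Subalgebra.mem_map]
      rw [h1]
      exact h₂.fg.map _
  · intro u hu
    refine h1s_prodAlg_induction (P := fun u => ∀ (σ : K ≃ₐ[F] K) (z : M₁ × M₂),
      u (act₁ σ z.1, act₂ σ z.2) = σ (u z)) ?_ ?_ hu
    · intro f hf g hg σ z
      show f (act₁ σ z.1) * g (act₂ σ z.2) = σ (f z.1 * g z.2)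
      rw [h₁.equivariant f hf, h₂.equivariant g hg, map_mul]
    · intro u v hu hv σ z
      rw [Pi.add_apply, Pi.add_apply, hu, hv, map_add]
  · rintro ⟨x₁, x₂⟩ ⟨y₁, y₂⟩ hxy
    have e1 : x₁ = y₁ := h₁.separates _ _ fun f hf =>
      hxy _ (h1s_prodAlg_fst 𝓗₂ hf)
    have e2 : x₂ = y₂ := h₂.separates _ _ fun f hf =>
      hxy _ (h1s_prodAlg_snd 𝓗₁ hf)
    rw [e1, e2]
  · intro u hu
    have key : h1s_Sw (h1s_prodAlg 𝓗₁ 𝓗₂) (h1s_prodAlg 𝓗₁ 𝓗₂) (fun x y => u (x + y)) := by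
      refine h1s_prodAlg_induction
        (P := fun u => h1s_Sw (h1s_prodAlg 𝓗₁ 𝓗₂) (h1s_prodAlg 𝓗₁ 𝓗₂) (fun x y => u (x + y)))
        ?_ ?_ hu
      · intro f hf g hg
        obtain ⟨n, a, b, ha, hb, hab⟩ := h₁.comul f hf
        obtain ⟨n', a', b', ha', hb', hab'⟩ := h₂.comul g hg
        have s1 : h1s_Sw (h1s_prodAlg 𝓗₁ 𝓗₂) (h1s_prodAlg 𝓗₁ 𝓗₂)
            (fun x y : M₁ × M₂ => f (x.1 + y.1)) :=
          ⟨n, fun i z => a i z.1, fun i z => b i z.1,
            fun i => h1s_prodAlg_fst 𝓗₂ (ha i), fun i => h1s_prodAlg_fst 𝓗₂ (hb i),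
            fun x y => hab _ _⟩
        have s2 : h1s_Sw (h1s_prodAlg 𝓗₁ 𝓗₂) (h1s_prodAlg 𝓗₁ 𝓗₂)
            (fun x y : M₁ × M₂ => g (x.2 + y.2)) :=
          ⟨n', fun i z => a' i z.2, fun i z => b' i z.2,
            fun i => h1s_prodAlg_snd 𝓗₁ (ha' i), fun i => h1s_prodAlg_snd 𝓗₁ (hb' i),
            fun x y => hab' _ _⟩
        exact h1s_Sw_mul s1 s2
      · intro u v hu hv
        exact h1s_Sw_add hu hv
    exact key

end Prod

end Fermat.Agent.P5
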