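import Fermat.Agent.P5.H97Order
import Fermat.Agent.P5.H98Zp
import Fermat.Agent.P5.H1Ord
import Fermat.Prelude.Def_FLTPrelim_Ramification

/-!
# Wave 5, pillar (P), TOP-DESC leaf (iv) (helper1): the coefficient argument

`R = ℤ_(p)`, `A` a valuation subring of `ℚ̄` over `p`, `𝓗` an `R`-subalgebra of `M → ℚ̄` which is
finitely generated, equivariant and separating.  If `f ∈ 𝓗` has a Sweedler form
`f (x + y) = ∑ a i x * c i y` with `a i`, `c i` in the `A`-span of `𝓗`, then it has a Sweedler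
form over `𝓗` itself (`h1d_coef`); hence `𝓗` is a function order (`h1d_isOrder`).

Proof: in a basis `e` of `𝓗` (which is a `ℚ̄`-basis of all functions) the coefficients of
`(x, y) ↦ f (x + y)` in `e j ⊗ e k` lie in `A` and are Galois-fixed, hence lie in
`ℚ ∩ A = ℤ_(p)`.

Also: `h1d_zp_mem` (`ℤ_(p) ⊆ A`), `h1d_rat_mem` (`ℚ ∩ A ⊆ ℤ_(p)`).
-/

set_option autoImplicit false
set_option linter.style.haveILetI false
set_option linter.unusedSectionVars false

open GaloisRep

namespace Fermat.Agent.P5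

local notation "Qb1" => (AlgebraicClosure ℚ)
local notation "GQ1" => (AlgebraicClosure ℚ ≃ₐ[ℚ] AlgebraicClosure ℚ)

/-! ## `ℚ ∩ A = ℤ_(p)` -/

section Rat

variable {p : ℕ} [hp : Fact p.Prime] (A : ValuationSubring Qb1) (hA : A.LiesOverPrime p)

omit hp in
theorem h1d_int_mem (n : ℤ) : ((n : ℤ) : Qb1) ∈ A := intCast_mem A n

include hA in
/-- integers prime to `p` are units of `A`. -/
theorem h1d_valuation_int_eq_one {n : ℤ} (hn : ¬ (p : ℤ) ∣ n) :
    A.valuation ((n : ℤ) : Qb1) = 1 := by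
  have hp1 : A.valuation ((p : ℕ) : Qb1) < 1 := (ValuationSubring.mem_nonunits_iff A).mp hA
  have hle : A.valuation ((n : ℤ) : Qb1) ≤ 1 := (A.valuation_le_one_iff _).mpr (h1d_int_mem A n)
  refine le_antisymm hle (not_lt.mp fun hlt => ?_)
  have hcop : IsCoprime n (p : ℤ) := by
    rw [isCoprime_comm]
    exact (Nat.prime_iff_prime_int.mp hp.out).irreducible.coprime_iff_not_dvd.mpr hn
  obtain ⟨u, v, huv⟩ := hcop
  have h1 : ((u : ℤ) : Qb1) * ((n : ℤ) : Qb1) + ((v : ℤ) : Qb1) * ((p : ℕ) : Qb1) = 1 := by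
    have := congrArg (fun z : ℤ => (z : Qb1)) huv
    simpa using this
  have h2 : A.valuation (((u : ℤ) : Qb1) * ((n : ℤ) : Qb1) + ((v : ℤ) : Qb1) * ((p : ℕ) : Qb1))
      < 1 := by
    refine lt_of_le_of_lt (A.valuation.map_add _ _) (max_lt ?_ ?_)
    · rw [map_mul]
      calc A.valuation ((u : ℤ) : Qb1) * A.valuation ((n : ℤ) : Qb1)
          ≤ 1 * A.valuation ((n : ℤ) : Qb1) :=
            mul_le_mul_left ((A.valuation_le_one_iff _).mpr (h1d_int_mem A u)) _
        _ < 1 := by rw [one_mul]; exact hlt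
    · rw [map_mul]
      calc A.valuation ((v : ℤ) : Qb1) * A.valuation ((p : ℕ) : Qb1)
          ≤ 1 * A.valuation ((p : ℕ) : Qb1) :=
            mul_le_mul_left ((A.valuation_le_one_iff _).mpr (h1d_int_mem A v)) _
        _ < 1 := by rw [one_mul]; exact hp1
  rw [h1, map_one] at h2
  exact lt_irrefl _ h2

include hA in
/-- `ℤ_(p) ⊆ A`. -/
theorem h1d_zp_mem (r : ratLocalizedAt p) : algebraMap (ratLocalizedAt p) Qb1 r ∈ A := by
  have h0 : algebraMap (ratLocalizedAt p) Qb1 r = algebraMap ℚ Qb1 (r : ℚ) := rfl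
  have hden : ¬ (p : ℤ) ∣ ((r : ℚ).den : ℤ) := by
    intro h
    have h2 : ((r : ℚ).den).Coprime p := r.2
    have h3 := Nat.Coprime.eq_one_of_dvd h2.symm (Int.natCast_dvd_natCast.mp h)
    exact hp.out.one_lt.ne' h3
  have hv := h1d_valuation_int_eq_one A hA hden
  have h1 : algebraMap ℚ Qb1 (r : ℚ) =
      (((r : ℚ).num : ℤ) : Qb1) * ((((r : ℚ).den : ℤ) : ℤ) : Qb1)⁻¹ := by
    conv_lhs => rw [← Rat.num_div_den (r : ℚ)]
    rw [map_div₀, div_eq_mul_inv]
    simp
  rw [h0, h1, ← A.valuation_le_one_iff, map_mul, map_inv₀, hv, inv_one, mul_one]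
  exact (A.valuation_le_one_iff _).mpr (h1d_int_mem A _)

include hA in
/-- `ℚ ∩ A ⊆ ℤ_(p)`. -/
theorem h1d_rat_mem {q : ℚ} (hq : algebraMap ℚ Qb1 q ∈ A) : q ∈ ratLocalizedAt p := by
  show (q.den).Coprime p
  rw [Nat.coprime_comm, Nat.Prime.coprime_iff_not_dvd hp.out]
  intro hdvd
  have hnum : ¬ (p : ℤ) ∣ q.num := by
    intro h
    have h1 : p ∣ q.num.natAbs := Int.natCast_dvd.mp h
    have h2 := Nat.dvd_gcd h1 hdvd
    rw [q.reduced] at h2
    exact hp.out.one_lt.ne' (Nat.dvd_one.mp h2)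
  have hv := h1d_valuation_int_eq_one A hA hnum
  obtain ⟨m, hm⟩ := hdvd
  have h1 : ((q.num : ℤ) : Qb1) = algebraMap ℚ Qb1 q * (((p : ℕ) : Qb1) * ((m : ℕ) : Qb1)) := by
    have h2 : (q.num : ℚ) = q * ((p : ℚ) * (m : ℚ)) := by
      have h3 : (q.den : ℚ) = (p : ℚ) * (m : ℚ) := by exact_mod_cast congrArg (Nat.cast : ℕ → ℚ) hm
      rw [← h3]
      exact (Rat.mul_den_eq_num q).symm
    have := congrArg (algebraMap ℚ Qb1) h2
    simpa using this
  have hp1 : A.valuation ((p : ℕ) : Qb1) < 1 := (ValuationSubring.mem_nonunits_iff A).mp hA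
  have h4 : A.valuation ((q.num : ℤ) : Qb1) < 1 := by
    rw [h1, map_mul, map_mul]
    have hq' : A.valuation (algebraMap ℚ Qb1 q) ≤ 1 := (A.valuation_le_one_iff _).mpr hq
    have hm' : A.valuation ((m : ℕ) : Qb1) ≤ 1 :=
      (A.valuation_le_one_iff _).mpr (natCast_mem A m)
    calc A.valuation (algebraMap ℚ Qb1 q) * (A.valuation ((p : ℕ) : Qb1) *
          A.valuation ((m : ℕ) : Qb1))
        ≤ 1 * (A.valuation ((p : ℕ) : Qb1) * 1) := by
          gcongr
      _ < 1 := by rw [one_mul, mul_one]; exact hp1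
  rw [hv] at h4
  exact lt_irrefl _ h4

end Rat

/-! ## the coefficient argument -/

section Coef

variable {p : ℕ} [hp : Fact p.Prime] {M : Type} [AddCommGroup M] [Finite M]
  (act : GQ1 → M → M) (A : ValuationSubring Qb1) (hA : A.LiesOverPrime p)
  (𝓗 : Subalgebra (ratLocalizedAt p) (M → Qb1))

include hA in
/-- elements of the `A`-span of `𝓗` have coefficients in `A` in a basis of `𝓗`. -/
theorem h1d_span_coef {n : ℕ} (b : Module.Basis (Fin n) (ratLocalizedAt p) 𝓗)
    {g : M → Qb1} (hg : g ∈ Submodule.span A (𝓗 : Set (M → Qb1))) :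
    ∃ α : Fin n → Qb1, (∀ j, α j ∈ A) ∧ g = ∑ j, α j • ((b j : 𝓗) : M → Qb1) := by
  induction hg using Submodule.span_induction with
  | mem g hg =>
    refine ⟨fun j => algebraMap (ratLocalizedAt p) Qb1 (b.repr ⟨g, hg⟩ j),
      fun j => h1d_zp_mem A hA _, ?_⟩
    have h1 : (⟨g, hg⟩ : 𝓗) = ∑ j, b.repr ⟨g, hg⟩ j • b j := (b.sum_repr _).symm
    have := congrArg (fun u : 𝓗 => 𝓗.val.toLinearMap u) h1
    simp only [map_sum, map_smul] at this
    refine Eq.trans (show g = 𝓗.val.toLinearMap ⟨g, hg⟩ from rfl) (this.trans ?_)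
    refine Finset.sum_congr rfl fun j _ => ?_
    funext x
    simp [Algebra.smul_def]
  | zero =>
    exact ⟨fun _ => 0, fun _ => A.zero_mem, by simp⟩
  | add u v _ _ hu hv =>
    obtain ⟨α, hα, rfl⟩ := hu
    obtain ⟨β, hβ, rfl⟩ := hv
    refine ⟨fun j => α j + β j, fun j => A.add_mem _ _ (hα j) (hβ j), ?_⟩
    rw [← Finset.sum_add_distrib]
    refine Finset.sum_congr rfl fun j _ => ?_
    rw [add_smul]
  | smul a u _ hu =>
    obtain ⟨α, hα, rfl⟩ := hu
    refine ⟨fun j => (a : Qb1) * α j, fun j => A.mul_mem _ _ a.2 (hα j), ?_⟩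
    rw [Finset.smul_sum]
    refine Finset.sum_congr rfl fun j _ => ?_
    funext x
    show (a : Qb1) * (α j * ((b j : 𝓗) : M → Qb1) x) = (a : Qb1) * α j * ((b j : 𝓗) : M → Qb1) x
    rw [mul_assoc]

include hA in
/-- **DESC leaf (iv).** A Sweedler form over the `A`-span of `𝓗` gives a Sweedler form over
`𝓗`. -/
theorem h1d_coef (hfg : (Subalgebra.toSubmodule 𝓗).FG)
    (heq : ∀ f ∈ 𝓗, ∀ σ x, f (act σ x) = σ (f x))
    (hsep : ∀ x y, (∀ f ∈ 𝓗, f x = f y) → x = y)
    (hadd : ∀ σ x y, act σ (x + y) = act σ x + act σ y)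
    {f : M → Qb1} (hf : ∀ σ x, f (act σ x) = σ (f x))
    (hSw : ∃ (m : ℕ) (a c : Fin m → M → Qb1),
      (∀ i, a i ∈ Submodule.span A (𝓗 : Set (M → Qb1))) ∧
      (∀ i, c i ∈ Submodule.span A (𝓗 : Set (M → Qb1))) ∧
      ∀ x y, f (x + y) = ∑ i, a i x * c i y) :
    h97c_Sw 𝓗 𝓗 (fun x y => f (x + y)) := by
  classical
  obtain ⟨n, b, hli, -, -⟩ := h98p_zp_basis p act 𝓗 hfg heq hsep
  obtain ⟨m, a, c, ha, hc, hac⟩ := hSw
  choose α hαA hα using fun i => h1d_span_coef A hA 𝓗 b (ha i)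
  choose β hβA hβ using fun i => h1d_span_coef A hA 𝓗 b (hc i)
  set e : Fin n → M → Qb1 := fun j => ((b j : 𝓗) : M → Qb1) with he
  -- the coefficients
  let C : Fin n × Fin n → Qb1 := fun jk => ∑ i, α i jk.1 * β i jk.2
  have hCA : ∀ jk, C jk ∈ A := fun jk =>
    A.toSubring.sum_mem fun i _ => A.mul_mem _ _ (hαA i _) (hβA i _)
  have hF : ∀ x y, f (x + y) = ∑ jk : Fin n × Fin n, C jk * (e jk.1 x * e jk.2 y) := by
    intro x y
    rw [hac, Fintype.sum_prod_type]
    have h1 : ∀ i, a i x * c i y = ∑ j, ∑ k, α i j * β i k * (e j x * e k y) := by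
      intro i
      have e1 := congrFun (hα i) x
      have e2 := congrFun (hβ i) y
      simp only [Finset.sum_apply, Pi.smul_apply, smul_eq_mul] at e1 e2
      rw [e1, e2, Finset.sum_mul_sum]
      refine Finset.sum_congr rfl fun j _ => Finset.sum_congr rfl fun k _ => ?_
      ring
    simp only [h1]
    rw [Finset.sum_comm]
    refine Finset.sum_congr rfl fun j _ => ?_
    rw [Finset.sum_comm]
    refine Finset.sum_congr rfl fun k _ => ?_
    show _ = (∑ i, α i j * β i k) * (e j x * e k y)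
    rw [Finset.sum_mul]
  have hee : ∀ j (σ : GQ1) x, e j (act σ x) = σ (e j x) := fun j σ x => heq _ (b j).2 σ x
  -- independence of the products
  have hprod := h98p_indep_prod e e hli hli
  -- the coefficients are Galois-fixed
  have hfixC : ∀ (σ : GQ1) jk, σ (C jk) = C jk := by
    intro σ
    have hsurj := h98p_act_surjective (F := ℚ) act 𝓗 heq hsep σ
    have hzero : ∑ jk : Fin n × Fin n, (σ (C jk) - C jk) •
        (fun z : M × M => e jk.1 z.1 * e jk.2 z.2) = 0 := by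
      funext z
      obtain ⟨x, hx⟩ := hsurj z.1
      obtain ⟨y, hy⟩ := hsurj z.2
      simp only [Finset.sum_apply, Pi.smul_apply, smul_eq_mul, Pi.zero_apply, sub_mul,
        Finset.sum_sub_distrib]
      rw [sub_eq_zero, ← hx, ← hy, ← hF, ← hadd, hf, hF, map_sum]
      refine Finset.sum_congr rfl fun jk _ => ?_
      rw [map_mul, map_mul, hee, hee]
    intro jk
    have := (Fintype.linearIndependent_iff.mp hprod) (fun jk => σ (C jk) - C jk) hzero jk
    exact sub_eq_zero.mp this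
  -- hence in `ℤ_(p)`
  have hR : ∀ jk, ∃ r : ratLocalizedAt p, algebraMap (ratLocalizedAt p) Qb1 r = C jk := by
    intro jk
    obtain ⟨q, hq⟩ := h98p_fix (C jk) fun σ => hfixC σ jk
    have hqA : algebraMap ℚ Qb1 q ∈ A := by rw [hq]; exact hCA jk
    exact ⟨⟨q, h1d_rat_mem A hA hqA⟩, hq⟩
  choose r hr using hR
  refine ⟨n, e, fun j => ∑ k, r (j, k) • e k, fun j => (b j).2,
    fun j => 𝓗.sum_mem fun k _ => 𝓗.smul_mem (b k).2 _, fun x y => ?_⟩
  show f (x + y) = _
  rw [hF, Fintype.sum_prod_type]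
  refine Finset.sum_congr rfl fun j _ => ?_
  show _ = e j x * (∑ k, r (j, k) • e k) y
  rw [Finset.sum_apply, Finset.mul_sum]
  refine Finset.sum_congr rfl fun k _ => ?_
  rw [Pi.smul_apply, Algebra.smul_def, hr]
  ring

include hA in
/-- **DESC leaf (iv)** in the shape requested by the architect (TOP-DESC, D-ASM). -/
theorem h1d_sw (hfg : (Subalgebra.toSubmodule 𝓗).FG)
    (heq : ∀ f ∈ 𝓗, ∀ σ x, f (act σ x) = σ (f x))
    (hsep : ∀ x y, (∀ f ∈ 𝓗, f x = f y) → x = y)
    (hadd : ∀ σ x y, act σ (x + y) = act σ x + act σ y)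
    (f : M → Qb1) (hf : ∀ σ x, f (act σ x) = σ (f x))
    (n : ℕ) (a b : Fin n → M → Qb1)
    (ha : ∀ i, a i ∈ Submodule.span A (𝓗 : Set (M → Qb1)))
    (hb : ∀ i, b i ∈ Submodule.span A (𝓗 : Set (M → Qb1)))
    (hab : ∀ x y, f (x + y) = ∑ i, a i x * b i y) :
    h97c_Sw 𝓗 𝓗 (fun x y => f (x + y)) :=
  h1d_coef act A hA 𝓗 hfg heq hsep hadd hf ⟨n, a, b, ha, hb, hab⟩

include hA in
/-- **DESC, final step.** A finitely generated, equivariant, separating subalgebra over
`ℤ_(p)`, all of whose elements have a Sweedler form over its `A`-span, is a function order. -/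
theorem h1d_isOrder (hfg : (Subalgebra.toSubmodule 𝓗).FG)
    (heq : ∀ f ∈ 𝓗, ∀ σ x, f (act σ x) = σ (f x))
    (hsep : ∀ x y, (∀ f ∈ 𝓗, f x = f y) → x = y)
    (hadd : ∀ σ x y, act σ (x + y) = act σ x + act σ y)
    (hSw : ∀ f ∈ 𝓗, ∃ (m : ℕ) (a c : Fin m → M → Qb1),
      (∀ i, a i ∈ Submodule.span A (𝓗 : Set (M → Qb1))) ∧
      (∀ i, c i ∈ Submodule.span A (𝓗 : Set (M → Qb1))) ∧
      ∀ x y, f (x + y) = ∑ i, a i x * c i y) :
    h97c_IsOrder p M act 𝓗 :=
  ⟨hfg, heq, hsep, fun f hf => h1d_coef act A hA 𝓗 hfg heq hsep hadd (heq f hf) (hSw f hf)⟩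

end Coef

/-! ## assembly: from a local order and the span statement to a function order -/

section Asm

variable {p : ℕ} [hp : Fact p.Prime] {M : Type} [AddCommGroup M] [Finite M]
  (act : GQ1 → M → M) (A : ValuationSubring Qb1) (hA : A.LiesOverPrime p)
  (G : Set (M → Qb1))

omit [Finite M] in
/-- the Sweedler form of the generators extends to the algebra they generate over `A`. -/
theorem h1d_adjoin_sw
    (hcomul : ∀ f ∈ G, ∃ (n : ℕ) (a b : Fin n → M → Qb1),
      (∀ i, a i ∈ Algebra.adjoin A G) ∧ (∀ i, b i ∈ Algebra.adjoin A G) ∧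
      ∀ x y, f (x + y) = ∑ i, a i x * b i y)
    {f : M → Qb1} (hf : f ∈ Algebra.adjoin A G) :
    ∃ (n : ℕ) (a b : Fin n → M → Qb1),
      (∀ i, a i ∈ Algebra.adjoin A G) ∧ (∀ i, b i ∈ Algebra.adjoin A G) ∧
      ∀ x y, f (x + y) = ∑ i, a i x * b i y := by
  have key : h1s_Sw (Algebra.adjoin A G) (Algebra.adjoin A G) (fun x y => f (x + y)) := by
    induction hf using Algebra.adjoin_induction with
    | mem f hf => exact hcomul f hf
    | algebraMap r =>
      refine ⟨1, fun _ => algebraMap A (M → Qb1) r, fun _ => 1,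
        fun _ => Subalgebra.algebraMap_mem _ r, fun _ => Subalgebra.one_mem _, fun x y => ?_⟩
      simp
    | add u v _ _ hu hv => exact h1s_Sw_add hu hv
    | mul u v _ _ hu hv => exact h1s_Sw_mul hu hv
  exact key

omit [Finite M] hp in
/-- the `A`-span of an `ℤ_(p)`-subalgebra is the `A`-algebra it generates. -/
theorem h1d_adjoin_le_span (𝓗 : Subalgebra (ratLocalizedAt p) (M → Qb1))
    (hspan : ∀ g ∈ G, g ∈ Submodule.span A (𝓗 : Set (M → Qb1)))
    {f : M → Qb1} (hf : f ∈ Algebra.adjoin A G) :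
    f ∈ Submodule.span A (𝓗 : Set (M → Qb1)) := by
  have h1 : Subalgebra.toSubmodule (Algebra.adjoin A (𝓗 : Set (M → Qb1))) =
      Submodule.span A (𝓗 : Set (M → Qb1)) := by
    rw [Algebra.adjoin_eq_span]
    congr 1
    exact congrArg (fun S : Submonoid (M → Qb1) => (S : Set (M → Qb1)))
      (Submonoid.closure_eq 𝓗.toSubmonoid)
  have h2 : Algebra.adjoin A G ≤ Algebra.adjoin A (𝓗 : Set (M → Qb1)) := by
    refine Algebra.adjoin_le fun g hg => ?_
    have := hspan g hg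
    rw [← h1] at this
    exact this
  have h3 := h2 hf
  rw [← h1]
  exact h3

include hA in
/-- **DESC assembly.**  Let `G` be separating with Sweedler forms over `A[G]` (fields `sep`,
`comul` of a local order).  A finitely generated `ℤ_(p)`-subalgebra `𝓗 ⊆ A[G]` of equivariant
functions whose `A`-span contains `G` is a function order. -/
theorem h1d_isOrder_of_span
    (hsepG : ∀ x y : M, (∀ f ∈ G, f x = f y) → x = y)
    (hcomulG : ∀ f ∈ G, ∃ (n : ℕ) (a b : Fin n → M → Qb1),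
      (∀ i, a i ∈ Algebra.adjoin A G) ∧ (∀ i, b i ∈ Algebra.adjoin A G) ∧
      ∀ x y, f (x + y) = ∑ i, a i x * b i y)
    (hadd : ∀ σ x y, act σ (x + y) = act σ x + act σ y)
    (𝓗 : Subalgebra (ratLocalizedAt p) (M → Qb1))
    (hfg : (Subalgebra.toSubmodule 𝓗).FG)
    (heq : ∀ f ∈ 𝓗, ∀ σ x, f (act σ x) = σ (f x))
    (hsub : ∀ f ∈ 𝓗, f ∈ Algebra.adjoin A G)
    (hspan : ∀ g ∈ G, g ∈ Submodule.span A (𝓗 : Set (M → Qb1))) :
    h97c_IsOrder p M act 𝓗 := by
  have hsep : ∀ x y : M, (∀ f ∈ 𝓗, f x = f y) → x = y := by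
    intro x y hxy
    refine hsepG x y fun g hg => ?_
    have key : ∀ u : M → Qb1, u ∈ Submodule.span A (𝓗 : Set (M → Qb1)) → u x = u y := by
      intro u hu
      induction hu using Submodule.span_induction with
      | mem u hu => exact hxy u hu
      | zero => rfl
      | add u v _ _ hu hv => rw [Pi.add_apply, Pi.add_apply, hu, hv]
      | smul a u _ hu => rw [Pi.smul_apply, Pi.smul_apply, hu]
    exact key g (hspan g hg)
  refine h1d_isOrder act A hA 𝓗 hfg heq hsep hadd fun f hf => ?_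
  obtain ⟨n, a, b, ha, hb, hab⟩ := h1d_adjoin_sw A G hcomulG (hsub f hf)
  exact ⟨n, a, b, fun i => h1d_adjoin_le_span A G 𝓗 hspan (ha i),
    fun i => h1d_adjoin_le_span A G 𝓗 hspan (hb i), hab⟩

end Asm

end Fermat.Agent.P5
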