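import Fermat.Agent.P5.H1Quot
import Fermat.Agent.P5.H98Zp

/-!
# Wave 5, pillar (P), block A2 (helper1): Prelude flatness is closed under subgroups,
quotients and products

`H1Flat p M act` is the Prelude's flatness of a finite Galois module (the body of
`GaloisRepAdic.IsFlatAt` at one finite level; `h1f_isFlatAt_iff`).

* `h1f_ord_of_flat` : a flat module carries a function order over `ℤ_(p)` (converse adapter);
* `H1Adapter p` : the adapter A1 "function order ⟹ flat" as a hypothesis;
* `h1f_flat_sub`, `h1f_flat_quot`, `h1f_flat_prod` : closure of flatness under injective /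
  surjective equivariant additive maps and products, given the adapter.
-/

set_option autoImplicit false
set_option linter.style.haveILetI false
set_option linter.unusedSectionVars false

open scoped TensorProduct

namespace Fermat.Agent.P5

local notation "Qb1" => (AlgebraicClosure ℚ)
local notation "GQ1" => (AlgebraicClosure ℚ ≃ₐ[ℚ] AlgebraicClosure ℚ)

/-- The Prelude's flatness at one finite level. -/
def H1Flat (p : ℕ) (M : Type) [AddCommGroup M] (act : GQ1 → M → M) : Prop :=
  ∃ (H : Type) (_ : CommRing H) (_ : HopfAlgebra (GaloisRep.ratLocalizedAt p) H),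
    Module.Finite (GaloisRep.ratLocalizedAt p) H ∧
    Module.Flat (GaloisRep.ratLocalizedAt p) H ∧
    Coalgebra.IsCocomm (GaloisRep.ratLocalizedAt p) H ∧
    ∃ e : WithConv (H →ₐ[GaloisRep.ratLocalizedAt p] Qb1) ≃ M,
      (∀ f g, e (f * g) = e f + e g) ∧
      ∀ (σ : GQ1) (f g : WithConv (H →ₐ[GaloisRep.ratLocalizedAt p] Qb1)),
        (∀ h : H, g h = σ (f h)) → e g = act σ (e f)

/-- The Prelude's `IsFlatAt` is `H1Flat` of every finite level. -/
theorem h1f_isFlatAt_iff {A : Type} [CommRing A] [IsLocalRing A] (ρ : GaloisRepAdic A) (p : ℕ) :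
    ρ.IsFlatAt p ↔ Finite (IsLocalRing.ResidueField A) ∧ ∀ I : Ideal A, Finite (A ⧸ I) →
      H1Flat p (ρ.V ⧸ (I • (⊤ : Submodule A ρ.V))) (fun σ => ρ.levelAction I σ) := Iff.rfl

/-! ## the converse adapter -/

section Converse

variable {p : ℕ} {M : Type} [AddCommGroup M] {H : Type} [CommRing H]
  [HopfAlgebra (GaloisRep.ratLocalizedAt p) H]
  (e : WithConv (H →ₐ[GaloisRep.ratLocalizedAt p] Qb1) ≃ M)

/-- the evaluation functions `Φ h x = (e⁻¹ x) h`. -/
noncomputable def h1f_Phi : H →ₐ[GaloisRep.ratLocalizedAt p] (M → Qb1) :=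
  AlgHom.pi fun x => (e.symm x).ofConv

theorem h1f_Phi_apply (h : H) (x : M) : h1f_Phi e h x = (e.symm x).ofConv h := rfl

/-- the composite of a point with a Galois automorphism. -/
noncomputable def h1f_comp (σ : GQ1) (f : WithConv (H →ₐ[GaloisRep.ratLocalizedAt p] Qb1)) :
    WithConv (H →ₐ[GaloisRep.ratLocalizedAt p] Qb1) :=
  WithConv.toConv
    { toRingHom := (σ : Qb1 →+* Qb1).comp f.ofConv.toRingHom
      commutes' := fun r => by
        show σ (f.ofConv (algebraMap _ H r)) = algebraMap _ Qb1 r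
        rw [AlgHom.commutes]
        exact σ.commutes (r : ℚ) }

theorem h1f_comp_apply (σ : GQ1) (f : WithConv (H →ₐ[GaloisRep.ratLocalizedAt p] Qb1))
    (h : H) : (h1f_comp σ f) h = σ (f h) := rfl

variable {e} in
theorem h1f_Phi_act {act : GQ1 → M → M}
    (hact : ∀ (σ : GQ1) (f g : WithConv (H →ₐ[GaloisRep.ratLocalizedAt p] Qb1)),
      (∀ h : H, g h = σ (f h)) → e g = act σ (e f))
    (σ : GQ1) (h : H) (x : M) :
    h1f_Phi e h (act σ x) = σ (h1f_Phi e h x) := by
  have h1 : e (h1f_comp σ (e.symm x)) = act σ x := by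
    rw [hact σ (e.symm x) (h1f_comp σ (e.symm x)) (fun h => rfl), Equiv.apply_symm_apply]
  have h2 : e.symm (act σ x) = h1f_comp σ (e.symm x) := by
    rw [← h1, Equiv.symm_apply_apply]
  rw [h1f_Phi_apply, h2]
  rfl

/-- the Sweedler form of `(x, y) ↦ lift (e⁻¹ x) (e⁻¹ y) t`. -/
theorem h1f_Sw_lift (t : H ⊗[GaloisRep.ratLocalizedAt p] H) :
    h1s_Sw (h1f_Phi e).range (h1f_Phi e).range (fun x y =>
      Algebra.TensorProduct.lift (e.symm x).ofConv (e.symm y).ofConv
        (fun _ _ => Commute.all _ _) t) := by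
  induction t using TensorProduct.induction_on with
  | zero =>
    exact h1s_Sw_congr (fun x y => by rw [map_zero]) h1s_Sw_zero
  | tmul a b =>
    refine h1s_Sw_congr (fun x y => ?_)
      (h1s_Sw_tmul (C := (h1f_Phi e).range) (D := (h1f_Phi e).range)
        (a := h1f_Phi e a) (b := h1f_Phi e b) ⟨a, rfl⟩ ⟨b, rfl⟩)
    rw [Algebra.TensorProduct.lift_tmul]
    rfl
  | add t t' ht ht' =>
    exact h1s_Sw_congr (fun x y => by rw [map_add]) (h1s_Sw_add ht ht')

/-- **converse adapter**: a flat module carries a function order over `ℤ_(p)`. -/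
theorem h1f_ord_of_flat {act : GQ1 → M → M} (h : H1Flat p M act) :
    ∃ 𝓗 : Subalgebra (GaloisRep.ratLocalizedAt p) (M → Qb1),
      H1Ord (GaloisRep.ratLocalizedAt p) act 𝓗 := by
  obtain ⟨H, hCR, hHopf, hfin, -, -, e, hmul, hact⟩ := h
  refine ⟨(h1f_Phi e).range, ?_, ?_, ?_, ?_⟩
  · have h1 : Subalgebra.toSubmodule (h1f_Phi e).range =
        (⊤ : Submodule (GaloisRep.ratLocalizedAt p) H).map (h1f_Phi e).toLinearMap := by
      ext g
      simp [AlgHom.mem_range]
    rw [h1]
    exact (Module.Finite.fg_top).map _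
  · rintro _ ⟨h, rfl⟩ σ x
    exact h1f_Phi_act hact σ h x
  · intro x y hxy
    apply e.symm.injective
    apply WithConv.ext
    refine AlgHom.ext fun h => ?_
    exact hxy _ ⟨h, rfl⟩
  · rintro _ ⟨h, rfl⟩
    have := h1f_Sw_lift e (Coalgebra.comul h)
    refine h1s_Sw_congr (fun x y => ?_) this
    have h1 : e.symm (x + y) = e.symm x * e.symm y := by
      apply e.injective
      rw [hmul, Equiv.apply_symm_apply, Equiv.apply_symm_apply, Equiv.apply_symm_apply]
    show _ = (e.symm (x + y)).ofConv h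
    rw [h1]
    exact (AlgHom.convMul_apply (e.symm x) (e.symm y) h).symm

end Converse

/-! ## closure properties, given the adapter -/

/-- The adapter A1 (function order ⟹ flat), as a hypothesis. -/
def H1Adapter (p : ℕ) : Prop :=
  ∀ (M : Type) [AddCommGroup M] [Finite M] (act : GQ1 → M → M)
    (𝓗 : Subalgebra (GaloisRep.ratLocalizedAt p) (M → Qb1)),
    H1Ord (GaloisRep.ratLocalizedAt p) act 𝓗 → H1Flat p M act

theorem h1f_infinite_zp (p : ℕ) : Infinite (GaloisRep.ratLocalizedAt p) := by
  refine Infinite.of_injective (fun n : ℕ => ((n : ℤ) : GaloisRep.ratLocalizedAt p)) ?_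
  intro m n hmn
  have h1 := congrArg (fun x : GaloisRep.ratLocalizedAt p => (x : ℚ)) hmn
  simp only [Int.cast_natCast] at h1
  exact_mod_cast h1

section Closure

variable {p : ℕ} {M N : Type} [AddCommGroup M] [AddCommGroup N]

/-- **A2-SUB.** Flatness passes to the source of an injective equivariant additive map
(Galois-stable subgroups, transport along isomorphisms). -/
theorem h1f_flat_sub (hA : H1Adapter p) [Finite M] {act : GQ1 → M → M} (h : H1Flat p M act)
    (ι : N →+ M) (hι : Function.Injective ι) (actN : GQ1 → N → N)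
    (hact : ∀ σ y, ι (actN σ y) = act σ (ι y)) : H1Flat p N actN := by
  obtain ⟨𝓗, h𝓗⟩ := h1f_ord_of_flat h
  haveI : Finite N := Finite.of_injective ι hι
  exact hA N actN _ (h1s_ord_sub h𝓗 ι hι actN hact)

/-- **A2-QUOT.** Flatness passes to the target of a surjective equivariant additive map
(quotients by Galois-stable subgroups). -/
theorem h1f_flat_quot [Fact p.Prime] (hA : H1Adapter p) [Finite M] {act : GQ1 → M → M}
    (h : H1Flat p M act) (π : M →+ N) (hπ : Function.Surjective π) (actN : GQ1 → N → N)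
    (hact : ∀ σ x, actN σ (π x) = π (act σ x)) : H1Flat p N actN := by
  obtain ⟨𝓗, h𝓗⟩ := h1f_ord_of_flat h
  haveI : Finite N := Finite.of_surjective π hπ
  haveI := h98p_isFractionRing p
  haveI := h98p_isPID p
  haveI := h1f_infinite_zp p
  exact hA N actN _ (h1q_ord_quot (F := ℚ) h98p_fix h𝓗 π hπ actN hact)

/-- **A2-PROD.** Flatness passes to products. -/
theorem h1f_flat_prod (hA : H1Adapter p) [Finite M] [Finite N] {act : GQ1 → M → M}
    {actN : GQ1 → N → N} (h : H1Flat p M act) (h' : H1Flat p N actN) :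
    H1Flat p (M × N) (fun σ z => (act σ z.1, actN σ z.2)) := by
  obtain ⟨𝓗, h𝓗⟩ := h1f_ord_of_flat h
  obtain ⟨𝓗', h𝓗'⟩ := h1f_ord_of_flat h'
  exact hA (M × N) _ _ (h1s_ord_prod h𝓗 h𝓗')

end Closure

end Fermat.Agent.P5
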