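import Mathlib

/-!
# Wave 5, pillar (P), GEO-LINK abstract core of `N0_unit` (helper1)

`A` a valuation subring of a field `K`, `N` a square matrix with entries in `A`.

* `h1n_det_unit` : if the reduction of `N` modulo `𝔪_A` has trivial kernel ("the reduced jets are
  independent": every integral vector `c` with `N c ≡ 0` modulo `𝔪_A` is `≡ 0`), then
  `det N ≠ 0` and `(det N)⁻¹ ∈ A`.
* `h1n_ker_of_det_unit` : the converse.
* `h1n_det_unit_iff` : the equivalence.
* `h1n_det_unit_of_inverse` : a matrix with entries in `A` which has an inverse with entries in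
  `A` has unit determinant.

Mathlib only.
-/

set_option autoImplicit false

open Matrix

namespace Fermat.Agent.P5

section JetDet

variable {K : Type*} [Field K] (A : ValuationSubring K) {n : Type*} [Fintype n] [DecidableEq n]

/-- the determinant of a matrix with entries in `A` lies in `A`. -/
theorem h1n_det_mem (N : Matrix n n K) (hN : ∀ i j, N i j ∈ A) : N.det ∈ A := by
  rw [Matrix.det_apply]
  refine A.toSubring.sum_mem fun σ _ => ?_
  have h1 : ∏ i, N (σ i) i ∈ A := A.toSubring.prod_mem fun i _ => hN _ _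
  rcases Int.units_eq_one_or (Equiv.Perm.sign σ) with h | h
  · rw [h, one_smul]; exact h1
  · rw [h, Units.neg_smul, one_smul]; exact A.neg_mem _ h1

/-- **abstract core of `N0_unit`.** -/
theorem h1n_det_unit (N : Matrix n n K) (hN : ∀ i j, N i j ∈ A)
    (hker : ∀ c : n → K, (∀ j, c j ∈ A) → (∀ i, (N *ᵥ c) i ∈ A.nonunits) →
      ∀ j, c j ∈ A.nonunits) :
    N.det ≠ 0 ∧ (N.det)⁻¹ ∈ A := by
  classical
  -- the matrix over `A` and its reduction
  let NA : Matrix n n A := fun i j => ⟨N i j, hN i j⟩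
  let res : A →+* IsLocalRing.ResidueField A := IsLocalRing.residue A
  let Nk : Matrix n n (IsLocalRing.ResidueField A) := NA.map res
  have hNA : NA.map A.subtype = N := by
    ext i j
    rfl
  have hdetA : (A.subtype) NA.det = N.det := by
    rw [RingHom.map_det, RingHom.mapMatrix_apply, hNA]
  -- the reduction has non-zero determinant
  have hdetk : Nk.det ≠ 0 := by
    intro h0
    obtain ⟨v, hv0, hv⟩ := Matrix.exists_mulVec_eq_zero_iff.mpr h0
    -- lift `v`
    have hsurj : Function.Surjective res := IsLocalRing.residue_surjective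
    choose c hc using fun j => hsurj (v j)
    have h1 : ∀ i, (N *ᵥ fun j => ((c j : A) : K)) i ∈ A.nonunits := by
      intro i
      have e1 : (N *ᵥ fun j => ((c j : A) : K)) i = ((∑ j, NA i j * c j : A) : K) := by
        simp only [Matrix.mulVec, dotProduct]
        push_cast
        rfl
      rw [e1]
      have e2 : res (∑ j, NA i j * c j) = 0 := by
        have := congrFun hv i
        simp only [Matrix.mulVec, dotProduct, Pi.zero_apply] at this
        rw [map_sum]
        rw [← this]
        refine Finset.sum_congr rfl fun j _ => ?_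
        rw [map_mul, hc j]
        rfl
      have e3 : (∑ j, NA i j * c j) ∈ IsLocalRing.maximalIdeal A :=
        (IsLocalRing.residue_eq_zero_iff _).mp e2
      rw [ValuationSubring.mem_nonunits_iff_exists_mem_maximalIdeal]
      exact ⟨(∑ j, NA i j * c j).2, e3⟩
    have h2 := hker (fun j => ((c j : A) : K)) (fun j => (c j).2) h1
    apply hv0
    funext j
    rw [← hc j, Pi.zero_apply]
    refine (IsLocalRing.residue_eq_zero_iff _).mpr ?_
    obtain ⟨ha, hm⟩ := (ValuationSubring.mem_nonunits_iff_exists_mem_maximalIdeal).mp (h2 j)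
    exact hm
  -- hence `det NA` is a unit
  have hunit : IsUnit NA.det := by
    have h1 : res NA.det = Nk.det := by
      rw [RingHom.map_det]
      rfl
    by_contra hnu
    have h2 : NA.det ∈ IsLocalRing.maximalIdeal A := (IsLocalRing.mem_maximalIdeal _).mpr hnu
    exact hdetk (h1 ▸ (IsLocalRing.residue_eq_zero_iff _).mpr h2)
  obtain ⟨u, hu⟩ := hunit
  have h3 : N.det * ((u⁻¹ : Aˣ) : A) = 1 := by
    rw [← hdetA, ← hu]
    have : ((u : A) : K) * (((u⁻¹ : Aˣ) : A) : K) = (((u * u⁻¹ : Aˣ) : A) : K) := by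
      push_cast
      rfl
    rw [show (A.subtype) (u : A) = ((u : A) : K) from rfl, this, mul_inv_cancel]
    rfl
  have hne : N.det ≠ 0 := left_ne_zero_of_mul_eq_one h3
  refine ⟨hne, ?_⟩
  have h4 : (N.det)⁻¹ = (((u⁻¹ : Aˣ) : A) : K) := inv_eq_of_mul_eq_one_right h3
  rw [h4]
  exact ((u⁻¹ : Aˣ) : A).2

omit [Fintype n] [DecidableEq n] in
theorem h1n_nonunits_add {x y : K} (hx : x ∈ A.nonunits) (hy : y ∈ A.nonunits) :
    x + y ∈ A.nonunits := by
  rw [ValuationSubring.mem_nonunits_iff] at hx hy ⊢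
  exact lt_of_le_of_lt (A.valuation.map_add x y) (max_lt hx hy)

omit [Fintype n] [DecidableEq n] in
theorem h1n_nonunits_mul {a x : K} (ha : a ∈ A) (hx : x ∈ A.nonunits) :
    a * x ∈ A.nonunits := by
  rw [ValuationSubring.mem_nonunits_iff] at hx ⊢
  rw [map_mul]
  have h1 : A.valuation a ≤ 1 := (A.valuation_le_one_iff a).mpr ha
  calc A.valuation a * A.valuation x ≤ 1 * A.valuation x := mul_le_mul_left h1 _
    _ < 1 := by rw [one_mul]; exact hx

omit [Fintype n] [DecidableEq n] in
theorem h1n_nonunits_zero : (0 : K) ∈ A.nonunits := by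
  rw [ValuationSubring.mem_nonunits_iff, map_zero]
  exact zero_lt_one

omit [Fintype n] [DecidableEq n] in
theorem h1n_nonunits_sum {ι : Type*} (s : Finset ι) (f : ι → K)
    (hf : ∀ i ∈ s, f i ∈ A.nonunits) : ∑ i ∈ s, f i ∈ A.nonunits := by
  classical
  induction s using Finset.induction_on with
  | empty => rw [Finset.sum_empty]; exact h1n_nonunits_zero A
  | insert i s hi ih =>
    rw [Finset.sum_insert hi]
    exact h1n_nonunits_add A (hf i (Finset.mem_insert_self i s))
      (ih fun j hj => hf j (Finset.mem_insert_of_mem hj))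

/-- the converse: unit determinant implies that the reduction has trivial kernel. -/
theorem h1n_ker_of_det_unit (N : Matrix n n K) (hN : ∀ i j, N i j ∈ A)
    (hdet : N.det ≠ 0 ∧ (N.det)⁻¹ ∈ A) (c : n → K)
    (hNc : ∀ i, (N *ᵥ c) i ∈ A.nonunits) : ∀ j, c j ∈ A.nonunits := by
  classical
  intro j
  -- Cramer: `det N • c = adj N *ᵥ (N *ᵥ c)`
  have h1 : N.det • c = N.adjugate *ᵥ (N *ᵥ c) := by
    rw [Matrix.mulVec_mulVec, Matrix.adjugate_mul, Matrix.smul_mulVec, Matrix.one_mulVec]
  have hadj : ∀ i k, N.adjugate i k ∈ A := by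
    intro i k
    rw [Matrix.adjugate_apply]
    refine h1n_det_mem A _ fun a b => ?_
    rw [Matrix.updateRow_apply]
    split_ifs
    · rw [Pi.single_apply]
      split_ifs
      · exact A.one_mem
      · exact A.zero_mem
    · exact hN a b
  have h2 : N.det * c j ∈ A.nonunits := by
    have := congrFun h1 j
    rw [Pi.smul_apply, smul_eq_mul] at this
    rw [this]
    show ∑ k, N.adjugate j k * (N *ᵥ c) k ∈ A.nonunits
    exact h1n_nonunits_sum A _ _ fun k _ => h1n_nonunits_mul A (hadj j k) (hNc k)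
  have h3 : c j = (N.det)⁻¹ * (N.det * c j) := by
    rw [← mul_assoc, inv_mul_cancel₀ hdet.1, one_mul]
  rw [h3]
  exact h1n_nonunits_mul A hdet.2 h2

/-- **reduced jets independent `↔` unit determinant.** -/
theorem h1n_det_unit_iff (N : Matrix n n K) (hN : ∀ i j, N i j ∈ A) :
    (N.det ≠ 0 ∧ (N.det)⁻¹ ∈ A) ↔
      ∀ c : n → K, (∀ j, c j ∈ A) → (∀ i, (N *ᵥ c) i ∈ A.nonunits) → ∀ j, c j ∈ A.nonunits :=
  ⟨fun h c _ hNc => h1n_ker_of_det_unit A N hN h c hNc, fun h => h1n_det_unit A N hN h⟩

/-- a matrix over `A` with an inverse over `A` has unit determinant. -/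
theorem h1n_det_unit_of_inverse (N N' : Matrix n n K)
    (hN' : ∀ i j, N' i j ∈ A) (h : N' * N = 1) : N.det ≠ 0 ∧ (N.det)⁻¹ ∈ A := by
  have h1 : N'.det * N.det = 1 := by rw [← Matrix.det_mul, h, Matrix.det_one]
  have hne : N.det ≠ 0 := right_ne_zero_of_mul_eq_one h1
  refine ⟨hne, ?_⟩
  have h2 : (N.det)⁻¹ = N'.det := (eq_inv_of_mul_eq_one_left h1).symm
  rw [h2]
  exact h1n_det_mem A N' hN'

end JetDet

end Fermat.Agent.P5
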