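import Fermat.Agent.P5.H1Ord

/-!
# Wave 5, pillar (P), block A2 (helper1): quotients of function orders

`h1q_ord_quot` : for a function order `𝓗` on `M` (over a PID `R` with fraction field `F`,
`K/F` with fixed field `F`) and a surjective equivariant additive map `π : M → N`, the functions
`g : N → K` with `g ∘ π ∈ 𝓗` form a function order on `N`.

Ingredients: (1) a function with integral coefficients in a basis of `𝓗` which is equivariant
lies in `𝓗` (`h1q_mem_of_int_equivariant`); (2) the norm `x ↦ ∏_{m ∈ ker π} h (x + m)` of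
`h ∈ 𝓗` lies in `𝓗` and is invariant; this gives the separation of the points of `N`;
(3) the invariant part of `𝓗` is a saturated submodule, hence a direct summand; the retraction
gives the Sweedler form.
-/

set_option autoImplicit false
set_option linter.style.haveILetI false
set_option linter.unusedSectionVars false

namespace Fermat.Agent.P5

section Coef

variable {R F K M : Type*} [CommRing R] [IsDomain R] [IsPrincipalIdealRing R] [Field F] [Field K]
  [Algebra R F] [IsFractionRing R F] [Algebra F K] [Algebra R K] [IsScalarTower R F K]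
  [AddCommGroup M] [Finite M]

/-- a basis of the order which is a basis of all functions. -/
theorem h1q_basis
    (hfix : ∀ c : K, (∀ σ : K ≃ₐ[F] K, σ c = c) → c ∈ Set.range (algebraMap F K))
    {act : (K ≃ₐ[F] K) → M → M} {𝓗 : Subalgebra R (M → K)} (h : H1Ord R act 𝓗) :
    ∃ (n : ℕ) (b : Module.Basis (Fin n) R 𝓗) (B : Module.Basis (Fin n) K (M → K)),
      ∀ i, B i = ((b i : 𝓗) : M → K) := by
  obtain ⟨n, b, hli, hspan, -⟩ :=
    h98p_order_basis hfix act 𝓗 h.fg h.equivariant h.separates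
  exact ⟨n, b, Module.Basis.mk hli hspan.ge, fun i => by rw [Module.Basis.mk_apply]⟩

variable {n : ℕ} {𝓗 : Subalgebra R (M → K)} (b : Module.Basis (Fin n) R 𝓗)
  (B : Module.Basis (Fin n) K (M → K)) (hB : ∀ i, B i = ((b i : 𝓗) : M → K))

include hB in
theorem h1q_repr_of_mem {f : M → K} (hf : f ∈ 𝓗) (i : Fin n) :
    B.repr f i = algebraMap R K (b.repr ⟨f, hf⟩ i) := by
  have h1 : (⟨f, hf⟩ : 𝓗) = ∑ j, b.repr ⟨f, hf⟩ j • b j := (b.sum_repr _).symm
  have h2 : f = ∑ j, algebraMap R K (b.repr ⟨f, hf⟩ j) • B j := by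
    have := congrArg (fun g : 𝓗 => 𝓗.val.toLinearMap g) h1
    simp only [map_sum, map_smul] at this
    refine Eq.trans (show f = 𝓗.val.toLinearMap ⟨f, hf⟩ from rfl) (this.trans ?_)
    refine Finset.sum_congr rfl fun j _ => ?_
    rw [hB j]
    funext x
    simp [Algebra.smul_def]
  conv_lhs => rw [h2]
  rw [Module.Basis.repr_sum_self]

/-- `g` has integral coefficients in the basis `B`. -/
def h1q_Int (R : Type*) {K M : Type*} [CommRing R] [Field K] [Algebra R K] {n : ℕ}
    (B : Module.Basis (Fin n) K (M → K)) (g : M → K) : Prop :=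
  ∀ i, IsIntegral R (B.repr g i)

include hB in
theorem h1q_int_of_mem {f : M → K} (hf : f ∈ 𝓗) : h1q_Int R B f := fun i => by
  rw [h1q_repr_of_mem b B hB hf]
  exact isIntegral_algebraMap

omit [IsDomain R] [IsPrincipalIdealRing R] [AddCommGroup M] [Finite M] in
theorem h1q_int_add {g g' : M → K} (hg : h1q_Int R B g) (hg' : h1q_Int R B g') :
    h1q_Int R B (g + g') := fun i => by
  rw [map_add, Finsupp.add_apply]
  exact (hg i).add (hg' i)

omit [IsDomain R] [IsPrincipalIdealRing R] [AddCommGroup M] [Finite M] in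
theorem h1q_int_zero : h1q_Int R B (0 : M → K) := fun i => by
  rw [map_zero, Finsupp.zero_apply]
  exact isIntegral_zero

omit [IsDomain R] [IsPrincipalIdealRing R] [AddCommGroup M] [Finite M] in
theorem h1q_int_smul {c : K} (hc : IsIntegral R c) {g : M → K} (hg : h1q_Int R B g) :
    h1q_Int R B (c • g) := fun i => by
  rw [map_smul, Finsupp.smul_apply, smul_eq_mul]
  exact hc.mul (hg i)

omit [IsDomain R] [IsPrincipalIdealRing R] [AddCommGroup M] [Finite M] in
theorem h1q_int_sum {ι : Type*} (s : Finset ι) {g : ι → M → K}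
    (hg : ∀ j ∈ s, h1q_Int R B (g j)) : h1q_Int R B (∑ j ∈ s, g j) := by
  classical
  induction s using Finset.induction_on with
  | empty => rw [Finset.sum_empty]; exact h1q_int_zero B
  | insert j s hj ih =>
    rw [Finset.sum_insert hj]
    exact h1q_int_add B (hg j (Finset.mem_insert_self j s))
      (ih fun k hk => hg k (Finset.mem_insert_of_mem hk))

include hB in
theorem h1q_int_mul {g g' : M → K} (hg : h1q_Int R B g) (hg' : h1q_Int R B g') :
    h1q_Int R B (g * g') := by
  have e1 : g = ∑ i, B.repr g i • B i := (B.sum_repr g).symm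
  have e2 : g' = ∑ j, B.repr g' j • B j := (B.sum_repr g').symm
  have e3 : g * g' = ∑ i, ∑ j, (B.repr g i * B.repr g' j) • (B i * B j) := by
    conv_lhs => rw [e1, e2]
    rw [Finset.sum_mul_sum]
    refine Finset.sum_congr rfl fun i _ => Finset.sum_congr rfl fun j _ => ?_
    rw [smul_mul_smul_comm]
  rw [e3]
  refine h1q_int_sum B _ fun i _ => h1q_int_sum B _ fun j _ => ?_
  refine h1q_int_smul B ((hg i).mul (hg' j)) ?_
  rw [hB i, hB j]
  exact h1q_int_of_mem b B hB (𝓗.mul_mem (b i).2 (b j).2)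

include hB in
theorem h1q_int_prod {ι : Type*} (s : Finset ι) {g : ι → M → K}
    (hg : ∀ j ∈ s, h1q_Int R B (g j)) : h1q_Int R B (∏ j ∈ s, g j) := by
  classical
  induction s using Finset.induction_on with
  | empty =>
    rw [Finset.prod_empty]
    exact h1q_int_of_mem b B hB 𝓗.one_mem
  | insert j s hj ih =>
    rw [Finset.prod_insert hj]
    exact h1q_int_mul b B hB (hg j (Finset.mem_insert_self j s))
      (ih fun k hk => hg k (Finset.mem_insert_of_mem hk))

/-- values of elements of the order are integral. -/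
theorem h1q_isIntegral_apply (hfg : (Subalgebra.toSubmodule 𝓗).FG) {f : M → K} (hf : f ∈ 𝓗)
    (x : M) : IsIntegral R (f x) := by
  haveI : Module.Finite R 𝓗 :=
    (Module.Finite.iff_fg (N := Subalgebra.toSubmodule 𝓗)).mpr hfg
  have hint : IsIntegral R (⟨f, hf⟩ : 𝓗) := IsIntegral.of_finite R _
  have := hint.map ((Pi.evalAlgHom R (fun _ : M => K) x).comp 𝓗.val)
  simpa using this

include hB in
/-- **(1)** an equivariant function with integral coefficients lies in the order. -/
theorem h1q_mem_of_int_equivariant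
    (hfix : ∀ c : K, (∀ σ : K ≃ₐ[F] K, σ c = c) → c ∈ Set.range (algebraMap F K))
    {act : (K ≃ₐ[F] K) → M → M} (h : H1Ord R act 𝓗) {g : M → K} (hint : h1q_Int R B g)
    (heq : ∀ σ x, g (act σ x) = σ (g x)) : g ∈ 𝓗 := by
  -- the coefficients are fixed
  have hfixed : ∀ (σ : K ≃ₐ[F] K) i, σ (B.repr g i) = B.repr g i := by
    intro σ
    have hsurj := h98p_act_surjective act 𝓗 h.equivariant h.separates σ
    have e1 : g = ∑ i, B.repr g i • B i := (B.sum_repr g).symm
    have e2 : (∑ i, σ (B.repr g i) • B i) = g := by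
      funext y
      obtain ⟨x, rfl⟩ := hsurj y
      rw [heq σ x]
      conv_rhs => rw [e1]
      simp only [Finset.sum_apply, Pi.smul_apply, smul_eq_mul, map_sum, map_mul]
      refine Finset.sum_congr rfl fun i _ => ?_
      rw [hB i, h.equivariant _ (b i).2]
    intro i
    have e3 := congrArg (fun u => B.repr u i) e2
    simp only [Module.Basis.repr_sum_self] at e3
    exact e3
  -- hence in `R`
  have hR : ∀ i, ∃ r : R, algebraMap R K r = B.repr g i := by
    intro i
    obtain ⟨q, hq⟩ := hfix _ fun σ => hfixed σ i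
    have h1 : IsIntegral R (algebraMap F K q) := by rw [hq]; exact hint i
    have h2 : IsIntegral R q := (isIntegral_algebraMap_iff (algebraMap F K).injective).mp h1
    obtain ⟨r, hr⟩ := IsIntegrallyClosed.isIntegral_iff.mp h2
    exact ⟨r, by rw [IsScalarTower.algebraMap_apply R F K, hr, hq]⟩
  choose r hr using hR
  have e1 : g = ∑ i, r i • ((b i : 𝓗) : M → K) := by
    conv_lhs => rw [← B.sum_repr g]
    refine Finset.sum_congr rfl fun i _ => ?_
    rw [hB i, ← hr i]
    funext x
    simp [Algebra.smul_def]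
  rw [e1]
  exact 𝓗.sum_mem fun i _ => 𝓗.smul_mem (b i).2 _

end Coef

/-! ## the norm along a stable subgroup -/

section Norm

variable {R F K M : Type*} [CommRing R] [IsDomain R] [IsPrincipalIdealRing R] [Field F] [Field K]
  [Algebra R F] [IsFractionRing R F] [Algebra F K] [Algebra R K] [IsScalarTower R F K]
  [AddCommGroup M] [Finite M]

/-- the norm of a function along a subgroup: `x ↦ ∏_{m ∈ M'} f (x + m)`. -/
noncomputable def h1q_norm (M' : AddSubgroup M) (f : M → K) : M → K :=
  letI := Fintype.ofFinite M'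
  fun x => ∏ m : M', f (x + m)

omit [Finite M] in
theorem h1q_act_injective {act : (K ≃ₐ[F] K) → M → M} {𝓗 : Subalgebra R (M → K)}
    (h : H1Ord R act 𝓗) (σ : K ≃ₐ[F] K) : Function.Injective (act σ) := by
  intro x y hxy
  refine h.separates x y fun f hf => ?_
  have h1 := h.equivariant f hf σ x
  rw [hxy, h.equivariant f hf σ y] at h1
  exact (σ.injective h1).symm

omit [Finite M] in
theorem h1q_act_add {act : (K ≃ₐ[F] K) → M → M} {𝓗 : Subalgebra R (M → K)}
    (h : H1Ord R act 𝓗) (σ : K ≃ₐ[F] K) (x y : M) : act σ (x + y) = act σ x + act σ y :=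
  h98p_act_add act 𝓗 h.equivariant h.separates h.comul σ x y

omit [Finite M] in
theorem h1q_act_zero {act : (K ≃ₐ[F] K) → M → M} {𝓗 : Subalgebra R (M → K)}
    (h : H1Ord R act 𝓗) (σ : K ≃ₐ[F] K) : act σ 0 = 0 := by
  have h1 := h1q_act_add h σ 0 0
  rw [add_zero] at h1
  exact left_eq_add.mp h1

/-- the norm is invariant under translation by the subgroup. -/
theorem h1q_norm_inv (M' : AddSubgroup M) (f : M → K) (x : M) {m₀ : M} (hm₀ : m₀ ∈ M') :
    h1q_norm M' f (x + m₀) = h1q_norm M' f x := by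
  letI := Fintype.ofFinite M'
  show ∏ m : M', f (x + m₀ + m) = ∏ m : M', f (x + m)
  refine Fintype.prod_equiv (Equiv.addLeft (⟨m₀, hm₀⟩ : M')) _ _ fun m => ?_
  show f (x + m₀ + m) = f (x + ((⟨m₀, hm₀⟩ : M') + m : M'))
  rw [AddSubgroup.coe_add, add_assoc]

/-- the norm of an element of the order is equivariant. -/
theorem h1q_norm_equivariant {act : (K ≃ₐ[F] K) → M → M} {𝓗 : Subalgebra R (M → K)}
    (h : H1Ord R act 𝓗) (M' : AddSubgroup M) (hstab : ∀ σ, ∀ m ∈ M', act σ m ∈ M')
    {f : M → K} (hf : f ∈ 𝓗) (σ : K ≃ₐ[F] K) (x : M) :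
    h1q_norm M' f (act σ x) = σ (h1q_norm M' f x) := by
  letI := Fintype.ofFinite M'
  show ∏ m : M', f (act σ x + m) = σ (∏ m : M', f (x + m))
  rw [map_prod]
  have hinj : Function.Injective (fun m : M' => (⟨act σ m, hstab σ m m.2⟩ : M')) := by
    intro m m' hmm'
    exact Subtype.ext (h1q_act_injective h σ (congrArg Subtype.val hmm'))
  have hbij := Finite.injective_iff_bijective.mp hinj
  symm
  refine Fintype.prod_bijective _ hbij _ _ fun m => ?_
  show σ (f (x + m)) = f (act σ x + act σ m)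
  rw [← h1q_act_add h, h.equivariant f hf]

/-- translates of elements of the order have integral coefficients. -/
theorem h1q_int_translate {n : ℕ} {𝓗 : Subalgebra R (M → K)} (b : Module.Basis (Fin n) R 𝓗)
    (B : Module.Basis (Fin n) K (M → K)) (hB : ∀ i, B i = ((b i : 𝓗) : M → K))
    {act : (K ≃ₐ[F] K) → M → M} (h : H1Ord R act 𝓗) {f : M → K} (hf : f ∈ 𝓗) (m : M) :
    h1q_Int R B (fun x => f (x + m)) := by
  obtain ⟨k, a, c, ha, hc, hac⟩ := h.comul f hf
  have e : (fun x => f (x + m)) = ∑ j, c j m • a j := by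
    funext x
    rw [hac, Finset.sum_apply]
    refine Finset.sum_congr rfl fun j _ => ?_
    rw [Pi.smul_apply, smul_eq_mul, mul_comm]
  rw [e]
  exact h1q_int_sum B _ fun j _ =>
    h1q_int_smul B (h1q_isIntegral_apply h.fg (hc j) m) (h1q_int_of_mem b B hB (ha j))

/-- **(2)** the norm of an element of the order lies in the order. -/
theorem h1q_norm_mem
    (hfix : ∀ c : K, (∀ σ : K ≃ₐ[F] K, σ c = c) → c ∈ Set.range (algebraMap F K))
    {act : (K ≃ₐ[F] K) → M → M} {𝓗 : Subalgebra R (M → K)}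
    (h : H1Ord R act 𝓗) (M' : AddSubgroup M) (hstab : ∀ σ, ∀ m ∈ M', act σ m ∈ M')
    {f : M → K} (hf : f ∈ 𝓗) : h1q_norm M' f ∈ 𝓗 := by
  obtain ⟨n, b, B, hB⟩ := h1q_basis hfix h
  refine h1q_mem_of_int_equivariant b B hB hfix h ?_ (h1q_norm_equivariant h M' hstab hf)
  letI := Fintype.ofFinite M'
  have e : h1q_norm M' f = ∏ m : M', (fun x => f (x + m)) := by
    funext x
    rw [Finset.prod_apply]
    rfl
  rw [e]
  exact h1q_int_prod b B hB _ fun m _ => h1q_int_translate b B hB h hf m

/-- the values of `f` on the coset of `x` are values on the coset of `y`, if all invariant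
elements of the order agree at `x` and `y`. -/
theorem h1q_exists_translate [Infinite R]
    (hfix : ∀ c : K, (∀ σ : K ≃ₐ[F] K, σ c = c) → c ∈ Set.range (algebraMap F K))
    {act : (K ≃ₐ[F] K) → M → M} {𝓗 : Subalgebra R (M → K)}
    (h : H1Ord R act 𝓗) (M' : AddSubgroup M) (hstab : ∀ σ, ∀ m ∈ M', act σ m ∈ M')
    (x y : M) (hxy : ∀ g ∈ 𝓗, (∀ z, ∀ m ∈ M', g (z + m) = g z) → g x = g y)
    {f : M → K} (hf : f ∈ 𝓗) : ∃ m : M', f x = f (y + m) := by
  classical
  letI := Fintype.ofFinite M'
  have hinjRK : Function.Injective (algebraMap R K) := h98p_algebraMap_injective F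
  -- the two polynomials
  set P : M → Polynomial K := fun z => ∏ m : M', (Polynomial.X - Polynomial.C (f (z + m)))
    with hP
  have hval : ∀ c : R, Polynomial.eval (algebraMap R K c) (P x) =
      Polynomial.eval (algebraMap R K c) (P y) := by
    intro c
    have hcf : algebraMap R (M → K) c - f ∈ 𝓗 := 𝓗.sub_mem (𝓗.algebraMap_mem c) hf
    have h1 := hxy _ (h1q_norm_mem hfix h M' hstab hcf)
      (fun z m hm => h1q_norm_inv M' _ z hm)
    have h2 : ∀ z, h1q_norm M' (algebraMap R (M → K) c - f) z =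
        Polynomial.eval (algebraMap R K c) (P z) := by
      intro z
      rw [hP, Polynomial.eval_prod]
      show ∏ m : M', (algebraMap R (M → K) c - f) (z + m) = _
      refine Finset.prod_congr rfl fun m _ => ?_
      simp
    rw [← h2 x, ← h2 y, h1]
  have hPeq : P x = P y := by
    refine Polynomial.eq_of_infinite_eval_eq _ _ ?_
    refine Set.Infinite.mono (s := Set.range (algebraMap R K)) ?_
      (Set.infinite_range_of_injective hinjRK)
    rintro _ ⟨c, rfl⟩
    exact hval c
  have h0 : Polynomial.eval (f x) (P x) = 0 := by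
    rw [hP, Polynomial.eval_prod]
    refine Finset.prod_eq_zero (Finset.mem_univ (0 : M')) ?_
    simp
  rw [hPeq, hP, Polynomial.eval_prod, Finset.prod_eq_zero_iff] at h0
  obtain ⟨m, -, hm⟩ := h0
  refine ⟨m, ?_⟩
  simpa [sub_eq_zero] using hm

/-- **separation modulo the subgroup.** -/
theorem h1q_sep_mod [Infinite R]
    (hfix : ∀ c : K, (∀ σ : K ≃ₐ[F] K, σ c = c) → c ∈ Set.range (algebraMap F K))
    {act : (K ≃ₐ[F] K) → M → M} {𝓗 : Subalgebra R (M → K)}
    (h : H1Ord R act 𝓗) (M' : AddSubgroup M) (hstab : ∀ σ, ∀ m ∈ M', act σ m ∈ M')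
    (x y : M) (hxy : ∀ g ∈ 𝓗, (∀ z, ∀ m ∈ M', g (z + m) = g z) → g x = g y) :
    x - y ∈ M' := by
  classical
  letI := Fintype.ofFinite M'
  have hinjRK : Function.Injective (algebraMap R K) := h98p_algebraMap_injective F
  -- the covering by kernels
  let L : M' → (𝓗 →ₗ[R] K) := fun m =>
    ((LinearMap.proj x : (M → K) →ₗ[R] K) - LinearMap.proj (y + (m : M))) ∘ₗ 𝓗.val.toLinearMap
  have hL : ∀ (m : M') (f : 𝓗), L m f = (f : M → K) x - (f : M → K) (y + m) := fun m f => rfl
  have hcov : ⋃ m ∈ (Finset.univ : Finset M'), ((LinearMap.ker (L m) : Submodule R 𝓗) : Set 𝓗) =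
      Set.univ := by
    rw [Set.eq_univ_iff_forall]
    intro f
    obtain ⟨m, hm⟩ := h1q_exists_translate hfix h M' hstab x y hxy f.2
    refine Set.mem_biUnion (Finset.mem_univ m) ?_
    show L m f = 0
    rw [hL, hm, sub_self]
  obtain ⟨m, -, hfi⟩ := Submodule.exists_finiteIndex_of_cover hcov
  haveI : Finite (𝓗 ⧸ LinearMap.ker (L m)) :=
    AddSubgroup.finite_quotient_of_finiteIndex (H := (LinearMap.ker (L m)).toAddSubgroup)
  have htop : ∀ f : 𝓗, L m f = 0 := by
    intro f
    by_contra hne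
    have hinj : Function.Injective
        (fun r : R => (Submodule.Quotient.mk (r • f) : 𝓗 ⧸ LinearMap.ker (L m))) := by
      intro r r' hrr'
      have h1 : r • f - r' • f ∈ LinearMap.ker (L m) :=
        (Submodule.Quotient.eq _).mp hrr'
      rw [LinearMap.mem_ker, map_sub, map_smul, map_smul, ← sub_smul, Algebra.smul_def,
        mul_eq_zero] at h1
      rcases h1 with h1 | h1
      · rw [← map_zero (algebraMap R K)] at h1
        exact sub_eq_zero.mp (hinjRK h1)
      · exact absurd h1 hne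
    haveI : Finite R := Finite.of_injective _ hinj
    exact not_finite R
  have hxm : x = y + m := h.separates _ _ fun f hf => by
    have := htop ⟨f, hf⟩
    rw [hL] at this
    exact sub_eq_zero.mp this
  rw [hxm, add_sub_cancel_left]
  exact m.2

end Norm

/-! ## the retraction onto the invariant part -/

section Retract

variable {R F K M : Type*} [CommRing R] [IsDomain R] [IsPrincipalIdealRing R] [Field F] [Field K]
  [Algebra R F] [IsFractionRing R F] [Algebra F K] [Algebra R K] [IsScalarTower R F K]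
  [AddCommGroup M] [Finite M]

/-- the invariant part of the order, as a submodule of the order. -/
def h1q_invPart (𝓗 : Subalgebra R (M → K)) (M' : AddSubgroup M) : Submodule R 𝓗 where
  carrier := {f | ∀ z, ∀ m ∈ M', (f : M → K) (z + m) = (f : M → K) z}
  add_mem' {f g} hf hg z m hm := by
    show (f : M → K) (z + m) + (g : M → K) (z + m) = (f : M → K) z + (g : M → K) z
    rw [hf z m hm, hg z m hm]
  zero_mem' z m _ := rfl
  smul_mem' r f hf z m hm := by
    show (r • (f : M → K)) (z + m) = (r • (f : M → K)) z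
    rw [Pi.smul_apply, Pi.smul_apply, hf z m hm]

omit [IsDomain R] [IsPrincipalIdealRing R] [Finite M] [IsFractionRing R F] [Algebra R F]
  [IsScalarTower R F K] [Algebra F K] [Field F] in
theorem h1q_mem_invPart {𝓗 : Subalgebra R (M → K)} {M' : AddSubgroup M} (f : 𝓗) :
    f ∈ h1q_invPart 𝓗 M' ↔ ∀ z, ∀ m ∈ M', (f : M → K) (z + m) = (f : M → K) z := Iff.rfl

omit [IsPrincipalIdealRing R] [Finite M] [IsFractionRing R F] [Algebra R F]
  [IsScalarTower R F K] [Algebra F K] [Field F] in
/-- the invariant part is saturated. -/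
theorem h1q_invPart_torsionFree (hinjRK : Function.Injective (algebraMap R K))
    (𝓗 : Subalgebra R (M → K)) (M' : AddSubgroup M) :
    Module.IsTorsionFree R (𝓗 ⧸ h1q_invPart 𝓗 M') := by
  refine ⟨fun r hr q₁ q₂ hq => ?_⟩
  obtain ⟨f₁, rfl⟩ := Submodule.Quotient.mk_surjective _ q₁
  obtain ⟨f₂, rfl⟩ := Submodule.Quotient.mk_surjective _ q₂
  have hr0 : algebraMap R K r ≠ 0 := by
    rw [Ne, ← map_zero (algebraMap R K)]
    exact fun h => hr.ne_zero (hinjRK h)
  have h1 : r • f₁ - r • f₂ ∈ h1q_invPart 𝓗 M' := by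
    rw [← Submodule.Quotient.eq]
    exact hq
  rw [Submodule.Quotient.eq]
  intro z m hm
  have h2 := h1 z m hm
  have h3 : ∀ w, ((r • f₁ - r • f₂ : 𝓗) : M → K) w =
      algebraMap R K r * ((f₁ - f₂ : 𝓗) : M → K) w := by
    intro w
    show r • (f₁ : M → K) w - r • (f₂ : M → K) w = _ * ((f₁ : M → K) w - (f₂ : M → K) w)
    rw [Algebra.smul_def, Algebra.smul_def, mul_sub]
  rw [h3, h3] at h2
  exact mul_left_cancel₀ hr0 h2

/-- **(3)** a `K`-linear retraction of the functions onto the invariant functions which maps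
the order into its invariant part. -/
theorem h1q_retraction
    (hfix : ∀ c : K, (∀ σ : K ≃ₐ[F] K, σ c = c) → c ∈ Set.range (algebraMap F K))
    {act : (K ≃ₐ[F] K) → M → M} {𝓗 : Subalgebra R (M → K)}
    (h : H1Ord R act 𝓗) (M' : AddSubgroup M)
    (hspan : ∀ g : M → K, (∀ z, ∀ m ∈ M', g (z + m) = g z) →
      g ∈ Submodule.span K {f : M → K | f ∈ 𝓗 ∧ ∀ z, ∀ m ∈ M', f (z + m) = f z}) :
    ∃ ρ : (M → K) →ₗ[K] (M → K),
      (∀ f ∈ 𝓗, ρ f ∈ 𝓗 ∧ ∀ z, ∀ m ∈ M', ρ f (z + m) = ρ f z) ∧
      ∀ g : M → K, (∀ z, ∀ m ∈ M', g (z + m) = g z) → ρ g = g := by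
  classical
  haveI : Module.Finite R 𝓗 :=
    (Module.Finite.iff_fg (N := Subalgebra.toSubmodule 𝓗)).mpr h.fg
  haveI := h1q_invPart_torsionFree (h98p_algebraMap_injective (R := R) (K := K) F) 𝓗 M'
  set T := h1q_invPart 𝓗 M' with hT
  obtain ⟨s, hs⟩ := Module.projective_lifting_property T.mkQ LinearMap.id
    (Submodule.mkQ_surjective T)
  let ρR : 𝓗 →ₗ[R] 𝓗 := LinearMap.id - s ∘ₗ T.mkQ
  have hρT : ∀ f : 𝓗, ρR f ∈ T := by
    intro f
    rw [← Submodule.Quotient.mk_eq_zero, ← Submodule.mkQ_apply]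
    show T.mkQ (f - s (T.mkQ f)) = 0
    rw [map_sub]
    have := congrArg (fun φ : (𝓗 ⧸ T) →ₗ[R] (𝓗 ⧸ T) => φ (T.mkQ f)) hs
    simp only [LinearMap.comp_apply, LinearMap.id_apply] at this
    rw [this, sub_self]
  have hρid : ∀ f : 𝓗, f ∈ T → ρR f = f := by
    intro f hf
    show f - s (T.mkQ f) = f
    rw [Submodule.mkQ_apply, (Submodule.Quotient.mk_eq_zero T).mpr hf, map_zero, sub_zero]
  obtain ⟨n, b, B, hB⟩ := h1q_basis hfix h
  let ρ : (M → K) →ₗ[K] (M → K) := B.constr K (fun i => ((ρR (b i) : 𝓗) : M → K))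
  have hρB : ∀ i, ρ (B i) = ((ρR (b i) : 𝓗) : M → K) := fun i => by
    show B.constr K _ (B i) = _
    rw [Module.Basis.constr_basis]
  have hρ𝓗 : ∀ (f : M → K) (hf : f ∈ 𝓗), ρ f = ((ρR ⟨f, hf⟩ : 𝓗) : M → K) := by
    intro f hf
    have e1 : f = ∑ i, algebraMap R K (b.repr ⟨f, hf⟩ i) • B i := by
      conv_lhs => rw [← B.sum_repr f]
      refine Finset.sum_congr rfl fun i _ => ?_
      rw [h1q_repr_of_mem b B hB hf]
    have e2 : (⟨f, hf⟩ : 𝓗) = ∑ i, b.repr ⟨f, hf⟩ i • b i := (b.sum_repr _).symm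
    conv_lhs => rw [e1]
    conv_rhs => rw [e2]
    rw [map_sum, map_sum]
    have e3 : ∀ u : Finset (Fin n), ∀ v : Fin n → 𝓗,
        (((∑ i ∈ u, v i : 𝓗)) : M → K) = ∑ i ∈ u, ((v i : 𝓗) : M → K) := by
      intro u v
      exact map_sum 𝓗.val.toLinearMap v u
    rw [e3]
    refine Finset.sum_congr rfl fun i _ => ?_
    rw [map_smul, map_smul, hρB]
    funext x
    simp [Algebra.smul_def]
  refine ⟨ρ, fun f hf => ?_, fun g hg => ?_⟩
  · rw [hρ𝓗 f hf]
    exact ⟨(ρR ⟨f, hf⟩).2, hρT ⟨f, hf⟩⟩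
  · have key : ∀ u : M → K,
        u ∈ Submodule.span K {f : M → K | f ∈ 𝓗 ∧ ∀ z, ∀ m ∈ M', f (z + m) = f z} →
          ρ u = u := by
      intro u hu
      induction hu using Submodule.span_induction with
      | mem f hf =>
        obtain ⟨hf1, hf2⟩ := hf
        rw [hρ𝓗 f hf1, hρid ⟨f, hf1⟩ hf2]
      | zero => exact map_zero ρ
      | add u v _ _ hu hv => rw [map_add, hu, hv]
      | smul c u _ hu => rw [map_smul, hu]
    exact key g (hspan g hg)

end Retract

/-! ## the quotient order -/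

section Quot

variable {R F K M N : Type*} [CommRing R] [IsDomain R] [IsPrincipalIdealRing R] [Infinite R]
  [Field F] [Field K] [Algebra R F] [IsFractionRing R F] [Algebra F K] [Algebra R K]
  [IsScalarTower R F K] [AddCommGroup M] [Finite M] [AddCommGroup N]

/-- the functions on `N` whose pull-back to `M` lies in the order. -/
noncomputable def h1q_quotAlg (𝓗 : Subalgebra R (M → K)) (π : M → N) : Subalgebra R (N → K) :=
  𝓗.comap (h1s_pre R K π)

omit [IsDomain R] [IsPrincipalIdealRing R] [Infinite R] [Field F] [Algebra R F]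
  [IsFractionRing R F] [Algebra F K] [IsScalarTower R F K] [AddCommGroup M] [Finite M]
  [AddCommGroup N] in
theorem h1q_mem_quotAlg {𝓗 : Subalgebra R (M → K)} {π : M → N} (g : N → K) :
    g ∈ h1q_quotAlg 𝓗 π ↔ (fun x => g (π x)) ∈ 𝓗 := Iff.rfl

omit [Finite M] in
/-- an invariant function descends. -/
theorem h1q_descend (π : M →+ N) (hπ : Function.Surjective π) (g₀ : M → K)
    (hg₀ : ∀ z, ∀ m ∈ π.ker, g₀ (z + m) = g₀ z) : ∃ g : N → K, ∀ z, g (π z) = g₀ z := by
  refine ⟨fun n => g₀ (Function.surjInv hπ n), fun z => ?_⟩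
  have h1 : π (Function.surjInv hπ (π z)) = π z := Function.surjInv_eq hπ _
  have h2 : Function.surjInv hπ (π z) - z ∈ π.ker := by
    rw [AddMonoidHom.mem_ker, map_sub, h1, sub_self]
  have := hg₀ z _ h2
  rw [add_sub_cancel] at this
  exact this.symm ▸ rfl

/-- **A2-QUOT.** The quotient of a function order along a surjective, equivariant, additive
map. -/
theorem h1q_ord_quot
    (hfix : ∀ c : K, (∀ σ : K ≃ₐ[F] K, σ c = c) → c ∈ Set.range (algebraMap F K))
    {act : (K ≃ₐ[F] K) → M → M} {𝓗 : Subalgebra R (M → K)} (h : H1Ord R act 𝓗)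
    (π : M →+ N) (hπ : Function.Surjective π) (actN : (K ≃ₐ[F] K) → N → N)
    (hact : ∀ σ x, actN σ (π x) = π (act σ x)) :
    H1Ord R actN (h1q_quotAlg 𝓗 π) := by
  classical
  haveI : Finite N := Finite.of_surjective π hπ
  have hstab : ∀ σ, ∀ m ∈ π.ker, act σ m ∈ π.ker := by
    intro σ m hm
    rw [AddMonoidHom.mem_ker] at hm ⊢
    rw [← hact, hm, ← map_zero π, hact, h1q_act_zero h]
  -- separation
  have hsep : ∀ n n' : N, (∀ g ∈ h1q_quotAlg 𝓗 π, g n = g n') → n = n' := by
    intro n n' hnn'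
    obtain ⟨x, rfl⟩ := hπ n
    obtain ⟨y, rfl⟩ := hπ n'
    have h1 := h1q_sep_mod hfix h π.ker hstab x y (fun g₀ hg₀ hinv => by
      obtain ⟨g, hg⟩ := h1q_descend (K := K) π hπ g₀ hinv
      have hmem : g ∈ h1q_quotAlg 𝓗 π := by
        rw [h1q_mem_quotAlg]
        have : (fun x => g (π x)) = g₀ := funext hg
        rw [this]
        exact hg₀
      have := hnn' g hmem
      rw [hg, hg] at this
      exact this)
    rw [AddMonoidHom.mem_ker, map_sub, sub_eq_zero] at h1
    exact h1
  -- span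
  have hspanN : Submodule.span K ((h1q_quotAlg 𝓗 π : Subalgebra R (N → K)) : Set (N → K)) = ⊤ :=
    h98p_order_span _ hsep
  have hspan : ∀ g₀ : M → K, (∀ z, ∀ m ∈ π.ker, g₀ (z + m) = g₀ z) →
      g₀ ∈ Submodule.span K {f : M → K | f ∈ 𝓗 ∧ ∀ z, ∀ m ∈ π.ker, f (z + m) = f z} := by
    intro g₀ hinv
    obtain ⟨g, hg⟩ := h1q_descend (K := K) π hπ g₀ hinv
    have h1 : g ∈ Submodule.span K ((h1q_quotAlg 𝓗 π : Subalgebra R (N → K)) : Set (N → K)) := by
      rw [hspanN]
      trivial
    have h2 : g₀ = (h1s_pre K K π).toLinearMap g := (funext hg).symm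
    rw [h2]
    have h3 := Submodule.mem_map_of_mem (f := (h1s_pre K K π).toLinearMap) h1
    rw [Submodule.map_span] at h3
    refine Submodule.span_mono ?_ h3
    rintro _ ⟨u, hu, rfl⟩
    refine ⟨hu, fun z m hm => ?_⟩
    show u (π (z + m)) = u (π z)
    rw [map_add, (AddMonoidHom.mem_ker).mp hm, add_zero]
  obtain ⟨ρ, hρ1, hρ2⟩ := h1q_retraction hfix h π.ker hspan
  refine ⟨?_, ?_, hsep, ?_⟩
  · -- finite generation
    haveI : Module.Finite R 𝓗 :=
      (Module.Finite.iff_fg (N := Subalgebra.toSubmodule 𝓗)).mpr h.fg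
    let ℓ : (h1q_quotAlg 𝓗 π) →ₗ[R] 𝓗 :=
      ((h1s_pre R K π).toLinearMap.domRestrict
        (Subalgebra.toSubmodule (h1q_quotAlg 𝓗 π))).codRestrict (Subalgebra.toSubmodule 𝓗)
        (fun g => g.2)
    have hℓ : Function.Injective ℓ := by
      intro g g' hgg'
      apply Subtype.ext
      funext n
      obtain ⟨x, rfl⟩ := hπ n
      have := congrArg (fun u : 𝓗 => (u : M → K) x) hgg'
      exact this
    haveI : IsNoetherian R (h1q_quotAlg 𝓗 π) := isNoetherian_of_injective ℓ hℓ
    exact (Module.Finite.iff_fg (N := Subalgebra.toSubmodule (h1q_quotAlg 𝓗 π))).mp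
      inferInstance
  · -- equivariance
    intro g hg σ n
    obtain ⟨x, rfl⟩ := hπ n
    rw [hact]
    exact h.equivariant _ hg σ x
  · -- Sweedler form
    intro g hg
    obtain ⟨k, a, c, ha, hc, hac⟩ := h.comul _ hg
    have hac' : ∀ x y : M, g (π x + π y) = ∑ j, a j x * c j y := by
      intro x y
      rw [← map_add]
      exact hac x y
    -- first variable
    have s1 : ∀ x y : M, g (π x + π y) = ∑ j, ρ (a j) x * c j y := by
      intro x y
      have e1 : (fun x => g (π x + π y)) = ∑ j, c j y • a j := by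
        funext x
        rw [hac', Finset.sum_apply]
        refine Finset.sum_congr rfl fun j _ => ?_
        rw [Pi.smul_apply, smul_eq_mul, mul_comm]
      have e2 : ρ (fun x => g (π x + π y)) = fun x => g (π x + π y) := by
        refine hρ2 _ fun z m hm => ?_
        show g (π (z + m) + π y) = g (π z + π y)
        rw [map_add, (AddMonoidHom.mem_ker).mp hm, add_zero]
      have e3 := congrFun e2 x
      rw [e1, map_sum] at e3
      simp only [map_smul, Finset.sum_apply, Pi.smul_apply, smul_eq_mul] at e3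
      rw [← e3]
      refine Finset.sum_congr rfl fun j _ => mul_comm _ _
    -- second variable
    have s2 : ∀ x y : M, g (π x + π y) = ∑ j, ρ (a j) x * ρ (c j) y := by
      intro x y
      have e1 : (fun y => g (π x + π y)) = ∑ j, ρ (a j) x • c j := by
        funext y
        rw [s1, Finset.sum_apply]
        refine Finset.sum_congr rfl fun j _ => ?_
        rw [Pi.smul_apply, smul_eq_mul]
      have e2 : ρ (fun y => g (π x + π y)) = fun y => g (π x + π y) := by
        refine hρ2 _ fun z m hm => ?_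
        show g (π x + π (z + m)) = g (π x + π z)
        rw [map_add, (AddMonoidHom.mem_ker).mp hm, add_zero]
      have e3 := congrFun e2 y
      rw [e1, map_sum] at e3
      simp only [map_smul, Finset.sum_apply, Pi.smul_apply, smul_eq_mul] at e3
      rw [← e3]
    -- descend
    have hdesc : ∀ j, ∃ u : N → K, u ∈ h1q_quotAlg 𝓗 π ∧ ∀ z, u (π z) = ρ (a j) z := by
      intro j
      obtain ⟨u, hu⟩ := h1q_descend (K := K) π hπ (ρ (a j)) (hρ1 _ (ha j)).2
      refine ⟨u, ?_, hu⟩
      rw [h1q_mem_quotAlg]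
      have : (fun x => u (π x)) = ρ (a j) := funext hu
      rw [this]
      exact (hρ1 _ (ha j)).1
    have hdesc' : ∀ j, ∃ u : N → K, u ∈ h1q_quotAlg 𝓗 π ∧ ∀ z, u (π z) = ρ (c j) z := by
      intro j
      obtain ⟨u, hu⟩ := h1q_descend (K := K) π hπ (ρ (c j)) (hρ1 _ (hc j)).2
      refine ⟨u, ?_, hu⟩
      rw [h1q_mem_quotAlg]
      have : (fun x => u (π x)) = ρ (c j) := funext hu
      rw [this]
      exact (hρ1 _ (hc j)).1
    choose a' ha' ha'' using hdesc
    choose c' hc' hc'' using hdesc'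
    refine ⟨k, a', c', ha', hc', fun n n' => ?_⟩
    obtain ⟨x, rfl⟩ := hπ n
    obtain ⟨y, rfl⟩ := hπ n'
    rw [s2]
    refine Finset.sum_congr rfl fun j _ => ?_
    rw [ha'', hc'']

end Quot

end Fermat.Agent.P5
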