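import Mathlib

/-!
# P5 (wave 5, S19), block GEO-RR: integral bases by evaluation (helper22)

Mathlib only.  `A` a valuation subring of a field `K` (ANY valuation subring: no discreteness,
no completeness, no finite generation), `V` a finite-dimensional `K`-vector space and
`ev j : V →ₗ[K] K` finitely many linear forms which are jointly injective.  Put
`V_int = {v | ∀ j, ev j v ∈ A}` (the unit ball of the max-norm `v ↦ max_j |ev j v|`).

* `h22g_exists_basis` : `V` has a basis `b` with `b i ∈ V_int` such that
  `∑ c i • b i ∈ V_int → ∀ i, c i ∈ A`: the lattice `V_int` is FREE over `A` with basis `b`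
  (Gaussian elimination with a pivot of maximal absolute value).
* `h22g_coeff_mem_of_dvd`, `h22g_coeff_nonunit` : the same with `a • A` resp. `𝔪_A` in place of
  `A` (so the reductions of the `b i` modulo `𝔪_A` are linearly independent over the residue
  field).

Intended use (GEO-RR / Link): `V = L(E)`, `ev j =` the values at `deg E + 1` points `R j` with
pairwise distinct good reductions outside the reduction of the support of `E`.  A function of
Gauss norm `1` in `L(E)` cannot be `≡ 0` at all the `R j` (its reduction would have more zeros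
than poles), hence the Gauss norm on `L(E)` is the max-norm of the values at the `R j`, and
`h22g_exists_basis` gives an ORTHONORMAL basis of `L(E)` for the Gauss norm, whose reductions are
linearly independent elements of `L~(E~)`.
-/

set_option autoImplicit false
set_option linter.style.haveILetI false
set_option linter.deprecated false

namespace Fermat.Agent.P5

open Module

variable {K : Type*} [Field K]

/-- **Integral basis by evaluation.** -/
theorem h22g_exists_basis (A : ValuationSubring K) {ι : Type*} [Finite ι] :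
    ∀ (n : ℕ) (V : Type*) [AddCommGroup V] [Module K V] [FiniteDimensional K V]
      (ev : ι → V →ₗ[K] K), finrank K V = n →
      (∀ v : V, (∀ j, ev j v = 0) → v = 0) →
      ∃ b : Basis (Fin n) K V, (∀ i j, ev j (b i) ∈ A) ∧
        ∀ c : Fin n → K, (∀ j, ev j (∑ i, c i • b i) ∈ A) → ∀ i, c i ∈ A := by
  intro n
  induction n with
  | zero =>
    intro V _ _ _ ev hn _
    haveI : Subsingleton V := Module.finrank_zero_iff.mp hn
    exact ⟨Basis.empty V, fun i => i.elim0, fun _ _ i => i.elim0⟩
  | succ n ih =>
    intro V _ _ _ ev hn hinj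
    haveI : Nontrivial V := Module.nontrivial_of_finrank_eq_succ hn
    obtain ⟨v, hv⟩ := exists_ne (0 : V)
    have hne : ∃ j, ev j v ≠ 0 := by
      by_contra h
      push Not at h
      exact hv (hinj v h)
    obtain ⟨j1, hj1⟩ := hne
    haveI : Nonempty ι := ⟨j1⟩
    obtain ⟨j0, hj0⟩ := Finite.exists_max (fun j => A.valuation (ev j v))
    have hj0ne : ev j0 v ≠ 0 := by
      intro h0
      have h1 := hj0 j1
      rw [h0, map_zero] at h1
      exact hj1 ((A.valuation).zero_iff.mp (le_antisymm h1 zero_le'))
    set b0 : V := (ev j0 v)⁻¹ • v with hb0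
    have hb0one : ev j0 b0 = 1 := by
      rw [hb0, map_smul, smul_eq_mul, inv_mul_cancel₀ hj0ne]
    have hb0int : ∀ j, ev j b0 ∈ A := by
      intro j
      rw [hb0, map_smul, smul_eq_mul, ← A.valuation_le_one_iff, map_mul, map_inv₀]
      have hpos : A.valuation (ev j0 v) ≠ 0 := (A.valuation).ne_zero_iff.mpr hj0ne
      rw [inv_mul_le_iff₀ (lt_of_le_of_ne zero_le' hpos.symm), mul_one]
      exact hj0 j
    set V' : Submodule K V := LinearMap.ker (ev j0) with hV'
    have hsurj : Function.Surjective (ev j0) := by
      intro c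
      exact ⟨c • b0, by rw [map_smul, hb0one, smul_eq_mul, mul_one]⟩
    have hrank : finrank K V' = n := by
      have h1 := LinearMap.finrank_range_add_finrank_ker (ev j0)
      rw [LinearMap.range_eq_top.mpr hsurj, finrank_top, Module.finrank_self, hn] at h1
      have h2 : finrank K V' = finrank K (LinearMap.ker (ev j0)) := rfl
      omega
    obtain ⟨b', hb'int, hb'co⟩ := ih V' (fun j => (ev j).comp V'.subtype) hrank (by
      intro w hw
      exact Subtype.ext (hinj w hw))
    have hli : ∀ (c : K) (x : V), x ∈ V' → c • b0 + x = 0 → c = 0 := by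
      intro c x hx hcx
      have h1 := congrArg (ev j0) hcx
      rw [map_add, map_smul, hb0one, LinearMap.mem_ker.mp hx, map_zero, add_zero, smul_eq_mul,
        mul_one] at h1
      exact h1
    have hsp : ∀ z : V, ∃ c : K, z + c • b0 ∈ V' := by
      intro z
      refine ⟨-(ev j0 z), ?_⟩
      rw [hV', LinearMap.mem_ker, map_add, map_smul, hb0one, smul_eq_mul, mul_one,
        add_neg_cancel]
    refine ⟨Basis.mkFinCons b0 b' hli hsp, ?_, ?_⟩
    · intro i j
      rw [Basis.coe_mkFinCons]
      refine Fin.cases ?_ (fun k => ?_) i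
      · rw [Fin.cons_zero]
        exact hb0int j
      · rw [Fin.cons_succ]
        exact hb'int k j
    · intro c hc
      have hsum : ∑ i, c i • (Basis.mkFinCons b0 b' hli hsp) i =
          c 0 • b0 + ((∑ k : Fin n, c k.succ • b' k : V') : V) := by
        rw [Fin.sum_univ_succ, Basis.coe_mkFinCons, Fin.cons_zero]
        congr 1
        rw [Submodule.coe_sum]
        refine Finset.sum_congr rfl fun k _ => ?_
        rw [Fin.cons_succ, Function.comp_apply, Submodule.coe_smul]
      have hc0 : c 0 ∈ A := by
        have h1 := hc j0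
        rw [hsum, map_add, map_smul, hb0one, smul_eq_mul, mul_one,
          LinearMap.mem_ker.mp (∑ k : Fin n, c k.succ • b' k : V').2, add_zero] at h1
        exact h1
      have hrest : ∀ k : Fin n, c k.succ ∈ A := by
        apply hb'co (fun k => c k.succ)
        intro j
        have h1 := hc j
        rw [hsum, map_add, map_smul, smul_eq_mul] at h1
        have h2 : ev j ((∑ k : Fin n, c k.succ • b' k : V') : V) =
            (c 0 * ev j b0 + ev j ((∑ k : Fin n, c k.succ • b' k : V') : V)) -
              c 0 * ev j b0 := by ring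
        show ev j ((∑ k : Fin n, c k.succ • b' k : V') : V) ∈ A
        rw [h2]
        exact sub_mem h1 (mul_mem hc0 (hb0int j))
      intro i
      refine Fin.cases hc0 (fun k => hrest k) i

/-- The same with `a • A` in place of `A`. -/
theorem h22g_coeff_mem_of_dvd (A : ValuationSubring K) {ι : Type*} {n : ℕ}
    {V : Type*} [AddCommGroup V] [Module K V] (ev : ι → V →ₗ[K] K) (b : Fin n → V)
    (hb : ∀ c : Fin n → K, (∀ j, ev j (∑ i, c i • b i) ∈ A) → ∀ i, c i ∈ A)
    (a : K) (ha : a ≠ 0) (c : Fin n → K)
    (hc : ∀ j, ∃ y ∈ A, ev j (∑ i, c i • b i) = a * y) : ∀ i, ∃ y ∈ A, c i = a * y := by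
  have h1 : ∀ i, a⁻¹ * c i ∈ A := by
    apply hb (fun i => a⁻¹ * c i)
    intro j
    obtain ⟨y, hy, hyj⟩ := hc j
    have h2 : ∑ i, (a⁻¹ * c i) • b i = a⁻¹ • ∑ i, c i • b i := by
      rw [Finset.smul_sum]
      exact Finset.sum_congr rfl fun i _ => by rw [mul_smul]
    rw [h2, map_smul, hyj, smul_eq_mul, ← mul_assoc, inv_mul_cancel₀ ha, one_mul]
    exact hy
  intro i
  exact ⟨a⁻¹ * c i, h1 i, by rw [← mul_assoc, mul_inv_cancel₀ ha, one_mul]⟩

/-- Reductions are linearly independent: if all the values of `∑ c i • b i` are non-units of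
`A` (and `A ≠ K`), then all the coefficients are non-units of `A`. -/
theorem h22g_coeff_nonunit (A : ValuationSubring K) (hA : ∃ x : K, x ∉ A)
    {ι : Type*} [Finite ι] {n : ℕ}
    {V : Type*} [AddCommGroup V] [Module K V] (ev : ι → V →ₗ[K] K) (b : Fin n → V)
    (hb : ∀ c : Fin n → K, (∀ j, ev j (∑ i, c i • b i) ∈ A) → ∀ i, c i ∈ A)
    (c : Fin n → K) (hc : ∀ j, ev j (∑ i, c i • b i) ∈ A.nonunits) :
    ∀ i, c i ∈ A.nonunits := by
  obtain ⟨x, hx⟩ := hA
  have hzero : (∀ j, ev j (∑ i, c i • b i) = 0) → ∀ i, c i = 0 := by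
    intro h0 i
    by_contra hci
    have h1 := hb (fun i' => (x * (c i)⁻¹) * c i') (fun j => by
      have h2 : ∑ i', ((x * (c i)⁻¹) * c i') • b i' = (x * (c i)⁻¹) • ∑ i', c i' • b i' := by
        rw [Finset.smul_sum]
        exact Finset.sum_congr rfl fun i' _ => by rw [mul_smul]
      rw [h2, map_smul, h0 j, smul_zero]
      exact A.zero_mem) i
    rw [mul_assoc, inv_mul_cancel₀ hci, mul_one] at h1
    exact hx h1
  by_cases hall : ∀ j, ev j (∑ i, c i • b i) = 0
  · intro i
    rw [hzero hall i]
    exact A.nonunits.zero_mem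
  · push Not at hall
    obtain ⟨j1, hj1⟩ := hall
    haveI : Nonempty ι := ⟨j1⟩
    obtain ⟨j0, hj0⟩ := Finite.exists_max (fun j => A.valuation (ev j (∑ i, c i • b i)))
    set a : K := ev j0 (∑ i, c i • b i) with ha
    have hane : a ≠ 0 := by
      intro h0
      have h1 : A.valuation (ev j1 (∑ i, c i • b i)) ≤ A.valuation a := hj0 j1
      rw [h0, map_zero] at h1
      exact hj1 ((A.valuation).zero_iff.mp (le_antisymm h1 zero_le'))
    have hapos : 0 < A.valuation a :=
      lt_of_le_of_ne zero_le' ((A.valuation).ne_zero_iff.mpr hane).symm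
    have ha1 : A.valuation a < 1 := (ValuationSubring.mem_nonunits_iff A).mp (hc j0)
    have h2 := h22g_coeff_mem_of_dvd A ev b hb a hane c (fun j => by
      refine ⟨a⁻¹ * ev j (∑ i, c i • b i), ?_, by rw [← mul_assoc, mul_inv_cancel₀ hane, one_mul]⟩
      rw [← A.valuation_le_one_iff, map_mul, map_inv₀, inv_mul_le_iff₀ hapos, mul_one]
      exact hj0 j)
    intro i
    obtain ⟨y, hy, hyi⟩ := h2 i
    rw [hyi, ValuationSubring.mem_nonunits_iff A, map_mul]
    calc A.valuation a * A.valuation y ≤ A.valuation a * 1 := by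
          gcongr
          exact (A.valuation_le_one_iff y).mpr hy
      _ = A.valuation a := mul_one _
      _ < 1 := ha1

end Fermat.Agent.P5
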