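import Fermat.Agent.P5.H30LatChebIface
import Fermat.Agent.S30.Inputs

/-!
# Wave 5, pillar (P), S32: the lattice comparison, leaf LC-GKEY (helper23)

* `h23x_gkey : H30xGKey` (the exact frozen `Prop` of `P5/H30LatChebIface.lean`): there is `c`
  such that, for all `n`, an integer polynomial `Q` in the `T_ℓ` whose Hecke operator (through
  the variables outside `S`) kills `J₀(N)[p ^ (c + n)]` has image in `m_T ^ n`.

Proof: the key divisibility `Fermat.Agent.S31.TI_key` (with the lattice of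
`Fermat.Agent.S30.geometricInputsFull`), applied to `κ Q` (`κ = h30xKap S` kills the variables
in `S`, so `κ Q` is supported outside `S` and has the same evaluation as `Q`), gives
`e' • Q(T) = p ^ n • z` with `e'` prime to `p`; `e'` is a unit of `T` and `p ∈ m_T`.

* `h23x_pow_le` : in a local ring, an ideal of finite index contains a power of the maximal
  ideal.
-/

set_option autoImplicit false
set_option linter.style.haveILetI false
set_option linter.unusedSectionVars false

open ModularCurve GaloisRep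

noncomputable section

namespace Fermat.Agent.P5

open Fermat.Agent.S29 (GQ)
open Fermat.Agent.S31 (TI_evS TI_Sc TI_tS TI_Kills TI_key TI_isUnit_natCast tpjGal tpjHecke)

/-- `κ Q` is a polynomial in the variables outside `S`. -/
theorem h23x_kap_mem_supported (S : Finset ℕ) (Q : MvPolynomial Nat.Primes ℤ) :
    h30xKap S Q ∈ MvPolynomial.supported ℤ (TI_Sc S) := by
  classical
  induction Q using MvPolynomial.induction_on with
  | C a =>
    have e : h30xKap S (MvPolynomial.C a) = MvPolynomial.C a := by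
      simp [h30xKap]
    rw [e]
    exact Subalgebra.algebraMap_mem _ a
  | add P Q hP hQ =>
    rw [map_add]
    exact Subalgebra.add_mem _ hP hQ
  | mul_X P ℓ hP =>
    rw [map_mul]
    refine Subalgebra.mul_mem _ hP ?_
    have e : h30xKap S (MvPolynomial.X ℓ) =
        if (ℓ : ℕ) ∈ S then (0 : MvPolynomial Nat.Primes ℤ) else MvPolynomial.X ℓ := by
      simp [h30xKap]
    rw [e]
    by_cases hℓ : (ℓ : ℕ) ∈ S
    · rw [if_pos hℓ]
      exact Subalgebra.zero_mem _
    · rw [if_neg hℓ]
      exact MvPolynomial.X_mem_supported.mpr hℓ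

/-- `κ Q` and `Q` have the same evaluation at the Hecke operators away from `S`. -/
theorem h23x_evS_kap (N : ℕ) [NeZero N] (S : Finset ℕ) (Q : MvPolynomial Nat.Primes ℤ) :
    TI_evS N S (h30xKap S Q) = TI_evS N S Q := by
  classical
  induction Q using MvPolynomial.induction_on with
  | C a =>
    have e : h30xKap S (MvPolynomial.C a) = MvPolynomial.C a := by
      simp [h30xKap]
    rw [e]
  | add P Q hP hQ =>
    rw [map_add, map_add, map_add, hP, hQ]
  | mul_X P ℓ hP =>
    rw [map_mul, map_mul, map_mul, hP]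
    congr 1
    have e : h30xKap S (MvPolynomial.X ℓ) =
        if (ℓ : ℕ) ∈ S then (0 : MvPolynomial Nat.Primes ℤ) else MvPolynomial.X ℓ := by
      simp [h30xKap]
    rw [e]
    by_cases hℓ : (ℓ : ℕ) ∈ S
    · rw [if_pos hℓ, map_zero]
      have h1 : (ℓ : ℕ) ∣ N ∨ (ℓ : ℕ) ∈ (↑S : Set ℕ) := Or.inr (Finset.mem_coe.mpr hℓ)
      rw [TI_evS, MvPolynomial.aeval_X, TI_tS, dif_pos h1]
    · rw [if_neg hℓ]

/-- **LC-GKEY.** -/
theorem h23x_gkey : H30xGKey := by
  intro p N _ S 𝒪 _ _ _ _ θ T _ _ _ _ _ _ _ _ hp hp𝒪 hpS hS H hc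
  obtain ⟨L, hLfg, hL⟩ := Fermat.Agent.S30.geometricInputsFull.2.2.2 N
  obtain ⟨c, e', he', hkey⟩ := TI_key hp hpS hS L hLfg hL
  -- `p` is not a unit of `T`
  have hpT : (p : T) ∈ IsLocalRing.maximalIdeal T := by
    have h1 : (p : T) = algebraMap 𝒪 T (p : 𝒪) := (map_natCast (algebraMap 𝒪 T) p).symm
    rw [h1, IsLocalRing.mem_maximalIdeal, mem_nonunits_iff]
    intro hu
    exact (IsLocalRing.mem_maximalIdeal _).mp hp𝒪 (isUnit_of_map_unit (algebraMap 𝒪 T) _ hu)
  have hu : IsUnit ((e' : ℕ) : T) := TI_isUnit_natCast hp hpT he'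
  refine ⟨c, fun n Q hQ => ?_⟩
  have hκ := h23x_kap_mem_supported S Q
  -- `κ Q` kills `J₀(N)[p ^ (c + n)]`
  have hkill : TI_Kills N (p ^ (c + n + 0))
      (MvPolynomial.C ((p : ℤ) ^ 0) * h30xKap S Q) := by
    intro x hx
    rw [pow_zero, MvPolynomial.C_1, one_mul, heckeModuleBar_smul_def hc]
    have hx' : x ∈ Submodule.torsionBy ℤ (JZero N) ((p : ℤ) ^ (c + n)) := by
      rw [Submodule.mem_torsionBy_iff]
      have h2 : ((p : ℤ) ^ (c + n)) • x = (p ^ (c + n + 0)) • x := by
        rw [add_zero, ← natCast_zsmul]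
        push_cast
        rfl
      rw [h2, hx]
    have h3 := congrArg (fun f : AddMonoid.End (h30xTors N p (c + n)) =>
      ((f ⟨x, hx'⟩ : h30xTors N p (c + n)) : JZero N)) hQ
    simp only [h30xHecke_apply] at h3
    exact h3
  obtain ⟨z, hz⟩ := hkey (c + n) (Nat.le_add_right c n) (h30xKap S Q) hκ ⟨0, hkill⟩
  rw [Nat.add_sub_cancel_left, h23x_evS_kap] at hz
  have hπ : ((e' : ℕ) : T) * H.π (TI_evS N S Q) = (p : T) ^ n * H.π z := by
    have := congrArg H.π hz
    rw [map_nsmul, map_nsmul, nsmul_eq_mul, nsmul_eq_mul] at this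
    push_cast at this
    exact this
  obtain ⟨u, hu'⟩ := hu
  have e : H.π (TI_evS N S Q) = (p : T) ^ n * (↑u⁻¹ * H.π z) := by
    rw [← mul_assoc, mul_comm ((p : T) ^ n), mul_assoc, ← hπ, ← hu', ← mul_assoc,
      Units.inv_mul, one_mul]
  rw [e]
  exact Ideal.mul_mem_right _ _ (Ideal.pow_mem_pow hpT n)

end Fermat.Agent.P5
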