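import Fermat.Agent.P5.H30LatIface

/-!
# Wave 5, pillar (P), S32, row S32-LC-LOC (helper23): the leaf `H30xLoc`

`h23x_loc : H30xLoc`.  Mathlib only.

Proof.  `S = {u : P | π u ∉ 𝔪_T}` is multiplicative.  Choose `u₀ ∈ S` with `Θ₀ u₀ W₀` of minimal
cardinality and put `W = Θ₀ u₀ W₀`.  For `u ∈ S` the subgroup `Θ₀ (u u₀) W₀ ⊆ W` has at least
as many elements as `W`, so `Θ₀ u` maps `W` onto `W`, hence is injective on the finite set `W`.
`W` is stable under the commutant, and `Θ₀ Q = 0` on `W` gives `Θ₀ (Q u₀) = 0`, so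
`π Q · π u₀ ∈ I` with `π u₀` a unit.
-/

set_option autoImplicit false

open IsLocalRing

namespace Fermat.Agent.P5

/-- the abstract localisation lemma behind `H30xLoc` (no finiteness of the residue field). -/
theorem h23x_loc_core (W₀ : Type) [AddCommGroup W₀] [Finite W₀] (P : Type) [CommRing P]
    (Θ₀ : P →+* AddMonoid.End W₀) (T : Type) [CommRing T] [IsLocalRing T]
    (π : P →+* T) (I : Ideal T) (hkey : ∀ Q : P, Θ₀ Q = 0 → π Q ∈ I) :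
    ∃ W : AddSubgroup W₀,
      (∀ φ : AddMonoid.End W₀, (∀ a : P, Commute (Θ₀ a) φ) → ∀ w ∈ W, φ w ∈ W) ∧
      (∀ Q : P, (∀ w ∈ W, Θ₀ Q w = 0) → π Q ∈ I) ∧
      (∀ u : P, π u ∉ maximalIdeal T → ∀ w ∈ W, Θ₀ u w = 0 → w = 0) := by
  classical
  have hS1 : π 1 ∉ maximalIdeal T := by
    rw [map_one]
    exact fun h => (Ideal.ne_top_iff_one _).mp (IsLocalRing.maximalIdeal.isMaximal T).ne_top h
  have hSmul : ∀ u v : P, π u ∉ maximalIdeal T → π v ∉ maximalIdeal T →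
      π (u * v) ∉ maximalIdeal T := by
    intro u v hu hv h
    rw [map_mul] at h
    rcases (IsLocalRing.maximalIdeal.isMaximal T).isPrime.mem_or_mem h with h | h
    · exact hu h
    · exact hv h
  have hmulapp : ∀ (a b : P) (x : W₀), Θ₀ (a * b) x = Θ₀ a (Θ₀ b x) := by
    intro a b x
    rw [map_mul]
    rfl
  have hcomm : ∀ (a b : P) (x : W₀), Θ₀ a (Θ₀ b x) = Θ₀ b (Θ₀ a x) := by
    intro a b x
    have h1 : Θ₀ (a * b) x = Θ₀ (b * a) x := by rw [mul_comm]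
    rw [hmulapp, hmulapp] at h1
    exact h1
  -- a minimiser of the cardinality of the image
  obtain ⟨u₀, hu₀S, hmin⟩ : ∃ u₀ : P, π u₀ ∉ maximalIdeal T ∧
      ∀ u : P, π u ∉ maximalIdeal T →
        Nat.card (AddMonoidHom.range (Θ₀ u₀ : W₀ →+ W₀)) ≤
          Nat.card (AddMonoidHom.range (Θ₀ u : W₀ →+ W₀)) := by
    have hne : ∃ n : ℕ, ∃ u : P, π u ∉ maximalIdeal T ∧
        Nat.card (AddMonoidHom.range (Θ₀ u : W₀ →+ W₀)) = n := ⟨_, 1, hS1, rfl⟩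
    obtain ⟨u₀, hu₀, hcard⟩ := Nat.find_spec hne
    refine ⟨u₀, hu₀, fun u hu => ?_⟩
    rw [hcard]
    exact Nat.find_min' hne ⟨u, hu, rfl⟩
  -- the image of `u u₀` is the image of `u₀`
  have hrange : ∀ u : P, π u ∉ maximalIdeal T →
      AddMonoidHom.range (Θ₀ (u₀ * u) : W₀ →+ W₀) = AddMonoidHom.range (Θ₀ u₀ : W₀ →+ W₀) := by
    intro u hu
    refine AddSubgroup.eq_of_le_of_card_ge ?_ (hmin _ (hSmul _ _ hu₀S hu))
    rintro _ ⟨x, rfl⟩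
    exact ⟨Θ₀ u x, (hmulapp u₀ u x).symm⟩
  refine ⟨AddMonoidHom.range (Θ₀ u₀ : W₀ →+ W₀), ?_, ?_, ?_⟩
  · rintro φ hφ _ ⟨x, rfl⟩
    refine ⟨φ x, ?_⟩
    have h := hφ u₀
    have h2 : (Θ₀ u₀ * φ) x = (φ * Θ₀ u₀) x := by rw [h.eq]
    exact h2
  · intro Q hQ
    have h0 : Θ₀ (Q * u₀) = 0 := by
      ext x
      rw [hmulapp]
      exact hQ _ ⟨x, rfl⟩
    have h1 : π Q * π u₀ ∈ I := by
      rw [← map_mul]
      exact hkey _ h0
    exact (Ideal.mul_unit_mem_iff_mem I (IsLocalRing.notMem_maximalIdeal.mp hu₀S)).mp h1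
  · intro u hu w hw hw0
    -- `Θ₀ u` restricted to `W`
    have hstab : ∀ y ∈ AddMonoidHom.range (Θ₀ u₀ : W₀ →+ W₀),
        Θ₀ u y ∈ AddMonoidHom.range (Θ₀ u₀ : W₀ →+ W₀) := by
      rintro _ ⟨x, rfl⟩
      exact ⟨Θ₀ u x, hcomm u₀ u x⟩
    let f : ↥(AddMonoidHom.range (Θ₀ u₀ : W₀ →+ W₀)) → ↥(AddMonoidHom.range (Θ₀ u₀ : W₀ →+ W₀)) :=
      fun y => ⟨Θ₀ u y.1, hstab y.1 y.2⟩
    have hsurj : Function.Surjective f := by
      rintro ⟨y, hy⟩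
      rw [← hrange u hu] at hy
      obtain ⟨x, rfl⟩ := hy
      refine ⟨⟨Θ₀ u₀ x, ⟨x, rfl⟩⟩, ?_⟩
      apply Subtype.ext
      show Θ₀ u (Θ₀ u₀ x) = Θ₀ (u₀ * u) x
      rw [hmulapp]
      exact hcomm u u₀ x
    have hinj : Function.Injective f := Finite.injective_iff_surjective.mpr hsurj
    have h1 : f ⟨w, hw⟩ = f ⟨0, zero_mem _⟩ := by
      apply Subtype.ext
      show Θ₀ u w = Θ₀ u 0
      rw [hw0, map_zero]
    exact congrArg Subtype.val (hinj h1)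

/-- **LC-LOC**: the frozen leaf `H30xLoc`. -/
theorem h23x_loc : H30xLoc := by
  intro W₀ _ _ P _ Θ₀ T _ _ _ π I hkey
  exact h23x_loc_core W₀ P Θ₀ T π I hkey

end Fermat.Agent.P5
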