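import Mathlib

/-!
# Wave 5, pillar (P), S32: a tiny lemma for the lattice comparison (helper23)

`h23x_pow_le` : in a local ring, an ideal of finite index contains a power of the maximal ideal.
(The quotient is a finite, hence artinian, local ring; its maximal ideal is nilpotent.)
-/

set_option autoImplicit false
set_option linter.style.haveILetI false

namespace Fermat.Agent.P5

/-- In a local ring, an ideal of finite index contains a power of the maximal ideal
(no noetherian hypothesis is needed). -/
theorem h23x_pow_le_core {T : Type*} [CommRing T] [IsLocalRing T] (I : Ideal T)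
    [Finite (T ⧸ I)] : ∃ n : ℕ, IsLocalRing.maximalIdeal T ^ n ≤ I := by
  by_cases hI : I = ⊤
  · exact ⟨0, hI ▸ le_top⟩
  haveI : Nontrivial (T ⧸ I) := Ideal.Quotient.nontrivial_iff.mpr hI
  haveI : IsLocalRing (T ⧸ I) :=
    IsLocalRing.of_surjective' (Ideal.Quotient.mk I) Ideal.Quotient.mk_surjective
  haveI : IsArtinianRing (T ⧸ I) := inferInstance
  obtain ⟨n, hn⟩ := IsArtinianRing.isNilpotent_jacobson_bot (R := T ⧸ I)
  rw [IsLocalRing.jacobson_eq_maximalIdeal ⊥ bot_ne_top] at hn
  refine ⟨n, fun x hx => ?_⟩
  have h1 : Ideal.Quotient.mk I x ∈ (IsLocalRing.maximalIdeal (T ⧸ I)) ^ n := by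
    have h2 : (IsLocalRing.maximalIdeal T).map (Ideal.Quotient.mk I) ≤
        IsLocalRing.maximalIdeal (T ⧸ I) := by
      rw [Ideal.map_le_iff_le_comap]
      intro y hy
      rw [Ideal.mem_comap, IsLocalRing.mem_maximalIdeal, mem_nonunits_iff]
      intro hu
      have hlh : IsLocalHom (Ideal.Quotient.mk I) :=
        IsLocalHom.of_surjective (Ideal.Quotient.mk I) Ideal.Quotient.mk_surjective
      exact (IsLocalRing.mem_maximalIdeal _).mp hy (isUnit_of_map_unit (Ideal.Quotient.mk I) y hu)
    have h3 : Ideal.Quotient.mk I x ∈ ((IsLocalRing.maximalIdeal T) ^ n).map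
        (Ideal.Quotient.mk I) := Ideal.mem_map_of_mem _ hx
    rw [Ideal.map_pow] at h3
    exact Ideal.pow_right_mono h2 n h3
  rw [hn] at h1
  exact Ideal.Quotient.eq_zero_iff_mem.mp ((Ideal.mem_bot).mp h1)

/-- In a noetherian local ring, an ideal of finite index contains a power of the maximal
ideal (the shape requested by the assembly of the lattice comparison). -/
theorem h23x_pow_le {T : Type} [CommRing T] [IsLocalRing T] [IsNoetherianRing T] (I : Ideal T)
    [Finite (T ⧸ I)] : ∃ n : ℕ, IsLocalRing.maximalIdeal T ^ n ≤ I :=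
  h23x_pow_le_core I

end Fermat.Agent.P5
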