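import Mathlib

/-!
# Pillar P5 (S32), lattice comparison: small algebraic leaves (helper25, second seat S32-COMP)

Mathlib only.

* `h25l_exists_pow_le` (L1): `T` local with finitely generated maximal ideal (e.g. noetherian),
  `T ⧸ I` finite `⟹ ∃ n, 𝔪_T ^ n ≤ I`.
* `h25l_zmodEnd` (L2): for a `ZMod n`-module `X`, `AddMonoid.End X ≃+* Module.End (ZMod n) X`.
* `h25l_torsionRestrict` (L2): the restriction `AddMonoid.End J →+* AddMonoid.End J[a]`.
* `h25lTorsionModule` : the `ZMod (ℓ ^ k)`-module structure of `J[ℓ ^ k]`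
  (`Submodule.torsionBy ℤ J ((ℓ : ℤ) ^ k)`), and
  `h25l_torsionEnd : AddMonoid.End J →+* Module.End (ZMod n) J[a]`.
-/

set_option autoImplicit false
set_option linter.style.haveILetI false

noncomputable section

namespace Fermat.Agent.P5

/-! ## (L1) -/

/-- in a local ring, an element of the maximal ideal is nilpotent modulo an ideal of finite
index. -/
theorem h25l_mem_radical {T : Type*} [CommRing T] [IsLocalRing T] (I : Ideal T)
    [Finite (T ⧸ I)] {x : T} (hx : x ∈ IsLocalRing.maximalIdeal T) : x ∈ I.radical := by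
  classical
  -- two powers of `x` coincide modulo `I`
  obtain ⟨a, b, hab, heq⟩ := Finite.exists_ne_map_eq_of_infinite
    (fun n : ℕ => Ideal.Quotient.mk I (x ^ n))
  wlog hlt : a < b generalizing a b
  · exact this b a hab.symm heq.symm (lt_of_le_of_ne (not_lt.mp hlt) hab.symm)
  obtain ⟨d, rfl⟩ : ∃ d, b = a + (d + 1) := ⟨b - a - 1, by omega⟩
  have h1 : x ^ a * (1 - x ^ (d + 1)) ∈ I := by
    rw [← Ideal.Quotient.eq_zero_iff_mem, map_mul, map_sub, map_one, mul_sub, mul_one,
      ← map_mul, ← pow_add]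
    exact sub_eq_zero.mpr heq
  have hxd : x ^ (d + 1) ∈ IsLocalRing.maximalIdeal T :=
    Ideal.pow_mem_of_mem _ hx _ (Nat.succ_pos d)
  have hu : IsUnit (1 - x ^ (d + 1)) := by
    by_contra hnu
    have h2 : 1 - x ^ (d + 1) ∈ IsLocalRing.maximalIdeal T :=
      (IsLocalRing.mem_maximalIdeal _).mpr hnu
    have h3 : (1 : T) ∈ IsLocalRing.maximalIdeal T := by
      have := Ideal.add_mem _ h2 hxd
      rwa [sub_add_cancel] at this
    exact (Ideal.ne_top_iff_one _).mp (IsLocalRing.maximalIdeal.isMaximal T).ne_top h3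
  refine ⟨a, ?_⟩
  obtain ⟨u, hu'⟩ := hu
  have h4 : x ^ a = x ^ a * (1 - x ^ (d + 1)) * (↑u⁻¹ : T) := by
    rw [mul_assoc, ← hu', Units.mul_inv, mul_one]
  rw [h4]
  exact Ideal.mul_mem_right _ _ h1

/-- **(L1)**, with `𝔪_T` finitely generated. -/
theorem h25l_exists_pow_le_of_fg {T : Type*} [CommRing T] [IsLocalRing T] (I : Ideal T)
    [Finite (T ⧸ I)] (hfg : (IsLocalRing.maximalIdeal T).FG) :
    ∃ n : ℕ, IsLocalRing.maximalIdeal T ^ n ≤ I :=
  Ideal.exists_pow_le_of_le_radical_of_fg (fun _ hx => h25l_mem_radical I hx) hfg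

/-- **(L1)**: `T` local noetherian, `T ⧸ I` finite `⟹ ∃ n, 𝔪_T ^ n ≤ I`. -/
theorem h25l_exists_pow_le {T : Type*} [CommRing T] [IsLocalRing T] [IsNoetherianRing T]
    (I : Ideal T) [Finite (T ⧸ I)] : ∃ n : ℕ, IsLocalRing.maximalIdeal T ^ n ≤ I :=
  h25l_exists_pow_le_of_fg I (IsNoetherian.noetherian _)

/-- (L1) in module form: `𝔪_T ^ n • V ≤ I • V`. -/
theorem h25l_exists_pow_smul_le {T : Type*} [CommRing T] [IsLocalRing T] [IsNoetherianRing T]
    (I : Ideal T) [Finite (T ⧸ I)] (V : Type*) [AddCommGroup V] [Module T V] :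
    ∃ n : ℕ, (IsLocalRing.maximalIdeal T ^ n) • (⊤ : Submodule T V) ≤
      I • (⊤ : Submodule T V) := by
  obtain ⟨n, hn⟩ := h25l_exists_pow_le I
  exact ⟨n, Submodule.smul_mono_left hn⟩

/-! ## (L2) -/

/-- **(L2)**: additive endomorphisms of a `ZMod n`-module are `ZMod n`-linear. -/
def h25l_zmodEnd (n : ℕ) (X : Type*) [AddCommGroup X] [Module (ZMod n) X] :
    AddMonoid.End X ≃+* Module.End (ZMod n) X where
  toFun f := AddMonoidHom.toZModLinearMap n f
  invFun f := f.toAddMonoidHom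
  left_inv _ := rfl
  right_inv _ := rfl
  map_mul' _ _ := rfl
  map_add' _ _ := rfl

@[simp]
theorem h25l_zmodEnd_apply (n : ℕ) (X : Type*) [AddCommGroup X] [Module (ZMod n) X]
    (f : AddMonoid.End X) (x : X) : h25l_zmodEnd n X f x = f x := rfl

@[simp]
theorem h25l_zmodEnd_symm_apply (n : ℕ) (X : Type*) [AddCommGroup X] [Module (ZMod n) X]
    (f : Module.End (ZMod n) X) (x : X) : (h25l_zmodEnd n X).symm f x = f x := rfl

/-- an additive endomorphism preserves the `a`-torsion. -/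
theorem h25l_map_torsion {J : Type*} [AddCommGroup J] (a : ℤ) (f : AddMonoid.End J) {x : J}
    (hx : x ∈ Submodule.torsionBy ℤ J a) : f x ∈ Submodule.torsionBy ℤ J a := by
  rw [Submodule.mem_torsionBy_iff] at hx ⊢
  rw [← map_zsmul f, hx, map_zero]

/-- **(L2)**: the restriction of additive endomorphisms to the `a`-torsion, a ring
homomorphism. -/
def h25l_torsionRestrict (J : Type*) [AddCommGroup J] (a : ℤ) :
    AddMonoid.End J →+* AddMonoid.End ↥(Submodule.torsionBy ℤ J a) where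
  toFun f :=
    { toFun := fun x => ⟨f x, h25l_map_torsion a f x.2⟩
      map_zero' := Subtype.ext (map_zero f)
      map_add' := fun x y => Subtype.ext (map_add f (x : J) (y : J)) }
  map_one' := rfl
  map_mul' _ _ := rfl
  map_zero' := rfl
  map_add' _ _ := rfl

@[simp]
theorem h25l_torsionRestrict_apply (J : Type*) [AddCommGroup J] (a : ℤ) (f : AddMonoid.End J)
    (x : ↥(Submodule.torsionBy ℤ J a)) :
    ((h25l_torsionRestrict J a f x : ↥(Submodule.torsionBy ℤ J a)) : J) = f (x : J) := rfl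

/-- the `ℓ ^ k`-torsion is killed by `ℓ ^ k` (as a natural number). -/
theorem h25l_torsion_nsmul (J : Type*) [AddCommGroup J] (ℓ k : ℕ)
    (x : ↥(Submodule.torsionBy ℤ J ((ℓ : ℤ) ^ k))) : (ℓ ^ k) • x = 0 := by
  apply Subtype.ext
  have h := (Submodule.mem_torsionBy_iff _ _).mp x.2
  rw [Submodule.coe_smul_of_tower, Submodule.coe_zero, ← natCast_zsmul]
  push_cast
  exact h

/-- the `ZMod (ℓ ^ k)`-module structure of the `ℓ ^ k`-torsion (a definition, not an instance). -/
@[reducible]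
def h25lTorsionModule (J : Type*) [AddCommGroup J] (ℓ k : ℕ) :
    Module (ZMod (ℓ ^ k)) ↥(Submodule.torsionBy ℤ J ((ℓ : ℤ) ^ k)) :=
  AddCommGroup.zmodModule (h25l_torsion_nsmul J ℓ k)

/-- **(L2)**, assembled: `End J → End_{ℤ/n} J[a]`, for any `ZMod n`-module structure on the
`a`-torsion. -/
def h25l_torsionEnd (J : Type*) [AddCommGroup J] (a : ℤ) (n : ℕ)
    [Module (ZMod n) ↥(Submodule.torsionBy ℤ J a)] :
    AddMonoid.End J →+* Module.End (ZMod n) ↥(Submodule.torsionBy ℤ J a) :=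
  (h25l_zmodEnd n ↥(Submodule.torsionBy ℤ J a)).toRingHom.comp (h25l_torsionRestrict J a)

@[simp]
theorem h25l_torsionEnd_apply (J : Type*) [AddCommGroup J] (a : ℤ) (n : ℕ)
    [Module (ZMod n) ↥(Submodule.torsionBy ℤ J a)] (f : AddMonoid.End J)
    (x : ↥(Submodule.torsionBy ℤ J a)) :
    ((h25l_torsionEnd J a n f x : ↥(Submodule.torsionBy ℤ J a)) : J) = f (x : J) := rfl

end Fermat.Agent.P5
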