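import Mathlib
import Fermat.Agent.P5.H78RRLeaves

/-!
# Pillar P5 (S19), block GEO-RR: the moving lemma `H13rMoving` (helper78)

`h78m_moving : H13rMoving K F` (exact frozen Prop of `P5/H13RRIface.lean`): outside every finite
set of places there is a reduced effective divisor `Q₁ + ⋯ + Q_g` with `ℓ = 1`.
Proof: a reduced divisor of large degree is non-special (`h78q_large`); peel off points one at a
time (`h3r_peel`, helper3).
-/

set_option autoImplicit false
set_option linter.style.haveILetI false

open AlgebraicCurve WithZero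

noncomputable section

namespace Fermat.Agent.P5

variable {K F : Type*} [Field K] [Field F] [Algebra K F]

/-- the values of the reduced divisor `∑_{v ∈ T} v`. -/
theorem h78m_sum_mem {T : Finset (Place K F)} {v : Place K F} (hv : v ∈ T) :
    h13rSum K F T v = 1 := by
  classical
  unfold h13rSum
  rw [Finsupp.finsetSum_apply]
  simp only [Finsupp.single_apply]
  rw [Finset.sum_ite_eq' T v, if_pos hv]

theorem h78m_sum_notMem {T : Finset (Place K F)} {v : Place K F} (hv : v ∉ T) :
    h13rSum K F T v = 0 := by
  classical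
  unfold h13rSum
  rw [Finsupp.finsetSum_apply]
  simp only [Finsupp.single_apply]
  rw [Finset.sum_ite_eq' T v, if_neg hv]

theorem h78m_sum_empty : h13rSum K F (∅ : Finset (Place K F)) = 0 := by
  unfold h13rSum
  exact Finset.sum_empty

theorem h78m_sum_mono {s t : Finset (Place K F)} (h : s ⊆ t) :
    h13rSum K F s ≤ h13rSum K F t := by
  classical
  refine Finsupp.le_def.mpr fun v => ?_
  by_cases hv : v ∈ s
  · rw [h78m_sum_mem hv, h78m_sum_mem (h hv)]
  · rw [h78m_sum_notMem hv]
    by_cases ht : v ∈ t
    · rw [h78m_sum_mem ht]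
      norm_num
    · rw [h78m_sum_notMem ht]

theorem h78m_sum_erase [DecidableEq (Place K F)] {s : Finset (Place K F)} {a : Place K F}
    (ha : a ∈ s) :
    h13rSum K F s = h13rSum K F (s.erase a) + Finsupp.single a 1 := by
  ext v
  rw [Finsupp.add_apply]
  by_cases hv : v = a
  · subst hv
    rw [h78m_sum_mem ha, h78m_sum_notMem (Finset.notMem_erase v s), Finsupp.single_eq_same,
      zero_add]
  · rw [Finsupp.single_eq_of_ne hv, add_zero]
    by_cases hs : v ∈ s
    · rw [h78m_sum_mem hs, h78m_sum_mem (Finset.mem_erase.mpr ⟨hv, hs⟩)]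
    · rw [h78m_sum_notMem hs, h78m_sum_notMem (fun h => hs (Finset.mem_erase.mp h).2)]

theorem h78m_degree_sum (hB : H13rBase K F) (T : Finset (Place K F)) :
    Divisor.degree (h13rSum K F T) = T.card := by
  classical
  unfold h13rSum
  rw [map_sum]
  simp only [Divisor.degree_single, hB.deg_one, Nat.cast_one, mul_one]
  simp

/-- **RR-MOVING.** -/
theorem h78m_moving : H13rMoving K F := by
  classical
  intro hB g hg S
  obtain ⟨⟨c, hc⟩, -⟩ := h78q_large hB g hg
  -- a large finite set of places outside `S`
  have hinf : ((S : Set (Place K F))ᶜ).Infinite := by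
    haveI := hB.infinite
    exact S.finite_toSet.infinite_compl
  obtain ⟨s, hsS, hscard⟩ := hinf.exists_subset_card_eq (max c.toNat g)
  have hdisj : Disjoint s S := by
    rw [Finset.disjoint_left]
    intro v hv hvS
    exact hsS (Finset.mem_coe.mpr hv) (Finset.mem_coe.mpr hvS)
  have hsc : c ≤ (s.card : ℤ) := by
    rw [hscard]
    have h1 : c ≤ (c.toNat : ℤ) := Int.self_le_toNat c
    have h2 : (c.toNat : ℤ) ≤ ((max c.toNat g : ℕ) : ℤ) := by exact_mod_cast le_max_left _ _
    omega
  have hns : (h13rL K F (h13rSum K F s) : ℤ) + g = s.card + 1 := by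
    have := hc (h13rSum K F s) (by rw [h78m_degree_sum hB]; exact hsc)
    rw [h78m_degree_sum hB] at this
    exact this
  -- the peel-off lemma
  obtain ⟨t, hts, htc, htr⟩ := h3r_peel (K := K) (V := F)
    (fun u : Finset (Place K F) => riemannRochSpace (h13rSum K F u))
    (fun u w huw => h78p_L_mono (h78m_sum_mono huw))
    (fun u => h78q_finite hB _)
    (fun u w => by
      intro f hf
      rw [Submodule.mem_inf] at hf
      intro v
      have h1 := hf.1 v
      have h2 := hf.2 v
      by_cases hu : v ∈ u
      · by_cases hw : v ∈ w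
        · rw [h78m_sum_mem (Finset.mem_inter.mpr ⟨hu, hw⟩)]
          rwa [h78m_sum_mem hu] at h1
        · rw [h78m_sum_notMem (fun h => hw (Finset.mem_inter.mp h).2)]
          rwa [h78m_sum_notMem hw] at h2
      · rw [h78m_sum_notMem (fun h => hu (Finset.mem_inter.mp h).1)]
        rwa [h78m_sum_notMem hu] at h1)
    (by
      show Module.finrank K ↥(riemannRochSpace (h13rSum K F ∅)) = 1
      rw [h78m_sum_empty]
      exact h78q_finrank_zero hB)
    (fun u a ha => by
      show Module.finrank K ↥(riemannRochSpace (h13rSum K F u)) ≤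
        Module.finrank K ↥(riemannRochSpace (h13rSum K F (u.erase a))) + 1
      rw [h78m_sum_erase ha]
      exact (h78q_fin hB).2.1 _ a)
    g s (by
      show Module.finrank K ↥(riemannRochSpace (h13rSum K F s)) + g = s.card + 1
      have : ((Module.finrank K ↥(riemannRochSpace (h13rSum K F s)) : ℕ) : ℤ) + g =
          s.card + 1 := hns
      exact_mod_cast this)
  exact ⟨t, Finset.disjoint_of_subset_left hts hdisj, htc, htr⟩

end Fermat.Agent.P5
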