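import Mathlib
import Fermat.Agent.P5.H78RRMoving

/-!
# Pillar P5 (S19), block GEO-SEED: general position, abstract core (helper25)

Any function field `F / K` in the vocabulary of `P5/H13RRIface.lean` (`H13rBase`, `H13rIsGenus`),
`K` infinite.  Meant for the SPECIAL fibre (and, after lifting, for the generic fibre).

* `h25g_two_seeds` : outside a finite set there are two disjoint reduced divisors `D₀`, `D₁` of
  degree `g` with `ℓ = 1`.
* `h25g_lt_of_ns` : if `E - P` is non-special then `L(E - P) ≠ L(E)`.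
* `h25g_general_position` : if `L(E - P) ≠ L(E)` for `P ∈ T` (finite) there is `u ∈ L(E)` with
  `ord_P u = - E P` for all `P ∈ T`.
* `H25gSeed` : the package `(u, E₀, b)`: `E₀ = 2 D₀ + D₁ + div u ≥ 0` of degree `3 g`, disjoint
  from `D₀`, `D₁` and a given finite set, `ℓ(E₀) = 2 g + 1`, `(u⁻¹, b j)` a basis of `L(E₀)`,
  `u⁻¹` has divisor `2 D₀ + D₁ - E₀`, a combination vanishing doubly on `D₀` is a multiple of
  `u⁻¹` (nondegenerate jets).
* `h25g_seed_exists` : the package exists.
-/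

set_option autoImplicit false
set_option linter.style.haveILetI false
set_option linter.unusedSectionVars false
set_option linter.unusedVariables false

open AlgebraicCurve WithZero

noncomputable section

namespace Fermat.Agent.P5

variable {K F : Type*} [Field K] [Field F] [Algebra K F]

/-- two disjoint non-special reduced divisors of degree `g` outside a finite set. -/
theorem h25g_two_seeds (hB : H13rBase K F) (g : ℕ) (hg : H13rIsGenus K F g)
    (S : Finset (Place K F)) :
    ∃ T0 T1 : Finset (Place K F), Disjoint T0 S ∧ Disjoint T1 S ∧ Disjoint T0 T1 ∧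
      T0.card = g ∧ T1.card = g ∧ h13rL K F (h13rSum K F T0) = 1 ∧
      h13rL K F (h13rSum K F T1) = 1 := by
  classical
  obtain ⟨T0, h0S, h0c, h0l⟩ := h78m_moving hB g hg S
  obtain ⟨T1, h1S, h1c, h1l⟩ := h78m_moving hB g hg (S ∪ T0)
  refine ⟨T0, T1, h0S, ?_, ?_, h0c, h1c, h0l, h1l⟩
  · exact Finset.disjoint_of_subset_right Finset.subset_union_left h1S
  · exact (Finset.disjoint_of_subset_right Finset.subset_union_right h1S).symm

theorem h25g_sub_single_le (E : Divisor K F) (P : Place K F) : E - Finsupp.single P 1 ≤ E := by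
  classical
  rw [Finsupp.le_def]
  intro v
  rw [Finsupp.sub_apply, Finsupp.single_apply]
  split_ifs <;> omega

theorem h25g_degree_sub_single (hB : H13rBase K F) (E : Divisor K F) (P : Place K F) :
    Divisor.degree (E - Finsupp.single P 1) = Divisor.degree E - 1 := by
  rw [map_sub, Divisor.degree_single, hB.deg_one]
  simp

/-- if `E - P` is non-special, `L(E - P)` is a proper subspace of `L(E)`. -/
theorem h25g_lt_of_ns (hB : H13rBase K F) (g : ℕ) (hg : H13rIsGenus K F g) (E : Divisor K F)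
    (P : Place K F)
    (h : (h13rL K F (E - Finsupp.single P 1) : ℤ) + g =
      Divisor.degree (E - Finsupp.single P 1) + 1) :
    ∃ f ∈ riemannRochSpace E, f ∉ riemannRochSpace (E - Finsupp.single P 1) := by
  classical
  have hE := h78q_mono hB g hg _ _ (h25g_sub_single_le E P) h
  rw [h25g_degree_sub_single hB] at h
  by_contra hcon
  push Not at hcon
  have hle : riemannRochSpace E ≤ riemannRochSpace (E - Finsupp.single P 1) :=
    fun f hf => hcon f hf
  haveI := h78q_finite hB (E - Finsupp.single P 1)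
  have h1 := Submodule.finrank_mono hle
  unfold h13rL at hE h
  omega

/-- **general position.** -/
theorem h25g_general_position [Infinite K] (hB : H13rBase K F) (E : Divisor K F)
    (hE : ∃ f ∈ riemannRochSpace E, f ≠ 0) (T : Finset (Place K F))
    (hT : ∀ P ∈ T, ∃ f ∈ riemannRochSpace E, f ∉ riemannRochSpace (E - Finsupp.single P 1)) :
    ∃ u : F, u ≠ 0 ∧ u ∈ riemannRochSpace E ∧ ∀ P ∈ T, P.ord u = -E P := by
  classical
  let W : Place K F → Submodule K ↥(riemannRochSpace E) := fun P =>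
    (riemannRochSpace (E - Finsupp.single P 1)).comap (riemannRochSpace E).subtype
  let s : Finset (Submodule K ↥(riemannRochSpace E)) := insert ⊥ (T.image W)
  have hs : (⊤ : Submodule K ↥(riemannRochSpace E)) ∉ s := by
    intro h
    rw [Finset.mem_insert, Finset.mem_image] at h
    rcases h with h | ⟨P, hP, h⟩
    · obtain ⟨f, hf, hf0⟩ := hE
      have h1 : (⟨f, hf⟩ : ↥(riemannRochSpace E)) ∈ (⊥ : Submodule K ↥(riemannRochSpace E)) := by
        rw [← h]
        exact Submodule.mem_top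
      rw [Submodule.mem_bot] at h1
      exact hf0 (congrArg Subtype.val h1)
    · obtain ⟨f, hf, hfn⟩ := hT P hP
      have h1 : (⟨f, hf⟩ : ↥(riemannRochSpace E)) ∈ W P := by
        rw [h]
        exact Submodule.mem_top
      exact hfn h1
  have hne := Subspace.biUnion_ne_univ_of_top_notMem hs
  obtain ⟨u, hu⟩ := (Set.ne_univ_iff_exists_notMem _).mp hne
  have hu' : ∀ p ∈ s, u ∉ p := by
    intro p hp hup
    apply hu
    exact Set.mem_biUnion hp hup
  have hu0 : (u : F) ≠ 0 := by
    intro h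
    apply hu' ⊥ (Finset.mem_insert_self _ _)
    rw [Submodule.mem_bot]
    exact Subtype.ext h
  refine ⟨u, hu0, u.2, fun P hP => ?_⟩
  have hnot : (u : F) ∉ riemannRochSpace (E - Finsupp.single P 1) := fun h =>
    hu' (W P) (Finset.mem_insert_of_mem (Finset.mem_image_of_mem W hP)) h
  have h1 := (mem_riemannRochSpace_iff.mp u.2 P).resolve_left hu0
  by_contra hne'
  apply hnot
  rw [mem_riemannRochSpace_iff]
  intro v
  right
  by_cases hv : v = P
  · subst hv
    rw [Finsupp.sub_apply, Finsupp.single_eq_same]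
    omega
  · have h2 := (mem_riemannRochSpace_iff.mp u.2 v).resolve_left hu0
    rw [Finsupp.sub_apply, Finsupp.single_apply, if_neg (Ne.symm hv)]
    omega

/-- **the seed package**: `E₀ = 2 D₀ + D₁ + div u`, the basis `(u⁻¹, b)` of `L(E₀)`. -/
structure H25gSeed (g : ℕ) (T0 T1 S' : Finset (Place K F)) (u : F) (E0 : Divisor K F)
    (b : Fin g ⊕ Fin g → F) : Prop where
  u_ne : u ≠ 0
  E0_nonneg : 0 ≤ E0
  E0_eq : ∀ v : Place K F, E0 v = 2 * h13rSum K F T0 v + h13rSum K F T1 v + v.ord u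
  E0_deg : Divisor.degree E0 = 3 * g
  E0_T0 : ∀ v ∈ T0, E0 v = 0
  E0_T1 : ∀ v ∈ T1, E0 v = 0
  E0_S : ∀ v ∈ S', E0 v = 0
  l_E0 : h13rL K F E0 = 2 * g + 1
  bs_mem : u⁻¹ ∈ riemannRochSpace E0
  b_mem : ∀ j, b j ∈ riemannRochSpace E0
  span : ∀ f ∈ riemannRochSpace E0, ∃ (c0 : K) (c : Fin g ⊕ Fin g → K),
    f = c0 • u⁻¹ + ∑ j, c j • b j
  indep : ∀ (c0 : K) (c : Fin g ⊕ Fin g → K), c0 • u⁻¹ + ∑ j, c j • b j = 0 →
    c0 = 0 ∧ ∀ j, c j = 0
  double : ∀ (c0 : K) (c : Fin g ⊕ Fin g → K),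
    (∀ v ∈ T0, c0 • u⁻¹ + ∑ j, c j • b j = 0 ∨ 2 ≤ v.ord (c0 • u⁻¹ + ∑ j, c j • b j)) →
    ∀ j, c j = 0
  ord_bs_T0 : ∀ v ∈ T0, v.ord u⁻¹ = 2
  ord_bs_T1 : ∀ v ∈ T1, v.ord u⁻¹ = 1
  ord_bs_S : ∀ v ∈ S', v.ord u⁻¹ = 0

/-- the divisor `2 D₀ + D₁`. -/
def h25gE (T0 T1 : Finset (Place K F)) : Divisor K F :=
  h13rSum K F T0 + h13rSum K F T0 + h13rSum K F T1

theorem h25gE_apply (T0 T1 : Finset (Place K F)) (v : Place K F) :
    h25gE T0 T1 v = 2 * h13rSum K F T0 v + h13rSum K F T1 v := by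
  unfold h25gE
  rw [Finsupp.add_apply, Finsupp.add_apply]
  ring

theorem h25g_sum_nonneg (T : Finset (Place K F)) (v : Place K F) : 0 ≤ h13rSum K F T v := by
  by_cases hv : v ∈ T
  · rw [h78m_sum_mem hv]
    norm_num
  · rw [h78m_sum_notMem hv]

theorem h25g_sum_le_one (T : Finset (Place K F)) (v : Place K F) : h13rSum K F T v ≤ 1 := by
  by_cases hv : v ∈ T
  · rw [h78m_sum_mem hv]
  · rw [h78m_sum_notMem hv]
    norm_num

/-- a basis of a space of dimension `2 g + 1` through a given nonzero vector. -/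
theorem h25g_complement_basis {V : Type*} [AddCommGroup V] [Module K V] (L : Submodule K V)
    [Module.Finite K L] (g : ℕ) (hL : Module.finrank K L = 2 * g + 1) (x : V) (hx : x ∈ L)
    (hx0 : x ≠ 0) :
    ∃ b : Fin g ⊕ Fin g → V, (∀ j, b j ∈ L) ∧
      (∀ f ∈ L, ∃ (c0 : K) (c : Fin g ⊕ Fin g → K), f = c0 • x + ∑ j, c j • b j) ∧
      (∀ (c0 : K) (c : Fin g ⊕ Fin g → K), c0 • x + ∑ j, c j • b j = 0 →
        c0 = 0 ∧ ∀ j, c j = 0) := by
  classical
  set v0 : L := ⟨x, hx⟩ with hv0
  have hv00 : v0 ≠ 0 := fun h => hx0 (congrArg Subtype.val h)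
  obtain ⟨W, hW⟩ := Submodule.exists_isCompl (K ∙ v0)
  have hfr : Module.finrank K W = g + g := by
    have h1 := Submodule.finrank_add_eq_of_isCompl hW
    rw [finrank_span_singleton hv00, hL] at h1
    omega
  let B : Module.Basis (Fin g ⊕ Fin g) K W :=
    (Module.finBasisOfFinrankEq K W hfr).reindex finSumFinEquiv.symm
  refine ⟨fun j => ((B j : W) : L), fun j => ((B j : W) : L).2, ?_, ?_⟩
  · intro f hf
    have hmem : (⟨f, hf⟩ : L) ∈ (K ∙ v0) ⊔ W := by
      rw [hW.sup_eq_top]
      exact Submodule.mem_top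
    obtain ⟨a, ha, w, hw, haw⟩ := Submodule.mem_sup.mp hmem
    obtain ⟨c0, hc0⟩ := Submodule.mem_span_singleton.mp ha
    refine ⟨c0, fun j => B.repr ⟨w, hw⟩ j, ?_⟩
    have h2 : (⟨w, hw⟩ : W) = ∑ j, B.repr ⟨w, hw⟩ j • B j := (B.sum_repr ⟨w, hw⟩).symm
    have h3 : (w : V) = ∑ j, B.repr ⟨w, hw⟩ j • (((B j : W) : L) : V) := by
      have h4 := congrArg (fun z : W => ((z : L) : V)) h2
      simp only at h4
      rw [h4]
      push_cast
      rfl
    have h5 : f = ((a : L) : V) + (w : V) := by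
      have := congrArg (fun z : L => (z : V)) haw
      simp only at this
      rw [← this]
      rfl
    rw [h5, ← hc0, ← h3]
    rfl
  · intro c0 c h
    have h1 : c0 • v0 + ((∑ j, c j • B j : W) : L) = 0 := by
      apply Subtype.ext
      push_cast
      exact h
    have h2 : c0 • v0 ∈ (K ∙ v0) ⊓ W := by
      refine ⟨Submodule.smul_mem _ _ (Submodule.mem_span_singleton_self v0), ?_⟩
      have h3 : c0 • v0 = -((∑ j, c j • B j : W) : L) := eq_neg_of_add_eq_zero_left h1
      rw [h3]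
      exact W.neg_mem (∑ j, c j • B j : W).2
    rw [hW.inf_eq_bot, Submodule.mem_bot] at h2
    have hc0 : c0 = 0 := (smul_eq_zero.mp h2).resolve_right hv00
    refine ⟨hc0, ?_⟩
    rw [h2, zero_add] at h1
    have h4 : (∑ j, c j • B j : W) = 0 := Subtype.ext h1
    exact fun j => (Fintype.linearIndependent_iff.mp B.linearIndependent c h4) j

/-- **the seed package exists.** -/
theorem h25g_seed_exists [Infinite K] (hB : H13rBase K F) (g : ℕ) (hg : H13rIsGenus K F g)
    (T0 T1 S' : Finset (Place K F)) (hd : Disjoint T0 T1) (hS0 : Disjoint S' T0)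
    (hS1 : Disjoint S' T1) (hc0 : T0.card = g) (hc1 : T1.card = g)
    (h0 : h13rL K F (h13rSum K F T0) = 1) (h1 : h13rL K F (h13rSum K F T1) = 1) :
    ∃ (u : F) (E0 : Divisor K F) (b : Fin g ⊕ Fin g → F), H25gSeed g T0 T1 S' u E0 b := by
  classical
  have hdeg0 : Divisor.degree (h13rSum K F T0) = g := by rw [h78m_degree_sum hB, hc0]
  have hdeg1 : Divisor.degree (h13rSum K F T1) = g := by rw [h78m_degree_sum hB, hc1]
  have hdegE : Divisor.degree (h25gE T0 T1) = 3 * g := by
    unfold h25gE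
    rw [map_add, map_add, hdeg0, hdeg1]
    ring
  have hns0 : (h13rL K F (h13rSum K F T0) : ℤ) + g = Divisor.degree (h13rSum K F T0) + 1 := by
    rw [h0, hdeg0]
    push_cast
    ring
  have hns1 : (h13rL K F (h13rSum K F T1) : ℤ) + g = Divisor.degree (h13rSum K F T1) + 1 := by
    rw [h1, hdeg1]
    push_cast
    ring
  -- the values of `E = 2 D₀ + D₁`
  have hT01 : ∀ v ∈ T0, v ∉ T1 := fun v hv => Finset.disjoint_left.mp hd hv
  have hT10 : ∀ v ∈ T1, v ∉ T0 := fun v hv => Finset.disjoint_right.mp hd hv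
  have hST0 : ∀ v ∈ S', v ∉ T0 := fun v hv => Finset.disjoint_left.mp hS0 hv
  have hST1 : ∀ v ∈ S', v ∉ T1 := fun v hv => Finset.disjoint_left.mp hS1 hv
  have hE_T0 : ∀ v ∈ T0, h25gE T0 T1 v = 2 := by
    intro v hv
    rw [h25gE_apply, h78m_sum_mem hv, h78m_sum_notMem (hT01 v hv)]
    norm_num
  have hE_T1 : ∀ v ∈ T1, h25gE T0 T1 v = 1 := by
    intro v hv
    rw [h25gE_apply, h78m_sum_mem hv, h78m_sum_notMem (hT10 v hv)]
    norm_num
  have hE_S : ∀ v ∈ S', h25gE T0 T1 v = 0 := by
    intro v hv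
    rw [h25gE_apply, h78m_sum_notMem (hST0 v hv), h78m_sum_notMem (hST1 v hv)]
    norm_num
  have hE_nonneg : ∀ v : Place K F, 0 ≤ h25gE T0 T1 v := by
    intro v
    rw [h25gE_apply]
    have h2 := h25g_sum_nonneg T0 v
    have h3 := h25g_sum_nonneg T1 v
    omega
  have hD1E : h13rSum K F T1 ≤ h25gE T0 T1 := by
    rw [Finsupp.le_def]
    intro v
    rw [h25gE_apply]
    have h2 := h25g_sum_nonneg T0 v
    omega
  have hnsE : (h13rL K F (h25gE T0 T1) : ℤ) + g = Divisor.degree (h25gE T0 T1) + 1 :=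
    h78q_mono hB g hg _ _ hD1E hns1
  have hlE : h13rL K F (h25gE T0 T1) = 2 * g + 1 := by
    rw [hdegE] at hnsE
    omega
  have h1E : (1 : F) ∈ riemannRochSpace (h25gE T0 T1) := by
    rw [mem_riemannRochSpace_iff]
    intro v
    right
    rw [Place.ord_one]
    have := hE_nonneg v
    omega
  -- strictness at the places of `T₀ ∪ T₁ ∪ S'`
  have hstrict : ∀ P ∈ T0 ∪ T1 ∪ S', ∃ f ∈ riemannRochSpace (h25gE T0 T1),
      f ∉ riemannRochSpace (h25gE T0 T1 - Finsupp.single P 1) := by
    intro P hP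
    rw [Finset.mem_union, Finset.mem_union] at hP
    rcases hP with (hP | hP) | hP
    · apply h25g_lt_of_ns hB g hg
      apply h78q_mono hB g hg (h13rSum K F T1) _ _ hns1
      rw [Finsupp.le_def]
      intro v
      rw [Finsupp.sub_apply, Finsupp.single_apply, h25gE_apply]
      have h2 := h25g_sum_nonneg T0 v
      split_ifs with hv
      · subst hv
        rw [h78m_sum_mem hP]
        omega
      · omega
    · apply h25g_lt_of_ns hB g hg
      apply h78q_mono hB g hg (h13rSum K F T0) _ _ hns0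
      rw [Finsupp.le_def]
      intro v
      rw [Finsupp.sub_apply, Finsupp.single_apply, h25gE_apply]
      have h2 := h25g_sum_nonneg T0 v
      have h3 := h25g_sum_nonneg T1 v
      split_ifs with hv
      · subst hv
        rw [h78m_sum_mem hP]
        omega
      · omega
    · refine ⟨1, h1E, fun h => ?_⟩
      have h2 := (mem_riemannRochSpace_iff.mp h P).resolve_left one_ne_zero
      rw [Place.ord_one, Finsupp.sub_apply, Finsupp.single_eq_same, hE_S P hP] at h2
      omega
  obtain ⟨u, hu0, huE, hord⟩ :=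
    h25g_general_position hB (h25gE T0 T1) ⟨1, h1E, one_ne_zero⟩ (T0 ∪ T1 ∪ S') hstrict
  have hordu : ∀ v : Place K F, -h25gE T0 T1 v ≤ v.ord u := fun v =>
    (mem_riemannRochSpace_iff.mp huE v).resolve_left hu0
  obtain ⟨Du, hDu, hDudeg⟩ := hB.pd u hu0
  have hE0v : ∀ v : Place K F, (h25gE T0 T1 + Du) v = h25gE T0 T1 v + v.ord u := by
    intro v
    rw [Finsupp.add_apply, hDu]
  have hlE0 : h13rL K F (h25gE T0 T1 + Du) = 2 * g + 1 := by
    rw [h78q_inv (h25gE T0 T1) (h25gE T0 T1 + Du) u hu0 hE0v]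
    exact hlE
  have huinv : u⁻¹ ≠ 0 := inv_ne_zero hu0
  have hbs : u⁻¹ ∈ riemannRochSpace (h25gE T0 T1 + Du) := by
    rw [mem_riemannRochSpace_iff]
    intro v
    right
    rw [Place.ord_inv, hE0v]
    have := hE_nonneg v
    omega
  haveI := h78q_finite hB (h25gE T0 T1 + Du)
  obtain ⟨b, hbmem, hbspan, hbindep⟩ :=
    h25g_complement_basis (riemannRochSpace (h25gE T0 T1 + Du)) g hlE0 u⁻¹ hbs huinv
  -- the one-dimensional space `L(D₁ + div u)`
  have hE2v : ∀ v : Place K F, (h13rSum K F T1 + Du) v = h13rSum K F T1 v + v.ord u := by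
    intro v
    rw [Finsupp.add_apply, hDu]
  have hlE2 : Module.finrank K ↥(riemannRochSpace (h13rSum K F T1 + Du)) = 1 := by
    have := h78q_inv (h13rSum K F T1) (h13rSum K F T1 + Du) u hu0 hE2v
    unfold h13rL at this h1
    rw [this]
    exact h1
  have hbs2 : u⁻¹ ∈ riemannRochSpace (h13rSum K F T1 + Du) := by
    rw [mem_riemannRochSpace_iff]
    intro v
    right
    rw [Place.ord_inv, hE2v]
    have := h25g_sum_nonneg T1 v
    omega
  have hone : ∀ w ∈ riemannRochSpace (h13rSum K F T1 + Du), ∃ c : K, c • u⁻¹ = w := by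
    intro w hw
    have h2 := (finrank_eq_one_iff_of_nonzero'
      (⟨u⁻¹, hbs2⟩ : ↥(riemannRochSpace (h13rSum K F T1 + Du)))
      (fun h => huinv (congrArg Subtype.val h))).mp hlE2 ⟨w, hw⟩
    obtain ⟨c, hc⟩ := h2
    exact ⟨c, congrArg Subtype.val hc⟩
  refine ⟨u, h25gE T0 T1 + Du, b, ?_⟩
  refine
    { u_ne := hu0
      E0_nonneg := ?_
      E0_eq := ?_
      E0_deg := ?_
      E0_T0 := ?_
      E0_T1 := ?_
      E0_S := ?_
      l_E0 := hlE0
      bs_mem := hbs
      b_mem := hbmem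
      span := hbspan
      indep := hbindep
      double := ?_
      ord_bs_T0 := ?_
      ord_bs_T1 := ?_
      ord_bs_S := ?_ }
  · rw [Finsupp.le_def]
    intro v
    rw [hE0v, Finsupp.zero_apply]
    have := hordu v
    omega
  · intro v
    rw [hE0v, h25gE_apply]
  · rw [map_add, hdegE, hDudeg, add_zero]
  · intro v hv
    rw [hE0v, hord v (Finset.mem_union_left _ (Finset.mem_union_left _ hv))]
    ring
  · intro v hv
    rw [hE0v, hord v (Finset.mem_union_left _ (Finset.mem_union_right _ hv))]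
    ring
  · intro v hv
    rw [hE0v, hord v (Finset.mem_union_right _ hv)]
    ring
  · intro c0 c hw
    have hwE0 : c0 • u⁻¹ + ∑ j, c j • b j ∈ riemannRochSpace (h25gE T0 T1 + Du) :=
      Submodule.add_mem _ (Submodule.smul_mem _ _ hbs)
        (Submodule.sum_mem _ fun j _ => Submodule.smul_mem _ _ (hbmem j))
    have hwE2 : c0 • u⁻¹ + ∑ j, c j • b j ∈ riemannRochSpace (h13rSum K F T1 + Du) := by
      rw [mem_riemannRochSpace_iff]
      intro v
      by_cases hw0 : c0 • u⁻¹ + ∑ j, c j • b j = 0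
      · exact Or.inl hw0
      · right
        have h2 := (mem_riemannRochSpace_iff.mp hwE0 v).resolve_left hw0
        rw [hE0v, h25gE_apply] at h2
        rw [hE2v]
        by_cases hv : v ∈ T0
        · have h3 := (hw v hv).resolve_left hw0
          have h4 := hord v (Finset.mem_union_left _ (Finset.mem_union_left _ hv))
          rw [hE_T0 v hv] at h4
          rw [h78m_sum_notMem (hT01 v hv)]
          omega
        · rw [h78m_sum_notMem hv] at h2
          omega
    obtain ⟨c', hc'⟩ := hone _ hwE2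
    have h5 : (c0 - c') • u⁻¹ + ∑ j, c j • b j = 0 := by
      rw [sub_smul, hc']
      abel
    exact (hbindep _ _ h5).2
  · intro v hv
    rw [Place.ord_inv, hord v (Finset.mem_union_left _ (Finset.mem_union_left _ hv)),
      hE_T0 v hv]
    norm_num
  · intro v hv
    rw [Place.ord_inv, hord v (Finset.mem_union_left _ (Finset.mem_union_right _ hv)),
      hE_T1 v hv]
    norm_num
  · intro v hv
    rw [Place.ord_inv, hord v (Finset.mem_union_right _ hv), hE_S v hv]
    norm_num

end Fermat.Agent.P5
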