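import Mathlib

/-!
# Wave 5, pillar (P), block GEO-RR (helper26): the genus does not drop under specialisation

Mathlib only.  `A` a local ring with residue field `k` (`algebraMap A k` surjective), `K` a field
over `A` (for instance the fraction field, or `ℚ̄` for a valuation subring `A` of `ℚ̄`).

* `h26g_finrank_le` : `H` a FINITELY GENERATED `A`-module, `φ : H → H_K` (`A`-linear into a
  `K`-space, image spanning), `ψ : H → H_k` (`A`-linear into a finite-dimensional `k`-space, with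
  `ker ψ ≤ 𝔪 H`).  Then `dim_K H_K ≤ dim_k H_k`.   (Nakayama.)
* `h26g_genus_le` : the Čech form.  `V` an `A`-module, `P, L ≤ V` with `V / (P + L)` finitely
  generated; generic fibre `(V_K, P_K, L_K)`, special fibre `(V_k, P_k, L_k)`.  Then
  `dim_K V_K / (P_K + L_K) ≤ dim_k V_k / (P_k + L_k)`:  `g ≤ g̃`.
-/

set_option autoImplicit false
set_option linter.unusedSectionVars false
set_option linter.style.haveILetI false

open Module Submodule IsLocalRing

namespace Fermat.Agent.P5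

section Nakayama

variable {A k K : Type*} [CommRing A] [IsLocalRing A] [Field k] [Algebra A k] [Field K]
  [Algebra A K]
variable {H HK Hk : Type*} [AddCommGroup H] [Module A H] [AddCommGroup HK] [Module K HK]
  [Module A HK] [IsScalarTower A K HK] [AddCommGroup Hk] [Module k Hk] [Module A Hk]
  [IsScalarTower A k Hk]

/-- **specialisation inequality** (Nakayama). -/
theorem h26g_finrank_le (hres : Function.Surjective (algebraMap A k)) [Module.Finite A H]
    [Module.Finite k Hk] (φ : H →ₗ[A] HK) (hφ : span K (Set.range φ) = ⊤) (ψ : H →ₗ[A] Hk)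
    (hψ : LinearMap.ker ψ ≤ (maximalIdeal A) • (⊤ : Submodule A H)) :
    finrank K HK ≤ finrank k Hk := by
  classical
  -- a basis of the span of the image of `ψ`, inside the image
  obtain ⟨b, hb_sub, hb_span, hb_li⟩ := exists_linearIndependent k (Set.range ψ)
  have hb_fin : b.Finite := hb_li.setFinite
  haveI : Fintype b := hb_fin.fintype
  have hcard : Fintype.card b ≤ finrank k Hk := hb_li.fintype_card_le_finrank
  -- lifts
  have hlift : ∀ y : b, ∃ h : H, ψ h = (y : Hk) := fun y => hb_sub y.2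
  choose hh hhy using hlift
  set N : Submodule A H := span A (Set.range hh) with hN
  -- the image of `N` is a `k`-subspace containing `b`
  let Q : Submodule k Hk :=
    { carrier := {y | ∃ n ∈ N, ψ n = y}
      zero_mem' := ⟨0, N.zero_mem, map_zero ψ⟩
      add_mem' := by
        rintro _ _ ⟨n, hn, rfl⟩ ⟨n', hn', rfl⟩
        exact ⟨n + n', N.add_mem hn hn', map_add ψ n n'⟩
      smul_mem' := by
        rintro c _ ⟨n, hn, rfl⟩
        obtain ⟨a, rfl⟩ := hres c
        refine ⟨a • n, N.smul_mem a hn, ?_⟩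
        rw [map_smul, algebraMap_smul] }
  have hbQ : b ⊆ (Q : Set Hk) := by
    intro y hy
    exact ⟨hh ⟨y, hy⟩, Submodule.subset_span ⟨⟨y, hy⟩, rfl⟩, hhy ⟨y, hy⟩⟩
  have hrange : Set.range ψ ⊆ (Q : Set Hk) := by
    intro y hy
    have h1 : y ∈ span k (Set.range ψ) := Submodule.subset_span hy
    rw [← hb_span] at h1
    exact (Submodule.span_le.mpr hbQ) h1
  -- Nakayama
  have htop : N = ⊤ := by
    rw [← IsLocalRing.map_mkQ_eq_top, eq_top_iff]
    rintro z -
    obtain ⟨h, rfl⟩ := Submodule.mkQ_surjective _ z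
    obtain ⟨n, hn, hnh⟩ := hrange ⟨h, rfl⟩
    have hker : h - n ∈ LinearMap.ker ψ := by
      rw [LinearMap.mem_ker, map_sub, hnh, sub_self]
    refine ⟨n, hn, ?_⟩
    rw [Submodule.mkQ_apply, Submodule.mkQ_apply, eq_comm, Submodule.Quotient.eq]
    exact hψ hker
  -- the images of the lifts span `H_K`
  have hspan : span K (Set.range fun y : b => φ (hh y)) = ⊤ := by
    rw [eq_top_iff, ← hφ]
    apply Submodule.span_le.mpr
    rintro _ ⟨h, rfl⟩
    have hhN : h ∈ N := by rw [htop]; trivial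
    have h1 : N.map φ ≤ (span K (Set.range fun y : b => φ (hh y))).restrictScalars A := by
      rw [hN, Submodule.map_span]
      apply Submodule.span_le.mpr
      rintro _ ⟨_, ⟨y, rfl⟩, rfl⟩
      exact Submodule.subset_span ⟨y, rfl⟩
    exact h1 (Submodule.mem_map_of_mem hhN)
  exact (finrank_le_of_span_eq_top hspan).trans hcard

end Nakayama

section Cech

variable {A k K : Type*} [CommRing A] [IsLocalRing A] [Field k] [Algebra A k] [Field K]
  [Algebra A K]
variable {V VK Vk : Type*} [AddCommGroup V] [Module A V] [AddCommGroup VK] [Module K VK]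
  [Module A VK] [IsScalarTower A K VK] [AddCommGroup Vk] [Module k Vk] [Module A Vk]
  [IsScalarTower A k Vk]

/-- **the genus does not drop under specialisation** (Čech form): `g ≤ g̃`. -/
theorem h26g_genus_le (hres : Function.Surjective (algebraMap A k))
    (P L : Submodule A V) [Module.Finite A (V ⧸ (P ⊔ L))]
    (φ : V →ₗ[A] VK) (hφ : span K (Set.range φ) = ⊤) (PK LK : Submodule K VK)
    (hPK : ∀ p ∈ P, φ p ∈ PK) (hLK : ∀ l ∈ L, φ l ∈ LK)
    (ψ : V →ₗ[A] Vk) (Pk Lk : Submodule k Vk)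
    (hPk : ∀ p ∈ P, ψ p ∈ Pk) (hLk : ∀ l ∈ L, ψ l ∈ Lk)
    (hker : ∀ v : V, ψ v ∈ Pk ⊔ Lk → v ∈ P ⊔ L ⊔ (maximalIdeal A) • (⊤ : Submodule A V))
    [Module.Finite k (Vk ⧸ (Pk ⊔ Lk))] :
    finrank K (VK ⧸ (PK ⊔ LK)) ≤ finrank k (Vk ⧸ (Pk ⊔ Lk)) := by
  have hsupK : ∀ v ∈ P ⊔ L, φ v ∈ PK ⊔ LK := by
    intro v hv
    obtain ⟨p, hp, l, hl, rfl⟩ := Submodule.mem_sup.mp hv
    rw [map_add]
    exact Submodule.add_mem_sup (hPK p hp) (hLK l hl)
  have hsupk : ∀ v ∈ P ⊔ L, ψ v ∈ Pk ⊔ Lk := by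
    intro v hv
    obtain ⟨p, hp, l, hl, rfl⟩ := Submodule.mem_sup.mp hv
    rw [map_add]
    exact Submodule.add_mem_sup (hPk p hp) (hLk l hl)
  -- the induced maps on `H = V / (P + L)`
  let φ' : (V ⧸ (P ⊔ L)) →ₗ[A] (VK ⧸ (PK ⊔ LK)) :=
    (P ⊔ L).liftQ (((PK ⊔ LK).mkQ.restrictScalars A) ∘ₗ φ) (by
      intro v hv
      rw [LinearMap.mem_ker, LinearMap.comp_apply]
      exact (Submodule.Quotient.mk_eq_zero _).mpr (hsupK v hv))
  let ψ' : (V ⧸ (P ⊔ L)) →ₗ[A] (Vk ⧸ (Pk ⊔ Lk)) :=
    (P ⊔ L).liftQ (((Pk ⊔ Lk).mkQ.restrictScalars A) ∘ₗ ψ) (by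
      intro v hv
      rw [LinearMap.mem_ker, LinearMap.comp_apply]
      exact (Submodule.Quotient.mk_eq_zero _).mpr (hsupk v hv))
  have hφ' : span K (Set.range φ') = ⊤ := by
    rw [eq_top_iff]
    rintro z -
    obtain ⟨w, rfl⟩ := Submodule.Quotient.mk_surjective _ z
    have hw : w ∈ span K (Set.range φ) := by rw [hφ]; trivial
    have h1 : (span K (Set.range φ)).map (PK ⊔ LK).mkQ ≤ span K (Set.range φ') := by
      rw [Submodule.map_span]
      apply Submodule.span_le.mpr
      rintro _ ⟨_, ⟨v, rfl⟩, rfl⟩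
      exact Submodule.subset_span ⟨Submodule.Quotient.mk v, rfl⟩
    exact h1 (Submodule.mem_map_of_mem hw)
  have hψ' : LinearMap.ker ψ' ≤ (maximalIdeal A) • (⊤ : Submodule A (V ⧸ (P ⊔ L))) := by
    intro z hz
    obtain ⟨v, rfl⟩ := Submodule.Quotient.mk_surjective _ z
    have h1 : (Pk ⊔ Lk).mkQ (ψ v) = 0 := hz
    rw [Submodule.mkQ_apply, Submodule.Quotient.mk_eq_zero] at h1
    have h2 := hker v h1
    obtain ⟨u, hu, m, hm, rfl⟩ := Submodule.mem_sup.mp h2
    have h3 : (Submodule.Quotient.mk (u + m) : V ⧸ (P ⊔ L)) = (P ⊔ L).mkQ m := by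
      rw [Submodule.mkQ_apply, Submodule.Quotient.eq]
      simpa using hu
    rw [h3]
    have h4 : ((maximalIdeal A) • (⊤ : Submodule A V)).map (P ⊔ L).mkQ ≤
        (maximalIdeal A) • (⊤ : Submodule A (V ⧸ (P ⊔ L))) := by
      rw [Submodule.map_smul'']
      exact Submodule.smul_mono le_rfl le_top
    exact h4 (Submodule.mem_map_of_mem hm)
  exact h26g_finrank_le hres φ' hφ' ψ' hψ'

end Cech

end Fermat.Agent.P5
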