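import Fermat.Agent.P5.H40SFField
import Fermat.Agent.LGC.H13LevelM
import Fermat.Agent.Red.GGChart
import Fermat.Agent.Red.SM.HAlg
import Fermat.Agent.Red.ModelO.FinWrap

/-!
# Wave 5, pillar (P), block GEO-RR, special fibre (helper40): the two Dedekind charts

`M` a good level, `A` over `ℓ`, `k = h13sK A`, `F~ = h13sFt A M`, `x = red j`.
`B~ = h40fB … (jB M)`, `B~∞ = h40fB … (jB M)⁻¹` : the images of the two charts of the normal
model under the Gauss reduction, as `k`-subalgebras of `F~`.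

* `h40fRed`          : the reduction as a ring homomorphism `gaussV A M →+* F~`.
* `h40fB`            : the image of a chart `modelAt M A t ≤ gaussV A M`.
* `h40f_frac`        : every element of `F~` is a quotient of elements of `B~`.
* `h40f_fin`         : `B~` is a finitely generated `k[red t]`-module.
* `h40f_equiv`, `h40f_ded` : `B~ ≃ modelAt / 𝔪_A modelAt`, a Dedekind domain.
* `H40fData`, `h40f_data` : the package consumed by the abstract place theory (helper11).
-/

set_option autoImplicit false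
set_option linter.unusedSectionVars false
set_option linter.unusedVariables false
set_option linter.style.haveILetI false

open AlgebraicCurve ModularCurve Polynomial

noncomputable section

namespace Fermat.Agent.P5

open Fermat.Agent.S37 Fermat.Agent.Red.GV Fermat.Agent.Red

section Red

variable (A : ValuationSubring Kbar) (M : ℕ)

/-- the reduction, as a ring homomorphism to the special fibre field. -/
def h40fRed : gaussV A M →+* h13sFt A M where
  toFun := h13sRed A M
  map_one' := Subtype.ext (map_one (h13sR A M))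
  map_mul' x y := Subtype.ext (map_mul (h13sR A M) x y)
  map_zero' := Subtype.ext (map_zero (h13sR A M))
  map_add' x y := Subtype.ext (map_add (h13sR A M) x y)

theorem h40fRed_apply (x : gaussV A M) : h40fRed A M x = h13sRed A M x := rfl

theorem h40f_incl_red (x : gaussV A M) : h13sIncl A M (h40fRed A M x) = h13sR A M x := rfl

theorem h40f_incl_injective : Function.Injective (h13sIncl A M) :=
  (h13sIncl A M).toRingHom.injective

theorem h40f_algebraMap_Ft (c : h13sK A) :
    h13sIncl A M (algebraMap (h13sK A) (h13sFt A M) c) = HahnSeries.C c := by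
  rw [AlgHom.commutes, h40f_algebraMap_eq]

/-- the reduction of a constant of `A`, in the special fibre field. -/
theorem h40fRed_cst (a : A) :
    h40fRed A M (h40fCst A M a) = algebraMap (h13sK A) (h13sFt A M) (h13sPi A a) := by
  apply h40f_incl_injective A M
  rw [h40f_incl_red, h40f_red_cst, h40f_algebraMap_Ft]

variable {ℓ : ℕ} [NeZero M]

theorem h40fRed_eq_zero_iff (hℓ : ℓ.Prime) (hM : ¬ ℓ ∣ M) (hA : A.LiesOverPrime ℓ)
    (x : gaussV A M) :
    h40fRed A M x = 0 ↔ (x : FF M) = 0 ∨ (x : FF M)⁻¹ ∉ gaussV A M := by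
  rw [← gaussR_eq_zero_iff A M hℓ hM hA x]
  constructor
  · intro h
    have h1 := congrArg (h13sIncl A M) h
    rw [h40f_incl_red, map_zero] at h1
    exact h1
  · intro h
    apply h40f_incl_injective A M
    rw [h40f_incl_red, map_zero]
    exact h

end Red

section Chart

variable (A : ValuationSubring Kbar) (M : ℕ) (t : FF M) (hV : modelAt M A t ≤ gaussV A M)

/-- the reduction on a chart. -/
def h40fRedB : modelAt M A t →+* h13sFt A M :=
  (h40fRed A M).comp (Subring.inclusion hV)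

theorem h40fRedB_apply (x : modelAt M A t) :
    h40fRedB A M t hV x = h40fRed A M ⟨x.1, hV x.2⟩ := rfl

/-- the image of a chart in the special fibre field, as a `k`-subalgebra. -/
def h40fB : Subalgebra (h13sK A) (h13sFt A M) where
  carrier := Set.range (h40fRedB A M t hV)
  mul_mem' := by
    rintro _ _ ⟨x, rfl⟩ ⟨y, rfl⟩
    exact ⟨x * y, map_mul _ _ _⟩
  one_mem' := ⟨1, map_one _⟩
  add_mem' := by
    rintro _ _ ⟨x, rfl⟩ ⟨y, rfl⟩
    exact ⟨x + y, map_add _ _ _⟩
  zero_mem' := ⟨0, map_zero _⟩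
  algebraMap_mem' := by
    intro c
    obtain ⟨a, rfl⟩ := h40f_pi_surjective A c
    refine ⟨⟨cst M (a : Kbar), ModelO.h85_cst_mem_modelAt M A t a.2⟩, ?_⟩
    rw [h40fRedB_apply]
    exact h40fRed_cst A M a

theorem h40f_mem_B (y : h13sFt A M) :
    y ∈ h40fB A M t hV ↔ ∃ x : modelAt M A t, h40fRedB A M t hV x = y := Iff.rfl

theorem h40f_red_mem_B (x : modelAt M A t) : h40fRedB A M t hV x ∈ h40fB A M t hV := ⟨x, rfl⟩

/-- the reduction of the coordinate lies in the image of the chart. -/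
theorem h40f_t_mem : h40fRed A M ⟨t, hV (ModelO.h85_self_mem_modelAt M A t)⟩ ∈ h40fB A M t hV :=
  ⟨⟨t, ModelO.h85_self_mem_modelAt M A t⟩, rfl⟩

end Chart

/-! ## Fractions -/

section Frac

variable (A : ValuationSubring Kbar) (M : ℕ) (t : FF M) (hV : modelAt M A t ≤ gaussV A M)
variable {ℓ : ℕ} [NeZero M]

set_option synthInstance.maxHeartbeats 400000 in
/-- denominators in a chart over `A`. -/
theorem h40f_den (halg : ∀ y : FF M, IsAlgebraic (Algebra.adjoin Kbar {t}) y) (x : FF M) :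
    ∃ s : FF M, s ≠ 0 ∧ s ∈ modelAt M A t ∧ s * x ∈ modelAt M A t := by
  obtain ⟨d₀, hd₀, hint⟩ := (halg x).exists_integral_multiple
  have hd₀' : ((d₀ : Algebra.adjoin Kbar {t}) : FF M) ≠ 0 := fun h => hd₀ (Subtype.ext h)
  have hint' : IsIntegral (Algebra.adjoin Kbar {t}) ((d₀ : FF M) * x) := hint
  obtain ⟨a₁, ha₁, h1⟩ := GG.GGC97_clear A t _ hint'
  have hd₀int : IsIntegral (Algebra.adjoin Kbar {t}) (d₀ : FF M) := by
    have : (d₀ : FF M) = algebraMap (Algebra.adjoin Kbar {t}) (FF M) d₀ := rfl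
    rw [this]
    exact isIntegral_algebraMap
  obtain ⟨a₂, ha₂, h2⟩ := GG.GGC97_clear A t _ hd₀int
  have hc1 : cst M (a₁ : Kbar) ≠ 0 := fun h =>
    ha₁ ((algebraMap Kbar (FF M)).injective (h.trans (map_zero _).symm))
  have hc2 : cst M (a₂ : Kbar) ≠ 0 := fun h =>
    ha₂ ((algebraMap Kbar (FF M)).injective (h.trans (map_zero _).symm))
  refine ⟨cst M (a₁ : Kbar) * (cst M (a₂ : Kbar) * (d₀ : FF M)),
    mul_ne_zero hc1 (mul_ne_zero hc2 hd₀'), ?_, ?_⟩
  · exact Subring.mul_mem _ (ModelO.h85_cst_mem_modelAt M A t a₁.2) h2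
  · have e : cst M (a₁ : Kbar) * (cst M (a₂ : Kbar) * (d₀ : FF M)) * x =
        cst M (a₂ : Kbar) * (cst M (a₁ : Kbar) * ((d₀ : FF M) * x)) := by ring
    rw [e]
    exact Subring.mul_mem _ (ModelO.h85_cst_mem_modelAt M A t a₂.2) h1

/-- **every element of the special fibre field is a quotient of elements of the image of the
chart.** -/
theorem h40f_frac (hℓ : ℓ.Prime) (hM : ¬ ℓ ∣ M) (hA : A.LiesOverPrime ℓ)
    (halg : ∀ y : FF M, IsAlgebraic (Algebra.adjoin Kbar {t}) y)
    (hqep : ∀ x : FF M, x ∈ gaussV A M → ∀ c : Kbar, c ∈ A → c ≠ 0 →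
      cst M c * x ∈ modelAt M A t → x ∈ modelAt M A t)
    (y : h13sFt A M) :
    ∃ b ∈ h40fB A M t hV, ∃ s ∈ h40fB A M t hV, s ≠ 0 ∧ y * s = b := by
  obtain ⟨x, rfl⟩ := h40f_red_surjective A M hℓ hM hA y
  obtain ⟨s, hs0, hs, hsx⟩ := h40f_den A M t halg (x : FF M)
  obtain ⟨c, hc, hu1, hu2⟩ := exists_cst_mul_unit A M hℓ hM hA s hs0
  have hcc : cst M c ≠ 0 := fun h =>
    hc ((algebraMap Kbar (FF M)).injective (h.trans (map_zero _).symm))
  have hcinv : cst M c⁻¹ * cst M c = 1 := by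
    rw [← map_mul, inv_mul_cancel₀ hc, map_one]
  -- the normalised denominator lies in the chart
  have hs' : cst M c * s ∈ modelAt M A t := by
    rcases A.mem_or_inv_mem c with hcA | hcA
    · exact Subring.mul_mem _ (ModelO.h85_cst_mem_modelAt M A t hcA) hs
    · refine hqep _ hu1 c⁻¹ hcA (inv_ne_zero hc) ?_
      have e : cst M c⁻¹ * (cst M c * s) = s := by rw [← mul_assoc, hcinv, one_mul]
      rw [e]
      exact hs
  -- the normalised numerator lies in the chart
  have hbV : cst M c * s * (x : FF M) ∈ gaussV A M := Subring.mul_mem _ hu1 x.2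
  have hb' : cst M c * s * (x : FF M) ∈ modelAt M A t := by
    rcases A.mem_or_inv_mem c with hcA | hcA
    · rw [mul_assoc]
      exact Subring.mul_mem _ (ModelO.h85_cst_mem_modelAt M A t hcA) hsx
    · refine hqep _ hbV c⁻¹ hcA (inv_ne_zero hc) ?_
      have e : cst M c⁻¹ * (cst M c * s * (x : FF M)) = s * (x : FF M) := by
        rw [← mul_assoc, ← mul_assoc, hcinv, one_mul]
      rw [e]
      exact hsx
  refine ⟨h40fRedB A M t hV ⟨_, hb'⟩, h40f_red_mem_B A M t hV _,
    h40fRedB A M t hV ⟨_, hs'⟩, h40f_red_mem_B A M t hV _, ?_, ?_⟩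
  · rw [h40fRedB_apply]
    intro h
    rcases (h40fRed_eq_zero_iff A M hℓ hM hA _).mp h with h1 | h1
    · exact mul_ne_zero hcc hs0 h1
    · exact h1 hu2
  · rw [h40fRedB_apply, h40fRedB_apply]
    show h40fRed A M x * h40fRed A M ⟨cst M c * s, hV hs'⟩ = _
    rw [← map_mul]
    congr 1
    apply Subtype.ext
    show (x : FF M) * (cst M c * s) = cst M c * s * (x : FF M)
    ring

end Frac

/-! ## Finiteness -/

section Fin

variable (A : ValuationSubring Kbar) (M : ℕ) (t : FF M) (hV : modelAt M A t ≤ gaussV A M)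

theorem h40f_ev_mem (p : Polynomial A) : ModelO.h85ev M A t p ∈ modelAt M A t := by
  apply Match.ringAdj_le_modelAt M A t
  rw [ModelO.h85_ringAdj_eq_range]
  exact ⟨p, rfl⟩

/-- the evaluation `A[X] → modelAt`. -/
def h40fEv : Polynomial A →+* modelAt M A t :=
  (ModelO.h85ev M A t).codRestrict (modelAt M A t) (h40f_ev_mem A M t)

theorem h40fEv_coe (p : Polynomial A) :
    ((h40fEv A M t p : modelAt M A t) : FF M) = ModelO.h85ev M A t p := rfl

/-- the reduction of the coordinate. -/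
def h40fX : h13sFt A M := h40fRed A M ⟨t, hV (ModelO.h85_self_mem_modelAt M A t)⟩

/-- **the reduction commutes with the evaluation.** -/
theorem h40f_red_ev (p : Polynomial A) :
    h40fRedB A M t hV (h40fEv A M t p) =
      Polynomial.aeval (h40fX A M t hV) (p.map (h13sPi A)) := by
  have h : (h40fRedB A M t hV).comp (h40fEv A M t) =
      ((Polynomial.aeval (h40fX A M t hV) :
        Polynomial (h13sK A) →ₐ[h13sK A] h13sFt A M) : Polynomial (h13sK A) →+* h13sFt A M).comp
        (Polynomial.mapRingHom (h13sPi A)) := by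
    apply Polynomial.ringHom_ext
    · intro a
      rw [RingHom.comp_apply, RingHom.comp_apply, Polynomial.coe_mapRingHom,
        Polynomial.map_C]
      show h40fRedB A M t hV (h40fEv A M t (C a)) = Polynomial.aeval _ (C (h13sPi A a))
      rw [Polynomial.aeval_C, ← h40fRed_cst A M a, h40fRedB_apply]
      congr 1
      apply Subtype.ext
      show ModelO.h85ev M A t (C a) = cst M (a : Kbar)
      exact ModelO.h85ev_C M A t a
    · rw [RingHom.comp_apply, RingHom.comp_apply, Polynomial.coe_mapRingHom,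
        Polynomial.map_X]
      show h40fRedB A M t hV (h40fEv A M t X) = Polynomial.aeval _ X
      rw [Polynomial.aeval_X, h40fRedB_apply]
      show _ = h40fRed A M _
      congr 1
      apply Subtype.ext
      show ModelO.h85ev M A t X = t
      exact ModelO.h85ev_X M A t
  exact congrArg (fun φ : Polynomial A →+* h13sFt A M => φ p) h

variable [NeZero M]

/-- **the image of a finite chart is a finitely generated `k[red t]`-module.** -/
theorem h40f_fin (hfin : GG.IfaceFinite M A t) :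
    ∃ T : Finset (h13sFt A M), (∀ y ∈ T, y ∈ h40fB A M t hV) ∧
      ∀ b ∈ h40fB A M t hV, ∃ c : h13sFt A M → Polynomial (h13sK A),
        b = ∑ y ∈ T, Polynomial.aeval (h40fX A M t hV) (c y) * y := by
  classical
  obtain ⟨S, hS, hgen⟩ := hfin
  let r : {s // s ∈ S} → h13sFt A M := fun s => h40fRedB A M t hV ⟨s.1, hS s.1 s.2⟩
  refine ⟨S.attach.image r, ?_, ?_⟩
  · intro y hy
    obtain ⟨s, -, rfl⟩ := Finset.mem_image.mp hy
    exact h40f_red_mem_B A M t hV _
  · rintro _ ⟨x, rfl⟩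
    obtain ⟨c, hc⟩ := hgen x.1 x.2
    have hx : x = ∑ s ∈ S.attach, h40fEv A M t (c s.1) * ⟨s.1, hS s.1 s.2⟩ := by
      apply Subtype.ext
      rw [hc, ← Finset.sum_attach S]
      rw [show (((∑ s ∈ S.attach, h40fEv A M t (c s.1) * ⟨s.1, hS s.1 s.2⟩ :
          modelAt M A t) : modelAt M A t) : FF M) =
          (modelAt M A t).subtype (∑ s ∈ S.attach, h40fEv A M t (c s.1) * ⟨s.1, hS s.1 s.2⟩)
          from rfl, map_sum]
      rfl
    refine ⟨fun y => ∑ s ∈ S.attach.filter (fun s => r s = y), (c s.1).map (h13sPi A), ?_⟩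
    have h1 : h40fRedB A M t hV x =
        ∑ s ∈ S.attach, Polynomial.aeval (h40fX A M t hV) ((c s.1).map (h13sPi A)) * r s := by
      conv_lhs => rw [hx]
      rw [map_sum]
      refine Finset.sum_congr rfl fun s _ => ?_
      rw [map_mul, h40f_red_ev]
    rw [h1, ← Finset.sum_fiberwise_of_maps_to (g := r) (t := S.attach.image r)
      (fun s hs => Finset.mem_image_of_mem r hs)]
    refine Finset.sum_congr rfl fun y _ => ?_
    rw [map_sum, Finset.sum_mul]
    refine Finset.sum_congr rfl fun s hs => ?_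
    rw [(Finset.mem_filter.mp hs).2]

end Fin

/-! ## The image of a chart is its special fibre -/

section Ded

variable (A : ValuationSubring Kbar) (M : ℕ) (t : FF M) (hV : modelAt M A t ≤ gaussV A M)

/-- the reduction, onto the image of the chart. -/
def h40fRedOnto : modelAt M A t →+* ↥(h40fB A M t hV) :=
  (h40fRedB A M t hV).codRestrict (h40fB A M t hV) (fun x => ⟨x, rfl⟩)

theorem h40fRedOnto_coe (x : modelAt M A t) :
    ((h40fRedOnto A M t hV x : ↥(h40fB A M t hV)) : h13sFt A M) = h40fRedB A M t hV x := rfl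

theorem h40fRedOnto_surjective : Function.Surjective (h40fRedOnto A M t hV) := by
  rintro ⟨_, x, rfl⟩
  exact ⟨x, rfl⟩

variable {ℓ : ℕ} [NeZero M]

/-- the kernel of the reduction on the chart is `𝔪_A · modelAt`. -/
theorem h40f_ker (hA : A.LiesOverPrime ℓ)
    (hker : ∀ x : gaussV A M, (x : FF M) ∈ modelAt M A t → gaussR A M x = 0 →
      ∃ (c : Kbar) (x' : FF M), c ≠ 0 ∧ c ∈ A.nonunits ∧ x' ∈ modelAt M A t ∧
        (x : FF M) = cst M c * x') :
    RingHom.ker (h40fRedOnto A M t hV) = maxExt A (modelAt M A t) := by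
  apply le_antisymm
  · intro x hx
    have h1 : h40fRedB A M t hV x = 0 := by
      have := congrArg (fun z : ↥(h40fB A M t hV) => (z : h13sFt A M)) (RingHom.mem_ker.mp hx)
      exact this
    have h2 : gaussR A M ⟨x.1, hV x.2⟩ = 0 := by
      have := congrArg (h13sIncl A M) h1
      rw [map_zero] at this
      exact this
    obtain ⟨c, x', hc, hnu, hx', hxx'⟩ := hker ⟨x.1, hV x.2⟩ x.2 h2
    have hcA : c ∈ A := Fermat.Agent.Red.GV.Asm.mem_of_mem_nonunits A c hnu
    have e : x = (⟨cst M c, ModelO.h85_cst_mem_modelAt M A t hcA⟩ : modelAt M A t) *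
        ⟨x', hx'⟩ := Subtype.ext hxx'
    rw [e]
    exact Ideal.mul_mem_right _ _ (Ideal.subset_span ⟨c, hnu, rfl⟩)
  · intro x hx
    have h1 := Fermat.Agent.Red.GG.h67_maxExt_le_ker M A t hA hV hx
    rw [RingHom.mem_ker, Fermat.Agent.Red.GG.h67red_apply] at h1
    rw [RingHom.mem_ker]
    apply Subtype.ext
    apply h40f_incl_injective A M
    show h13sIncl A M (h40fRedB A M t hV x) = h13sIncl A M 0
    rw [map_zero]
    exact h1

/-- **the image of the chart is the special fibre of the chart.** -/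
def h40fEquiv (hA : A.LiesOverPrime ℓ)
    (hker : ∀ x : gaussV A M, (x : FF M) ∈ modelAt M A t → gaussR A M x = 0 →
      ∃ (c : Kbar) (x' : FF M), c ≠ 0 ∧ c ∈ A.nonunits ∧ x' ∈ modelAt M A t ∧
        (x : FF M) = cst M c * x') :
    (modelAt M A t ⧸ maxExt A (modelAt M A t)) ≃+* ↥(h40fB A M t hV) :=
  (Ideal.quotEquivOfEq (h40f_ker A M t hV hA hker).symm).trans
    (RingHom.quotientKerEquivOfSurjective (h40fRedOnto_surjective A M t hV))

/-- the image of the chart is a Dedekind domain as soon as the special fibre of the chart is. -/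
theorem h40f_ded_of (hA : A.LiesOverPrime ℓ)
    (hker : ∀ x : gaussV A M, (x : FF M) ∈ modelAt M A t → gaussR A M x = 0 →
      ∃ (c : Kbar) (x' : FF M), c ≠ 0 ∧ c ∈ A.nonunits ∧ x' ∈ modelAt M A t ∧
        (x : FF M) = cst M c * x')
    (hded : IsDedekindDomain (modelAt M A t ⧸ maxExt A (modelAt M A t))) :
    IsDedekindDomain ↥(h40fB A M t hV) :=
  Fermat.Agent.LGC.h13l_isDedekindDomain_of_ringEquiv (h40fEquiv A M t hV hA hker)

end Ded

/-! ## The package -/

/-- **the two Dedekind charts of a function field** (data consumed by the abstract place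
theory): `x ∈ B`, `x⁻¹ ∈ B∞`, both Dedekind with fraction field `F`, finitely generated as
modules over `k[x]`, resp. `k[x⁻¹]`. -/
structure H40fData (k F : Type*) [Field k] [Field F] [Algebra k F] (x : F)
    (B Binf : Subalgebra k F) : Prop where
  x_mem : x ∈ B
  xinv_mem : x⁻¹ ∈ Binf
  x_ne : x ≠ 0
  transc : Transcendental k x
  ded : IsDedekindDomain B
  dedInf : IsDedekindDomain Binf
  frac : ∀ y : F, ∃ b ∈ B, ∃ s ∈ B, s ≠ 0 ∧ y * s = b
  fracInf : ∀ y : F, ∃ b ∈ Binf, ∃ s ∈ Binf, s ≠ 0 ∧ y * s = b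
  fin : ∃ T : Finset F, (∀ y ∈ T, y ∈ B) ∧
    ∀ b ∈ B, ∃ c : F → Polynomial k, b = ∑ y ∈ T, Polynomial.aeval x (c y) * y
  finInf : ∃ T : Finset F, (∀ y ∈ T, y ∈ Binf) ∧
    ∀ b ∈ Binf, ∃ c : F → Polynomial k, b = ∑ y ∈ T, Polynomial.aeval x⁻¹ (c y) * y

section Package

variable (A : ValuationSubring Kbar) (M : ℕ) [NeZero M] {ℓ : ℕ}

theorem h40f_hVfin (hℓ : ℓ.Prime) (hM : ¬ ℓ ∣ M) (hA : A.LiesOverPrime ℓ) :
    modelAt M A (jB M) ≤ gaussV A M := modelFin_le_gaussV A M hℓ hM hA

theorem h40f_hVinf (hℓ : ℓ.Prime) (hM : ¬ ℓ ∣ M) (hA : A.LiesOverPrime ℓ) :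
    modelAt M A (jB M)⁻¹ ≤ gaussV A M := modelInf_le_gaussV A M hℓ hM hA

/-- the image of the finite chart. -/
def h40fBfin (hℓ : ℓ.Prime) (hM : ¬ ℓ ∣ M) (hA : A.LiesOverPrime ℓ) :
    Subalgebra (h13sK A) (h13sFt A M) :=
  h40fB A M (jB M) (h40f_hVfin A M hℓ hM hA)

/-- the image of the chart at infinity. -/
def h40fBinf (hℓ : ℓ.Prime) (hM : ¬ ℓ ∣ M) (hA : A.LiesOverPrime ℓ) :
    Subalgebra (h13sK A) (h13sFt A M) :=
  h40fB A M (jB M)⁻¹ (h40f_hVinf A M hℓ hM hA)

/-- the reduction of `j`. -/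
def h40fJ : h13sFt A M := h40fRed A M ⟨jB M, jB_mem_gaussV A M⟩

theorem h40f_incl_J : h13sIncl A M (h40fJ A M) = jK (h13sK A) := gaussR_jB A M

theorem h40f_J_ne_zero : h40fJ A M ≠ 0 := by
  intro h
  have h1 := congrArg (h13sIncl A M) h
  rw [h40f_incl_J, map_zero] at h1
  exact Fermat.Agent.Red.GV.Asm.jK_ne_zero (h13sK A) h1

/-- the reduction of `j` is transcendental over `k`. -/
theorem h40f_J_transcendental : Transcendental (h13sK A) (h40fJ A M) := by
  intro h
  have h1 : IsAlgebraic (h13sK A) (h13sIncl A M (h40fJ A M)) := IsAlgebraic.algHom (h13sIncl A M) h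
  rw [h40f_incl_J] at h1
  exact h36_transcendental_jK (h13sK A) h1

theorem h40fX_fin (hℓ : ℓ.Prime) (hM : ¬ ℓ ∣ M) (hA : A.LiesOverPrime ℓ) :
    h40fX A M (jB M) (h40f_hVfin A M hℓ hM hA) = h40fJ A M := rfl

theorem h40fX_inf (hℓ : ℓ.Prime) (hM : ¬ ℓ ∣ M) (hA : A.LiesOverPrime ℓ) :
    h40fX A M (jB M)⁻¹ (h40f_hVinf A M hℓ hM hA) = (h40fJ A M)⁻¹ := by
  have h1 : h40fX A M (jB M)⁻¹ (h40f_hVinf A M hℓ hM hA) * h40fJ A M = 1 := by
    show h40fRed A M _ * h40fRed A M _ = 1
    rw [← map_mul]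
    have e : (⟨(jB M)⁻¹, h40f_hVinf A M hℓ hM hA (ModelO.h85_self_mem_modelAt M A (jB M)⁻¹)⟩ :
        gaussV A M) * ⟨jB M, jB_mem_gaussV A M⟩ = 1 := by
      apply Subtype.ext
      show (jB M)⁻¹ * jB M = 1
      exact inv_mul_cancel₀ (fun h => GG.GGC97_transcendental_jB M (by rw [h]; exact isAlgebraic_zero))
    rw [e, map_one]
  exact eq_inv_of_mul_eq_one_left h1

/-- **the special fibre of a good level: the two Dedekind charts.** -/
theorem h40f_data (hℓ : ℓ.Prime) (hM : ¬ ℓ ∣ M) (haux : auxLevel ℓ ∣ M)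
    (hA : A.LiesOverPrime ℓ) :
    H40fData (h13sK A) (h13sFt A M) (h40fJ A M) (h40fBfin A M hℓ hM hA)
      (h40fBinf A M hℓ hM hA) where
  x_mem := h40f_t_mem A M (jB M) (h40f_hVfin A M hℓ hM hA)
  xinv_mem := by
    rw [← h40fX_inf A M hℓ hM hA]
    exact h40f_t_mem A M (jB M)⁻¹ (h40f_hVinf A M hℓ hM hA)
  x_ne := h40f_J_ne_zero A M
  transc := h40f_J_transcendental A M
  ded := h40f_ded_of A M (jB M) (h40f_hVfin A M hℓ hM hA) hA
    (fun x hx h0 => exists_eq_cst_mul_of_gaussR_eq_zero_fin A M hℓ hM hA x hx h0)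
    (Fermat.Agent.Red.SM.h13_ifaceSmooth ℓ hℓ M hM haux A hA).1
  dedInf := h40f_ded_of A M (jB M)⁻¹ (h40f_hVinf A M hℓ hM hA) hA
    (fun x hx h0 => exists_eq_cst_mul_of_gaussR_eq_zero_inf A M hℓ hM hA x hx h0)
    (Fermat.Agent.Red.SM.h13_ifaceSmooth ℓ hℓ M hM haux A hA).2
  frac := h40f_frac A M (jB M) (h40f_hVfin A M hℓ hM hA) hℓ hM hA
    (Fermat.Agent.Red.SM.HAlg.h81a_halg_jB M)
    (fun x hx c hcA hc h => mem_modelFin_of_cst_mul A M hℓ hM hA x hx c hcA hc h)
  fracInf := h40f_frac A M (jB M)⁻¹ (h40f_hVinf A M hℓ hM hA) hℓ hM hA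
    (Fermat.Agent.Red.SM.HAlg.h81a_halg_jB_inv M)
    (fun x hx c hcA hc h => mem_modelInf_of_cst_mul A M hℓ hM hA x hx c hcA hc h)
  fin := h40f_fin A M (jB M) (h40f_hVfin A M hℓ hM hA)
    (Fermat.Agent.Red.ModelO.h85_ifaceFinite_fin hℓ hM hA)
  finInf := by
    rw [← h40fX_inf A M hℓ hM hA]
    exact h40f_fin A M (jB M)⁻¹ (h40f_hVinf A M hℓ hM hA)
      (Fermat.Agent.Red.ModelO.h85_ifaceFinite_inf hℓ hM hA)

end Package

end Fermat.Agent.P5
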