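import Mathlib

/-!
# Wave 5, pillar (P), block GEO-RR-SF: glue for the special fibre (helper48)

Abstract (Mathlib only) adapters between the "subalgebra" shape of the two Dedekind charts of
the special fibre (`B : Subalgebra k F` with `frac`, `fin`) and the "typeclass" shape of the
abstract char-free theorems.

* `h48s_isFractionRing`   : `IsFractionRing B F` from `frac`.
* `h48s_fin_subtype`      : the finiteness statement with a `Finset B`.
* `h48s_finiteDimensional`: `F` is finite-dimensional over `k(x)` from `fin` and `frac`.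
-/

set_option autoImplicit false

noncomputable section

namespace Fermat.Agent.P5

open IntermediateField

variable {k F : Type*} [Field k] [Field F] [Algebra k F]

/-- **(A1)** `F` is the fraction field of the chart `B`. -/
theorem h48s_isFractionRing (B : Subalgebra k F)
    (hfrac : ∀ y : F, ∃ b ∈ B, ∃ s ∈ B, s ≠ 0 ∧ y * s = b) : IsFractionRing B F := by
  refine IsFractionRing.of_field B F fun z => ?_
  obtain ⟨b, hb, s, hs, hs0, hzs⟩ := hfrac z
  refine ⟨⟨b, hb⟩, ⟨s, hs⟩, ?_⟩
  show z = b / s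
  rw [eq_div_iff hs0, hzs]

/-- **(A2)** the finiteness statement of a chart, with generators in `B`. -/
theorem h48s_fin_subtype (x : F) (B : Subalgebra k F) (hx : x ∈ B)
    (hfin : ∃ T : Finset F, (∀ t ∈ T, t ∈ B) ∧ ∀ b ∈ B, ∃ c : F → Polynomial k,
      b = ∑ t ∈ T, Polynomial.aeval x (c t) * t) :
    ∃ S : Finset B, ∀ b : B, ∃ c : B → Polynomial k,
      b = ∑ s ∈ S, Polynomial.aeval (⟨x, hx⟩ : B) (c s) * s := by
  classical
  obtain ⟨T, hT, hgen⟩ := hfin
  refine ⟨T.subtype (· ∈ B), fun b => ?_⟩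
  obtain ⟨c, hc⟩ := hgen b.1 b.2
  refine ⟨fun s => c s.1, Subtype.ext ?_⟩
  rw [hc]
  simp only [AddSubmonoidClass.coe_finsetSum, MulMemClass.coe_mul,
    Polynomial.aeval_subalgebra_coe]
  rw [Finset.sum_subtype_of_mem (fun t => Polynomial.aeval x (c t) * t) hT]

/-- `p(x)` lies in `k(x)`. -/
theorem h48s_aeval_mem_adjoin (x : F) (p : Polynomial k) : Polynomial.aeval x p ∈ k⟮x⟯ := by
  have h : Polynomial.aeval x p ∈ Algebra.adjoin k ({x} : Set F) := by
    rw [Algebra.adjoin_singleton_eq_range_aeval]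
    exact ⟨p, rfl⟩
  exact IntermediateField.algebra_adjoin_le_adjoin k _ h

/-- **(A3)** `F` is finite-dimensional over `k(x)`. -/
theorem h48s_finiteDimensional (x : F) (B : Subalgebra k F)
    (hfrac : ∀ y : F, ∃ b ∈ B, ∃ s ∈ B, s ≠ 0 ∧ y * s = b)
    (hfin : ∃ T : Finset F, (∀ t ∈ T, t ∈ B) ∧ ∀ b ∈ B, ∃ c : F → Polynomial k,
      b = ∑ t ∈ T, Polynomial.aeval x (c t) * t) :
    FiniteDimensional k⟮x⟯ F := by
  classical
  obtain ⟨T, hT, hgen⟩ := hfin
  have hBV : ∀ b ∈ B, b ∈ Submodule.span k⟮x⟯ (T : Set F) := by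
    intro b hb
    obtain ⟨c, hc⟩ := hgen b hb
    rw [hc]
    refine Submodule.sum_mem _ fun t ht => ?_
    have h1 : Polynomial.aeval x (c t) * t =
        (⟨Polynomial.aeval x (c t), h48s_aeval_mem_adjoin x (c t)⟩ : k⟮x⟯) • t := rfl
    rw [h1]
    exact Submodule.smul_mem _ _ (Submodule.subset_span ht)
  have hmul : ∀ v ∈ Submodule.span k⟮x⟯ (T : Set F), ∀ w ∈ Submodule.span k⟮x⟯ (T : Set F),
      v * w ∈ Submodule.span k⟮x⟯ (T : Set F) := by
    intro v hv w hw
    induction hv using Submodule.span_induction with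
    | mem t ht =>
      induction hw using Submodule.span_induction with
      | mem t' ht' => exact hBV _ (B.mul_mem (hT t ht) (hT t' ht'))
      | zero => rw [mul_zero]; exact Submodule.zero_mem _
      | add a b _ _ ha hb => rw [mul_add]; exact Submodule.add_mem _ ha hb
      | smul e a _ ha =>
        rw [mul_smul_comm]
        exact Submodule.smul_mem _ _ ha
    | zero => rw [zero_mul]; exact Submodule.zero_mem _
    | add a b _ _ ha hb => rw [add_mul]; exact Submodule.add_mem _ ha hb
    | smul e a _ ha =>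
      rw [smul_mul_assoc]
      exact Submodule.smul_mem _ _ ha
  let S : Subalgebra k⟮x⟯ F :=
    { carrier := (Submodule.span k⟮x⟯ (T : Set F) : Set F)
      mul_mem' := fun {a b} ha hb => hmul a ha b hb
      add_mem' := fun {a b} ha hb => Submodule.add_mem _ ha hb
      one_mem' := hBV 1 B.one_mem
      zero_mem' := Submodule.zero_mem _
      algebraMap_mem' := fun e => by
        have h1 : algebraMap k⟮x⟯ F e = e • (1 : F) := by
          rw [Algebra.smul_def, mul_one]
        show algebraMap k⟮x⟯ F e ∈ Submodule.span k⟮x⟯ (T : Set F)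
        rw [h1]
        exact Submodule.smul_mem _ _ (hBV 1 B.one_mem) }
  have hS : S.toSubmodule = Submodule.span k⟮x⟯ (T : Set F) := rfl
  have hSfg : S.toSubmodule.FG := ⟨T, hS.symm⟩
  have htop : ∀ y : F, y ∈ S := by
    intro y
    obtain ⟨b, hb, s, hs, hs0, hys⟩ := hfrac y
    have hsS : s ∈ S := hBV s hs
    have hsint : IsIntegral k⟮x⟯ s := IsIntegral.of_mem_of_fg S hSfg s hsS
    have hsinv : s⁻¹ ∈ S := S.inv_mem_of_algebraic (x := ⟨s, hsS⟩) hsint.isAlgebraic
    have hy : y = b * s⁻¹ := by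
      rw [← hys, mul_assoc, mul_inv_cancel₀ hs0, mul_one]
    rw [hy]
    exact S.mul_mem (hBV b hb) hsinv
  have hVtop : (⊤ : Submodule k⟮x⟯ F) = Submodule.span k⟮x⟯ (T : Set F) := by
    apply le_antisymm
    · intro y _
      exact htop y
    · exact le_top
  exact Module.Finite.of_fg_top (hVtop ▸ ⟨T, rfl⟩)

end Fermat.Agent.P5
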