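import Mathlib
import Fermat.Prelude.Def_AlgebraicCurve_Repartitions
import Fermat.Agent.S24.PlaceDict

/-!
# Wave 5, pillar (P), block GEO-GENUS: the two-chart dictionary (helper85)

`F / K` an abstract function field (Prelude vocabulary `Place K F`, `Divisor K F`,
`riemannRochSpace`), `x : F` nonzero, `B0`, `Binf` two sets of functions ("the functions regular
on the chart `x ≠ ∞`", resp. "on the chart `x ≠ 0`").

* `H85fHolo K F x B` : `B` is the holomorphy ring of the chart `x`, i.e. `f ∈ B` iff `f` is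
  regular at every place at which `x` is regular.
* `h85f_holo_of_dedekind` : a Dedekind domain `R` with fraction field `F` containing `x`, all of
  whose elements are regular wherever `x` is, is the holomorphy ring of the chart `x`.
* `h85f_dict` : for the pole divisor `D` of `x` and `n : ℕ`:
  `f ∈ L(n • D) ↔ f ∈ B0 ∧ ∃ b ∈ Binf, f = x ^ n * b`.
* `h85f_regular_of_isIntegral` : an element integral over `K[x]` is regular wherever `x` is.

Everything is characteristic free; it is meant to be used on the generic fibre (DICT-G) and on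
the special fibre (DICT-S).
-/

set_option autoImplicit false

noncomputable section

namespace Fermat.Agent.P5

open AlgebraicCurve IsDedekindDomain WithZero

variable {K F : Type*} [Field K] [Field F] [Algebra K F]

/-! ### Membership in the valuation ring of a place -/

theorem h85f_mem_iff (v : Place K F) (f : F) :
    f ∈ v.toValuationSubring ↔ v.adicValuation f ≤ 1 := by
  refine ⟨fun h => v.adicValuation_le_one_of_mem h, fun h => ?_⟩
  by_contra hf
  have hf0 : f ≠ 0 := fun h0 => hf (h0 ▸ v.toValuationSubring.zero_mem)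
  have hinv : f⁻¹ ∈ v.toValuationSubring :=
    (v.toValuationSubring.mem_or_inv_mem f).resolve_left hf
  have hnu : ¬ IsUnit (⟨f⁻¹, hinv⟩ : v.toValuationSubring) := by
    intro hu
    obtain ⟨u, hu⟩ := hu
    have h1 : ((u⁻¹ : (v.toValuationSubring)ˣ) : v.toValuationSubring) * ⟨f⁻¹, hinv⟩ = 1 := by
      rw [← hu]; exact u.inv_mul
    have h2 : (((u⁻¹ : (v.toValuationSubring)ˣ) : v.toValuationSubring) : F) * f⁻¹ = 1 := by
      have := congrArg Subtype.val h1
      simpa using this
    have h3 : (((u⁻¹ : (v.toValuationSubring)ˣ) : v.toValuationSubring) : F) = f := by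
      field_simp at h2
      exact h2
    exact hf (h3 ▸ ((u⁻¹ : (v.toValuationSubring)ˣ) : v.toValuationSubring).2)
  have h1 : v.adicValuation f⁻¹ ≤ 1 := v.adicValuation_le_one_of_mem hinv
  have h2 : v.adicValuation f⁻¹ ≠ 1 := fun h =>
    hnu ((v.adicValuation_coe_eq_one_iff ⟨f⁻¹, hinv⟩).mp h)
  have h3 : v.adicValuation f⁻¹ < 1 := lt_of_le_of_ne h1 h2
  have h4 : v.adicValuation f * v.adicValuation f⁻¹ = 1 := by
    rw [← map_mul, mul_inv_cancel₀ hf0, map_one]
  have h5 : v.adicValuation f * v.adicValuation f⁻¹ < 1 := by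
    calc v.adicValuation f * v.adicValuation f⁻¹
        ≤ 1 * v.adicValuation f⁻¹ := by gcongr
      _ = v.adicValuation f⁻¹ := one_mul _
      _ < 1 := h3
  exact absurd h4 (ne_of_lt h5)

theorem h85f_mem_iff_ord (v : Place K F) {f : F} (hf : f ≠ 0) :
    f ∈ v.toValuationSubring ↔ 0 ≤ v.ord f := by
  rw [h85f_mem_iff, v.adicValuation_le_one_iff, or_iff_right hf]

theorem h85f_not_mem_iff_ord (v : Place K F) {f : F} :
    f ∉ v.toValuationSubring ↔ v.ord f < 0 := by
  rw [h85f_mem_iff, v.not_adicValuation_le_one_iff]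

/-- an element integral over `K[x]` is regular wherever `x` is. -/
theorem h85f_regular_of_isIntegral (v : Place K F) {x r : F}
    (hx : x ∈ v.toValuationSubring) (hr : IsIntegral (Algebra.adjoin K {x}) r) :
    r ∈ v.toValuationSubring := by
  let S : Subalgebra K F :=
    { v.toValuationSubring.toSubring with algebraMap_mem' := v.algebraMap_mem' }
  have hleS : Algebra.adjoin K {x} ≤ S :=
    Algebra.adjoin_le (by
      intro y hy
      rw [Set.mem_singleton_iff] at hy
      subst hy
      exact hx)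
  have hle : (Algebra.adjoin K {x}).toSubring ≤ v.toValuationSubring.toSubring :=
    fun y hy => hleS hy
  obtain ⟨p, hp, hpr⟩ := hr
  -- transport the monic equation to the valuation ring
  let ι : Algebra.adjoin K {x} →+* v.toValuationSubring :=
    (Subring.inclusion hle)
  have hint : IsIntegral v.toValuationSubring r := by
    refine ⟨p.map ι, hp.map ι, ?_⟩
    rw [Polynomial.eval₂_map]
    have : (algebraMap v.toValuationSubring F).comp ι = algebraMap (Algebra.adjoin K {x}) F := by
      ext y; rfl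
    rw [this]
    exact hpr
  have hic : IsIntegrallyClosedIn v.toValuationSubring F :=
    (isIntegrallyClosed_iff_isIntegrallyClosedIn F).mp inferInstance
  obtain ⟨y, hy⟩ := IsIntegrallyClosedIn.isIntegral_iff.mp hint
  rw [← hy]
  exact y.2

/-! ### Holomorphy rings -/

variable (K F) in
/-- `B` is the holomorphy ring of the chart `x`: the functions regular at every place at which
`x` is regular. -/
def H85fHolo (x : F) (B : Set F) : Prop :=
  ∀ f : F, f ∈ B ↔ ∀ v : Place K F, x ∈ v.toValuationSubring → f ∈ v.toValuationSubring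

section Dedekind

variable {R : Type*} [CommRing R] [IsDedekindDomain R] [Algebra R F] [IsFractionRing R F]
  [Algebra K R] [IsScalarTower K R F]

theorem h85f_mem_ofHeightOneSpectrum (P : HeightOneSpectrum R) (f : F) :
    f ∈ (Place.ofHeightOneSpectrum (K := K) (F := F) P).toValuationSubring ↔
      P.valuation F f ≤ 1 := by
  rw [Place.ofHeightOneSpectrum_toValuationSubring, Valuation.mem_valuationSubring_iff]

/-- a Dedekind chart is a holomorphy ring. -/
theorem h85f_holo_of_dedekind {x : F} (hx : x ∈ (algebraMap R F).range)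
    (hreg : ∀ v : Place K F, x ∈ v.toValuationSubring →
      ∀ r : R, algebraMap R F r ∈ v.toValuationSubring) :
    H85fHolo K F x (Set.range (algebraMap R F)) := by
  intro f
  constructor
  · rintro ⟨r, rfl⟩ v hv
    exact hreg v hv r
  · intro h
    have := HeightOneSpectrum.mem_integers_of_valuation_le_one (R := R) F f (fun P => by
      rw [← h85f_mem_ofHeightOneSpectrum (K := K)]
      refine h _ ?_
      obtain ⟨x0, rfl⟩ := hx
      rw [h85f_mem_ofHeightOneSpectrum]
      exact P.valuation_le_one x0)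
    exact this

end Dedekind

/-! ### The dictionary -/

/-- **DICT** (both fibres): `L(n • (x)_∞) = B0 ∩ x ^ n • Binf` for the two holomorphy rings. -/
theorem h85f_dict {x : F} (hx0 : x ≠ 0) {B0 Binf : Set F}
    (h0 : H85fHolo K F x B0) (hinf : H85fHolo K F x⁻¹ Binf)
    (D : Divisor K F) (hD : ∀ v : Place K F, D v = max 0 (-(v.ord x))) (n : ℕ) (f : F) :
    f ∈ riemannRochSpace (n • D) ↔ f ∈ B0 ∧ ∃ b ∈ Binf, f = x ^ n * b := by
  have hxn : x ^ n ≠ 0 := pow_ne_zero n hx0
  rw [mem_riemannRochSpace_iff]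
  constructor
  · intro h
    refine ⟨(h0 f).mpr fun v hv => ?_, x⁻¹ ^ n * f, (hinf _).mpr fun v hv => ?_, ?_⟩
    · rcases h v with rfl | h1
      · exact v.toValuationSubring.zero_mem
      · by_cases hf : f = 0
        · subst hf; exact v.toValuationSubring.zero_mem
        rw [h85f_mem_iff_ord v hf]
        have hx' : 0 ≤ v.ord x := (h85f_mem_iff_ord v hx0).mp hv
        have hDv : D v = 0 := by rw [hD v]; exact max_eq_left (by omega)
        have : (n • D) v = 0 := by rw [Finsupp.smul_apply, hDv, smul_zero]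
        rw [this] at h1
        simpa using h1
    · by_cases hf : f = 0
      · subst hf; rw [mul_zero]; exact v.toValuationSubring.zero_mem
      rcases h v with h1 | h1
      · exact absurd h1 hf
      have hne : x⁻¹ ^ n * f ≠ 0 := mul_ne_zero (pow_ne_zero n (inv_ne_zero hx0)) hf
      rw [h85f_mem_iff_ord v hne, v.ord_mul (pow_ne_zero n (inv_ne_zero hx0)) hf]
      have hx' : 0 ≤ v.ord x⁻¹ := (h85f_mem_iff_ord v (inv_ne_zero hx0)).mp hv
      rw [v.ord_inv] at hx'
      have hDv : D v = -(v.ord x) := by rw [hD v]; exact max_eq_right (by omega)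
      have h2 : (n • D) v = (n : ℤ) * -(v.ord x) := by
        rw [Finsupp.smul_apply, hDv]; simp
      rw [h2] at h1
      have h3 : v.ord (x⁻¹ ^ n) = (n : ℤ) * -(v.ord x) := by
        rw [← zpow_natCast, v.ord_zpow, v.ord_inv]
      rw [h3]
      linarith
    · rw [← mul_assoc, ← mul_pow, mul_inv_cancel₀ hx0, one_pow, one_mul]
  · rintro ⟨hf0, b, hb, hfb⟩ v
    by_cases hf : f = 0
    · exact Or.inl hf
    refine Or.inr ?_
    have hDnn : 0 ≤ D v := by rw [hD v]; exact le_max_left _ _
    by_cases hv : x ∈ v.toValuationSubring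
    · have h1 : 0 ≤ v.ord f := (h85f_mem_iff_ord v hf).mp ((h0 f).mp hf0 v hv)
      have h2 : 0 ≤ (n • D) v := by
        rw [Finsupp.smul_apply]
        exact smul_nonneg (Nat.zero_le n) hDnn
      linarith
    · have hxneg : v.ord x < 0 := h85f_not_mem_iff_ord v |>.mp hv
      have hxinv : x⁻¹ ∈ v.toValuationSubring :=
        (v.toValuationSubring.mem_or_inv_mem x).resolve_left hv
      have hb0 : b ≠ 0 := by
        rintro rfl
        exact hf (by rw [hfb, mul_zero])
      have h1 : 0 ≤ v.ord b := (h85f_mem_iff_ord v hb0).mp ((hinf b).mp hb v hxinv)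
      have hDv : D v = -(v.ord x) := by rw [hD v]; exact max_eq_right (by omega)
      have h2 : (n • D) v = (n : ℤ) * -(v.ord x) := by
        rw [Finsupp.smul_apply, hDv]; simp
      have h3 : v.ord (x ^ n) = (n : ℤ) * v.ord x := by
        rw [← zpow_natCast, v.ord_zpow]
      rw [hfb, v.ord_mul hxn hb0, h2, h3]
      linarith

/-- the same with an arbitrary divisor `E` whose values are `n * max 0 (-(ord x))`. -/
theorem h85f_dict' {x : F} (hx0 : x ≠ 0) {B0 Binf : Set F}
    (h0 : H85fHolo K F x B0) (hinf : H85fHolo K F x⁻¹ Binf) (n : ℕ)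
    (E : Divisor K F) (hE : ∀ v : Place K F, E v = (n : ℤ) * max 0 (-(v.ord x))) (f : F) :
    f ∈ riemannRochSpace E ↔ f ∈ B0 ∧ ∃ b ∈ Binf, f = x ^ n * b := by
  have hxn : x ^ n ≠ 0 := pow_ne_zero n hx0
  rw [mem_riemannRochSpace_iff]
  constructor
  · intro h
    refine ⟨(h0 f).mpr fun v hv => ?_, x⁻¹ ^ n * f, (hinf _).mpr fun v hv => ?_, ?_⟩
    · rcases h v with rfl | h1
      · exact v.toValuationSubring.zero_mem
      · by_cases hf : f = 0
        · subst hf; exact v.toValuationSubring.zero_mem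
        rw [h85f_mem_iff_ord v hf]
        have hx' : 0 ≤ v.ord x := (h85f_mem_iff_ord v hx0).mp hv
        have hDv : E v = 0 := by
          rw [hE v, max_eq_left (by omega), mul_zero]
        rw [hDv] at h1
        simpa using h1
    · by_cases hf : f = 0
      · subst hf; rw [mul_zero]; exact v.toValuationSubring.zero_mem
      rcases h v with h1 | h1
      · exact absurd h1 hf
      have hne : x⁻¹ ^ n * f ≠ 0 := mul_ne_zero (pow_ne_zero n (inv_ne_zero hx0)) hf
      rw [h85f_mem_iff_ord v hne, v.ord_mul (pow_ne_zero n (inv_ne_zero hx0)) hf]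
      have hx' : 0 ≤ v.ord x⁻¹ := (h85f_mem_iff_ord v (inv_ne_zero hx0)).mp hv
      rw [v.ord_inv] at hx'
      have h2 : E v = (n : ℤ) * -(v.ord x) := by
        rw [hE v, max_eq_right (by omega)]
      rw [h2] at h1
      have h3 : v.ord (x⁻¹ ^ n) = (n : ℤ) * -(v.ord x) := by
        rw [← zpow_natCast, v.ord_zpow, v.ord_inv]
      rw [h3]
      linarith
    · rw [← mul_assoc, ← mul_pow, mul_inv_cancel₀ hx0, one_pow, one_mul]
  · rintro ⟨hf0, b, hb, hfb⟩ v
    by_cases hf : f = 0
    · exact Or.inl hf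
    refine Or.inr ?_
    by_cases hv : x ∈ v.toValuationSubring
    · have h1 : 0 ≤ v.ord f := (h85f_mem_iff_ord v hf).mp ((h0 f).mp hf0 v hv)
      have h2 : 0 ≤ E v := by
        rw [hE v]
        exact mul_nonneg (Int.natCast_nonneg n) (le_max_left _ _)
      linarith
    · have hxneg : v.ord x < 0 := h85f_not_mem_iff_ord v |>.mp hv
      have hxinv : x⁻¹ ∈ v.toValuationSubring :=
        (v.toValuationSubring.mem_or_inv_mem x).resolve_left hv
      have hb0 : b ≠ 0 := by
        rintro rfl
        exact hf (by rw [hfb, mul_zero])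
      have h1 : 0 ≤ v.ord b := (h85f_mem_iff_ord v hb0).mp ((hinf b).mp hb v hxinv)
      have h2 : E v = (n : ℤ) * -(v.ord x) := by
        rw [hE v, max_eq_right (by omega)]
      have h3 : v.ord (x ^ n) = (n : ℤ) * v.ord x := by
        rw [← zpow_natCast, v.ord_zpow]
      rw [hfb, v.ord_mul hxn hb0, h2, h3]
      linarith

/-! ### Subalgebra form (the shape of a chart given as a subalgebra of `F`) -/

/-- a chart which is a finitely generated module over `K[x]` is integral over `K[x]`. -/
theorem h85f_isIntegral_of_fin {x : F} (B : Subalgebra K F) (hx : x ∈ B)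
    (hfin : ∃ T : Finset F, (∀ t ∈ T, t ∈ B) ∧
      ∀ b ∈ B, ∃ c : F → Polynomial K, b = ∑ t ∈ T, Polynomial.aeval x (c t) * t) :
    ∀ b ∈ B, IsIntegral (Algebra.adjoin K {x}) b := by
  classical
  obtain ⟨T, hT, hfin⟩ := hfin
  have hRB : Algebra.adjoin K {x} ≤ B :=
    Algebra.adjoin_le (by
      intro y hy
      rw [Set.mem_singleton_iff] at hy
      subst hy
      exact hx)
  let N : Submodule (Algebra.adjoin K {x}) F := Submodule.span (Algebra.adjoin K {x}) (T : Set F)
  have hNB : ∀ y ∈ N, y ∈ B := by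
    intro y hy
    induction hy using Submodule.span_induction with
    | mem y hy => exact hT y hy
    | zero => exact B.zero_mem
    | add y z _ _ hy hz => exact B.add_mem hy hz
    | smul r y _ hy =>
      have : r • y = (r : F) * y := rfl
      rw [this]
      exact B.mul_mem (hRB r.2) hy
  have hBN : ∀ b ∈ B, b ∈ N := by
    intro b hb
    obtain ⟨c, rfl⟩ := hfin b hb
    refine Submodule.sum_mem _ fun t ht => ?_
    have h1 : Polynomial.aeval x (c t) ∈ Algebra.adjoin K {x} := by
      rw [Algebra.adjoin_singleton_eq_range_aeval]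
      exact ⟨c t, rfl⟩
    have h2 : Polynomial.aeval x (c t) * t
        = (⟨Polynomial.aeval x (c t), h1⟩ : Algebra.adjoin K {x}) • t := rfl
    rw [h2]
    exact Submodule.smul_mem _ _ (Submodule.subset_span ht)
  intro b hb
  refine isIntegral_of_smul_mem_submodule (M := F) N ?_ (Submodule.fg_span T.finite_toSet) b ?_
  · intro h
    have h1 : (1 : F) ∈ N := hBN 1 B.one_mem
    rw [h, Submodule.mem_bot] at h1
    exact one_ne_zero h1
  · intro n hn
    exact hBN _ (B.mul_mem hb (hNB n hn))

/-- a Dedekind chart given as a subalgebra is a holomorphy ring. -/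
theorem h85f_holo_subalgebra {x : F} (B : Subalgebra K F) [IsDedekindDomain B]
    (hx : x ∈ B)
    (hfrac : ∀ y : F, ∃ b ∈ B, ∃ s ∈ B, s ≠ 0 ∧ y * s = b)
    (hint : ∀ b ∈ B, IsIntegral (Algebra.adjoin K {x}) b) :
    H85fHolo K F x (B : Set F) := by
  have hfr : IsFractionRing B F := by
    refine IsFractionRing.of_field (R := B) (K := F) fun z => ?_
    obtain ⟨b, hb, s, hs, hs0, h⟩ := hfrac z
    refine ⟨⟨b, hb⟩, ⟨s, hs⟩, ?_⟩
    show z = b / s
    rw [eq_div_iff hs0]
    exact h
  have h := h85f_holo_of_dedekind (K := K) (F := F) (R := B) (x := x) ⟨⟨x, hx⟩, rfl⟩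
    (fun v hv r => h85f_regular_of_isIntegral v hv (hint r r.2))
  intro f
  rw [← h f]
  constructor
  · intro hf; exact ⟨⟨f, hf⟩, rfl⟩
  · rintro ⟨r, rfl⟩; exact r.2

/-- **DICT for two Dedekind charts given as subalgebras.** -/
theorem h85f_dict_subalgebra {x : F} (hx0 : x ≠ 0) (B Binf : Subalgebra K F)
    [IsDedekindDomain B] [IsDedekindDomain Binf]
    (hx : x ∈ B) (hxinv : x⁻¹ ∈ Binf)
    (hfrac : ∀ y : F, ∃ b ∈ B, ∃ s ∈ B, s ≠ 0 ∧ y * s = b)
    (hfracInf : ∀ y : F, ∃ b ∈ Binf, ∃ s ∈ Binf, s ≠ 0 ∧ y * s = b)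
    (hint : ∀ b ∈ B, IsIntegral (Algebra.adjoin K {x}) b)
    (hintInf : ∀ b ∈ Binf, IsIntegral (Algebra.adjoin K {x⁻¹}) b)
    (n : ℕ) (E : Divisor K F) (hE : ∀ v : Place K F, E v = (n : ℤ) * max 0 (-(v.ord x)))
    (f : F) :
    f ∈ riemannRochSpace E ↔ f ∈ B ∧ ∃ b ∈ Binf, f = x ^ n * b :=
  h85f_dict' hx0 (h85f_holo_subalgebra B hx hfrac hint)
    (h85f_holo_subalgebra Binf hxinv hfracInf hintInf) n E hE f

/-- the same, with finiteness of the charts over `K[x]`, `K[x⁻¹]` instead of integrality. -/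
theorem h85f_dict_subalgebra_fin {x : F} (hx0 : x ≠ 0) (B Binf : Subalgebra K F)
    [IsDedekindDomain B] [IsDedekindDomain Binf]
    (hx : x ∈ B) (hxinv : x⁻¹ ∈ Binf)
    (hfrac : ∀ y : F, ∃ b ∈ B, ∃ s ∈ B, s ≠ 0 ∧ y * s = b)
    (hfracInf : ∀ y : F, ∃ b ∈ Binf, ∃ s ∈ Binf, s ≠ 0 ∧ y * s = b)
    (hfin : ∃ T : Finset F, (∀ t ∈ T, t ∈ B) ∧
      ∀ b ∈ B, ∃ c : F → Polynomial K, b = ∑ t ∈ T, Polynomial.aeval x (c t) * t)
    (hfinInf : ∃ T : Finset F, (∀ t ∈ T, t ∈ Binf) ∧
      ∀ b ∈ Binf, ∃ c : F → Polynomial K, b = ∑ t ∈ T, Polynomial.aeval x⁻¹ (c t) * t)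
    (n : ℕ) (E : Divisor K F) (hE : ∀ v : Place K F, E v = (n : ℤ) * max 0 (-(v.ord x)))
    (f : F) :
    f ∈ riemannRochSpace E ↔ f ∈ B ∧ ∃ b ∈ Binf, f = x ^ n * b :=
  h85f_dict_subalgebra hx0 B Binf hx hxinv hfrac hfracInf
    (h85f_isIntegral_of_fin B hx hfin) (h85f_isIntegral_of_fin Binf hxinv hfinInf) n E hE f

end Fermat.Agent.P5
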