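import Mathlib
import Fermat.Agent.S24.FICore
import Fermat.Agent.S24.FIWrap
import Fermat.Agent.P5.H13RRIface
import Fermat.Agent.P5.H48SFAdapt
import Fermat.Agent.P5.H85SFDict

/-!
# Wave 5, pillar (P), block GEO-RR-SF: the abstract char-free base facts (helper48)

`k` algebraically closed of ANY characteristic, `F / k` a field, `x : F` transcendental,
`B`, `Binf : Subalgebra k F` two Dedekind charts with fraction field `F`, finite over `k[x]`,
resp. `k[x⁻¹]` (the shape delivered for the special fibre).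
-/

set_option autoImplicit false
set_option linter.style.haveILetI false

noncomputable section

namespace Fermat.Agent.P5

open AlgebraicCurve IntermediateField IsDedekindDomain Fermat.Agent.S24

open scoped IntermediateField.algebraAdjoinAdjoin

variable {k F : Type*} [Field k] [Field F] [Algebra k F]

theorem h48s_adjoin_le (y : F) (B : Subalgebra k F) (hy : y ∈ B) : Algebra.adjoin k {y} ≤ B :=
  Algebra.adjoin_le (by
    intro z hz
    rw [Set.mem_singleton_iff] at hz
    subst hz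
    exact hy)

/-- **Zeros of `y` from one chart.** -/
theorem h48s_zeros_chart [IsAlgClosed k] (y : F) (hy : Transcendental k y)
    (B : Subalgebra k F) (hyB : y ∈ B) [IsDedekindDomain B]
    (hfrac : ∀ z : F, ∃ b ∈ B, ∃ s ∈ B, s ≠ 0 ∧ z * s = b)
    (hfin : ∃ T : Finset F, (∀ t ∈ T, t ∈ B) ∧ ∀ b ∈ B, ∃ c : F → Polynomial k,
      b = ∑ t ∈ T, Polynomial.aeval y (c t) * t) :
    ∃ s : Finset (Place k F), (∀ v, v ∈ s ↔ 0 < v.ord y) ∧
      ∑ v ∈ s, v.ord y = (Module.finrank k⟮y⟯ F : ℤ) := by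
  classical
  have hle := h48s_adjoin_le y B hyB
  letI : Algebra (Algebra.adjoin k {y}) B := (Subalgebra.inclusion hle).toRingHom.toAlgebra
  haveI : IsScalarTower (Algebra.adjoin k {y}) B F := IsScalarTower.of_algebraMap_eq fun _ => rfl
  haveI : IsScalarTower k (Algebra.adjoin k {y}) B := IsScalarTower.of_algebraMap_eq fun _ => rfl
  haveI : IsFractionRing B F := h48s_isFractionRing B hfrac
  haveI : FiniteDimensional k⟮y⟯ F := h48s_finiteDimensional y B hfrac hfin
  haveI hPID : IsPrincipalIdealRing (Algebra.adjoin k {y}) := FICore.isPrincipalIdealRing_adjoin y hy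
  haveI : Module.IsTorsionFree (Algebra.adjoin k {y}) B := by
    refine Module.IsTorsionFree.of_smul_eq_zero fun r m h => ?_
    have h1 : ((r • m : B) : F) = (r : F) * (m : F) := rfl
    have h2 : (r : F) * (m : F) = 0 := by rw [← h1, h]; rfl
    rcases mul_eq_zero.mp h2 with h3 | h3
    · exact Or.inl (Subtype.ext h3)
    · exact Or.inr (Subtype.ext h3)
  haveI : Module.Finite (Algebra.adjoin k {y}) B := by
    obtain ⟨S, hS⟩ := h48s_fin_subtype y B hyB hfin
    refine ⟨⟨S, ?_⟩⟩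
    rw [eq_top_iff]
    intro b _
    obtain ⟨c, hc⟩ := hS b
    rw [hc]
    refine Submodule.sum_mem _ fun s hs => ?_
    have h1 : Polynomial.aeval y (c s) ∈ Algebra.adjoin k ({y} : Set F) := by
      rw [Algebra.adjoin_singleton_eq_range_aeval]
      exact ⟨c s, rfl⟩
    have h2 : Polynomial.aeval (⟨y, hyB⟩ : B) (c s) * s
        = (⟨Polynomial.aeval y (c s), h1⟩ : Algebra.adjoin k {y}) • s := by
      apply Subtype.ext
      show ((Polynomial.aeval (⟨y, hyB⟩ : B) (c s) : B) : F) * (s : F) = _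
      rw [Polynomial.aeval_subalgebra_coe]
      rfl
    rw [h2]
    exact Submodule.smul_mem _ _ (Submodule.subset_span hs)
  have hmax := FICore.span_gen_isMaximal y hy
  have hpne : (Ideal.span {FICore.gen (K := k) y}) ≠ ⊥ :=
    Ideal.span_singleton_eq_bot.not.mpr (FICore.gen_ne_zero y hy)
  have hf : ∀ q : (Ideal.span {FICore.gen (K := k) y}).primesOver B,
      q.1.inertiaDeg (Algebra.adjoin k {y}) = 1 :=
    fun q => FICore.inertiaDeg_eq_one_aux (K := k) (F := F) y (Algebra.adjoin k {y})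
      B (Ideal.span {FICore.gen (K := k) y}) hpne q
  have hint := h85f_isIntegral_of_fin B hyB hfin
  have hB : ∀ v : Place k F, 0 < v.ord (algebraMap (Algebra.adjoin k {y}) F (FICore.gen y)) →
      ∀ b : B, algebraMap B F b ∈ v.toValuationSubring := by
    intro v hv b
    exact FICore.mem_of_isIntegral_adjoin y v (DiffPlace.mem_of_ord_nonneg v hv.le) (hint b b.2)
  obtain ⟨s, hs, hsum⟩ := FICore.exists_finset_sum_ord (K := k) (F := F)
    (A := Algebra.adjoin k {y}) (B := B)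
    (FICore.gen y) (FICore.gen_ne_zero y hy) hf hB
  refine ⟨s, hs, ?_⟩
  rw [show y = algebraMap (Algebra.adjoin k {y}) F (FICore.gen y) from rfl, hsum]
  congr 1
  exact (IsFractionRing.finrank_eq (Algebra.adjoin k {y}) k⟮y⟯ B F).symm

/-- the finiteness statement for `x - c` from the one for `x`. -/
theorem h48s_fin_sub_const (x : F) (c : k) (B : Subalgebra k F)
    (hfin : ∃ T : Finset F, (∀ t ∈ T, t ∈ B) ∧ ∀ b ∈ B, ∃ p : F → Polynomial k,
      b = ∑ t ∈ T, Polynomial.aeval x (p t) * t) :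
    ∃ T : Finset F, (∀ t ∈ T, t ∈ B) ∧ ∀ b ∈ B, ∃ p : F → Polynomial k,
      b = ∑ t ∈ T, Polynomial.aeval (x - algebraMap k F c) (p t) * t := by
  obtain ⟨T, hT, h⟩ := hfin
  refine ⟨T, hT, fun b hb => ?_⟩
  obtain ⟨p, hp⟩ := h b hb
  refine ⟨fun t => (p t).comp (Polynomial.X + Polynomial.C c), ?_⟩
  rw [hp]
  refine Finset.sum_congr rfl fun t _ => ?_
  rw [Polynomial.aeval_comp]
  simp

/-- **The fundamental identity** for the zeros of `x - c` and of `1/x`, from the two charts. -/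
theorem h48s_zeros [IsAlgClosed k] (x : F) (hx : Transcendental k x)
    (B Binf : Subalgebra k F) [IsDedekindDomain B] [IsDedekindDomain Binf]
    (x_mem : x ∈ B) (xinv_mem : x⁻¹ ∈ Binf)
    (frac : ∀ y : F, ∃ b ∈ B, ∃ s ∈ B, s ≠ 0 ∧ y * s = b)
    (fracInf : ∀ y : F, ∃ b ∈ Binf, ∃ s ∈ Binf, s ≠ 0 ∧ y * s = b)
    (fin : ∃ T : Finset F, (∀ t ∈ T, t ∈ B) ∧ ∀ b ∈ B, ∃ c : F → Polynomial k,
      b = ∑ t ∈ T, Polynomial.aeval x (c t) * t)
    (finInf : ∃ T : Finset F, (∀ t ∈ T, t ∈ Binf) ∧ ∀ b ∈ Binf, ∃ c : F → Polynomial k,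
      b = ∑ t ∈ T, Polynomial.aeval x⁻¹ (c t) * t) :
    H13rZeros k F x := by
  rintro y (⟨c, rfl⟩ | rfl)
  · obtain ⟨s, hs, hsum⟩ := h48s_zeros_chart (x - algebraMap k F c)
      (fiw_transcendental_sub_const hx c) B (B.sub_mem x_mem (B.algebraMap_mem c)) frac
      (h48s_fin_sub_const x c B fin)
    exact ⟨s, hs, by rw [hsum, fiw_finrank_of_eq (fiw_adjoin_sub_const x c)]⟩
  · obtain ⟨s, hs, hsum⟩ := h48s_zeros_chart x⁻¹ (fiw_transcendental_inv hx) Binf xinv_mem
      fracInf finInf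
    exact ⟨s, hs, by rw [hsum, fiw_finrank_of_eq (fiw_adjoin_inv x)]⟩

/-- all places have degree one. -/
theorem h48s_deg_one [IsAlgClosed k] (x : F) (B : Subalgebra k F)
    (frac : ∀ y : F, ∃ b ∈ B, ∃ s ∈ B, s ≠ 0 ∧ y * s = b)
    (fin : ∃ T : Finset F, (∀ t ∈ T, t ∈ B) ∧ ∀ b ∈ B, ∃ c : F → Polynomial k,
      b = ∑ t ∈ T, Polynomial.aeval x (c t) * t)
    (v : Place k F) : v.deg = 1 := by
  haveI : FiniteDimensional k⟮x⟯ F := h48s_finiteDimensional x B frac fin
  exact DiffPlace.place_deg_eq_one x (Algebra.IsAlgebraic.of_finite _ _) v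

/-- there are infinitely many places. -/
theorem h48s_infinite [IsAlgClosed k] (x : F) (B : Subalgebra k F)
    (frac : ∀ y : F, ∃ b ∈ B, ∃ s ∈ B, s ≠ 0 ∧ y * s = b)
    (fin : ∃ T : Finset F, (∀ t ∈ T, t ∈ B) ∧ ∀ b ∈ B, ∃ c : F → Polynomial k,
      b = ∑ t ∈ T, Polynomial.aeval x (c t) * t)
    (hz : ∀ c : k, ∃ s : Finset (Place k F), (∀ v, v ∈ s ↔ 0 < v.ord (x - algebraMap k F c)) ∧
      ∑ v ∈ s, v.ord (x - algebraMap k F c) = (Module.finrank k⟮x⟯ F : ℤ)) :
    Infinite (Place k F) := by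
  haveI : FiniteDimensional k⟮x⟯ F := h48s_finiteDimensional x B frac fin
  have hex : ∀ c : k, ∃ v : Place k F, 0 < v.ord (x - algebraMap k F c) := by
    intro c
    obtain ⟨s, hs, hsum⟩ := hz c
    have hne : s.Nonempty := by
      by_contra h
      rw [Finset.not_nonempty_iff_eq_empty] at h
      rw [h, Finset.sum_empty] at hsum
      have hpos : 0 < Module.finrank k⟮x⟯ F := Module.finrank_pos
      omega
    obtain ⟨v, hv⟩ := hne
    exact ⟨v, (hs v).mp hv⟩
  choose φ hφ using hex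
  haveI : Infinite k := IsAlgClosed.instInfinite
  refine Infinite.of_injective φ ?_
  intro c c' h
  by_contra hne
  have h1 : 0 < (φ c).ord (x - algebraMap k F c) := hφ c
  have h2 : 0 < (φ c).ord (x - algebraMap k F c') := by rw [h]; exact hφ c'
  have h3 : (x - algebraMap k F c') - (x - algebraMap k F c) = algebraMap k F (c - c') := by
    rw [map_sub]; ring
  have hm1 := DiffPlace.mem_maximalIdeal_of_ord_pos (φ c)
    (z := ⟨_, DiffPlace.mem_of_ord_nonneg (φ c) h1.le⟩) h1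
  have hm2 := DiffPlace.mem_maximalIdeal_of_ord_pos (φ c)
    (z := ⟨_, DiffPlace.mem_of_ord_nonneg (φ c) h2.le⟩) h2
  have hm3 := (IsLocalRing.maximalIdeal (φ c).toValuationSubring).sub_mem hm2 hm1
  have hu : IsUnit (algebraMap k (φ c).toValuationSubring (c - c')) :=
    (IsUnit.mk0 (c - c') (sub_ne_zero.mpr hne)).map _
  have hm4 : algebraMap k (φ c).toValuationSubring (c - c') ∈
      IsLocalRing.maximalIdeal (φ c).toValuationSubring := by
    have h5 : algebraMap k (φ c).toValuationSubring (c - c') =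
        (⟨_, DiffPlace.mem_of_ord_nonneg (φ c) h2.le⟩ : (φ c).toValuationSubring) -
          ⟨_, DiffPlace.mem_of_ord_nonneg (φ c) h1.le⟩ := by
      apply Subtype.ext
      rw [(φ c).coe_algebraMap]
      exact h3.symm
    rw [h5]
    exact hm3
  exact (IsLocalRing.mem_maximalIdeal _).mp hm4 hu

/-- every place contains one of the two charts. -/
theorem h48s_place_chart (x : F) (B Binf : Subalgebra k F)
    (x_mem : x ∈ B) (xinv_mem : x⁻¹ ∈ Binf)
    (fin : ∃ T : Finset F, (∀ t ∈ T, t ∈ B) ∧ ∀ b ∈ B, ∃ c : F → Polynomial k,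
      b = ∑ t ∈ T, Polynomial.aeval x (c t) * t)
    (finInf : ∃ T : Finset F, (∀ t ∈ T, t ∈ Binf) ∧ ∀ b ∈ Binf, ∃ c : F → Polynomial k,
      b = ∑ t ∈ T, Polynomial.aeval x⁻¹ (c t) * t)
    (v : Place k F) :
    (x ∈ v.toValuationSubring ∧ ∀ b ∈ B, b ∈ v.toValuationSubring) ∨
      (x⁻¹ ∈ v.toValuationSubring ∧ ∀ b ∈ Binf, b ∈ v.toValuationSubring) := by
  rcases v.toValuationSubring.mem_or_inv_mem x with h | h
  · exact Or.inl ⟨h, fun b hb =>
      h85f_regular_of_isIntegral v h (h85f_isIntegral_of_fin B x_mem fin b hb)⟩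
  · exact Or.inr ⟨h, fun b hb =>
      h85f_regular_of_isIntegral v h (h85f_isIntegral_of_fin Binf xinv_mem finInf b hb)⟩

/-! ### Constants -/

/-- `k[x] ∩ k[1/x] = k` for a transcendental `x`. -/
theorem h48s_inter (x : F) (hx : Transcendental k x) (hx0 : x ≠ 0) (z : F)
    (h1 : z ∈ Algebra.adjoin k ({x} : Set F)) (h2 : z ∈ Algebra.adjoin k ({x⁻¹} : Set F)) :
    z ∈ Set.range (algebraMap k F) := by
  rw [Algebra.adjoin_singleton_eq_range_aeval] at h1 h2
  obtain ⟨P, hP⟩ := h1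
  obtain ⟨Q, hQ⟩ := h2
  have hP' : Polynomial.aeval x P = z := hP
  have hQ' : Polynomial.aeval x⁻¹ Q = z := hQ
  haveI : Invertible x := invertibleOfNonzero hx0
  have hinv : ⅟x = x⁻¹ := invOf_eq_inv x
  have hdeg : (Polynomial.reflect Q.natDegree Q).natDegree ≤ Q.natDegree := by
    have h := Polynomial.natDegree_reflect_le (N := Q.natDegree) (p := Q)
    simpa using h
  have h3 := Polynomial.eval₂_reflect_mul_pow (algebraMap k F) x Q.natDegree
    (Polynomial.reflect Q.natDegree Q) hdeg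
  rw [Polynomial.reflect_reflect, hinv] at h3
  have h4 : Polynomial.aeval x (P * Polynomial.X ^ Q.natDegree) =
      Polynomial.aeval x (Polynomial.reflect Q.natDegree Q) := by
    rw [map_mul, map_pow, Polynomial.aeval_X, hP', ← hQ', Polynomial.aeval_def,
      Polynomial.aeval_def]
    exact h3
  have h5 : P * Polynomial.X ^ Q.natDegree = Polynomial.reflect Q.natDegree Q :=
    (transcendental_iff_injective.mp hx) h4
  by_cases hP0 : P = 0
  · subst hP0
    exact ⟨0, by rw [map_zero, ← hP', map_zero]⟩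
  have h6 : (P * Polynomial.X ^ Q.natDegree).natDegree = P.natDegree + Q.natDegree :=
    Polynomial.natDegree_mul_X_pow Q.natDegree hP0
  have h7 : P.natDegree = 0 := by
    rw [h5] at h6
    omega
  obtain ⟨a, ha⟩ := Polynomial.natDegree_eq_zero.mp h7
  exact ⟨a, by rw [← hP', ← ha, Polynomial.aeval_C]⟩

/-- transport of the minimal polynomial along an equality of intermediate fields. -/
theorem h48s_minpoly_map_eq {E₁ E₂ : IntermediateField k F} (h : E₁ = E₂) (f : F) :
    (minpoly E₁ f).map (algebraMap E₁ F) = (minpoly E₂ f).map (algebraMap E₂ F) := by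
  subst h
  rfl

/-- the coefficients of the minimal polynomial over `k(y)` of an element integral over `k[y]`
lie in `k[y]`. -/
theorem h48s_coeff_mem (y : F) (hy : Transcendental k y) (f : F)
    (hf : IsIntegral (Algebra.adjoin k {y}) f) (n : ℕ) :
    ((minpoly k⟮y⟯ f).map (algebraMap k⟮y⟯ F)).coeff n ∈ Algebra.adjoin k ({y} : Set F) := by
  haveI := FICore.isPrincipalIdealRing_adjoin y hy
  rw [minpoly.isIntegrallyClosed_eq_field_fractions' k⟮y⟯ hf, Polynomial.map_map,
    Polynomial.coeff_map]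
  exact ((minpoly (Algebra.adjoin k {y}) f).coeff n).2

/-- **Only the constants are regular everywhere.** -/
theorem h48s_const [IsAlgClosed k] (x : F) (hx : Transcendental k x)
    (B Binf : Subalgebra k F) [IsDedekindDomain B] [IsDedekindDomain Binf]
    (x_mem : x ∈ B) (xinv_mem : x⁻¹ ∈ Binf)
    (frac : ∀ y : F, ∃ b ∈ B, ∃ s ∈ B, s ≠ 0 ∧ y * s = b)
    (fracInf : ∀ y : F, ∃ b ∈ Binf, ∃ s ∈ Binf, s ≠ 0 ∧ y * s = b)
    (fin : ∃ T : Finset F, (∀ t ∈ T, t ∈ B) ∧ ∀ b ∈ B, ∃ c : F → Polynomial k,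
      b = ∑ t ∈ T, Polynomial.aeval x (c t) * t)
    (finInf : ∃ T : Finset F, (∀ t ∈ T, t ∈ Binf) ∧ ∀ b ∈ Binf, ∃ c : F → Polynomial k,
      b = ∑ t ∈ T, Polynomial.aeval x⁻¹ (c t) * t)
    (f : F) (hf : ∀ v : Place k F, 0 ≤ v.ord f) : f ∈ Set.range (algebraMap k F) := by
  have hx0 : x ≠ 0 := by
    rintro rfl
    exact hx isAlgebraic_zero
  have hint := h85f_isIntegral_of_fin B x_mem fin
  have hintInf := h85f_isIntegral_of_fin Binf xinv_mem finInf
  have hB : f ∈ B := ((h85f_holo_subalgebra B x_mem frac hint) f).mpr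
    (fun v _ => DiffPlace.mem_of_ord_nonneg v (hf v))
  have hBinf : f ∈ Binf := ((h85f_holo_subalgebra Binf xinv_mem fracInf hintInf) f).mpr
    (fun v _ => DiffPlace.mem_of_ord_nonneg v (hf v))
  have hf1 := hint f hB
  have hf2 := hintInf f hBinf
  have hc1 : ∀ n, ((minpoly k⟮x⟯ f).map (algebraMap k⟮x⟯ F)).coeff n ∈
      Algebra.adjoin k ({x} : Set F) := h48s_coeff_mem x hx f hf1
  have hc2 : ∀ n, ((minpoly k⟮x⟯ f).map (algebraMap k⟮x⟯ F)).coeff n ∈
      Algebra.adjoin k ({x⁻¹} : Set F) := by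
    intro n
    have h := h48s_coeff_mem x⁻¹ (fiw_transcendental_inv hx) f hf2 n
    rwa [h48s_minpoly_map_eq (fiw_adjoin_inv x) f] at h
  have hc : ∀ n, ((minpoly k⟮x⟯ f).map (algebraMap k⟮x⟯ F)).coeff n ∈
      Set.range (algebraMap k F) := fun n => h48s_inter x hx hx0 _ (hc1 n) (hc2 n)
  obtain ⟨Q, hQ⟩ := (Polynomial.mem_lifts _).mp ((Polynomial.lifts_iff_coeff_lifts _).mpr hc)
  have hfE : IsIntegral k⟮x⟯ f := hf1.tower_top
  have hmonic : ((minpoly k⟮x⟯ f).map (algebraMap k⟮x⟯ F)).Monic := (minpoly.monic hfE).map _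
  have hroot : Polynomial.eval f ((minpoly k⟮x⟯ f).map (algebraMap k⟮x⟯ F)) = 0 := by
    rw [Polynomial.eval_map, ← Polynomial.aeval_def]
    exact minpoly.aeval _ _
  have hQ0 : Q ≠ 0 := by
    rintro rfl
    rw [Polynomial.map_zero] at hQ
    exact hmonic.ne_zero hQ.symm
  have hQroot : Polynomial.aeval f Q = 0 := by
    rw [Polynomial.aeval_def, Polynomial.eval₂_eq_eval_map, hQ]
    exact hroot
  have halg : IsAlgebraic k f := ⟨Q, hQ0, hQroot⟩
  have hint' : IsIntegral k f := halg.isIntegral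
  have hdeg := IsAlgClosed.degree_eq_one_of_irreducible k (minpoly.irreducible hint')
  exact minpoly.mem_range_of_degree_eq_one k f hdeg

/-- **The RED-DIV-free fields of `H13rBase`** (`deg_one`, `const`, `inj`, `infinite`) together
with the fundamental identity and the finiteness of `F / k(x)`, from the two charts. -/
theorem h48s_rest [IsAlgClosed k] (x : F) (hx : Transcendental k x)
    (B Binf : Subalgebra k F) [IsDedekindDomain B] [IsDedekindDomain Binf]
    (x_mem : x ∈ B) (xinv_mem : x⁻¹ ∈ Binf)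
    (frac : ∀ y : F, ∃ b ∈ B, ∃ s ∈ B, s ≠ 0 ∧ y * s = b)
    (fracInf : ∀ y : F, ∃ b ∈ Binf, ∃ s ∈ Binf, s ≠ 0 ∧ y * s = b)
    (fin : ∃ T : Finset F, (∀ t ∈ T, t ∈ B) ∧ ∀ b ∈ B, ∃ c : F → Polynomial k,
      b = ∑ t ∈ T, Polynomial.aeval x (c t) * t)
    (finInf : ∃ T : Finset F, (∀ t ∈ T, t ∈ Binf) ∧ ∀ b ∈ Binf, ∃ c : F → Polynomial k,
      b = ∑ t ∈ T, Polynomial.aeval x⁻¹ (c t) * t) :
    ((∀ v : Place k F, v.deg = 1) ∧
      (∀ f : F, (∀ v : Place k F, 0 ≤ v.ord f) → f ∈ Set.range (algebraMap k F)) ∧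
      Function.Injective (algebraMap k F) ∧ Infinite (Place k F)) ∧
    H13rZeros k F x ∧ FiniteDimensional k⟮x⟯ F := by
  have hz := h48s_zeros x hx B Binf x_mem xinv_mem frac fracInf fin finInf
  refine ⟨⟨h48s_deg_one x B frac fin,
    h48s_const x hx B Binf x_mem xinv_mem frac fracInf fin finInf,
    (algebraMap k F).injective,
    h48s_infinite x B frac fin (fun c => hz _ (Or.inl ⟨c, rfl⟩))⟩, hz,
    h48s_finiteDimensional x B frac fin⟩

end Fermat.Agent.P5
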