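import Fermat.Agent.P5.H13SFIface
import Fermat.Agent.P5.H40RRInst

/-!
# Wave 5 (P), block GEO-RR-SF: degree of principal divisors on the special fibre (helper42)

The field `pd` of `H13rBase k F~` (principal divisors of the special fibre have finite support
and degree `0`) is a formal consequence of RED-DIV (`H13sIsRed`: the divisor of the reduction of
a Gauss unit is the push-forward of its divisor), of `H13sField` (every element of `F~` is a
reduction), of the degree-one property on the special fibre and of the generic `pd`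
(`h40r_base_FF`).  No norms, no separability.

* `h42p_degree_push` : `deg (r_* D) = deg D` when all places have degree one on both sides.
* `h42p_pd`          : the statement at one `(ℓ, M, A, r)`.
* `h42p_pd_of_redDiv`: from the frozen Props `H13sRedDiv`, `H13sField`.
* `h42p_base_of`     : assembly of `H13rBase k F~` from `pd` and the RED-DIV-free fields.
-/

set_option autoImplicit false

noncomputable section

namespace Fermat.Agent.P5

open AlgebraicCurve ModularCurve Fermat.Agent.S37 Fermat.Agent.Red.GV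

section Abstract

variable {K F K' F' : Type*} [Field K] [Field F] [Algebra K F] [Field K'] [Field F']
  [Algebra K' F']

/-- the degree of a divisor when all places have degree one. -/
theorem h42p_degree_eq_sum (hdeg : ∀ v : Place K F, v.deg = 1) (D : Divisor K F) :
    Divisor.degree D = D.sum fun _ n => n := by
  classical
  induction D using Finsupp.induction_linear with
  | zero => simp
  | add D E hD hE =>
    rw [map_add, hD, hE, Finsupp.sum_add_index' (fun _ => rfl) (fun _ _ _ => rfl)]
  | single v n =>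
    rw [Divisor.degree_single, hdeg v, Finsupp.sum_single_index rfl]
    simp

/-- the push-forward of divisors preserves the degree when all places have degree one. -/
theorem h42p_degree_push (hdeg : ∀ v : Place K F, v.deg = 1)
    (hdeg' : ∀ Q : Place K' F', Q.deg = 1) (r : Place K F → Place K' F') (D : Divisor K F) :
    Divisor.degree (Finsupp.mapDomain r D : Divisor K' F') = Divisor.degree D := by
  classical
  rw [h42p_degree_eq_sum hdeg, h42p_degree_eq_sum hdeg',
    Finsupp.sum_mapDomain_index (fun _ => rfl) (fun _ _ _ => rfl)]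

end Abstract

section SF

variable {ℓ : ℕ} {M : ℕ} [NeZero M] {A : ValuationSubring Kbar}

/-- a nonzero element of the special fibre field is the reduction of a Gauss unit. -/
theorem h42p_exists_unit (hℓ : ℓ.Prime) (hM : ¬ ℓ ∣ M) (hA : A.LiesOverPrime ℓ)
    (hfield : ∀ y : h13sFt A M, ∃ x : gaussV A M, h13sRed A M x = y)
    (y : h13sFt A M) (hy : y ≠ 0) :
    ∃ (f : FF M) (hf : f ∈ gaussV A M), f ≠ 0 ∧ f⁻¹ ∈ gaussV A M ∧
      h13sRed A M ⟨f, hf⟩ = y := by
  obtain ⟨x, hx⟩ := hfield y
  have hne : gaussR A M x ≠ 0 := by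
    intro h0
    apply hy
    rw [← hx]
    exact Subtype.ext h0
  have h := (gaussR_eq_zero_iff A M hℓ hM hA x).not.mp hne
  rw [not_or, not_not] at h
  exact ⟨x.1, x.2, h.1, h.2, hx⟩

/-- **`pd` on the special fibre**, at one `(ℓ, M, A, r)`. -/
theorem h42p_pd (hℓ : ℓ.Prime) (hM : ¬ ℓ ∣ M) (hA : A.LiesOverPrime ℓ)
    (r : Place Kbar (FF M) → Place (h13sK A) (h13sFt A M)) (hr : H13sIsRed A M r)
    (hfield : ∀ y : h13sFt A M, ∃ x : gaussV A M, h13sRed A M x = y)
    (hdeg : ∀ Q : Place (h13sK A) (h13sFt A M), Q.deg = 1)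
    (y : h13sFt A M) (hy : y ≠ 0) :
    ∃ D : Divisor (h13sK A) (h13sFt A M),
      (∀ Q : Place (h13sK A) (h13sFt A M), D Q = Q.ord y) ∧ Divisor.degree D = 0 := by
  obtain ⟨f, hf, hf0, hfinv, hred⟩ := h42p_exists_unit hℓ hM hA hfield y hy
  have hB := h40r_base_FF M
  obtain ⟨D, hD, hD0⟩ := hB.pd f hf0
  refine ⟨h13sPush r D, fun Q => ?_, ?_⟩
  · rw [hr.2.2 f hf hfinv D hD Q, hred]
  · unfold h13sPush
    rw [h42p_degree_push hB.deg_one hdeg r D, hD0]

end SF

/-- **`pd` on the special fibre** from the frozen Props RED-DIV and SF-FIELD. -/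
theorem h42p_pd_of_redDiv (hRD : H13sRedDiv) (hF : H13sField)
    (ℓ : ℕ) (hℓ : ℓ.Prime) (M : ℕ) [NeZero M] (hM : ¬ ℓ ∣ M) (haux : auxLevel ℓ ∣ M)
    (A : ValuationSubring Kbar) (hA : A.LiesOverPrime ℓ)
    (hdeg : ∀ Q : Place (h13sK A) (h13sFt A M), Q.deg = 1)
    (y : h13sFt A M) (hy : y ≠ 0) :
    ∃ D : Divisor (h13sK A) (h13sFt A M),
      (∀ Q : Place (h13sK A) (h13sFt A M), D Q = Q.ord y) ∧ Divisor.degree D = 0 := by
  obtain ⟨r, hr⟩ := hRD ℓ hℓ M hM haux A hA
  exact h42p_pd hℓ hM hA r hr (hF ℓ hℓ M hM haux A hA) hdeg y hy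

/-- Assembly of SF-BASE: `H13sBase` from RED-DIV, SF-FIELD and the RED-DIV-free fields
(`deg_one`, `const`, `inj`, `infinite`) of the special fibre. -/
theorem h42p_base_of (hRD : H13sRedDiv) (hF : H13sField)
    (hrest : ∀ (ℓ : ℕ), ℓ.Prime → ∀ (M : ℕ) [NeZero M], ¬ ℓ ∣ M → auxLevel ℓ ∣ M →
      ∀ A : ValuationSubring Kbar, A.LiesOverPrime ℓ →
        (∀ Q : Place (h13sK A) (h13sFt A M), Q.deg = 1) ∧
        (∀ f : h13sFt A M, (∀ Q : Place (h13sK A) (h13sFt A M), 0 ≤ Q.ord f) →
          f ∈ Set.range (algebraMap (h13sK A) (h13sFt A M))) ∧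
        Function.Injective (algebraMap (h13sK A) (h13sFt A M)) ∧
        Infinite (Place (h13sK A) (h13sFt A M))) :
    H13sBase := by
  intro ℓ hℓ M _ hM haux A hA
  obtain ⟨h1, h2, h3, h4⟩ := hrest ℓ hℓ M hM haux A hA
  exact
    { deg_one := h1
      pd := fun f hf => h42p_pd_of_redDiv hRD hF ℓ hℓ M hM haux A hA h1 f hf
      const := h2
      inj := h3
      infinite := h4 }

end Fermat.Agent.P5
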