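import Fermat.Agent.P5.H58Charts
import Fermat.Agent.Red.GV.BarGalois

/-!
# P5 (pillar (P), S19), block GEO-RR (helper58): the Čech algebra of the special fibre,
lifting half of the equality of genus

`M` a level, `ℓ ∤ M`, `A` a valuation subring of `ℚ̄` over `ℓ`, `k = A / 𝔪_A`,
`r = gaussR A M : gaussV A M → k((q))` the reduction of the Gauss valuation,
`B = modelFin M A`, `B_∞ = modelInf M A`, `B_m = B[1/j]` (`h58sMid`).

* `h58g_mid_le_gaussV` : `B_m ≤ gaussV`.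
* `h58g_ker_mid` : the kernel of `r` on `B_m` is `𝔪_A B_m`.
* `h58g_lift` : **lifting**: there is `c₀` such that for `n ≥ c₀` every element of
  `r(B) ∩ r(j)ⁿ r(B_∞)` is `r(w)` for some `w ∈ B ∩ jⁿ B_∞`
  (`H¹` of the model vanishes, `h58s_H1_vanish_mid`).
* `h58g_indep_lift` : Gauss-integral functions with `k`-linearly independent reductions are
  `ℚ̄`-linearly independent.
* `h58g_lift_family` : for `n ≥ c₀`, a `k`-linearly independent finite family in
  `r(B) ∩ r(j)ⁿ r(B_∞)` lifts to a `ℚ̄`-linearly independent family in `B ∩ jⁿ B_∞`: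
  `l̃(n D̃_∞) ≤ l(n D_∞)`.
-/

set_option autoImplicit false
set_option linter.unusedSectionVars false
set_option synthInstance.maxHeartbeats 400000

open ModularCurve Polynomial

noncomputable section

namespace Fermat.Agent.P5

open Fermat.Agent.S37 Fermat.Agent.Red.ModelO Fermat.Agent.Red.BC Fermat.Agent.Red.GV

variable (M : ℕ) [NeZero M] (A : ValuationSubring Kbar) {ℓ : ℕ}

/-- the middle chart consists of Gauss-integral functions. -/
theorem h58g_mid_le_gaussV (hℓ : ℓ.Prime) (hℓM : ¬ ℓ ∣ M) (hA : A.LiesOverPrime ℓ)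
    {x : FF M} (hx : x ∈ h58sMid M A) : x ∈ gaussV A M := by
  obtain ⟨k, hk⟩ := hx
  have h1 : jB M ^ k * x ∈ gaussV A M := modelFin_le_gaussV A M hℓ hℓM hA hk
  have h2 : (jB M)⁻¹ ^ k ∈ gaussV A M :=
    Subring.pow_mem _ (jB_inv_mem_gaussV A M hℓ hℓM hA) k
  have h3 : x = (jB M)⁻¹ ^ k * (jB M ^ k * x) := by
    rw [← mul_assoc, ← mul_pow, inv_mul_cancel₀ (h85_jB_ne_zero M), one_pow, one_mul]
  rw [h3]
  exact Subring.mul_mem _ h2 h1

/-- the reduction of `j` is not zero. -/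
theorem h58g_gaussR_jB_ne_zero : gaussR A M ⟨jB M, jB_mem_gaussV A M⟩ ≠ 0 := by
  rw [gaussR_jB A M]
  exact jqModC_ne_zero_of_nontrivial _

/-- **the kernel of the reduction on the middle chart is `𝔪_A B_m`.** -/
theorem h58g_ker_mid (hℓ : ℓ.Prime) (hℓM : ¬ ℓ ∣ M) (hA : A.LiesOverPrime ℓ)
    (x : gaussV A M) (hx : (x : FF M) ∈ h58sMid M A) (hred : gaussR A M x = 0) :
    ∃ (c : Kbar) (y : FF M), c ∈ A.nonunits ∧ y ∈ h58sMid M A ∧ (x : FF M) = cst M c * y := by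
  obtain ⟨k, hk⟩ := hx
  have hjk : jB M ^ k * (x : FF M) ∈ gaussV A M := modelFin_le_gaussV A M hℓ hℓM hA hk
  have h1 : gaussR A M ⟨jB M ^ k * (x : FF M), hjk⟩ = 0 := by
    have e : (⟨jB M ^ k * (x : FF M), hjk⟩ : gaussV A M) =
        (⟨jB M, jB_mem_gaussV A M⟩ : gaussV A M) ^ k * x := Subtype.ext rfl
    rw [e, map_mul, hred, mul_zero]
  obtain ⟨c, x', -, hnu, hx', hxx'⟩ :=
    exists_eq_cst_mul_of_gaussR_eq_zero_fin A M hℓ hℓM hA ⟨_, hjk⟩ hk h1
  refine ⟨c, (jB M)⁻¹ ^ k * x', hnu, ?_, ?_⟩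
  · exact Subring.mul_mem _ (Subring.pow_mem _ (h85_jB_inv_mem_modelMid M A) k)
      (h85_modelFin_le_modelMid M A hx')
  · have h3 : (x : FF M) = (jB M)⁻¹ ^ k * (jB M ^ k * (x : FF M)) := by
      rw [← mul_assoc, ← mul_pow, inv_mul_cancel₀ (h85_jB_ne_zero M), one_pow, one_mul]
    have h4 : jB M ^ k * (x : FF M) = cst M c * x' := hxx'
    rw [h3, h4]
    ring

/-- the reduction of `cst c * y`, `c ∈ 𝔪_A`, `y` Gauss-integral, vanishes. -/
theorem h58g_gaussR_cst_mul (hA : A.LiesOverPrime ℓ) {c : Kbar} (hc : c ∈ A.nonunits)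
    {y : FF M} (hy : y ∈ gaussV A M) (h : cst M c * y ∈ gaussV A M) :
    gaussR A M ⟨cst M c * y, h⟩ = 0 := by
  have hcA : c ∈ A := Fermat.Agent.Red.GV.Asm.mem_of_mem_nonunits A c hc
  have hcst : cst M c ∈ gaussV A M := algebraMap_mem_gaussSubring A _ M ⟨c, hcA⟩
  have e : (⟨cst M c * y, h⟩ : gaussV A M) = ⟨cst M c, hcst⟩ * ⟨y, hy⟩ := Subtype.ext rfl
  rw [e, map_mul, gaussR_cst_of_nonunit A M hA c hc hcst, zero_mul]

/-- **Lifting.**  For `n ≥ c₀`: a function on the special fibre which is the reduction of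
`b ∈ B` and `r(j)ⁿ` times the reduction of `b' ∈ B_∞` is the reduction of some
`w ∈ B ∩ jⁿ B_∞`. -/
theorem h58g_lift (hℓ : ℓ.Prime) (hℓM : ¬ ℓ ∣ M) (hA : A.LiesOverPrime ℓ) :
    ∃ c₀ : ℕ, ∀ n : ℕ, c₀ ≤ n → ∀ (b b' : gaussV A M),
      (b : FF M) ∈ modelFin M A → (b' : FF M) ∈ modelInf M A →
      gaussR A M b = gaussR A M ⟨jB M, jB_mem_gaussV A M⟩ ^ n * gaussR A M b' →
      ∃ w w' : gaussV A M, (w : FF M) ∈ modelFin M A ∧ (w' : FF M) ∈ modelInf M A ∧
        (w : FF M) = jB M ^ n * (w' : FF M) ∧ gaussR A M w = gaussR A M b ∧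
        gaussR A M w' = gaussR A M b' := by
  obtain ⟨c₀, hc₀⟩ := h58s_H1_vanish_mid M A hℓ hℓM hA
  refine ⟨c₀, fun n hn b b' hb hb' hred => ?_⟩
  set jV : gaussV A M := ⟨jB M, jB_mem_gaussV A M⟩ with hjV
  -- `x = b - jⁿ b'` reduces to zero
  have hxmid : ((b - jV ^ n * b' : gaussV A M) : FF M) ∈ h58sMid M A :=
    Subring.sub_mem _ (h85_modelFin_le_modelMid M A hb)
      (Subring.mul_mem _ (Subring.pow_mem _
        (h85_modelFin_le_modelMid M A (h85_jB_mem_modelFin M A)) n)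
        (h85_modelInf_le_modelMid M A hb'))
  have hxred : gaussR A M (b - jV ^ n * b') = 0 := by
    rw [map_sub, map_mul, map_pow, hred, sub_self]
  obtain ⟨c, y, hc, hy, hxy⟩ := h58g_ker_mid M A hℓ hℓM hA _ hxmid hxred
  -- `y = y₁ + jⁿ y₂`
  have hy' : y ∈ h58sSub M A (jB M) ⊔ h78r_tw (jB M) n (h58sSub M A (jB M)⁻¹) := by
    rw [← hc₀ n hn]; exact hy
  obtain ⟨y₁, hy₁, z, hz, hyz⟩ := Submodule.mem_sup.mp hy'
  obtain ⟨y₂, hy₂, rfl⟩ := h78r_mem_tw.mp hz
  have hy₁' : y₁ ∈ modelFin M A := hy₁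
  have hy₂' : y₂ ∈ modelInf M A := hy₂
  have hcA : c ∈ A := Fermat.Agent.Red.GV.Asm.mem_of_mem_nonunits A c hc
  have hcst : cst M c ∈ gaussV A M := algebraMap_mem_gaussSubring A _ M ⟨c, hcA⟩
  have hy₁V : y₁ ∈ gaussV A M := modelFin_le_gaussV A M hℓ hℓM hA hy₁'
  have hy₂V : y₂ ∈ gaussV A M := modelInf_le_gaussV A M hℓ hℓM hA hy₂'
  have hcV : gaussR A M ⟨cst M c, hcst⟩ = 0 := gaussR_cst_of_nonunit A M hA c hc hcst
  refine ⟨b - ⟨cst M c, hcst⟩ * ⟨y₁, hy₁V⟩, b' + ⟨cst M c, hcst⟩ * ⟨y₂, hy₂V⟩, ?_, ?_, ?_, ?_, ?_⟩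
  · exact Subring.sub_mem _ hb
      (Subring.mul_mem _ (h85_cst_mem_modelAt M A (jB M) hcA) hy₁')
  · exact Subring.add_mem _ hb'
      (Subring.mul_mem _ (h85_cst_mem_modelAt M A (jB M)⁻¹ hcA) hy₂')
  · have h1 : (b : FF M) - jB M ^ n * (b' : FF M) = cst M c * y := hxy
    have h2 : y = y₁ + jB M ^ n * y₂ := hyz.symm
    show (b : FF M) - cst M c * y₁ = jB M ^ n * ((b' : FF M) + cst M c * y₂)
    have h3 : (b : FF M) = jB M ^ n * (b' : FF M) + cst M c * y := by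
      rw [← h1]; ring
    rw [h3, h2]
    ring
  · rw [map_sub, map_mul, hcV, zero_mul, sub_zero]
  · rw [map_add, map_mul, hcV, zero_mul, add_zero]

/-- the reduction of a constant of `A`. -/
theorem h58g_gaussR_cst {c : Kbar} (hc : c ∈ A) (h : cst M c ∈ gaussV A M) :
    gaussR A M ⟨cst M c, h⟩ = HahnSeries.C (IsLocalRing.residue A ⟨c, hc⟩) :=
  gaussRed_algebraMap A (IsLocalRing.residue A) M ⟨c, hc⟩

/-- **Independence lifts.**  Gauss-integral functions whose reductions are linearly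
independent over the residue field are linearly independent over `ℚ̄`. -/
theorem h58g_indep_lift {ι : Type*} [Fintype ι] (w : ι → gaussV A M)
    (h : LinearIndependent (IsLocalRing.ResidueField A) (fun i => gaussR A M (w i))) :
    LinearIndependent Kbar (fun i => ((w i : gaussV A M) : FF M)) := by
  classical
  rw [Fintype.linearIndependent_iff]
  intro c hc
  by_contra hne
  rw [not_forall] at hne
  obtain ⟨i₁, hi₁⟩ := hne
  -- an index of maximal valuation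
  obtain ⟨i₀, -, hmax⟩ := Finset.exists_max_image Finset.univ (fun i => A.valuation (c i))
    ⟨i₁, Finset.mem_univ _⟩
  have hc0 : c i₀ ≠ 0 := by
    intro h0
    have h1 := hmax i₁ (Finset.mem_univ _)
    rw [h0, map_zero] at h1
    exact hi₁ ((map_eq_zero _).mp (le_antisymm h1 zero_le))
  have hd : ∀ i, c i / c i₀ ∈ A := by
    intro i
    rw [← A.valuation_le_one_iff, map_div₀]
    exact div_le_one_of_le₀ (hmax i (Finset.mem_univ _)) zero_le
  have hdV : ∀ i, cst M (c i / c i₀) ∈ gaussV A M := fun i =>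
    algebraMap_mem_gaussSubring A _ M ⟨_, hd i⟩
  have hsum : ∑ i, (⟨cst M (c i / c i₀), hdV i⟩ : gaussV A M) * w i = 0 := by
    apply Subtype.ext
    show (gaussV A M).subtype (∑ i, (⟨cst M (c i / c i₀), hdV i⟩ : gaussV A M) * w i) = 0
    rw [map_sum]
    show ∑ i, cst M (c i / c i₀) * ((w i : gaussV A M) : FF M) = 0
    have e : ∀ i, cst M (c i / c i₀) * ((w i : gaussV A M) : FF M) =
        cst M (c i₀)⁻¹ * (c i • ((w i : gaussV A M) : FF M)) := by
      intro i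
      rw [Algebra.smul_def, ← mul_assoc, ← map_mul, inv_mul_eq_div]
    rw [Finset.sum_congr rfl (fun i _ => e i), ← Finset.mul_sum, hc, mul_zero]
  have hsum' := congrArg (gaussR A M) hsum
  rw [map_sum, map_zero] at hsum'
  have hsum'' : ∑ i, IsLocalRing.residue A ⟨c i / c i₀, hd i⟩ • gaussR A M (w i) = 0 := by
    rw [← hsum']
    refine Finset.sum_congr rfl (fun i _ => ?_)
    rw [map_mul, h58g_gaussR_cst M A (hd i) (hdV i), HahnSeries.C_mul_eq_smul]
  have h0 := Fintype.linearIndependent_iff.mp h _ hsum'' i₀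
  have h1 : (⟨c i₀ / c i₀, hd i₀⟩ : A) = 1 := Subtype.ext (div_self hc0)
  rw [h1, map_one] at h0
  exact one_ne_zero h0

/-- **`l̃ (n D̃_∞) ≤ l (n D_∞)` for `n ≥ c₀`**, family form: a finite family of functions on the
special fibre, linearly independent over `k`, each of which is the reduction of an element of
`B` and `r(j)ⁿ` times the reduction of an element of `B_∞`, lifts to a `ℚ̄`-linearly independent
family in `B ∩ jⁿ B_∞`. -/
theorem h58g_lift_family (hℓ : ℓ.Prime) (hℓM : ¬ ℓ ∣ M) (hA : A.LiesOverPrime ℓ) :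
    ∃ c₀ : ℕ, ∀ n : ℕ, c₀ ≤ n → ∀ {ι : Type} [Fintype ι]
      (f : ι → LaurentSeries (IsLocalRing.ResidueField A)),
      LinearIndependent (IsLocalRing.ResidueField A) f →
      (∀ i, ∃ b b' : gaussV A M, (b : FF M) ∈ modelFin M A ∧ (b' : FF M) ∈ modelInf M A ∧
        gaussR A M b = f i ∧
        f i = gaussR A M ⟨jB M, jB_mem_gaussV A M⟩ ^ n * gaussR A M b') →
      ∃ w : ι → gaussV A M, (∀ i, ((w i : gaussV A M) : FF M) ∈ modelFin M A) ∧
        (∀ i, ∃ w' ∈ modelInf M A, ((w i : gaussV A M) : FF M) = jB M ^ n * w') ∧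
        (∀ i, gaussR A M (w i) = f i) ∧
        LinearIndependent Kbar (fun i => ((w i : gaussV A M) : FF M)) := by
  obtain ⟨c₀, hc₀⟩ := h58g_lift M A hℓ hℓM hA
  refine ⟨c₀, fun n hn ι _ f hf hmem => ?_⟩
  have hex : ∀ i, ∃ w : gaussV A M, (w : FF M) ∈ modelFin M A ∧
      (∃ w' ∈ modelInf M A, (w : FF M) = jB M ^ n * w') ∧ gaussR A M w = f i := by
    intro i
    obtain ⟨b, b', hb, hb', hbf, hfb'⟩ := hmem i
    obtain ⟨w, w', hw, hw', hww', hwb, -⟩ := hc₀ n hn b b' hb hb' (hbf.trans hfb')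
    exact ⟨w, hw, ⟨(w' : FF M), hw', hww'⟩, hwb.trans hbf⟩
  choose w hw1 hw2 hw3 using hex
  refine ⟨w, hw1, hw2, hw3, h58g_indep_lift M A w ?_⟩
  have : (fun i => gaussR A M (w i)) = f := funext hw3
  rw [this]
  exact hf

end Fermat.Agent.P5
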