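import Fermat.Agent.P5.H68RRLarge

/-!
# Wave 5, pillar (P), block GEO-RR, leaf `H13rFin` (helper68)

From `H13rBase K F` alone: `L(D)` is finite-dimensional for every `D`, `ℓ(D + P) ≤ ℓ(D) + 1`,
`L(D) = 0` for `deg D < 0`, and `ℓ(0) = 1`.  Mathlib + Prelude only.
-/

set_option autoImplicit false

noncomputable section

namespace Fermat.Agent.P5

open AlgebraicCurve

variable {K F : Type*} [Field K] [Field F] [Algebra K F]

/-- `L(D) finite ⇒ L(D + P) finite` (leading-coefficient map). -/
theorem h68r_finite_step (D : Divisor K F) (P : Place K F) [Module.Finite K P.ResidueField]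
    (h : Module.Finite K ↥(riemannRochSpace D)) :
    Module.Finite K ↥(riemannRochSpace (D + Finsupp.single P 1)) := by
  obtain ⟨π, hπ0, hπ⟩ := h68r_exists_unif P
  rw [← Module.rank_lt_aleph0_iff]
  have h1 := LinearMap.rank_range_add_rank_ker (h68rLead D P π hπ0 hπ)
  have h2 : Module.rank K ↥(LinearMap.range (h68rLead D P π hπ0 hπ)) < Cardinal.aleph0 :=
    lt_of_le_of_lt (Submodule.rank_le _) (Module.rank_lt_aleph0 K P.ResidueField)
  have h3 : Module.rank K ↥(LinearMap.ker (h68rLead D P π hπ0 hπ)) < Cardinal.aleph0 := by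
    have e := Submodule.equivMapOfInjective
      (riemannRochSpace (D + Finsupp.single P 1)).subtype
      (Submodule.injective_subtype _) (LinearMap.ker (h68rLead D P π hπ0 hπ))
    rw [e.rank_eq]
    exact lt_of_le_of_lt (Submodule.rank_mono (h68r_lead_ker_le D P π hπ0 hπ))
      (Module.rank_lt_aleph0 K _)
  rw [← h1]
  exact Cardinal.add_lt_aleph0 h2 h3

/-- finiteness propagates upwards (all places of degree one). -/
theorem h68r_finite_of_le (hdeg : ∀ v : Place K F, v.deg = 1) :
    ∀ (n : ℕ) (D₀ E : Divisor K F), D₀ ≤ E → Divisor.degree E - Divisor.degree D₀ = n →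
      Module.Finite K ↥(riemannRochSpace D₀) → Module.Finite K ↥(riemannRochSpace E) := by
  intro n
  induction n with
  | zero =>
    intro D₀ E hle hd hfin
    have h1 : E - D₀ = 0 := by
      by_contra hne
      have := h68r_degree_pos hdeg (sub_nonneg.2 hle) hne
      rw [map_sub] at this
      simp at hd
      linarith
    have h2 : E = D₀ := sub_eq_zero.1 h1
    rw [h2]
    exact hfin
  | succ n ih =>
    intro D₀ E hle hd hfin
    have hne : E ≠ D₀ := by
      rintro rfl
      simp at hd
      omega
    obtain ⟨v, hv⟩ : ∃ v, D₀ v < E v := by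
      by_contra hcon
      simp only [not_exists, not_lt] at hcon
      exact hne (Finsupp.ext fun w => le_antisymm (hcon w) (Finsupp.le_def.mp hle w))
    have hle' : D₀ ≤ E - Finsupp.single v 1 := by
      rw [Finsupp.le_def]
      intro w
      rw [Finsupp.sub_apply]
      by_cases hw : w = v
      · subst hw
        rw [Finsupp.single_eq_same]
        omega
      · rw [Finsupp.single_eq_of_ne hw, sub_zero]
        exact Finsupp.le_def.mp hle w
    have hd' : Divisor.degree (E - Finsupp.single v 1) - Divisor.degree D₀ = n := by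
      rw [map_sub, Divisor.degree_single, hdeg v]
      push_cast at hd ⊢
      linarith
    have h1 := ih D₀ (E - Finsupp.single v 1) hle' hd' hfin
    haveI : Module.Finite K v.ResidueField :=
      Module.finite_of_finrank_pos (by
        have : Module.finrank K v.ResidueField = 1 := hdeg v
        omega)
    have h2 := h68r_finite_step (E - Finsupp.single v 1) v h1
    rw [sub_add_cancel] at h2
    exact h2

/-- `L(D) = 0` in negative degree. -/
theorem h68r_eq_bot_of_deg_neg (hB : H13rBase K F) (D : Divisor K F)
    (hD : Divisor.degree D < 0) : riemannRochSpace D = ⊥ := by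
  rw [eq_bot_iff]
  intro f hf
  rw [Submodule.mem_bot]
  by_contra hf0
  obtain ⟨Df, hDf, hdegf⟩ := hB.pd f hf0
  have hle : (0 : Divisor K F) ≤ D + Df := by
    rw [Finsupp.le_def]
    intro v
    have h2 := ((mem_riemannRochSpace_iff.1 hf) v).resolve_left hf0
    rw [Finsupp.add_apply, hDf v]
    simp only [Finsupp.coe_zero, Pi.zero_apply]
    linarith
  have h3 := h68r_degree_nonneg hle
  rw [map_add, hdegf, add_zero] at h3
  linarith

/-- every `L(D)` is finite-dimensional. -/
theorem h68r_finite (hB : H13rBase K F) (D : Divisor K F) :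
    Module.Finite K ↥(riemannRochSpace D) := by
  haveI := hB.infinite
  obtain ⟨P⟩ : Nonempty (Place K F) := inferInstance
  -- a divisor below `D` of negative degree
  set m : ℤ := |Divisor.degree D| + 1 with hm
  have hm0 : 0 ≤ m := by positivity
  set D₀ : Divisor K F := D - Finsupp.single P m with hD₀
  have hle : D₀ ≤ D := by
    rw [Finsupp.le_def]
    intro v
    rw [hD₀, Finsupp.sub_apply]
    have : (0 : ℤ) ≤ (Finsupp.single P m) v := by
      by_cases hv : v = P
      · subst hv; simpa using hm0
      · rw [Finsupp.single_eq_of_ne hv]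
    linarith
  have hdeg0 : Divisor.degree D₀ = Divisor.degree D - m := by
    rw [hD₀, map_sub, Divisor.degree_single, hB.deg_one P]
    simp
  have hneg : Divisor.degree D₀ < 0 := by
    rw [hdeg0, hm]
    have := le_abs_self (Divisor.degree D)
    linarith
  have hbot := h68r_eq_bot_of_deg_neg hB D₀ hneg
  have hfin0 : Module.Finite K ↥(riemannRochSpace D₀) := by
    rw [hbot]
    infer_instance
  have hd : Divisor.degree D - Divisor.degree D₀ = (m.toNat : ℤ) := by
    rw [hdeg0, Int.toNat_of_nonneg hm0]
    ring
  exact h68r_finite_of_le hB.deg_one m.toNat D₀ D hle hd hfin0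

/-- `L(0)` is the field of constants. -/
theorem h68r_L_zero (hB : H13rBase K F) :
    riemannRochSpace (0 : Divisor K F) = LinearMap.range (Algebra.linearMap K F) := by
  apply le_antisymm
  · intro f hf
    have h1 : ∀ v : Place K F, 0 ≤ v.ord f := by
      intro v
      rcases (mem_riemannRochSpace_iff.1 hf) v with h | h
      · rw [h]; simp
      · simpa using h
    obtain ⟨c, hc⟩ := hB.const f h1
    exact ⟨c, hc⟩
  · rintro _ ⟨c, rfl⟩
    rw [mem_riemannRochSpace_iff]
    intro v
    right
    simp only [Finsupp.coe_zero, Pi.zero_apply, neg_zero]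
    exact h68r_ord_nonneg_of_mem v (v.algebraMap_mem' c)

theorem h68r_ell_zero (hB : H13rBase K F) : h13rL K F (0 : Divisor K F) = 1 := by
  unfold h13rL
  rw [h68r_L_zero hB]
  have hinj : Function.Injective (Algebra.linearMap K F) := hB.inj
  rw [LinearMap.finrank_range_of_inj hinj]
  exact Module.finrank_self K

/-- **RR-FIN** (exact frozen Prop of `P5/H13RRIface.lean`). -/
theorem h68r_fin (K F : Type*) [Field K] [Field F] [Algebra K F] : H13rFin K F := by
  intro hB
  exact ⟨h68r_finite hB, fun D P => h68r_one_step D P (hB.deg_one P),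
    h68r_eq_bot_of_deg_neg hB, h68r_ell_zero hB⟩

end Fermat.Agent.P5
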