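import Fermat.Agent.P5.H13SFIface
import Fermat.Agent.P5.H42SFpd
import Fermat.Agent.P5.H43Riemann
import Fermat.Agent.P5.H68RRFin
import Fermat.Agent.P5.H58SFCech

/-!
# Wave 5, pillar (P), block GEO-GENUS (helper26): wiring of `H13sGenus`

`H13sGenus` (frozen in `P5/H13SFIface.lean`): both fibres have a weak genus, and the two are
EQUAL.  This file reduces it to three leaves, each a `Prop` (nothing is assumed):

* `H26sRiemannSF` : the special fibre has a weak genus (Riemann's theorem `h43r_riemann_final`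
  at the special fibre; inputs = `H13sBase`, transcendence of the reduction of `j`, finiteness,
  `H13rZeros`).
* `H26sSemiLe` : semicontinuity `ℓ(E) ≤ ℓ~(r_* E)` for every divisor `E` of the generic fibre
  (consequence of `H13sSemi`).
* `H26sLiftLe` : lifting `ℓ~(r_* E) ≤ ℓ(E)` for SOME divisor `E` of arbitrarily large degree
  (`E = n D_∞`: landed chart lifting `h58g_lift_family` + the two dictionaries).

`h26s_genus_core : H13sBase → H13sRedDiv → H26sRiemannSF → H26sSemiLe → H26sLiftLe → H13sGenus`.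

Second level:

* `H26sZerosSF` : the reduction of `j` is transcendental, the special fibre field is finite over
  `k(j~)`, and `H13rZeros` holds for it.  `h26s_riemannSF_of : H13sBase → H26sZerosSF →
  H26sRiemannSF`.
* `H26sIsPole M D` : `D` is the pole divisor of `j` on the generic fibre; `h26s_exists_pole`.
* `H26sDictG` (easy inclusion of the dictionary at the generic fibre): `B ∩ jⁿ B_∞ ⊆ L(n D_∞)`.
* `H26sDictS` (the inclusion of the dictionary at the special fibre which uses normality of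
  the special charts): `L~(r_* (n D_∞)) ⊆ red(B) ∩ red(j)ⁿ red(B_∞)`.
* `h26s_liftLe_of_dict : H13sBase → H26sDictG → H26sDictS → H26sLiftLe`
  (landed chart lifting `h58g_lift_family` of helper58).
-/

set_option autoImplicit false
set_option linter.style.haveILetI false

open AlgebraicCurve ModularCurve

noncomputable section

namespace Fermat.Agent.P5

open Fermat.Agent.S37 Fermat.Agent.Red.GV

/-- **SF-RIEMANN**: the special fibre has a weak genus. -/
def H26sRiemannSF : Prop :=
  ∀ (ℓ : ℕ), ℓ.Prime → ∀ (M : ℕ) [NeZero M], ¬ ℓ ∣ M → auxLevel ℓ ∣ M →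
    ∀ A : ValuationSubring Kbar, A.LiesOverPrime ℓ →
      ∃ g : ℕ, H13rIsGenus (h13sK A) (h13sFt A M) g

/-- **SEMI-LE**: semicontinuity, `ℓ(E) ≤ ℓ~(r_* E)`. -/
def H26sSemiLe : Prop :=
  ∀ (ℓ : ℕ), ℓ.Prime → ∀ (M : ℕ) [NeZero M], ¬ ℓ ∣ M → auxLevel ℓ ∣ M →
    ∀ A : ValuationSubring Kbar, A.LiesOverPrime ℓ →
    ∀ r : Place Kbar (FF M) → Place (h13sK A) (h13sFt A M), H13sIsRed A M r →
    ∀ E : Divisor Kbar (FF M),
      h13rL Kbar (FF M) E ≤ h13rL (h13sK A) (h13sFt A M) (h13sPush r E)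

/-- **LIFT-LE**: lifting of sections in large degree, `ℓ~(r_* E) ≤ ℓ(E)` for some `E` of
arbitrarily large degree. -/
def H26sLiftLe : Prop :=
  ∀ (ℓ : ℕ), ℓ.Prime → ∀ (M : ℕ) [NeZero M], ¬ ℓ ∣ M → auxLevel ℓ ∣ M →
    ∀ A : ValuationSubring Kbar, A.LiesOverPrime ℓ →
    ∀ r : Place Kbar (FF M) → Place (h13sK A) (h13sFt A M), H13sIsRed A M r →
    ∀ c : ℤ, ∃ E : Divisor Kbar (FF M), c ≤ Divisor.degree E ∧
      h13rL (h13sK A) (h13sFt A M) (h13sPush r E) ≤ h13rL Kbar (FF M) E

/-- the generic fibre has a weak genus (unconditional). -/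
theorem h26s_genus_generic (M : ℕ) [NeZero M] : ∃ g : ℕ, H13rIsGenus Kbar (FF M) g :=
  h40r_riemann_FF M h43r_riemann_final

/-- two weak genera of the same field are equal. -/
theorem h26s_genus_unique {K F : Type*} [Field K] [Field F] [Algebra K F] (hB : H13rBase K F)
    {g g' : ℕ} (hg : H13rIsGenus K F g) (hg' : H13rIsGenus K F g') : g = g' := by
  obtain ⟨⟨c, hc⟩, -⟩ := h68r_large K F hB g hg
  obtain ⟨⟨c', hc'⟩, -⟩ := h68r_large K F hB g' hg'
  haveI := hB.infinite
  obtain ⟨P⟩ : Nonempty (Place K F) := inferInstance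
  set E : Divisor K F := Finsupp.single P (max c c') with hE
  have hdeg : Divisor.degree E = max c c' := by
    rw [hE, Divisor.degree_single, hB.deg_one P]; simp
  have h1 := hc E (by rw [hdeg]; exact le_max_left _ _)
  have h2 := hc' E (by rw [hdeg]; exact le_max_right _ _)
  omega

/-- **wiring of `H13sGenus`.** -/
theorem h26s_genus_core (hB : H13sBase) (hRD : H13sRedDiv) (hRsf : H26sRiemannSF)
    (hS : H26sSemiLe) (hL : H26sLiftLe) : H13sGenus := by
  intro ℓ hℓ M _ hM haux A hA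
  obtain ⟨r, hr⟩ := hRD ℓ hℓ M hM haux A hA
  have hBg : H13rBase Kbar (FF M) := h40r_base_FF M
  have hBs : H13rBase (h13sK A) (h13sFt A M) := hB ℓ hℓ M hM haux A hA
  obtain ⟨g, hg⟩ := h26s_genus_generic M
  obtain ⟨g', hg'⟩ := hRsf ℓ hℓ M hM haux A hA
  obtain ⟨⟨c, hc⟩, -⟩ := h68r_large Kbar (FF M) hBg g hg
  obtain ⟨⟨c', hc'⟩, -⟩ := h68r_large (h13sK A) (h13sFt A M) hBs g' hg'
  obtain ⟨E, hE, hle⟩ := hL ℓ hℓ M hM haux A hA r hr (max c c')
  have hdeg : Divisor.degree (h13sPush r E) = Divisor.degree E :=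
    h42p_degree_push hBg.deg_one hBs.deg_one r E
  have h1 := hc E (le_trans (le_max_left _ _) hE)
  have h2 := hc' (h13sPush r E) (by rw [hdeg]; exact le_trans (le_max_right _ _) hE)
  have h3 := hS ℓ hℓ M hM haux A hA r hr E
  rw [hdeg] at h2
  have hgg : g = g' := by omega
  subst hgg
  exact ⟨g, hg, hg'⟩

/-! ### Second level -/

/-- the reduction of `j`, in the special fibre field. -/
def h26sJ (A : ValuationSubring Kbar) (M : ℕ) [NeZero M] : h13sFt A M :=
  h13sRed A M ⟨jB M, jB_mem_gaussV A M⟩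

/-- **SF-ZEROS**: the inputs of Riemann's theorem at the special fibre. -/
def H26sZerosSF : Prop :=
  ∀ (ℓ : ℕ), ℓ.Prime → ∀ (M : ℕ) [NeZero M], ¬ ℓ ∣ M → auxLevel ℓ ∣ M →
    ∀ A : ValuationSubring Kbar, A.LiesOverPrime ℓ →
      Transcendental (h13sK A) (h26sJ A M) ∧
      FiniteDimensional (IntermediateField.adjoin (h13sK A) {h26sJ A M}) (h13sFt A M) ∧
      H13rZeros (h13sK A) (h13sFt A M) (h26sJ A M)

theorem h26s_riemannSF_of (hB : H13sBase) (hZ : H26sZerosSF) : H26sRiemannSF := by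
  intro ℓ hℓ M _ hM haux A hA
  obtain ⟨h1, h2, h3⟩ := hZ ℓ hℓ M hM haux A hA
  exact h43r_riemann_final (hB ℓ hℓ M hM haux A hA) (h26sJ A M) h1 h2 h3

/-- `D` is the pole divisor of `j`. -/
def H26sIsPole (M : ℕ) [NeZero M] (D : Divisor Kbar (FF M)) : Prop :=
  ∀ v : Place Kbar (FF M), D v = max 0 (-(v.ord (jB M)))

/-- the pole divisor of `j` exists and has positive degree. -/
theorem h26s_exists_pole (M : ℕ) [NeZero M] :
    ∃ D : Divisor Kbar (FF M), H26sIsPole M D ∧ 0 < Divisor.degree D := by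
  classical
  obtain ⟨s, hs, hsum⟩ := h40r_zeros_FF M (jB M)⁻¹ (Or.inr rfl)
  haveI := h40r_finite_FF M
  have hBg : H13rBase Kbar (FF M) := h40r_base_FF M
  refine ⟨∑ v ∈ s, Finsupp.single v (v.ord (jB M)⁻¹), fun v => ?_, ?_⟩
  · rw [Finsupp.finsetSum_apply]
    by_cases hv : v ∈ s
    · rw [Finset.sum_eq_single_of_mem v hv (fun w _ hw => Finsupp.single_eq_of_ne' hw),
        Finsupp.single_eq_same]
      have := (hs v).1 hv
      rw [Place.ord_inv] at this ⊢
      omega
    · rw [Finset.sum_eq_zero (fun w hw => Finsupp.single_eq_of_ne'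
        (by rintro rfl; exact hv hw))]
      have := (hs v).not.1 hv
      rw [Place.ord_inv] at this
      omega
  · rw [map_sum]
    have h1 : ∀ v ∈ s, Divisor.degree (Finsupp.single v (v.ord (jB M)⁻¹)) = v.ord (jB M)⁻¹ := by
      intro v _
      rw [Divisor.degree_single, hBg.deg_one v]; simp
    rw [Finset.sum_congr rfl h1, hsum]
    exact_mod_cast Module.finrank_pos

/-- **DICT-G** (easy inclusion): `B ∩ jⁿ B_∞ ⊆ L(n D_∞)`. -/
def H26sDictG : Prop :=
  ∀ (ℓ : ℕ), ℓ.Prime → ∀ (M : ℕ) [NeZero M], ¬ ℓ ∣ M → auxLevel ℓ ∣ M →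
    ∀ A : ValuationSubring Kbar, A.LiesOverPrime ℓ →
    ∀ D : Divisor Kbar (FF M), H26sIsPole M D →
    ∀ (n : ℕ) (w w' : FF M), w ∈ modelFin M A → w' ∈ modelInf M A → w = jB M ^ n * w' →
      w ∈ riemannRochSpace (n • D)

/-- **DICT-S** (normality of the special charts): `L~(r_* (n D_∞)) ⊆ red B ∩ red(j)ⁿ red B_∞`. -/
def H26sDictS : Prop :=
  ∀ (ℓ : ℕ), ℓ.Prime → ∀ (M : ℕ) [NeZero M], ¬ ℓ ∣ M → auxLevel ℓ ∣ M →
    ∀ A : ValuationSubring Kbar, A.LiesOverPrime ℓ →
    ∀ r : Place Kbar (FF M) → Place (h13sK A) (h13sFt A M), H13sIsRed A M r →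
    ∀ D : Divisor Kbar (FF M), H26sIsPole M D →
    ∀ (n : ℕ) (y : h13sFt A M), y ∈ riemannRochSpace (h13sPush r (n • D)) →
      ∃ b b' : gaussV A M, (b : FF M) ∈ modelFin M A ∧ (b' : FF M) ∈ modelInf M A ∧
        gaussR A M b = h13sIncl A M y ∧
        h13sIncl A M y = gaussR A M ⟨jB M, jB_mem_gaussV A M⟩ ^ n * gaussR A M b'

/-- **LIFT-LE from the dictionaries** and the landed chart lifting. -/
theorem h26s_liftLe_of_dict (hB : H13sBase) (hDG : H26sDictG) (hDS : H26sDictS) :
    H26sLiftLe := by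
  classical
  intro ℓ hℓ M _ hM haux A hA r hr c
  have hBg : H13rBase Kbar (FF M) := h40r_base_FF M
  have hBs : H13rBase (h13sK A) (h13sFt A M) := hB ℓ hℓ M hM haux A hA
  obtain ⟨D, hD, hDpos⟩ := h26s_exists_pole M
  obtain ⟨c₀, hc₀⟩ := h58g_lift_family M A hℓ hM hA
  set n : ℕ := max c₀ c.toNat with hn
  refine ⟨n • D, ?_, ?_⟩
  · rw [map_nsmul, nsmul_eq_mul]
    have h1 : (c.toNat : ℤ) ≤ n := by exact_mod_cast le_max_right c₀ c.toNat
    have h2 : c ≤ (c.toNat : ℤ) := Int.self_le_toNat c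
    have h3 : (0 : ℤ) ≤ n := Int.natCast_nonneg n
    nlinarith
  · haveI fin1 : Module.Finite (h13sK A) ↥(riemannRochSpace (h13sPush r (n • D))) :=
      h68r_finite hBs _
    haveI fin2 : Module.Finite Kbar ↥(riemannRochSpace (n • D)) := h68r_finite hBg _
    set m := Module.finrank (h13sK A) ↥(riemannRochSpace (h13sPush r (n • D))) with hm
    let y := Module.finBasis (h13sK A) ↥(riemannRochSpace (h13sPush r (n • D)))
    let f : Fin m → LaurentSeries (h13sK A) := fun i => h13sIncl A M (y i : h13sFt A M)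
    have hf : LinearIndependent (h13sK A) f := by
      have h1 : LinearIndependent (h13sK A) (fun i => ((y i : ↥(riemannRochSpace
          (h13sPush r (n • D)))) : h13sFt A M)) :=
        y.linearIndependent.map' (Submodule.subtype _) (Submodule.ker_subtype _)
      let g : h13sFt A M →ₗ[h13sK A] LaurentSeries (h13sK A) :=
        { toFun := fun x => h13sIncl A M x
          map_add' := fun x x' => map_add _ x x'
          map_smul' := fun c x => by
            rw [RingHom.id_apply]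
            have e : c • x = algebraMap (h13sK A) (h13sFt A M) c * x := Algebra.smul_def c x
            have e2 : algebraMap (h13sK A) (LaurentSeries (h13sK A)) c = HahnSeries.C c := by
              rw [algebraMap_laurentSeries_eq_single]
              rfl
            rw [e, map_mul, AlgHom.commutes, e2, HahnSeries.C_mul_eq_smul] }
      have hg : LinearMap.ker g = ⊥ :=
        LinearMap.ker_eq_bot.mpr (h13sIncl A M).toRingHom.injective
      exact h1.map' g hg
    obtain ⟨w, hw1, hw2, hw3, hw4⟩ := hc₀ n (le_max_left _ _) f hf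
      (fun i => hDS ℓ hℓ M hM haux A hA r hr D hD n (y i) (y i).2)
    have hmem : ∀ i, ((w i : gaussV A M) : FF M) ∈ riemannRochSpace (n • D) := by
      intro i
      obtain ⟨w', hw', e⟩ := hw2 i
      exact hDG ℓ hℓ M hM haux A hA D hD n _ w' (hw1 i) hw' e
    have hli : LinearIndependent Kbar
        (fun i => (⟨((w i : gaussV A M) : FF M), hmem i⟩ : ↥(riemannRochSpace (n • D)))) := by
      apply LinearIndependent.of_comp (Submodule.subtype _)
      exact hw4
    have h5 := hli.fintype_card_le_finrank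
    rw [Fintype.card_fin] at h5
    exact h5

/-- **`H13sGenus` from the second-level leaves.** -/
theorem h26s_genus_of (hB : H13sBase) (hRD : H13sRedDiv) (hZ : H26sZerosSF)
    (hS : H26sSemiLe) (hDG : H26sDictG) (hDS : H26sDictS) : H13sGenus :=
  h26s_genus_core hB hRD (h26s_riemannSF_of hB hZ) hS (h26s_liftLe_of_dict hB hDG hDS)

end Fermat.Agent.P5
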