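import Fermat.Agent.P5.H4Seed
import Fermat.Agent.P5.H13SFIface

/-!
# P5 (wave 5, S19), glue GEO-NONSPEC (helper4): `H13sIsRed` + `ℓ̃(∑ r (Q i)) = 1 ⟹ H4rNonSpec`

In the frozen vocabulary of `P5/H13SFIface.lean` (helper13):

* `h4n_push_apply` : for a reduction map `r` of places, `(r_* D)(r w) = h4r_red A w D`.
* `h4n_nonSpec` : if `r` is the reduction map (`H13sIsRed A M r`) and the reduction of `∑ Q i`
  is non-special (`ℓ̃(r_* ∑ Q i) = 1`), then `H4rNonSpec A Q`.
* `h4n_out` : a place outside the discs of the `Q i` (the special fibre has infinitely many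
  places).
* `h4n_chart` : the seed-chart package `H4sChart A c` from the disc calculus at the centres,
  injectivity of `r ∘ c.Q` and non-speciality of the reduction.
-/

set_option autoImplicit false
set_option linter.unusedSectionVars false

open AlgebraicCurve ModularCurve

noncomputable section

namespace Fermat.Agent.P5

open Fermat.Agent.S37 Fermat.Agent.Red.GV

variable {M : ℕ} [NeZero M] {g : ℕ}

/-- `(r_* D)(r w)` is the sum of `D` over the residue disc of `w`. -/
theorem h4n_push_apply (A : ValuationSubring Kbar)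
    (r : Place Kbar (FF M) → Place (h13sK A) (h13sFt A M))
    (hr : ∀ v w : Place Kbar (FF M), r v = r w ↔ SameRed A v w)
    (D : Divisor Kbar (FF M)) (w : Place Kbar (FF M)) :
    h13sPush r D (r w) = h4r_red A w D := by
  classical
  rw [h4r_red_apply]
  unfold h13sPush
  rw [Finsupp.mapDomain, Finsupp.sum, Finsupp.finsetSum_apply]
  refine Finset.sum_congr rfl fun v _ => ?_
  rw [Finsupp.single_apply]
  simp only [hr v w]

theorem h4n_push_add (A : ValuationSubring Kbar)
    (r : Place Kbar (FF M) → Place (h13sK A) (h13sFt A M)) (D E : Divisor Kbar (FF M)) :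
    h13sPush r (D + E) = h13sPush r D + h13sPush r E :=
  Finsupp.mapDomain_add

/-- **GEO-NONSPEC**: non-speciality of the reduction, in the shape consumed by GEO-REP. -/
theorem h4n_nonSpec {ℓ : ℕ} (hℓ : ℓ.Prime) (hM : ¬ ℓ ∣ M) (A : ValuationSubring Kbar)
    (hA : A.LiesOverPrime ℓ)
    (r : Place Kbar (FF M) → Place (h13sK A) (h13sFt A M)) (hr : H13sIsRed A M r)
    (Q : Fin g → Place Kbar (FF M))
    (hl : h13rL (h13sK A) (h13sFt A M) (h13sPush r (h4r_sum Q)) = 1) :
    H4rNonSpec A Q := by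
  classical
  obtain ⟨hsurj, hfib, hdiv⟩ := hr
  rintro D ⟨f, hf0, hDf⟩ hpos w
  obtain ⟨c, hc0, hcf, hcfi⟩ := exists_cst_mul_unit (A := A) (N := M) (ℓ := ℓ) hℓ hM hA f hf0
  have hf'0 : cst M c * f ≠ 0 := mul_ne_zero (by
    intro h
    exact hc0 ((map_eq_zero (algebraMap Kbar (FF M))).1 h)) hf0
  have hDf' : ∀ v : Place Kbar (FF M), D v = v.ord (cst M c * f) := by
    intro v
    have hcc : cst M c ≠ 0 := fun h => hc0 ((map_eq_zero (algebraMap Kbar (FF M))).1 h)
    rw [v.ord_mul hcc hf0, Fermat.Agent.S24.DiffPlace.ord_algebraMap v c, zero_add]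
    exact hDf v
  have hord := hdiv (cst M c * f) hcf hcfi D hDf'
  set y : h13sFt A M := h13sRed A M ⟨cst M c * f, hcf⟩ with hy
  -- `y` lies in `L(r_* ∑ Q i)`
  have hyL : y ∈ riemannRochSpace (h13sPush r (h4r_sum Q)) := by
    rw [mem_riemannRochSpace_iff]
    intro Qt
    right
    obtain ⟨w', rfl⟩ := hsurj Qt
    have h1 := hpos w'
    rw [← h4n_push_apply A r hfib, h4n_push_add, Finsupp.add_apply, hord (r w')] at h1
    omega
  -- `1` lies in `L(r_* ∑ Q i)`
  have h1L : (1 : h13sFt A M) ∈ riemannRochSpace (h13sPush r (h4r_sum Q)) := by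
    rw [mem_riemannRochSpace_iff]
    intro Qt
    right
    obtain ⟨w', rfl⟩ := hsurj Qt
    rw [h4n_push_apply A r hfib, Place.ord_one]
    have := h4r_red_nonneg A w' (h4r_sum_nonneg Q)
    omega
  -- hence `y` is constant
  have h1ne : (⟨1, h1L⟩ : ↥(riemannRochSpace (h13sPush r (h4r_sum Q)))) ≠ 0 := by
    intro h
    exact one_ne_zero (congrArg Subtype.val h)
  obtain ⟨a, ha⟩ := (finrank_eq_one_iff_of_nonzero' _ h1ne).1 hl ⟨y, hyL⟩
  have hya : y = algebraMap (h13sK A) (h13sFt A M) a := by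
    have h2 := congrArg Subtype.val ha
    simp only [Submodule.coe_smul] at h2
    rw [← h2, Algebra.smul_def, mul_one]
  rw [← h4n_push_apply A r hfib, hord (r w), hya]
  exact Fermat.Agent.S24.DiffPlace.ord_algebraMap (r w) a

/-- a place outside the discs of the `Q i`. -/
theorem h4n_out (A : ValuationSubring Kbar)
    (r : Place Kbar (FF M) → Place (h13sK A) (h13sFt A M)) (hr : H13sIsRed A M r)
    (hinf : Infinite (Place (h13sK A) (h13sFt A M)))
    (Q : Fin g → Place Kbar (FF M)) :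
    ∃ v : Place Kbar (FF M), ∀ i, ¬ SameRed A v (Q i) := by
  classical
  obtain ⟨hsurj, hfib, -⟩ := hr
  obtain ⟨Qt, hQt⟩ := Infinite.exists_notMem_finset (Finset.univ.image fun i => r (Q i))
  obtain ⟨v, rfl⟩ := hsurj Qt
  refine ⟨v, fun i h => hQt ?_⟩
  rw [Finset.mem_image]
  exact ⟨i, Finset.mem_univ i, ((hfib v (Q i)).2 h).symm⟩

/-- **the seed-chart package** from the frozen special-fibre interface. -/
theorem h4n_chart {ℓ : ℕ} (hℓ : ℓ.Prime) (hM : ¬ ℓ ∣ M) (A : ValuationSubring Kbar)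
    (hA : A.LiesOverPrime ℓ)
    (r : Place Kbar (FF M) → Place (h13sK A) (h13sFt A M)) (hr : H13sIsRed A M r)
    (hinf : Infinite (Place (h13sK A) (h13sFt A M)))
    (c : H96Chart M g) (hd : ∀ i, H37DiscAt A (c.Q i) (c.t i) (c.O i))
    (hinj : Function.Injective fun i => r (c.Q i))
    (hl : h13rL (h13sK A) (h13sFt A M) (h13sPush r (h4r_sum c.Q)) = 1) :
    H4sChart A c where
  disc := hd
  distinct := fun i j h => hinj ((hr.2.1 (c.Q i) (c.Q j)).2 h)
  nonspec := h4n_nonSpec hℓ hM A hA r hr c.Q hl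
  out := h4n_out A r hr hinf c.Q

end Fermat.Agent.P5
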