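import Fermat.Agent.P5.H85SFDictS
import Fermat.Agent.P5.H26GenusWire
import Fermat.Agent.P5.H4NonSpec

/-!
# Wave 5, pillar (P), block GEO-GENUS: the leaf `H26sDictS` (helper85)

`h85f_dictS26 : H26sDictS` (exact frozen Prop of `P5/H26GenusWire.lean`), UNCONDITIONAL.

* `h85f_push_pole` : for a reduction map of places `r` (`H13sIsRed A M r`), the push-forward of
  `n` times the pole divisor of `j` is `n` times the pole divisor of the reduction of `j`
  (third conjunct of `H13sIsRed` for the Gauss unit `j`; finiteness is constant on the classes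
  of `SameRed`, so there is no cancellation in a fibre).
* `h85f_dictS_inclE` : DICT-S for an arbitrary divisor with the values of `n D~_∞`.
-/

set_option autoImplicit false
set_option linter.unusedSectionVars false
set_option linter.style.haveILetI false

open AlgebraicCurve ModularCurve

noncomputable section

namespace Fermat.Agent.P5

open Fermat.Agent.S37 Fermat.Agent.Red.GV Fermat.Agent.Red

variable (A : ValuationSubring Kbar) (M : ℕ) [NeZero M] {ℓ : ℕ}

/-- **DICT-S** inside `k((q))`, for any divisor with the values of `n D~_∞`. -/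
theorem h85f_dictS_inclE (hℓ : ℓ.Prime) (hM : ¬ ℓ ∣ M) (haux : auxLevel ℓ ∣ M)
    (hA : A.LiesOverPrime ℓ) (n : ℕ) (E : Divisor (h13sK A) (h13sFt A M))
    (hE : ∀ v : Place (h13sK A) (h13sFt A M),
      E v = (n : ℤ) * max 0 (-(v.ord (h40fJ A M)))) (y : h13sFt A M) :
    y ∈ riemannRochSpace E ↔
      ∃ b b' : gaussV A M, (b : FF M) ∈ modelFin M A ∧ (b' : FF M) ∈ modelInf M A ∧
        gaussR A M b = h13sIncl A M y ∧
        h13sIncl A M y = gaussR A M ⟨jB M, jB_mem_gaussV A M⟩ ^ n * gaussR A M b' := by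
  rw [h85f_dictS_B A M hℓ hM haux hA n E hE y]
  constructor
  · rintro ⟨⟨b, hb⟩, c, ⟨b', hb'⟩, hy⟩
    refine ⟨⟨(b : FF M), h40f_hVfin A M hℓ hM hA b.2⟩,
      ⟨(b' : FF M), h40f_hVinf A M hℓ hM hA b'.2⟩, b.2, b'.2, ?_, ?_⟩
    · rw [← hb]; rfl
    · rw [hy, ← hb', map_mul, map_pow]; rfl
  · rintro ⟨b, b', hb, hb', hby, hy⟩
    refine ⟨⟨⟨(b : FF M), hb⟩, ?_⟩, h13sRed A M b', ⟨⟨(b' : FF M), hb'⟩, rfl⟩, ?_⟩
    · apply h40f_incl_injective A M
      rw [← hby]; rfl
    · apply h40f_incl_injective A M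
      rw [hy, map_mul, map_pow]; rfl

variable {A M}

theorem h85f_mem_of_valueAt {v : Place Kbar (FF M)} {f : FF M} {a : Kbar}
    (h : ValueAt v f a) : f ∈ v.toValuationSubring := by
  have h1 : f - cst M a ∈ v.toValuationSubring := ValuationSubring.nonunits_subset h
  have h2 : cst M a ∈ v.toValuationSubring := v.algebraMap_mem' a
  have h3 : f = (f - cst M a) + cst M a := by ring
  rw [h3]
  exact add_mem h1 h2

theorem h85f_ord_nonneg_of_isFinAt {v : Place Kbar (FF M)} (hv : IsFinAt A v) :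
    0 ≤ v.ord (jB M) := by
  obtain ⟨a, -, ha⟩ := hv
  exact (h85f_mem_iff_ord v (Fermat.Agent.Red.ModelO.h85_jB_ne_zero M)).mp
    (h85f_mem_of_valueAt ha)

theorem h85f_ord_nonpos_of_not_isFinAt {v : Place Kbar (FF M)} (hv : ¬ IsFinAt A v) :
    v.ord (jB M) ≤ 0 := by
  obtain ⟨a, -, ha⟩ := Fermat.Agent.Red.Match.exists_valueAt_inv_of_not_isFinAt hv
  have h1 := (h85f_mem_iff_ord v
    (inv_ne_zero (Fermat.Agent.Red.ModelO.h85_jB_ne_zero M))).mp (h85f_mem_of_valueAt ha)
  rw [Place.ord_inv] at h1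
  omega

open Classical in
theorem h85f_red_eq_sum (w : Place Kbar (FF M)) (X : Divisor Kbar (FF M))
    (S : Finset (Place Kbar (FF M))) (hS : X.support ⊆ S) :
    h4r_red A w X = ∑ v ∈ S, if SameRed A v w then X v else 0 := by
  rw [h4r_red_apply]
  refine Finset.sum_subset hS fun v _ hv => ?_
  rw [Finsupp.notMem_support_iff.mp hv]
  simp

variable (A M)

/-- **the push-forward of the pole divisor of `j` is the pole divisor of the reduction of
`j`.** -/
theorem h85f_push_pole (hℓ : ℓ.Prime) (hM : ¬ ℓ ∣ M) (hA : A.LiesOverPrime ℓ)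
    (r : Place Kbar (FF M) → Place (h13sK A) (h13sFt A M)) (hr : H13sIsRed A M r)
    (D : Divisor Kbar (FF M)) (hD : H26sIsPole M D) (n : ℕ)
    (Q : Place (h13sK A) (h13sFt A M)) :
    (h13sPush r (n • D)) Q = (n : ℤ) * max 0 (-(Q.ord (h40fJ A M))) := by
  classical
  obtain ⟨hsurj, hfib, hdiv⟩ := hr
  obtain ⟨w, rfl⟩ := hsurj Q
  have hj0 : jB M ≠ 0 := Fermat.Agent.Red.ModelO.h85_jB_ne_zero M
  obtain ⟨Dj, hDj, -⟩ := (h40r_base_FF M).pd (jB M) hj0
  have key : h13sPush r Dj (r w) = (r w).ord (h40fJ A M) :=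
    hdiv (jB M) (jB_mem_gaussV A M) (jB_inv_mem_gaussV A M hℓ hM hA) Dj hDj (r w)
  rw [h4n_push_apply A r hfib] at key ⊢
  rw [← key, map_nsmul, nsmul_eq_mul]
  congr 1
  set S : Finset (Place Kbar (FF M)) := D.support ∪ Dj.support with hS
  rw [h85f_red_eq_sum w D S Finset.subset_union_left,
    h85f_red_eq_sum w Dj S Finset.subset_union_right]
  by_cases hw : IsFinAt A w
  · have h1 : ∀ v ∈ S, (if SameRed A v w then D v else 0) = 0 := by
      intro v _
      split_ifs with hvw
      · have hv : IsFinAt A v := (Fermat.Agent.Red.Match.sameRed_isFinAt_iff hvw).mpr hw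
        have := h85f_ord_nonneg_of_isFinAt hv
        rw [hD v]
        exact max_eq_left (by omega)
      · rfl
    have h2 : 0 ≤ ∑ v ∈ S, if SameRed A v w then Dj v else 0 := by
      refine Finset.sum_nonneg fun v _ => ?_
      split_ifs with hvw
      · have hv : IsFinAt A v := (Fermat.Agent.Red.Match.sameRed_isFinAt_iff hvw).mpr hw
        rw [hDj v]
        exact h85f_ord_nonneg_of_isFinAt hv
      · exact le_rfl
    rw [Finset.sum_eq_zero h1]
    exact (max_eq_left (by omega)).symm
  · have h1 : ∀ v ∈ S, (if SameRed A v w then D v else 0)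
        = -(if SameRed A v w then Dj v else 0) := by
      intro v _
      split_ifs with hvw
      · have hv : ¬ IsFinAt A v := fun h =>
          hw ((Fermat.Agent.Red.Match.sameRed_isFinAt_iff hvw).mp h)
        have := h85f_ord_nonpos_of_not_isFinAt hv
        rw [hD v, hDj v]
        exact max_eq_right (by omega)
      · simp
    have h2 : (∑ v ∈ S, if SameRed A v w then Dj v else 0) ≤ 0 := by
      refine Finset.sum_nonpos fun v _ => ?_
      split_ifs with hvw
      · have hv : ¬ IsFinAt A v := fun h =>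
          hw ((Fermat.Agent.Red.Match.sameRed_isFinAt_iff hvw).mp h)
        rw [hDj v]
        exact h85f_ord_nonpos_of_not_isFinAt hv
      · exact le_rfl
    rw [Finset.sum_congr rfl h1, Finset.sum_neg_distrib]
    exact (max_eq_right (by omega)).symm

/-- **the leaf `H26sDictS`** of the genus wiring. -/
theorem h85f_dictS26 : H26sDictS := by
  intro ℓ hℓ M _ hM haux A hA r hr D hD n y hy
  exact (h85f_dictS_inclE A M hℓ hM haux hA n (h13sPush r (n • D))
    (h85f_push_pole A M hℓ hM hA r hr D hD n) y).mp hy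

end Fermat.Agent.P5
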