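import Fermat.Agent.P5.H60RedDiv

/-!
# P5 (wave 5, S19), block GEO, leaf RED-DIV (helper60): the order of the reduction

`H60pRedOrd A R n t' x d` : the reduction of `x` has order `d` at the closed point `n` of the
chart `R`, measured by the local uniformiser `t'` (`RedUnitAt A R n (x * t'^(-d))`).

* `h60p_redOrd_places_fin / _inf` : **link to places** (RED-DIV): for a Gauss unit `x`,
  `d = ∑_{v centred at n} ord_v x`.
* `h60p_redOrd_mul`, `h60p_redOrd_inv`, `h60p_redOrd_cst`, `h60p_redOrd_unif` : additivity.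
* `h60p_redOrd_unique_fin / _inf` : uniqueness of `d`.
* `h60p_redOrd_regular` : `d + e ≥ 0 ⟹` the reduction of `x t'^e` is regular at `n`.
* `h60p_mem_of_gaussSmall_fin / _inf` : a chart function with reduction `0` lies in `𝔪_A R`.
-/

set_option autoImplicit false
set_option linter.unusedSectionVars false
set_option linter.unusedVariables false

open AlgebraicCurve ModularCurve WithZero IsLocalRing

noncomputable section

namespace Fermat.Agent.P5

open Fermat.Agent.S37 Fermat.Agent.Red.GV Fermat.Agent.Red.Match Fermat.Agent.Red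
  Fermat.Agent.Red.Nz

variable {M : ℕ} {A : ValuationSubring Kbar} {ℓ : ℕ}

/-- **the reduction of `x` has order `d` at `n`** (with respect to the uniformiser `t'`). -/
def H60pRedOrd (A : ValuationSubring Kbar) (R : Subring (FF M)) (n : Ideal R) (t' : FF M)
    (x : FF M) (d : ℤ) : Prop :=
  RedUnitAt A R n (x * t' ^ (-d))

theorem h60p_redOrd_iff (R : Subring (FF M)) (n : Ideal R) (t' x : FF M) (d : ℤ) :
    H60pRedOrd A R n t' x d ↔ RedUnitAt A R n (x * t' ^ (-d)) := Iff.rfl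

/-! ### `GaussSmall` -/

theorem h60p_gaussSmall_add {z z' : FF M} (hz : GaussSmall A M z) (hz' : GaussSmall A M z') :
    GaussSmall A M (z + z') := by
  obtain ⟨hzV, hz0⟩ := hz
  obtain ⟨hzV', hz0'⟩ := hz'
  refine ⟨add_mem hzV hzV', ?_⟩
  have h1 : (⟨z + z', add_mem hzV hzV'⟩ : gaussV A M) = ⟨z, hzV⟩ + ⟨z', hzV'⟩ := rfl
  rw [h1, map_add, hz0, hz0', add_zero]

theorem h60p_gaussSmall_neg {z : FF M} (hz : GaussSmall A M z) : GaussSmall A M (-z) := by
  obtain ⟨hzV, hz0⟩ := hz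
  refine ⟨neg_mem hzV, ?_⟩
  have h1 : (⟨-z, neg_mem hzV⟩ : gaussV A M) = -⟨z, hzV⟩ := rfl
  rw [h1, map_neg, hz0, neg_zero]

theorem h60p_gaussSmall_sub {z z' : FF M} (hz : GaussSmall A M z) (hz' : GaussSmall A M z') :
    GaussSmall A M (z - z') := by
  rw [sub_eq_add_neg]
  exact h60p_gaussSmall_add hz (h60p_gaussSmall_neg hz')

/-! ### Units of the reduction at a closed point -/

section RedUnit

variable {R : Subring (FF M)} (hR : R ≤ gaussV A M) (n : Ideal R) [hn : n.IsPrime]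

include hR in
/-- products of local units of the reduction. -/
theorem h60p_redUnitAt_mul {x y : FF M} (hy : y ∈ gaussV A M)
    (hx : RedUnitAt A R n x) (hyu : RedUnitAt A R n y) : RedUnitAt A R n (x * y) := by
  obtain ⟨a, b, ha, hb, hz⟩ := hx
  obtain ⟨a', b', ha', hb', hz'⟩ := hyu
  refine ⟨a * a', b * b', fun h => (hn.mem_or_mem h).elim ha ha',
    fun h => (hn.mem_or_mem h).elim hb hb', ?_⟩
  have h1 := h60p_gaussSmall_mul hz (mul_mem hy (hR b'.2))
  have h2 := h60p_gaussSmall_mul hz' (hR a.2)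
  have h3 := h60p_gaussSmall_add h1 h2
  have h4 : (x * (b : FF M) - (a : FF M)) * (y * (b' : FF M)) +
      (y * (b' : FF M) - (a' : FF M)) * (a : FF M) =
      x * y * ((b * b' : R) : FF M) - ((a * a' : R) : FF M) := by
    push_cast
    ring
  rw [h4] at h3
  exact h3

/-- the inverse of a local unit of the reduction. -/
theorem h60p_redUnitAt_inv {x : FF M} (hx0 : x ≠ 0) (hxi : x⁻¹ ∈ gaussV A M)
    (hx : RedUnitAt A R n x) : RedUnitAt A R n x⁻¹ := by
  obtain ⟨a, b, ha, hb, hz⟩ := hx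
  refine ⟨b, a, hb, ha, ?_⟩
  have h1 := h60p_gaussSmall_neg (h60p_gaussSmall_mul hz hxi)
  have h2 : -((x * (b : FF M) - (a : FF M)) * x⁻¹) = x⁻¹ * (a : FF M) - (b : FF M) := by
    field_simp
    ring
  rw [h2] at h1
  exact h1

include hR in
/-- a Gauss unit constant is a local unit of the reduction. -/
theorem h60p_redUnitAt_of_mem {a : R} (ha : a ∉ n) : RedUnitAt A R n (a : FF M) := by
  refine ⟨a, 1, ha, fun h => hn.ne_top ((Ideal.eq_top_iff_one _).mpr h), ?_⟩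
  have h1 : (a : FF M) * ((1 : R) : FF M) - (a : FF M) = 0 := by
    push_cast
    ring
  rw [h1]
  exact ⟨(gaussV A M).zero_mem, map_zero _⟩

end RedUnit

/-! ### The order of the reduction -/

section Ord

variable {R : Subring (FF M)} (hR : R ≤ gaussV A M) (n : Ideal R) [hn : n.IsPrime]
  (t' : R) (ht'0 : (t' : FF M) ≠ 0) (ht'V : (t' : FF M)⁻¹ ∈ gaussV A M)

include hR ht'0 ht'V in
/-- **additivity.** -/
theorem h60p_redOrd_mul {x y : FF M} (hy : y ∈ gaussV A M) {d e : ℤ}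
    (hx : H60pRedOrd A R n (t' : FF M) x d) (hyo : H60pRedOrd A R n (t' : FF M) y e) :
    H60pRedOrd A R n (t' : FF M) (x * y) (d + e) := by
  have h1 := h60p_redUnitAt_mul hR n (mul_mem hy (h26_zpow_mem _ (hR t'.2) ht'V (-e))) hx hyo
  have h2 : x * (t' : FF M) ^ (-d) * (y * (t' : FF M) ^ (-e)) =
      x * y * (t' : FF M) ^ (-(d + e)) := by
    rw [neg_add, zpow_add₀ ht'0]
    ring
  unfold H60pRedOrd
  rw [← h2]
  exact h1

include ht'0 ht'V hR in
/-- **inverses.** -/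
theorem h60p_redOrd_inv {x : FF M} (hx0 : x ≠ 0) (hxi : x⁻¹ ∈ gaussV A M) {d : ℤ}
    (hx : H60pRedOrd A R n (t' : FF M) x d) : H60pRedOrd A R n (t' : FF M) x⁻¹ (-d) := by
  have h1 := h60p_redUnitAt_inv n (mul_ne_zero hx0 (zpow_ne_zero (-d) ht'0))
    (by
      rw [mul_inv, ← zpow_neg]
      exact mul_mem hxi (h26_zpow_mem _ (hR t'.2) ht'V _)) hx
  unfold H60pRedOrd
  rw [mul_inv, ← zpow_neg] at h1
  exact h1

include hR in
/-- the elements of `R ∖ n` have order `0`. -/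
theorem h60p_redOrd_of_not_mem {a : R} (ha : a ∉ n) :
    H60pRedOrd A R n (t' : FF M) (a : FF M) 0 := by
  unfold H60pRedOrd
  rw [neg_zero, zpow_zero, mul_one]
  exact h60p_redUnitAt_of_mem hR n ha

include hR ht'0 in
/-- the uniformiser has order `1`. -/
theorem h60p_redOrd_unif : H60pRedOrd A R n (t' : FF M) (t' : FF M) 1 := by
  unfold H60pRedOrd
  have h1 : (t' : FF M) * (t' : FF M) ^ (-(1 : ℤ)) = ((1 : R) : FF M) := by
    rw [zpow_neg, zpow_one, mul_inv_cancel₀ ht'0]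
    rfl
  rw [h1]
  exact h60p_redUnitAt_of_mem hR n (fun h => hn.ne_top ((Ideal.eq_top_iff_one _).mpr h))

include hR ht'0 ht'V in
/-- **uniqueness of the order** (from: a chart function with reduction `0` lies in `n`). -/
theorem h60p_redOrd_unique (hker : ∀ z : R, GaussSmall A M (z : FF M) → z ∈ n)
    (ht'n : t' ∈ n) {x : FF M} {d d' : ℤ}
    (h : H60pRedOrd A R n (t' : FF M) x d) (h' : H60pRedOrd A R n (t' : FF M) x d') :
    d = d' := by
  -- it suffices to exclude `d < d'`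
  have key : ∀ {d d' : ℤ}, H60pRedOrd A R n (t' : FF M) x d →
      H60pRedOrd A R n (t' : FF M) x d' → ¬ d < d' := by
    intro d d' h h' hlt
    obtain ⟨a, b, ha, hb, hz⟩ := h
    obtain ⟨a', b', ha', hb', hz'⟩ := h'
    obtain ⟨k, hk⟩ := Int.eq_ofNat_of_zero_le (sub_nonneg.mpr hlt.le)
    have hk1 : 1 ≤ k := by omega
    have htk : (t' : FF M) ^ (-d) = (t' : FF M) ^ (-d') * (t' : FF M) ^ k := by
      rw [← zpow_natCast _ k, ← zpow_add₀ ht'0]
      congr 1
      omega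
    have h1 := h60p_gaussSmall_mul hz (hR b'.2)
    have h2 := h60p_gaussSmall_mul hz' (mul_mem (pow_mem (hR t'.2) k) (hR b.2))
    have h3 := h60p_gaussSmall_sub h2 h1
    have h4 : (x * (t' : FF M) ^ (-d') * (b' : FF M) - (a' : FF M)) *
          ((t' : FF M) ^ k * (b : FF M)) -
        (x * (t' : FF M) ^ (-d) * (b : FF M) - (a : FF M)) * (b' : FF M) =
        ((a * b' - a' * t' ^ k * b : R) : FF M) := by
      rw [htk]
      push_cast
      ring
    rw [h4] at h3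
    have h5 := hker _ h3
    have h6 : a' * t' ^ k * b ∈ n :=
      n.mul_mem_right _ (n.mul_mem_left _ (n.pow_mem_of_mem ht'n k hk1))
    have h7 : a * b' ∈ n := by
      have := n.add_mem h5 h6
      rwa [sub_add_cancel] at this
    exact (hn.mem_or_mem h7).elim ha hb'
  rcases lt_trichotomy d d' with h1 | h1 | h1
  · exact absurd h1 (key h h')
  · exact h1
  · exact absurd h1 (key h' h)

end Ord

/-! ### The two charts -/

section Charts

variable [NeZero M]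

/-- a function of the finite chart with reduction `0` lies in `𝔪_A R`. -/
theorem h60p_mem_of_gaussSmall_fin (hℓ : ℓ.Prime) (hM : ¬ ℓ ∣ M) (hA : A.LiesOverPrime ℓ)
    (z : modelFin M A) (hz : GaussSmall A M (z : FF M)) : z ∈ maxExt A (modelFin M A) := by
  obtain ⟨hzV, hz0⟩ := hz
  obtain ⟨c, x', -, hc, hx', hzx⟩ :=
    exists_eq_cst_mul_of_gaussR_eq_zero_fin A M hℓ hM hA ⟨(z : FF M), hzV⟩ z.2 hz0
  have hcA : c ∈ A := ValuationSubring.nonunits_subset hc
  have hcm : cst M c ∈ modelFin M A :=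
    Fermat.Agent.Red.ModelO.h85_cst_mem_modelAt M A (jB M) hcA
  have h1 : z = ⟨cst M c, hcm⟩ * ⟨x', hx'⟩ := Subtype.ext hzx
  rw [h1]
  exact Ideal.mul_mem_right _ _ (Ideal.subset_span ⟨c, hc, rfl⟩)

/-- a function of the chart at infinity with reduction `0` lies in `𝔪_A R`. -/
theorem h60p_mem_of_gaussSmall_inf (hℓ : ℓ.Prime) (hM : ¬ ℓ ∣ M) (hA : A.LiesOverPrime ℓ)
    (z : modelInf M A) (hz : GaussSmall A M (z : FF M)) : z ∈ maxExt A (modelInf M A) := by
  obtain ⟨hzV, hz0⟩ := hz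
  obtain ⟨c, x', -, hc, hx', hzx⟩ :=
    exists_eq_cst_mul_of_gaussR_eq_zero_inf A M hℓ hM hA ⟨(z : FF M), hzV⟩ z.2 hz0
  have hcA : c ∈ A := ValuationSubring.nonunits_subset hc
  have hcm : cst M c ∈ modelInf M A :=
    Fermat.Agent.Red.ModelO.h85_cst_mem_modelAt M A (jB M)⁻¹ hcA
  have h1 : z = ⟨cst M c, hcm⟩ * ⟨x', hx'⟩ := Subtype.ext hzx
  rw [h1]
  exact Ideal.mul_mem_right _ _ (Ideal.subset_span ⟨c, hc, rfl⟩)

/-- **link to places, finite chart** (RED-DIV at a good level). -/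
theorem h60p_redOrd_places_fin (hℓ : ℓ.Prime) (hM : ¬ ℓ ∣ M) (haux : auxLevel ℓ ∣ M)
    (hA : A.LiesOverPrime ℓ)
    (n : Ideal (modelFin M A)) (hn : n.IsMaximal) (hmax : maxExt A (modelFin M A) ≤ n)
    (t' : GG.chart M A (jB M)) (ht'n : t' ∈ (n : Ideal (GG.chart M A (jB M))))
    (ht'0 : ((t' : GG.chart M A (jB M)) : FF M) ≠ 0)
    (ht'V : ((t' : GG.chart M A (jB M)) : FF M)⁻¹ ∈ gaussV A M)
    (hprin : ∀ y ∈ (n : Ideal (GG.chart M A (jB M))), ∃ s,
      s ∉ (n : Ideal (GG.chart M A (jB M))) ∧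
      s * y ∈ Ideal.span {t'} ⊔ (maximalIdeal A).map (algebraMap A (GG.chart M A (jB M))))
    (x : FF M) (hx0 : x ≠ 0) (hxV : x ∈ gaussV A M) (hxiV : x⁻¹ ∈ gaussV A M)
    (T₀ : Finset (Place Kbar (FF M))) (hT₀c : ∀ v ∈ T₀, CenteredAt A (modelFin M A) n v)
    (hT₀all : ∀ v : Place Kbar (FF M), CenteredAt A (modelFin M A) n v → v.ord x ≠ 0 →
      v ∈ T₀) :
    H60pRedOrd A (modelFin M A) n ((t' : GG.chart M A (jB M)) : FF M) x
      (∑ v ∈ T₀, v.ord x) :=
  h60p_redDiv_fin hℓ hM haux hA n hn hmax t' ht'n ht'0 ht'V hprin x hx0 hxV hxiV T₀ hT₀c hT₀all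

/-- **link to places, chart at infinity** (RED-DIV at a good level). -/
theorem h60p_redOrd_places_inf (hℓ : ℓ.Prime) (hM : ¬ ℓ ∣ M) (haux : auxLevel ℓ ∣ M)
    (hA : A.LiesOverPrime ℓ)
    (n : Ideal (modelInf M A)) (hn : n.IsMaximal) (hmax : maxExt A (modelInf M A) ≤ n)
    (t' : GG.chart M A (jB M)⁻¹) (ht'n : t' ∈ (n : Ideal (GG.chart M A (jB M)⁻¹)))
    (ht'0 : ((t' : GG.chart M A (jB M)⁻¹) : FF M) ≠ 0)
    (ht'V : ((t' : GG.chart M A (jB M)⁻¹) : FF M)⁻¹ ∈ gaussV A M)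
    (hprin : ∀ y ∈ (n : Ideal (GG.chart M A (jB M)⁻¹)), ∃ s,
      s ∉ (n : Ideal (GG.chart M A (jB M)⁻¹)) ∧
      s * y ∈ Ideal.span {t'} ⊔ (maximalIdeal A).map (algebraMap A (GG.chart M A (jB M)⁻¹)))
    (x : FF M) (hx0 : x ≠ 0) (hxV : x ∈ gaussV A M) (hxiV : x⁻¹ ∈ gaussV A M)
    (T₀ : Finset (Place Kbar (FF M))) (hT₀c : ∀ v ∈ T₀, CenteredAt A (modelInf M A) n v)
    (hT₀all : ∀ v : Place Kbar (FF M), CenteredAt A (modelInf M A) n v → v.ord x ≠ 0 →
      v ∈ T₀) :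
    H60pRedOrd A (modelInf M A) n ((t' : GG.chart M A (jB M)⁻¹) : FF M) x
      (∑ v ∈ T₀, v.ord x) :=
  h60p_redDiv_inf hℓ hM haux hA n hn hmax t' ht'n ht'0 ht'V hprin x hx0 hxV hxiV T₀ hT₀c hT₀all

/-- **uniqueness of the order, finite chart.** -/
theorem h60p_redOrd_unique_fin (hℓ : ℓ.Prime) (hM : ¬ ℓ ∣ M) (hA : A.LiesOverPrime ℓ)
    (n : Ideal (modelFin M A)) (hn : n.IsPrime) (hmax : maxExt A (modelFin M A) ≤ n)
    (t' : modelFin M A) (ht'n : t' ∈ n) (ht'0 : (t' : FF M) ≠ 0)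
    (ht'V : (t' : FF M)⁻¹ ∈ gaussV A M) {x : FF M} {d d' : ℤ}
    (h : H60pRedOrd A (modelFin M A) n (t' : FF M) x d)
    (h' : H60pRedOrd A (modelFin M A) n (t' : FF M) x d') : d = d' :=
  h60p_redOrd_unique (modelFin_le_gaussV A M hℓ hM hA) n t' ht'0 ht'V
    (fun z hz => hmax (h60p_mem_of_gaussSmall_fin hℓ hM hA z hz)) ht'n h h'

/-- **uniqueness of the order, chart at infinity.** -/
theorem h60p_redOrd_unique_inf (hℓ : ℓ.Prime) (hM : ¬ ℓ ∣ M) (hA : A.LiesOverPrime ℓ)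
    (n : Ideal (modelInf M A)) (hn : n.IsPrime) (hmax : maxExt A (modelInf M A) ≤ n)
    (t' : modelInf M A) (ht'n : t' ∈ n) (ht'0 : (t' : FF M) ≠ 0)
    (ht'V : (t' : FF M)⁻¹ ∈ gaussV A M) {x : FF M} {d d' : ℤ}
    (h : H60pRedOrd A (modelInf M A) n (t' : FF M) x d)
    (h' : H60pRedOrd A (modelInf M A) n (t' : FF M) x d') : d = d' :=
  h60p_redOrd_unique (modelInf_le_gaussV A M hℓ hM hA) n t' ht'0 ht'V
    (fun z hz => hmax (h60p_mem_of_gaussSmall_inf hℓ hM hA z hz)) ht'n h h'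

end Charts

/-! ### Regularity of the reduction -/

section Reg

variable {R : Subring (FF M)} (hR : R ≤ gaussV A M) (n : Ideal R)
  (t' : R) (ht'0 : (t' : FF M) ≠ 0)

include hR ht'0 in
/-- `d + e ≥ 0 ⟹` the reduction of `x t'^e` is regular at `n`. -/
theorem h60p_redOrd_regular {x : FF M} {d : ℤ} (h : H60pRedOrd A R n (t' : FF M) x d)
    (e : ℕ) (hde : 0 ≤ d + e) :
    ∃ a b : R, b ∉ n ∧ GaussSmall A M (x * (t' : FF M) ^ e * (b : FF M) - (a : FF M)) := by
  obtain ⟨a₀, b₀, -, hb₀, hsm⟩ := h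
  obtain ⟨m, hm⟩ := Int.eq_ofNat_of_zero_le hde
  refine ⟨a₀ * t' ^ m, b₀, hb₀, ?_⟩
  have h1 := h60p_gaussSmall_mul hsm (pow_mem (hR t'.2) m)
  have h2 : (x * (t' : FF M) ^ (-d) * (b₀ : FF M) - (a₀ : FF M)) * (t' : FF M) ^ m =
      x * (t' : FF M) ^ e * (b₀ : FF M) - ((a₀ * t' ^ m : R) : FF M) := by
    have h3 : (t' : FF M) ^ (-d) * (t' : FF M) ^ m = (t' : FF M) ^ e := by
      rw [← zpow_natCast _ m, ← zpow_add₀ ht'0, ← zpow_natCast _ e]
      congr 1
      omega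
    rw [← h3]
    push_cast
    ring
  rw [h2] at h1
  exact h1

end Reg

end Fermat.Agent.P5
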