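import Fermat.Agent.P5.H13SFIface
import Fermat.Agent.Red.Nz.Defs

/-!
# Wave 5, pillar (P), block GEO-RR, leaf S4 = RED-DIV in place form: sub-interface (helper88)

Target: `H13sRedDiv` (`P5/H13SFIface.lean`): the reduction map of places
`r : Place ℚ̄ (FF M) → Place k F~` (surjective, fibres = classes of `SameRed`,
`r_* div f = div f~` for Gauss units).  Local input (landed): `P5/H60RedDiv.lean`,
`P5/H60RedOrd.lean` (helper60).

`k = h13sK A`, `F~ = h13sFt A M`, `red = h13sRed A M`, charts `R = modelFin M A`, `modelInf M A`,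
closed points = maximal ideals `n` of a chart with `maxExt A R ≤ n`.

* `H88rAt A M R n Q` : the place `Q` of `F~` is THE place at the closed point `n` of the chart
  `R`: its valuation ring is the local ring of the reduced chart at `n`,
  `O_Q = { y | y · b~ = a~ , a, b ∈ R, b ∉ n }`.
* `H88rOrdAt A M R n Q` : conservation of number at `n`: for a Gauss unit `x` the order of `x~`
  at `Q` is the sum of the orders of `x` at the places of the generic fibre centred at `n`.

Frozen leaves (every one a `Prop`; nothing is assumed):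

* `H88rPlace` : every closed point of either chart carries a place with `H88rAt` and `H88rOrdAt`.
* `H88rSurj`  : every place of `F~` is the place at a closed point of the finite chart, or at a
  closed point with `1/j = 0` of the chart at infinity.

The assembly `H88rPlace → H88rSurj → H13sRedDiv` (centre of a place, fibres = `SameRed`, lifting
of closed points to places, the formula) is `P5/H88RedDiv.lean`.
-/

set_option autoImplicit false

open AlgebraicCurve ModularCurve

noncomputable section

namespace Fermat.Agent.P5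

open Fermat.Agent.S37 Fermat.Agent.Red.GV Fermat.Agent.Red.Nz

/-- `Q` is the place of the special fibre at the closed point `n` of the chart `R`: the
valuation ring of `Q` is the set of quotients `a~ / b~`, `a, b ∈ R`, `b ∉ n`. -/
def H88rAt (A : ValuationSubring Kbar) (M : ℕ) (R : Subring (FF M)) (n : Ideal R)
    (Q : Place (h13sK A) (h13sFt A M)) : Prop :=
  ∀ y : h13sFt A M, y ∈ Q.toValuationSubring ↔
    ∃ (a b : R) (ha : (a : FF M) ∈ gaussV A M) (hb : (b : FF M) ∈ gaussV A M), b ∉ n ∧
      y * h13sRed A M ⟨(b : FF M), hb⟩ = h13sRed A M ⟨(a : FF M), ha⟩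

/-- conservation of number at the closed point `n` of the chart `R`, for the place `Q`. -/
def H88rOrdAt (A : ValuationSubring Kbar) (M : ℕ) (R : Subring (FF M)) (n : Ideal R)
    (Q : Place (h13sK A) (h13sFt A M)) : Prop :=
  ∀ (x : FF M) (hx : x ∈ gaussV A M), x ≠ 0 → x⁻¹ ∈ gaussV A M →
    ∀ T₀ : Finset (Place Kbar (FF M)), (∀ v ∈ T₀, CenteredAt A R n v) →
      (∀ v : Place Kbar (FF M), CenteredAt A R n v → v.ord x ≠ 0 → v ∈ T₀) →
      Q.ord (h13sRed A M ⟨x, hx⟩) = ∑ v ∈ T₀, v.ord x

/-- **PLACE**: the place of the special fibre at a closed point of a chart, with conservation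
of number. -/
def H88rPlace : Prop :=
  ∀ (ℓ : ℕ), ℓ.Prime → ∀ (M : ℕ) [NeZero M], ¬ ℓ ∣ M → auxLevel ℓ ∣ M →
    ∀ A : ValuationSubring Kbar, A.LiesOverPrime ℓ →
      (∀ n : Ideal (modelFin M A), n.IsMaximal → maxExt A (modelFin M A) ≤ n →
        ∃ Q : Place (h13sK A) (h13sFt A M),
          H88rAt A M (modelFin M A) n Q ∧ H88rOrdAt A M (modelFin M A) n Q) ∧
      (∀ n : Ideal (modelInf M A), n.IsMaximal → maxExt A (modelInf M A) ≤ n →
        ∃ Q : Place (h13sK A) (h13sFt A M),
          H88rAt A M (modelInf M A) n Q ∧ H88rOrdAt A M (modelInf M A) n Q)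

/-- **SURJ**: every place of the special fibre is the place at a closed point of the finite
chart, or at a closed point with `1/j = 0` of the chart at infinity. -/
def H88rSurj : Prop :=
  ∀ (ℓ : ℕ), ℓ.Prime → ∀ (M : ℕ) [NeZero M], ¬ ℓ ∣ M → auxLevel ℓ ∣ M →
    ∀ A : ValuationSubring Kbar, A.LiesOverPrime ℓ →
      ∀ Q : Place (h13sK A) (h13sFt A M),
        (∃ n : Ideal (modelFin M A), n.IsMaximal ∧ maxExt A (modelFin M A) ≤ n ∧
          H88rAt A M (modelFin M A) n Q) ∨
        (∃ n : Ideal (modelInf M A), n.IsMaximal ∧ maxExt A (modelInf M A) ≤ n ∧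
          (∀ h : (jB M)⁻¹ ∈ modelInf M A, (⟨(jB M)⁻¹, h⟩ : modelInf M A) ∈ n) ∧
          H88rAt A M (modelInf M A) n Q)

end Fermat.Agent.P5
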