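import Fermat.Agent.P5.H60PlaceAbs
import Fermat.Agent.P5.H88RedDivIface
import Fermat.Agent.P5.H60RedOrd
import Fermat.Agent.P5.H40SFField
import Fermat.Agent.P5.H40RRInst

/-!
# P5 (wave 5, S19), block GEO-RR, leaf PLACE of RED-DIV (helper60)

`h60q_place : H88rPlace` (exact frozen Prop of `P5/H88RedDivIface.lean`, helper88): at a good
level every closed point `n` of the finite chart and of the chart at infinity carries a place
`Q` of the special fibre field whose valuation ring is the local ring of the reduced chart at `n`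
(`H88rAt`), with conservation of number (`H88rOrdAt`): for a Gauss unit `x`,
`ord_Q (x~) = ∑_{v centred at n} ord_v x`.

* `h60qRed A M` : the reduction `gaussV A M → F~` as a ring homomorphism; `h60qRedR hR` its
  restriction to a chart `R ≤ gaussV A M`.
* `h60q_red_zpow` : reduction of the powers of a Gauss unit.
* `h60q_rel_of_redOrd` : `H60pRedOrd n t' x d ⟹ x~ b~ = a~ τ^d` with `a, b ∉ n`.
* `h60q_fact` : the factorisation hypothesis of `P5/H60PlaceAbs.lean`.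
* `h60q_place_chart` : the place at a closed point of a chart (chart-generic).
* `h60q_place` : `H88rPlace`.
-/

set_option autoImplicit false
set_option linter.unusedSectionVars false
set_option linter.unusedVariables false

open AlgebraicCurve ModularCurve WithZero IsLocalRing

noncomputable section

namespace Fermat.Agent.P5

open Fermat.Agent.S37 Fermat.Agent.Red.GV Fermat.Agent.Red.Match Fermat.Agent.Red
  Fermat.Agent.Red.Nz

variable {M : ℕ} {A : ValuationSubring Kbar} {ℓ : ℕ}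

/-! ### The reduction as a ring homomorphism -/

theorem h60q_incl_injective (A : ValuationSubring Kbar) (M : ℕ) :
    Function.Injective (h13sIncl A M) :=
  (h13sIncl A M).toRingHom.injective

/-- the reduction, as a ring homomorphism to the special fibre field. -/
def h60qRed (A : ValuationSubring Kbar) (M : ℕ) : gaussV A M →+* h13sFt A M where
  toFun := h13sRed A M
  map_one' := h60q_incl_injective A M (by
    rw [h13sIncl_red, map_one, map_one]
    rfl)
  map_mul' x y := h60q_incl_injective A M (by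
    rw [map_mul, h13sIncl_red, h13sIncl_red, h13sIncl_red, map_mul]
    rfl)
  map_zero' := h60q_incl_injective A M (by
    rw [h13sIncl_red, map_zero, map_zero]
    rfl)
  map_add' x y := h60q_incl_injective A M (by
    rw [map_add, h13sIncl_red, h13sIncl_red, h13sIncl_red, map_add]
    rfl)

theorem h60q_red_apply (x : gaussV A M) : h60qRed A M x = h13sRed A M x := rfl

theorem h60q_red_eq_zero_iff (x : gaussV A M) : h60qRed A M x = 0 ↔ gaussR A M x = 0 := by
  constructor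
  · intro h
    have h1 := congrArg (h13sIncl A M) h
    rwa [h60q_red_apply, h13sIncl_red, map_zero] at h1
  · intro h
    apply h60q_incl_injective A M
    rw [h60q_red_apply, h13sIncl_red, h, map_zero]
    rfl

/-- the reduction of a Gauss unit is not zero. -/
theorem h60q_red_ne_zero {w : FF M} (hw : w ∈ gaussV A M) (hwi : w⁻¹ ∈ gaussV A M)
    (hw0 : w ≠ 0) : h60qRed A M ⟨w, hw⟩ ≠ 0 := by
  intro h
  have h1 : (⟨w⁻¹, hwi⟩ : gaussV A M) * ⟨w, hw⟩ = 1 := Subtype.ext (inv_mul_cancel₀ hw0)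
  have h2 := congrArg (h60qRed A M) h1
  rw [map_mul, map_one, h, mul_zero] at h2
  exact zero_ne_one h2

/-- the reduction of the inverse of a Gauss unit. -/
theorem h60q_red_inv {w : FF M} (hw : w ∈ gaussV A M) (hwi : w⁻¹ ∈ gaussV A M)
    (hw0 : w ≠ 0) : h60qRed A M ⟨w⁻¹, hwi⟩ = (h60qRed A M ⟨w, hw⟩)⁻¹ := by
  have h1 : (⟨w⁻¹, hwi⟩ : gaussV A M) * ⟨w, hw⟩ = 1 := Subtype.ext (inv_mul_cancel₀ hw0)
  have h2 := congrArg (h60qRed A M) h1
  rw [map_mul, map_one] at h2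
  exact eq_inv_of_mul_eq_one_left h2

/-- the reduction of the powers of a Gauss unit. -/
theorem h60q_red_zpow {w : FF M} (hw : w ∈ gaussV A M) (hwi : w⁻¹ ∈ gaussV A M)
    (hw0 : w ≠ 0) (e : ℤ) (h : w ^ e ∈ gaussV A M) :
    h60qRed A M ⟨w ^ e, h⟩ = (h60qRed A M ⟨w, hw⟩) ^ e := by
  obtain ⟨m, rfl | rfl⟩ := e.eq_nat_or_neg
  · have h1 : (⟨w ^ (m : ℤ), h⟩ : gaussV A M) = ⟨w, hw⟩ ^ m :=
      Subtype.ext (by
        show w ^ (m : ℤ) = w ^ m
        rw [zpow_natCast])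
    rw [h1, map_pow, zpow_natCast]
  · have h1 : (⟨w ^ (-(m : ℤ)), h⟩ : gaussV A M) = ⟨w⁻¹, hwi⟩ ^ m :=
      Subtype.ext (by
        show w ^ (-(m : ℤ)) = (w⁻¹) ^ m
        rw [zpow_neg, zpow_natCast, inv_pow])
    rw [h1, map_pow, h60q_red_inv hw hwi hw0, zpow_neg, zpow_natCast, inv_pow]

/-- the reduction restricted to a chart. -/
def h60qRedR {R : Subring (FF M)} (hR : R ≤ gaussV A M) : R →+* h13sFt A M :=
  (h60qRed A M).comp (Subring.inclusion hR)

theorem h60q_redR_apply {R : Subring (FF M)} (hR : R ≤ gaussV A M) (a : R) :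
    h60qRedR hR a = h13sRed A M ⟨(a : FF M), hR a.2⟩ := rfl

theorem h60q_redR_eq {R : Subring (FF M)} (hR : R ≤ gaussV A M) (a : R) :
    h60qRedR hR a = h60qRed A M ⟨(a : FF M), hR a.2⟩ := rfl

/-! ### From the order of the reduction to the factorisation -/

/-- `H60pRedOrd n t' x d ⟹ x~ b~ = a~ τ^d` with `a, b ∉ n`. -/
theorem h60q_rel_of_redOrd {R : Subring (FF M)} (hR : R ≤ gaussV A M) (n : Ideal R)
    (t' : R) (ht'0 : (t' : FF M) ≠ 0) (ht'V : (t' : FF M)⁻¹ ∈ gaussV A M)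
    {x : FF M} (hxV : x ∈ gaussV A M) {d : ℤ} (h : H60pRedOrd A R n (t' : FF M) x d) :
    ∃ a b : R, a ∉ n ∧ b ∉ n ∧
      h60qRed A M ⟨x, hxV⟩ * h60qRedR hR b = h60qRedR hR a * (h60qRedR hR t') ^ d := by
  obtain ⟨a, b, ha, hb, hV, h0⟩ := h
  refine ⟨a, b, ha, hb, ?_⟩
  have htV : (t' : FF M) ^ (-d) ∈ gaussV A M := h26_zpow_mem _ (hR t'.2) ht'V _
  have h1 : (⟨x * (t' : FF M) ^ (-d) * (b : FF M) - (a : FF M), hV⟩ : gaussV A M) =
      ⟨x, hxV⟩ * ⟨(t' : FF M) ^ (-d), htV⟩ * ⟨(b : FF M), hR b.2⟩ - ⟨(a : FF M), hR a.2⟩ :=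
    rfl
  have h2 : h60qRed A M ⟨_, hV⟩ = 0 := (h60q_red_eq_zero_iff _).mpr h0
  rw [h1, map_sub, map_mul, map_mul, h60q_red_zpow (hR t'.2) ht'V ht'0, sub_eq_zero] at h2
  have hτ0 : h60qRed A M ⟨(t' : FF M), hR t'.2⟩ ≠ 0 := h60q_red_ne_zero (hR t'.2) ht'V ht'0
  rw [h60q_redR_eq, h60q_redR_eq, h60q_redR_eq, ← h2, zpow_neg]
  field_simp

/-- existence of a finite set of centred places containing the centred support of `div x`. -/
theorem h60q_exists_T0 [NeZero M] (R : Subring (FF M)) (n : Ideal R) (x : FF M)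
    (hx0 : x ≠ 0) :
    ∃ T₀ : Finset (Place Kbar (FF M)), (∀ v ∈ T₀, CenteredAt A R n v) ∧
      ∀ v : Place Kbar (FF M), CenteredAt A R n v → v.ord x ≠ 0 → v ∈ T₀ := by
  classical
  obtain ⟨D, hD, -⟩ := (h40r_base_FF M).pd x hx0
  refine ⟨D.support.filter (fun v => CenteredAt A R n v),
    fun v hv => (Finset.mem_filter.mp hv).2, fun v hc ho => ?_⟩
  rw [Finset.mem_filter, Finsupp.mem_support_iff, hD v]
  exact ⟨ho, hc⟩

/-- the factorisation hypothesis at a closed point of a chart. -/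
theorem h60q_fact [NeZero M] (hℓ : ℓ.Prime) (hM : ¬ ℓ ∣ M) (hA : A.LiesOverPrime ℓ)
    {R : Subring (FF M)} (hR : R ≤ gaussV A M) (n : Ideal R)
    (t' : R) (ht'0 : (t' : FF M) ≠ 0) (ht'V : (t' : FF M)⁻¹ ∈ gaussV A M)
    (hord : ∀ x : FF M, x ≠ 0 → x ∈ gaussV A M → x⁻¹ ∈ gaussV A M →
      ∃ d : ℤ, H60pRedOrd A R n (t' : FF M) x d) :
    H60qFact (h60qRedR hR) n t' := by
  intro y hy
  obtain ⟨x, hxV, hxi, rfl⟩ := h40f_exists_unit A M hℓ hM hA y hy
  have hx0 : x ≠ 0 := by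
    rintro rfl
    apply hy
    exact map_zero (h60qRed A M)
  obtain ⟨d, hd⟩ := hord x hx0 hxV hxi
  obtain ⟨a, b, ha, hb, h⟩ := h60q_rel_of_redOrd hR n t' ht'0 ht'V hxV hd
  exact ⟨d, a, b, ha, hb, h⟩

/-- the constants lie in the local ring. -/
theorem h60q_const_mem {R : Subring (FF M)} (hR : R ≤ gaussV A M)
    (hcst : ∀ a : Kbar, a ∈ A → cst M a ∈ R) (n : Ideal R) [n.IsPrime] (c : h13sK A) :
    algebraMap (h13sK A) (h13sFt A M) c ∈ h60qLoc (h60qRedR hR) n := by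
  obtain ⟨a, rfl⟩ := h40f_pi_surjective A c
  refine ⟨⟨cst M (a : Kbar), hcst _ a.2⟩, 1, h60q_one_not_mem n, ?_⟩
  rw [map_one, mul_one]
  apply h60q_incl_injective A M
  rw [AlgHom.commutes, h40f_algebraMap_eq, h60q_redR_apply, h13sIncl_red]
  exact (h40f_red_cst A M a).symm

/-! ### The place at a closed point of a chart -/

/-- **the place at a closed point of a chart** (chart-generic). -/
theorem h60q_place_chart [NeZero M] (hℓ : ℓ.Prime) (hM : ¬ ℓ ∣ M) (hA : A.LiesOverPrime ℓ)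
    (R : Subring (FF M)) (hR : R ≤ gaussV A M) (hcst : ∀ a : Kbar, a ∈ A → cst M a ∈ R)
    (n : Ideal R) [hn : n.IsPrime]
    (hker : ∀ z : R, GaussSmall A M (z : FF M) → z ∈ n)
    (t' : R) (ht'n : t' ∈ n) (ht'0 : (t' : FF M) ≠ 0) (ht'V : (t' : FF M)⁻¹ ∈ gaussV A M)
    (hord : ∀ x : FF M, x ≠ 0 → x ∈ gaussV A M → x⁻¹ ∈ gaussV A M →
      ∀ T₀ : Finset (Place Kbar (FF M)), (∀ v ∈ T₀, CenteredAt A R n v) →
      (∀ v : Place Kbar (FF M), CenteredAt A R n v → v.ord x ≠ 0 → v ∈ T₀) →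
        H60pRedOrd A R n (t' : FF M) x (∑ v ∈ T₀, v.ord x)) :
    ∃ Q : Place (h13sK A) (h13sFt A M), H88rAt A M R n Q ∧ H88rOrdAt A M R n Q := by
  have hker' : ∀ z : R, h60qRedR hR z = 0 → z ∈ n := fun z hz =>
    hker z ⟨hR z.2, (h60q_red_eq_zero_iff _).mp hz⟩
  have hτ0 : h60qRedR hR t' ≠ 0 := h60q_red_ne_zero (hR t'.2) ht'V ht'0
  have hF : H60qFact (h60qRedR hR) n t' :=
    h60q_fact hℓ hM hA hR n t' ht'0 ht'V (fun x hx0 hxV hxi => by
      obtain ⟨T₀, h1, h2⟩ := h60q_exists_T0 (A := A) R n x hx0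
      exact ⟨_, hord x hx0 hxV hxi T₀ h1 h2⟩)
  have hK := h60q_const_mem hR hcst n
  refine ⟨h60qPlace (h60qRedR hR) n hker' t' ht'n hτ0 hF hK, ?_, ?_⟩
  · intro y
    rw [h60q_mem_place]
    constructor
    · rintro ⟨a, b, hb, h⟩
      exact ⟨a, b, hR a.2, hR b.2, hb, h⟩
    · rintro ⟨a, b, ha, hb, hbn, h⟩
      exact ⟨a, b, hbn, h⟩
  · intro x hxV hx0 hxi T₀ h1 h2
    obtain ⟨a, b, ha, hb, h⟩ :=
      h60q_rel_of_redOrd hR n t' ht'0 ht'V hxV (hord x hx0 hxV hxi T₀ h1 h2)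
    exact h60q_place_ord (h60qRedR hR) n hker' t' ht'n hτ0 hF hK ha hb h

/-- **PLACE** (exact frozen Prop of `P5/H88RedDivIface.lean`). -/
theorem h60q_place : H88rPlace := by
  intro ℓ hℓ M _ hM haux A hA
  constructor
  · intro n hn hmax
    obtain ⟨t', ht'n, ht'0, ht'V, hprin⟩ :=
      h60p_exists_unif_fin hℓ hM haux hA n hn (h89_map_le (jB M) n hmax)
    have hnp : n.IsPrime := hn.isPrime
    exact h60q_place_chart hℓ hM hA (modelFin M A) (modelFin_le_gaussV A M hℓ hM hA)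
      (fun a ha => Fermat.Agent.Red.ModelO.h85_cst_mem_modelAt M A (jB M) ha) n
      (fun z hz => hmax (h60p_mem_of_gaussSmall_fin hℓ hM hA z hz))
      t' ht'n ht'0 ht'V
      (fun x hx0 hxV hxi T₀ h1 h2 =>
        h60p_redOrd_places_fin hℓ hM haux hA n hn hmax t' ht'n ht'0 ht'V hprin x hx0 hxV hxi
          T₀ h1 h2)
  · intro n hn hmax
    obtain ⟨t', ht'n, ht'0, ht'V, hprin⟩ :=
      h60p_exists_unif_inf hℓ hM haux hA n hn (h89_map_le (jB M)⁻¹ n hmax)
    have hnp : n.IsPrime := hn.isPrime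
    exact h60q_place_chart hℓ hM hA (modelInf M A) (modelInf_le_gaussV A M hℓ hM hA)
      (fun a ha => Fermat.Agent.Red.ModelO.h85_cst_mem_modelAt M A (jB M)⁻¹ ha) n
      (fun z hz => hmax (h60p_mem_of_gaussSmall_inf hℓ hM hA z hz))
      t' ht'n ht'0 ht'V
      (fun x hx0 hxV hxi T₀ h1 h2 =>
        h60p_redOrd_places_inf hℓ hM haux hA n hn hmax t' ht'n ht'0 ht'V hprin x hx0 hxV hxi
          T₀ h1 h2)

end Fermat.Agent.P5
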