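import Fermat.Agent.P5.H88RedDivIface
import Fermat.Agent.Red.Nz.Main

/-!
# Wave 5, pillar (P), block GEO-RR-SF, leaf RED-DIV / SURJ (helper94)

`h94s_surj : H88rPlace → H88rSurj` (`P5/H88RedDivIface.lean`): every place `Q` of the special
fibre field `F~` is the place at a closed point of the finite chart, or at a closed point with
`1/j = 0` of the chart at infinity.

Proof.  Let `j~` be the reduction of `j`.  If `j~ ∈ O_Q` take the chart `R = modelFin M A`
(`t = j`), otherwise the chart `R = modelInf M A` (`t = 1/j`, and then `t~ ∈ 𝔪_Q`).  In both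
cases `t~ ∈ O_Q`, and the reduction of every element of `R` is integral over `k[t~]`
(`h89_isIntegralElem_red`), hence lies in `O_Q` (a valuation ring is integrally closed).  So
reduction is a ring homomorphism `ρ : R → O_Q`; `n₀ = ρ⁻¹ 𝔪_Q` is a proper ideal containing
`𝔪_A R`.  Let `n ⊇ n₀` be maximal and `Q'` the place at `n` given by `H88rPlace`.  Then
`O_{Q'} = { a~ / b~ | b ∉ n } ⊆ O_Q` because `b ∉ n₀` means that `b~` is a unit of `O_Q`.  A
discrete valuation ring is a maximal proper subring of its fraction field, so `O_{Q'} = O_Q`,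
`Q' = Q`.
-/

set_option autoImplicit false

open AlgebraicCurve ModularCurve

noncomputable section

namespace Fermat.Agent.P5

open Fermat.Agent.S37 Fermat.Agent.Red.GV Fermat.Agent.Red.Nz

/-- an element integral over a ring which maps into a valuation subring lies in it. -/
theorem h94s_mem_of_isIntegralElem {F S : Type*} [Field F] [CommRing S] (O : ValuationSubring F)
    (ψ : S →+* F) (hψ : ∀ s, ψ s ∈ O) (y : F) (hy : ψ.IsIntegralElem y) : y ∈ O := by
  obtain ⟨P, hPm, hP⟩ := hy
  let ψ' : S →+* O := ψ.codRestrict O hψ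
  have hint : IsIntegral O y := by
    refine ⟨P.map ψ', hPm.map _, ?_⟩
    rw [Polynomial.eval₂_map]
    exact hP
  obtain ⟨z, hz⟩ := IsIntegrallyClosed.isIntegral_iff.mp hint
  rw [← hz]
  exact z.2

/-- the inclusion of the special fibre field into `k((q))` is injective. -/
theorem h94s_incl_injective (A : ValuationSubring Kbar) (M : ℕ) :
    Function.Injective (h13sIncl A M) :=
  (h13sIncl A M).toRingHom.injective

/-- the reduction, as a ring homomorphism into the special fibre field. -/
def h94sRed (A : ValuationSubring Kbar) (M : ℕ) : gaussV A M →+* h13sFt A M where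
  toFun := h13sRed A M
  map_one' := h94s_incl_injective A M (by rw [h13sIncl_red, map_one, map_one]; rfl)
  map_mul' x y := h94s_incl_injective A M (by
    rw [h13sIncl_red, map_mul, map_mul, h13sIncl_red, h13sIncl_red]; rfl)
  map_zero' := h94s_incl_injective A M (by rw [h13sIncl_red, map_zero, map_zero]; rfl)
  map_add' x y := h94s_incl_injective A M (by
    rw [h13sIncl_red, map_add, map_add, h13sIncl_red, h13sIncl_red]; rfl)

theorem h94sRed_apply (A : ValuationSubring Kbar) (M : ℕ) (x : gaussV A M) :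
    h94sRed A M x = h13sRed A M x := rfl

/-- polynomial expressions in an element of a valuation subring containing the constants. -/
theorem h94s_aeval_mem {K F : Type*} [Field K] [Field F] [Algebra K F] (O : ValuationSubring F)
    (hK : ∀ a : K, algebraMap K F a ∈ O) (x : F) (hx : x ∈ O) (p : Polynomial K) :
    Polynomial.aeval x p ∈ O := by
  rw [Polynomial.aeval_eq_sum_range]
  refine sum_mem fun i _ => ?_
  rw [Algebra.smul_def]
  exact mul_mem (hK _) (pow_mem hx _)

/-- integrality over `K[x]`, tested in an extension field, forces membership in a valuation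
subring containing `K` and `x`. -/
theorem h94s_mem_of_integral {K F L : Type*} [Field K] [Field F] [Field L] [Algebra K F]
    [Algebra K L] (ι : F →ₐ[K] L) (O : ValuationSubring F)
    (hK : ∀ a : K, algebraMap K F a ∈ O) (x : F) (hx : x ∈ O) (y : F)
    (hy : (Polynomial.aeval (R := K) (ι x) : Polynomial K →+* L).IsIntegralElem (ι y)) :
    y ∈ O := by
  refine h94s_mem_of_isIntegralElem O
    (Polynomial.aeval (R := K) x : Polynomial K →+* F) (fun p => h94s_aeval_mem O hK x hx p) y ?_
  obtain ⟨P, hPm, hP⟩ := hy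
  refine ⟨P, hPm, ?_⟩
  apply ι.toRingHom.injective
  rw [map_zero, Polynomial.hom_eval₂]
  have hcomp : ι.toRingHom.comp (Polynomial.aeval (R := K) x : Polynomial K →+* F) =
      (Polynomial.aeval (R := K) (ι x) : Polynomial K →+* L) := by
    apply RingHom.ext
    intro p
    exact (Polynomial.aeval_algHom_apply ι x p).symm
  rw [hcomp]
  exact hP

/-- the reductions of the elements of a chart lie in `O_Q` as soon as that of the
coordinate does. -/
theorem h94s_red_mem {M : ℕ} {A : ValuationSubring Kbar} (R : Subring (FF M))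
    (hR : R ≤ gaussV A M) (t : FF M) (ht : t ∈ gaussV A M)
    (hint : ∀ (f : FF M) (hf : f ∈ R),
      (Polynomial.aeval (R := IsLocalRing.ResidueField A) (gaussR A M ⟨t, ht⟩) :
        Polynomial (IsLocalRing.ResidueField A) →+*
          LaurentSeries (IsLocalRing.ResidueField A)).IsIntegralElem
        (gaussR A M ⟨f, hR hf⟩))
    (Q : Place (h13sK A) (h13sFt A M))
    (htQ : h13sRed A M ⟨t, ht⟩ ∈ Q.toValuationSubring) (f : R) :
    h13sRed A M ⟨(f : FF M), hR f.2⟩ ∈ Q.toValuationSubring := by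
  have h1 : (Polynomial.aeval (R := h13sK A) (h13sIncl A M (h13sRed A M ⟨t, ht⟩)) :
      Polynomial (h13sK A) →+* LaurentSeries (h13sK A)).IsIntegralElem
        (h13sIncl A M (h13sRed A M ⟨(f : FF M), hR f.2⟩)) := hint (f : FF M) f.2
  exact h94s_mem_of_integral (h13sIncl A M) Q.toValuationSubring Q.algebraMap_mem'
    (h13sRed A M ⟨t, ht⟩) htQ _ h1

/-- **SURJ, chart-generic form.** -/
theorem h94s_chart {M : ℕ} {A : ValuationSubring Kbar} (R : Subring (FF M))
    (hR : R ≤ gaussV A M) (t : FF M) (ht : t ∈ gaussV A M)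
    (hint : ∀ (f : FF M) (hf : f ∈ R),
      (Polynomial.aeval (R := IsLocalRing.ResidueField A) (gaussR A M ⟨t, ht⟩) :
        Polynomial (IsLocalRing.ResidueField A) →+*
          LaurentSeries (IsLocalRing.ResidueField A)).IsIntegralElem
        (gaussR A M ⟨f, hR hf⟩))
    (Q : Place (h13sK A) (h13sFt A M))
    (htQ : h13sRed A M ⟨t, ht⟩ ∈ Q.toValuationSubring)
    (hplace : ∀ n : Ideal R, n.IsMaximal → maxExt A R ≤ n →
      ∃ Q' : Place (h13sK A) (h13sFt A M), H88rAt A M R n Q') :
    ∃ n : Ideal R, n.IsMaximal ∧ maxExt A R ≤ n ∧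
      (∀ f : R, (h13sRed A M ⟨(f : FF M), hR f.2⟩)⁻¹ ∉ Q.toValuationSubring → f ∈ n) ∧
      H88rAt A M R n Q := by
  have hRQ := h94s_red_mem R hR t ht hint Q htQ
  -- the reduction as a ring homomorphism `R → O_Q`
  let ρ : R →+* Q.toValuationSubring :=
    ((h94sRed A M).comp (Subring.inclusion hR)).codRestrict Q.toValuationSubring hRQ
  have hρ : ∀ f : R, ((ρ f : Q.toValuationSubring) : h13sFt A M) =
      h13sRed A M ⟨(f : FF M), hR f.2⟩ := fun _ => rfl
  let n₀ : Ideal R := Ideal.comap ρ (IsLocalRing.maximalIdeal Q.toValuationSubring)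
  have hn₀ : n₀ ≠ ⊤ := Ideal.comap_ne_top ρ (IsLocalRing.maximalIdeal.isMaximal _).ne_top
  have hmem₀ : ∀ f : R, f ∈ n₀ ↔ ¬ IsUnit (ρ f) := fun f => by
    rw [Ideal.mem_comap, IsLocalRing.mem_maximalIdeal, mem_nonunits_iff]
  obtain ⟨n, hn, hle⟩ := Ideal.exists_le_maximal n₀ hn₀
  have hmax : maxExt A R ≤ n := by
    refine le_trans ?_ hle
    intro x hx
    rw [hmem₀]
    have h0 : h89_red R hR x = 0 := (h89_maxExt_le_ker R hR) hx
    rw [h89_red_apply] at h0
    have h1 : ρ x = 0 := by
      apply Subtype.ext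
      rw [hρ]
      apply h94s_incl_injective A M
      rw [h13sIncl_red, h0, ZeroMemClass.coe_zero, map_zero]
      rfl
    rw [h1]
    exact not_isUnit_zero
  obtain ⟨Q', hQ'⟩ := hplace n hn hmax
  have hunit : ∀ b : R, b ∉ n → ∀ y a : h13sFt A M, a ∈ Q.toValuationSubring →
      y * h13sRed A M ⟨(b : FF M), hR b.2⟩ = a → y ∈ Q.toValuationSubring := by
    intro b hb y a ha hy
    have hb₀ : b ∉ n₀ := fun h => hb (hle h)
    rw [hmem₀, not_not] at hb₀
    obtain ⟨c, hc⟩ := hb₀.exists_right_inv
    have hc' : h13sRed A M ⟨(b : FF M), hR b.2⟩ * (c : h13sFt A M) = 1 := by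
      rw [← hρ]
      exact congrArg Subtype.val hc
    have hyc : y = a * (c : h13sFt A M) := by
      rw [← hy, mul_assoc, hc', mul_one]
    rw [hyc]
    exact mul_mem ha c.2
  have hsub : Q'.toValuationSubring ≤ Q.toValuationSubring := by
    intro y hy
    obtain ⟨a, b, ha, hb, hbn, hyab⟩ := (hQ' y).mp hy
    exact hunit b hbn y _ (hRQ a) hyab
  have heq : Q' = Q := Place.ext (ValuationSubring.eq_of_le_of_ne_top _ hsub Q.ne_top')
  rw [heq] at hQ'
  refine ⟨n, hn, hmax, ?_, hQ'⟩
  intro f hf
  apply hle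
  rw [hmem₀]
  intro hu
  apply hf
  obtain ⟨c, hc⟩ := hu.exists_right_inv
  have hc' : h13sRed A M ⟨(f : FF M), hR f.2⟩ * (c : h13sFt A M) = 1 := by
    rw [← hρ]
    exact congrArg Subtype.val hc
  rw [inv_eq_of_mul_eq_one_right hc']
  exact c.2

/-- **SURJ** (`P5/H88RedDivIface.lean`), from **PLACE** alone. -/
theorem h94s_surj_of_place (hP : H88rPlace) : H88rSurj := by
  intro ℓ hℓ M _ hM haux A hA Q
  obtain ⟨hfin, hinf⟩ := hP ℓ hℓ M hM haux A hA
  have hRf := modelFin_le_gaussV A M hℓ hM hA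
  have hRi := modelInf_le_gaussV A M hℓ hM hA
  have hjV : jB M ∈ gaussV A M := hRf (h89_jB_mem_modelFin M A)
  have hjiV : (jB M)⁻¹ ∈ gaussV A M := hRi (h89_jB_inv_mem_modelInf M A)
  have hmul : h13sRed A M ⟨jB M, hjV⟩ * h13sRed A M ⟨(jB M)⁻¹, hjiV⟩ = 1 := by
    rw [← h94sRed_apply, ← h94sRed_apply, ← map_mul, ← map_one (h94sRed A M)]
    exact congrArg _ (Subtype.ext (mul_inv_cancel₀ (h89_jB_ne_zero M)))
  by_cases hj : h13sRed A M ⟨jB M, hjV⟩ ∈ Q.toValuationSubring
  · left
    obtain ⟨n, hn, hmax, -, hQ⟩ := h94s_chart (modelFin M A) hRf (jB M) hjV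
      (fun f hf => h89_isIntegralElem_red (jB M) hjV f hf (hRf hf)) Q hj
      (fun n hn hmax => (hfin n hn hmax).imp fun Q' h => h.1)
    exact ⟨n, hn, hmax, hQ⟩
  · right
    have hji : h13sRed A M ⟨(jB M)⁻¹, hjiV⟩ ∈ Q.toValuationSubring := by
      rcases Q.toValuationSubring.mem_or_inv_mem (h13sRed A M ⟨jB M, hjV⟩) with h | h
      · exact absurd h hj
      · rwa [inv_eq_of_mul_eq_one_right hmul] at h
    obtain ⟨n, hn, hmax, hzero, hQ⟩ := h94s_chart (modelInf M A) hRi (jB M)⁻¹ hjiV
      (fun f hf => h89_isIntegralElem_red (jB M)⁻¹ hjiV f hf (hRi hf)) Q hji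
      (fun n hn hmax => (hinf n hn hmax).imp fun Q' h => h.1)
    refine ⟨n, hn, hmax, ?_, hQ⟩
    intro h
    apply hzero
    rw [inv_eq_of_mul_eq_one_left hmul]
    exact hj

/-- **SURJ**, with the signature of the board (`H13sField` is not needed). -/
theorem h94s_surj (_hF : H13sField) (hP : H88rPlace) : H88rSurj :=
  h94s_surj_of_place hP

end Fermat.Agent.P5
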