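import Fermat.Agent.P5.H88RedDiv
import Fermat.Agent.P5.H60Place
import Fermat.Agent.P5.H94Surj

/-!
# Wave 5, pillar (P), leaf S4: `H13sRedDiv`, unconditional (helper88)

`h88r_redDiv : H13sRedDiv` (exact frozen Prop of `P5/H13SFIface.lean`): at a good level there
is a reduction map of places `r : Place ℚ̄ (FF M) → Place k F~`, surjective, with fibres the
classes of `SameRed`, and `r_* div f = div f~` for Gauss units.

Leaves: `h60q_place : H88rPlace` (helper60), `h94s_surj_of_place : H88rPlace → H88rSurj`
(helper94); assembly `h88r_redDiv_of` (helper88).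
-/

set_option autoImplicit false

namespace Fermat.Agent.P5

/-- **S4 = RED-DIV in place form**, unconditional. -/
theorem h88r_redDiv : H13sRedDiv :=
  h88r_redDiv_of h60q_place (h94s_surj_of_place h60q_place)

end Fermat.Agent.P5
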