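import Fermat.Agent.P5.H26GenusTop
import Fermat.Agent.P5.H85SFDict26
import Fermat.Agent.P5.H88RedDivFinal
import Fermat.Agent.P5.H40SFData
import Fermat.Agent.P5.H48SFAbs
import Fermat.Agent.S18.ResAlgClosed

/-!
# Wave 5, pillar (P), block GEO-GENUS (helper26): `H13sGenus`, `H13sBase`, UNCONDITIONAL

* `h26s_rest` : the abstract two-chart theorem `h48s_rest` (helper48) at the charts
  `h40f_data` (helper40) of the special fibre.
* `h26s_base : H13sBase` (with `h42p_base_of` of helper42, `h88r_redDiv` of helper88/60/94,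
  `h40f_field` of helper40).
* `h26s_zerosSF : H26sZerosSF`.
* `h26s_genus : H13sGenus` (with `h85f_dictS26` of helper85, `h58g_lift_family`, `h58h_dictG`
  of helper58, `h55s_semi` of helper55, `h43r_riemann_final` of helper43).
* `h26s_semi : H13sSemi`, `h26s_redDiv : H13sRedDiv` (re-exports, for the consumers).
-/

set_option autoImplicit false
set_option linter.style.haveILetI false

open AlgebraicCurve ModularCurve

noncomputable section

namespace Fermat.Agent.P5

open Fermat.Agent.S37 Fermat.Agent.Red.GV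

/-- the two-chart theorem at the special fibre. -/
theorem h26s_rest {ℓ : ℕ} (hℓ : ℓ.Prime) (M : ℕ) [NeZero M] (hM : ¬ ℓ ∣ M)
    (haux : auxLevel ℓ ∣ M) (A : ValuationSubring Kbar) (hA : A.LiesOverPrime ℓ) :
    ((∀ v : Place (h13sK A) (h13sFt A M), v.deg = 1) ∧
      (∀ f : h13sFt A M, (∀ v : Place (h13sK A) (h13sFt A M), 0 ≤ v.ord f) →
        f ∈ Set.range (algebraMap (h13sK A) (h13sFt A M))) ∧
      Function.Injective (algebraMap (h13sK A) (h13sFt A M)) ∧
      Infinite (Place (h13sK A) (h13sFt A M))) ∧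
    H13rZeros (h13sK A) (h13sFt A M) (h26sJ A M) ∧
    FiniteDimensional (IntermediateField.adjoin (h13sK A) {h26sJ A M}) (h13sFt A M) := by
  have hd := h40f_data A M hℓ hM haux hA
  haveI : IsAlgClosed (h13sK A) := Fermat.Agent.S18.h72_residueField_isAlgClosed A
  haveI := hd.ded
  haveI := hd.dedInf
  exact h48s_rest (h40fJ A M) hd.transc (h40fBfin A M hℓ hM hA) (h40fBinf A M hℓ hM hA)
    hd.x_mem hd.xinv_mem hd.frac hd.fracInf hd.fin hd.finInf

/-- **SF-BASE**, unconditional. -/
theorem h26s_base : H13sBase :=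
  h42p_base_of h88r_redDiv h40f_field
    (fun ℓ hℓ M _ hM haux A hA => (h26s_rest hℓ M hM haux A hA).1)

/-- **SF-ZEROS**, unconditional. -/
theorem h26s_zerosSF : H26sZerosSF := by
  intro ℓ hℓ M _ hM haux A hA
  have h := h26s_rest hℓ M hM haux A hA
  exact ⟨(h40f_data A M hℓ hM haux hA).transc, h.2.2, h.2.1⟩

/-- **GENUS**: both fibres have a weak genus, and the two are equal.  Unconditional. -/
theorem h26s_genus : H13sGenus :=
  h26s_genus_top h26s_base h88r_redDiv h26s_zerosSF h85f_dictS26

/-- **SEMI**, unconditional. -/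
theorem h26s_semi : H13sSemi := h55s_semi h26s_base

end Fermat.Agent.P5
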