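import Fermat.Agent.P5.H55Ortho
import Fermat.Agent.P5.H13SFIface
import Fermat.Agent.P5.H40RRInst
import Fermat.Agent.P5.H78RRLeaves

/-!
# P5 (wave 5, S19), GEO-RR-SF-SEMI: semicontinuity from ORTHO (helper55)

`h55s_semi_of` : the frozen leaf `H13sSemi` (`P5/H13SFIface.lean`) from the landed dual pairs
`h55o_dual` (`P5/H55Ortho.lean`), given that the Riemann–Roch spaces of the special fibre are
finite-dimensional; `h55s_semi : H13sBase → H13sSemi`.

For a divisor `E` of the generic fibre, `h55o_dual` applied to `W = L(E)` gives a basis `w i` of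
Gauss-integral functions with `k`-independent reductions and `W ∩ V = ⊕ A w i`.  Each `w i` is a
Gauss unit, so by the third clause of `H13sIsRed` its reduction has divisor `r_* div (w i)
≥ - r_* E`.  If `ℓ(E) = ℓ~(r_* E)`, the reductions form a basis of `L(r_* E)` and every element
of `L(r_* E)` lifts.
-/

set_option autoImplicit false

open AlgebraicCurve ModularCurve IsLocalRing

noncomputable section

namespace Fermat.Agent.P5

open Fermat.Agent.S37 Fermat.Agent.Red.GV Fermat.Agent.Red.Match Fermat.Agent.Red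
  Fermat.Agent.Red.Nz

/-- the push-forward of a nonnegative divisor is nonnegative. -/
theorem h55s_push_nonneg {α β : Type*} (r : α → β) (D : α →₀ ℤ) (hD : ∀ a, 0 ≤ D a) (b : β) :
    0 ≤ Finsupp.mapDomain r D b := by
  classical
  rw [Finsupp.mapDomain, Finsupp.sum, Finsupp.finsetSum_apply]
  refine Finset.sum_nonneg (fun a _ => ?_)
  rw [Finsupp.single_apply]
  split_ifs
  · exact hD a
  · exact le_rfl

section Semi

variable {M : ℕ} [NeZero M] {A : ValuationSubring Kbar} {ℓ : ℕ}

/-- **the reduction of a Gauss unit of `L(E)` lies in `L(r_* E)`.** -/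
theorem h55s_red_mem (r : Place Kbar (FF M) → Place (h13sK A) (h13sFt A M))
    (hr : H13sIsRed A M r) (E : Divisor Kbar (FF M)) {f : FF M} (hf : f ∈ gaussV A M)
    (hf0 : f ≠ 0) (hfi : f⁻¹ ∈ gaussV A M) (hfE : f ∈ riemannRochSpace E) :
    h13sRed A M ⟨f, hf⟩ ∈ riemannRochSpace (h13sPush r E) := by
  haveI := Fermat.Agent.Red.HKMod.hasPrincipalDivisors_FF M
  obtain ⟨D, hD, -⟩ := HasPrincipalDivisors.exists_divisor (K := Kbar) f hf0
  rw [mem_riemannRochSpace_iff]
  intro Q
  right
  rw [← hr.2.2 f hf hfi D hD Q]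
  have h1 : ∀ v : Place Kbar (FF M), 0 ≤ (D + E) v := by
    intro v
    rcases (mem_riemannRochSpace_iff.mp hfE) v with h | h
    · exact (hf0 h).elim
    · rw [Finsupp.add_apply, hD v]
      linarith
  have h2 := h55s_push_nonneg r (D + E) h1 Q
  have h3 : Finsupp.mapDomain r (D + E) Q = h13sPush r D Q + h13sPush r E Q := by
    rw [Finsupp.mapDomain_add, Finsupp.add_apply]
    rfl
  rw [h3] at h2
  linarith

omit [NeZero M] in
/-- the reduction of an `A`-combination of Gauss-integral functions. -/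
theorem h55s_gaussR_sum {n : ℕ} (w : Fin n → FF M) (hw : ∀ i, w i ∈ gaussV A M)
    (a : Fin n → A) (hf : ∑ i, cst M ((a i : A) : Kbar) * w i ∈ gaussV A M) :
    gaussR A M ⟨∑ i, cst M ((a i : A) : Kbar) * w i, hf⟩ =
      ∑ i, HahnSeries.C (residue A (a i)) * gaussR A M ⟨w i, hw i⟩ := by
  have hcV : ∀ i, cst M ((a i : A) : Kbar) ∈ gaussV A M := fun i => h89_cst_mem_gaussV (a i)
  have hsum : (((∑ i, (⟨cst M ((a i : A) : Kbar), hcV i⟩ * ⟨w i, hw i⟩ : gaussV A M) :
      gaussV A M)) : FF M) = ∑ i, cst M ((a i : A) : Kbar) * w i := by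
    rw [AddSubmonoidClass.coe_finsetSum]
    rfl
  have hx : (⟨∑ i, cst M ((a i : A) : Kbar) * w i, hf⟩ : gaussV A M) =
      ∑ i, (⟨cst M ((a i : A) : Kbar), hcV i⟩ * ⟨w i, hw i⟩ : gaussV A M) :=
    Subtype.ext hsum.symm
  rw [hx, map_sum]
  refine Finset.sum_congr rfl (fun i _ => ?_)
  rw [map_mul, h89_gaussR_cst]

/-- the reductions of a dual family are independent, in the form of a `C`-combination. -/
theorem h55s_indep (hℓ : ℓ.Prime) (hM : ¬ ℓ ∣ M) (hA : A.LiesOverPrime ℓ)
    {T : Set (Place Kbar (FF M))} {W : Submodule Kbar (FF M)}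
    (hW : ∀ f ∈ W, ∀ v : Place Kbar (FF M), v ∉ T → f ∈ v.toValuationSubring)
    {n : ℕ} {w : Fin n → FF M} {P : Fin n → Place Kbar (FF M)}
    (hD : H55oDual A T W w P) (g : Fin n → ResidueField A)
    (hg : ∑ i, HahnSeries.C (g i) * gaussR A M ⟨w i, hD.int i⟩ = 0) (i : Fin n) : g i = 0 := by
  have h1 := hD.red_linearIndependent hℓ hM hA hW
  rw [Fintype.linearIndependent_iff] at h1
  refine h1 g ?_ i
  rw [← hg]
  exact Finset.sum_congr rfl (fun i _ => (HahnSeries.C_mul_eq_smul).symm)

/-- **SEMI** from ORTHO, given the finiteness of the Riemann–Roch spaces of the special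
fibre. -/
theorem h55s_semi_of
    (hfin : ∀ (ℓ : ℕ), ℓ.Prime → ∀ (M : ℕ) [NeZero M], ¬ ℓ ∣ M → auxLevel ℓ ∣ M →
      ∀ A : ValuationSubring Kbar, A.LiesOverPrime ℓ →
        ∀ D : Divisor (h13sK A) (h13sFt A M),
          Module.Finite (h13sK A) (riemannRochSpace D)) :
    H13sSemi := by
  intro ℓ hℓ M _ hM haux A hA r hr E
  classical
  have hWfin : Module.Finite Kbar (riemannRochSpace E) := h78q_finite (h40r_base_FF M) E
  have hWfg : (riemannRochSpace E).FG := Module.Finite.iff_fg.mp hWfin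
  obtain ⟨T, n, w, P, hW, hD, hspan⟩ := h55o_dual hℓ hM haux hA (riemannRochSpace E) hWfg
  have hli := hD.linearIndependent
  have hn : h13rL Kbar (FF M) E = n := by
    unfold h13rL
    rw [← hspan, finrank_span_eq_card hli, Fintype.card_fin]
  subst hn
  -- the reductions
  have hredli := hD.red_linearIndependent hℓ hM hA hW
  have hunit : ∀ i, w i ≠ 0 ∧ (w i)⁻¹ ∈ gaussV A M := by
    intro i
    have h1 : gaussR A M ⟨w i, hD.int i⟩ ≠ 0 := hredli.ne_zero i
    have h2 := (gaussR_eq_zero_iff A M hℓ hM hA ⟨w i, hD.int i⟩).not.mp h1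
    rw [not_or, not_not] at h2
    exact h2
  have hredmem : ∀ i, h13sRed A M ⟨w i, hD.int i⟩ ∈ riemannRochSpace (h13sPush r E) :=
    fun i => h55s_red_mem r hr E (hD.int i) (hunit i).1 (hunit i).2 (hD.mem i)
  refine ⟨w, hD.mem, hD.int, fun i _ => hredmem i, fun c hc i => hD.coeff_mem hW c hc i,
    ?_, ?_⟩
  · intro f hf
    rw [← hspan] at hf
    obtain ⟨c, hc⟩ := (Submodule.mem_span_range_iff_exists_fun Kbar).mp hf
    refine ⟨c, ?_⟩
    rw [← hc]
    exact Finset.sum_congr rfl (fun i _ => (h55o_cst_mul_eq_smul (c i) (w i)).symm)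
  · intro hdim y hy
    haveI : Module.Finite (h13sK A) (riemannRochSpace (h13sPush r E)) :=
      hfin ℓ hℓ M hM haux A hA (h13sPush r E)
    set ρ : Fin (h13rL Kbar (FF M) E) → ↥(riemannRochSpace (h13sPush r E)) :=
      fun i => ⟨h13sRed A M ⟨w i, hD.int i⟩, hredmem i⟩ with hρdef
    have hchain : ∀ g : Fin (h13rL Kbar (FF M) E) → h13sK A,
        h13sIncl A M ((∑ i, g i • ρ i : ↥(riemannRochSpace (h13sPush r E))) : h13sFt A M) =
          ∑ i, HahnSeries.C (g i) * h13sR A M ⟨w i, hD.int i⟩ := by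
      intro g
      rw [Submodule.coe_sum, map_sum]
      refine Finset.sum_congr rfl (fun i _ => ?_)
      rw [Submodule.coe_smul, Algebra.smul_def, map_mul, AlgHom.commutes,
        h89_algebraMap_eq_C]
      rfl
    have hρ : LinearIndependent (h13sK A) ρ := by
      rw [Fintype.linearIndependent_iff]
      intro g hg i
      have h1 := hchain g
      rw [hg] at h1
      have h2 : ∑ i, HahnSeries.C (g i) * h13sR A M ⟨w i, hD.int i⟩ = 0 := by
        rw [← h1]
        exact map_zero (h13sIncl A M)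
      exact h55s_indep hℓ hM hA hW hD g h2 i
    have hcard : Fintype.card (Fin (h13rL Kbar (FF M) E)) =
        Module.finrank (h13sK A) ↥(riemannRochSpace (h13sPush r E)) := by
      rw [Fintype.card_fin]
      exact hdim
    have htop := hρ.span_eq_top_of_card_eq_finrank' hcard
    have hy' : (⟨y, hy⟩ : ↥(riemannRochSpace (h13sPush r E))) ∈
        Submodule.span (h13sK A) (Set.range ρ) := by
      rw [htop]
      trivial
    obtain ⟨g, hg⟩ := (Submodule.mem_span_range_iff_exists_fun (h13sK A)).mp hy'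
    have ha : ∀ i, ∃ a : A, residue A a = g i := fun i => residue_surjective (g i)
    choose a ha using ha
    have hfV : ∑ i, cst M ((a i : A) : Kbar) * w i ∈ gaussV A M :=
      Subring.sum_mem _ (fun i _ => mul_mem (h89_cst_mem_gaussV (a i)) (hD.int i))
    have hfE : ∑ i, cst M ((a i : A) : Kbar) * w i ∈ riemannRochSpace E :=
      Submodule.sum_mem _ (fun i _ => by
        rw [h55o_cst_mul_eq_smul]
        exact Submodule.smul_mem _ _ (hD.mem i))
    refine ⟨∑ i, cst M ((a i : A) : Kbar) * w i, hfV, hfE, ?_⟩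
    apply (h13sIncl A M).injective
    have h1 := hchain g
    rw [hg] at h1
    have h2 : h13sIncl A M y = ∑ i, HahnSeries.C (g i) * h13sR A M ⟨w i, hD.int i⟩ := h1
    show h13sIncl A M (h13sRed A M ⟨∑ i, cst M ((a i : A) : Kbar) * w i, hfV⟩) =
      h13sIncl A M y
    rw [h2, h13sIncl_red, h55s_gaussR_sum w hD.int a hfV]
    refine Finset.sum_congr rfl (fun i _ => ?_)
    rw [ha i]
    rfl

/-- **SEMI** from ORTHO and the base facts of the special fibre. -/
theorem h55s_semi (hsB : H13sBase) : H13sSemi :=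
  h55s_semi_of (fun ℓ hℓ M _ hM haux A hA D =>
    h78q_finite (hsB ℓ hℓ M hM haux A hA) D)

end Semi

end Fermat.Agent.P5
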