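import Fermat.Agent.P5.H58SFCech
import Fermat.Agent.P5.H40RRInst
import Fermat.Agent.S24.FICore
import Fermat.Agent.S24.FIWrap
import Fermat.Agent.Red.BC.Asm46

/-!
# P5 (pillar (P), S19), block GEO-GENUS (helper58): DICT-G, the dictionary on the generic fibre

`M` a level, `ℓ ∤ M`, `A` a valuation subring of `ℚ̄` over `ℓ`, `B = modelFin M A`,
`B_∞ = modelInf M A`, `D_∞` the divisor of poles of `j` on `FF M`
(any divisor `D` with `D v = max (- ord_v j) 0`).

* `h58h_mem_range_of_regular` (abstract): a function regular at all places containing a Dedekind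
  domain `R` with fraction field `F` lies in `R`.
* `h58h_isIntegral_of_regular` (abstract): a function regular at all places at which `x` is
  regular is integral over `K[x]`.
* `h58h_regular_fin`, `h58h_regular_inf` : the charts over `ℚ̄`.
* `h58h_mem_modelFin_of_top`, `h58h_mem_modelInf_of_top` : Gauss-integral + integral over
  `ℚ̄[t]` ⟹ integral over `A[t]` (`t = j, 1/j`).
* `h58h_dictG` : **DICT-G**:
  `w ∈ L(n D_∞) ∧ w ∈ gaussV ↔ w ∈ B ∧ ∃ w' ∈ B_∞, w = jⁿ w'`.
-/

set_option autoImplicit false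
set_option linter.unusedSectionVars false
set_option synthInstance.maxHeartbeats 400000

noncomputable section

namespace Fermat.Agent.P5

open IsDedekindDomain AlgebraicCurve WithZero IntermediateField

section Abs

variable {K F : Type*} [Field K] [Field F] [Algebra K F]
variable {R : Type*} [CommRing R] [IsDedekindDomain R] [Algebra R F] [IsFractionRing R F]
  [Algebra K R] [IsScalarTower K R F]

/-- **abstract dictionary**: a function which is regular at all places whose valuation ring
contains the Dedekind domain `R` lies in `R`. -/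
theorem h58h_mem_range_of_regular (w : F)
    (h : ∀ v : Place K F, (∀ r : R, algebraMap R F r ∈ v.toValuationSubring) →
      w ∈ v.toValuationSubring) : w ∈ (algebraMap R F).range := by
  refine HeightOneSpectrum.mem_integers_of_valuation_le_one F w (fun P => ?_)
  have h1 := h (Place.ofHeightOneSpectrum (K := K) (F := F) P) (fun r => by
    rw [Place.ofHeightOneSpectrum_toValuationSubring, Valuation.mem_valuationSubring_iff]
    exact HeightOneSpectrum.valuation_le_one _ _)
  rw [Place.ofHeightOneSpectrum_toValuationSubring, Valuation.mem_valuationSubring_iff] at h1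
  exact h1

end Abs

section Concrete

open scoped IntermediateField.algebraAdjoinAdjoin

variable {K F : Type*} [Field K] [Field F] [Algebra K F] [IsAlgClosed K] [CharZero K]

/-- a function regular at all places at which `x` is regular is integral over `K[x]`. -/
theorem h58h_isIntegral_of_regular (x : F) (hx : Transcendental K x)
    [FiniteDimensional K⟮x⟯ F] (w : F)
    (h : ∀ v : Place K F, x ∈ v.toValuationSubring → w ∈ v.toValuationSubring) :
    IsIntegral (Algebra.adjoin K {x}) w := by
  have hPID := Fermat.Agent.S24.FICore.isPrincipalIdealRing_adjoin x hx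
  have hDed : IsDedekindDomain (integralClosure (Algebra.adjoin K {x}) F) :=
    integralClosure.isDedekindDomain (Algebra.adjoin K {x}) K⟮x⟯ F
  have hFrac : IsFractionRing (integralClosure (Algebra.adjoin K {x}) F) F :=
    integralClosure.isFractionRing_of_finite_extension K⟮x⟯ F
  have h1 := h58h_mem_range_of_regular (K := K) (F := F)
    (R := integralClosure (Algebra.adjoin K {x}) F) w (fun v hv => h v (by
      have hxint : x ∈ integralClosure (Algebra.adjoin K {x}) F :=
        isIntegral_algebraMap (R := Algebra.adjoin K {x}) (A := F)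
          (x := ⟨x, Algebra.subset_adjoin rfl⟩)
      exact hv ⟨x, hxint⟩))
  obtain ⟨r, hr⟩ := h1
  rw [← hr]
  exact r.2

end Concrete

section Modular

open Fermat.Agent.S37 Fermat.Agent.Red.ModelO Fermat.Agent.Red.BC Fermat.Agent.Red.GV

variable (M : ℕ) [NeZero M] (A : ValuationSubring Kbar) {ℓ : ℕ}

/-- integral over `ℚ̄[t]` (as a subalgebra) ⟹ in the chart over `ℚ̄`. -/
theorem h58h_mem_top_of_isIntegral (t w : FF M) (h : IsIntegral (Algebra.adjoin Kbar {t}) w) :
    w ∈ modelAt M (⊤ : ValuationSubring Kbar) t := by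
  let S : Subalgebra Kbar (FF M) :=
    { ringAdj M (⊤ : ValuationSubring Kbar) t with
      algebraMap_mem' := fun a =>
        Subring.subset_closure (Or.inl ⟨a, ValuationSubring.mem_top a, rfl⟩) }
  have hle : Algebra.adjoin Kbar {t} ≤ S := Algebra.adjoin_le (by
    intro y hy
    rw [Set.mem_singleton_iff] at hy
    rw [hy]
    exact Subring.subset_closure (Or.inr rfl))
  let φ : ↥(Algebra.adjoin Kbar {t}) →+* ↥(ringAdj M (⊤ : ValuationSubring Kbar) t) :=
    ((Algebra.adjoin Kbar {t}).val.toRingHom).codRestrict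
      (ringAdj M (⊤ : ValuationSubring Kbar) t) (fun a => hle a.2)
  obtain ⟨p, hp, hpw⟩ := h
  have hw : IsIntegral (ringAdj M (⊤ : ValuationSubring Kbar) t) w := by
    refine ⟨p.map φ, hp.map _, ?_⟩
    rw [Polynomial.eval₂_map]
    exact hpw
  exact hw

/-- a function regular at all finite places lies in the finite chart over `ℚ̄`. -/
theorem h58h_regular_fin (w : FF M)
    (h : ∀ v : Place Kbar (FF M), jB M ∈ v.toValuationSubring → w ∈ v.toValuationSubring) :
    w ∈ modelAt M (⊤ : ValuationSubring Kbar) (jB M) := by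
  haveI := h40r_finite_FF M
  exact h58h_mem_top_of_isIntegral M (jB M) w
    (h58h_isIntegral_of_regular (jB M) (h40r_transcendental_FF M) w h)

/-- a function regular at all places with `j ≠ 0` lies in the chart at infinity over `ℚ̄`. -/
theorem h58h_regular_inf (w : FF M)
    (h : ∀ v : Place Kbar (FF M), (jB M)⁻¹ ∈ v.toValuationSubring → w ∈ v.toValuationSubring) :
    w ∈ modelAt M (⊤ : ValuationSubring Kbar) (jB M)⁻¹ := by
  have hfin : FiniteDimensional Kbar⟮(jB M)⁻¹⟯ (FF M) := by
    rw [Fermat.Agent.S24.fiw_adjoin_inv (K := Kbar) (jB M)]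
    exact h40r_finite_FF M
  have htr : Transcendental Kbar (jB M)⁻¹ := by
    intro halg
    exact h40r_transcendental_FF M (by simpa using halg.inv)
  exact h58h_mem_top_of_isIntegral M (jB M)⁻¹ w
    (h58h_isIntegral_of_regular (jB M)⁻¹ htr w h)

/-- Gauss-integral and integral over `ℚ̄[j]` ⟹ in the finite chart over `A`. -/
theorem h58h_mem_modelFin_of_top (hℓ : ℓ.Prime) (hℓM : ¬ ℓ ∣ M) (hA : A.LiesOverPrime ℓ)
    {w : FF M} (hw : w ∈ gaussV A M)
    (h : w ∈ modelAt M (⊤ : ValuationSubring Kbar) (jB M)) : w ∈ modelFin M A := by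
  obtain ⟨m, hm⟩ := h46b_modelAt_clear M A hℓ hA (jB M) h
  have hℓA : (ℓ : Kbar) ∈ A := A.nonunits_subset hA
  have hℓ0 : (ℓ : Kbar) ≠ 0 := Nat.cast_ne_zero.mpr hℓ.ne_zero
  exact mem_modelFin_of_cst_mul A M hℓ hℓM hA w hw ((ℓ : Kbar) ^ m) (A.pow_mem hℓA m)
    (pow_ne_zero m hℓ0) hm

/-- Gauss-integral and integral over `ℚ̄[1/j]` ⟹ in the chart at infinity over `A`. -/
theorem h58h_mem_modelInf_of_top (hℓ : ℓ.Prime) (hℓM : ¬ ℓ ∣ M) (hA : A.LiesOverPrime ℓ)
    {w : FF M} (hw : w ∈ gaussV A M)
    (h : w ∈ modelAt M (⊤ : ValuationSubring Kbar) (jB M)⁻¹) : w ∈ modelInf M A := by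
  obtain ⟨m, hm⟩ := h46b_modelAt_clear M A hℓ hA (jB M)⁻¹ h
  have hℓA : (ℓ : Kbar) ∈ A := A.nonunits_subset hA
  have hℓ0 : (ℓ : Kbar) ≠ 0 := Nat.cast_ne_zero.mpr hℓ.ne_zero
  exact mem_modelInf_of_cst_mul A M hℓ hℓM hA w hw ((ℓ : Kbar) ^ m) (A.pow_mem hℓA m)
    (pow_ne_zero m hℓ0) hm

/-- the elements of a chart are regular at the places at which the coordinate is regular. -/
theorem h58h_modelAt_regular (t : FF M) {w : FF M} (hw : w ∈ modelAt M A t)
    (v : Place Kbar (FF M)) (hv : t ∈ v.toValuationSubring) : w ∈ v.toValuationSubring :=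
  (h85_mem_modelAt_iff_forall M A t w).mp hw v.toValuationSubring
    (fun a _ => v.algebraMap_mem' a) hv

/-- at a place, `j` or `1/j` is regular. -/
theorem h58h_ord_cases (v : Place Kbar (FF M)) :
    (0 ≤ v.ord (jB M) ∧ jB M ∈ v.toValuationSubring) ∨
      (v.ord (jB M) < 0 ∧ (jB M)⁻¹ ∈ v.toValuationSubring) := by
  rcases le_or_gt 0 (v.ord (jB M)) with h | h
  · exact Or.inl ⟨h, Fermat.Agent.S24.DiffPlace.mem_of_ord_nonneg v h⟩
  · refine Or.inr ⟨h, Fermat.Agent.S24.DiffPlace.mem_of_ord_nonneg v ?_⟩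
    rw [Place.ord_inv]
    omega

theorem h58h_ord_pow_mul (v : Place Kbar (FF M)) (n : ℕ) {x y : FF M} (hx : x ≠ 0)
    (hy : y ≠ 0) : v.ord (x ^ n * y) = n * v.ord x + v.ord y := by
  rw [Place.ord_mul v (pow_ne_zero n hx) hy]
  have := Place.ord_zpow v x (n : ℤ)
  rw [zpow_natCast] at this
  rw [this]

/-- **DICT-G.**  The Gauss-integral elements of `L(n D_∞)` are exactly the elements of
`B ∩ jⁿ B_∞`. -/
theorem h58h_dictG (hℓ : ℓ.Prime) (hℓM : ¬ ℓ ∣ M) (hA : A.LiesOverPrime ℓ)
    (D : Divisor Kbar (FF M)) (hD : ∀ v : Place Kbar (FF M), D v = max (-(v.ord (jB M))) 0)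
    (n : ℕ) (w : FF M) :
    (w ∈ riemannRochSpace (n • D) ∧ w ∈ gaussV A M) ↔
      (w ∈ modelFin M A ∧ ∃ w' ∈ modelInf M A, w = jB M ^ n * w') := by
  have hj0 : jB M ≠ 0 := h85_jB_ne_zero M
  have hnD : ∀ v : Place Kbar (FF M), (n • D) v = n * D v := fun v => by
    rw [Finsupp.smul_apply, nsmul_eq_mul]
  constructor
  · rintro ⟨hL, hV⟩
    rw [mem_riemannRochSpace_iff] at hL
    have hfin : w ∈ modelFin M A := by
      refine h58h_mem_modelFin_of_top M A hℓ hℓM hA hV (h58h_regular_fin M w (fun v hv => ?_))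
      rcases hL v with h0 | h1
      · rw [h0]; exact v.toValuationSubring.zero_mem
      · have hord : 0 ≤ v.ord (jB M) := Fermat.Agent.S24.DiffPlace.ord_nonneg_of_mem v hv
        have hDv : D v = 0 := by rw [hD v]; exact max_eq_right (by omega)
        rw [hnD, hDv, mul_zero, neg_zero] at h1
        exact Fermat.Agent.S24.DiffPlace.mem_of_ord_nonneg v h1
    refine ⟨hfin, (jB M)⁻¹ ^ n * w, ?_, ?_⟩
    · have hV' : (jB M)⁻¹ ^ n * w ∈ gaussV A M :=
        Subring.mul_mem _ (Subring.pow_mem _ (jB_inv_mem_gaussV A M hℓ hℓM hA) n) hV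
      refine h58h_mem_modelInf_of_top M A hℓ hℓM hA hV' (h58h_regular_inf M _ (fun v hv => ?_))
      rcases eq_or_ne w 0 with rfl | hw0
      · rw [mul_zero]; exact v.toValuationSubring.zero_mem
      rcases hL v with h0 | h1
      · exact absurd h0 hw0
      · have hord : v.ord (jB M) ≤ 0 := by
          have := Fermat.Agent.S24.DiffPlace.ord_nonneg_of_mem v hv
          rw [Place.ord_inv] at this
          omega
        have hDv : D v = -(v.ord (jB M)) := by rw [hD v]; exact max_eq_left (by omega)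
        rw [hnD, hDv] at h1
        apply Fermat.Agent.S24.DiffPlace.mem_of_ord_nonneg v
        rw [h58h_ord_pow_mul M v n (inv_ne_zero hj0) hw0, Place.ord_inv]
        have e : -((n : ℤ) * -(v.ord (jB M))) = (n : ℤ) * v.ord (jB M) := by ring
        rw [e] at h1
        have e2 : (n : ℤ) * -(v.ord (jB M)) = -((n : ℤ) * v.ord (jB M)) := by ring
        rw [e2]
        omega
    · rw [← mul_assoc, ← mul_pow, mul_inv_cancel₀ hj0, one_pow, one_mul]
  · rintro ⟨hfin, w', hw', rfl⟩
    refine ⟨?_, modelFin_le_gaussV A M hℓ hℓM hA hfin⟩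
    rw [mem_riemannRochSpace_iff]
    intro v
    rcases eq_or_ne (jB M ^ n * w') 0 with h0 | hne
    · exact Or.inl h0
    right
    have hw'0 : w' ≠ 0 := fun h => hne (by rw [h, mul_zero])
    rcases h58h_ord_cases M v with ⟨hord, hv⟩ | ⟨hord, hv⟩
    · have hDv : D v = 0 := by rw [hD v]; exact max_eq_right (by omega)
      rw [hnD, hDv, mul_zero, neg_zero]
      exact Fermat.Agent.S24.DiffPlace.ord_nonneg_of_mem v (h58h_modelAt_regular M A (jB M) hfin v hv)
    · have hDv : D v = -(v.ord (jB M)) := by rw [hD v]; exact max_eq_left (by omega)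
      rw [hnD, hDv, h58h_ord_pow_mul M v n hj0 hw'0]
      have h1 : 0 ≤ v.ord w' :=
        Fermat.Agent.S24.DiffPlace.ord_nonneg_of_mem v (h58h_modelAt_regular M A (jB M)⁻¹ hw' v hv)
      have e : -((n : ℤ) * -(v.ord (jB M))) = (n : ℤ) * v.ord (jB M) := by ring
      rw [e]
      omega

end Modular

end Fermat.Agent.P5
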