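import Fermat.Agent.P5.H26SemiLe
import Fermat.Agent.P5.H58DictG
import Fermat.Agent.P5.H55Semi

/-!
# Wave 5, pillar (P), block GEO-GENUS (helper26): `H13sGenus` from the remaining leaves

* `h26s_dictG : H26sDictG` (unconditional; from the landed `h58h_dictG` of helper58).
* `h26s_genus_top : H13sBase → H13sRedDiv → H26sZerosSF → H26sDictS → H13sGenus`
  (semicontinuity from the landed `h55s_semi` of helper55).
-/

set_option autoImplicit false

open AlgebraicCurve ModularCurve

noncomputable section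

namespace Fermat.Agent.P5

open Fermat.Agent.S37 Fermat.Agent.Red.GV

/-- **DICT-G**, easy inclusion (unconditional). -/
theorem h26s_dictG : H26sDictG := by
  intro ℓ hℓ M _ hM haux A hA D hD n w w' hw hw' e
  exact ((h58h_dictG M A hℓ hM hA D (fun v => by rw [hD v, max_comm]) n w).2
    ⟨hw, w', hw', e⟩).1

/-- **SEMI-LE** from `H13sBase` alone. -/
theorem h26s_semiLe (hB : H13sBase) : H26sSemiLe :=
  h26s_semiLe_of_semi hB (h55s_semi hB)

/-- **LIFT-LE** from `H13sBase` and DICT-S. -/
theorem h26s_liftLe (hB : H13sBase) (hDS : H26sDictS) : H26sLiftLe :=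
  h26s_liftLe_of_dict hB h26s_dictG hDS

/-- **`H13sGenus`** from `H13sBase`, `H13sRedDiv`, SF-ZEROS and DICT-S. -/
theorem h26s_genus_top (hB : H13sBase) (hRD : H13sRedDiv) (hZ : H26sZerosSF)
    (hDS : H26sDictS) : H13sGenus :=
  h26s_genus_of_semi hB hRD hZ (h55s_semi hB) h26s_dictG hDS

end Fermat.Agent.P5
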