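import Fermat.Agent.P5.H26GenusTop

/-!
# Wave 5, pillar (P), block GEO-GENUS (helper26): the reduction of the pole divisor of `j`

* `h26s_push_pole` : for `r` with `H13sIsRed A M r` and `D` the pole divisor of `j` on the
  generic fibre, `r_* D` is the pole divisor of the reduction of `j` on the special fibre
  (third clause of `H13sIsRed` for the Gauss unit `j`; `IsFinAt` is constant on the fibres
  of `r`).
* `H26sDictSF` : DICT-S in the vocabulary of the special fibre only (no `r`), the shape
  delivered by the two-chart dictionary.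
* `h26s_dictS_of_sf : H26sDictSF → H26sDictS`.
* `h26s_genus_sf : H13sBase → H13sRedDiv → H26sZerosSF → H26sDictSF → H13sGenus`.
-/

set_option autoImplicit false
set_option linter.style.haveILetI false

open AlgebraicCurve ModularCurve

noncomputable section

namespace Fermat.Agent.P5

open Fermat.Agent.S37 Fermat.Agent.Red.GV Fermat.Agent.S24.DiffPlace Fermat.Agent.Red.ModelO

/-- the value of a push-forward. -/
theorem h26s_mapDomain_apply {α β : Type*} [DecidableEq β] (r : α → β) (D : α →₀ ℤ) (Q : β) :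
    Finsupp.mapDomain r D Q = D.sum (fun v n => if r v = Q then n else 0) := by
  rw [Finsupp.mapDomain, Finsupp.sum_apply]
  refine Finsupp.sum_congr fun v _ => ?_
  rw [Finsupp.single_apply]

/-- the value of a push-forward, as a sum over a finite set containing the support. -/
theorem h26s_mapDomain_apply_of_subset {α β : Type*} [DecidableEq β] (r : α → β) (D : α →₀ ℤ)
    (Q : β) (S : Finset α) (hS : D.support ⊆ S) :
    Finsupp.mapDomain r D Q = ∑ v ∈ S, if r v = Q then D v else 0 := by
  rw [h26s_mapDomain_apply, Finsupp.sum_of_support_subset D hS _ (fun v _ => by simp)]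

/-- at a finite place `j` is regular. -/
theorem h26s_ord_nonneg_of_isFinAt {M : ℕ} [NeZero M] {A : ValuationSubring Kbar}
    {v : Place Kbar (FF M)} (h : IsFinAt A v) : 0 ≤ v.ord (jB M) := by
  obtain ⟨a, -, hval⟩ := h
  have h1 : jB M - cst M a ∈ v.toValuationSubring :=
    ValuationSubring.nonunits_subset hval
  have h2 : cst M a ∈ v.toValuationSubring := v.algebraMap_mem' a
  have h3 : jB M = (jB M - cst M a) + cst M a := by ring
  rw [h3]
  exact ord_nonneg_of_mem v (v.toValuationSubring.add_mem _ _ h1 h2)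

/-- at a non-finite place `j` has no zero. -/
theorem h26s_ord_nonpos_of_not_isFinAt {M : ℕ} [NeZero M] {A : ValuationSubring Kbar}
    {v : Place Kbar (FF M)} (h : ¬ IsFinAt A v) : v.ord (jB M) ≤ 0 := by
  by_contra hpos
  rw [not_le] at hpos
  apply h
  refine ⟨0, A.zero_mem, ?_⟩
  have hmem : jB M ∈ v.toValuationSubring := mem_of_ord_nonneg v hpos.le
  have hmax := mem_maximalIdeal_of_ord_pos v (z := ⟨jB M, hmem⟩) hpos
  show jB M - cst M 0 ∈ v.toValuationSubring.nonunits
  rw [show cst M 0 = 0 from map_zero _, sub_zero]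
  exact (ValuationSubring.mem_nonunits_iff_exists_mem_maximalIdeal).2 ⟨hmem, hmax⟩

/-- **the reduction of the pole divisor of `j` is the pole divisor of the reduction of `j`.** -/
theorem h26s_push_pole {ℓ : ℕ} (hℓ : ℓ.Prime) (M : ℕ) [NeZero M] (hM : ¬ ℓ ∣ M)
    (A : ValuationSubring Kbar) (hA : A.LiesOverPrime ℓ)
    (r : Place Kbar (FF M) → Place (h13sK A) (h13sFt A M)) (hr : H13sIsRed A M r)
    (D : Divisor Kbar (FF M)) (hD : H26sIsPole M D)
    (Q : Place (h13sK A) (h13sFt A M)) :
    h13sPush r D Q = max 0 (-(Q.ord (h26sJ A M))) := by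
  classical
  obtain ⟨Dj, hDj, -⟩ := (h40r_base_FF M).pd (jB M) (h85_jB_ne_zero M)
  have h3 : h13sPush r Dj Q = Q.ord (h26sJ A M) :=
    hr.2.2 (jB M) (jB_mem_gaussV A M) (jB_inv_mem_gaussV A M hℓ hM hA) Dj hDj Q
  have hsub : D.support ⊆ Dj.support := by
    intro v hv
    rw [Finsupp.mem_support_iff] at hv ⊢
    intro h0
    apply hv
    rw [hD v, ← hDj v, h0]
    simp
  have e1 : h13sPush r D Q = ∑ v ∈ Dj.support, if r v = Q then D v else 0 :=
    h26s_mapDomain_apply_of_subset r D Q _ hsub
  have e2 : h13sPush r Dj Q = ∑ v ∈ Dj.support, if r v = Q then Dj v else 0 :=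
    h26s_mapDomain_apply_of_subset r Dj Q _ (le_refl _)
  obtain ⟨v₀, hv₀⟩ := hr.1 Q
  have hsame : ∀ v, r v = Q → SameRed A v v₀ := fun v hv =>
    (hr.2.1 v v₀).1 (hv.trans hv₀.symm)
  by_cases hfin : IsFinAt A v₀
  · have hall : ∀ v, r v = Q → 0 ≤ v.ord (jB M) := by
      intro v hv
      rcases hsame v hv with ⟨h1, -, -⟩ | ⟨-, h2, -⟩
      · exact h26s_ord_nonneg_of_isFinAt h1
      · exact absurd hfin h2
    have s1 : h13sPush r D Q = 0 := by
      rw [e1]
      refine Finset.sum_eq_zero fun v _ => ?_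
      split_ifs with h
      · rw [hD v]
        exact max_eq_left (by have := hall v h; omega)
      · rfl
    have s2 : 0 ≤ h13sPush r Dj Q := by
      rw [e2]
      refine Finset.sum_nonneg fun v _ => ?_
      split_ifs with h
      · rw [hDj v]; exact hall v h
      · exact le_refl _
    rw [s1, ← h3]
    exact (max_eq_left (by omega)).symm
  · have hall : ∀ v, r v = Q → v.ord (jB M) ≤ 0 := by
      intro v hv
      rcases hsame v hv with ⟨-, h1, -⟩ | ⟨h2, -, -⟩
      · exact absurd h1 hfin
      · exact h26s_ord_nonpos_of_not_isFinAt h2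
    have s1 : h13sPush r D Q = -(h13sPush r Dj Q) := by
      rw [e1, e2, ← Finset.sum_neg_distrib]
      refine Finset.sum_congr rfl fun v _ => ?_
      split_ifs with h
      · rw [hD v, hDj v]
        exact max_eq_right (by have := hall v h; omega)
      · simp
    have s2 : h13sPush r Dj Q ≤ 0 := by
      rw [e2]
      refine Finset.sum_nonpos fun v _ => ?_
      split_ifs with h
      · rw [hDj v]; exact hall v h
      · exact le_refl _
    rw [s1, ← h3]
    exact (max_eq_right (by omega)).symm

/-- **DICT-S in the vocabulary of the special fibre.** -/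
def H26sDictSF : Prop :=
  ∀ (ℓ : ℕ), ℓ.Prime → ∀ (M : ℕ) [NeZero M], ¬ ℓ ∣ M → auxLevel ℓ ∣ M →
    ∀ A : ValuationSubring Kbar, A.LiesOverPrime ℓ →
    ∀ E : Divisor (h13sK A) (h13sFt A M),
      (∀ Q : Place (h13sK A) (h13sFt A M), E Q = max 0 (-(Q.ord (h26sJ A M)))) →
    ∀ (n : ℕ) (y : h13sFt A M), y ∈ riemannRochSpace (n • E) →
      ∃ b b' : gaussV A M, (b : FF M) ∈ modelFin M A ∧ (b' : FF M) ∈ modelInf M A ∧
        gaussR A M b = h13sIncl A M y ∧
        h13sIncl A M y = gaussR A M ⟨jB M, jB_mem_gaussV A M⟩ ^ n * gaussR A M b'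

theorem h26s_dictS_of_sf (h : H26sDictSF) : H26sDictS := by
  intro ℓ hℓ M _ hM haux A hA r hr D hD n y hy
  have hpush : h13sPush r (n • D) = n • h13sPush r D := by
    unfold h13sPush
    exact Finsupp.mapDomain_smul n D
  rw [hpush] at hy
  exact h ℓ hℓ M hM haux A hA (h13sPush r D)
    (fun Q => h26s_push_pole hℓ M hM A hA r hr D hD Q) n y hy

/-- **`H13sGenus`** from `H13sBase`, `H13sRedDiv`, SF-ZEROS and the special-fibre DICT-S. -/
theorem h26s_genus_sf (hB : H13sBase) (hRD : H13sRedDiv) (hZ : H26sZerosSF)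
    (hDS : H26sDictSF) : H13sGenus :=
  h26s_genus_top hB hRD hZ (h26s_dictS_of_sf hDS)

end Fermat.Agent.P5
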