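import Fermat.Agent.P5.H26RRLattice

/-!
# Wave 5, pillar (P), block GEO-RR (helper26): Riemann's theorem for `n · (x)_∞` inside a field

Mathlib only.  `F` a field over `K`, `x ∈ F` nonzero, `b : ι → F`, `c : κ → F` finite families.
With the families `(n, i) ↦ x ^ n * b i` and `(n, k) ↦ x ^ n * c k` (`n : ℤ`):

* `h26rPlus x b = span {x ^ n * b i : 0 ≤ n}` (`= B`, the `K[x]`-module generated by `b`),
* `h26rMinus x c m = span {x ^ n * c k : n ≤ m}` (`= x ^ m B∞`, `B∞` the `K[1/x]`-module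
  generated by `c`),
* `h26rAll x b = span {x ^ n * b i : n ∈ ℤ}` (`= B[1/x]`).

`h26r_riemann_field` : if both families are `K`-linearly independent and span the same space
`W`, then with `g = dim W / (B + B∞)`:

  `m · #κ + dim (B ∩ B∞) ≤ dim (B ∩ x ^ m B∞) + g`, with equality for `m ≥ N`.
-/

set_option autoImplicit false
set_option linter.unusedSectionVars false
set_option linter.style.haveILetI false
set_option linter.deprecated false

open Module Submodule

namespace Fermat.Agent.P5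

section Concrete

variable {K F : Type*} [Field K] [Field F] [Algebra K F]

/-- the family `(n, i) ↦ x ^ n * b i`. -/
def h26rFam {ι : Type*} (x : F) (b : ι → F) (p : ℤ × ι) : F := x ^ p.1 * b p.2

/-- `B = span {x ^ n * b i : 0 ≤ n}`. -/
def h26rPlus {ι : Type*} (K : Type*) [Field K] [Algebra K F] (x : F) (b : ι → F) :
    Submodule K F :=
  span K (h26rFam x b '' {p | 0 ≤ p.1})

/-- `x ^ m B∞ = span {x ^ n * c k : n ≤ m}`. -/
def h26rMinus {κ : Type*} (K : Type*) [Field K] [Algebra K F] (x : F) (c : κ → F) (m : ℤ) :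
    Submodule K F :=
  span K (h26rFam x c '' {p | p.1 ≤ m})

/-- `W = span {x ^ n * b i : n ∈ ℤ}`. -/
abbrev h26rAll {ι : Type*} (K : Type*) [Field K] [Algebra K F] (x : F) (b : ι → F) :
    Submodule K F :=
  span K (Set.range (h26rFam x b))

variable {ι κ : Type*} (x : F) (b : ι → F) (c : κ → F)

theorem h26r_plus_le : h26rPlus K x b ≤ h26rAll K x b :=
  Submodule.span_mono (Set.image_subset_range _ _)

theorem h26r_minus_le (m : ℤ) : h26rMinus K x c m ≤ h26rAll K x c :=
  Submodule.span_mono (Set.image_subset_range _ _)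

theorem h26r_mul_mem (hx : x ≠ 0) {w : F} (hw : w ∈ h26rAll K x b) : x * w ∈ h26rAll K x b := by
  have h1 : (h26rAll K x b).map (LinearMap.mulLeft K x) ≤ h26rAll K x b := by
    rw [h26rAll, Submodule.map_span]
    apply Submodule.span_le.mpr
    rintro _ ⟨_, ⟨p, rfl⟩, rfl⟩
    apply Submodule.subset_span
    refine ⟨(p.1 + 1, p.2), ?_⟩
    show x ^ (p.1 + 1) * b p.2 = x * (x ^ p.1 * b p.2)
    rw [zpow_add_one₀ hx]
    ring
  exact h1 (Submodule.mem_map_of_mem hw)

theorem h26r_inv_mul_mem (hx : x ≠ 0) {w : F} (hw : w ∈ h26rAll K x b) :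
    x⁻¹ * w ∈ h26rAll K x b := by
  have h1 : (h26rAll K x b).map (LinearMap.mulLeft K x⁻¹) ≤ h26rAll K x b := by
    rw [h26rAll, Submodule.map_span]
    apply Submodule.span_le.mpr
    rintro _ ⟨_, ⟨p, rfl⟩, rfl⟩
    apply Submodule.subset_span
    refine ⟨(p.1 - 1, p.2), ?_⟩
    show x ^ (p.1 - 1) * b p.2 = x⁻¹ * (x ^ p.1 * b p.2)
    rw [zpow_sub_one₀ hx]
    ring
  exact h1 (Submodule.mem_map_of_mem hw)

/-- multiplication by `x` on `W`. -/
def h26rT (hx : x ≠ 0) : ↥(h26rAll K x b) ≃ₗ[K] ↥(h26rAll K x b) where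
  toFun w := ⟨x * (w : F), h26r_mul_mem x b hx w.2⟩
  invFun w := ⟨x⁻¹ * (w : F), h26r_inv_mul_mem x b hx w.2⟩
  map_add' u v := Subtype.ext (mul_add _ _ _)
  map_smul' a u := Subtype.ext (by
    show x * (a • (u : F)) = a • (x * (u : F))
    rw [mul_smul_comm])
  left_inv w := Subtype.ext (by
    show x⁻¹ * (x * (w : F)) = w
    rw [← mul_assoc, inv_mul_cancel₀ hx, one_mul])
  right_inv w := Subtype.ext (by
    show x * (x⁻¹ * (w : F)) = w
    rw [← mul_assoc, mul_inv_cancel₀ hx, one_mul])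

variable (hb : LinearIndependent K (h26rFam x b)) (hc : LinearIndependent K (h26rFam x c))
  (hW : h26rAll K x b = h26rAll K x c)

/-- the first basis of `W`. -/
noncomputable def h26rBb : Module.Basis (ℤ × ι) K ↥(h26rAll K x b) := Module.Basis.span hb

/-- the second basis of `W`. -/
noncomputable def h26rBc : Module.Basis (ℤ × κ) K ↥(h26rAll K x b) :=
  (Module.Basis.span hc).map (LinearEquiv.ofEq _ _ hW.symm)

theorem h26r_coe_Bb (p : ℤ × ι) : ((h26rBb x b hb p : ↥(h26rAll K x b)) : F) = x ^ p.1 * b p.2 := by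
  rw [h26rBb, Module.Basis.span_apply]
  rfl

theorem h26r_coe_Bc (p : ℤ × κ) :
    ((h26rBc x b c hc hW p : ↥(h26rAll K x b)) : F) = x ^ p.1 * c p.2 := by
  rw [h26rBc, Module.Basis.map_apply]
  show ((Module.Basis.span hc p : ↥(h26rAll K x c)) : F) = _
  rw [Module.Basis.span_apply]
  rfl

theorem h26r_T_Bb (hx : x ≠ 0) (p : ℤ × ι) :
    h26rT x b hx (h26rBb x b hb p) = h26rBb x b hb (p.1 + 1, p.2) := by
  apply Subtype.ext
  show x * ((h26rBb x b hb p : ↥(h26rAll K x b)) : F) = _
  rw [h26r_coe_Bb, h26r_coe_Bb, zpow_add_one₀ hx]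
  ring

theorem h26r_T_Bc (hx : x ≠ 0) (p : ℤ × κ) :
    h26rT x b hx (h26rBc x b c hc hW p) = h26rBc x b c hc hW (p.1 + 1, p.2) := by
  apply Subtype.ext
  show x * ((h26rBc x b c hc hW p : ↥(h26rAll K x b)) : F) = _
  rw [h26r_coe_Bc, h26r_coe_Bc, zpow_add_one₀ hx]
  ring

theorem h26r_map_B :
    (h26rB (h26rBb x b hb)).map (h26rAll K x b).subtype = h26rPlus K x b := by
  rw [h26rB, h26rPlus, Submodule.map_span, ← Set.image_comp]
  congr 1
  apply Set.image_congr
  intro p _
  exact h26r_coe_Bb x b hb p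

theorem h26r_map_L (m : ℤ) :
    (h26rL (h26rBc x b c hc hW) m).map (h26rAll K x b).subtype = h26rMinus K x c m := by
  rw [h26rL, h26rMinus, Submodule.map_span, ← Set.image_comp]
  congr 1
  apply Set.image_congr
  intro p _
  exact h26r_coe_Bc x b c hc hW p

theorem h26r_finrank_inf (m : ℤ) :
    finrank K ↥(h26rB (h26rBb x b hb) ⊓ h26rL (h26rBc x b c hc hW) m) =
      finrank K ↥(h26rPlus K x b ⊓ h26rMinus K x c m) := by
  have hinj : Function.Injective (h26rAll K x b).subtype := Subtype.val_injective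
  rw [← h26r_map_B x b hb, ← h26r_map_L x b c hc hW m, ← Submodule.map_inf _ hinj]
  exact (Submodule.equivMapOfInjective _ hinj _).finrank_eq

theorem h26r_comap_sup (m : ℤ) :
    (h26rPlus K x b ⊔ h26rMinus K x c m).comap (h26rAll K x b).subtype =
      h26rB (h26rBb x b hb) ⊔ h26rL (h26rBc x b c hc hW) m := by
  have hinj : Function.Injective (h26rAll K x b).subtype := Subtype.val_injective
  rw [← h26r_map_B x b hb, ← h26r_map_L x b c hc hW m, ← Submodule.map_sup,
    Submodule.comap_map_eq_of_injective hinj]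

/-- the genus of the pair: `g = dim W / (B + B∞)`. -/
noncomputable def h26rGenus {ι κ : Type*} (K : Type*) [Field K] [Algebra K F] (x : F) (b : ι → F)
    (c : κ → F) : ℕ :=
  finrank K (↥(h26rAll K x b) ⧸
    (h26rPlus K x b ⊔ h26rMinus K x c 0).comap (h26rAll K x b).subtype)

variable [Finite ι] [Finite κ]

include hb hc hW in
/-- `B ∩ x ^ m B∞` is finite-dimensional. -/
theorem h26r_finite_inf_field (hx : x ≠ 0) (m : ℤ) :
    Module.Finite K ↥(h26rPlus K x b ⊓ h26rMinus K x c m) := by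
  have hinj : Function.Injective (h26rAll K x b).subtype := Subtype.val_injective
  haveI := h26r_finite_inf (h26rT x b hx) (h26rBb x b hb) (h26rBc x b c hc hW)
    (h26r_T_Bb x b hb hx) (h26r_T_Bc x b c hc hW hx) m
  rw [← h26r_map_B x b hb, ← h26r_map_L x b c hc hW m, ← Submodule.map_inf _ hinj]
  exact Module.Finite.equiv (Submodule.equivMapOfInjective _ hinj _)

include hb hc hW in
/-- **Riemann's theorem for the multiples of the polar divisor of `x`.** -/
theorem h26r_riemann_field (hx : x ≠ 0) :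
    (∀ m : ℕ, m * Nat.card κ + finrank K ↥(h26rPlus K x b ⊓ h26rMinus K x c 0) ≤
      finrank K ↥(h26rPlus K x b ⊓ h26rMinus K x c (m : ℤ)) + h26rGenus K x b c) ∧
    ∃ N : ℕ, ∀ m : ℕ, N ≤ m →
      finrank K ↥(h26rPlus K x b ⊓ h26rMinus K x c (m : ℤ)) + h26rGenus K x b c =
        m * Nat.card κ + finrank K ↥(h26rPlus K x b ⊓ h26rMinus K x c 0) := by
  have h := h26r_riemann (h26rT x b hx) (h26rBb x b hb) (h26rBc x b c hc hW)
    (h26r_T_Bb x b hb hx) (h26r_T_Bc x b c hc hW hx)
  have hg : h26rGenus K x b c = finrank K (↥(h26rAll K x b) ⧸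
      (h26rB (h26rBb x b hb) ⊔ h26rL (h26rBc x b c hc hW) 0)) := by
    rw [h26rGenus, h26r_comap_sup x b c hb hc hW 0]
  simp only [h26r_finrank_inf x b c hb hc hW] at h
  rw [hg]
  exact h

end Concrete

end Fermat.Agent.P5
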