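import Mathlib

/-!
# Wave 5, pillar (P), block GEO-RR (helper26): the index lemma

Mathlib only.  For subspaces `B`, `L ≤ L'` of a vector space `W` with `L' / L` of finite
dimension `m`:

  `dim (B ⊓ L') + dim W/(B ⊔ L) = dim (B ⊓ L) + dim W/(B ⊔ L') + m`.

This is the additivity of the Euler characteristic `χ(L) = dim (B ⊓ L) - dim W/(B ⊔ L)` of the
two-term complex `B ⊕ L → W` under enlarging the lattice `L`.
-/

set_option autoImplicit false

open Module Submodule

namespace Fermat.Agent.P5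

section Index

variable {K W : Type*} [Field K] [AddCommGroup W] [Module K W]

/-- the map `B ⊓ L' → L' / L`. -/
noncomputable def h26rPsi (B L L' : Submodule K W) :
    ↥(B ⊓ L') →ₗ[K] (↥L' ⧸ L.comap L'.subtype) :=
  (L.comap L'.subtype).mkQ ∘ₗ Submodule.inclusion (inf_le_right : B ⊓ L' ≤ L')

/-- the map `L' / L → W / (B ⊔ L)`. -/
noncomputable def h26rTheta (B L L' : Submodule K W) :
    (↥L' ⧸ L.comap L'.subtype) →ₗ[K] (W ⧸ (B ⊔ L)) :=
  (L.comap L'.subtype).liftQ ((B ⊔ L).mkQ ∘ₗ L'.subtype) (by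
    intro x hx
    rw [LinearMap.mem_ker, LinearMap.comp_apply, Submodule.mkQ_apply,
      Submodule.Quotient.mk_eq_zero]
    exact Submodule.mem_sup_right hx)

/-- the map `W / (B ⊔ L) → W / (B ⊔ L')`. -/
noncomputable def h26rRho (B L L' : Submodule K W) (h : L ≤ L') :
    (W ⧸ (B ⊔ L)) →ₗ[K] (W ⧸ (B ⊔ L')) :=
  (B ⊔ L).liftQ (B ⊔ L').mkQ (by
    rw [Submodule.ker_mkQ]
    exact sup_le_sup_left h B)

theorem h26r_rho_surjective (B L L' : Submodule K W) (h : L ≤ L') :
    Function.Surjective (h26rRho B L L' h) := by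
  intro y
  obtain ⟨w, rfl⟩ := Submodule.Quotient.mk_surjective _ y
  exact ⟨Submodule.Quotient.mk w, rfl⟩

theorem h26r_ker_psi (B L L' : Submodule K W) :
    LinearMap.ker (h26rPsi B L L') = (B ⊓ L).comap (B ⊓ L').subtype := by
  ext x
  rw [LinearMap.mem_ker, h26rPsi, LinearMap.comp_apply, Submodule.mkQ_apply,
    Submodule.Quotient.mk_eq_zero, Submodule.mem_comap, Submodule.mem_comap]
  constructor
  · intro hx
    exact ⟨x.2.1, hx⟩
  · intro hx
    exact hx.2

theorem h26r_ker_theta (B L L' : Submodule K W) (h : L ≤ L') :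
    LinearMap.ker (h26rTheta B L L') = LinearMap.range (h26rPsi B L L') := by
  ext y
  obtain ⟨⟨w, hw⟩, rfl⟩ := Submodule.Quotient.mk_surjective _ y
  rw [LinearMap.mem_ker, LinearMap.mem_range]
  constructor
  · intro hy
    have h1 : (B ⊔ L).mkQ w = 0 := hy
    rw [Submodule.mkQ_apply, Submodule.Quotient.mk_eq_zero] at h1
    obtain ⟨β, hβ, l, hl, rfl⟩ := Submodule.mem_sup.mp h1
    have hβL' : β ∈ L' := by
      have : β = (β + l) - l := by abel
      rw [this]
      exact L'.sub_mem hw (h hl)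
    refine ⟨⟨β, hβ, hβL'⟩, ?_⟩
    show Submodule.Quotient.mk (⟨β, hβL'⟩ : ↥L') = Submodule.Quotient.mk ⟨β + l, hw⟩
    rw [Submodule.Quotient.eq, Submodule.mem_comap]
    have : ((⟨β, hβL'⟩ : ↥L') - ⟨β + l, hw⟩ : ↥L') = ⟨-l, L'.neg_mem (h hl)⟩ := by
      apply Subtype.ext
      show β - (β + l) = -l
      abel
    rw [this]
    exact L.neg_mem hl
  · rintro ⟨⟨β, hβB, hβL'⟩, hβ⟩
    have h2 : Submodule.Quotient.mk (⟨β, hβL'⟩ : ↥L') =
        (Submodule.Quotient.mk ⟨w, hw⟩ : ↥L' ⧸ L.comap L'.subtype) := hβ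
    rw [Submodule.Quotient.eq, Submodule.mem_comap] at h2
    have h3 : β - w ∈ L := h2
    show (B ⊔ L).mkQ w = 0
    rw [Submodule.mkQ_apply, Submodule.Quotient.mk_eq_zero]
    have : w = β + -(β - w) := by abel
    rw [this]
    exact Submodule.add_mem_sup hβB (L.neg_mem h3)

theorem h26r_ker_rho (B L L' : Submodule K W) (h : L ≤ L') :
    LinearMap.ker (h26rRho B L L' h) = LinearMap.range (h26rTheta B L L') := by
  ext y
  obtain ⟨w, rfl⟩ := Submodule.Quotient.mk_surjective _ y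
  rw [LinearMap.mem_ker, LinearMap.mem_range]
  constructor
  · intro hy
    have h1 : (B ⊔ L').mkQ w = 0 := hy
    rw [Submodule.mkQ_apply, Submodule.Quotient.mk_eq_zero] at h1
    obtain ⟨β, hβ, l, hl, rfl⟩ := Submodule.mem_sup.mp h1
    refine ⟨Submodule.Quotient.mk ⟨l, hl⟩, ?_⟩
    show (B ⊔ L).mkQ l = Submodule.Quotient.mk (β + l)
    rw [Submodule.mkQ_apply, Submodule.Quotient.eq]
    have : l - (β + l) = -β := by abel
    rw [this]
    exact Submodule.mem_sup_left (B.neg_mem hβ)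
  · rintro ⟨z, hz⟩
    obtain ⟨⟨l, hl⟩, rfl⟩ := Submodule.Quotient.mk_surjective _ z
    have h2 : (B ⊔ L).mkQ l = Submodule.Quotient.mk w := hz
    rw [Submodule.mkQ_apply, Submodule.Quotient.eq] at h2
    show (B ⊔ L').mkQ w = 0
    rw [Submodule.mkQ_apply, Submodule.Quotient.mk_eq_zero]
    have : w = l + -(l - w) := by abel
    rw [this]
    exact (B ⊔ L').add_mem (Submodule.mem_sup_right hl)
      ((B ⊔ L').neg_mem (sup_le_sup_left h B h2))

/-- **the index lemma**: additivity of the Euler characteristic of `B ⊕ L → W` in `L`. -/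
theorem h26r_index (B L L' : Submodule K W) (h : L ≤ L')
    [Module.Finite K (W ⧸ (B ⊔ L))] [Module.Finite K ↥(B ⊓ L')]
    [Module.Finite K (↥L' ⧸ L.comap L'.subtype)] :
    finrank K ↥(B ⊓ L') + finrank K (W ⧸ (B ⊔ L)) =
      finrank K ↥(B ⊓ L) + finrank K (W ⧸ (B ⊔ L')) +
        finrank K (↥L' ⧸ L.comap L'.subtype) := by
  have e1 := LinearMap.finrank_range_add_finrank_ker (h26rPsi B L L')
  have e2 := LinearMap.finrank_range_add_finrank_ker (h26rTheta B L L')
  have e3 := LinearMap.finrank_range_add_finrank_ker (h26rRho B L L' h)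
  rw [LinearMap.range_eq_top.mpr (h26r_rho_surjective B L L' h), finrank_top,
    h26r_ker_rho B L L' h] at e3
  rw [h26r_ker_theta B L L' h] at e2
  rw [h26r_ker_psi B L L'] at e1
  have e4 : finrank K ↥((B ⊓ L).comap (B ⊓ L').subtype) = finrank K ↥(B ⊓ L) := by
    have hle : B ⊓ L ≤ B ⊓ L' := inf_le_inf_left B h
    exact (Submodule.comapSubtypeEquivOfLe hle).finrank_eq
  rw [e4] at e1
  omega

end Index

end Fermat.Agent.P5
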