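import Fermat.Agent.P5.H26RRIndex

/-!
# Wave 5, pillar (P), block GEO-RR (helper26): the two-chart lattice form of Riemann's theorem

Mathlib only.  `W` a `K`-vector space with two bases `βb`, `βc` indexed by `ℤ × ι`, `ℤ × κ`
(`ι`, `κ` finite), both shifted by the same automorphism `T` (`T (β (n, i)) = β (n + 1, i)`).
Think of `W = B[1/x] = B∞[x]`, `T` = multiplication by `x`, `βb (n, i) = x ^ n b_i` for a
`K[x]`-basis `b` of `B` and `βc (n, k) = x ^ n c_k` for a `K[1/x]`-basis `c` of `B∞`.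

* `h26rB βb = span {βb (n, i) : 0 ≤ n}` (`= B`), `h26rL βc m = span {βc (n, k) : n ≤ m}`
  (`= x ^ m B∞`).
* `h26r_finite_inf`, `h26r_finite_quot` : `B ⊓ L_m` and `W / (B ⊔ L_m)` are finite-dimensional.
* `h26r_sup_eq_top` : `B ⊔ L_m = ⊤` for `m ≥ N`.
* `h26r_chi` : `dim (B ⊓ L_m) + dim W/(B ⊔ L_0) = dim (B ⊓ L_0) + dim W/(B ⊔ L_m) + m · #κ`.
* `h26r_riemann` : `dim (B ⊓ L_m) + g ≥ m · #κ + dim (B ⊓ L_0)` with `g = dim W/(B ⊔ L_0)`,
  equality for `m ≥ N`.
-/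

set_option autoImplicit false
set_option linter.unusedSectionVars false
set_option linter.style.haveILetI false
set_option linter.deprecated false

open Module Submodule

namespace Fermat.Agent.P5

section Step

variable {K W : Type*} [Field K] [AddCommGroup W] [Module K W]

/-- one step of the index computation: enlarging `L` by a complement `S`. -/
theorem h26r_step (B L S : Submodule K W) (hdisj : S ⊓ L = ⊥) [Module.Finite K ↥S]
    [Module.Finite K (W ⧸ (B ⊔ L))] [Module.Finite K ↥(B ⊓ (S ⊔ L))] :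
    finrank K ↥(B ⊓ (S ⊔ L)) + finrank K (W ⧸ (B ⊔ L)) =
      finrank K ↥(B ⊓ L) + finrank K (W ⧸ (B ⊔ (S ⊔ L))) + finrank K ↥S := by
  have e : (↥S ⧸ (S ⊓ L).comap S.subtype) ≃ₗ[K] (↥(S ⊔ L) ⧸ L.comap (S ⊔ L).subtype) :=
    LinearMap.quotientInfEquivSupQuotient S L
  have hbot : (S ⊓ L).comap S.subtype = ⊥ := by
    rw [hdisj, Submodule.comap_bot, Submodule.ker_subtype]
  have e' : (↥S ⧸ (S ⊓ L).comap S.subtype) ≃ₗ[K] ↥S := Submodule.quotEquivOfEqBot _ hbot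
  have : Module.Finite K (↥(S ⊔ L) ⧸ L.comap (S ⊔ L).subtype) :=
    Module.Finite.equiv (e'.symm.trans e)
  have h := h26r_index B L (S ⊔ L) le_sup_right
  rw [h, ← (e'.symm.trans e).finrank_eq]

end Step

section Lattice

variable {K W : Type*} [Field K] [AddCommGroup W] [Module K W]
variable {ι κ : Type*}

/-- `B = span {βb (n, i) : 0 ≤ n}`. -/
def h26rB (βb : Module.Basis (ℤ × ι) K W) : Submodule K W :=
  span K (βb '' {p | 0 ≤ p.1})

/-- `L_m = span {βc (n, k) : n ≤ m}`. -/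
def h26rL (βc : Module.Basis (ℤ × κ) K W) (m : ℤ) : Submodule K W :=
  span K (βc '' {p | p.1 ≤ m})

/-- the window `span {β (n, i) : a ≤ n ≤ b}`. -/
def h26rWin {ι : Type*} (β : Module.Basis (ℤ × ι) K W) (a b : ℤ) : Submodule K W :=
  span K (β '' {p | a ≤ p.1 ∧ p.1 ≤ b})

theorem h26r_win_finite {ι : Type*} [Finite ι] (β : Module.Basis (ℤ × ι) K W) (a b : ℤ) :
    Module.Finite K ↥(h26rWin β a b) := by
  apply FiniteDimensional.span_of_finite
  apply Set.Finite.image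
  have : {p : ℤ × ι | a ≤ p.1 ∧ p.1 ≤ b} ⊆ (Set.Icc a b) ×ˢ (Set.univ : Set ι) := by
    intro p hp
    exact ⟨⟨hp.1, hp.2⟩, Set.mem_univ _⟩
  exact ((Set.finite_Icc a b).prod Set.finite_univ).subset this

variable (T : W ≃ₗ[K] W) (βb : Module.Basis (ℤ × ι) K W) (βc : Module.Basis (ℤ × κ) K W)

/-- the iterated shift. -/
theorem h26r_shift (hb : ∀ p, T (βb p) = βb (p.1 + 1, p.2))
    (hc : ∀ p, T (βc p) = βc (p.1 + 1, p.2)) (n : ℤ) :
    ∃ Tn : W ≃ₗ[K] W, (∀ p, Tn (βb p) = βb (p.1 + n, p.2)) ∧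
      (∀ p, Tn (βc p) = βc (p.1 + n, p.2)) := by
  have hb' : ∀ p, T.symm (βb p) = βb (p.1 - 1, p.2) := by
    intro p
    rw [LinearEquiv.symm_apply_eq, hb]
    simp
  have hc' : ∀ p, T.symm (βc p) = βc (p.1 - 1, p.2) := by
    intro p
    rw [LinearEquiv.symm_apply_eq, hc]
    simp
  induction n using Int.induction_on with
  | zero => exact ⟨LinearEquiv.refl K W, fun p => by simp, fun p => by simp⟩
  | succ n ih =>
    obtain ⟨Tn, h1, h2⟩ := ih
    refine ⟨Tn.trans T, fun p => ?_, fun p => ?_⟩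
    · rw [LinearEquiv.trans_apply, h1, hb]
      simp [add_assoc]
    · rw [LinearEquiv.trans_apply, h2, hc]
      simp [add_assoc]
  | pred n ih =>
    obtain ⟨Tn, h1, h2⟩ := ih
    refine ⟨Tn.trans T.symm, fun p => ?_, fun p => ?_⟩
    · rw [LinearEquiv.trans_apply, h1, hb']
      congr 2
      ring
    · rw [LinearEquiv.trans_apply, h2, hc']
      congr 2
      ring

/-- a bound for the support of finitely many vectors. -/
theorem h26r_bound_one {ι κ : Type*} [Finite κ] (β : Module.Basis (ℤ × ι) K W) (c : κ → W) :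
    ∃ N : ℤ, 0 ≤ N ∧ ∀ k, c k ∈ h26rWin β (-N) N := by
  classical
  haveI := Fintype.ofFinite κ
  let Nk : κ → ℤ := fun k => ∑ p ∈ (β.repr (c k)).support, |p.1|
  have hNk0 : ∀ k, 0 ≤ Nk k := fun k => Finset.sum_nonneg (fun p _ => abs_nonneg _)
  refine ⟨∑ k, Nk k, Finset.sum_nonneg (fun k _ => hNk0 k), fun k => ?_⟩
  rw [h26rWin, Module.Basis.mem_span_image]
  intro p hp
  have h1 : |p.1| ≤ Nk k :=
    Finset.single_le_sum (f := fun p : ℤ × ι => |p.1|) (fun q _ => abs_nonneg _) hp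
  have h2 : Nk k ≤ ∑ k, Nk k :=
    Finset.single_le_sum (f := Nk) (fun q _ => hNk0 q) (Finset.mem_univ k)
  have h3 := abs_le.mp (h1.trans h2)
  exact ⟨h3.1, h3.2⟩

theorem h26r_win_mono {ι : Type*} (β : Module.Basis (ℤ × ι) K W) {a b a' b' : ℤ}
    (ha : a' ≤ a) (hb : b ≤ b') : h26rWin β a b ≤ h26rWin β a' b' := by
  apply Submodule.span_mono
  apply Set.image_mono
  intro p hp
  exact ⟨ha.trans hp.1, hp.2.trans hb⟩

theorem h26r_win_map {ι : Type*} (β : Module.Basis (ℤ × ι) K W) (Tn : W ≃ₗ[K] W) (n : ℤ)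
    (hTn : ∀ p, Tn (β p) = β (p.1 + n, p.2)) (a b : ℤ) {w : W} (hw : w ∈ h26rWin β a b) :
    Tn w ∈ h26rWin β (a + n) (b + n) := by
  have h1 : (h26rWin β a b).map (Tn : W →ₗ[K] W) ≤ h26rWin β (a + n) (b + n) := by
    rw [h26rWin, Submodule.map_span]
    apply Submodule.span_le.mpr
    rintro _ ⟨_, ⟨p, hp, rfl⟩, rfl⟩
    apply Submodule.subset_span
    refine ⟨(p.1 + n, p.2), ⟨?_, ?_⟩, (hTn p).symm⟩
    · exact add_le_add_left hp.1 n
    · exact add_le_add_left hp.2 n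
  exact h1 (Submodule.mem_map_of_mem hw)

/-- **comparison of the two bases**, uniformly in the shift. -/
theorem h26r_compare [Finite ι] [Finite κ] (hb : ∀ p, T (βb p) = βb (p.1 + 1, p.2))
    (hc : ∀ p, T (βc p) = βc (p.1 + 1, p.2)) :
    ∃ N : ℤ, 0 ≤ N ∧ (∀ p : ℤ × κ, βc p ∈ h26rWin βb (p.1 - N) (p.1 + N)) ∧
      (∀ p : ℤ × ι, βb p ∈ h26rWin βc (p.1 - N) (p.1 + N)) := by
  obtain ⟨N1, hN1, h1⟩ := h26r_bound_one βb (fun k : κ => βc (0, k))
  obtain ⟨N2, hN2, h2⟩ := h26r_bound_one βc (fun i : ι => βb (0, i))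
  refine ⟨N1 + N2, add_nonneg hN1 hN2, fun p => ?_, fun p => ?_⟩
  · obtain ⟨Tn, hTb, hTc⟩ := h26r_shift T βb βc hb hc p.1
    have e : βc p = Tn (βc (0, p.2)) := by
      rw [hTc]
      simp
    rw [e]
    have := h26r_win_map βb Tn p.1 hTb (-N1) N1 (h1 p.2)
    refine h26r_win_mono βb ?_ ?_ this <;> linarith
  · obtain ⟨Tn, hTb, hTc⟩ := h26r_shift T βb βc hb hc p.1
    have e : βb p = Tn (βb (0, p.2)) := by
      rw [hTb]
      simp
    rw [e]
    have := h26r_win_map βc Tn p.1 hTc (-N2) N2 (h2 p.2)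
    refine h26r_win_mono βc ?_ ?_ this <;> linarith

section Main

variable [Finite ι] [Finite κ]

theorem h26r_L_le (N : ℤ) (hcmp : ∀ p : ℤ × κ, βc p ∈ h26rWin βb (p.1 - N) (p.1 + N))
    (m : ℤ) : h26rL βc m ≤ span K (βb '' {p | p.1 ≤ m + N}) := by
  apply Submodule.span_le.mpr
  rintro _ ⟨p, hp, rfl⟩
  refine Submodule.span_mono (Set.image_mono ?_) (hcmp p)
  intro q hq
  show q.1 ≤ m + N
  have h1 : p.1 ≤ m := hp
  have h2 := hq.2
  linarith

theorem h26r_inf_le (N : ℤ) (hcmp : ∀ p : ℤ × κ, βc p ∈ h26rWin βb (p.1 - N) (p.1 + N))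
    (m : ℤ) : h26rB βb ⊓ h26rL βc m ≤ h26rWin βb 0 (m + N) := by
  intro w hw
  have h1 : w ∈ h26rB βb := hw.1
  have h2 := h26r_L_le βb βc N hcmp m hw.2
  rw [h26rB, Module.Basis.mem_span_image] at h1
  rw [Module.Basis.mem_span_image] at h2
  rw [h26rWin, Module.Basis.mem_span_image]
  intro p hp
  exact ⟨h1 hp, h2 hp⟩

theorem h26r_le_sup (N : ℤ) (hcmp' : ∀ p : ℤ × ι, βb p ∈ h26rWin βc (p.1 - N) (p.1 + N))
    (m : ℤ) :
    span K (βb '' {p | 0 ≤ p.1 ∨ p.1 ≤ m - N}) ≤ h26rB βb ⊔ h26rL βc m := by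
  apply Submodule.span_le.mpr
  rintro _ ⟨p, hp, rfl⟩
  rcases hp with hp | hp
  · exact Submodule.mem_sup_left (Submodule.subset_span ⟨p, hp, rfl⟩)
  · apply Submodule.mem_sup_right
    refine Submodule.span_mono (Set.image_mono ?_) (hcmp' p)
    intro q hq
    show q.1 ≤ m
    have h1 : p.1 ≤ m - N := hp
    have h2 := hq.2
    linarith

theorem h26r_sup_win (N : ℤ) (hcmp' : ∀ p : ℤ × ι, βb p ∈ h26rWin βc (p.1 - N) (p.1 + N))
    (m : ℤ) :
    (h26rB βb ⊔ h26rL βc m) ⊔ h26rWin βb (m - N + 1) (-1) = ⊤ := by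
  rw [eq_top_iff]
  intro w _
  have hw : w ∈ span K (βb '' (Set.univ : Set (ℤ × ι))) := by
    rw [Set.image_univ, βb.span_eq]
    trivial
  have hsub : (Set.univ : Set (ℤ × ι)) ⊆
      {p | 0 ≤ p.1 ∨ p.1 ≤ m - N} ∪ {p | m - N + 1 ≤ p.1 ∧ p.1 ≤ -1} := by
    intro p _
    by_cases h1 : 0 ≤ p.1
    · exact Or.inl (Or.inl h1)
    by_cases h2 : p.1 ≤ m - N
    · exact Or.inl (Or.inr h2)
    · exact Or.inr ⟨by omega, by omega⟩
  have h3 := Submodule.span_mono (R := K) (Set.image_mono hsub) hw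
  rw [Set.image_union, Submodule.span_union] at h3
  exact sup_le_sup_right (h26r_le_sup βb βc N hcmp' m) _ h3

variable (hb : ∀ p, T (βb p) = βb (p.1 + 1, p.2)) (hc : ∀ p, T (βc p) = βc (p.1 + 1, p.2))

include T hb hc in
/-- `B ⊓ L_m` is finite-dimensional. -/
theorem h26r_finite_inf (m : ℤ) : Module.Finite K ↥(h26rB βb ⊓ h26rL βc m) := by
  obtain ⟨N, -, h1, -⟩ := h26r_compare T βb βc hb hc
  haveI := h26r_win_finite βb 0 (m + N)
  exact Submodule.finiteDimensional_of_le (h26r_inf_le βb βc N h1 m)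

include T hb hc in
/-- `W / (B ⊔ L_m)` is finite-dimensional. -/
theorem h26r_finite_quot (m : ℤ) : Module.Finite K (W ⧸ (h26rB βb ⊔ h26rL βc m)) := by
  obtain ⟨N, -, -, h2⟩ := h26r_compare T βb βc hb hc
  haveI := h26r_win_finite βb (m - N + 1) (-1)
  have htop := h26r_sup_win βb βc N h2 m
  let f : ↥(h26rWin βb (m - N + 1) (-1)) →ₗ[K] W ⧸ (h26rB βb ⊔ h26rL βc m) :=
    (h26rB βb ⊔ h26rL βc m).mkQ ∘ₗ (h26rWin βb (m - N + 1) (-1)).subtype
  have hf : Function.Surjective f := by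
    intro y
    obtain ⟨w, rfl⟩ := Submodule.Quotient.mk_surjective _ y
    have hw : w ∈ (h26rB βb ⊔ h26rL βc m) ⊔ h26rWin βb (m - N + 1) (-1) := by
      rw [htop]
      trivial
    obtain ⟨u, hu, v, hv, rfl⟩ := Submodule.mem_sup.mp hw
    refine ⟨⟨v, hv⟩, ?_⟩
    show Submodule.Quotient.mk v = Submodule.Quotient.mk (u + v)
    rw [Submodule.Quotient.eq]
    have : v - (u + v) = -u := by abel
    rw [this]
    exact Submodule.neg_mem _ hu
  exact Module.Finite.of_surjective f hf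

include T hb hc in
/-- `B ⊔ L_m = ⊤` for `m` large. -/
theorem h26r_sup_eq_top : ∃ N : ℤ, ∀ m : ℤ, N ≤ m → h26rB βb ⊔ h26rL βc m = ⊤ := by
  obtain ⟨N, -, -, h2⟩ := h26r_compare T βb βc hb hc
  refine ⟨N, fun m hm => ?_⟩
  have htop := h26r_sup_win βb βc N h2 m
  have hbot : h26rWin βb (m - N + 1) (-1) = ⊥ := by
    rw [h26rWin]
    have : {p : ℤ × ι | m - N + 1 ≤ p.1 ∧ p.1 ≤ -1} = ∅ := by
      ext p
      simp only [Set.mem_setOf_eq, Set.mem_empty_iff_false, iff_false, not_and, not_le]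
      intro h
      omega
    rw [this, Set.image_empty, Submodule.span_empty]
  rwa [hbot, sup_bot_eq] at htop

/-- the new layer `S_m = span {βc (m, k)}`. -/
def h26rS (βc : Module.Basis (ℤ × κ) K W) (m : ℤ) : Submodule K W :=
  span K (Set.range fun k : κ => βc (m, k))

theorem h26r_finrank_S (m : ℤ) : finrank K ↥(h26rS βc m) = Nat.card κ := by
  classical
  haveI := Fintype.ofFinite κ
  rw [Nat.card_eq_fintype_card, h26rS]
  apply finrank_span_eq_card
  exact βc.linearIndependent.comp (fun k : κ => ((m, k) : ℤ × κ))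
    (fun k k' h => (Prod.mk.injEq _ _ _ _ ▸ h : m = m ∧ k = k').2)

theorem h26r_S_finite (m : ℤ) : Module.Finite K ↥(h26rS βc m) := by
  rw [h26rS]
  exact FiniteDimensional.span_of_finite K (Set.finite_range _)

theorem h26r_S_eq (m : ℤ) : h26rS βc m = span K (βc '' {p | p.1 = m}) := by
  rw [h26rS]
  congr 1
  ext w
  constructor
  · rintro ⟨k, rfl⟩
    exact ⟨(m, k), rfl, rfl⟩
  · rintro ⟨p, hp, rfl⟩
    refine ⟨p.2, ?_⟩
    have : p = (m, p.2) := Prod.ext hp rfl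
    show βc (m, p.2) = βc p
    rw [← this]

theorem h26r_L_succ (m : ℤ) : h26rL βc (m + 1) = h26rS βc (m + 1) ⊔ h26rL βc m := by
  rw [h26r_S_eq, h26rL, h26rL, ← Submodule.span_union, ← Set.image_union]
  congr 2
  ext p
  simp only [Set.mem_setOf_eq, Set.mem_union]
  omega

theorem h26r_S_disjoint (m : ℤ) : h26rS βc (m + 1) ⊓ h26rL βc m = ⊥ := by
  rw [eq_bot_iff]
  intro w hw
  have h1 : w ∈ h26rS βc (m + 1) := hw.1
  have h2 : w ∈ h26rL βc m := hw.2
  rw [h26r_S_eq, Module.Basis.mem_span_image] at h1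
  rw [h26rL, Module.Basis.mem_span_image] at h2
  rw [Submodule.mem_bot]
  have h3 : βc.repr w = 0 := by
    ext p
    by_contra hne
    have hp : p ∈ (βc.repr w).support := Finsupp.mem_support_iff.mpr hne
    have e1 : p.1 = m + 1 := h1 hp
    have e2 : p.1 ≤ m := h2 hp
    omega
  exact (LinearEquiv.map_eq_zero_iff _).mp h3

include T hb hc in
/-- **the Euler characteristic**: `χ(m) = χ(0) + m · #κ`. -/
theorem h26r_chi (m : ℕ) :
    finrank K ↥(h26rB βb ⊓ h26rL βc (m : ℤ)) + finrank K (W ⧸ (h26rB βb ⊔ h26rL βc 0)) =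
      finrank K ↥(h26rB βb ⊓ h26rL βc 0) + finrank K (W ⧸ (h26rB βb ⊔ h26rL βc (m : ℤ))) +
        m * Nat.card κ := by
  induction m with
  | zero => simp
  | succ m ih =>
    have hL := h26r_L_succ βc (m : ℤ)
    have hdisj := h26r_S_disjoint βc (m : ℤ)
    haveI := h26r_S_finite βc ((m : ℤ) + 1)
    haveI := h26r_finite_quot T βb βc hb hc (m : ℤ)
    haveI : Module.Finite K ↥(h26rB βb ⊓ (h26rS βc ((m : ℤ) + 1) ⊔ h26rL βc (m : ℤ))) := by
      rw [← hL]
      exact h26r_finite_inf T βb βc hb hc _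
    have hstep := h26r_step (h26rB βb) (h26rL βc (m : ℤ)) (h26rS βc ((m : ℤ) + 1)) hdisj
    rw [← hL, h26r_finrank_S] at hstep
    have hcast : ((m + 1 : ℕ) : ℤ) = (m : ℤ) + 1 := by push_cast; rfl
    rw [hcast]
    have : (m + 1) * Nat.card κ = m * Nat.card κ + Nat.card κ := by ring
    omega

include T hb hc in
/-- **Riemann's theorem for the multiples of the polar divisor**: with
`g = dim W / (B ⊔ L_0)`, `dim (B ⊓ L_m) + g ≥ m · #κ + dim (B ⊓ L_0)`, with equality for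
`m ≥ N`. -/
theorem h26r_riemann :
    (∀ m : ℕ, (m * Nat.card κ + finrank K ↥(h26rB βb ⊓ h26rL βc 0) ≤
      finrank K ↥(h26rB βb ⊓ h26rL βc (m : ℤ)) + finrank K (W ⧸ (h26rB βb ⊔ h26rL βc 0)))) ∧
    ∃ N : ℕ, ∀ m : ℕ, N ≤ m →
      finrank K ↥(h26rB βb ⊓ h26rL βc (m : ℤ)) + finrank K (W ⧸ (h26rB βb ⊔ h26rL βc 0)) =
        m * Nat.card κ + finrank K ↥(h26rB βb ⊓ h26rL βc 0) := by
  constructor
  · intro m
    have := h26r_chi T βb βc hb hc m
    omega
  · obtain ⟨N, hN⟩ := h26r_sup_eq_top T βb βc hb hc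
    refine ⟨N.toNat, fun m hm => ?_⟩
    have h1 := h26r_chi T βb βc hb hc m
    have h2 : h26rB βb ⊔ h26rL βc (m : ℤ) = ⊤ := hN m (by omega)
    have h3 : finrank K (W ⧸ (h26rB βb ⊔ h26rL βc (m : ℤ))) = 0 := by
      rw [h2]
      exact finrank_zero_of_subsingleton
    omega

end Main

end Lattice

end Fermat.Agent.P5
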