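import Fermat.Agent.P5.H26GenusWire

/-!
# Wave 5, pillar (P), block GEO-GENUS (helper26): semicontinuity from `H13sSemi`

`h26s_semiLe_of_semi : H13sBase → H13sSemi → H26sSemiLe` : the orthonormal basis of `L(E)` given
by `H13sSemi` has `k`-linearly independent reductions, which lie in `L~(r_* E)`; hence
`ℓ(E) ≤ ℓ~(r_* E)`.

`h26s_genus_of_semi : H13sBase → H13sRedDiv → H26sZerosSF → H13sSemi → H26sDictG → H26sDictS →
H13sGenus`.
-/

set_option autoImplicit false
set_option linter.style.haveILetI false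

open AlgebraicCurve ModularCurve

noncomputable section

namespace Fermat.Agent.P5

open Fermat.Agent.S37 Fermat.Agent.Red.GV

/-- the inclusion of the special fibre field into `k((q))` on scalar multiples. -/
theorem h26s_incl_smul (A : ValuationSubring Kbar) (M : ℕ) (c : h13sK A) (x : h13sFt A M) :
    h13sIncl A M (c • x) = HahnSeries.C c * h13sIncl A M x := by
  have e : c • x = algebraMap (h13sK A) (h13sFt A M) c * x := Algebra.smul_def c x
  have e2 : algebraMap (h13sK A) (LaurentSeries (h13sK A)) c = HahnSeries.C c := by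
    rw [algebraMap_laurentSeries_eq_single]
    rfl
  rw [e, map_mul, AlgHom.commutes, e2]

/-- **orthonormal families have independent reductions.** -/
theorem h26s_red_indep {ℓ : ℕ} (hℓ : ℓ.Prime) (M : ℕ) [NeZero M] (hM : ¬ ℓ ∣ M)
    (A : ValuationSubring Kbar) (hA : A.LiesOverPrime ℓ) {m : ℕ} (b : Fin m → FF M)
    (hbV : ∀ i, b i ∈ gaussV A M)
    (hbA : ∀ c : Fin m → Kbar, (∑ i, cst M (c i) * b i) ∈ gaussV A M → ∀ i, c i ∈ A) :
    LinearIndependent (h13sK A) (fun i => h13sRed A M ⟨b i, hbV i⟩) := by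
  classical
  rw [Fintype.linearIndependent_iff]
  intro κ hκ j
  by_contra hj
  -- lifts of the coefficients
  have hsurj : Function.Surjective (IsLocalRing.residue A) := Ideal.Quotient.mk_surjective
  choose a ha using fun i => hsurj (κ i)
  have hcV : ∀ i, cst M ((a i : A) : Kbar) ∈ gaussV A M := fun i =>
    (cst_mem_gaussV_iff A M hA _).2 (a i).2
  set xV : gaussV A M := ∑ i, (⟨cst M ((a i : A) : Kbar), hcV i⟩ : gaussV A M) * ⟨b i, hbV i⟩
    with hxV
  have hxcoe : ((xV : gaussV A M) : FF M) = ∑ i, cst M ((a i : A) : Kbar) * b i := by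
    rw [hxV]
    rw [← Subring.coe_subtype, map_sum]
    rfl
  -- the reduction of `xV` vanishes
  have hred : gaussR A M xV = 0 := by
    have h1 := congrArg (h13sIncl A M) hκ
    rw [map_sum, map_zero] at h1
    rw [hxV, map_sum]
    refine (Finset.sum_congr rfl fun i _ => ?_).trans h1
    rw [map_mul, h26s_incl_smul, h13sIncl_red, h58g_gaussR_cst M A (a i).2 (hcV i)]
    congr 2
    exact ha i
  -- `a j` is a unit of `A`
  have hvj : A.valuation ((a j : A) : Kbar) = 1 := by
    rw [← ValuationSubring.valuation_eq_one_iff]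
    by_contra hnu
    apply hj
    rw [← ha j]
    exact (IsLocalRing.residue_eq_zero_iff _).2 ((IsLocalRing.mem_maximalIdeal _).2 hnu)
  -- a scalar `c ∉ A` with `cst c * x` Gauss-integral
  have hex : ∃ c : Kbar, ¬ c ∈ A ∧ cst M c * ((xV : gaussV A M) : FF M) ∈ gaussV A M := by
    rcases (gaussR_eq_zero_iff A M hℓ hM hA xV).1 hred with h0 | hinv
    · refine ⟨(ℓ : Kbar)⁻¹, fun hmem => ?_, by rw [h0, mul_zero]; exact Subring.zero_mem _⟩
      have h1 : A.valuation (ℓ : Kbar) < 1 := (ValuationSubring.mem_nonunits_iff A).1 hA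
      have h2 : A.valuation (ℓ : Kbar)⁻¹ ≤ 1 := (A.valuation_le_one_iff _).2 hmem
      have hℓ0 : (ℓ : Kbar) ≠ 0 := by exact_mod_cast hℓ.ne_zero
      have h3 : A.valuation ((ℓ : Kbar) * (ℓ : Kbar)⁻¹) = 1 := by
        rw [mul_inv_cancel₀ hℓ0, map_one]
      rw [map_mul] at h3
      have h4 : A.valuation (ℓ : Kbar) * A.valuation (ℓ : Kbar)⁻¹ < 1 :=
        mul_lt_one_of_lt_of_le h1 h2
      exact absurd h3 (ne_of_lt h4)
    · have hx0 : ((xV : gaussV A M) : FF M) ≠ 0 := by
        intro h0
        apply hinv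
        rw [h0, inv_zero]
        exact Subring.zero_mem _
      obtain ⟨c, hc0, hcx, hcxi⟩ := exists_cst_mul_unit A M hℓ hM hA _ hx0
      refine ⟨c, fun hcA => hinv ?_, hcx⟩
      have e : ((xV : gaussV A M) : FF M)⁻¹ =
          cst M c * (cst M c * ((xV : gaussV A M) : FF M))⁻¹ := by
        have hc' : cst M c ≠ 0 := by
          intro h
          apply hc0
          exact (map_eq_zero _).1 h
        field_simp
      rw [e]
      exact Subring.mul_mem _ ((cst_mem_gaussV_iff A M hA c).2 hcA) hcxi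
  obtain ⟨c, hcA, hcx⟩ := hex
  have h5 : (∑ i, cst M (c * ((a i : A) : Kbar)) * b i) ∈ gaussV A M := by
    have : (∑ i, cst M (c * ((a i : A) : Kbar)) * b i) =
        cst M c * ((xV : gaussV A M) : FF M) := by
      rw [hxcoe, Finset.mul_sum]
      refine Finset.sum_congr rfl fun i _ => ?_
      rw [show cst M (c * ((a i : A) : Kbar)) = cst M c * cst M ((a i : A) : Kbar) from
        map_mul _ _ _, mul_assoc]
    rw [this]
    exact hcx
  have h6 := hbA _ h5 j
  have h7 : A.valuation (c * ((a j : A) : Kbar)) ≤ 1 := (A.valuation_le_one_iff _).2 h6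
  rw [map_mul, hvj, mul_one] at h7
  exact hcA ((A.valuation_le_one_iff _).1 h7)

/-- **SEMI-LE from `H13sSemi`.** -/
theorem h26s_semiLe_of_semi (hB : H13sBase) (hS : H13sSemi) : H26sSemiLe := by
  classical
  intro ℓ hℓ M _ hM haux A hA r hr E
  have hBs : H13rBase (h13sK A) (h13sFt A M) := hB ℓ hℓ M hM haux A hA
  obtain ⟨b, -, hbV, hbR, hbA, -, -⟩ := hS ℓ hℓ M hM haux A hA r hr E
  haveI fin1 : Module.Finite (h13sK A) ↥(riemannRochSpace (h13sPush r E)) :=
    h68r_finite hBs _
  have hli := h26s_red_indep hℓ M hM A hA b hbV hbA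
  have hli' : LinearIndependent (h13sK A)
      (fun i => (⟨h13sRed A M ⟨b i, hbV i⟩, hbR i (hbV i)⟩ :
        ↥(riemannRochSpace (h13sPush r E)))) := by
    apply LinearIndependent.of_comp (Submodule.subtype _)
    exact hli
  have h5 := hli'.fintype_card_le_finrank
  rw [Fintype.card_fin] at h5
  exact h5

/-- **`H13sGenus` from `H13sSemi` and the dictionaries.** -/
theorem h26s_genus_of_semi (hB : H13sBase) (hRD : H13sRedDiv) (hZ : H26sZerosSF)
    (hS : H13sSemi) (hDG : H26sDictG) (hDS : H26sDictS) : H13sGenus :=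
  h26s_genus_of hB hRD hZ (h26s_semiLe_of_semi hB hS) hDG hDS

end Fermat.Agent.P5
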