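import Fermat.Agent.P5.H71Rep
import Fermat.Agent.P5.H37DiscInert
import Fermat.Agent.Red.GV.BarGalois

/-!
# Wave 5, pillar (P), block GEO-SEED: finiteness of places after reduction, choice of the
centres (helper82)

Frozen vocabulary only (`P5/H13RRIface.lean`, `P5/H13SFIface.lean`, `P5/H37DiscIface.lean`):
`r` a reduction map of places (`H13sIsRed A M r`), `j~ = h13sRed j` the reduction of `j`.

* `h82s_ord_nonneg_of_fin`   : `v` finite ⟹ `j~` is regular at `r v`;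
* `h82s_ord_inv_pos_of_not_fin` : `v` not finite ⟹ `1/j~` vanishes at `r v`
  (`f = 1/j - b`, `b = (1/j)(v) ∈ 𝔪_A`, is a Gauss unit with the reduction of `1/j`, it vanishes
  at `v` and is regular on the whole residue disc of `v`);
* `h82s_fin_iff` : **FIN-RED**: `IsFinAt A v ↔ 0 ≤ ord_{r v} j~`;
* `h82s_poles_finite` : the places of the special fibre with `ord j~ < 0` form a finite set;
* `h82s_chart` : **SEED-CENTRES**: from `H13rMoving` on the special fibre and `H37DiscExists`, a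
  chart `c : H96Chart M g` whose centres carry a disc calculus, have pairwise distinct
  reductions outside a given finite set, and whose reduced divisor is non-special;
* `h82s_two_charts` : two such charts with disjoint reductions.
-/

set_option autoImplicit false
set_option linter.unusedSectionVars false

open AlgebraicCurve ModularCurve

noncomputable section

namespace Fermat.Agent.P5

open Fermat.Agent.S37 Fermat.Agent.Red.GV Fermat.Agent.Red.Match

variable {ℓ : ℕ} {M : ℕ} [NeZero M] {A : ValuationSubring Kbar}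
  {r : Place Kbar (FF M) → Place (h13sK A) (h13sFt A M)}

/-- `j ≠ 0`. -/
theorem h82s_jB_ne_zero (hℓ : ℓ.Prime) (hM : ¬ ℓ ∣ M) (hA : A.LiesOverPrime ℓ) :
    jB M ≠ 0 := by
  intro h0
  have h1 := jB_inv_mem_gaussV A M hℓ hM hA
  have h2 : gaussR A M ⟨jB M, jB_mem_gaussV A M⟩ = 0 := by
    have : (⟨jB M, jB_mem_gaussV A M⟩ : gaussV A M) = 0 := Subtype.ext h0
    rw [this, map_zero]
  rcases (gaussR_eq_zero_iff A M hℓ hM hA _).mp h2 with h3 | h3
  · -- `j = 0` would make `gaussR j = 0`, but `gaussR j = jqModC ≠ 0`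
    have h4 := gaussR_jB A M
    rw [h2] at h4
    exact (jqModC_ne_zero_of_nontrivial _) h4.symm
  · exact h3 h1

/-- the reduction of `j`. -/
def h82sJ (A : ValuationSubring Kbar) (M : ℕ) [NeZero M] : h13sFt A M :=
  h13sRed A M ⟨jB M, jB_mem_gaussV A M⟩

theorem h82s_red_mul (x y : gaussV A M) :
    h13sRed A M (x * y) = h13sRed A M x * h13sRed A M y := by
  apply Subtype.ext
  show h13sR A M (x * y) = h13sR A M x * h13sR A M y
  exact map_mul _ _ _

theorem h82s_red_one : h13sRed A M (1 : gaussV A M) = 1 := by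
  apply Subtype.ext
  show h13sR A M 1 = 1
  exact map_one _

theorem h82s_red_sub (x y : gaussV A M) :
    h13sRed A M (x - y) = h13sRed A M x - h13sRed A M y := by
  apply Subtype.ext
  show h13sR A M (x - y) = h13sR A M x - h13sR A M y
  exact map_sub _ _ _

/-- the reduction of `1/j` is the inverse of the reduction of `j`. -/
theorem h82s_red_inv (hℓ : ℓ.Prime) (hM : ¬ ℓ ∣ M) (hA : A.LiesOverPrime ℓ) :
    h13sRed A M ⟨(jB M)⁻¹, jB_inv_mem_gaussV A M hℓ hM hA⟩ = (h82sJ A M)⁻¹ := by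
  have h1 : (⟨(jB M)⁻¹, jB_inv_mem_gaussV A M hℓ hM hA⟩ : gaussV A M) *
      ⟨jB M, jB_mem_gaussV A M⟩ = 1 :=
    Subtype.ext (inv_mul_cancel₀ (h82s_jB_ne_zero hℓ hM hA))
  have h2 := congrArg (h13sRed A M) h1
  rw [h82s_red_mul, h82s_red_one] at h2
  exact eq_inv_of_mul_eq_one_left h2

theorem h82s_J_ne_zero (hℓ : ℓ.Prime) (hM : ¬ ℓ ∣ M) (hA : A.LiesOverPrime ℓ) :
    h82sJ A M ≠ 0 := by
  intro h0
  have h1 : (⟨(jB M)⁻¹, jB_inv_mem_gaussV A M hℓ hM hA⟩ : gaussV A M) *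
      ⟨jB M, jB_mem_gaussV A M⟩ = 1 :=
    Subtype.ext (inv_mul_cancel₀ (h82s_jB_ne_zero hℓ hM hA))
  have h2 := congrArg (h13sRed A M) h1
  rw [h82s_red_mul, h82s_red_one] at h2
  unfold h82sJ at h0
  rw [h0, mul_zero] at h2
  exact zero_ne_one h2

/-- a function with a value at `P` is regular at `P`. -/
theorem h82s_mem_of_valueAt {P : Place Kbar (FF M)} {f : FF M} {a : Kbar}
    (h : ValueAt P f a) : f ∈ P.toValuationSubring := by
  have h1 : f - cst M a ∈ P.toValuationSubring :=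
    (ValuationSubring.mem_nonunits_iff_exists_mem_maximalIdeal.1 h).1
  have h2 : cst M a ∈ P.toValuationSubring := P.algebraMap_mem' a
  have := P.toValuationSubring.add_mem _ _ h1 h2
  rwa [sub_add_cancel] at this

/-- **FIN-RED, first half**: at the reduction of a finite place `j~` is regular. -/
theorem h82s_ord_nonneg_of_fin (hℓ : ℓ.Prime) (hM : ¬ ℓ ∣ M) (hA : A.LiesOverPrime ℓ)
    (hr : H13sIsRed A M r) (hB : H13rBase Kbar (FF M)) {v : Place Kbar (FF M)}
    (hv : IsFinAt A v) : 0 ≤ (r v).ord (h82sJ A M) := by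
  classical
  obtain ⟨D, hD, -⟩ := hB.pd (jB M) (h82s_jB_ne_zero hℓ hM hA)
  have h := hr.2.2 (jB M) (jB_mem_gaussV A M) (jB_inv_mem_gaussV A M hℓ hM hA) D hD (r v)
  unfold h82sJ
  rw [← h]
  show 0 ≤ Finsupp.mapDomain r D (r v)
  rw [h71r_push_apply]
  refine Finset.sum_nonneg fun w _ => ?_
  split_ifs with hw
  · have hs : SameRed A w v := (hr.2.1 w v).mp hw
    obtain ⟨a, -, ha⟩ := (sameRed_isFinAt_iff hs).mpr hv
    rw [hD w]
    exact (Fermat.Agent.S24.DiffPlace.ord_nonneg_iff_mem w).mpr (h82s_mem_of_valueAt ha)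
  · exact le_rfl

/-- **FIN-RED, second half**: at the reduction of a non-finite place `1/j~` vanishes. -/
theorem h82s_ord_inv_pos_of_not_fin (hℓ : ℓ.Prime) (hM : ¬ ℓ ∣ M) (hA : A.LiesOverPrime ℓ)
    (hr : H13sIsRed A M r) (hB : H13rBase Kbar (FF M)) {v : Place Kbar (FF M)}
    (hv : ¬ IsFinAt A v) :
    0 < (r v).ord (h13sRed A M ⟨(jB M)⁻¹, jB_inv_mem_gaussV A M hℓ hM hA⟩) := by
  classical
  obtain ⟨b, hb, hvb⟩ := exists_valueAt_inv_of_not_isFinAt hv
  have hbA : b ∈ A := (ValuationSubring.mem_nonunits_iff_exists_mem_maximalIdeal.1 hb).1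
  have hcV : cst M b ∈ gaussV A M := (cst_mem_gaussV_iff A M hA b).mpr hbA
  have hjV := jB_inv_mem_gaussV A M hℓ hM hA
  have hfV : (jB M)⁻¹ - cst M b ∈ gaussV A M := (gaussV A M).sub_mem hjV hcV
  have hsub : (⟨(jB M)⁻¹ - cst M b, hfV⟩ : gaussV A M) =
      ⟨(jB M)⁻¹, hjV⟩ - ⟨cst M b, hcV⟩ := rfl
  have hred : gaussR A M ⟨(jB M)⁻¹ - cst M b, hfV⟩ = gaussR A M ⟨(jB M)⁻¹, hjV⟩ := by
    rw [hsub, map_sub, gaussR_cst_of_nonunit A M hA b hb hcV, sub_zero]
  have hjne : gaussR A M ⟨(jB M)⁻¹, hjV⟩ ≠ 0 := by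
    intro h0
    rcases (gaussR_eq_zero_iff A M hℓ hM hA _).mp h0 with h1 | h1
    · exact inv_ne_zero (h82s_jB_ne_zero hℓ hM hA) h1
    · apply h1
      show ((jB M)⁻¹)⁻¹ ∈ gaussV A M
      rw [inv_inv]
      exact jB_mem_gaussV A M
  have hf0 : (jB M)⁻¹ - cst M b ≠ 0 := by
    intro h0
    apply hjne
    rw [← hred]
    have : (⟨(jB M)⁻¹ - cst M b, hfV⟩ : gaussV A M) = 0 := Subtype.ext h0
    rw [this, map_zero]
  have hfinv : ((jB M)⁻¹ - cst M b)⁻¹ ∈ gaussV A M := by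
    by_contra h
    exact hjne (hred ▸ (gaussR_eq_zero_iff A M hℓ hM hA ⟨_, hfV⟩).mpr (Or.inr h))
  obtain ⟨D, hD, -⟩ := hB.pd _ hf0
  have h := hr.2.2 _ hfV hfinv D hD (r v)
  have hredF : h13sRed A M ⟨(jB M)⁻¹ - cst M b, hfV⟩ = h13sRed A M ⟨(jB M)⁻¹, hjV⟩ :=
    Subtype.ext hred
  rw [← hredF, ← h]
  show 0 < Finsupp.mapDomain r D (r v)
  have h1 : D v ≤ Finsupp.mapDomain r D (r v) := by
    refine h71r_push_ge r D (r v) (fun w hw => ?_) v rfl
    have hs : SameRed A w v := (hr.2.1 w v).mp hw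
    have hwn : ¬ IsFinAt A w := fun h => hv ((sameRed_isFinAt_iff hs).mp h)
    obtain ⟨b', -, hwb'⟩ := exists_valueAt_inv_of_not_isFinAt hwn
    rw [hD w]
    refine (Fermat.Agent.S24.DiffPlace.ord_nonneg_iff_mem w).mpr ?_
    exact w.toValuationSubring.sub_mem (h82s_mem_of_valueAt hwb') (w.algebraMap_mem' b)
  have h2 : 0 < D v := by
    rw [hD v]
    exact h71r_ord_pos_of_mem_nonunits v hf0 hvb
  exact lt_of_lt_of_le h2 h1

/-- **FIN-RED**: a place is finite iff `j~` is regular at its reduction. -/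
theorem h82s_fin_iff (hℓ : ℓ.Prime) (hM : ¬ ℓ ∣ M) (hA : A.LiesOverPrime ℓ)
    (hr : H13sIsRed A M r) (hB : H13rBase Kbar (FF M)) (v : Place Kbar (FF M)) :
    IsFinAt A v ↔ 0 ≤ (r v).ord (h82sJ A M) := by
  refine ⟨h82s_ord_nonneg_of_fin hℓ hM hA hr hB, fun h => ?_⟩
  by_contra hv
  have h1 := h82s_ord_inv_pos_of_not_fin hℓ hM hA hr hB hv
  rw [h82s_red_inv hℓ hM hA, Place.ord_inv] at h1
  omega

/-! ### The choice of the centres -/

/-- the places of the special fibre where `j~` has a pole form a finite set. -/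
theorem h82s_poles_finite (hℓ : ℓ.Prime) (hM : ¬ ℓ ∣ M) (hA : A.LiesOverPrime ℓ)
    (hBs : H13rBase (h13sK A) (h13sFt A M)) :
    ∃ S : Finset (Place (h13sK A) (h13sFt A M)),
      ∀ Q : Place (h13sK A) (h13sFt A M), Q.ord (h82sJ A M) < 0 → Q ∈ S := by
  obtain ⟨D, hD, -⟩ := hBs.pd (h82sJ A M) (h82s_J_ne_zero hℓ hM hA)
  refine ⟨D.support, fun Q hQ => ?_⟩
  rw [Finsupp.mem_support_iff, hD Q]
  omega

/-- **SEED-CENTRES**: a chart whose centres carry a disc calculus, have pairwise distinct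
reductions outside a given finite set `S` of places of the special fibre, and whose reduced
divisor is non-special. -/
theorem h82s_chart (hℓ : ℓ.Prime) (hM : ¬ ℓ ∣ M) (haux : auxLevel ℓ ∣ M)
    (hA : A.LiesOverPrime ℓ) (hr : H13sIsRed A M r) (hB : H13rBase Kbar (FF M))
    (hBs : H13rBase (h13sK A) (h13sFt A M)) {g : ℕ}
    (hgs : H13rIsGenus (h13sK A) (h13sFt A M) g) (hdisc : H37DiscExists)
    (S : Finset (Place (h13sK A) (h13sFt A M))) :
    ∃ c : H96Chart M g, (∀ i, H37DiscAt A (c.Q i) (c.t i) (c.O i)) ∧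
      (Function.Injective fun i => r (c.Q i)) ∧ (∀ i, r (c.Q i) ∉ S) ∧
      h13rL (h13sK A) (h13sFt A M) (∑ i, Finsupp.single (r (c.Q i)) (1 : ℤ)) = 1 := by
  classical
  obtain ⟨S0, hS0⟩ := h82s_poles_finite hℓ hM hA hBs
  obtain ⟨Q0, hinj, hout, hns⟩ := h71r_centres hr.1 hBs hgs (S ∪ S0)
  have hfin : ∀ i, IsFinAt A (Q0 i) := by
    intro i
    rw [h82s_fin_iff hℓ hM hA hr hB]
    by_contra h
    exact hout i (Finset.mem_union_right _ (hS0 _ (not_le.mp h)))
  have hex : ∀ i, ∃ (Q : Place Kbar (FF M)) (t : FF M) (O : Subring (FF M)),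
      SameRed A (Q0 i) Q ∧ H37DiscAt A Q t O :=
    fun i => hdisc ℓ hℓ M hM haux A hA (Q0 i) (hfin i)
  choose Q t O hQ hd using hex
  have hrQ : ∀ i, r (Q i) = r (Q0 i) := fun i => ((hr.2.1 _ _).mpr (hQ i)).symm
  refine ⟨⟨Q, t, O⟩, hd, ?_, ?_, ?_⟩
  · intro i j hij
    apply hinj
    show r (Q0 i) = r (Q0 j)
    rw [← hrQ i, ← hrQ j]
    exact hij
  · intro i hi
    apply hout i
    rw [← hrQ i]
    exact Finset.mem_union_left _ hi
  · have : (fun i => Finsupp.single (r (Q i)) (1 : ℤ)) =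
        fun i => Finsupp.single (r (Q0 i)) (1 : ℤ) := funext fun i => by rw [hrQ i]
    show h13rL (h13sK A) (h13sFt A M) (∑ i, Finsupp.single (r (Q i)) (1 : ℤ)) = 1
    rw [show (∑ i, Finsupp.single (r (Q i)) (1 : ℤ)) =
      ∑ i, Finsupp.single (r (Q0 i)) (1 : ℤ) from Finset.sum_congr rfl fun i _ => by rw [hrQ i]]
    exact hns

/-- **a VALID chart** with centres outside a given finite set of places of the special fibre. -/
theorem h82s_valid_chart (hℓ : ℓ.Prime) (hM : ¬ ℓ ∣ M) (haux : auxLevel ℓ ∣ M)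
    (hA : A.LiesOverPrime ℓ) (hr : H13sIsRed A M r) (hB : H13rBase Kbar (FF M))
    (hBs : H13rBase (h13sK A) (h13sFt A M)) {g : ℕ} (hg : H13rIsGenus Kbar (FF M) g)
    (hgs : H13rIsGenus (h13sK A) (h13sFt A M) g) (hdisc : H37DiscExists)
    (S : Finset (Place (h13sK A) (h13sFt A M))) :
    ∃ c : H96Chart M g, c.Valid A ∧ (∀ i, H37DiscAt A (c.Q i) (c.t i) (c.O i)) ∧
      (Function.Injective fun i => r (c.Q i)) ∧ (∀ i, r (c.Q i) ∉ S) ∧
      h13rL (h13sK A) (h13sFt A M) (∑ i, Finsupp.single (r (c.Q i)) (1 : ℤ)) = 1 := by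
  obtain ⟨c, hd, hinj, hout, hns⟩ := h82s_chart hℓ hM haux hA hr hB hBs hgs hdisc S
  refine ⟨c, ?_, hd, hinj, hout, hns⟩
  exact h37j_valid_of_disc A c hd
    (h71r_rep hℓ hM hA hr hB (h78q_large hB g hg).2 c.Q hinj hns)
    (h71r_rep_unique hℓ hM hA hr hB hBs c.Q hinj hns)

/-- **the two seed charts**: two valid charts whose centres have pairwise distinct reductions
(also between the two charts), with non-special reduced divisors. -/
theorem h82s_two_charts (hℓ : ℓ.Prime) (hM : ¬ ℓ ∣ M) (haux : auxLevel ℓ ∣ M)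
    (hA : A.LiesOverPrime ℓ) (hr : H13sIsRed A M r) (hB : H13rBase Kbar (FF M))
    (hBs : H13rBase (h13sK A) (h13sFt A M)) {g : ℕ} (hg : H13rIsGenus Kbar (FF M) g)
    (hgs : H13rIsGenus (h13sK A) (h13sFt A M) g) (hdisc : H37DiscExists)
    (S : Finset (Place (h13sK A) (h13sFt A M))) :
    ∃ c c' : H96Chart M g, c.Valid A ∧ c'.Valid A ∧
      (∀ i, H37DiscAt A (c.Q i) (c.t i) (c.O i)) ∧
      (∀ i, H37DiscAt A (c'.Q i) (c'.t i) (c'.O i)) ∧
      (Function.Injective fun i => r (c.Q i)) ∧ (Function.Injective fun i => r (c'.Q i)) ∧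
      (∀ i j, r (c.Q i) ≠ r (c'.Q j)) ∧ (∀ i j, ¬ SameRed A (c.Q i) (c'.Q j)) ∧
      (∀ i, r (c.Q i) ∉ S) ∧ (∀ i, r (c'.Q i) ∉ S) ∧
      h13rL (h13sK A) (h13sFt A M) (∑ i, Finsupp.single (r (c.Q i)) (1 : ℤ)) = 1 ∧
      h13rL (h13sK A) (h13sFt A M) (∑ i, Finsupp.single (r (c'.Q i)) (1 : ℤ)) = 1 := by
  classical
  obtain ⟨c, hv, hd, hinj, hout, hns⟩ :=
    h82s_valid_chart hℓ hM haux hA hr hB hBs hg hgs hdisc S
  obtain ⟨c', hv', hd', hinj', hout', hns'⟩ :=
    h82s_valid_chart hℓ hM haux hA hr hB hBs hg hgs hdisc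
      (S ∪ Finset.univ.image fun i => r (c.Q i))
  have hne : ∀ i j, r (c.Q i) ≠ r (c'.Q j) := by
    intro i j h
    apply hout' j
    rw [← h]
    exact Finset.mem_union_right _ (Finset.mem_image_of_mem _ (Finset.mem_univ i))
  refine ⟨c, c', hv, hv', hd, hd', hinj, hinj', hne, ?_, hout, ?_, hns, hns'⟩
  · intro i j h
    exact hne i j ((hr.2.1 _ _).mpr h)
  · intro i hi
    exact hout' i (Finset.mem_union_left _ hi)

end Fermat.Agent.P5
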