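import Fermat.Agent.P5.H85SFDict
import Fermat.Agent.P5.H40SFData

/-!
# Wave 5, pillar (P), block GEO-GENUS: DICT-S, the dictionary on the special fibre (helper85)

`M` a good level (`ℓ ∤ M`, `auxLevel ℓ ∣ M`), `A` a valuation subring of `ℚ̄` over `ℓ`,
`k = h13sK A`, `F~ = h13sFt A M`, `j~ = h40fJ A M` the reduction of `j`, `D~_∞` the divisor of
poles of `j~` (any divisor with the right values).  UNCONDITIONAL.

* `h85f_dictS_data` : abstract form, from the chart package `H40fData` of helper40.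
* `h85f_dictS_B`    : `y ∈ L(E) ↔ y ∈ B~ ∧ ∃ b ∈ B~_∞, y = j~ ^ n * b` for `E = n D~_∞`.
* `h85f_dictS`      : **DICT-S** in the shape of `h58g_lift`:
  `y ∈ L(n • D~_∞) ↔ ∃ b b' : gaussV, b ∈ modelFin ∧ b' ∈ modelInf ∧ red b = y ∧
     y = (red j) ^ n * red b'`.
* `h85f_dictS_incl` : the same inside `k((q))` (values of `gaussR`).
-/

set_option autoImplicit false
set_option linter.unusedSectionVars false
set_option linter.style.haveILetI false

open AlgebraicCurve ModularCurve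

noncomputable section

namespace Fermat.Agent.P5

open Fermat.Agent.S37 Fermat.Agent.Red.GV Fermat.Agent.Red

/-- **DICT for a chart package** (abstract, any function field with two Dedekind charts). -/
theorem h85f_dictS_data {k F : Type*} [Field k] [Field F] [Algebra k F] {x : F}
    {B Binf : Subalgebra k F} (h : H40fData k F x B Binf) (n : ℕ) (E : Divisor k F)
    (hE : ∀ v : Place k F, E v = (n : ℤ) * max 0 (-(v.ord x))) (f : F) :
    f ∈ riemannRochSpace E ↔ f ∈ B ∧ ∃ b ∈ Binf, f = x ^ n * b := by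
  haveI := h.ded
  haveI := h.dedInf
  exact h85f_dict_subalgebra_fin h.x_ne B Binf h.x_mem h.xinv_mem h.frac h.fracInf h.fin
    h.finInf n E hE f

/-- the holomorphy ring of the finite chart of a chart package. -/
theorem h85f_holo_data {k F : Type*} [Field k] [Field F] [Algebra k F] {x : F}
    {B Binf : Subalgebra k F} (h : H40fData k F x B Binf) :
    H85fHolo k F x (B : Set F) := by
  haveI := h.ded
  exact h85f_holo_subalgebra B h.x_mem h.frac (h85f_isIntegral_of_fin B h.x_mem h.fin)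

/-- the holomorphy ring of the chart at infinity of a chart package. -/
theorem h85f_holo_data_inf {k F : Type*} [Field k] [Field F] [Algebra k F] {x : F}
    {B Binf : Subalgebra k F} (h : H40fData k F x B Binf) :
    H85fHolo k F x⁻¹ (Binf : Set F) := by
  haveI := h.dedInf
  exact h85f_holo_subalgebra Binf h.xinv_mem h.fracInf
    (h85f_isIntegral_of_fin Binf h.xinv_mem h.finInf)

variable (A : ValuationSubring Kbar) (M : ℕ) [NeZero M] {ℓ : ℕ}

/-- **DICT-S**, chart form. -/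
theorem h85f_dictS_B (hℓ : ℓ.Prime) (hM : ¬ ℓ ∣ M) (haux : auxLevel ℓ ∣ M)
    (hA : A.LiesOverPrime ℓ) (n : ℕ) (E : Divisor (h13sK A) (h13sFt A M))
    (hE : ∀ v : Place (h13sK A) (h13sFt A M),
      E v = (n : ℤ) * max 0 (-(v.ord (h40fJ A M)))) (y : h13sFt A M) :
    y ∈ riemannRochSpace E ↔
      y ∈ h40fBfin A M hℓ hM hA ∧ ∃ b ∈ h40fBinf A M hℓ hM hA, y = h40fJ A M ^ n * b :=
  h85f_dictS_data (h40f_data A M hℓ hM haux hA) n E hE y

/-- **DICT-S**: the elements of `L(n • D~_∞)` are the reductions `red b`, `b ∈ modelFin`, which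
are `(red j) ^ n * red b'` with `b' ∈ modelInf` (the hypothesis shape of `h58g_lift`). -/
theorem h85f_dictS (hℓ : ℓ.Prime) (hM : ¬ ℓ ∣ M) (haux : auxLevel ℓ ∣ M)
    (hA : A.LiesOverPrime ℓ) (D : Divisor (h13sK A) (h13sFt A M))
    (hD : ∀ v : Place (h13sK A) (h13sFt A M), D v = max (-(v.ord (h40fJ A M))) 0)
    (n : ℕ) (y : h13sFt A M) :
    y ∈ riemannRochSpace (n • D) ↔
      ∃ b b' : gaussV A M, (b : FF M) ∈ modelFin M A ∧ (b' : FF M) ∈ modelInf M A ∧
        h13sRed A M b = y ∧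
        y = h13sRed A M ⟨jB M, jB_mem_gaussV A M⟩ ^ n * h13sRed A M b' := by
  have hE : ∀ v : Place (h13sK A) (h13sFt A M),
      (n • D) v = (n : ℤ) * max 0 (-(v.ord (h40fJ A M))) := by
    intro v
    rw [Finsupp.smul_apply, hD v, max_comm, nsmul_eq_mul]
  rw [h85f_dictS_B A M hℓ hM haux hA n (n • D) hE y]
  constructor
  · rintro ⟨⟨b, hb⟩, c, ⟨b', hb'⟩, hy⟩
    refine ⟨⟨(b : FF M), h40f_hVfin A M hℓ hM hA b.2⟩,
      ⟨(b' : FF M), h40f_hVinf A M hℓ hM hA b'.2⟩, b.2, b'.2, hb, ?_⟩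
    rw [hy, ← hb']
    rfl
  · rintro ⟨b, b', hb, hb', hby, hy⟩
    refine ⟨⟨⟨(b : FF M), hb⟩, hby⟩, h13sRed A M b', ⟨⟨(b' : FF M), hb'⟩, rfl⟩, hy⟩

/-- **DICT-S** inside `k((q))`: the shape of the hypothesis of `h58g_lift_family`. -/
theorem h85f_dictS_incl (hℓ : ℓ.Prime) (hM : ¬ ℓ ∣ M) (haux : auxLevel ℓ ∣ M)
    (hA : A.LiesOverPrime ℓ) (D : Divisor (h13sK A) (h13sFt A M))
    (hD : ∀ v : Place (h13sK A) (h13sFt A M), D v = max (-(v.ord (h40fJ A M))) 0)
    (n : ℕ) (y : h13sFt A M) :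
    y ∈ riemannRochSpace (n • D) ↔
      ∃ b b' : gaussV A M, (b : FF M) ∈ modelFin M A ∧ (b' : FF M) ∈ modelInf M A ∧
        gaussR A M b = h13sIncl A M y ∧
        h13sIncl A M y = gaussR A M ⟨jB M, jB_mem_gaussV A M⟩ ^ n * gaussR A M b' := by
  rw [h85f_dictS A M hℓ hM haux hA D hD n y]
  constructor
  · rintro ⟨b, b', hb, hb', hby, hy⟩
    refine ⟨b, b', hb, hb', ?_, ?_⟩
    · rw [← hby]; rfl
    · rw [hy, map_mul, map_pow]; rfl
  · rintro ⟨b, b', hb, hb', hby, hy⟩
    refine ⟨b, b', hb, hb', ?_, ?_⟩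
    · apply h40f_incl_injective A M
      rw [← hby]; rfl
    · apply h40f_incl_injective A M
      rw [hy, map_mul, map_pow]; rfl

end Fermat.Agent.P5
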