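import Fermat.Agent.P5.H26GenusWire
import Fermat.Agent.P5.H85SFDictS
import Fermat.Agent.P5.H82Seed

/-!
# Wave 5, pillar (P), block GEO-GENUS: the frozen leaf `H26sDictS` (helper29)

`H26sDictS` (frozen in `P5/H26GenusWire.lean`) : `L~(r_* (n D_∞)) ⊆ red B ∩ red(j)ⁿ red B_∞`, for
`D_∞` the divisor of poles of `j` on the GENERIC fibre and `r` the reduction map of places.

* `h29g_push_eq_zero` : a divisor vanishing on the fibre of `r` over `Q` has push-forward `0`
  at `Q`.
* `h29g_push_pole` : **the push-forward of the divisor of poles of `j` is the divisor of poles of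
  `j~`** (`H13sIsRed` applied to the Gauss unit `j`, and FIN-RED of helper82: the fibres of `r`
  consist of finite places, or of non-finite places).
* `h29g_dictS : H26sDictS` : UNCONDITIONAL, from `h85f_dictS_incl` (DICT-S on the special fibre,
  helper85).
-/

set_option autoImplicit false
set_option linter.unusedSectionVars false

open AlgebraicCurve ModularCurve

noncomputable section

namespace Fermat.Agent.P5

open Fermat.Agent.S37 Fermat.Agent.Red.GV Fermat.Agent.Red.Match

/-- a divisor vanishing on the fibre of `r` over `b` has push-forward zero at `b`. -/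
theorem h29g_push_eq_zero {α β : Type*} (r : α → β) (E : α →₀ ℤ) (b : β)
    (h : ∀ a, r a = b → E a = 0) : Finsupp.mapDomain r E b = 0 := by
  classical
  rw [h71r_push_apply]
  refine Finset.sum_eq_zero fun a _ => ?_
  split_ifs with ha
  · exact h a ha
  · rfl

variable {ℓ : ℕ} {M : ℕ} [NeZero M] {A : ValuationSubring Kbar}
  {r : Place Kbar (FF M) → Place (h13sK A) (h13sFt A M)}

/-- **the push-forward of the divisor of poles of `j` is the divisor of poles of `j~`.** -/
theorem h29g_push_pole (hℓ : ℓ.Prime) (hM : ¬ ℓ ∣ M) (hA : A.LiesOverPrime ℓ)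
    (hr : H13sIsRed A M r) {D : Divisor Kbar (FF M)} (hD : H26sIsPole M D)
    (Q : Place (h13sK A) (h13sFt A M)) :
    h13sPush r D Q = max (-(Q.ord (h40fJ A M))) 0 := by
  classical
  have hB : H13rBase Kbar (FF M) := h40r_base_FF M
  obtain ⟨Dj, hDj, -⟩ := hB.pd (jB M) (h82s_jB_ne_zero hℓ hM hA)
  have hQ := hr.2.2 (jB M) (jB_mem_gaussV A M) (jB_inv_mem_gaussV A M hℓ hM hA) Dj hDj Q
  obtain ⟨v, rfl⟩ := hr.1 Q
  by_cases hfin : IsFinAt A v
  · have h0 : 0 ≤ (r v).ord (h40fJ A M) := h82s_ord_nonneg_of_fin hℓ hM hA hr hB hfin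
    have h1 : h13sPush r D (r v) = 0 := by
      apply h29g_push_eq_zero
      intro a ha
      have hs : SameRed A a v := (hr.2.1 a v).mp ha
      obtain ⟨c, -, hc⟩ := (sameRed_isFinAt_iff hs).mpr hfin
      have h2 : 0 ≤ a.ord (jB M) :=
        (Fermat.Agent.S24.DiffPlace.ord_nonneg_iff_mem a).mpr (h82s_mem_of_valueAt hc)
      rw [hD a]
      omega
    rw [h1]
    omega
  · have hlt : (r v).ord (h40fJ A M) < 0 := by
      by_contra h
      exact hfin ((h82s_fin_iff hℓ hM hA hr hB v).mpr (not_lt.mp h))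
    have h1 : h13sPush r (D + Dj) (r v) = 0 := by
      apply h29g_push_eq_zero
      intro a ha
      have hs : SameRed A a v := (hr.2.1 a v).mp ha
      have han : ¬ IsFinAt A a := fun h => hfin ((sameRed_isFinAt_iff hs).mp h)
      obtain ⟨b', -, hab'⟩ := exists_valueAt_inv_of_not_isFinAt han
      have h2 : 0 ≤ a.ord (jB M)⁻¹ :=
        (Fermat.Agent.S24.DiffPlace.ord_nonneg_iff_mem a).mpr (h82s_mem_of_valueAt hab')
      rw [Place.ord_inv] at h2
      rw [Finsupp.add_apply, hD a, hDj a]
      omega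
    have h2 : h13sPush r (D + Dj) (r v) = h13sPush r D (r v) + h13sPush r Dj (r v) := by
      unfold h13sPush
      rw [Finsupp.mapDomain_add, Finsupp.add_apply]
    rw [h2, hQ] at h1
    have h3 : (r v).ord (h13sRed A M ⟨jB M, jB_mem_gaussV A M⟩) = (r v).ord (h40fJ A M) := rfl
    rw [h3] at h1
    omega

/-- **the frozen leaf `H26sDictS`** (unconditional). -/
theorem h29g_dictS : H26sDictS := by
  intro ℓ hℓ M _ hM haux A hA r hr D hD n y hy
  have hpush : h13sPush r (n • D) = n • h13sPush r D := by
    unfold h13sPush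
    exact Finsupp.mapDomain_smul n D
  rw [hpush] at hy
  exact (h85f_dictS_incl A M hℓ hM haux hA (h13sPush r D)
    (h29g_push_pole hℓ hM hA hr hD) n y).mp hy

end Fermat.Agent.P5
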