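import Fermat.Agent.S36.H64ChartNoeth
import Fermat.Agent.S36.H70ChartRes

/-!
# P5 (S19), block GEO-DISC (helper2, prefix `h2z_`): the chart over `A₀` in the shape of DIAG

`B₀ = h62rChart A N t` (`t = j` or `1/j`), the chart of level `N` over the inertia ring
`A₀ = h69b_A0 A` (a discrete valuation ring with uniformiser `q`).

* `h2zAlg` : `B₀` as an `A₀`-algebra (structure map `h70o_cstHom`, a reducible `def`).
* `h2z_finiteType` : `B₀` is a finitely generated `A₀`-algebra (from the landed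
  `h64c_chart_fg`: `B₀` is a finitely generated `A₀[t]`-module).
* `h2z_res` : the residue field of a closed point of the special fibre is `A₀ / q`:
  `∀ y, ∃ a : A₀, y - a ∈ 𝔰` (landed `h70o_chart_res`, restated for the algebra structure).
* `h2z_algebraMap_coe`, `h2z_q_mem` : glue.
-/

set_option autoImplicit false
set_option linter.unusedSectionVars false
set_option linter.unusedVariables false
set_option linter.style.haveILetI false

open AlgebraicCurve ModularCurve IsLocalRing Polynomial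

noncomputable section

namespace Fermat.Agent.P5

open Fermat.Agent.S37 Fermat.Agent.S36

variable (A : ValuationSubring Kbar) (N : ℕ) [NeZero N]

/-- the chart over `A₀` as an `A₀`-algebra. -/
@[reducible] def h2zAlg (t : FF N) : Algebra (h69b_A0 A) (h62rChart A N t) :=
  (h70o_cstHom A N t).toAlgebra

theorem h2z_algebraMap_coe (t : FF N) (a : h69b_A0 A) :
    ((@algebraMap (h69b_A0 A) (h62rChart A N t) _ _ (h2zAlg A N t) a : h62rChart A N t) : FF N) =
      cst N ((a : h69b_K0 A) : Kbar) := rfl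

/-- every polynomial expression `P(t)` with coefficients in `A₀` lies in the `A₀`-subalgebra
generated by `t`. -/
theorem h2z_ev_mem (t : FF N) (ht : t ∈ h62rChart A N t) (s : Set (h62rChart A N t))
    (hts : (⟨t, ht⟩ : h62rChart A N t) ∈ s) (P : (h81a_A0 A)[X]) :
    ∃ z : h62rChart A N t, z ∈ @Algebra.adjoin (h69b_A0 A) (h62rChart A N t) _ _
      (h2zAlg A N t) s ∧ (z : FF N) = h64c_ev A N t P := by
  letI := h2zAlg A N t
  induction P using Polynomial.induction_on' with
  | add p r hp hr =>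
    obtain ⟨z₁, hz₁, e₁⟩ := hp
    obtain ⟨z₂, hz₂, e₂⟩ := hr
    refine ⟨z₁ + z₂, Subalgebra.add_mem _ hz₁ hz₂, ?_⟩
    rw [map_add, ← e₁, ← e₂]
    rfl
  | monomial n a =>
    refine ⟨algebraMap (h69b_A0 A) (h62rChart A N t) a * (⟨t, ht⟩ : h62rChart A N t) ^ n,
      Subalgebra.mul_mem _ (Subalgebra.algebraMap_mem _ _)
        (Subalgebra.pow_mem _ (Algebra.subset_adjoin hts) n), ?_⟩
    rw [← C_mul_X_pow_eq_monomial, map_mul, map_pow, h64c_ev_C, h64c_ev_X]
    rfl

/-- **the chart over `A₀` is a finitely generated `A₀`-algebra** (`t = j, 1/j`). -/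
theorem h2z_finiteType {q : ℕ} (hq : q.Prime) (hA : A.LiesOverPrime q) (t : FF N)
    (htj : t = jB N ∨ t = (jB N)⁻¹) :
    @Algebra.FiniteType (h69b_A0 A) (h62rChart A N t) _ _ (h2zAlg A N t) := by
  classical
  letI := h2zAlg A N t
  obtain ⟨S, hS, hgen⟩ := h64c_chart_fg A N hq hA t htj
  have htF : t ∈ h53d_F0 N (A.inertiaSubgroupIn ℚ) := h64c_t_fixed A N htj
  have ht : t ∈ h62rChart A N t := h70o_self_mem_chart A N t htF
  set G : Finset (h62rChart A N t) :=
    insert (⟨t, ht⟩ : h62rChart A N t)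
      (S.attach.image fun s => (⟨s.1, hS s.1 s.2⟩ : h62rChart A N t)) with hG
  refine ⟨⟨G, ?_⟩⟩
  rw [eq_top_iff]
  intro y _
  obtain ⟨c, hc⟩ := hgen (y : FF N) y.2
  have hmemS : ∀ s (hs : s ∈ S), (⟨s, hS s hs⟩ : h62rChart A N t) ∈
      Algebra.adjoin (h69b_A0 A) (G : Set (h62rChart A N t)) := by
    intro s hs
    apply Algebra.subset_adjoin
    rw [hG, Finset.coe_insert]
    refine Set.mem_insert_of_mem _ ?_
    rw [Finset.mem_coe, Finset.mem_image]
    exact ⟨⟨s, hs⟩, Finset.mem_attach _ _, rfl⟩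
  have htG : (⟨t, ht⟩ : h62rChart A N t) ∈ (G : Set (h62rChart A N t)) := by
    rw [hG, Finset.coe_insert]
    exact Set.mem_insert _ _
  -- the sum, inside the chart
  have key : ∀ T : Finset (FF N), T ⊆ S →
      ∃ z : h62rChart A N t, z ∈ Algebra.adjoin (h69b_A0 A) (G : Set (h62rChart A N t)) ∧
        (z : FF N) = ∑ s ∈ T, h64c_ev A N t (c s) * s := by
    intro T
    induction T using Finset.induction_on with
    | empty =>
      intro _
      exact ⟨0, Subalgebra.zero_mem _, by rw [Finset.sum_empty]; rfl⟩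
    | insert a T ha ih =>
      intro hT
      obtain ⟨z, hz, e⟩ := ih (fun x hx => hT (Finset.mem_insert_of_mem hx))
      obtain ⟨w, hw, ew⟩ := h2z_ev_mem A N t ht (G : Set (h62rChart A N t)) htG (c a)
      have haS : a ∈ S := hT (Finset.mem_insert_self a T)
      refine ⟨w * (⟨a, hS a haS⟩ : h62rChart A N t) + z,
        Subalgebra.add_mem _ (Subalgebra.mul_mem _ hw (hmemS a haS)) hz, ?_⟩
      rw [Finset.sum_insert ha, ← e, ← ew]
      rfl
  obtain ⟨z, hz, e⟩ := key S (Finset.Subset.refl S)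
  have hyz : y = z := Subtype.ext (by rw [e, ← hc])
  rw [hyz]
  exact hz

/-- **the residue field of a closed point of the special fibre of the chart over `A₀` is the
residue field of `A₀`.** -/
theorem h2z_res {q : ℕ} (hq : q.Prime) (hA : A.LiesOverPrime q) (t : FF N)
    (htj : t = jB N ∨ t = (jB N)⁻¹)
    (𝔰 : Ideal (h62rChart A N t)) [h𝔰 : 𝔰.IsMaximal] (hq𝔰 : (q : h62rChart A N t) ∈ 𝔰)
    (y : h62rChart A N t) :
    ∃ a : h69b_A0 A,
      y - @algebraMap (h69b_A0 A) (h62rChart A N t) _ _ (h2zAlg A N t) a ∈ 𝔰 :=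
  h70o_chart_res hq A hA N t (h64c_t_fixed A N htj) 𝔰 hq𝔰 y

/-- `q ∈ 𝔰` in terms of the algebra structure. -/
theorem h2z_q_eq (q : ℕ) (t : FF N) :
    @algebraMap (h69b_A0 A) (h62rChart A N t) _ _ (h2zAlg A N t) (h69b_q A q) =
      (q : h62rChart A N t) := by
  apply Subtype.ext
  rw [h2z_algebraMap_coe, h69b_q_coe]
  simp

/-- the maximal ideal of `A₀` maps into every closed point of the special fibre. -/
theorem h2z_map_le {q : ℕ} (hq : q.Prime) (hA : A.LiesOverPrime q) (t : FF N)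
    (𝔰 : Ideal (h62rChart A N t)) (hq𝔰 : (q : h62rChart A N t) ∈ 𝔰) :
    (maximalIdeal (h69b_A0 A)).map
      (@algebraMap (h69b_A0 A) (h62rChart A N t) _ _ (h2zAlg A N t)) ≤ 𝔰 := by
  rw [h69b_maximalIdeal hq hA, Ideal.map_span, Ideal.span_le]
  rintro _ ⟨a, ha, rfl⟩
  rw [Set.mem_singleton_iff] at ha
  rw [ha, h2z_q_eq]
  exact hq𝔰

end Fermat.Agent.P5
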