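import Mathlib
import Fermat.Agent.Red.LocalNak

/-!
# P5 (S19), block GEO-DISC (helper2, prefix `h2y_`): finite Taylor expansion at a good closed point

Abstract setting of `Red/LocalNak.lean` / `Red/LocalFact.lean`: `A` a local ring (the valuation
ring), `B` an `A`-algebra (a chart of the model), `𝔫` a maximal ideal of `B` over `𝔪_A`,
`t ∈ 𝔫` with `𝔫 = (t) + 𝔪_A B` locally at `𝔫` (a local parameter of the special fibre).
A *section centred at `𝔫`* is an `A`-algebra hom `φ : B → A` with `ker φ ≤ 𝔫` (a point of the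
residue disc of `𝔫`); `φ₀` is a base section with finitely generated kernel.

* `h2y_unit` : `s ∉ 𝔫` has unit value at every section centred at `𝔫`.
* `h2y_taylor` : for `b, s₀ ∈ B`, `s₀ ∉ 𝔫` and every `m` there are a polynomial `p` over `A` of
  degree `< m` and `s ∉ 𝔫`, `r` with `s (b - s₀ p(u)) = r u ^ m`, `u = t - φ₀ t`.
* `h2y_taylor_eval` : the same polynomial `p` computes the values at ALL sections `ψ` centred at
  `𝔫`: `ψ b = ψ s₀ (p(τ) + ρ τ ^ m)` with `τ = ψ t - φ₀ t ∈ 𝔪_A` and `ρ ∈ A`.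
* `h2y_divdiff` : divided differences are integral: `φ b - ψ b ∈ A (φ t - ψ t)`.
* `h2y_divdiff_frac` : the same for quotients `b / s₀`.
* `h2y_sect_ext` : a section centred at `𝔫` is determined by its value at `t`.
* `h2y_sect_mem` : `ψ t - φ₀ t ∈ 𝔪_A`.
-/

set_option autoImplicit false
set_option linter.unusedSectionVars false
set_option linter.unusedVariables false
set_option linter.style.haveILetI false

open IsLocalRing Polynomial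

namespace Fermat.Agent.P5

open Fermat.Agent.Red

section Taylor

variable {A B : Type*} [CommRing A] [CommRing B] [Algebra A B] [IsLocalRing A]

/-- a section with kernel in the prime `𝔫` maps `𝔫` into `𝔪_A`. -/
theorem h2y_section_local (𝔫 : Ideal B) [h𝔫 : 𝔫.IsPrime] (φ : B →ₐ[A] A)
    (hker : RingHom.ker (φ : B →+* A) ≤ 𝔫) : ∀ y ∈ 𝔫, φ y ∈ maximalIdeal A := by
  intro y hy
  by_contra hne
  have hu : IsUnit (φ y) := IsLocalRing.notMem_maximalIdeal.mp hne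
  have hφalg : ∀ a : A, φ (algebraMap A B a) = a := fun a => by
    rw [AlgHom.commutes]; rfl
  have h1 : y - algebraMap A B (φ y) ∈ 𝔫 := by
    apply hker
    rw [RingHom.mem_ker]
    show φ (y - algebraMap A B (φ y)) = 0
    rw [map_sub, hφalg, sub_self]
  have h2 : algebraMap A B (φ y) ∈ 𝔫 := by
    have e : algebraMap A B (φ y) = y - (y - algebraMap A B (φ y)) := by ring
    rw [e]
    exact 𝔫.sub_mem hy h1
  exact h𝔫.ne_top (Ideal.eq_top_of_isUnit_mem _ h2 (hu.map _))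

/-- `s ∉ 𝔫` has a unit value at every section centred at `𝔫`. -/
theorem h2y_unit (𝔫 : Ideal B) [h𝔫 : 𝔫.IsMaximal] (ψ : B →ₐ[A] A)
    (hker : RingHom.ker (ψ : B →+* A) ≤ 𝔫) {s : B} (hs : s ∉ 𝔫) : IsUnit (ψ s) := by
  haveI : 𝔫.IsPrime := h𝔫.isPrime
  by_contra hne
  have h1 : ψ s ∈ maximalIdeal A := (IsLocalRing.mem_maximalIdeal _).mpr hne
  obtain ⟨y, i, hi, hyi⟩ := h𝔫.exists_inv hs
  have h2 : ψ i ∈ maximalIdeal A := h2y_section_local 𝔫 ψ hker i hi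
  have h3 : (1 : A) ∈ maximalIdeal A := by
    have e : (1 : A) = ψ y * ψ s + ψ i := by
      rw [← map_mul, ← map_add, hyi, map_one]
    rw [e]
    exact Ideal.add_mem _ (Ideal.mul_mem_left _ _ h1) h2
  exact (Ideal.ne_top_iff_one _).mp (IsLocalRing.maximalIdeal.isMaximal A).ne_top h3

/-- `ψ t - φ₀ t ∈ 𝔪_A` for sections centred at `𝔫 ∋ t`. -/
theorem h2y_sect_mem (𝔫 : Ideal B) [h𝔫 : 𝔫.IsMaximal] (t : B) (ht : t ∈ 𝔫)
    (φ₀ ψ : B →ₐ[A] A) (hφ₀ : RingHom.ker (φ₀ : B →+* A) ≤ 𝔫)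
    (hψ : RingHom.ker (ψ : B →+* A) ≤ 𝔫) : ψ t - φ₀ t ∈ maximalIdeal A := by
  haveI : 𝔫.IsPrime := h𝔫.isPrime
  exact Ideal.sub_mem _ (h2y_section_local 𝔫 ψ hψ t ht) (h2y_section_local 𝔫 φ₀ hφ₀ t ht)

/-- **finite Taylor expansion** in the local ring at `𝔫`, with denominators cleared. -/
theorem h2y_taylor (𝔫 : Ideal B) [h𝔫 : 𝔫.IsMaximal] (t : B) (ht : t ∈ 𝔫)
    (hprin : ∀ y ∈ 𝔫, ∃ s, s ∉ 𝔫 ∧
      s * y ∈ Ideal.span {t} ⊔ (maximalIdeal A).map (algebraMap A B))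
    (h𝔪𝔫 : (maximalIdeal A).map (algebraMap A B) ≤ 𝔫)
    (φ₀ : B →ₐ[A] A) (hφ₀ : RingHom.ker (φ₀ : B →+* A) ≤ 𝔫)
    (hfg : (RingHom.ker (φ₀ : B →+* A)).FG) (b s₀ : B) (hs₀ : s₀ ∉ 𝔫) (m : ℕ) :
    ∃ p : A[X], p.degree < (m : WithBot ℕ) ∧ ∃ s r : B, s ∉ 𝔫 ∧
      s * (b - s₀ * aeval (t - algebraMap A B (φ₀ t)) p) =
        r * (t - algebraMap A B (φ₀ t)) ^ m := by
  haveI : 𝔫.IsPrime := h𝔫.isPrime
  set u : B := t - algebraMap A B (φ₀ t) with hu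
  have hφalg : ∀ a : A, φ₀ (algebraMap A B a) = a := fun a => by
    rw [AlgHom.commutes]; rfl
  induction m with
  | zero =>
    refine ⟨0, ?_, 1, b, ?_, ?_⟩
    · rw [degree_zero]; exact WithBot.bot_lt_coe _
    · exact fun h => h𝔫.ne_top ((Ideal.eq_top_iff_one _).mpr h)
    · rw [map_zero, mul_zero, sub_zero, pow_zero, one_mul, mul_one]
  | succ m ih =>
    obtain ⟨p, hp, s, r, hs, hsr⟩ := ih
    obtain ⟨cs, hcs⟩ := (h2y_unit 𝔫 φ₀ hφ₀ hs).exists_right_inv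
    obtain ⟨c0, hc0⟩ := (h2y_unit 𝔫 φ₀ hφ₀ hs₀).exists_right_inv
    set β : A := cs * c0 * φ₀ r with hβ
    have hy : r - s * s₀ * algebraMap A B β ∈ RingHom.ker (φ₀ : B →+* A) := by
      rw [RingHom.mem_ker]
      show φ₀ (r - s * s₀ * algebraMap A B β) = 0
      rw [map_sub, map_mul, map_mul, hφalg, hβ]
      have e : φ₀ s * φ₀ s₀ * (cs * c0 * φ₀ r) = (φ₀ s * cs) * (φ₀ s₀ * c0) * φ₀ r := by ring
      rw [e, hcs, hc0, one_mul, one_mul, sub_self]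
    obtain ⟨s₁, hs₁, hs₁y⟩ := h26_local_ker_principal (maximalIdeal A) 𝔫 t ht hprin h𝔪𝔫 φ₀
      (h2y_section_local 𝔫 φ₀ hφ₀) hφ₀ hfg _ hy
    obtain ⟨c, hc⟩ := Ideal.mem_span_singleton'.mp hs₁y
    refine ⟨p + C β * X ^ m, ?_, s₁ * s, c, ?_, ?_⟩
    · refine lt_of_le_of_lt (degree_add_le _ _) (max_lt ?_ ?_)
      · exact lt_trans hp (by exact_mod_cast Nat.lt_succ_self m)
      · refine lt_of_le_of_lt (degree_C_mul_X_pow_le m β) ?_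
        exact_mod_cast Nat.lt_succ_self m
    · intro h
      rcases Ideal.IsPrime.mem_or_mem ‹𝔫.IsPrime› h with h | h
      · exact hs₁ h
      · exact hs h
    · have e1 : aeval u (p + C β * X ^ m) = aeval u p + algebraMap A B β * u ^ m := by
        rw [map_add, map_mul, aeval_C, map_pow, aeval_X]
      rw [e1]
      have e2 : s₁ * s * (b - s₀ * (aeval u p + algebraMap A B β * u ^ m)) =
          s₁ * (s * (b - s₀ * aeval u p)) - s₁ * (s * s₀ * algebraMap A B β) * u ^ m := by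
        ring
      rw [e2, hsr]
      have e3 : s₁ * (r * u ^ m) - s₁ * (s * s₀ * algebraMap A B β) * u ^ m =
          s₁ * (r - s * s₀ * algebraMap A B β) * u ^ m := by ring
      rw [e3, ← hc, pow_succ]
      ring

/-- **finite Taylor expansion of the values**: one polynomial for all points of the residue
disc. -/
theorem h2y_taylor_eval (𝔫 : Ideal B) [h𝔫 : 𝔫.IsMaximal] (t : B) (ht : t ∈ 𝔫)
    (hprin : ∀ y ∈ 𝔫, ∃ s, s ∉ 𝔫 ∧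
      s * y ∈ Ideal.span {t} ⊔ (maximalIdeal A).map (algebraMap A B))
    (h𝔪𝔫 : (maximalIdeal A).map (algebraMap A B) ≤ 𝔫)
    (φ₀ : B →ₐ[A] A) (hφ₀ : RingHom.ker (φ₀ : B →+* A) ≤ 𝔫)
    (hfg : (RingHom.ker (φ₀ : B →+* A)).FG) (b s₀ : B) (hs₀ : s₀ ∉ 𝔫) (m : ℕ) :
    ∃ p : A[X], p.degree < (m : WithBot ℕ) ∧
      ∀ ψ : B →ₐ[A] A, RingHom.ker (ψ : B →+* A) ≤ 𝔫 →
        ∃ ρ : A, ψ b = ψ s₀ * (p.eval (ψ t - φ₀ t) + ρ * (ψ t - φ₀ t) ^ m) := by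
  obtain ⟨p, hp, s, r, hs, hsr⟩ := h2y_taylor 𝔫 t ht hprin h𝔪𝔫 φ₀ hφ₀ hfg b s₀ hs₀ m
  refine ⟨p, hp, fun ψ hψ => ?_⟩
  have hψalg : ∀ a : A, ψ (algebraMap A B a) = a := fun a => by
    rw [AlgHom.commutes]; rfl
  obtain ⟨cs, hcs⟩ := (h2y_unit 𝔫 ψ hψ hs).exists_right_inv
  obtain ⟨c0, hc0⟩ := (h2y_unit 𝔫 ψ hψ hs₀).exists_right_inv
  have h1 := congrArg ψ hsr
  rw [map_mul, map_sub, map_mul, map_mul, map_pow, map_sub, hψalg] at h1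
  have h2 : ψ (aeval (t - algebraMap A B (φ₀ t)) p) = p.eval (ψ t - φ₀ t) := by
    have e : (ψ : B →+* A) (aeval (t - algebraMap A B (φ₀ t)) p) =
        p.eval₂ ((ψ : B →+* A).comp (algebraMap A B)) ((ψ : B →+* A) (t - algebraMap A B (φ₀ t))) := by
      rw [aeval_def, hom_eval₂]
    have e' : (ψ : B →+* A).comp (algebraMap A B) = RingHom.id A := by
      ext a
      exact hψalg a
    have e'' : (ψ : B →+* A) (t - algebraMap A B (φ₀ t)) = ψ t - φ₀ t := by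
      show ψ (t - algebraMap A B (φ₀ t)) = _
      rw [map_sub, hψalg]
    rw [e', e'', eval₂_id] at e
    exact e
  rw [h2] at h1
  refine ⟨cs * c0 * ψ r, ?_⟩
  -- `ψ s (ψ b - ψ s₀ p(τ)) = ψ r τ ^ m`
  have h3 : ψ b = ψ s₀ * p.eval (ψ t - φ₀ t) + cs * (ψ r * (ψ t - φ₀ t) ^ m) := by
    have e : cs * (ψ r * (ψ t - φ₀ t) ^ m) =
        (ψ s * cs) * (ψ b - ψ s₀ * p.eval (ψ t - φ₀ t)) := by
      rw [← h1]; ring
    rw [e, hcs]; ring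
  rw [h3]
  have e : ψ s₀ * (p.eval (ψ t - φ₀ t) + cs * c0 * ψ r * (ψ t - φ₀ t) ^ m) =
      ψ s₀ * p.eval (ψ t - φ₀ t) + (ψ s₀ * c0) * (cs * (ψ r * (ψ t - φ₀ t) ^ m)) := by ring
  rw [e, hc0, one_mul]

/-- **divided differences are integral.** -/
theorem h2y_divdiff (𝔫 : Ideal B) [h𝔫 : 𝔫.IsMaximal] (t : B) (ht : t ∈ 𝔫)
    (hprin : ∀ y ∈ 𝔫, ∃ s, s ∉ 𝔫 ∧
      s * y ∈ Ideal.span {t} ⊔ (maximalIdeal A).map (algebraMap A B))
    (h𝔪𝔫 : (maximalIdeal A).map (algebraMap A B) ≤ 𝔫)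
    (φ ψ : B →ₐ[A] A) (hφ : RingHom.ker (φ : B →+* A) ≤ 𝔫)
    (hψ : RingHom.ker (ψ : B →+* A) ≤ 𝔫)
    (hfg : (RingHom.ker (ψ : B →+* A)).FG) (b : B) :
    ∃ ρ : A, φ b - ψ b = ρ * (φ t - ψ t) := by
  haveI : 𝔫.IsPrime := h𝔫.isPrime
  have hφalg : ∀ a : A, φ (algebraMap A B a) = a := fun a => by
    rw [AlgHom.commutes]; rfl
  have hψalg : ∀ a : A, ψ (algebraMap A B a) = a := fun a => by
    rw [AlgHom.commutes]; rfl
  have hy : b - algebraMap A B (ψ b) ∈ RingHom.ker (ψ : B →+* A) := by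
    rw [RingHom.mem_ker]
    show ψ (b - algebraMap A B (ψ b)) = 0
    rw [map_sub, hψalg, sub_self]
  obtain ⟨s, hs, hsy⟩ := h26_local_ker_principal (maximalIdeal A) 𝔫 t ht hprin h𝔪𝔫 ψ
    (h2y_section_local 𝔫 ψ hψ) hψ hfg _ hy
  obtain ⟨c, hc⟩ := Ideal.mem_span_singleton'.mp hsy
  obtain ⟨cs, hcs⟩ := (h2y_unit 𝔫 φ hφ hs).exists_right_inv
  have h1 := congrArg φ hc
  rw [map_mul, map_mul, map_sub, map_sub, hφalg, hφalg] at h1
  refine ⟨cs * φ c, ?_⟩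
  have e : cs * φ c * (φ t - ψ t) = (φ s * cs) * (φ b - ψ b) := by
    rw [mul_assoc cs, h1]; ring
  rw [e, hcs, one_mul]

/-- a section centred at `𝔫` is determined by its value at the local parameter. -/
theorem h2y_sect_ext (𝔫 : Ideal B) [h𝔫 : 𝔫.IsMaximal] (t : B) (ht : t ∈ 𝔫)
    (hprin : ∀ y ∈ 𝔫, ∃ s, s ∉ 𝔫 ∧
      s * y ∈ Ideal.span {t} ⊔ (maximalIdeal A).map (algebraMap A B))
    (h𝔪𝔫 : (maximalIdeal A).map (algebraMap A B) ≤ 𝔫)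
    (φ ψ : B →ₐ[A] A) (hφ : RingHom.ker (φ : B →+* A) ≤ 𝔫)
    (hψ : RingHom.ker (ψ : B →+* A) ≤ 𝔫)
    (hfg : (RingHom.ker (ψ : B →+* A)).FG) (h : φ t = ψ t) : φ = ψ := by
  apply AlgHom.ext
  intro b
  obtain ⟨ρ, hρ⟩ := h2y_divdiff 𝔫 t ht hprin h𝔪𝔫 φ ψ hφ hψ hfg b
  rw [h, sub_self, mul_zero] at hρ
  exact sub_eq_zero.mp hρ

/-- **divided differences of quotients are integral**: for `x = b / s₀`, `s₀ ∉ 𝔫`:
`x(φ) - x(ψ) ∈ A (φ t - ψ t)`, in the form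
`φ b ψ s₀ - ψ b φ s₀ = ρ (φ t - ψ t)`. -/
theorem h2y_divdiff_frac (𝔫 : Ideal B) [h𝔫 : 𝔫.IsMaximal] (t : B) (ht : t ∈ 𝔫)
    (hprin : ∀ y ∈ 𝔫, ∃ s, s ∉ 𝔫 ∧
      s * y ∈ Ideal.span {t} ⊔ (maximalIdeal A).map (algebraMap A B))
    (h𝔪𝔫 : (maximalIdeal A).map (algebraMap A B) ≤ 𝔫)
    (φ ψ : B →ₐ[A] A) (hφ : RingHom.ker (φ : B →+* A) ≤ 𝔫)
    (hψ : RingHom.ker (ψ : B →+* A) ≤ 𝔫)
    (hfg : (RingHom.ker (ψ : B →+* A)).FG) (b s₀ : B) :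
    ∃ ρ : A, φ b * ψ s₀ - ψ b * φ s₀ = ρ * (φ t - ψ t) := by
  obtain ⟨ρ₁, hρ₁⟩ := h2y_divdiff 𝔫 t ht hprin h𝔪𝔫 φ ψ hφ hψ hfg b
  obtain ⟨ρ₂, hρ₂⟩ := h2y_divdiff 𝔫 t ht hprin h𝔪𝔫 φ ψ hφ hψ hfg s₀
  refine ⟨ρ₁ * ψ s₀ - ψ b * ρ₂, ?_⟩
  have e : φ b * ψ s₀ - ψ b * φ s₀ = (φ b - ψ b) * ψ s₀ - ψ b * (φ s₀ - ψ s₀) := by ring
  rw [e, hρ₁, hρ₂]
  ring

end Taylor

end Fermat.Agent.P5
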