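import Fermat.Agent.P5.H30LatChebIface
import Fermat.Agent.S30.Inputs
import Fermat.Agent.Cheb.WeakChebotarev
import Fermat.Agent.S34.DetInertia

/-!
# Wave 5, pillar (P), S32: the Chebotarev approximation at finite level (helper30)

`h30x_cheb : H30xCheb`.
-/

set_option autoImplicit false
set_option linter.style.haveILetI false
set_option linter.unusedSectionVars false

open ModularCurve GaloisRep

noncomputable section

namespace Fermat.Agent.P5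

open Fermat.Agent.S29 (GQ)
open Fermat.Agent.S30 (acTrace)
open Fermat.Agent.S31 (TI_evS tpjGal tpjHecke TI_Small)

/-! ## Power sums in a ring of endomorphisms -/

theorem h30x_map_C {E : Type*} [Ring E] (Θ : MvPolynomial Nat.Primes ℤ →+* E) (a : ℤ) :
    Θ (MvPolynomial.C a) = (a : E) := by
  have h1 : (MvPolynomial.C a : MvPolynomial Nat.Primes ℤ) = ((a : ℤ) : MvPolynomial Nat.Primes ℤ) :=
    eq_intCast (MvPolynomial.C : ℤ →+* MvPolynomial Nat.Primes ℤ) a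
  rw [h1, map_intCast]

theorem h30x_powsum {E : Type*} [Ring E] (Θ : MvPolynomial Nat.Primes ℤ →+* E) (ℓ : Nat.Primes)
    (x x' : E) (hx'x : x' * x = 1) (hb : Commute (Θ (MvPolynomial.X ℓ)) x)
    (hES : x * x - Θ (MvPolynomial.X ℓ) * x + Θ (MvPolynomial.C ((ℓ : ℕ) : ℤ)) = 0) (j : ℕ) :
    x ^ j + Θ (MvPolynomial.C (((ℓ : ℕ) : ℤ) ^ j)) * x' ^ j =
      Θ (acTrace (MvPolynomial.X ℓ) (MvPolynomial.C ((ℓ : ℕ) : ℤ)) j) := by
  set b : E := Θ (MvPolynomial.X ℓ) with hbdef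
  set c : E := Θ (MvPolynomial.C ((ℓ : ℕ) : ℤ)) with hcdef
  have hcc : ∀ z : E, Commute c z := by
    intro z
    rw [hcdef, h30x_map_C]
    exact Int.cast_commute _ z
  have hxy : x * (b - x) = c := by
    have h1 : x * (b - x) = -(x * x - b * x) := by
      rw [mul_sub, ← hb.eq]
      abel
    rw [h1, eq_neg_of_add_eq_zero_left hES, neg_neg]
  have hc : Commute x (b - x) := (hb.symm).sub_right (Commute.refl x)
  have hy : b - x = c * x' := by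
    have h1 : x' * (x * (b - x)) = b - x := by rw [← mul_assoc, hx'x, one_mul]
    rw [← h1, hxy, (hcc x').eq]
  have hpow : x ^ j + (b - x) ^ j =
      Θ (acTrace (MvPolynomial.X ℓ) (MvPolynomial.C ((ℓ : ℕ) : ℤ)) j) := by
    refine Fermat.Agent.S31.TI_pow_add_pow hc
      (fun k => Θ (acTrace (MvPolynomial.X ℓ) (MvPolynomial.C ((ℓ : ℕ) : ℤ)) k)) ?_ ?_ ?_ j
    · rw [Fermat.Agent.S30.acTrace_zero, map_ofNat]
    · rw [Fermat.Agent.S30.acTrace_one]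
      abel
    · intro i
      rw [Fermat.Agent.S30.acTrace_add_two, map_sub, map_mul, map_mul, hxy]
      congr 2
      abel
  rw [← hpow, hy, (hcc x').mul_pow, hcdef, ← map_pow, ← map_pow]

/-! ## Integers acting on `J₀(N)[p ^ k]` -/

theorem h30x_nsmul_eq_zero (N p k : ℕ) [NeZero N] (x : h30xTors N p k) :
    (p ^ k) • (x : JZero N) = 0 := by
  have hx : ((p : ℤ) ^ k) • (x : JZero N) = 0 := (Submodule.mem_torsionBy_iff _ _).mp x.2
  generalize (x : JZero N) = y at hx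
  rw [← Nat.cast_pow, natCast_zsmul] at hx
  exact hx

theorem h30x_intCast_eq (N p k : ℕ) [NeZero N] (a b : ℤ) (h : (p : ℤ) ^ k ∣ a - b) :
    (a : AddMonoid.End (h30xTors N p k)) = (b : AddMonoid.End (h30xTors N p k)) := by
  obtain ⟨c, hc⟩ := h
  refine AddMonoidHom.ext fun x => ?_
  have ea : (a : AddMonoid.End (h30xTors N p k)) x = a • x := AddMonoid.End.intCast_apply a x
  have eb : (b : AddMonoid.End (h30xTors N p k)) x = b • x := AddMonoid.End.intCast_apply b x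
  refine ea.trans (Eq.trans ?_ eb.symm)
  rw [← sub_eq_zero, ← sub_smul, hc, mul_comm, mul_smul]
  have hx : ((p : ℤ) ^ k) • x = 0 := by
    apply Subtype.ext
    exact (Submodule.mem_torsionBy_iff _ _).mp x.2
  rw [hx, smul_zero]

theorem h30x_dvd_of_mem {p : ℕ} [Fact p.Prime] (k : ℕ) (a : ℤ)
    (h : (a : ℤ_[p]) ∈ IsLocalRing.maximalIdeal ℤ_[p] ^ k) : (p : ℤ) ^ k ∣ a := by
  rw [PadicInt.maximalIdeal_eq_span_p, Ideal.span_singleton_pow, Ideal.mem_span_singleton] at h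
  exact (PadicInt.pow_p_dvd_int_iff k a).mp h

/-! ## The Hecke action at finite level -/

theorem h30xKap_X_of_not_mem (S : Finset ℕ) (ℓ : Nat.Primes) (hℓ : (ℓ : ℕ) ∉ S) :
    h30xKap S (MvPolynomial.X ℓ) = MvPolynomial.X ℓ := by
  show (MvPolynomial.aeval (R := ℤ) (fun ℓ : Nat.Primes =>
    if (ℓ : ℕ) ∈ S then (0 : MvPolynomial Nat.Primes ℤ) else MvPolynomial.X ℓ))
      (MvPolynomial.X ℓ) = MvPolynomial.X ℓ
  rw [MvPolynomial.aeval_X, if_neg hℓ]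

theorem h30xHecke_X (N p k : ℕ) [NeZero N] (S : Finset ℕ) (hc : HeckeOperatorsCommuteBar N)
    (ℓ : Nat.Primes) (hℓ : (ℓ : ℕ) ∉ S) (x : h30xTors N p k) :
    ((h30xHecke N p k S hc (MvPolynomial.X ℓ) x : h30xTors N p k) : JZero N) =
      heckeOperatorBar N ℓ (x : JZero N) := by
  rw [h30xHecke_apply, h30xKap_X_of_not_mem S ℓ hℓ, Fermat.Agent.S31.tpjHecke_X]

/-! ## The Chebotarev approximation -/

set_option maxHeartbeats 4000000 in
/-- **LC-CHEB.** -/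
theorem h30x_cheb : H30xCheb := by
  intro p N _ S 𝒪 _ _ _ _ θ T _ _ _ _ _ _ _ _ hp hp𝒪 hpS hNS H hc k n
  haveI : Fact p.Prime := ⟨hp⟩
  have hCheb := Fermat.Agent.Cheb.weakChebotarev
  have hHG := Fermat.Agent.S30.geometricInputsFull.1 N
  have hES := Fermat.Agent.S30.geometricInputsFull.2.1 N p hp
  have hTF := Fermat.Agent.S30.geometricInputsFull.2.2.1 N (p ^ k) (pow_pos hp.pos k)
  obtain ⟨L₁, hL₁, h₁⟩ := hTF.2
  -- the `p`-adic cyclotomic character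
  have hmaxZ : IsLocalRing.maximalIdeal ℤ_[p] = Ideal.span {(p : ℤ_[p])} :=
    PadicInt.maximalIdeal_eq_span_p
  have hpZ : (p : ℤ_[p]) ∈ IsLocalRing.maximalIdeal ℤ_[p] := by
    rw [hmaxZ]
    exact Ideal.mem_span_singleton_self _
  obtain ⟨d, hdcont, hdin, hdfrob, -⟩ := Fermat.Agent.S30.cycCharAdic p hp ℤ_[p] hpZ
  obtain ⟨L₂, hL₂, h₂⟩ := hdcont k
  obtain ⟨L₃, hL₃, h₃⟩ := H.ρ.isAdicContinuous n
  have hfd12 : FiniteDimensional ℚ ↥(L₁ ⊔ L₂) := IntermediateField.finiteDimensional_sup L₁ L₂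
  have hfd : FiniteDimensional ℚ ↥(L₁ ⊔ L₂ ⊔ L₃) :=
    IntermediateField.finiteDimensional_sup (L₁ ⊔ L₂) L₃
  have hle₁ : L₁ ≤ L₁ ⊔ L₂ ⊔ L₃ := le_sup_left.trans le_sup_left
  have hle₂ : L₂ ≤ L₁ ⊔ L₂ ⊔ L₃ := le_sup_right.trans le_sup_left
  have hle₃ : L₃ ≤ L₁ ⊔ L₂ ⊔ L₃ := le_sup_right
  -- primes outside `S`
  have hNp : ∀ ℓ : ℕ, ℓ.Prime → ℓ ∉ S → ¬ ℓ ∣ N * p := by
    intro ℓ hℓ hℓS hdvd
    rcases (Nat.Prime.dvd_mul hℓ).mp hdvd with h | h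
    · exact hℓS (hNS ℓ hℓ h)
    · exact hℓS (((Nat.prime_dvd_prime_iff_eq hℓ hp).mp h) ▸ hpS)
  have hne : ∀ ℓ : ℕ, ℓ.Prime → ℓ ∉ S → ℓ ≠ p := fun ℓ _ hℓS h => hℓS (h ▸ hpS)
  have hnN : ∀ ℓ : ℕ, ℓ.Prime → ℓ ∉ S → ¬ ℓ ∣ N := fun ℓ hℓ hℓS h => hℓS (hNS ℓ hℓ h)
  -- elements fixing the field of `J₀(N)[p ^ k]` act trivially
  have htriv : ∀ σ : GQ, (∀ y ∈ L₁, σ y = y) → h30xGal N p k σ = 1 := by
    intro σ hσ
    refine AddMonoidHom.ext fun x => Subtype.ext ?_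
    show σ • (x : JZero N) = (x : JZero N)
    exact h₁ σ hσ _ (h30x_nsmul_eq_zero N p k x)
  -- the pointwise statement
  have hpt : ∀ g : GQ, ∃ (ℓ : Nat.Primes) (j : ℕ),
      (h30xGal N p k g + h30xHecke N p k S hc (MvPolynomial.C (((ℓ : ℕ) : ℤ) ^ j)) *
          h30xGal N p k g⁻¹ =
        h30xHecke N p k S hc (acTrace (MvPolynomial.X ℓ) (MvPolynomial.C ((ℓ : ℕ) : ℤ)) j)) ∧
      ((((((ℓ : ℕ) : ℤ) ^ j : ℤ) : ℤ_[p]) - ((d g : ℤ_[p]ˣ) : ℤ_[p])) ∈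
        IsLocalRing.maximalIdeal ℤ_[p] ^ k) ∧
      (LinearMap.trace T H.ρ.V (H.ρ.ρ g) -
        H.π (TI_evS N S (acTrace (MvPolynomial.X ℓ) (MvPolynomial.C ((ℓ : ℕ) : ℤ)) j)) ∈
          IsLocalRing.maximalIdeal T ^ n) ∧
      (LinearMap.det (H.ρ.ρ g) - (((((ℓ : ℕ) : ℤ) ^ j : ℤ)) : T) ∈
        IsLocalRing.maximalIdeal T ^ n) := by
    intro g
    obtain ⟨ℓ, hℓ, hℓS, A', hA', f, hf, j, hj⟩ := hCheb (L₁ ⊔ L₂ ⊔ L₃) hfd g S
    -- `σ = (f ^ j)⁻¹ * g` fixes the compositum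
    have hσ : ∀ x ∈ L₁ ⊔ L₂ ⊔ L₃, ((f ^ j)⁻¹ * g) x = x := fun x hx => by
      rw [AlgEquiv.mul_apply, hj x hx]
      exact (f ^ j).symm_apply_apply x
    have hg : g = f ^ j * ((f ^ j)⁻¹ * g) := by rw [mul_inv_cancel_left]
    have hℓN : ¬ ℓ ∣ N := hnN ℓ hℓ hℓS
    have hℓS' : ℓ ∉ (↑S : Set ℕ) := fun h => hℓS (Finset.mem_coe.mp h)
    have hs₂ := h₂ ((f ^ j)⁻¹ * g) fun x hx => hσ x (hle₂ hx)
    have hs₃ : TI_Small (IsLocalRing.maximalIdeal T ^ n) (H.ρ.ρ ((f ^ j)⁻¹ * g) - 1) :=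
      fun v => by
        rw [LinearMap.sub_apply, Module.End.one_apply]
        exact h₃ _ (fun x hx => hσ x (hle₃ hx)) v
    have hdf := hdfrob ℓ hℓ (hne ℓ hℓ hℓS) A' hA' f hf
    have hcp := H.charpoly_frob ℓ hℓ hℓN hℓS' A' hA' f hf
    refine ⟨⟨ℓ, hℓ⟩, j, ?_, ?_, ?_, ?_⟩
    · -- the relation on `J₀(N)[p ^ k]`
      have hσ1 : h30xGal N p k ((f ^ j)⁻¹ * g) = 1 := htriv _ fun y hy => hσ y (hle₁ hy)
      have hgx : h30xGal N p k g = h30xGal N p k f ^ j := by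
        conv_lhs => rw [hg]
        rw [map_mul, hσ1, mul_one, map_pow]
      have hx'x : h30xGal N p k f⁻¹ * h30xGal N p k f = 1 := by
        rw [← map_mul, inv_mul_cancel, map_one]
      have hgx' : h30xGal N p k g⁻¹ = h30xGal N p k f⁻¹ ^ j := by
        have e1 : h30xGal N p k g⁻¹ * h30xGal N p k g = 1 := by
          rw [← map_mul, inv_mul_cancel, map_one]
        have e2 : h30xGal N p k f ^ j * h30xGal N p k f⁻¹ ^ j = 1 := by
          rw [← map_pow, ← map_pow, ← map_mul, inv_pow, mul_inv_cancel, map_one]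
        calc h30xGal N p k g⁻¹
            = h30xGal N p k g⁻¹ * (h30xGal N p k f ^ j * h30xGal N p k f⁻¹ ^ j) := by
              rw [e2, mul_one]
          _ = (h30xGal N p k g⁻¹ * h30xGal N p k g) * h30xGal N p k f⁻¹ ^ j := by
              rw [hgx, mul_assoc]
          _ = h30xGal N p k f⁻¹ ^ j := by rw [e1, one_mul]
      have hb : Commute (h30xHecke N p k S hc (MvPolynomial.X (⟨ℓ, hℓ⟩ : Nat.Primes)))
          (h30xGal N p k f) :=
        (Fermat.Agent.S31.tpj_commute N hHG (h30xKap S (MvPolynomial.X (⟨ℓ, hℓ⟩ : Nat.Primes)))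
          f).map (h30xResT N p k)
      have hESrel : h30xGal N p k f * h30xGal N p k f
          - h30xHecke N p k S hc (MvPolynomial.X (⟨ℓ, hℓ⟩ : Nat.Primes)) * h30xGal N p k f
          + h30xHecke N p k S hc (MvPolynomial.C (((⟨ℓ, hℓ⟩ : Nat.Primes) : ℕ) : ℤ)) = 0 := by
        rw [h30x_map_C]
        refine AddMonoidHom.ext fun x => Subtype.ext ?_
        have hx := h30x_nsmul_eq_zero N p k x
        have h := hES.2 ℓ hℓ (hNp ℓ hℓ hℓS) A' hA' f hf (x : JZero N) ⟨k, hx⟩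
        have e1 : ((h30xHecke N p k S hc (MvPolynomial.X (⟨ℓ, hℓ⟩ : Nat.Primes))
            (h30xGal N p k f x) : h30xTors N p k) : JZero N) =
            heckeOperatorBar N ⟨ℓ, hℓ⟩ (f • (x : JZero N)) :=
          h30xHecke_X N p k S hc ⟨ℓ, hℓ⟩ hℓS (h30xGal N p k f x)
        have e2 : ((((((⟨ℓ, hℓ⟩ : Nat.Primes) : ℕ) : ℤ) : AddMonoid.End (h30xTors N p k)) x :
            h30xTors N p k) : JZero N) = ℓ • (x : JZero N) := by
          have := AddMonoid.End.intCast_apply ((((⟨ℓ, hℓ⟩ : Nat.Primes) : ℕ) : ℤ)) x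
          rw [this]
          show (((ℓ : ℤ) • x : h30xTors N p k) : JZero N) = ℓ • (x : JZero N)
          rw [Submodule.coe_smul, natCast_zsmul]
        show f • f • (x : JZero N)
          - ((h30xHecke N p k S hc (MvPolynomial.X (⟨ℓ, hℓ⟩ : Nat.Primes))
            (h30xGal N p k f x) : h30xTors N p k) : JZero N)
          + ((((((⟨ℓ, hℓ⟩ : Nat.Primes) : ℕ) : ℤ) : AddMonoid.End (h30xTors N p k)) x :
            h30xTors N p k) : JZero N) = 0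
        rw [e1, e2]
        exact h
      have hps := h30x_powsum (h30xHecke N p k S hc) (⟨ℓ, hℓ⟩ : Nat.Primes) (h30xGal N p k f)
        (h30xGal N p k f⁻¹) hx'x hb hESrel j
      rw [hgx, hgx']
      exact hps
    · -- the cyclotomic character
      have hd1 : ((d g : ℤ_[p]ˣ) : ℤ_[p]) =
          (ℓ : ℤ_[p]) ^ j * ((d ((f ^ j)⁻¹ * g) : ℤ_[p]ˣ) : ℤ_[p]) := by
        conv_lhs => rw [hg]
        rw [map_mul, map_pow, Units.val_mul, Units.val_pow_eq_pow_val, hdf]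
      have e : (((((⟨ℓ, hℓ⟩ : Nat.Primes) : ℕ) : ℤ) ^ j : ℤ) : ℤ_[p]) - ((d g : ℤ_[p]ˣ) : ℤ_[p]) =
          -((ℓ : ℤ_[p]) ^ j * (((d ((f ^ j)⁻¹ * g) : ℤ_[p]ˣ) : ℤ_[p]) - 1)) := by
        rw [hd1]
        push_cast
        ring
      rw [e]
      exact neg_mem (Ideal.mul_mem_left _ _ hs₂)
    · -- the trace
      have h := Fermat.Agent.S31.TI_approx_T H.ρ.finrank_eq (IsLocalRing.maximalIdeal T ^ n)
        H.ρ.ρ f ((f ^ j)⁻¹ * g) j _ _ hcp hs₃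
      rw [← hg] at h
      have e1 : H.π (TI_evS N S
          (acTrace (MvPolynomial.X (⟨ℓ, hℓ⟩ : Nat.Primes)) (MvPolynomial.C ((ℓ : ℕ) : ℤ)) j)) =
          acTrace (H.π (CuspForm.heckeAlgebra.T hℓ hℓN hℓS')) ((ℓ : T)) j := by
        have h1 := Fermat.Agent.S31.TI_map_acTrace
          (H.π.comp (TI_evS N S : MvPolynomial Nat.Primes ℤ →+*
            CuspForm.heckeAlgebra N 2 (↑S : Set ℕ)))
          (MvPolynomial.X (⟨ℓ, hℓ⟩ : Nat.Primes)) (MvPolynomial.C ((ℓ : ℕ) : ℤ)) j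
        have h2 : (H.π.comp (TI_evS N S : MvPolynomial Nat.Primes ℤ →+*
            CuspForm.heckeAlgebra N 2 (↑S : Set ℕ))) (MvPolynomial.X (⟨ℓ, hℓ⟩ : Nat.Primes)) =
            H.π (CuspForm.heckeAlgebra.T hℓ hℓN hℓS') := by
          rw [RingHom.comp_apply]
          congr 1
          exact Fermat.Agent.S31.TI_evS_X N S ⟨ℓ, hℓ⟩ hℓN hℓS'
        have h3 : (H.π.comp (TI_evS N S : MvPolynomial Nat.Primes ℤ →+*
            CuspForm.heckeAlgebra N 2 (↑S : Set ℕ))) (MvPolynomial.C ((ℓ : ℕ) : ℤ)) =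
            (ℓ : T) := by
          rw [MvPolynomial.C_eq_coe_nat, map_natCast]
        rw [h2, h3] at h1
        exact h1
      show LinearMap.trace T H.ρ.V (H.ρ.ρ g) - H.π (TI_evS N S
          (acTrace (MvPolynomial.X (⟨ℓ, hℓ⟩ : Nat.Primes)) (MvPolynomial.C ((ℓ : ℕ) : ℤ)) j)) ∈ _
      rw [e1]
      exact h
    · -- the determinant
      have hdetf : LinearMap.det (H.ρ.ρ f) = (ℓ : T) :=
        Fermat.Agent.S34.DI_det_of_charpoly H.ρ.finrank_eq _ _ _ hcp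
      have hdets := Fermat.Agent.S34.DI_det_sub_one_mem hs₃
      have e : LinearMap.det (H.ρ.ρ g) - ((((((⟨ℓ, hℓ⟩ : Nat.Primes) : ℕ) : ℤ) ^ j : ℤ)) : T) =
          (ℓ : T) ^ j * (LinearMap.det (H.ρ.ρ ((f ^ j)⁻¹ * g)) - 1) := by
        conv_lhs => rw [hg]
        rw [map_mul, map_mul, map_pow, map_pow, hdetf]
        push_cast
        ring
      rw [e]
      exact Ideal.mul_mem_left _ _ hdets
  choose ℓ j hA hB hC hD using hpt
  -- integers modulo `p ^ k`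
  have hΘC : ∀ a b : ℤ, ((a : ℤ_[p]) - (b : ℤ_[p])) ∈ IsLocalRing.maximalIdeal ℤ_[p] ^ k →
      h30xHecke N p k S hc (MvPolynomial.C a) = h30xHecke N p k S hc (MvPolynomial.C b) := by
    intro a b hab
    rw [h30x_map_C, h30x_map_C]
    refine h30x_intCast_eq N p k a b (h30x_dvd_of_mem k (a - b) ?_)
    push_cast
    exact hab
  refine ⟨fun g => acTrace (MvPolynomial.X (ℓ g)) (MvPolynomial.C ((ℓ g : ℕ) : ℤ)) (j g),
    fun g => MvPolynomial.C ((((ℓ g : ℕ) : ℤ)) ^ (j g)), hA, ?_, ?_, hC, ?_⟩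
  · intro g h
    show h30xHecke N p k S hc (MvPolynomial.C ((((ℓ (g * h) : ℕ) : ℤ)) ^ (j (g * h)))) =
      h30xHecke N p k S hc (MvPolynomial.C ((((ℓ g : ℕ) : ℤ)) ^ (j g))) *
        h30xHecke N p k S hc (MvPolynomial.C ((((ℓ h : ℕ) : ℤ)) ^ (j h)))
    rw [← map_mul, ← map_mul]
    refine hΘC _ _ ?_
    have e : ((((((ℓ (g * h) : ℕ) : ℤ)) ^ (j (g * h)) : ℤ) : ℤ_[p]) -
        ((((((ℓ g : ℕ) : ℤ)) ^ (j g) * (((ℓ h : ℕ) : ℤ)) ^ (j h) : ℤ)) : ℤ_[p])) =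
        ((((((ℓ (g * h) : ℕ) : ℤ)) ^ (j (g * h)) : ℤ) : ℤ_[p]) - ((d (g * h) : ℤ_[p]ˣ) : ℤ_[p]))
        - ((((((ℓ g : ℕ) : ℤ)) ^ (j g) : ℤ) : ℤ_[p]) *
            ((((((ℓ h : ℕ) : ℤ)) ^ (j h) : ℤ) : ℤ_[p]) - ((d h : ℤ_[p]ˣ) : ℤ_[p]))
          + ((d h : ℤ_[p]ˣ) : ℤ_[p]) *
            ((((((ℓ g : ℕ) : ℤ)) ^ (j g) : ℤ) : ℤ_[p]) - ((d g : ℤ_[p]ˣ) : ℤ_[p]))) := by
      rw [map_mul, Units.val_mul]
      push_cast
      ring
    rw [e]
    exact Ideal.sub_mem _ (hB (g * h))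
      (Ideal.add_mem _ (Ideal.mul_mem_left _ _ (hB h)) (Ideal.mul_mem_left _ _ (hB g)))
  · show h30xHecke N p k S hc (MvPolynomial.C ((((ℓ 1 : ℕ) : ℤ)) ^ (j 1))) = 1
    have h1 : h30xHecke N p k S hc (MvPolynomial.C ((((ℓ 1 : ℕ) : ℤ)) ^ (j 1))) =
        h30xHecke N p k S hc (MvPolynomial.C (1 : ℤ)) := by
      refine hΘC _ _ ?_
      have := hB 1
      rw [map_one, Units.val_one] at this
      push_cast at this ⊢
      exact this
    rw [h1, map_one, map_one]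
  · intro g
    show LinearMap.det (H.ρ.ρ g) -
      H.π (TI_evS N S (MvPolynomial.C ((((ℓ g : ℕ) : ℤ)) ^ (j g)))) ∈ _
    have e : H.π (TI_evS N S (MvPolynomial.C ((((ℓ g : ℕ) : ℤ)) ^ (j g)))) =
        (((((ℓ g : ℕ) : ℤ)) ^ (j g) : ℤ) : T) :=
      h30x_map_C (H.π.comp (TI_evS N S : MvPolynomial Nat.Primes ℤ →+*
        CuspForm.heckeAlgebra N 2 (↑S : Set ℕ))) _
    rw [e]
    exact hD g

end Fermat.Agent.P5
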