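import Fermat.Agent.P5.H30LatWire
import Fermat.Agent.S31.TraceInvariance
import Fermat.Agent.S31.TatePackage

/-!
# Wave 5, pillar (P), S32: the lattice comparison, arithmetic interface (helper30)

Definitions at the finite level `W₀ = J₀(N)[p ^ k]`:

* `h30xResT N p k` : restriction of additive endomorphisms of `J₀(N)` to `J₀(N)[p ^ k]`
  (a ring homomorphism);
* `h30xGal N p k` : the Galois action `G_ℚ →* End (J₀(N)[p ^ k])` (pointwise `h30xAct`);
* `h30xKap S` : the endomorphism of `ℤ[T_ℓ]` killing the variables `T_ℓ`, `ℓ ∈ S`;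
* `h30xHecke N p k S h` : the Hecke action of `ℤ[T_ℓ]` on `J₀(N)[p ^ k]` through `h30xKap S`.

Frozen `Prop`s (the two arithmetic leaves of the lattice comparison):

* `H30xCheb` : for all `k`, `n` there are `τ, δ : G_ℚ → ℤ[T_ℓ]` with
  `g + δ(g) g⁻¹ = τ(g)` on `J₀(N)[p ^ k]`, `δ` multiplicative on `J₀(N)[p ^ k]`, and
  `tr ρ(g) ≡ π τ(g)`, `det ρ(g) ≡ π δ(g)` modulo `m_T ^ n`.
  (Weak Chebotarev: `g = f ^ j` on the compositum of the field of `J₀(N)[p ^ k]`, the field of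
  the cyclotomic character modulo `p ^ k` and the field of `ρ` modulo `m_T ^ n`, `f` a Frobenius
  at `ℓ ∉ S`; `τ g = ` the `j`-th power sum polynomial of `X ^ 2 - T_ℓ X + ℓ`,
  `δ g = ℓ ^ j`.  Template: `happrox` in `Fermat.Agent.S31.traceInvariance_of` and
  `Fermat.Agent.S34.detInertia`.)
* `H30xGKey` : there is `c` such that for all `n`: a polynomial killing `J₀(N)[p ^ (c + n)]`
  has image in `m_T ^ n` (from `Fermat.Agent.S31.TI_key` with `m = 0`).
-/

set_option autoImplicit false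
set_option linter.style.haveILetI false
set_option linter.unusedSectionVars false

open ModularCurve GaloisRep

noncomputable section

namespace Fermat.Agent.P5

open Fermat.Agent.S29 (GQ)
open Fermat.Agent.S31 (TI_evS tpjGal tpjHecke)

/-- additive endomorphisms of `J₀(N)` preserve `J₀(N)[p ^ k]`. -/
theorem h30x_end_mem (N p k : ℕ) [NeZero N] (f : AddMonoid.End (JZero N))
    (x : h30xTors N p k) :
    f (x : JZero N) ∈ Submodule.torsionBy ℤ (JZero N) ((p : ℤ) ^ k) := by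
  have hx : ((p : ℤ) ^ k) • (x : JZero N) = 0 := (Submodule.mem_torsionBy_iff _ _).mp x.2
  rw [Submodule.mem_torsionBy_iff, ← map_zsmul, hx, map_zero]

/-- restriction of additive endomorphisms of `J₀(N)` to `J₀(N)[p ^ k]`. -/
def h30xResT (N p k : ℕ) [NeZero N] :
    AddMonoid.End (JZero N) →+* AddMonoid.End (h30xTors N p k) where
  toFun f := AddMonoidHom.codRestrict
    (AddMonoidHom.comp f (Submodule.torsionBy ℤ (JZero N) ((p : ℤ) ^ k)).subtype.toAddMonoidHom)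
    (Submodule.torsionBy ℤ (JZero N) ((p : ℤ) ^ k)) (fun x => h30x_end_mem N p k f x)
  map_one' := by ext x; rfl
  map_mul' f g := by ext x; rfl
  map_zero' := by ext x; rfl
  map_add' f g := by ext x; rfl

theorem h30xResT_apply (N p k : ℕ) [NeZero N] (f : AddMonoid.End (JZero N))
    (x : h30xTors N p k) : ((h30xResT N p k f x : h30xTors N p k) : JZero N) = f (x : JZero N) :=
  rfl

/-- the Galois action on `J₀(N)[p ^ k]`, as a homomorphism. -/
def h30xGal (N p k : ℕ) [NeZero N] : GQ →* AddMonoid.End (h30xTors N p k) :=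
  ((h30xResT N p k : AddMonoid.End (JZero N) →* AddMonoid.End (h30xTors N p k))).comp (tpjGal N)

theorem h30xGal_apply (N p k : ℕ) [NeZero N] (σ : GQ) (x : h30xTors N p k) :
    h30xGal N p k σ x = h30xAct N p k σ x := rfl

/-- the endomorphism of `ℤ[T_ℓ]` killing the variables `T_ℓ`, `ℓ ∈ S`. -/
def h30xKap (S : Finset ℕ) : MvPolynomial Nat.Primes ℤ →+* MvPolynomial Nat.Primes ℤ :=
  (MvPolynomial.aeval (R := ℤ) (fun ℓ : Nat.Primes =>
    if (ℓ : ℕ) ∈ S then (0 : MvPolynomial Nat.Primes ℤ) else MvPolynomial.X ℓ)).toRingHom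

/-- the Hecke action of `ℤ[T_ℓ]` on `J₀(N)[p ^ k]`, through the variables outside `S`. -/
def h30xHecke (N p k : ℕ) [NeZero N] (S : Finset ℕ) (h : HeckeOperatorsCommuteBar N) :
    MvPolynomial Nat.Primes ℤ →+* AddMonoid.End (h30xTors N p k) :=
  (h30xResT N p k).comp ((tpjHecke N h).comp (h30xKap S))

theorem h30xHecke_apply (N p k : ℕ) [NeZero N] (S : Finset ℕ) (h : HeckeOperatorsCommuteBar N)
    (Q : MvPolynomial Nat.Primes ℤ) (x : h30xTors N p k) :
    ((h30xHecke N p k S h Q x : h30xTors N p k) : JZero N) =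
      tpjHecke N h (h30xKap S Q) (x : JZero N) := rfl

/-- **LC-CHEB** (frozen interface). -/
def H30xCheb : Prop :=
  ∀ {p : ℕ} {N : ℕ} [NeZero N] {S : Finset ℕ}
    {𝒪 : Type} [CommRing 𝒪] [IsDomain 𝒪] [IsDiscreteValuationRing 𝒪]
    [IsAdicComplete (IsLocalRing.maximalIdeal 𝒪) 𝒪]
    {θ : CuspForm.heckeAlgebra N 2 (↑S : Set ℕ) →+* IsLocalRing.ResidueField 𝒪}
    {T : Type} [CommRing T] [IsLocalRing T] [IsNoetherianRing T]
    [IsAdicComplete (IsLocalRing.maximalIdeal T) T] [Algebra 𝒪 T] [IsLocalHom (algebraMap 𝒪 T)]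
    [Module.Finite 𝒪 T] [Module.Free 𝒪 T],
    p.Prime → (p : 𝒪) ∈ IsLocalRing.maximalIdeal 𝒪 → p ∈ S →
    (∀ q : ℕ, q.Prime → q ∣ N → q ∈ S) →
    ∀ (H : CuspForm.HeckeGaloisRepDatum N (↑S : Set ℕ) 𝒪 θ T)
      (hc : HeckeOperatorsCommuteBar N) (k n : ℕ),
      ∃ τ δ : GQ → MvPolynomial Nat.Primes ℤ,
        (∀ g : GQ, h30xGal N p k g + h30xHecke N p k S hc (δ g) * h30xGal N p k g⁻¹ =
          h30xHecke N p k S hc (τ g)) ∧
        (∀ g h : GQ, h30xHecke N p k S hc (δ (g * h)) =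
          h30xHecke N p k S hc (δ g) * h30xHecke N p k S hc (δ h)) ∧
        h30xHecke N p k S hc (δ 1) = 1 ∧
        (∀ g : GQ, LinearMap.trace T H.ρ.V (H.ρ.ρ g) - H.π (TI_evS N S (τ g)) ∈
          IsLocalRing.maximalIdeal T ^ n) ∧
        (∀ g : GQ, LinearMap.det (H.ρ.ρ g) - H.π (TI_evS N S (δ g)) ∈
          IsLocalRing.maximalIdeal T ^ n)

/-- **LC-GKEY** (frozen interface). -/
def H30xGKey : Prop :=
  ∀ {p : ℕ} {N : ℕ} [NeZero N] {S : Finset ℕ}
    {𝒪 : Type} [CommRing 𝒪] [IsDomain 𝒪] [IsDiscreteValuationRing 𝒪]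
    [IsAdicComplete (IsLocalRing.maximalIdeal 𝒪) 𝒪]
    {θ : CuspForm.heckeAlgebra N 2 (↑S : Set ℕ) →+* IsLocalRing.ResidueField 𝒪}
    {T : Type} [CommRing T] [IsLocalRing T] [IsNoetherianRing T]
    [IsAdicComplete (IsLocalRing.maximalIdeal T) T] [Algebra 𝒪 T] [IsLocalHom (algebraMap 𝒪 T)]
    [Module.Finite 𝒪 T] [Module.Free 𝒪 T],
    p.Prime → (p : 𝒪) ∈ IsLocalRing.maximalIdeal 𝒪 → p ∈ S →
    (∀ q : ℕ, q.Prime → q ∣ N → q ∈ S) →
    ∀ (H : CuspForm.HeckeGaloisRepDatum N (↑S : Set ℕ) 𝒪 θ T)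
      (hc : HeckeOperatorsCommuteBar N),
      ∃ c : ℕ, ∀ (n : ℕ) (Q : MvPolynomial Nat.Primes ℤ),
        h30xHecke N p (c + n) S hc Q = 0 → H.π (TI_evS N S Q) ∈ IsLocalRing.maximalIdeal T ^ n

end Fermat.Agent.P5
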