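import Fermat.Agent.P5.H30LatTop
import Fermat.Agent.P5.H30LatCheb
import Fermat.Agent.P5.H23LatGKey

/-!
# Wave 5, pillar (P), S32: the lattice comparison, unconditionally (helper30)

* `h30x_lc : H30xLC` : for a Hecke–Galois datum `(T, ρ)` of level `N` (`p` odd) and an ideal `I`
  of finite index, `V / I V` is an equivariant quotient of a `G_ℚ`-stable subgroup of a finite
  power of `J₀(N)[p ^ k]`.
* `h30x_s32_of_s19` : the statement S32 from the conclusion of S19 at level `N` and the prime `p`.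
-/

set_option autoImplicit false
set_option linter.style.haveILetI false
set_option linter.unusedSectionVars false

open ModularCurve GaloisRep

namespace Fermat.Agent.P5

/-- **the lattice comparison.** -/
theorem h30x_lc : H30xLC := h30x_lc_of h30x_cheb h23x_gkey

/-- **S32 from S19.** -/
theorem h30x_s32_of_s19 {p : ℕ} {N : ℕ} [NeZero N] {S : Finset ℕ}
    {𝒪 : Type} [CommRing 𝒪] [IsDomain 𝒪] [IsDiscreteValuationRing 𝒪]
    [IsAdicComplete (IsLocalRing.maximalIdeal 𝒪) 𝒪]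
    {θ : CuspForm.heckeAlgebra N 2 (↑S : Set ℕ) →+* IsLocalRing.ResidueField 𝒪}
    {T : Type} [CommRing T] [IsLocalRing T] [IsNoetherianRing T]
    [IsAdicComplete (IsLocalRing.maximalIdeal T) T] [Algebra 𝒪 T] [IsLocalHom (algebraMap 𝒪 T)]
    [Module.Finite 𝒪 T] [Module.Free 𝒪 T]
    [Finite (IsLocalRing.ResidueField 𝒪)] [CharZero 𝒪]
    (hp : p.Prime) (hp2 : p ≠ 2) (hp𝒪 : (p : 𝒪) ∈ IsLocalRing.maximalIdeal 𝒪) (hpN : ¬ p ∣ N)
    (hpS : p ∈ S) (hNS : ∀ q : ℕ, q.Prime → q ∣ N → q ∈ S)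
    (H : CuspForm.HeckeGaloisRepDatum N (↑S : Set ℕ) 𝒪 θ T)
    (hS19 : H30xS19 N p) :
    H.ρ.IsFlatAt p :=
  h30x_isFlatAt_of_lc h30x_lc hp hp2 hp𝒪 hpN hpS hNS H hS19

end Fermat.Agent.P5
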