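import Fermat.Agent.P5.H30LatIface

/-!
# Wave 5, pillar (P), S32, leaf LC-ANN (helper70): annihilators and subquotients

`h70a_annSubq : H30xAnnSubq` (exact frozen Prop of `P5/H30LatIface.lean`, Mathlib only):
for finite `G`-modules `W`, `V` such that every integer combination of group elements killing
`W` kills `V`, the module `V` is an equivariant quotient of a `G`-stable subgroup of `W ^ r`.

Proof.  `s = |V|`, `t = |W|`, `E = (ℤ[G]) ^ s` (as `Fin s → (G →₀ ℤ)`),
`Ψ : E → W ^ (s t)`, `(x_i) ↦ (x_i w_j)`, `Φ : E → V`, `(x_i) ↦ ∑ x_i v_i`.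
`ker Ψ ⊆ ker Φ` by the hypothesis, so `Φ` factors through `X = range Ψ`; the factorisation is
surjective and equivariant for the left translation action of `G` on `E`.
-/

set_option autoImplicit false
set_option linter.style.haveILetI false

namespace Fermat.Agent.P5

section Act

variable {G : Type} [Group G] {W : Type} [AddCommGroup W]

/-- the action of a formal integer combination of group elements on a vector. -/
noncomputable def h70a_act (ρ : G →* AddMonoid.End W) (u : W) : (G →₀ ℤ) →+ W :=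
  Finsupp.liftAddHom (fun g => (zmultiplesHom W) (ρ g u))

theorem h70a_act_single (ρ : G →* AddMonoid.End W) (u : W) (g : G) (n : ℤ) :
    h70a_act ρ u (Finsupp.single g n) = n • ρ g u := by
  simp [h70a_act]

theorem h70a_act_eq_sum (ρ : G →* AddMonoid.End W) (u : W) (a : G →₀ ℤ) :
    h70a_act ρ u a = ∑ g ∈ a.support, a g • ρ g u := by
  simp [h70a_act, Finsupp.sum]

theorem h70a_act_fin (ρ : G →* AddMonoid.End W) (u : W) (a : G →₀ ℤ) :
    h70a_act ρ u a = ∑ k : Fin a.support.card,
      a (a.support.equivFin.symm k : G) • ρ (a.support.equivFin.symm k : G) u := by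
  rw [h70a_act_eq_sum, ← Finset.sum_coe_sort a.support (fun g => a g • ρ g u)]
  exact (Equiv.sum_comp a.support.equivFin.symm
    (fun p : a.support => a (p : G) • ρ (p : G) u)).symm

theorem h70a_act_mapDomain (ρ : G →* AddMonoid.End W) (u : W) (g : G) (a : G →₀ ℤ) :
    h70a_act ρ u (Finsupp.mapDomain (fun h => g * h) a) = ρ g (h70a_act ρ u a) := by
  induction a using Finsupp.induction_linear with
  | zero => simp
  | add a b ha hb => rw [Finsupp.mapDomain_add, map_add, map_add, map_add, ha, hb]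
  | single h n =>
    rw [Finsupp.mapDomain_single, h70a_act_single, h70a_act_single, map_mul, map_zsmul]
    rfl

end Act

/-- the hypothesis of `H30xAnnSubq` for formal combinations. -/
theorem h70a_ann {G : Type} [Group G] {W V : Type} [AddCommGroup W] [AddCommGroup V]
    (ρW : G →* AddMonoid.End W) (ρV : G →* AddMonoid.End V)
    (hyp : ∀ (m : ℕ) (n : Fin m → ℤ) (g : Fin m → G),
      (∀ w : W, ∑ i, n i • ρW (g i) w = 0) → ∀ v : V, ∑ i, n i • ρV (g i) v = 0)
    (a : G →₀ ℤ) (ha : ∀ w, h70a_act ρW w a = 0) (v : V) : h70a_act ρV v a = 0 := by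
  rw [h70a_act_fin]
  refine hyp a.support.card (fun k => a (a.support.equivFin.symm k : G))
    (fun k => (a.support.equivFin.symm k : G)) ?_ v
  intro w
  rw [← h70a_act_fin]
  exact ha w

/-- **LC-ANN** (exact frozen Prop, Mathlib only). -/
theorem h70a_annSubq : H30xAnnSubq := by
  intro G _ W V _ _ _ _ ρW ρV hyp
  classical
  cases nonempty_fintype W
  cases nonempty_fintype V
  set s := Fintype.card V with hs
  set t := Fintype.card W with ht
  let ev : Fin s ≃ V := (Fintype.equivFin V).symm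
  let ew : Fin t ≃ W := (Fintype.equivFin W).symm
  let idx : Fin (s * t) ≃ Fin s × Fin t := finProdFinEquiv.symm
  let Ψ : (Fin s → (G →₀ ℤ)) →+ (Fin (s * t) → W) :=
    AddMonoidHom.pi fun k =>
      (h70a_act ρW (ew (idx k).2)).comp (Pi.evalAddMonoidHom (fun _ : Fin s => G →₀ ℤ) (idx k).1)
  let Φ : (Fin s → (G →₀ ℤ)) →+ V :=
    ∑ i : Fin s, (h70a_act ρV (ev i)).comp (Pi.evalAddMonoidHom (fun _ : Fin s => G →₀ ℤ) i)
  have hΨ : ∀ x k, Ψ x k = h70a_act ρW (ew (idx k).2) (x (idx k).1) := fun _ _ => rfl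
  have hΦ : ∀ x, Φ x = ∑ i : Fin s, h70a_act ρV (ev i) (x i) := by
    intro x
    simp only [Φ, AddMonoidHom.finsetSum_apply, AddMonoidHom.comp_apply,
      Pi.evalAddMonoidHom_apply]
  have hker : Ψ.rangeRestrict.ker ≤ Φ.ker := by
    rw [AddMonoidHom.ker_rangeRestrict]
    intro x hx
    rw [AddMonoidHom.mem_ker] at hx ⊢
    have h1 : ∀ i w, h70a_act ρW w (x i) = 0 := by
      intro i w
      obtain ⟨j, rfl⟩ := ew.surjective w
      have h2 := congrFun hx (idx.symm (i, j))
      rw [hΨ, Equiv.apply_symm_apply] at h2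
      exact h2
    rw [hΦ]
    exact Finset.sum_eq_zero fun i _ => h70a_ann ρW ρV hyp (x i) (h1 i) (ev i)
  let f : Ψ.range →+ V :=
    Ψ.rangeRestrict.liftOfRightInverse (Function.surjInv Ψ.rangeRestrict_surjective)
      (Function.rightInverse_surjInv Ψ.rangeRestrict_surjective) ⟨Φ, hker⟩
  have hf : ∀ x, f (Ψ.rangeRestrict x) = Φ x := fun x =>
    AddMonoidHom.liftOfRightInverse_comp_apply Ψ.rangeRestrict _ _ ⟨Φ, hker⟩ x
  refine ⟨s * t, Ψ.range, f, ?_, ?_⟩
  · intro v
    obtain ⟨i, rfl⟩ := ev.surjective v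
    refine ⟨Ψ.rangeRestrict (Pi.single i (Finsupp.single 1 1)), ?_⟩
    rw [hf, hΦ, Finset.sum_eq_single i]
    · rw [Pi.single_eq_same, h70a_act_single, map_one, one_smul]
      rfl
    · intro j _ hj
      rw [Pi.single_eq_of_ne hj, map_zero]
    · intro h
      exact absurd (Finset.mem_univ i) h
  · intro g x
    obtain ⟨x', hx'⟩ := Ψ.rangeRestrict_surjective x
    refine ⟨Ψ.rangeRestrict fun i => Finsupp.mapDomain (fun h => g * h) (x' i), ?_, ?_⟩
    · intro k
      rw [← hx']
      show Ψ (fun i => Finsupp.mapDomain (fun h => g * h) (x' i)) k = ρW g (Ψ x' k)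
      rw [hΨ, hΨ, h70a_act_mapDomain]
    · rw [hf, ← hx', hf, hΦ, hΦ, map_sum]
      exact Finset.sum_congr rfl fun i _ => h70a_act_mapDomain ρV (ev i) g (x' i)

end Fermat.Agent.P5
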