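import Fermat.Agent.P5.H80LatKeyV
import Fermat.Agent.P5.H30LatIface

/-!
# P5 (wave 5, S32), leaf LC-KEY (helper80, second seat): `h80k5_key : H30xKey`

The annihilator comparison (exact frozen Prop of `P5/H30LatIface.lean`, helper30).

`ℤ[G]` the group ring, `R_W, R_V` the ring homomorphisms extending `ρW, ρ`, `Tau` the additive
extension of `τ`, `Iota z = Θ (Tau z) - R_W z` (the "adjoint": `Iota g = Θ (δ g) ρW (g⁻¹)` on
group elements).  `Iota` is anti-multiplicative, hence (`h80k5_Wside`)

* `R_W y = 0 ⟹ R_W (a b - b a) · Θ (Tau y) = 0`;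
* `Θ (Tau c ^ 2 - Tau (c ^ 2)) = 2 R_W c · Iota c`.

`c` an integer combination of commutators with `det R_V c` a unit (`h80k5_exists_unit_det`):
`π (Tau c ^ 2 - Tau (c ^ 2)) ≡ 2 det R_V c` is a unit, so `R_W c` is injective and
`Θ (Tau y) = 0`; then `tr (R_V x · ρ h) ∈ I` for all `h`, and the trace form concludes.
-/

set_option autoImplicit false
set_option linter.unusedSectionVars false
set_option linter.unusedVariables false
set_option linter.style.longLine false
set_option linter.unusedSimpArgs false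
set_option linter.unnecessarySimpa false

open IsLocalRing

noncomputable section

namespace Fermat.Agent.P5

/-- **the `W`-side, abstractly.** -/
theorem h80k5_Wside {A E P : Type*} [Ring A] [Ring E] [CommRing P] (R : A →+* E) (Θ : P →+* E)
    (Tau : A →+ P) (hc : ∀ (a : P) (z : A), Commute (Θ a) (R z))
    (hanti : ∀ z w : A,
      Θ (Tau (z * w)) - R (z * w) = (Θ (Tau w) - R w) * (Θ (Tau z) - R z)) :
    (∀ y : A, R y = 0 → ∀ a b : A, R (a * b - b * a) * Θ (Tau y) = 0) ∧
    (∀ c : A, Θ (Tau c * Tau c - Tau (c * c)) =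
      R c * (Θ (Tau c) - R c) + R c * (Θ (Tau c) - R c)) := by
  constructor
  · intro y hy a b
    have h1 : R (y * a) = 0 := by rw [map_mul, hy, zero_mul]
    have h2 := hanti y a
    rw [h1, hy, sub_zero, sub_zero] at h2
    -- `h2 : Θ (Tau (y a)) = (Θ (Tau a) - R a) Θ (Tau y)`
    have h3 : R b * ((Θ (Tau a) - R a) * Θ (Tau y)) = (Θ (Tau a) - R a) * Θ (Tau y) * R b := by
      rw [← h2]
      exact ((hc _ b).eq).symm
    have h4 : Θ (Tau y) * R b = R b * Θ (Tau y) := (hc _ b).eq
    have h5 : R b * Θ (Tau a) = Θ (Tau a) * R b := ((hc _ b).eq).symm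
    have h6 : R b * ((Θ (Tau a) - R a) * Θ (Tau y)) =
        Θ (Tau a) * R b * Θ (Tau y) - R b * R a * Θ (Tau y) := by
      rw [← mul_assoc, mul_sub, h5]
      rw [sub_mul]
    have h7 : (Θ (Tau a) - R a) * Θ (Tau y) * R b =
        Θ (Tau a) * R b * Θ (Tau y) - R a * R b * Θ (Tau y) := by
      rw [mul_assoc, h4, ← mul_assoc, sub_mul, sub_mul]
    rw [h6, h7] at h3
    have h8 : R a * R b * Θ (Tau y) = R b * R a * Θ (Tau y) := by
      have := sub_right_injective h3
      exact this.symm
    rw [map_sub, map_mul, map_mul, sub_mul, h8, sub_self]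
  · intro c
    have h2 := hanti c c
    have h5 : R c * Θ (Tau c) = Θ (Tau c) * R c := ((hc _ c).eq).symm
    have h6 : Θ (Tau (c * c)) = R (c * c) + (Θ (Tau c) - R c) * (Θ (Tau c) - R c) := by
      rw [← h2]
      abel
    rw [map_sub, map_mul, h6, map_mul]
    have h7 : (Θ (Tau c) - R c) * (Θ (Tau c) - R c) =
        Θ (Tau c) * Θ (Tau c) - Θ (Tau c) * R c - Θ (Tau c) * R c + R c * R c := by
      rw [sub_mul, mul_sub, mul_sub, h5]
      abel
    rw [h7, mul_sub, h5]
    abel

/-- injectivity of the left factor of an injective product on a finite type. -/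
theorem h80k5_inj_left {W : Type*} [AddCommGroup W] [Finite W] (f g : AddMonoid.End W)
    (h : Function.Injective ((f * g : AddMonoid.End W) : W → W)) :
    Function.Injective (f : W → W) := by
  have hg : Function.Injective (g : W → W) := by
    intro w₁ w₂ h12
    apply h
    show f (g w₁) = f (g w₂)
    rw [h12]
  have hgs : Function.Surjective (g : W → W) := Finite.injective_iff_surjective.mp hg
  intro w₁ w₂ h12
  obtain ⟨u₁, rfl⟩ := hgs w₁
  obtain ⟨u₂, rfl⟩ := hgs w₂
  have : u₁ = u₂ := h h12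
  rw [this]

/-- **LC-KEY** (exact frozen Prop). -/
theorem h80k5_key : H30xKey := by
  intro G _ W _ _ ρW P _ Θ T _ _ π I V _ _ _ _ ρ τ δ hrank h2 hcomm hES hδmul hδ1 htr hdet
    hspan hkey hinj m n g hW v
  classical
  by_cases hI : I = ⊤
  · rw [hI]
    simp
  have hIm : I ≤ maximalIdeal T := IsLocalRing.le_maximalIdeal hI
  -- the extensions to the group ring
  let RW : MonoidAlgebra ℤ G →+* AddMonoid.End W :=
    (MonoidAlgebra.lift ℤ (AddMonoid.End W) G ρW : MonoidAlgebra ℤ G →ₐ[ℤ] AddMonoid.End W)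
  let RV : MonoidAlgebra ℤ G →+* Module.End T V :=
    (MonoidAlgebra.lift ℤ (Module.End T V) G ρ : MonoidAlgebra ℤ G →ₐ[ℤ] Module.End T V)
  let Tau : MonoidAlgebra ℤ G →+ P := MonoidAlgebra.liftNC (Int.castAddHom P) τ
  have hRWof : ∀ k : G, RW (MonoidAlgebra.of ℤ G k) = ρW k := fun k =>
    MonoidAlgebra.lift_of ρW k
  have hRVof : ∀ k : G, RV (MonoidAlgebra.of ℤ G k) = ρ k := fun k =>
    MonoidAlgebra.lift_of ρ k
  have hTauof : ∀ k : G, Tau (MonoidAlgebra.of ℤ G k) = τ k := fun k => by
    show MonoidAlgebra.liftNC (Int.castAddHom P) τ (MonoidAlgebra.of ℤ G k) = τ k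
    rw [MonoidAlgebra.of_apply, MonoidAlgebra.liftNC_single]
    simp
  -- commutation
  have hc : ∀ (a : P) (z : MonoidAlgebra ℤ G), Commute (Θ a) (RW z) := by
    intro a z
    refine MonoidAlgebra.induction_on (motive := fun z => Commute (Θ a) (RW z)) z ?_ ?_ ?_
    · intro k
      rw [hRWof]
      exact hcomm a k
    · intro x y hx hy
      rw [map_add]
      exact hx.add_right hy
    · intro r x hx
      rw [map_zsmul]
      exact Commute.smul_right (show Commute (Θ a) (RW x) from hx) r
  -- traces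
  have htrz : ∀ z : MonoidAlgebra ℤ G, LinearMap.trace T V (RV z) - π (Tau z) ∈ I := by
    intro z
    refine MonoidAlgebra.induction_on
      (motive := fun z => LinearMap.trace T V (RV z) - π (Tau z) ∈ I) z ?_ ?_ ?_
    · intro k
      rw [hRVof, hTauof]
      exact htr k
    · intro x y hx hy
      have h1 : LinearMap.trace T V (RV (x + y)) - π (Tau (x + y)) =
          (LinearMap.trace T V (RV x) - π (Tau x)) + (LinearMap.trace T V (RV y) - π (Tau y)) := by
        rw [map_add, map_add, map_add, map_add]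
        ring
      rw [h1]
      exact I.add_mem hx hy
    · intro r x hx
      have h1 : LinearMap.trace T V (RV (r • x)) - π (Tau (r • x)) =
          r • (LinearMap.trace T V (RV x) - π (Tau x)) := by
        rw [map_zsmul, map_zsmul, map_zsmul, map_zsmul, smul_sub]
      rw [h1]
      exact I.toAddSubgroup.zsmul_mem hx r
  -- the adjoint
  let Iota : MonoidAlgebra ℤ G →+ AddMonoid.End W :=
    (Θ : P →+ AddMonoid.End W).comp Tau - (RW : MonoidAlgebra ℤ G →+ AddMonoid.End W)
  have hIota : ∀ z, Iota z = Θ (Tau z) - RW z := fun z => rfl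
  have hIotaof : ∀ k : G, Iota (MonoidAlgebra.of ℤ G k) = Θ (δ k) * ρW k⁻¹ := by
    intro k
    rw [hIota, hTauof, hRWof, ← hES k]
    abel
  have hδinv : ∀ a b : P, Θ a * Θ b = Θ b * Θ a := fun a b => by
    rw [← map_mul, ← map_mul, mul_comm]
  -- anti-multiplicativity
  have hanti' : ∀ z w : MonoidAlgebra ℤ G, Iota (z * w) = Iota w * Iota z := by
    intro z
    refine MonoidAlgebra.induction_on
      (motive := fun z => ∀ w : MonoidAlgebra ℤ G, Iota (z * w) = Iota w * Iota z) z ?_ ?_ ?_
    · intro k w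
      refine MonoidAlgebra.induction_on
        (motive := fun w => Iota (MonoidAlgebra.of ℤ G k * w) =
          Iota w * Iota (MonoidAlgebra.of ℤ G k)) w ?_ ?_ ?_
      · intro h
        rw [← map_mul (MonoidAlgebra.of ℤ G), hIotaof, hIotaof, hIotaof, hδmul, mul_inv_rev,
          map_mul]
        have h1 : Θ (δ k) * ρW h⁻¹ = ρW h⁻¹ * Θ (δ k) := (hcomm (δ k) h⁻¹).eq
        calc Θ (δ k) * Θ (δ h) * (ρW h⁻¹ * ρW k⁻¹)
            = Θ (δ h) * (Θ (δ k) * ρW h⁻¹) * ρW k⁻¹ := by
              rw [hδinv (δ k) (δ h)]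
              simp only [mul_assoc]
          _ = Θ (δ h) * ρW h⁻¹ * (Θ (δ k) * ρW k⁻¹) := by
              rw [h1]
              simp only [mul_assoc]
      · intro x y hx hy
        rw [mul_add, map_add, hx, hy, map_add, add_mul]
      · intro r x hx
        rw [mul_smul_comm, map_zsmul, hx, map_zsmul, smul_mul_assoc]
    · intro x y hx hy w
      rw [add_mul, map_add, hx w, hy w, map_add, mul_add]
    · intro r x hx w
      rw [smul_mul_assoc, map_zsmul, hx w, map_zsmul, mul_smul_comm]
  obtain ⟨hW1, hW2⟩ := h80k5_Wside RW Θ Tau hc (fun z w => by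
    have := hanti' z w
    rw [hIota, hIota, hIota] at this
    exact this)
  -- the unit commutator combination
  obtain ⟨cV, hcV, hunit⟩ := h80k5_exists_unit_det hrank (Set.range ρ) hspan
  let Cz : AddSubgroup (MonoidAlgebra ℤ G) := AddSubgroup.closure
    {z | ∃ a b : G, z = MonoidAlgebra.of ℤ G a * MonoidAlgebra.of ℤ G b
      - MonoidAlgebra.of ℤ G b * MonoidAlgebra.of ℤ G a}
  have hle : AddSubgroup.closure
      {Z : Module.End T V | ∃ a ∈ Set.range ρ, ∃ b ∈ Set.range ρ, Z = a * b - b * a}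
      ≤ Cz.map (RV : MonoidAlgebra ℤ G →+ Module.End T V) := by
    rw [AddSubgroup.closure_le]
    rintro Z ⟨a', ⟨a, rfl⟩, b', ⟨b, rfl⟩, rfl⟩
    refine ⟨MonoidAlgebra.of ℤ G a * MonoidAlgebra.of ℤ G b
      - MonoidAlgebra.of ℤ G b * MonoidAlgebra.of ℤ G a,
      AddSubgroup.subset_closure ⟨a, b, rfl⟩, ?_⟩
    show RV _ = _
    rw [map_sub, map_mul, map_mul, hRVof, hRVof]
  obtain ⟨c, hcCz, hcRV⟩ := hle hcV
  have hcRV' : RV c = cV := hcRV
  -- `RW c` is injective
  have hb0 : π (Tau c * Tau c - Tau (c * c)) ∉ maximalIdeal T := by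
    intro hmem
    have h3 := h80k5_two_det hrank (RV c)
    have h4 : π (Tau c * Tau c - Tau (c * c)) - 2 * LinearMap.det (RV c) ∈ I := by
      rw [← h3, ← map_mul RV]
      have h5 : π (Tau c * Tau c - Tau (c * c)) - (LinearMap.trace T V (RV c)
          * LinearMap.trace T V (RV c) - LinearMap.trace T V (RV (c * c)))
          = (LinearMap.trace T V (RV (c * c)) - π (Tau (c * c)))
            - (LinearMap.trace T V (RV c) - π (Tau c)) * (LinearMap.trace T V (RV c) + π (Tau c)) := by
        rw [map_sub, map_mul]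
        ring
      rw [h5]
      exact I.sub_mem (htrz _) (I.mul_mem_right _ (htrz _))
    have h6 : 2 * LinearMap.det (RV c) ∈ maximalIdeal T := by
      have := (maximalIdeal T).sub_mem hmem (hIm h4)
      simpa using this
    have h7 : IsUnit (2 * LinearMap.det (RV c)) := by
      rw [hcRV']
      exact ((IsLocalRing.notMem_maximalIdeal.mp h2)).mul hunit
    exact (IsLocalRing.mem_maximalIdeal _).mp h6 h7
  have hinjc : Function.Injective (RW c : W → W) := by
    have h3 := hinj _ hb0
    rw [hW2 c, ← mul_add] at h3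
    exact h80k5_inj_left _ _ h3
  -- the main claim
  have hmain : ∀ y : MonoidAlgebra ℤ G, RW y = 0 → Θ (Tau y) = 0 := by
    intro y hy
    have h3 : ∀ c' ∈ Cz, RW c' * Θ (Tau y) = 0 := by
      intro c' hc'
      refine AddSubgroup.closure_induction (p := fun c' _ => RW c' * Θ (Tau y) = 0)
        ?_ ?_ ?_ ?_ hc'
      · rintro z ⟨a, b, rfl⟩
        exact hW1 y hy _ _
      · rw [map_zero, zero_mul]
      · intro x x' _ _ hx hx'
        rw [map_add, add_mul, hx, hx', add_zero]
      · intro x _ hx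
        rw [map_neg, neg_mul, hx, neg_zero]
    have h4 := h3 c hcCz
    apply AddMonoidHom.ext
    intro w
    apply hinjc
    have h5 : (RW c * Θ (Tau y)) w = (0 : AddMonoid.End W) w := by rw [h4]
    have h6 : (RW c) ((Θ (Tau y)) w) = 0 := h5
    exact h6.trans (AddMonoidHom.map_zero (RW c : W →+ W)).symm
  -- the element `x`
  let x : MonoidAlgebra ℤ G := ∑ i, n i • MonoidAlgebra.of ℤ G (g i)
  have hRWx : RW x = 0 := by
    apply AddMonoidHom.ext
    intro w
    have h3 : RW x = ∑ i, n i • ρW (g i) := by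
      show RW (∑ i, n i • MonoidAlgebra.of ℤ G (g i)) = _
      rw [map_sum]
      refine Finset.sum_congr rfl fun i _ => ?_
      rw [map_zsmul, hRWof]
    rw [h3]
    have h4 : (∑ i, n i • ρW (g i)) w = ∑ i, n i • ρW (g i) w :=
      map_sum (AddMonoidHom.eval w : (W →+ W) →+ W) (fun i => n i • (ρW (g i) : W →+ W))
        Finset.univ
    exact h4.trans (hW w)
  have hRVx : RV x v = ∑ i, n i • ρ (g i) v := by
    have h3 : RV x = ∑ i, n i • ρ (g i) := by
      show RV (∑ i, n i • MonoidAlgebra.of ℤ G (g i)) = _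
      rw [map_sum]
      refine Finset.sum_congr rfl fun i _ => ?_
      rw [map_zsmul, hRVof]
    rw [h3, LinearMap.sum_apply]
    rfl
  rw [← hRVx]
  -- the trace form
  apply h80k5_trace_form I (RV x)
  intro Y
  have hY : Y ∈ Submodule.span T (Set.range ρ) := by rw [hspan]; trivial
  refine Submodule.span_induction
    (p := fun Y _ => LinearMap.trace T V (RV x * Y) ∈ I) ?_ ?_ ?_ ?_ hY
  · rintro _ ⟨h, rfl⟩
    have h3 : RW (x * MonoidAlgebra.of ℤ G h) = 0 := by rw [map_mul, hRWx, zero_mul]
    have h4 := hkey _ (hmain _ h3)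
    have h5 := htrz (x * MonoidAlgebra.of ℤ G h)
    rw [map_mul, hRVof] at h5
    have h6 : LinearMap.trace T V (RV x * ρ h) =
        (LinearMap.trace T V (RV x * ρ h) - π (Tau (x * MonoidAlgebra.of ℤ G h)))
          + π (Tau (x * MonoidAlgebra.of ℤ G h)) := by ring
    rw [h6]
    exact I.add_mem h5 h4
  · rw [mul_zero, map_zero]
    exact I.zero_mem
  · intro Y Y' _ _ h3 h4
    rw [mul_add, map_add]
    exact I.add_mem h3 h4
  · intro t Y _ h3
    rw [mul_smul_comm, map_smul]
    exact I.mul_mem_left _ h3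

end Fermat.Agent.P5
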