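import Fermat.Agent.P5.H30LatChebIface
import Fermat.Agent.P5.H80LatKey
import Fermat.Agent.P5.H70AnnSubq
import Fermat.Agent.P5.H23LatLoc
import Fermat.Agent.S31.Rigid
import Fermat.Agent.S30.Inputs

/-!
# Wave 5, pillar (P), S32: the lattice comparison, assembly (helper30)

`h30x_lc_of : H30xCheb → H30xGKey → H30xLC`: for a Hecke–Galois datum `(T, ρ)` of level `N`
and an ideal `I` of finite index, `V / I V` is an equivariant quotient of a `G_ℚ`-stable subgroup
of a finite power of `J₀(N)[p ^ k]`.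

Assembly of the three algebraic leaves (`h70a_annSubq`, `h23x_loc`, `h80k5_key`) with the two
arithmetic leaves (`H30xCheb`, `H30xGKey`).
-/

set_option autoImplicit false
set_option linter.style.haveILetI false
set_option linter.unusedSectionVars false

open ModularCurve GaloisRep

noncomputable section

namespace Fermat.Agent.P5

open Fermat.Agent.S29 (GQ)
open Fermat.Agent.S31 (TI_evS tpjGal tpjHecke)

/-! ## A power of the maximal ideal lies in an ideal of finite index -/

theorem h30x_pow_le {T : Type} [CommRing T] [IsLocalRing T] [IsNoetherianRing T] (I : Ideal T)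
    [Finite (T ⧸ I)] : ∃ n : ℕ, IsLocalRing.maximalIdeal T ^ n ≤ I := by
  have hrad : IsLocalRing.maximalIdeal T ≤ I.radical := by
    intro x hx
    have hninj : ¬ Function.Injective (fun a : ℕ => (Ideal.Quotient.mk I x) ^ a) :=
      not_injective_infinite_finite _
    have hex : ∃ a b : ℕ, (Ideal.Quotient.mk I x) ^ a = (Ideal.Quotient.mk I x) ^ b ∧ a ≠ b := by
      by_contra hcon
      refine hninj fun a b hab => ?_
      by_contra hne
      exact hcon ⟨a, b, hab, hne⟩
    obtain ⟨a, b, hab, hne⟩ := hex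
    -- wlog a < b
    have key : ∀ a b : ℕ, a < b → (Ideal.Quotient.mk I x) ^ a = (Ideal.Quotient.mk I x) ^ b →
        x ∈ I.radical := by
      intro a b hlt h
      have h1 : x ^ a - x ^ b ∈ I := by
        rw [← Ideal.Quotient.eq, map_pow, map_pow]
        exact h
      have h2 : x ^ a - x ^ b = x ^ a * (1 - x ^ (b - a)) := by
        rw [mul_sub, mul_one, ← pow_add, Nat.add_sub_cancel' hlt.le]
      have h3 : x ^ (b - a) ∈ IsLocalRing.maximalIdeal T :=
        Ideal.pow_mem_of_mem _ hx _ (Nat.sub_pos_of_lt hlt)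
      have h4 : IsUnit (1 - x ^ (b - a)) :=
        IsLocalRing.isUnit_one_sub_self_of_mem_nonunits _ h3
      rw [h2] at h1
      exact ⟨a, (Ideal.mul_unit_mem_iff_mem I h4).mp h1⟩
    rcases Nat.lt_or_gt_of_ne hne with h | h
    · exact key a b h hab
    · exact key b a h hab.symm
  exact Ideal.exists_pow_le_of_le_radical_of_fg hrad
    (IsNoetherian.noetherian (IsLocalRing.maximalIdeal T))

/-! ## Restriction of endomorphisms to a stable subgroup -/

section Restrict

variable {A : Type} [AddCommGroup A] (W : AddSubgroup A)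

/-- restriction of an endomorphism to a stable subgroup. -/
def h30xRestr (φ : AddMonoid.End A) (hφ : ∀ w ∈ W, φ w ∈ W) : AddMonoid.End W :=
  AddMonoidHom.codRestrict (AddMonoidHom.comp φ W.subtype) W (fun w => hφ w w.2)

theorem h30xRestr_apply (φ : AddMonoid.End A) (hφ : ∀ w ∈ W, φ w ∈ W) (w : W) :
    ((h30xRestr W φ hφ w : W) : A) = φ (w : A) := rfl

/-- restriction of a group action. -/
def h30xResG {G : Type} [Group G] (ρ : G →* AddMonoid.End A)
    (h : ∀ g : G, ∀ w ∈ W, ρ g w ∈ W) : G →* AddMonoid.End W where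
  toFun g := h30xRestr W (ρ g) (h g)
  map_one' := by
    ext w
    rw [h30xRestr_apply, map_one]
    rfl
  map_mul' a b := by
    ext w
    rw [h30xRestr_apply, map_mul]
    rfl

theorem h30xResG_apply {G : Type} [Group G] (ρ : G →* AddMonoid.End A)
    (h : ∀ g : G, ∀ w ∈ W, ρ g w ∈ W) (g : G) (w : W) :
    ((h30xResG W ρ h g w : W) : A) = ρ g (w : A) := rfl

/-- restriction of a ring action. -/
def h30xResR {P : Type} [CommRing P] (Θ : P →+* AddMonoid.End A)
    (h : ∀ a : P, ∀ w ∈ W, Θ a w ∈ W) : P →+* AddMonoid.End W where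
  toFun a := h30xRestr W (Θ a) (h a)
  map_one' := by
    ext w
    rw [h30xRestr_apply, map_one]
    rfl
  map_mul' a b := by
    ext w
    rw [h30xRestr_apply, map_mul]
    rfl
  map_zero' := by
    ext w
    rw [h30xRestr_apply, map_zero]
    rfl
  map_add' a b := by
    ext w
    rw [h30xRestr_apply, map_add]
    rfl

theorem h30xResR_apply {P : Type} [CommRing P] (Θ : P →+* AddMonoid.End A)
    (h : ∀ a : P, ∀ w ∈ W, Θ a w ∈ W) (a : P) (w : W) :
    ((h30xResR W Θ h a w : W) : A) = Θ a (w : A) := rfl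

end Restrict

/-! ## The action on `V / I V` -/

section Level

variable {T : Type} [CommRing T] [IsLocalRing T]

/-- the action of `G_ℚ` on `V / I V`, as a homomorphism to additive endomorphisms. -/
def h30xLevel (ρ : GaloisRepAdic T) (I : Ideal T) :
    GQ →* AddMonoid.End (ρ.V ⧸ (I • (⊤ : Submodule T ρ.V))) where
  toFun σ := (ρ.levelAction I σ).toAddMonoidHom
  map_one' := by
    ext z
    obtain ⟨v, rfl⟩ := Submodule.Quotient.mk_surjective _ z
    show ρ.levelAction I 1 (Submodule.Quotient.mk v) = Submodule.Quotient.mk v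
    rw [GaloisRepAdic.levelAction, Submodule.mapQ_apply, map_one]
    rfl
  map_mul' a b := by
    ext z
    obtain ⟨v, rfl⟩ := Submodule.Quotient.mk_surjective _ z
    show ρ.levelAction I (a * b) (Submodule.Quotient.mk v) =
      ρ.levelAction I a (ρ.levelAction I b (Submodule.Quotient.mk v))
    rw [GaloisRepAdic.levelAction, GaloisRepAdic.levelAction, GaloisRepAdic.levelAction,
      Submodule.mapQ_apply, Submodule.mapQ_apply, Submodule.mapQ_apply, map_mul]
    rfl

theorem h30xLevel_apply (ρ : GaloisRepAdic T) (I : Ideal T) (σ : GQ)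
    (z : ρ.V ⧸ (I • (⊤ : Submodule T ρ.V))) :
    h30xLevel ρ I σ z = ρ.levelAction I σ z := rfl

theorem h30xLevel_mk (ρ : GaloisRepAdic T) (I : Ideal T) (σ : GQ) (v : ρ.V) :
    h30xLevel ρ I σ (Submodule.Quotient.mk v) = Submodule.Quotient.mk (ρ.ρ σ v) := by
  rw [h30xLevel_apply, GaloisRepAdic.levelAction, Submodule.mapQ_apply]

end Level

/-- `J₀(N)[p ^ k]` is finite. -/
theorem h30x_finite_tors (N p k : ℕ) [NeZero N] (hp : p.Prime) : Finite (h30xTors N p k) := by
  have h := (Fermat.Agent.S30.geometricInputsFull.2.2.1 N (p ^ k) (pow_pos hp.pos k)).1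
  have e : {x : JZero N | (p ^ k) • x = 0} =
      ((Submodule.torsionBy ℤ (JZero N) ((p : ℤ) ^ k) : Submodule ℤ (JZero N)) :
        Set (JZero N)) := by
    ext x
    rw [Set.mem_setOf_eq, SetLike.mem_coe, Submodule.mem_torsionBy_iff, ← Nat.cast_pow,
      natCast_zsmul]
  rw [e] at h
  exact h.to_subtype

/-! ## The assembly -/

set_option maxHeartbeats 4000000 in
/-- **the lattice comparison**, from the two arithmetic leaves. -/
theorem h30x_lc_of (hCheb : H30xCheb) (hGKey : H30xGKey) : H30xLC := by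
  intro p N _ S 𝒪 _ _ _ _ θ T _ _ _ _ _ _ _ _ _ _ hp hp2 hp𝒪 hpN hpS hNS H I hI
  haveI := hI
  have hHG := Fermat.Agent.S30.geometricInputsFull.1 N
  have hc : HeckeOperatorsCommuteBar N := hHG.1
  -- `p` is not a unit of `T`, `2` is
  have hpT : (p : T) ∈ IsLocalRing.maximalIdeal T := by
    have h1 : (p : T) = algebraMap 𝒪 T (p : 𝒪) := (map_natCast (algebraMap 𝒪 T) p).symm
    rw [h1, IsLocalRing.mem_maximalIdeal, mem_nonunits_iff]
    intro hu
    exact (IsLocalRing.mem_maximalIdeal _).mp hp𝒪 (isUnit_of_map_unit (algebraMap 𝒪 T) _ hu)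
  have h2T : (2 : T) ∉ IsLocalRing.maximalIdeal T := by
    have hnd : ¬ p ∣ 2 := fun h => hp2 ((Nat.prime_dvd_prime_iff_eq hp Nat.prime_two).mp h)
    have hu : IsUnit ((2 : ℕ) : T) := Fermat.Agent.S31.TI_isUnit_natCast hp hpT hnd
    rw [Nat.cast_ofNat] at hu
    intro hmem
    exact (IsLocalRing.mem_maximalIdeal _).mp hmem hu
  -- the exponents
  obtain ⟨n, hn⟩ := h30x_pow_le I
  obtain ⟨c, hgk⟩ := hGKey hp hp𝒪 hpS hNS H hc
  have hX := hCheb hp hp𝒪 hpS hNS H hc (c + n) n
  obtain ⟨τ, δ, h1, h2, h3, h4, h5⟩ := hX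
  haveI hfinW : Finite (h30xTors N p (c + n)) := h30x_finite_tors N p (c + n) hp
  haveI : Finite (IsLocalRing.ResidueField T) := h30x_finite_residueField H
  haveI : Finite (H.ρ.V ⧸ (I • (⊤ : Submodule T H.ρ.V))) := h30x_finite_level H.ρ I
  -- notation
  let Θ₀ : MvPolynomial Nat.Primes ℤ →+* AddMonoid.End (h30xTors N p (c + n)) :=
    h30xHecke N p (c + n) S hc
  let ρ₀ : GQ →* AddMonoid.End (h30xTors N p (c + n)) := h30xGal N p (c + n)
  let π' : MvPolynomial Nat.Primes ℤ →+* T :=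
    H.π.comp (TI_evS N S : MvPolynomial Nat.Primes ℤ →+* CuspForm.heckeAlgebra N 2 (↑S : Set ℕ))
  have hcomm₀ : ∀ (a : MvPolynomial Nat.Primes ℤ) (g : GQ), Commute (Θ₀ a) (ρ₀ g) := by
    intro a g
    exact (Fermat.Agent.S31.tpj_commute N hHG (h30xKap S a) g).map (h30xResT N p (c + n))
  -- localisation
  obtain ⟨W, hW1, hW2, hW3⟩ := h23x_loc (h30xTors N p (c + n)) (MvPolynomial Nat.Primes ℤ) Θ₀ T
    π' I (fun Q hQ => hn (hgk n Q hQ))
  have hWG : ∀ g : GQ, ∀ w ∈ W, ρ₀ g w ∈ W := fun g =>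
    hW1 (ρ₀ g) (fun a => hcomm₀ a g)
  have hWΘ : ∀ a : MvPolynomial Nat.Primes ℤ, ∀ w ∈ W, Θ₀ a w ∈ W := fun a =>
    hW1 (Θ₀ a) (fun b => by
      show Θ₀ b * Θ₀ a = Θ₀ a * Θ₀ b
      rw [← map_mul, ← map_mul, mul_comm])
  let ρW : GQ →* AddMonoid.End W := h30xResG W ρ₀ hWG
  let Θ : MvPolynomial Nat.Primes ℤ →+* AddMonoid.End W := h30xResR W Θ₀ hWΘ
  -- the hypotheses of the key lemma
  have hcomm : ∀ (a : MvPolynomial Nat.Primes ℤ) (g : GQ), Commute (Θ a) (ρW g) := by
    intro a g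
    show Θ a * ρW g = ρW g * Θ a
    refine AddMonoidHom.ext fun w => Subtype.ext ?_
    exact congrArg (fun φ : AddMonoid.End (h30xTors N p (c + n)) => φ (w : h30xTors N p (c + n)))
      (hcomm₀ a g).eq
  have hrel : ∀ g : GQ, ρW g + Θ (δ g) * ρW g⁻¹ = Θ (τ g) := by
    intro g
    refine AddMonoidHom.ext fun w => Subtype.ext ?_
    exact congrArg (fun φ : AddMonoid.End (h30xTors N p (c + n)) => φ (w : h30xTors N p (c + n)))
      (h1 g)
  have hmul : ∀ g h : GQ, Θ (δ (g * h)) = Θ (δ g) * Θ (δ h) := by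
    intro g h
    refine AddMonoidHom.ext fun w => Subtype.ext ?_
    exact congrArg (fun φ : AddMonoid.End (h30xTors N p (c + n)) => φ (w : h30xTors N p (c + n)))
      (h2 g h)
  have hone : Θ (δ 1) = 1 := by
    refine AddMonoidHom.ext fun w => Subtype.ext ?_
    exact congrArg (fun φ : AddMonoid.End (h30xTors N p (c + n)) => φ (w : h30xTors N p (c + n)))
      h3
  have htr : ∀ g : GQ, LinearMap.trace T H.ρ.V (H.ρ.ρ g) - π' (τ g) ∈ I := fun g => hn (h4 g)
  have hdet : ∀ g : GQ, LinearMap.det (H.ρ.ρ g) - π' (δ g) ∈ I := fun g => hn (h5 g)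
  have hspan : Submodule.span T (Set.range H.ρ.ρ) = ⊤ :=
    Fermat.Agent.S31.rig_span_range_eq_top H.ρ H.residual_absIrr
  have hkeyW : ∀ Q : MvPolynomial Nat.Primes ℤ, Θ Q = 0 → π' Q ∈ I := by
    intro Q hQ
    refine hW2 Q (fun w hw => ?_)
    have := congrArg (fun φ : AddMonoid.End W => ((φ ⟨w, hw⟩ : W) : h30xTors N p (c + n))) hQ
    exact this
  have hinj : ∀ u : MvPolynomial Nat.Primes ℤ, π' u ∉ IsLocalRing.maximalIdeal T →
      Function.Injective (Θ u) := by
    intro u hu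
    rw [injective_iff_map_eq_zero]
    intro w hw
    apply Subtype.ext
    refine hW3 u hu (w : h30xTors N p (c + n)) w.2 ?_
    exact congrArg (fun z : W => (z : h30xTors N p (c + n))) hw
  have hkey := h80k5_key GQ W ρW (MvPolynomial Nat.Primes ℤ) Θ T π' I H.ρ.V H.ρ.ρ τ δ
    H.ρ.finrank_eq h2T hcomm hrel hmul hone htr hdet hspan hkeyW hinj
  -- the annihilator comparison
  have hann : ∀ (m : ℕ) (nn : Fin m → ℤ) (g : Fin m → GQ),
      (∀ w : h30xTors N p (c + n), ∑ i, nn i • ρ₀ (g i) w = 0) →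
      ∀ v : H.ρ.V ⧸ (I • (⊤ : Submodule T H.ρ.V)), ∑ i, nn i • h30xLevel H.ρ I (g i) v = 0 := by
    intro m nn g hw v
    obtain ⟨v, rfl⟩ := Submodule.Quotient.mk_surjective _ v
    have hW' : ∀ w : W, ∑ i, nn i • ρW (g i) w = 0 := by
      intro w
      apply W.subtype_injective
      rw [map_sum, map_zero]
      simp only [map_zsmul]
      exact hw (w : h30xTors N p (c + n))
    have hv := hkey m nn g hW' v
    have e : ∑ i, nn i • h30xLevel H.ρ I (g i) (Submodule.Quotient.mk v) =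
        Submodule.Quotient.mk (∑ i, nn i • H.ρ.ρ (g i) v) := by
      have e1 := map_sum (I • (⊤ : Submodule T H.ρ.V)).mkQ (fun i => nn i • H.ρ.ρ (g i) v)
        Finset.univ
      rw [Submodule.mkQ_apply] at e1
      rw [e1]
      refine Finset.sum_congr rfl fun i _ => ?_
      rw [map_zsmul, Submodule.mkQ_apply, h30xLevel_mk]
    rw [e]
    exact (Submodule.Quotient.mk_eq_zero _).mpr hv
  obtain ⟨r, X, f, hf, hact⟩ := h70a_annSubq GQ (h30xTors N p (c + n))
    (H.ρ.V ⧸ (I • (⊤ : Submodule T H.ρ.V))) ρ₀ (h30xLevel H.ρ I) hann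
  exact ⟨c + n, r, X, f, hfinW, hf, hact⟩

end Fermat.Agent.P5
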