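import Mathlib
import Fermat.Prelude.Def_GaloisRep_Flat

/-!
# Wave 5, pillar (P), block A2 (helper97): function orders over `ℤ_(p)` and their closure
properties, part 1

`R = ℤ_(p) = GaloisRep.ratLocalizedAt p`, `M` an additive group with a map `act : G_ℚ → M → M`.

* `h97c_Sw C D F` : `F : M → N → ℚ̄` is a finite sum of products `a i x * b i y`, `a i ∈ C`,
  `b i ∈ D` (Sweedler form), with its calculus (`zero`, `tmul`, `add`, `mul`, `const`, `mono`);
* `h97c_IsOrder p M act 𝓗` : the `R`-subalgebra `𝓗` of `M → ℚ̄` is a function order (finitely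
  generated module, equivariant functions, separates points, closed under `f ↦ f (x + y)` in
  Sweedler form); `h97c_HasOrder p M act` : such an order exists;
* `h97c_hasOrder_iso` : transport along an equivariant additive bijection;
* `h97c_hasOrder_sub` : a `G_ℚ`-stable subgroup of a module with an order has an order
  (restriction of functions).
-/

set_option autoImplicit false
set_option linter.style.haveILetI false
set_option linter.unusedSectionVars false

open GaloisRep

noncomputable section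

namespace Fermat.Agent.P5

local notation "Qb97" => AlgebraicClosure ℚ
local notation "GQ97" => (AlgebraicClosure ℚ ≃ₐ[ℚ] AlgebraicClosure ℚ)

/-! ## Sweedler forms -/

section Sw

variable {p : ℕ} {M N : Type}

/-- `F` is a finite sum of products `a i x * b i y`, `a i ∈ C`, `b i ∈ D`. -/
def h97c_Sw (C : Subalgebra (ratLocalizedAt p) (M → Qb97))
    (D : Subalgebra (ratLocalizedAt p) (N → Qb97)) (F : M → N → Qb97) : Prop :=
  ∃ (n : ℕ) (a : Fin n → M → Qb97) (b : Fin n → N → Qb97),
    (∀ i, a i ∈ C) ∧ (∀ i, b i ∈ D) ∧ ∀ x y, F x y = ∑ i, a i x * b i y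

variable (C : Subalgebra (ratLocalizedAt p) (M → Qb97))
  (D : Subalgebra (ratLocalizedAt p) (N → Qb97))

theorem h97c_Sw_zero : h97c_Sw C D (fun _ _ => 0) :=
  ⟨0, fun i => i.elim0, fun i => i.elim0, fun i => i.elim0, fun i => i.elim0,
    fun _ _ => by simp⟩

theorem h97c_Sw_tmul {a : M → Qb97} {b : N → Qb97} (ha : a ∈ C) (hb : b ∈ D) :
    h97c_Sw C D (fun x y => a x * b y) :=
  ⟨1, fun _ => a, fun _ => b, fun _ => ha, fun _ => hb, fun _ _ => by simp⟩

theorem h97c_Sw_one : h97c_Sw C D (fun _ _ => 1) := by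
  have := h97c_Sw_tmul C D (one_mem C) (one_mem D)
  refine (iff_of_eq (congrArg _ ?_)).mp this
  funext x y
  simp

theorem h97c_Sw_add {F G : M → N → Qb97} (hF : h97c_Sw C D F) (hG : h97c_Sw C D G) :
    h97c_Sw C D (fun x y => F x y + G x y) := by
  obtain ⟨n, a, b, ha, hb, hab⟩ := hF
  obtain ⟨n', a', b', ha', hb', hab'⟩ := hG
  refine ⟨n + n', Fin.append a a', Fin.append b b', ?_, ?_, ?_⟩
  · intro i
    refine Fin.addCases (fun j => ?_) (fun j => ?_) i
    · rw [Fin.append_left]; exact ha j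
    · rw [Fin.append_right]; exact ha' j
  · intro i
    refine Fin.addCases (fun j => ?_) (fun j => ?_) i
    · rw [Fin.append_left]; exact hb j
    · rw [Fin.append_right]; exact hb' j
  · intro x y
    show F x y + G x y = _
    rw [Fin.sum_univ_add, hab, hab']
    simp only [Fin.append_left, Fin.append_right]

theorem h97c_Sw_sum {ι : Type} (s : Finset ι) {F : ι → M → N → Qb97}
    (hF : ∀ i ∈ s, h97c_Sw C D (F i)) : h97c_Sw C D (fun x y => ∑ i ∈ s, F i x y) := by
  classical
  induction s using Finset.induction_on with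
  | empty =>
    have := h97c_Sw_zero C D
    refine (iff_of_eq (congrArg _ ?_)).mp this
    funext x y
    simp
  | insert i s hi ih =>
    have h1 := h97c_Sw_add C D (hF i (Finset.mem_insert_self i s))
      (ih fun j hj => hF j (Finset.mem_insert_of_mem hj))
    refine (iff_of_eq (congrArg _ ?_)).mp h1
    funext x y
    rw [Finset.sum_insert hi]

theorem h97c_Sw_mul_tmul {F : M → N → Qb97} (hF : h97c_Sw C D F) {a : M → Qb97} {b : N → Qb97}
    (ha : a ∈ C) (hb : b ∈ D) : h97c_Sw C D (fun x y => F x y * (a x * b y)) := by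
  obtain ⟨n, a', b', ha', hb', hab'⟩ := hF
  refine ⟨n, fun i => a' i * a, fun i => b' i * b, fun i => mul_mem (ha' i) ha,
    fun i => mul_mem (hb' i) hb, fun x y => ?_⟩
  show F x y * (a x * b y) = _
  rw [hab', Finset.sum_mul]
  refine Finset.sum_congr rfl fun i _ => ?_
  simp only [Pi.mul_apply]
  ring

theorem h97c_Sw_mul {F G : M → N → Qb97} (hF : h97c_Sw C D F) (hG : h97c_Sw C D G) :
    h97c_Sw C D (fun x y => F x y * G x y) := by
  obtain ⟨n, a, b, ha, hb, hab⟩ := hG
  have h1 := h97c_Sw_sum C D (Finset.univ : Finset (Fin n))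
    (F := fun i x y => F x y * (a i x * b i y))
    (fun i _ => h97c_Sw_mul_tmul C D hF (ha i) (hb i))
  refine (iff_of_eq (congrArg _ ?_)).mp h1
  funext x y
  rw [hab, Finset.mul_sum]

theorem h97c_Sw_smul {F : M → N → Qb97} (hF : h97c_Sw C D F) (r : ratLocalizedAt p) :
    h97c_Sw C D (fun x y => algebraMap (ratLocalizedAt p) Qb97 r * F x y) := by
  obtain ⟨n, a, b, ha, hb, hab⟩ := hF
  refine ⟨n, fun i => r • a i, b, fun i => Subalgebra.smul_mem _ (ha i) r, hb, fun x y => ?_⟩
  show algebraMap (ratLocalizedAt p) Qb97 r * F x y = _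
  rw [hab, Finset.mul_sum]
  refine Finset.sum_congr rfl fun i _ => ?_
  simp only [Pi.smul_apply, Algebra.smul_def]
  ring

theorem h97c_Sw_const (r : ratLocalizedAt p) :
    h97c_Sw C D (fun _ _ => algebraMap (ratLocalizedAt p) Qb97 r) := by
  have := h97c_Sw_smul C D (h97c_Sw_one C D) r
  refine (iff_of_eq (congrArg _ ?_)).mp this
  funext x y
  simp

variable {C D} in
theorem h97c_Sw_mono {C' : Subalgebra (ratLocalizedAt p) (M → Qb97)}
    {D' : Subalgebra (ratLocalizedAt p) (N → Qb97)} (hC : C ≤ C') (hD : D ≤ D')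
    {F : M → N → Qb97} (hF : h97c_Sw C D F) : h97c_Sw C' D' F := by
  obtain ⟨n, a, b, ha, hb, hab⟩ := hF
  exact ⟨n, a, b, fun i => hC (ha i), fun i => hD (hb i), hab⟩

variable {C D} in
/-- pull-back of a Sweedler form along maps. -/
theorem h97c_Sw_comap {M' N' : Type} (u : M' → M) (v : N' → N)
    {C' : Subalgebra (ratLocalizedAt p) (M' → Qb97)}
    {D' : Subalgebra (ratLocalizedAt p) (N' → Qb97)}
    (hC : ∀ a ∈ C, (fun x => a (u x)) ∈ C') (hD : ∀ b ∈ D, (fun y => b (v y)) ∈ D')
    {F : M → N → Qb97} (hF : h97c_Sw C D F) : h97c_Sw C' D' (fun x y => F (u x) (v y)) := by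
  obtain ⟨n, a, b, ha, hb, hab⟩ := hF
  exact ⟨n, fun i x => a i (u x), fun i y => b i (v y), fun i => hC _ (ha i),
    fun i => hD _ (hb i), fun x y => hab (u x) (v y)⟩

end Sw

/-! ## Function orders -/

/-- `𝓗` is a function order for `(M, act)` over `ℤ_(p)`. -/
structure h97c_IsOrder (p : ℕ) (M : Type) [AddCommGroup M] (act : GQ97 → M → M)
    (𝓗 : Subalgebra (ratLocalizedAt p) (M → Qb97)) : Prop where
  fg : (Subalgebra.toSubmodule 𝓗).FG
  equivariant : ∀ f ∈ 𝓗, ∀ σ x, f (act σ x) = σ (f x)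
  separates : ∀ x y : M, (∀ f ∈ 𝓗, f x = f y) → x = y
  comul : ∀ f ∈ 𝓗, h97c_Sw 𝓗 𝓗 (fun x y => f (x + y))

/-- `(M, act)` has a function order over `ℤ_(p)`. -/
def h97c_HasOrder (p : ℕ) (M : Type) [AddCommGroup M] (act : GQ97 → M → M) : Prop :=
  ∃ 𝓗 : Subalgebra (ratLocalizedAt p) (M → Qb97), h97c_IsOrder p M act 𝓗

/-- The Prelude's flatness for an abstract module (same body as `GaloisRepAdic.IsFlatAt` at one
level and as the conclusion of the frozen `S19`). -/
def h97c_Flat (p : ℕ) (M : Type) [AddCommGroup M] (act : GQ97 → M → M) : Prop :=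
  ∃ (H : Type) (_ : CommRing H) (_ : HopfAlgebra (ratLocalizedAt p) H),
    Module.Finite (ratLocalizedAt p) H ∧
    Module.Flat (ratLocalizedAt p) H ∧
    Coalgebra.IsCocomm (ratLocalizedAt p) H ∧
    ∃ e : WithConv (H →ₐ[ratLocalizedAt p] Qb97) ≃ M,
      (∀ f g, e (f * g) = e f + e g) ∧
      ∀ (σ : GQ97) (f g : WithConv (H →ₐ[ratLocalizedAt p] Qb97)),
        (∀ h : H, g h = σ (f h)) → e g = act σ (e f)

theorem h97c_isFlatAt_iff {A : Type} [CommRing A] [IsLocalRing A] (ρ : GaloisRepAdic A) (p : ℕ) :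
    ρ.IsFlatAt p ↔ Finite (IsLocalRing.ResidueField A) ∧ ∀ I : Ideal A, Finite (A ⧸ I) →
      h97c_Flat p (ρ.V ⧸ (I • (⊤ : Submodule A ρ.V))) (fun σ => ρ.levelAction I σ) := Iff.rfl

section Pull

variable {p : ℕ} {X Y : Type}

/-- pull-back of functions along a map, as an algebra homomorphism. -/
def h97cPull (g : X → Y) : (Y → Qb97) →ₐ[ratLocalizedAt p] (X → Qb97) where
  toFun f := fun x => f (g x)
  map_one' := rfl
  map_mul' _ _ := rfl
  map_zero' := rfl
  map_add' _ _ := rfl
  commutes' _ := rfl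

@[simp] theorem h97cPull_apply (g : X → Y) (f : Y → Qb97) (x : X) :
    (h97cPull (p := p) g f) x = f (g x) := rfl

theorem h97c_map_fg (g : X → Y) (𝓗 : Subalgebra (ratLocalizedAt p) (Y → Qb97))
    (hfg : (Subalgebra.toSubmodule 𝓗).FG) :
    (Subalgebra.toSubmodule (𝓗.map (h97cPull (p := p) g))).FG := by
  have h1 : Subalgebra.toSubmodule (𝓗.map (h97cPull (p := p) g)) =
      (Subalgebra.toSubmodule 𝓗).map (h97cPull (p := p) g).toLinearMap := by
    ext f
    simp [Subalgebra.mem_map]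
  rw [h1]
  exact hfg.map _

end Pull

/-! ## Transport and subgroups -/

section Closure

variable {p : ℕ} {M : Type} [AddCommGroup M] {act : GQ97 → M → M}

/-- transport of an order along an equivariant additive bijection. -/
theorem h97c_hasOrder_iso {M' : Type} [AddCommGroup M'] {act' : GQ97 → M' → M'}
    (φ : M' ≃+ M) (hφ : ∀ σ x, φ (act' σ x) = act σ (φ x))
    (h : h97c_HasOrder p M act) : h97c_HasOrder p M' act' := by
  obtain ⟨𝓗, hfg, heq, hsep, hco⟩ := h
  refine ⟨𝓗.map (h97cPull (p := p) φ), h97c_map_fg _ _ hfg, ?_, ?_, ?_⟩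
  · rintro _ ⟨f, hf, rfl⟩ σ x
    show f (φ (act' σ x)) = σ (f (φ x))
    rw [hφ, heq f hf]
  · intro x y hxy
    apply φ.injective
    exact hsep _ _ fun f hf => hxy _ ⟨f, hf, rfl⟩
  · rintro _ ⟨f, hf, rfl⟩
    have h1 := h97c_Sw_comap (p := p) (C' := 𝓗.map (h97cPull (p := p) φ))
      (D' := 𝓗.map (h97cPull (p := p) φ)) φ φ
      (fun a ha => ⟨a, ha, rfl⟩) (fun b hb => ⟨b, hb, rfl⟩) (hco f hf)
    refine (iff_of_eq (congrArg _ ?_)).mp h1
    funext x y
    show f (φ x + φ y) = f (φ (x + y))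
    rw [map_add]

/-- a `G_ℚ`-stable subgroup of a module with an order has an order. -/
theorem h97c_hasOrder_sub (M' : AddSubgroup M) (act' : GQ97 → M' → M')
    (hact : ∀ σ (x : M'), ((act' σ x : M') : M) = act σ (x : M))
    (h : h97c_HasOrder p M act) : h97c_HasOrder p M' act' := by
  obtain ⟨𝓗, hfg, heq, hsep, hco⟩ := h
  refine ⟨𝓗.map (h97cPull (p := p) (Subtype.val : M' → M)), h97c_map_fg _ _ hfg, ?_, ?_, ?_⟩
  · rintro _ ⟨f, hf, rfl⟩ σ x
    show f ((act' σ x : M') : M) = σ (f (x : M))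
    rw [hact, heq f hf]
  · intro x y hxy
    apply Subtype.ext
    exact hsep _ _ fun f hf => hxy _ ⟨f, hf, rfl⟩
  · rintro _ ⟨f, hf, rfl⟩
    have h1 := h97c_Sw_comap (p := p)
      (C' := 𝓗.map (h97cPull (p := p) (Subtype.val : M' → M)))
      (D' := 𝓗.map (h97cPull (p := p) (Subtype.val : M' → M)))
      (Subtype.val : M' → M) (Subtype.val : M' → M)
      (fun a ha => ⟨a, ha, rfl⟩) (fun b hb => ⟨b, hb, rfl⟩) (hco f hf)
    exact h1

end Closure

end Fermat.Agent.P5
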