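import Fermat.Agent.P5.H87Flat
import Fermat.Agent.P5.H97Order

/-!
# Wave 5, pillar (P): adapter A1 in the vocabulary of `H97Order.lean` (helper87)

`h87x_flat_of_hasOrder : h97c_HasOrder p M act → h97c_Flat p M act` for `p` prime and `M` a finite
additive commutative group: a function order over `ℤ_(p)` gives the finite flat cocommutative Hopf
algebra required by the Prelude (`GaloisRepAdic.IsFlatAt`, frozen statement S19).
-/

set_option autoImplicit false

open GaloisRep

namespace Fermat.Agent.P5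

theorem h87x_flat_of_isOrder (p : ℕ) [Fact p.Prime] {M : Type} [AddCommGroup M] [Finite M]
    (act : (AlgebraicClosure ℚ ≃ₐ[ℚ] AlgebraicClosure ℚ) → M → M)
    (𝓗 : Subalgebra (ratLocalizedAt p) (M → AlgebraicClosure ℚ))
    (h : h97c_IsOrder p M act 𝓗) : h97c_Flat p M act :=
  h87x_flat_of_order p act 𝓗 h.fg h.equivariant h.separates h.comul

theorem h87x_flat_of_hasOrder (p : ℕ) [Fact p.Prime] {M : Type} [AddCommGroup M] [Finite M]
    (act : (AlgebraicClosure ℚ ≃ₐ[ℚ] AlgebraicClosure ℚ) → M → M)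
    (h : h97c_HasOrder p M act) : h97c_Flat p M act := by
  obtain ⟨𝓗, h𝓗⟩ := h
  exact h87x_flat_of_isOrder p act 𝓗 h𝓗

end Fermat.Agent.P5
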