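import Fermat.Agent.P5.H97Order
import Fermat.Agent.P5.H98Zp

/-!
# Wave 5, pillar (P), block A2 (helper97): function orders, part 3 — quotients

`h97c_hasOrder_quot` : if `(M, act)` has a function order over `ℤ_(p)` and `M'` is a `G_ℚ`-stable
subgroup, then `M ⧸ M'` has a function order: the functions of the order which are invariant
under translation by `M'`.

* finitely generated: `ℤ_(p)` is noetherian;
* separation: the trace `z ↦ ∑ m ∈ M', f (z + m)` of `f ∈ 𝓗` lies in `𝓗` (Sweedler form, the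
  coefficients `∑ m, b i m` are Galois-fixed and integral), and traces separate the cosets
  because the `ℚ̄`-span of `𝓗` is the space of all functions;
* Sweedler form: expand `f (x + y) = ∑ j, b j x * F j y` in a basis `b` of `𝓗` which is
  `ℚ̄`-independent; the `F j` are invariant; expand them in a basis `u` of the invariants:
  `f (x + y) = ∑ k, G k x * u k y`; the `G k` are invariant.
-/

set_option autoImplicit false
set_option linter.style.haveILetI false
set_option linter.unusedSectionVars false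

open GaloisRep

noncomputable section

namespace Fermat.Agent.P5

local notation "Qb97" => AlgebraicClosure ℚ
local notation "GQ97" => (AlgebraicClosure ℚ ≃ₐ[ℚ] AlgebraicClosure ℚ)

section Quot

variable {p : ℕ} [Fact p.Prime] {M : Type} [AddCommGroup M] {act : GQ97 → M → M}

/-- an element of `ℚ̄` which is Galois-fixed and integral over `ℤ_(p)` lies in `ℤ_(p)`. -/
theorem h97c_fixed_integral_mem (β : Qb97) (hfix : ∀ σ : GQ97, σ β = β)
    (hint : IsIntegral (ratLocalizedAt p) β) :
    β ∈ Set.range (algebraMap (ratLocalizedAt p) Qb97) := by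
  haveI := h98p_isFractionRing p
  haveI := h98p_isPID p
  obtain ⟨q, hq⟩ := h98p_fix β hfix
  rw [← hq] at hint
  have hint3 : IsIntegral (ratLocalizedAt p) q :=
    (isIntegral_algebraMap_iff (algebraMap ℚ Qb97).injective).mp hint
  obtain ⟨r, hr⟩ := IsIntegrallyClosed.isIntegral_iff.mp hint3
  refine ⟨r, ?_⟩
  rw [IsScalarTower.algebraMap_apply (ratLocalizedAt p) ℚ Qb97, hr, hq]

omit [Fact p.Prime] [AddCommGroup M] in
/-- the values of the functions of a finitely generated order are integral. -/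
theorem h97c_value_integral (𝓗 : Subalgebra (ratLocalizedAt p) (M → Qb97))
    (hfg : (Subalgebra.toSubmodule 𝓗).FG) {f : M → Qb97} (hf : f ∈ 𝓗) (x : M) :
    IsIntegral (ratLocalizedAt p) (f x) := by
  haveI : Module.Finite (ratLocalizedAt p) 𝓗 :=
    (Module.Finite.iff_fg (N := Subalgebra.toSubmodule 𝓗)).mpr hfg
  have hint : IsIntegral (ratLocalizedAt p) (⟨f, hf⟩ : 𝓗) := IsIntegral.of_finite _ _
  have := hint.map ((Pi.evalAlgHom (ratLocalizedAt p) (fun _ : M => Qb97) x).comp 𝓗.val)
  simpa using this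

omit [Fact p.Prime] [AddCommGroup M] in
theorem h97c_smul_apply (r : ratLocalizedAt p) (f : M → Qb97) (x : M) :
    (r • f) x = algebraMap (ratLocalizedAt p) Qb97 r * f x := by
  rw [Pi.smul_apply, Algebra.smul_def]

omit [Fact p.Prime] in
/-- the Galois action of a module with an order is injective. -/
theorem h97c_act_injective {𝓗 : Subalgebra (ratLocalizedAt p) (M → Qb97)}
    (ho : h97c_IsOrder p M act 𝓗) (σ : GQ97) : Function.Injective (act σ) := by
  intro x y hxy
  refine ho.separates x y fun g hg => ?_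
  have h1 := ho.equivariant g hg σ x
  rw [hxy, ho.equivariant g hg σ y] at h1
  exact (σ.injective h1).symm

omit [Fact p.Prime] in
/-- the Galois action of a module with an order is additive. -/
theorem h97c_act_add {𝓗 : Subalgebra (ratLocalizedAt p) (M → Qb97)}
    (ho : h97c_IsOrder p M act 𝓗) (σ : GQ97) (x y : M) :
    act σ (x + y) = act σ x + act σ y := by
  refine ho.separates _ _ fun f hf => ?_
  obtain ⟨n, a, b, ha, hb, hab⟩ := ho.comul f hf
  have hab' : ∀ x y, f (x + y) = ∑ i, a i x * b i y := hab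
  rw [ho.equivariant f hf, hab', hab', map_sum]
  refine Finset.sum_congr rfl fun i _ => ?_
  rw [map_mul, ho.equivariant _ (ha i), ho.equivariant _ (hb i)]

omit [Fact p.Prime] in
theorem h97c_act_zero {𝓗 : Subalgebra (ratLocalizedAt p) (M → Qb97)}
    (ho : h97c_IsOrder p M act 𝓗) (σ : GQ97) : act σ 0 = 0 := by
  have h1 := h97c_act_add ho σ 0 0
  rw [add_zero] at h1
  exact left_eq_add.mp h1

/-- the trace over a stable finite subgroup of a function of the order lies in the order. -/
theorem h97c_trace_mem {𝓗 : Subalgebra (ratLocalizedAt p) (M → Qb97)}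
    (ho : h97c_IsOrder p M act 𝓗) (M' : AddSubgroup M) [Fintype M']
    (hM' : ∀ σ, ∀ m ∈ M', act σ m ∈ M') {f : M → Qb97} (hf : f ∈ 𝓗) :
    (fun z => ∑ m : M', f (z + (m : M))) ∈ 𝓗 := by
  obtain ⟨n, a, b, ha, hb, hab⟩ := ho.comul f hf
  have hβ : ∀ i, (∑ m : M', b i (m : M)) ∈ Set.range (algebraMap (ratLocalizedAt p) Qb97) := by
    intro i
    refine h97c_fixed_integral_mem _ (fun σ => ?_)
      (IsIntegral.sum _ fun m _ => h97c_value_integral 𝓗 ho.fg (hb i) _)
    rw [map_sum]
    let φ : M' → M' := fun m => ⟨act σ m, hM' σ m m.2⟩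
    have hφ : Function.Bijective φ := by
      refine (Finite.injective_iff_bijective).mp ?_
      intro m m' h
      exact Subtype.ext (h97c_act_injective ho σ (congrArg Subtype.val h))
    calc ∑ m : M', σ (b i (m : M)) = ∑ m : M', b i ((φ m : M') : M) := by
          refine Finset.sum_congr rfl fun m _ => ?_
          exact (ho.equivariant (b i) (hb i) σ m).symm
      _ = ∑ m : M', b i (m : M) := hφ.sum_comp (fun m : M' => b i (m : M))
  choose r hr using hβ
  have hab' : ∀ x y, f (x + y) = ∑ i, a i x * b i y := hab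
  have h1 : (fun z => ∑ m : M', f (z + (m : M))) = ∑ i, r i • a i := by
    funext z
    simp only [hab', Finset.sum_apply, h97c_smul_apply]
    rw [Finset.sum_comm]
    refine Finset.sum_congr rfl fun i _ => ?_
    rw [← Finset.mul_sum, hr i, mul_comm]
  rw [h1]
  exact Subalgebra.sum_mem _ fun i _ => Subalgebra.smul_mem _ (ha i) _

omit [Fact p.Prime] in
/-- an invariant function of the order descends to the quotient. -/
theorem h97c_descend (𝓗 : Subalgebra (ratLocalizedAt p) (M → Qb97)) (M' : AddSubgroup M)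
    {F : M → Qb97} (hF : F ∈ 𝓗) (hinv : ∀ x, ∀ m ∈ M', F (x + m) = F x) :
    ∃ g : M ⧸ M' → Qb97,
      g ∈ 𝓗.comap (h97cPull (p := p) (QuotientAddGroup.mk : M → M ⧸ M')) ∧
      ∀ x, g (QuotientAddGroup.mk x) = F x := by
  have key : ∀ x : M, F (Quotient.out (QuotientAddGroup.mk x : M ⧸ M')) = F x := by
    intro x
    have h1 : (QuotientAddGroup.mk x : M ⧸ M') =
        QuotientAddGroup.mk (Quotient.out (QuotientAddGroup.mk x : M ⧸ M')) :=
      (Quotient.out_eq' _).symm
    have h2 := QuotientAddGroup.eq.mp h1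
    have h3 : Quotient.out (QuotientAddGroup.mk x : M ⧸ M') =
        x + (-x + Quotient.out (QuotientAddGroup.mk x : M ⧸ M')) := by abel
    rw [h3]
    exact hinv x _ h2
  refine ⟨fun q => F q.out, ?_, key⟩
  rw [Subalgebra.mem_comap]
  have h4 : h97cPull (p := p) (QuotientAddGroup.mk : M → M ⧸ M') (fun q => F q.out) = F :=
    funext key
  rw [h4]
  exact hF

variable [Finite M]

/-- the invariant functions of the order separate the cosets. -/
theorem h97c_quot_sep {𝓗 : Subalgebra (ratLocalizedAt p) (M → Qb97)}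
    (ho : h97c_IsOrder p M act 𝓗) (M' : AddSubgroup M)
    (hM' : ∀ σ, ∀ m ∈ M', act σ m ∈ M') (x y : M)
    (hxy : ∀ g ∈ 𝓗.comap (h97cPull (p := p) (QuotientAddGroup.mk : M → M ⧸ M')),
      g (QuotientAddGroup.mk x) = g (QuotientAddGroup.mk y)) :
    (QuotientAddGroup.mk x : M ⧸ M') = QuotientAddGroup.mk y := by
  classical
  haveI : Fintype M' := Fintype.ofFinite M'
  by_contra hne
  -- traces agree at `x` and `y`
  have htr : ∀ f ∈ 𝓗, ∑ m : M', f (x + (m : M)) = ∑ m : M', f (y + (m : M)) := by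
    intro f hf
    have h1 := h97c_trace_mem ho M' hM' hf
    obtain ⟨g, hg, hgF⟩ := h97c_descend 𝓗 M' h1 (fun z m hm => by
      show ∑ m' : M', f (z + m + (m' : M)) = ∑ m' : M', f (z + (m' : M))
      have := Equiv.sum_comp (Equiv.addLeft (⟨m, hm⟩ : M')) (fun m' : M' => f (z + (m' : M)))
      rw [← this]
      refine Finset.sum_congr rfl fun m' _ => ?_
      show f (z + m + (m' : M)) = f (z + ((⟨m, hm⟩ + m' : M') : M))
      rw [AddSubgroup.coe_add, add_assoc])
    have h2 := hxy g hg
    rw [hgF, hgF] at h2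
    exact h2
  -- the linear functional
  let L : (M → Qb97) →ₗ[Qb97] Qb97 :=
    ∑ m : M', ((LinearMap.proj (x + (m : M)) : (M → Qb97) →ₗ[Qb97] Qb97) -
      LinearMap.proj (y + (m : M)))
  have hL : ∀ f : M → Qb97, L f = ∑ m : M', (f (x + (m : M)) - f (y + (m : M))) := by
    intro f
    simp [L, LinearMap.sum_apply]
  have hker : Submodule.span Qb97 (𝓗 : Set (M → Qb97)) ≤ LinearMap.ker L := by
    rw [Submodule.span_le]
    intro f hf
    rw [SetLike.mem_coe, LinearMap.mem_ker, hL, Finset.sum_sub_distrib, htr f hf, sub_self]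
  rw [h98p_order_span 𝓗 ho.separates] at hker
  let δ : M → Qb97 := fun z => if (QuotientAddGroup.mk z : M ⧸ M') = QuotientAddGroup.mk x
    then 1 else 0
  have hδ : L δ = 0 := LinearMap.mem_ker.mp (hker Submodule.mem_top)
  rw [hL] at hδ
  have h3 : ∀ m : M', δ (x + (m : M)) - δ (y + (m : M)) = 1 := by
    intro m
    have e1 : (QuotientAddGroup.mk (x + (m : M)) : M ⧸ M') = QuotientAddGroup.mk x := by
      rw [QuotientAddGroup.mk_add, (QuotientAddGroup.eq_zero_iff (m : M)).mpr m.2, add_zero]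
    have e2 : (QuotientAddGroup.mk (y + (m : M)) : M ⧸ M') = QuotientAddGroup.mk y := by
      rw [QuotientAddGroup.mk_add, (QuotientAddGroup.eq_zero_iff (m : M)).mpr m.2, add_zero]
    have e3 : δ (x + (m : M)) = 1 := if_pos e1
    have e4 : δ (y + (m : M)) = 0 := if_neg (by rw [e2]; exact fun h => hne h.symm)
    rw [e3, e4, sub_zero]
  rw [Finset.sum_congr rfl (fun m _ => h3 m), Finset.sum_const, Finset.card_univ,
    nsmul_eq_mul, mul_one] at hδ
  have h4 : (Fintype.card M' : Qb97) ≠ 0 := by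
    rw [Nat.cast_ne_zero]
    exact Fintype.card_ne_zero
  exact h4 hδ

/-- **Quotients.** -/
theorem h97c_hasOrder_quot (M' : AddSubgroup M) (act'' : GQ97 → M ⧸ M' → M ⧸ M')
    (hact : ∀ σ x, act'' σ (QuotientAddGroup.mk x) = QuotientAddGroup.mk (act σ x))
    (h : h97c_HasOrder p M act) : h97c_HasOrder p (M ⧸ M') act'' := by
  classical
  obtain ⟨𝓗, ho⟩ := h
  haveI := h98p_isFractionRing p
  haveI := h98p_isPID p
  have hsurj : Function.Surjective (QuotientAddGroup.mk : M → M ⧸ M') :=
    QuotientAddGroup.mk_surjective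
  -- stability of `M'`
  have hM' : ∀ σ, ∀ m ∈ M', act σ m ∈ M' := by
    intro σ m hm
    have h1 : (QuotientAddGroup.mk m : M ⧸ M') = QuotientAddGroup.mk 0 := by
      rw [(QuotientAddGroup.eq_zero_iff m).mpr hm, QuotientAddGroup.mk_zero]
    have h2 : (QuotientAddGroup.mk (act σ m) : M ⧸ M') = QuotientAddGroup.mk (act σ 0) := by
      rw [← hact, ← hact, h1]
    rw [h97c_act_zero ho, QuotientAddGroup.mk_zero] at h2
    exact (QuotientAddGroup.eq_zero_iff _).mp h2
  set π : M → M ⧸ M' := QuotientAddGroup.mk with hπ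
  set 𝓗'' : Subalgebra (ratLocalizedAt p) (M ⧸ M' → Qb97) :=
    𝓗.comap (h97cPull (p := p) π) with h𝓗''
  have hpull_inj : Function.Injective (h97cPull (p := p) π).toLinearMap := by
    intro g g' hgg
    funext q
    obtain ⟨x, rfl⟩ := hsurj q
    exact congrFun hgg x
  -- the first three fields
  have hfg'' : (Subalgebra.toSubmodule 𝓗'').FG := by
    haveI : IsNoetherian (ratLocalizedAt p) (Subalgebra.toSubmodule 𝓗) :=
      isNoetherian_of_fg_of_noetherian _ ho.fg
    refine Submodule.fg_of_fg_map_injective (h97cPull (p := p) π).toLinearMap hpull_inj ?_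
    have hle : (Subalgebra.toSubmodule 𝓗'').map (h97cPull (p := p) π).toLinearMap ≤
        Subalgebra.toSubmodule 𝓗 := by
      rintro _ ⟨g, hg, rfl⟩
      exact hg
    have h1 : ((Subalgebra.toSubmodule 𝓗'').map (h97cPull (p := p) π).toLinearMap) =
        (((Subalgebra.toSubmodule 𝓗'').map (h97cPull (p := p) π).toLinearMap).comap
          (Subalgebra.toSubmodule 𝓗).subtype).map (Subalgebra.toSubmodule 𝓗).subtype := by
      rw [Submodule.map_comap_subtype, inf_of_le_right hle]
    rw [h1]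
    exact (IsNoetherian.noetherian _).map _
  have heq'' : ∀ g ∈ 𝓗'', ∀ σ q, g (act'' σ q) = σ (g q) := by
    intro g hg σ q
    obtain ⟨x, rfl⟩ := hsurj q
    rw [hact]
    exact ho.equivariant _ hg σ x
  have hsep'' : ∀ q q' : M ⧸ M', (∀ g ∈ 𝓗'', g q = g q') → q = q' := by
    intro q q' hqq
    obtain ⟨x, rfl⟩ := hsurj q
    obtain ⟨y, rfl⟩ := hsurj q'
    exact h97c_quot_sep ho M' hM' x y hqq
  refine ⟨𝓗'', hfg'', heq'', hsep'', ?_⟩
  -- the Sweedler form
  intro g hg
  obtain ⟨n, b, hbind, -, -⟩ := h98p_zp_basis p act 𝓗 ho.fg ho.equivariant ho.separates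
  obtain ⟨n'', u, huind, -, -⟩ := h98p_zp_basis p act'' 𝓗'' hfg'' heq'' hsep''
  obtain ⟨N, a, c, ha, hc, hac⟩ := ho.comul _ hg
  -- first expansion
  let F : Fin n → M → Qb97 := fun j => ∑ i, b.repr ⟨a i, ha i⟩ j • c i
  have hFmem : ∀ j, F j ∈ 𝓗 := fun j =>
    Subalgebra.sum_mem _ fun i _ => Subalgebra.smul_mem _ (hc i) _
  have hbrepr : ∀ (f : M → Qb97) (hf : f ∈ 𝓗) (x : M),
      f x = ∑ j, algebraMap (ratLocalizedAt p) Qb97 (b.repr ⟨f, hf⟩ j) * (b j : M → Qb97) x := by
    intro f hf x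
    have h1 : (⟨f, hf⟩ : 𝓗) = ∑ j, b.repr ⟨f, hf⟩ j • b j := (b.sum_repr _).symm
    have h2 := congrArg (fun k : 𝓗 => (k : M → Qb97) x) h1
    simp only [AddSubmonoidClass.coe_finsetSum, Finset.sum_apply] at h2
    rw [h2]
    refine Finset.sum_congr rfl fun j _ => ?_
    exact h97c_smul_apply _ _ _
  have hF : ∀ x y, g (π (x + y)) = ∑ j, (b j : M → Qb97) x * F j y := by
    intro x y
    have h1 : g (π (x + y)) = ∑ i, a i x * c i y := hac x y
    rw [h1]
    simp only [F, Finset.sum_apply, h97c_smul_apply, Finset.mul_sum]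
    rw [Finset.sum_comm]
    refine Finset.sum_congr rfl fun i _ => ?_
    rw [hbrepr (a i) (ha i) x, Finset.sum_mul]
    refine Finset.sum_congr rfl fun j _ => ?_
    ring
  have hπadd : ∀ (z : M) (m : M), m ∈ M' → π (z + m) = π z := by
    intro z m hm
    rw [hπ, QuotientAddGroup.mk_add, (QuotientAddGroup.eq_zero_iff m).mpr hm, add_zero]
  have hFinv : ∀ j y, ∀ m ∈ M', F j (y + m) = F j y := by
    intro j y m hm
    have h1 : ∑ j, (F j (y + m) - F j y) • (b j : M → Qb97) = 0 := by
      funext x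
      simp only [Finset.sum_apply, Pi.smul_apply, smul_eq_mul, Pi.zero_apply]
      have h2 := hF x (y + m)
      have h3 := hF x y
      rw [← add_assoc, hπadd _ m hm] at h2
      rw [h2] at h3
      have : ∑ j, (F j (y + m) - F j y) * (b j : M → Qb97) x =
          ∑ j, (b j : M → Qb97) x * F j (y + m) - ∑ j, (b j : M → Qb97) x * F j y := by
        rw [← Finset.sum_sub_distrib]
        refine Finset.sum_congr rfl fun j _ => ?_
        ring
      rw [this, h3, sub_self]
    have h4 := (Fintype.linearIndependent_iff.mp hbind) _ h1 j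
    exact sub_eq_zero.mp h4
  have hdesc : ∀ j, ∃ gj : M ⧸ M' → Qb97, gj ∈ 𝓗'' ∧ ∀ x, gj (π x) = F j x :=
    fun j => h97c_descend 𝓗 M' (hFmem j) (hFinv j)
  choose gF hgF hgFx using hdesc
  -- second expansion
  let G : Fin n'' → M → Qb97 := fun k => ∑ j, u.repr ⟨gF j, hgF j⟩ k • (b j : M → Qb97)
  have hGmem : ∀ k, G k ∈ 𝓗 := fun k =>
    Subalgebra.sum_mem _ fun j _ => Subalgebra.smul_mem _ (b j).2 _
  have hurepr : ∀ (f : M ⧸ M' → Qb97) (hf : f ∈ 𝓗'') (q : M ⧸ M'),
      f q = ∑ k, algebraMap (ratLocalizedAt p) Qb97 (u.repr ⟨f, hf⟩ k) *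
        (u k : M ⧸ M' → Qb97) q := by
    intro f hf q
    have h1 : (⟨f, hf⟩ : 𝓗'') = ∑ k, u.repr ⟨f, hf⟩ k • u k := (u.sum_repr _).symm
    have h2 := congrArg (fun k : 𝓗'' => (k : M ⧸ M' → Qb97) q) h1
    simp only [AddSubmonoidClass.coe_finsetSum, Finset.sum_apply] at h2
    rw [h2]
    refine Finset.sum_congr rfl fun j _ => ?_
    exact h97c_smul_apply _ _ _
  have hG : ∀ x y, g (π (x + y)) = ∑ k, G k x * (u k : M ⧸ M' → Qb97) (π y) := by
    intro x y
    rw [hF x y]
    simp only [G, Finset.sum_apply, h97c_smul_apply, Finset.sum_mul]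
    rw [Finset.sum_comm]
    refine Finset.sum_congr rfl fun j _ => ?_
    rw [← hgFx j y, hurepr (gF j) (hgF j) (π y), Finset.mul_sum]
    refine Finset.sum_congr rfl fun k _ => ?_
    ring
  have hGinv : ∀ k x, ∀ m ∈ M', G k (x + m) = G k x := by
    intro k x m hm
    have h1 : ∑ k, (G k (x + m) - G k x) • (u k : M ⧸ M' → Qb97) = 0 := by
      funext q
      obtain ⟨y, rfl⟩ := hsurj q
      simp only [Finset.sum_apply, Pi.smul_apply, smul_eq_mul, Pi.zero_apply]
      have h2 := hG (x + m) y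
      have h3 := hG x y
      rw [add_right_comm, hπadd _ m hm] at h2
      rw [h2] at h3
      have : ∑ k, (G k (x + m) - G k x) * (u k : M ⧸ M' → Qb97) (π y) =
          ∑ k, G k (x + m) * (u k : M ⧸ M' → Qb97) (π y) -
            ∑ k, G k x * (u k : M ⧸ M' → Qb97) (π y) := by
        rw [← Finset.sum_sub_distrib]
        refine Finset.sum_congr rfl fun j _ => ?_
        ring
      rw [this, h3, sub_self]
    have h4 := (Fintype.linearIndependent_iff.mp huind) _ h1 k
    exact sub_eq_zero.mp h4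
  have hdesc2 : ∀ k, ∃ hk : M ⧸ M' → Qb97, hk ∈ 𝓗'' ∧ ∀ x, hk (π x) = G k x :=
    fun k => h97c_descend 𝓗 M' (hGmem k) (hGinv k)
  choose gG hgG hgGx using hdesc2
  refine ⟨n'', gG, fun k => (u k : M ⧸ M' → Qb97), hgG, fun k => (u k).2, ?_⟩
  intro q q'
  obtain ⟨x, rfl⟩ := hsurj q
  obtain ⟨y, rfl⟩ := hsurj q'
  show g (π x + π y) = ∑ k, gG k (π x) * (u k : M ⧸ M' → Qb97) (π y)
  have h1 : π x + π y = π (x + y) := (QuotientAddGroup.mk_add M' x y).symm
  rw [h1, hG x y]
  refine Finset.sum_congr rfl fun k _ => ?_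
  rw [hgGx]

end Quot

end Fermat.Agent.P5
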