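import Fermat.Agent.P5.H97OrderProd
import Fermat.Agent.P5.H97OrderQuot
import Fermat.Agent.P5.H87FlatOrder
import Fermat.Prelude.Def_CuspForm_HeckeGaloisRepDatum
import Fermat.Prelude.Def_ModularCurve_ArithmeticGalois

/-!
# Wave 5, pillar (P): S32 from S19 and the lattice comparison (helper30, prefix `h30x_`)

* `h30xTors N p k` : the type `J₀(N)[p ^ k]` of the frozen statement S19, `h30xAct` : its Galois
  action;
* `H30xS19 N p` : the conclusion of the frozen S19 at level `N` and prime `p`, for all `k`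
  (verbatim); `h30x_flat_of_s19` : it is `h97c_Flat` of `(h30xTors N p k, h30xAct N p k)`;
* `H30xLC` (frozen interface) : the lattice comparison: for a Hecke–Galois datum and an ideal `I`
  of finite index, `V / I V` is an equivariant quotient of a stable subgroup of a finite power of
  `J₀(N)[p ^ k]`;
* `h30x_isFlatAt_of_lc` : `H30xLC → H30xS19 N p → H.ρ.IsFlatAt p` (the statement S32), by the
  closure properties of function orders (helper97) and the adapter of helper87.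
-/

set_option autoImplicit false
set_option linter.style.haveILetI false
set_option linter.unusedSectionVars false

open ModularCurve GaloisRep

noncomputable section

namespace Fermat.Agent.P5

local notation "GQ30" => (AlgebraicClosure ℚ ≃ₐ[ℚ] AlgebraicClosure ℚ)

/-- the `p ^ k`-torsion of `J₀(N)` (the type of the frozen statement S19). -/
abbrev h30xTors (N p k : ℕ) [NeZero N] : Type :=
  ↥(Submodule.torsionBy ℤ (JZero N) ((p : ℤ) ^ k))

theorem h30x_smul_mem (N p k : ℕ) [NeZero N] (σ : GQ30) (x : h30xTors N p k) :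
    σ • (x : JZero N) ∈ Submodule.torsionBy ℤ (JZero N) ((p : ℤ) ^ k) := by
  have hx : ((p : ℤ) ^ k) • (x : JZero N) = 0 := (Submodule.mem_torsionBy_iff _ _).mp x.2
  rw [Submodule.mem_torsionBy_iff]
  have h1 : ((p : ℤ) ^ k) • (σ • (x : JZero N)) = σ • (((p : ℤ) ^ k) • (x : JZero N)) :=
    (map_zsmul (DistribSMul.toAddMonoidHom (JZero N) σ) _ _).symm
  rw [h1, hx]
  exact map_zero (DistribSMul.toAddMonoidHom (JZero N) σ)

/-- the Galois action on `J₀(N)[p ^ k]`. -/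
def h30xAct (N p k : ℕ) [NeZero N] (σ : GQ30) (x : h30xTors N p k) : h30xTors N p k :=
  ⟨σ • (x : JZero N), h30x_smul_mem N p k σ x⟩

@[simp] theorem h30xAct_coe (N p k : ℕ) [NeZero N] (σ : GQ30) (x : h30xTors N p k) :
    ((h30xAct N p k σ x : h30xTors N p k) : JZero N) = σ • (x : JZero N) := rfl

/-- the conclusion of the frozen statement S19 at level `N` and the prime `p` (all `k`). -/
def H30xS19 (N p : ℕ) [NeZero N] : Prop :=
  ∀ k : ℕ, ∃ (H : Type) (_ : CommRing H) (_ : HopfAlgebra (GaloisRep.ratLocalizedAt p) H),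
      Module.Finite (GaloisRep.ratLocalizedAt p) H ∧ Module.Flat (GaloisRep.ratLocalizedAt p) H ∧
      Coalgebra.IsCocomm (GaloisRep.ratLocalizedAt p) H ∧
      ∃ e : WithConv (H →ₐ[GaloisRep.ratLocalizedAt p] AlgebraicClosure ℚ) ≃
          ↥(Submodule.torsionBy ℤ (JZero N) ((p : ℤ) ^ k)),
        (∀ f g, e (f * g) = e f + e g) ∧
        ∀ (σ : AlgebraicClosure ℚ ≃ₐ[ℚ] AlgebraicClosure ℚ)
          (f g : WithConv (H →ₐ[GaloisRep.ratLocalizedAt p] AlgebraicClosure ℚ)),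
          (∀ h : H, g h = σ (f h)) → ((e g : JZero N)) = σ • (e f : JZero N)

theorem h30x_flat_of_s19 {N p : ℕ} [NeZero N] (h : H30xS19 N p) (k : ℕ) :
    h97c_Flat p (h30xTors N p k) (h30xAct N p k) := by
  obtain ⟨H, i1, i2, h1, h2, h3, e, he, hσ⟩ := h k
  exact ⟨H, i1, i2, h1, h2, h3, e, he, fun σ f g hfg => Subtype.ext (hσ σ f g hfg)⟩

/-- **the lattice comparison** (frozen interface). -/
def H30xLC : Prop :=
  ∀ {p : ℕ} {N : ℕ} [NeZero N] {S : Finset ℕ}
    {𝒪 : Type} [CommRing 𝒪] [IsDomain 𝒪] [IsDiscreteValuationRing 𝒪]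
    [IsAdicComplete (IsLocalRing.maximalIdeal 𝒪) 𝒪]
    {θ : CuspForm.heckeAlgebra N 2 (↑S : Set ℕ) →+* IsLocalRing.ResidueField 𝒪}
    {T : Type} [CommRing T] [IsLocalRing T] [IsNoetherianRing T]
    [IsAdicComplete (IsLocalRing.maximalIdeal T) T] [Algebra 𝒪 T] [IsLocalHom (algebraMap 𝒪 T)]
    [Module.Finite 𝒪 T] [Module.Free 𝒪 T]
    [Finite (IsLocalRing.ResidueField 𝒪)] [CharZero 𝒪],
    p.Prime → p ≠ 2 → (p : 𝒪) ∈ IsLocalRing.maximalIdeal 𝒪 → ¬ p ∣ N → p ∈ S →
    (∀ q : ℕ, q.Prime → q ∣ N → q ∈ S) →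
    ∀ (H : CuspForm.HeckeGaloisRepDatum N (↑S : Set ℕ) 𝒪 θ T) (I : Ideal T), Finite (T ⧸ I) →
      ∃ (k r : ℕ) (X : AddSubgroup (Fin r → h30xTors N p k))
        (f : X →+ H.ρ.V ⧸ (I • (⊤ : Submodule T H.ρ.V))),
        Finite (h30xTors N p k) ∧ Function.Surjective f ∧
        ∀ (σ : GQ30) (x : X), ∃ y : X,
          (∀ i, (y : Fin r → h30xTors N p k) i = h30xAct N p k σ ((x : Fin r → h30xTors N p k) i)) ∧
          f y = H.ρ.levelAction I σ (f x)

section Wire

variable {p : ℕ} {N : ℕ} [NeZero N] {S : Finset ℕ}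
  {𝒪 : Type} [CommRing 𝒪] [IsDomain 𝒪] [IsDiscreteValuationRing 𝒪]
  [IsAdicComplete (IsLocalRing.maximalIdeal 𝒪) 𝒪]
  {θ : CuspForm.heckeAlgebra N 2 (↑S : Set ℕ) →+* IsLocalRing.ResidueField 𝒪}
  {T : Type} [CommRing T] [IsLocalRing T] [IsNoetherianRing T]
  [IsAdicComplete (IsLocalRing.maximalIdeal T) T] [Algebra 𝒪 T] [IsLocalHom (algebraMap 𝒪 T)]
  [Module.Finite 𝒪 T] [Module.Free 𝒪 T]

/-- the residue field of `T` is finite. -/
theorem h30x_finite_residueField [Finite (IsLocalRing.ResidueField 𝒪)]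
    (H : CuspForm.HeckeGaloisRepDatum N (↑S : Set ℕ) 𝒪 θ T) :
    Finite (IsLocalRing.ResidueField T) := by
  have hs : Function.Surjective
      (IsLocalRing.ResidueField.map (algebraMap 𝒪 T)) := by
    intro y
    obtain ⟨a, ha⟩ := H.residue_surjective y
    exact ⟨IsLocalRing.residue 𝒪 a, by rw [IsLocalRing.ResidueField.map_residue]; exact ha⟩
  exact Finite.of_surjective _ hs

/-- `V / I V` is finite when `T / I` is. -/
theorem h30x_finite_level (ρ : GaloisRepAdic T) (I : Ideal T) [Finite (T ⧸ I)] :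
    Finite (ρ.V ⧸ (I • (⊤ : Submodule T ρ.V))) := by
  haveI : Module.Finite (T ⧸ I) (ρ.V ⧸ (I • (⊤ : Submodule T ρ.V))) :=
    Module.Finite.of_restrictScalars_finite T _ _
  exact Module.finite_of_finite (T ⧸ I)

/-- **S32 from S19 and the lattice comparison.** -/
theorem h30x_isFlatAt_of_lc (hLC : H30xLC)
    [Finite (IsLocalRing.ResidueField 𝒪)] [CharZero 𝒪]
    (hp : p.Prime) (hp2 : p ≠ 2) (hp𝒪 : (p : 𝒪) ∈ IsLocalRing.maximalIdeal 𝒪) (hpN : ¬ p ∣ N)
    (hpS : p ∈ S) (hNS : ∀ q : ℕ, q.Prime → q ∣ N → q ∈ S)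
    (H : CuspForm.HeckeGaloisRepDatum N (↑S : Set ℕ) 𝒪 θ T)
    (hS19 : H30xS19 N p) :
    H.ρ.IsFlatAt p := by
  haveI : Fact p.Prime := ⟨hp⟩
  rw [h97c_isFlatAt_iff]
  refine ⟨h30x_finite_residueField H, fun I hI => ?_⟩
  haveI := hI
  haveI : Finite (H.ρ.V ⧸ (I • (⊤ : Submodule T H.ρ.V))) := h30x_finite_level H.ρ I
  obtain ⟨k, r, X, f, hfin, hf, hact⟩ := hLC hp hp2 hp𝒪 hpN hpS hNS H I hI
  haveI := hfin
  -- orders
  have h0 : h97c_HasOrder p (h30xTors N p k) (h30xAct N p k) :=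
    h97c_hasOrder_of_flat (h30x_flat_of_s19 hS19 k)
  have h1 : h97c_HasOrder p (Fin r → h30xTors N p k) (fun σ x i => h30xAct N p k σ (x i)) :=
    h97c_hasOrder_pi h0 r
  -- the action on `X`
  have hmem : ∀ (σ : GQ30) (x : X),
      (fun i => h30xAct N p k σ ((x : Fin r → h30xTors N p k) i)) ∈ X := by
    intro σ x
    obtain ⟨y, hy, -⟩ := hact σ x
    have e : (fun i => h30xAct N p k σ ((x : Fin r → h30xTors N p k) i)) =
        (y : Fin r → h30xTors N p k) := funext fun i => (hy i).symm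
    rw [e]
    exact y.2
  let actX : GQ30 → X → X := fun σ x => ⟨_, hmem σ x⟩
  have hfact : ∀ (σ : GQ30) (x : X), f (actX σ x) = H.ρ.levelAction I σ (f x) := by
    intro σ x
    obtain ⟨y, hy, hfy⟩ := hact σ x
    have e : actX σ x = y := Subtype.ext (funext fun i => (hy i).symm)
    rw [e, hfy]
  have h2 : h97c_HasOrder p X actX := h97c_hasOrder_sub X actX (fun _ _ => rfl) h1
  -- the quotient by the kernel
  have hker : ∀ (σ : GQ30) (x : X), x ∈ f.ker → actX σ x ∈ f.ker := by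
    intro σ x hx
    rw [AddMonoidHom.mem_ker] at hx ⊢
    rw [hfact, hx, map_zero]
  let e : X ⧸ f.ker ≃+ (H.ρ.V ⧸ (I • (⊤ : Submodule T H.ρ.V))) :=
    QuotientAddGroup.quotientKerEquivOfSurjective f hf
  let actQ : GQ30 → X ⧸ f.ker → X ⧸ f.ker := fun σ z =>
    e.symm (H.ρ.levelAction I σ (e z))
  have hactQ : ∀ (σ : GQ30) (x : X),
      actQ σ (QuotientAddGroup.mk x) = QuotientAddGroup.mk (actX σ x) := by
    intro σ x
    show e.symm (H.ρ.levelAction I σ (e (QuotientAddGroup.mk x))) = _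
    rw [AddEquiv.symm_apply_eq]
    show H.ρ.levelAction I σ (f x) = f (actX σ x)
    exact (hfact σ x).symm
  have h3 : h97c_HasOrder p (X ⧸ f.ker) actQ := h97c_hasOrder_quot f.ker actQ hactQ h2
  have h4 : h97c_HasOrder p (H.ρ.V ⧸ (I • (⊤ : Submodule T H.ρ.V)))
      (fun σ => H.ρ.levelAction I σ) := by
    refine h97c_hasOrder_iso e.symm (fun σ z => ?_) h3
    show e.symm (H.ρ.levelAction I σ z) = e.symm (H.ρ.levelAction I σ (e (e.symm z)))
    rw [AddEquiv.apply_symm_apply]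
  exact h87x_flat_of_hasOrder p _ h4

end Wire

end Fermat.Agent.P5
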