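import Fermat.Agent.Red.GateGoodFinal
import Fermat.Agent.Red.SM.H18TIDFinal
import Fermat.Agent.P5.H96LawIface

/-!
# P5 (wave 5, S19), block GEO-DISC: division in the local ring of the model (helper41)

`A` a valuation subring of `ℚ̄`, `t0` a chart coordinate (`j` or `1/j`), `B = chart M A t0` the
chart of the normal model (P-RED), `Q` a place with `t0(Q) ∈ A`, `𝔫 = h41dCentre A t0 Q` its
centre (a maximal ideal of `B` containing `𝔪_A B`), `O = h41dO A t0 Q` the local ring of `B` at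
`𝔫`, as a subring of `F_M`.  For a local parameter `t` at `𝔫` (`𝔫 = (t) + 𝔪_A B` locally):

* `h41d_O_val` : the functions of `O` take values in `A` on the residue disc of `Q`;
* `h41d_O_div` : DIVISION: `f - f(P) = (t - t(P)) h`, `h ∈ O`, for every point `P` of the disc
  (Nakayama over `A`, landed as `h26_local_ker_principal`; no Taylor expansion, no noetherian
  hypothesis, no finite level);
* `h41d_t_inj` : two points of the disc with the same `t`-value are equal.

These are the fields `O_val`, `O_div`, `t_inj`, `t_small` of `H96Chart.Valid`.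
-/

set_option autoImplicit false
set_option synthInstance.maxHeartbeats 400000
set_option linter.unusedSectionVars false
set_option linter.style.haveILetI false

open AlgebraicCurve ModularCurve WithZero IsLocalRing

noncomputable section

namespace Fermat.Agent.P5

open Fermat.Agent.S37 Fermat.Agent.Red Fermat.Agent.Red.Match Fermat.Agent.Red.GG

variable {M : ℕ} [NeZero M]

/-- the centre of the place `Q` on the chart `modelAt M A t0`. -/
def h41dCentre (A : ValuationSubring Kbar) (t0 : FF M) (Q : Place Kbar (FF M))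
    (hQ : ∃ a : A, ValueAt Q t0 (a : Kbar)) : Ideal (chart M A t0) :=
  (maximalIdeal A).comap (chartEv A t0 Q hQ : chart M A t0 →+* A)

instance h41d_centre_isPrime (A : ValuationSubring Kbar) (t0 : FF M) (Q : Place Kbar (FF M))
    (hQ : ∃ a : A, ValueAt Q t0 (a : Kbar)) : (h41dCentre A t0 Q hQ).IsPrime :=
  Ideal.comap_isPrime _ _

theorem h41d_mem_centre {A : ValuationSubring Kbar} {t0 : FF M} {Q : Place Kbar (FF M)}
    {hQ : ∃ a : A, ValueAt Q t0 (a : Kbar)} {b : chart M A t0} :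
    b ∈ h41dCentre A t0 Q hQ ↔ ((chartEv A t0 Q hQ b : A) : Kbar) ∈ A.nonunits := by
  unfold h41dCentre
  rw [Ideal.mem_comap, ValuationSubring.coe_mem_nonunits_iff]
  rfl

/-- membership in the centre in terms of values. -/
theorem h41d_mem_centre_iff {A : ValuationSubring Kbar} {t0 : FF M} {Q : Place Kbar (FF M)}
    {hQ : ∃ a : A, ValueAt Q t0 (a : Kbar)} {b : chart M A t0} {c : Kbar}
    (hc : ValueAt Q (b : FF M) c) :
    b ∈ h41dCentre A t0 Q hQ ↔ c ∈ A.nonunits := by
  rw [h41d_mem_centre, chartEv_eq A t0 Q hQ b hc]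

/-- the local ring of the chart at the centre of `Q`, as a subring of `F_M`. -/
def h41dO (A : ValuationSubring Kbar) (t0 : FF M) (Q : Place Kbar (FF M))
    (hQ : ∃ a : A, ValueAt Q t0 (a : Kbar)) : Subring (FF M) where
  carrier := {x | ∃ b s : chart M A t0, s ∉ h41dCentre A t0 Q hQ ∧ x * (s : FF M) = (b : FF M)}
  mul_mem' := by
    rintro x y ⟨b, s, hs, hx⟩ ⟨b', s', hs', hy⟩
    refine ⟨b * b', s * s', fun h => ?_, ?_⟩
    · exact ((h41d_centre_isPrime A t0 Q hQ).mem_or_mem h).elim hs hs'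
    · push_cast
      rw [← hx, ← hy]; ring
  one_mem' := ⟨1, 1, (Ideal.ne_top_iff_one _).1 (h41d_centre_isPrime A t0 Q hQ).ne_top, by simp⟩
  add_mem' := by
    rintro x y ⟨b, s, hs, hx⟩ ⟨b', s', hs', hy⟩
    refine ⟨b * s' + b' * s, s * s', fun h => ?_, ?_⟩
    · exact ((h41d_centre_isPrime A t0 Q hQ).mem_or_mem h).elim hs hs'
    · push_cast
      rw [← hx, ← hy]; ring
  zero_mem' := ⟨0, 1, (Ideal.ne_top_iff_one _).1 (h41d_centre_isPrime A t0 Q hQ).ne_top, by simp⟩
  neg_mem' := by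
    rintro x ⟨b, s, hs, hx⟩
    refine ⟨-b, s, hs, ?_⟩
    push_cast
    rw [← hx]; ring

theorem h41d_mem_O {A : ValuationSubring Kbar} {t0 : FF M} {Q : Place Kbar (FF M)}
    {hQ : ∃ a : A, ValueAt Q t0 (a : Kbar)} {x : FF M} :
    x ∈ h41dO A t0 Q hQ ↔
      ∃ b s : chart M A t0, s ∉ h41dCentre A t0 Q hQ ∧ x * (s : FF M) = (b : FF M) :=
  Iff.rfl

/-- the chart is contained in its local ring. -/
theorem h41d_chart_le_O (A : ValuationSubring Kbar) (t0 : FF M) (Q : Place Kbar (FF M))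
    (hQ : ∃ a : A, ValueAt Q t0 (a : Kbar)) {x : FF M} (hx : x ∈ modelAt M A t0) :
    x ∈ h41dO A t0 Q hQ :=
  ⟨⟨x, hx⟩, 1, (Ideal.ne_top_iff_one _).1 (h41d_centre_isPrime A t0 Q hQ).ne_top, by simp⟩

/-- the constants of `A` lie in the local ring. -/
theorem h41d_O_cst (A : ValuationSubring Kbar) (t0 : FF M) (Q : Place Kbar (FF M))
    (hQ : ∃ a : A, ValueAt Q t0 (a : Kbar)) (a : Kbar) (ha : a ∈ A) :
    cst M a ∈ h41dO A t0 Q hQ :=
  h41d_chart_le_O A t0 Q hQ (ModelO.h85_cst_mem_modelAt M A t0 ha)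

/-- `P` has the same centre as `Q` on the chart `modelAt M A t0`. -/
def h41dSame (A : ValuationSubring Kbar) (t0 : FF M) (P Q : Place Kbar (FF M)) : Prop :=
  (∃ a : A, ValueAt P t0 (a : Kbar)) ∧ ∀ f ∈ modelAt M A t0, CongAt A P Q f

/-- congruent elements of `A` are nonunits simultaneously. -/
theorem h41d_nonunits_congr {A : ValuationSubring Kbar} {a c : Kbar} (ha : a ∈ A) (hc : c ∈ A)
    (hac : a - c ∈ A.nonunits) : a ∈ A.nonunits ↔ c ∈ A.nonunits := by
  have h1 : ((⟨a, ha⟩ : A) - ⟨c, hc⟩) ∈ maximalIdeal A :=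
    ValuationSubring.coe_mem_nonunits_iff.1 hac
  constructor
  · intro h
    have h2 : (⟨a, ha⟩ : A) ∈ maximalIdeal A := ValuationSubring.coe_mem_nonunits_iff.1 h
    have h3 := (maximalIdeal A).sub_mem h2 h1
    rw [sub_sub_cancel] at h3
    exact ValuationSubring.coe_mem_nonunits_iff.2 h3
  · intro h
    have h2 : (⟨c, hc⟩ : A) ∈ maximalIdeal A := ValuationSubring.coe_mem_nonunits_iff.1 h
    have h3 := (maximalIdeal A).add_mem h1 h2
    rw [sub_add_cancel] at h3
    exact ValuationSubring.coe_mem_nonunits_iff.2 h3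

/-- places with the same centre have the same centre ideal. -/
theorem h41d_centre_eq {A : ValuationSubring Kbar} {t0 : FF M} {P Q : Place Kbar (FF M)}
    (hQ : ∃ a : A, ValueAt Q t0 (a : Kbar)) (hP : h41dSame A t0 P Q) :
    h41dCentre A t0 P hP.1 = h41dCentre A t0 Q hQ := by
  ext b
  obtain ⟨a, c, ha, hc, hPa, hQc, hac⟩ := hP.2 b b.2
  rw [h41d_mem_centre_iff hPa, h41d_mem_centre_iff hQc]
  exact h41d_nonunits_congr ha hc hac

/-- **O_val**: the functions of the local ring take values in `A` on the residue disc. -/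
theorem h41d_O_val {A : ValuationSubring Kbar} {t0 : FF M} {P Q : Place Kbar (FF M)}
    (hQ : ∃ a : A, ValueAt Q t0 (a : Kbar)) (hP : h41dSame A t0 P Q)
    {f : FF M} (hf : f ∈ h41dO A t0 Q hQ) : ∃ a ∈ A, ValueAt P f a := by
  obtain ⟨b, s, hs, hfs⟩ := hf
  rw [← h41d_centre_eq hQ hP, h41d_mem_centre] at hs
  set σ : A := chartEv A t0 P hP.1 s with hσ
  set β : A := chartEv A t0 P hP.1 b with hβ
  have hsv : ValueAt P (s : FF M) (σ : Kbar) := chartEv_spec A t0 P hP.1 s
  have hbv : ValueAt P (b : FF M) (β : Kbar) := chartEv_spec A t0 P hP.1 b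
  rw [ValuationSubring.mem_nonunits_iff_or, not_or, not_not] at hs
  obtain ⟨hσ0, hσinv⟩ := hs
  have hs0 : (s : FF M) ≠ 0 := by
    intro h0
    rw [h0] at hsv
    exact hσ0 (valueAt_unique hsv (valueAt_zero P))
  have hf' : f = (b : FF M) * (s : FF M)⁻¹ := by
    rw [← hfs, mul_assoc, mul_inv_cancel₀ hs0, mul_one]
  refine ⟨(β : Kbar) * (σ : Kbar)⁻¹, mul_mem β.2 hσinv, ?_⟩
  rw [hf']
  exact valueAt_mul hbv (valueAt_inv hsv hσ0)

omit [NeZero M] in
/-- **t_small**: a chart function vanishing at `Q` takes values in `𝔪_A` on the disc. -/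
theorem h41d_t_small {A : ValuationSubring Kbar} {t0 : FF M} {P Q : Place Kbar (FF M)}
    (hP : h41dSame A t0 P Q) {t : FF M} (ht : t ∈ modelAt M A t0) (ht0 : ValueAt Q t 0) :
    ∃ a ∈ A.nonunits, ValueAt P t a := by
  obtain ⟨a, c, -, -, hPa, hQc, hac⟩ := hP.2 t ht
  have hc0 : c = 0 := valueAt_unique hQc ht0
  rw [hc0, sub_zero] at hac
  exact ⟨a, hac, hPa⟩

/-- **O_div** (DIVISION in the local ring): for a local parameter `t` at the centre of `Q`
and every point `P` of the disc, `f - f(P) = (t - t(P)) h` with `h` in the local ring. -/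
theorem h41d_O_div {A : ValuationSubring Kbar} {t0 : FF M} (hfin : IfaceFinite M A t0)
    {P Q : Place Kbar (FF M)} (hQ : ∃ a : A, ValueAt Q t0 (a : Kbar))
    (t : chart M A t0) (htQ : t ∈ h41dCentre A t0 Q hQ)
    (hprin : ∀ y ∈ h41dCentre A t0 Q hQ, ∃ s, s ∉ h41dCentre A t0 Q hQ ∧
      s * y ∈ Ideal.span {t} ⊔ (maximalIdeal A).map (algebraMap A (chart M A t0)))
    (hP : h41dSame A t0 P Q) {f : FF M} (hf : f ∈ h41dO A t0 Q hQ) {a a' : Kbar}
    (hfa : ValueAt P f a) (hta : ValueAt P (t : FF M) a') :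
    ∃ h ∈ h41dO A t0 Q hQ, f - cst M a = ((t : FF M) - cst M a') * h := by
  have hcen := h41d_centre_eq hQ hP
  set φ : chart M A t0 →ₐ[A] A := chartEv A t0 P hP.1 with hφ
  -- the value of `f` lies in `A`
  obtain ⟨a₁, ha₁, hfa₁⟩ := h41d_O_val hQ hP hf
  have haa : a₁ = a := valueAt_unique hfa₁ hfa
  subst haa
  obtain ⟨b, s, hs, hfs⟩ := hf
  -- `y = b - a s` vanishes at `P`
  set y : chart M A t0 := b - algebraMap A (chart M A t0) ⟨a₁, ha₁⟩ * s with hy
  have hyc : (y : FF M) = (b : FF M) - cst M a₁ * (s : FF M) := by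
    rw [hy]
    push_cast
    rfl
  have hyker : y ∈ RingHom.ker (φ : chart M A t0 →+* A) := by
    rw [RingHom.mem_ker]
    apply Subtype.ext
    refine chartEv_eq A t0 P hP.1 y ?_
    rw [hyc, ← hfs]
    have h1 : f * (s : FF M) - cst M a₁ * (s : FF M) = (f - cst M a₁) * (s : FF M) := by ring
    rw [h1]
    have h2 := valueAt_mul (valueAt_sub hfa (valueAt_cst P a₁))
      (chartEv_spec A t0 P hP.1 s)
    rwa [sub_self, zero_mul] at h2
  -- Nakayama
  have h𝔪𝔫 : (maximalIdeal A).map (algebraMap A (chart M A t0)) ≤ h41dCentre A t0 Q hQ := by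
    rw [Ideal.map_le_iff_le_comap]
    intro x hx
    rw [Ideal.mem_comap, ← hcen]
    show φ (algebraMap A (chart M A t0) x) ∈ maximalIdeal A
    rw [AlgHom.commutes]
    exact hx
  have hφ𝔫 : ∀ z ∈ h41dCentre A t0 Q hQ, φ z ∈ maximalIdeal A := by
    intro z hz
    rw [← hcen] at hz
    exact hz
  have hker : RingHom.ker (φ : chart M A t0 →+* A) ≤ h41dCentre A t0 Q hQ := by
    intro z hz
    rw [← hcen]
    show φ z ∈ maximalIdeal A
    rw [RingHom.mem_ker] at hz
    have hz' : φ z = 0 := hz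
    rw [hz']
    exact zero_mem _
  obtain ⟨s', hs', hsy⟩ := h26_local_ker_principal (maximalIdeal A) (h41dCentre A t0 Q hQ) t htQ
    hprin h𝔪𝔫 φ hφ𝔫 hker (ker_chartEv_fg A t0 P hP.1 hfin) y hyker
  obtain ⟨z, hz⟩ := Ideal.mem_span_singleton'.1 hsy
  -- `φ t = a'`
  have hφt : ((φ t : A) : Kbar) = a' := chartEv_eq A t0 P hP.1 t hta
  have hs0 : (s : FF M) ≠ 0 := by
    intro h0
    apply hs
    have : s = 0 := Subtype.ext h0
    rw [this]
    exact zero_mem _
  have hs'0 : (s' : FF M) ≠ 0 := by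
    intro h0
    apply hs'
    have : s' = 0 := Subtype.ext h0
    rw [this]
    exact zero_mem _
  have hzc : (z : FF M) * ((t : FF M) - cst M a') = (s' : FF M) * (y : FF M) := by
    have h1 : ((z * (t - algebraMap A (chart M A t0) (φ t)) : chart M A t0) : FF M) =
        ((s' * y : chart M A t0) : FF M) := congrArg _ hz
    push_cast at h1
    have h2 : (algebraMap A (FF M)) (φ t) = cst M a' := by
      rw [← hφt]; rfl
    rw [h2] at h1
    exact h1
  refine ⟨(z : FF M) * ((s : FF M) * (s' : FF M))⁻¹, ?_, ?_⟩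
  · refine ⟨z, s * s', fun h => ?_, ?_⟩
    · exact ((h41d_centre_isPrime A t0 Q hQ).mem_or_mem h).elim hs hs'
    · push_cast
      rw [mul_assoc, inv_mul_cancel₀ (mul_ne_zero hs0 hs'0), mul_one]
  · have h1 : f - cst M a₁ = (y : FF M) * (s : FF M)⁻¹ := by
      rw [hyc, ← hfs]
      field_simp
    rw [h1]
    have h2 : (y : FF M) = (z : FF M) * ((t : FF M) - cst M a') * (s' : FF M)⁻¹ := by
      rw [hzc]
      field_simp
    rw [h2]
    field_simp

/-! ## Separation of places by the chart -/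

section SepAbs

open IsDedekindDomain

variable {K F : Type*} [Field K] [Field F] [Algebra K F]
variable {R : Type*} [CommRing R] [IsDedekindDomain R] [Algebra R F] [IsFractionRing R F]
  [Algebra K R] [IsScalarTower K R F]

/-- distinct height-one primes are separated by an element of the Dedekind domain. -/
theorem h41d_exists_sep (𝔓 𝔓' : HeightOneSpectrum R) (hne : 𝔓 ≠ 𝔓') :
    ∃ r : R, (Place.ofHeightOneSpectrum (K := K) (F := F) 𝔓).adicValuation (algebraMap R F r) < 1 ∧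
      (Place.ofHeightOneSpectrum (K := K) (F := F) 𝔓').adicValuation (algebraMap R F r) = 1 := by
  have hnle : ¬ 𝔓.asIdeal ≤ 𝔓'.asIdeal := by
    intro hle
    have hmax : 𝔓.asIdeal.IsMaximal := 𝔓.isMaximal
    have := hmax.eq_of_le 𝔓'.isPrime.ne_top hle
    exact hne (HeightOneSpectrum.ext this)
  obtain ⟨r, hr, hr'⟩ := SetLike.not_le_iff_exists.1 hnle
  refine ⟨r, ?_, ?_⟩
  · rw [GGC97_adicValuation_ofHeightOneSpectrum]
    exact (𝔓.valuation_lt_one_iff_mem r).2 hr
  · rw [GGC97_adicValuation_ofHeightOneSpectrum]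
    refine le_antisymm (𝔓'.valuation_le_one r) (not_lt.1 fun h' => ?_)
    exact hr' ((𝔓'.valuation_lt_one_iff_mem r).1 h')

end SepAbs

section Sep

open scoped IntermediateField.algebraAdjoinAdjoin
open IsDedekindDomain IntermediateField

set_option maxHeartbeats 1600000 in
/-- two distinct places, regular at the transcendental chart coordinate `t0`, are separated by
an element integral over `Kbar[t0]`. -/
theorem h41d_exists_sep_integral (t0 : FF M) (ht0 : Transcendental Kbar t0)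
    (P P' : Place Kbar (FF M)) (hPm : t0 ∈ P.toValuationSubring)
    (hPm' : t0 ∈ P'.toValuationSubring) (hne : P ≠ P') :
    ∃ r : FF M, IsIntegral (Algebra.adjoin Kbar {t0}) r ∧ P.adicValuation r < 1 ∧
      P'.adicValuation r = 1 := by
  haveI hfd : FiniteDimensional Kbar⟮t0⟯ (FF M) := HKMod.finiteDimensional_adjoin_FF M t0 ht0
  haveI hPID := Fermat.Agent.S24.FICore.isPrincipalIdealRing_adjoin (K := Kbar) t0 ht0
  haveI hDed : IsDedekindDomain (integralClosure (Algebra.adjoin Kbar {t0}) (FF M)) :=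
    integralClosure.isDedekindDomain (Algebra.adjoin Kbar {t0}) Kbar⟮t0⟯ (FF M)
  haveI hFrac : IsFractionRing (integralClosure (Algebra.adjoin Kbar {t0}) (FF M)) (FF M) :=
    integralClosure.isFractionRing_of_finite_extension Kbar⟮t0⟯ (FF M)
  obtain ⟨𝔓, h𝔓⟩ := Fermat.Agent.S24.exists_ofHeightOneSpectrum_eq
    (R := integralClosure (Algebra.adjoin Kbar {t0}) (FF M)) P
    (fun r => Fermat.Agent.S24.FICore.mem_of_isIntegral_adjoin t0 P hPm (b := (r : FF M)) r.2)
  obtain ⟨𝔓', h𝔓'⟩ := Fermat.Agent.S24.exists_ofHeightOneSpectrum_eq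
    (R := integralClosure (Algebra.adjoin Kbar {t0}) (FF M)) P'
    (fun r => Fermat.Agent.S24.FICore.mem_of_isIntegral_adjoin t0 P' hPm' (b := (r : FF M)) r.2)
  have hne' : 𝔓 ≠ 𝔓' := by
    intro h
    apply hne
    rw [← h𝔓, ← h𝔓', h]
  obtain ⟨r, hr1, hr2⟩ := h41d_exists_sep (K := Kbar) (F := FF M) 𝔓 𝔓' hne'
  rw [h𝔓] at hr1
  rw [h𝔓'] at hr2
  exact ⟨(r : FF M), r.2, hr1, hr2⟩

/-- two places, regular at the transcendental chart coordinate `t0`, such that every chart
function vanishing at the first vanishes at the second, are equal. -/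
theorem h41d_place_eq (A : ValuationSubring Kbar) (t0 : FF M) (ht0 : Transcendental Kbar t0)
    (P P' : Place Kbar (FF M)) (hP : ∃ a : A, ValueAt P t0 (a : Kbar))
    (hP' : ∃ a : A, ValueAt P' t0 (a : Kbar))
    (h : ∀ b : chart M A t0, chartEv A t0 P hP b = 0 → chartEv A t0 P' hP' b = 0) :
    P = P' := by
  have hPm : t0 ∈ P.toValuationSubring := by
    obtain ⟨a, ha⟩ := hP
    exact valueAt_mem ha
  have hPm' : t0 ∈ P'.toValuationSubring := by
    obtain ⟨a, ha⟩ := hP'
    exact valueAt_mem ha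
  by_contra hne
  obtain ⟨r, hrint, hr1, hr2⟩ := h41d_exists_sep_integral t0 ht0 P P' hPm hPm' hne
  obtain ⟨a, ha0, hmem⟩ := GGC97_clear A t0 r hrint
  have hv1 : P.adicValuation (cst M (a : Kbar) * r) < 1 := by
    rw [map_mul, Fermat.Agent.S24.asm_adicValuation_algebraMap _ ha0, one_mul]
    exact hr1
  have hv2 : P'.adicValuation (cst M (a : Kbar) * r) = 1 := by
    rw [map_mul, Fermat.Agent.S24.asm_adicValuation_algebraMap _ ha0, one_mul]
    exact hr2
  have e1 := (chartEv_eq_zero_iff A t0 P hP ⟨cst M (a : Kbar) * r, hmem⟩).2 hv1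
  have e2 := (chartEv_eq_zero_iff A t0 P' hP' ⟨cst M (a : Kbar) * r, hmem⟩).1 (h _ e1)
  rw [hv2] at e2
  exact lt_irrefl _ e2

end Sep

/-! ## Injectivity of the coordinate on the disc -/

/-- **t_inj**: two points of the residue disc of `Q` with the same `t`-value are equal. -/
theorem h41d_t_inj {A : ValuationSubring Kbar} {t0 : FF M} (hfin : IfaceFinite M A t0)
    (ht0 : Transcendental Kbar t0)
    {P P' Q : Place Kbar (FF M)} (hQ : ∃ a : A, ValueAt Q t0 (a : Kbar))
    (t : chart M A t0) (htQ : t ∈ h41dCentre A t0 Q hQ)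
    (hprin : ∀ y ∈ h41dCentre A t0 Q hQ, ∃ s, s ∉ h41dCentre A t0 Q hQ ∧
      s * y ∈ Ideal.span {t} ⊔ (maximalIdeal A).map (algebraMap A (chart M A t0)))
    (hP : h41dSame A t0 P Q) (hP' : h41dSame A t0 P' Q) {a' : Kbar}
    (hta : ValueAt P (t : FF M) a') (hta' : ValueAt P' (t : FF M) a') : P = P' := by
  refine h41d_place_eq A t0 ht0 P P' hP.1 hP'.1 fun b hb0 => ?_
  have hbv : ValueAt P (b : FF M) 0 := by
    have h1 := chartEv_spec A t0 P hP.1 b
    rwa [hb0] at h1
  obtain ⟨h, hh, hdiv⟩ := h41d_O_div hfin hQ t htQ hprin hP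
    (h41d_chart_le_O A t0 Q hQ b.2) hbv hta
  obtain ⟨η, -, hη⟩ := h41d_O_val hQ hP' hh
  have h2 := valueAt_mul (valueAt_sub hta' (valueAt_cst P' a')) hη
  rw [← hdiv, sub_self, zero_mul] at h2
  have h3 : ValueAt P' (b : FF M) 0 := by
    have h4 := valueAt_add h2 (valueAt_cst P' 0)
    rwa [sub_add_cancel, add_zero] at h4
  exact Subtype.ext (chartEv_eq A t0 P' hP'.1 b h3)

/-! ## The dictionary with `SameRed` -/

theorem h41d_same_of_sameRed_fin {A : ValuationSubring Kbar} {P Q : Place Kbar (FF M)}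
    (hQ : IsFinAt A Q) (h : SameRed A P Q) : h41dSame A (jB M) P Q := by
  rcases h with ⟨hP, -, h⟩ | ⟨-, hQ', -⟩
  · obtain ⟨a, ha, hPa⟩ := hP
    exact ⟨⟨⟨a, ha⟩, hPa⟩, h⟩
  · exact (hQ' hQ).elim

theorem h41d_same_of_sameRed_inf {A : ValuationSubring Kbar} {P Q : Place Kbar (FF M)}
    (hQ : ¬ IsFinAt A Q) (h : SameRed A P Q) : h41dSame A (jB M)⁻¹ P Q := by
  rcases h with ⟨-, hQ', -⟩ | ⟨hP, -, h⟩
  · exact (hQ hQ').elim
  · obtain ⟨a, ha, hPa⟩ := exists_valueAt_inv_of_not_isFinAt hP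
    exact ⟨⟨⟨a, ValuationSubring.nonunits_subset ha⟩, hPa⟩, h⟩

open Classical in
/-- the coordinate of the chart of the model containing the reduction of `Q`: `j` if `Q` is
finite, `1/j` otherwise. -/
def h41dT0 (A : ValuationSubring Kbar) (Q : Place Kbar (FF M)) : FF M :=
  if IsFinAt A Q then jB M else (jB M)⁻¹

theorem h41d_T0_fin {A : ValuationSubring Kbar} {Q : Place Kbar (FF M)} (hQ : IsFinAt A Q) :
    h41dT0 A Q = jB M := by
  unfold h41dT0
  rw [if_pos hQ]

theorem h41d_T0_inf {A : ValuationSubring Kbar} {Q : Place Kbar (FF M)} (hQ : ¬ IsFinAt A Q) :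
    h41dT0 A Q = (jB M)⁻¹ := by
  unfold h41dT0
  rw [if_neg hQ]

theorem h41d_T0_value (A : ValuationSubring Kbar) (Q : Place Kbar (FF M)) :
    ∃ a : A, ValueAt Q (h41dT0 A Q) (a : Kbar) := by
  by_cases hQ : IsFinAt A Q
  · rw [h41d_T0_fin hQ]
    obtain ⟨a, ha, hQa⟩ := hQ
    exact ⟨⟨a, ha⟩, hQa⟩
  · rw [h41d_T0_inf hQ]
    obtain ⟨a, ha, hQa⟩ := exists_valueAt_inv_of_not_isFinAt hQ
    exact ⟨⟨a, ValuationSubring.nonunits_subset ha⟩, hQa⟩

theorem h41d_T0_transcendental (A : ValuationSubring Kbar) (Q : Place Kbar (FF M)) :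
    Transcendental Kbar (h41dT0 A Q) := by
  by_cases hQ : IsFinAt A Q
  · rw [h41d_T0_fin hQ]
    exact GGC97_transcendental_jB M
  · rw [h41d_T0_inf hQ]
    exact GGC97_transcendental_jB_inv M

theorem h41d_T0_finite {ℓ : ℕ} (hℓ : ℓ.Prime) (hM : ¬ ℓ ∣ M) {A : ValuationSubring Kbar}
    (hA : A.LiesOverPrime ℓ) (Q : Place Kbar (FF M)) : IfaceFinite M A (h41dT0 A Q) := by
  by_cases hQ : IsFinAt A Q
  · rw [h41d_T0_fin hQ]
    exact ModelO.h85_modelFin_fg hℓ hM hA
  · rw [h41d_T0_inf hQ]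
    exact ModelO.h85_modelInf_fg hℓ hM hA

/-- `SameRed` is "same centre on the chart of `Q`". -/
theorem h41d_same_of_sameRed {A : ValuationSubring Kbar} {P Q : Place Kbar (FF M)}
    (h : SameRed A P Q) : h41dSame A (h41dT0 A Q) P Q := by
  by_cases hQ : IsFinAt A Q
  · rw [h41d_T0_fin hQ]
    exact h41d_same_of_sameRed_fin hQ h
  · rw [h41d_T0_inf hQ]
    exact h41d_same_of_sameRed_inf hQ h

/-- the centre of `Q` on its chart. -/
abbrev h41dCentreQ (A : ValuationSubring Kbar) (Q : Place Kbar (FF M)) :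
    Ideal (chart M A (h41dT0 A Q)) :=
  h41dCentre A (h41dT0 A Q) Q (h41d_T0_value A Q)

/-- **the local ring of the model at the reduction of `Q`** (a subring of `F_M`). -/
def h41dOQ (A : ValuationSubring Kbar) (Q : Place Kbar (FF M)) : Subring (FF M) :=
  h41dO A (h41dT0 A Q) Q (h41d_T0_value A Q)

/-- `t` is a local parameter of the model at the reduction of `Q`, vanishing at `Q`:
`t` is in the chart, `t(Q) = 0`, and the centre of `Q` is `(t) + 𝔪_A B` locally. -/
def h41dIsParam (A : ValuationSubring Kbar) (Q : Place Kbar (FF M)) (t : FF M) : Prop :=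
  ∃ ht : t ∈ modelAt M A (h41dT0 A Q), ValueAt Q t 0 ∧
    ∀ y ∈ h41dCentreQ A Q, ∃ s, s ∉ h41dCentreQ A Q ∧
      s * y ∈ Ideal.span {(⟨t, ht⟩ : chart M A (h41dT0 A Q))} ⊔
        (maximalIdeal A).map (algebraMap A (chart M A (h41dT0 A Q)))

/-- **The disc calculus of `H96Chart.Valid`** at a good prime: for a local parameter `t` at the
reduction of `Q` and `O = h41dOQ A Q`: `t_small`, `t_inj`, `O_cst`, `O_t`, `O_val`, `O_div`. -/
theorem h41d_disc {ℓ : ℕ} (hℓ : ℓ.Prime) (hM : ¬ ℓ ∣ M) {A : ValuationSubring Kbar}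
    (hA : A.LiesOverPrime ℓ) (Q : Place Kbar (FF M)) (t : FF M) (ht : h41dIsParam A Q t) :
    (∀ P, SameRed A P Q → ∃ a ∈ A.nonunits, ValueAt P t a) ∧
    (∀ P P' a, SameRed A P Q → SameRed A P' Q → ValueAt P t a → ValueAt P' t a → P = P') ∧
    (∀ a, a ∈ A → cst M a ∈ h41dOQ A Q) ∧
    t ∈ h41dOQ A Q ∧
    (∀ f ∈ h41dOQ A Q, ∀ P, SameRed A P Q → ∃ a ∈ A, ValueAt P f a) ∧
    (∀ f ∈ h41dOQ A Q, ∀ P, SameRed A P Q → ∀ a a', ValueAt P f a → ValueAt P t a' →
      ∃ h ∈ h41dOQ A Q, f - cst M a = (t - cst M a') * h) := by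
  obtain ⟨htm, htQ, hprin⟩ := ht
  have hfin := h41d_T0_finite hℓ hM hA Q
  have htc : (⟨t, htm⟩ : chart M A (h41dT0 A Q)) ∈ h41dCentreQ A Q := by
    rw [h41d_mem_centre_iff (b := (⟨t, htm⟩ : chart M A (h41dT0 A Q))) htQ]
    exact zero_mem _
  refine ⟨fun P hP => h41d_t_small (h41d_same_of_sameRed hP) htm htQ,
    fun P P' a hP hP' hta hta' => h41d_t_inj hfin (h41d_T0_transcendental A Q)
      (h41d_T0_value A Q) ⟨t, htm⟩ htc hprin (h41d_same_of_sameRed hP)
      (h41d_same_of_sameRed hP') hta hta',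
    fun a ha => h41d_O_cst A _ Q _ a ha,
    h41d_chart_le_O A _ Q _ htm,
    fun f hf P hP => h41d_O_val (h41d_T0_value A Q) (h41d_same_of_sameRed hP) hf,
    fun f hf P hP a a' hfa hta => h41d_O_div hfin (h41d_T0_value A Q) ⟨t, htm⟩ htc hprin
      (h41d_same_of_sameRed hP) hf hfa hta⟩

/-! ## Existence of local parameters at a good level -/

/-- the centre of a place is a maximal ideal of the chart. -/
theorem h41d_centre_isMaximal (A : ValuationSubring Kbar) (t0 : FF M) (Q : Place Kbar (FF M))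
    (hQ : ∃ a : A, ValueAt Q t0 (a : Kbar)) : (h41dCentre A t0 Q hQ).IsMaximal := by
  unfold h41dCentre
  refine Ideal.comap_isMaximal_of_surjective _ ?_
  intro a
  exact ⟨algebraMap A (chart M A t0) a, (chartEv A t0 Q hQ).commutes a⟩

/-- the centre contains `𝔪_A B`. -/
theorem h41d_map_le_centre (A : ValuationSubring Kbar) (t0 : FF M) (Q : Place Kbar (FF M))
    (hQ : ∃ a : A, ValueAt Q t0 (a : Kbar)) :
    (maximalIdeal A).map (algebraMap A (chart M A t0)) ≤ h41dCentre A t0 Q hQ := by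
  rw [Ideal.map_le_iff_le_comap]
  intro x hx
  rw [Ideal.mem_comap]
  show (chartEv A t0 Q hQ) (algebraMap A (chart M A t0) x) ∈ maximalIdeal A
  rw [AlgHom.commutes]
  exact hx

/-- a local parameter in the sense of `IfaceLocalUnif` can be normalised to vanish at `Q`. -/
theorem h41d_exists_param_of_localUnif {A : ValuationSubring Kbar} (Q : Place Kbar (FF M))
    (hLU : IfaceLocalUnif M A (h41dT0 A Q)) : ∃ t : FF M, h41dIsParam A Q t := by
  obtain ⟨t', ht', -, -, hprin⟩ := hLU (h41dCentreQ A Q)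
    (h41d_centre_isMaximal A _ Q _) (h41d_map_le_centre A _ Q _)
  set c : A := chartEv A (h41dT0 A Q) Q (h41d_T0_value A Q) t' with hc
  have hcm : c ∈ maximalIdeal A := ht'
  set t : chart M A (h41dT0 A Q) := t' - algebraMap A _ c with ht
  have htv : ValueAt Q (t : FF M) 0 := by
    have h1 := chartEv_spec A (h41dT0 A Q) Q (h41d_T0_value A Q) t
    have h2 : chartEv A (h41dT0 A Q) Q (h41d_T0_value A Q) t = 0 := by
      rw [ht, map_sub, AlgHom.commutes]
      exact sub_self _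
    rwa [h2] at h1
  refine ⟨(t : FF M), t.2, htv, ?_⟩
  intro y hy
  obtain ⟨s, hs, hsy⟩ := hprin y hy
  refine ⟨s, hs, ?_⟩
  have hle : Ideal.span {t'} ⊔ (maximalIdeal A).map (algebraMap A (chart M A (h41dT0 A Q))) ≤
      Ideal.span {t} ⊔ (maximalIdeal A).map (algebraMap A (chart M A (h41dT0 A Q))) := by
    refine sup_le ?_ le_sup_right
    rw [Ideal.span_le, Set.singleton_subset_iff]
    have h1 : t' = t + algebraMap A _ c := by rw [ht]; ring
    rw [h1]
    exact Ideal.add_mem _ (Ideal.mem_sup_left (Ideal.subset_span rfl))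
      (Ideal.mem_sup_right (Ideal.mem_map_of_mem _ hcm))
  exact hle hsy

/-- **local parameters exist at every point of a good level** (`ℓ ∤ M`, `auxLevel ℓ ∣ M`). -/
theorem h41d_exists_param {ℓ : ℕ} (hℓ : ℓ.Prime) (hM : ¬ ℓ ∣ M) (haux : auxLevel ℓ ∣ M)
    {A : ValuationSubring Kbar} (hA : A.LiesOverPrime ℓ) (Q : Place Kbar (FF M)) :
    ∃ t : FF M, h41dIsParam A Q t := by
  refine h41d_exists_param_of_localUnif Q ?_
  by_cases hQ : IsFinAt A Q
  · rw [h41d_T0_fin hQ]
    exact h67_ifaceLocalUnif_fin M A Fermat.Agent.Red.SM.TID18.h18t_ifaceSmooth hℓ hM haux hA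
  · rw [h41d_T0_inf hQ]
    exact h67_ifaceLocalUnif_inf M A Fermat.Agent.Red.SM.TID18.h18t_ifaceSmooth hℓ hM haux hA

end Fermat.Agent.P5
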