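import Fermat.Agent.P5.H96LawIface
import Fermat.Agent.S37.Inertia
import Fermat.Agent.S37.Assembly
import Fermat.Agent.Red.BC.Main
import Fermat.Agent.Red.KR.Basic
import Fermat.Agent.Red.HKMod

/-!
# P5 (wave 5, S19), block GEO: the Galois clauses of `H96GeoInputs` (helper73)

`A` a valuation subring of `ℚ̄` over `ℓ ∤ M`, `I`, `D` its inertia and decomposition groups,
`J¹ = redKerPic M A`.

* `h73g_dec_mem`, `h73g_dec_nonunits` : `τ ∈ D` preserves `A` and `𝔪_A`.
* `h73g_sameRed_gal` : `SameRed A v w → SameRed A (τ v) (τ w)` for `τ ∈ D`.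
* `h73g_redKer_gal`, `h73g_redKerPic_gal` : `redKer`, `redKerPic` are stable under `D`
  (clause 7 of `H96GeoInputs`).
* `h73g_inertia_mod` : inertia acts trivially modulo `redKerPic` (clause 6; adapter of the
  landed P-RED results).
* `h73g_isCls_gal`, `h73g_isCoord_gal` : transport of `h96m_IsCls` and of coordinates.
* `h73g_lifts_of` : unramified lifts (clause 5) from "every place has an inertia-fixed place in
  its residue disc".
-/

set_option autoImplicit false
set_option linter.unusedSectionVars false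

open AlgebraicCurve ModularCurve

noncomputable section

namespace Fermat.Agent.P5

open Fermat.Agent.S37

variable {M : ℕ} [NeZero M] {A : ValuationSubring Kbar}

/-! ## the decomposition group preserves `A` -/

theorem h73g_dec_mem {τ : GQ} (hτ : τ ∈ A.decompositionSubgroup ℚ) {a : Kbar} (ha : a ∈ A) :
    τ a ∈ A :=
  ((⟨τ, hτ⟩ : A.decompositionSubgroup ℚ) • (⟨a, ha⟩ : A) : A).2

theorem h73g_dec_inv_mem {τ : GQ} (hτ : τ ∈ A.decompositionSubgroup ℚ) {a : Kbar}
    (ha : a ∈ A) : τ⁻¹ a ∈ A :=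
  h73g_dec_mem ((A.decompositionSubgroup ℚ).inv_mem hτ) ha

theorem h73g_dec_nonunits {τ : GQ} (hτ : τ ∈ A.decompositionSubgroup ℚ) {a : Kbar}
    (ha : a ∈ A.nonunits) : τ a ∈ A.nonunits := by
  rcases eq_or_ne a 0 with rfl | h0
  · rw [map_zero]
    exact GalI.zero_mem_nonunits A
  · have h0' : τ a ≠ 0 := (map_ne_zero _).mpr h0
    rw [GalI.mem_nonunits_iff_inv A h0'] 
    rw [GalI.mem_nonunits_iff_inv A h0] at ha
    intro hcon
    apply ha
    have h1 := h73g_dec_inv_mem hτ hcon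
    rw [← map_inv₀] at h1
    have h2 : τ⁻¹ (τ a⁻¹) = a⁻¹ := by
      show τ.symm (τ a⁻¹) = a⁻¹
      exact τ.symm_apply_apply _
    rwa [h2] at h1

/-! ## transport of `SameRed` -/

theorem h73g_gal_inv_smul (τ : GQ) (v : Place Kbar (FF M)) :
    gal M τ⁻¹ • gal M τ • v = v := by
  rw [← mul_smul, ← map_mul, inv_mul_cancel, map_one, one_smul]

theorem h73g_gal_smul_inv (τ : GQ) (v : Place Kbar (FF M)) :
    gal M τ • gal M τ⁻¹ • v = v := by
  rw [← mul_smul, ← map_mul, mul_inv_cancel, map_one, one_smul]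

theorem h73g_gal_inv_smul_fun (τ : GQ) (f : FF M) :
    gal M τ⁻¹ • gal M τ • f = f := by
  rw [← mul_smul, ← map_mul, inv_mul_cancel, map_one, one_smul]

theorem h73g_gal_smul_inv_fun (τ : GQ) (f : FF M) :
    gal M τ • gal M τ⁻¹ • f = f := by
  rw [← mul_smul, ← map_mul, mul_inv_cancel, map_one, one_smul]

theorem h73g_isFinAt_gal {τ : GQ} (hτ : τ ∈ A.decompositionSubgroup ℚ)
    {v : Place Kbar (FF M)} (h : IsFinAt A v) : IsFinAt A (gal M τ • v) := by
  obtain ⟨a, ha, hv⟩ := h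
  have h3 := GalI.valueAt_gal τ hv
  rw [GalI.gal_smul_jB] at h3
  exact ⟨τ a, h73g_dec_mem hτ ha, h3⟩

theorem h73g_isFinAt_gal_iff {τ : GQ} (hτ : τ ∈ A.decompositionSubgroup ℚ)
    {v : Place Kbar (FF M)} : IsFinAt A (gal M τ • v) ↔ IsFinAt A v := by
  refine ⟨fun h => ?_, h73g_isFinAt_gal hτ⟩
  have h1 := h73g_isFinAt_gal ((A.decompositionSubgroup ℚ).inv_mem hτ) h
  rwa [h73g_gal_inv_smul] at h1

theorem h73g_congAt_gal {τ : GQ} (hτ : τ ∈ A.decompositionSubgroup ℚ)
    {v w : Place Kbar (FF M)} {f : FF M} (h : CongAt A v w f) :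
    CongAt A (gal M τ • v) (gal M τ • w) (gal M τ • f) := by
  obtain ⟨a, b, ha, hb, hva, hwb, hab⟩ := h
  refine ⟨τ a, τ b, h73g_dec_mem hτ ha, h73g_dec_mem hτ hb, GalI.valueAt_gal τ hva,
    GalI.valueAt_gal τ hwb, ?_⟩
  rw [← map_sub]
  exact h73g_dec_nonunits hτ hab

theorem h73g_modelFin_gal {τ : GQ} (hτ : τ ∈ A.decompositionSubgroup ℚ) {f : FF M}
    (hf : f ∈ modelFin M A) : gal M τ • f ∈ modelFin M A := by
  have h := Fermat.Agent.Red.KR.gal_mem_modelAt A hτ (N := M) (t := jB M) (x := f) hf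
  rwa [GalI.gal_smul_jB] at h

theorem h73g_modelInf_gal {τ : GQ} (hτ : τ ∈ A.decompositionSubgroup ℚ) {f : FF M}
    (hf : f ∈ modelInf M A) : gal M τ • f ∈ modelInf M A := by
  have h := Fermat.Agent.Red.KR.gal_mem_modelAt A hτ (N := M) (t := (jB M)⁻¹) (x := f) hf
  rwa [GalI.gal_smul_jB_inv] at h

/-- the decomposition group preserves `SameRed`. -/
theorem h73g_sameRed_gal {τ : GQ} (hτ : τ ∈ A.decompositionSubgroup ℚ)
    {v w : Place Kbar (FF M)} (h : SameRed A v w) :
    SameRed A (gal M τ • v) (gal M τ • w) := by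
  have hτ' := (A.decompositionSubgroup ℚ).inv_mem hτ
  rcases h with ⟨hv, hw, hf⟩ | ⟨hv, hw, hf⟩
  · refine Or.inl ⟨h73g_isFinAt_gal hτ hv, h73g_isFinAt_gal hτ hw, fun f hfm => ?_⟩
    have h1 := h73g_congAt_gal hτ (hf _ (h73g_modelFin_gal hτ' hfm))
    rwa [h73g_gal_smul_inv_fun] at h1
  · refine Or.inr ⟨fun h => hv ((h73g_isFinAt_gal_iff hτ).1 h),
      fun h => hw ((h73g_isFinAt_gal_iff hτ).1 h), fun f hfm => ?_⟩
    have h1 := h73g_congAt_gal hτ (hf _ (h73g_modelInf_gal hτ' hfm))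
    rwa [h73g_gal_smul_inv_fun] at h1

theorem h73g_sameRed_gal_iff {τ : GQ} (hτ : τ ∈ A.decompositionSubgroup ℚ)
    {v w : Place Kbar (FF M)} :
    SameRed A (gal M τ • v) (gal M τ • w) ↔ SameRed A v w := by
  refine ⟨fun h => ?_, h73g_sameRed_gal hτ⟩
  have h1 := h73g_sameRed_gal ((A.decompositionSubgroup ℚ).inv_mem hτ) h
  rwa [h73g_gal_inv_smul, h73g_gal_inv_smul] at h1

/-! ## `redKer` and `redKerPic` are stable under the decomposition group -/

theorem h73g_redKer_gal {τ : GQ} (hτ : τ ∈ A.decompositionSubgroup ℚ)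
    {D : Divisor Kbar (FF M)} (hD : D ∈ redKer M A) : gal M τ • D ∈ redKer M A := by
  unfold redKer at hD ⊢
  induction hD using AddSubgroup.closure_induction with
  | mem E hE =>
    obtain ⟨v, w, hvw, rfl⟩ := hE
    refine AddSubgroup.subset_closure ⟨gal M τ • v, gal M τ • w, h73g_sameRed_gal hτ hvw, ?_⟩
    rw [smul_sub, SemilinearAut.smul_single, SemilinearAut.smul_single]
  | zero => rw [smul_zero]; exact AddSubgroup.zero_mem _
  | add E E' _ _ hE hE' => rw [smul_add]; exact AddSubgroup.add_mem _ hE hE'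
  | neg E _ hE => rw [smul_neg]; exact AddSubgroup.neg_mem _ hE

/-- **clause 7 of `H96GeoInputs`**: `redKerPic` is stable under the decomposition group. -/
theorem h73g_redKerPic_gal {τ : GQ} (hτ : τ ∈ A.decompositionSubgroup ℚ)
    {x : JZero M} (hx : x ∈ redKerPic M A) : τ • x ∈ redKerPic M A := by
  obtain ⟨D, hD, rfl⟩ := hx
  exact ⟨SemilinearAut.degZeroSMulHom (gal M τ) D, h73g_redKer_gal hτ hD, rfl⟩

/-- **clause 6 of `H96GeoInputs`**: inertia acts trivially modulo `redKerPic`. -/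
theorem h73g_inertia_mod {ℓ : ℕ} (hℓ : ℓ.Prime) (hℓM : ¬ ℓ ∣ M) (hA : A.LiesOverPrime ℓ)
    {σ : GQ} (hσ : σ ∈ A.inertiaSubgroupIn ℚ) (x : JZero M) :
    σ • x - x ∈ redKerPic M A := by
  obtain ⟨D, rfl⟩ := Pic0.mk_surjective x
  refine ⟨SemilinearAut.degZeroSMulHom (gal M σ) D - D, ?_, rfl⟩
  exact smul_sub_mem_redKer (gal M σ)
    (ifaceInertia_of M (Fermat.Agent.Red.BC.ifaceBaseChange M) ℓ hℓ hℓM A hA σ hσ)
    (D : Divisor Kbar (FF M))

/-! ## transport of classes and coordinates -/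

variable {g : ℕ}

theorem h73g_isCls_gal (τ : GQ) {x : JZero M} {P Q : Fin g → Place Kbar (FF M)}
    (h : h96m_IsCls x P Q) :
    h96m_IsCls (τ • x) (fun i => gal M τ • P i) (fun i => gal M τ • Q i) := by
  obtain ⟨D, hD, rfl⟩ := h
  refine ⟨SemilinearAut.degZeroSMulHom (gal M τ) D, ?_, rfl⟩
  rw [SemilinearAut.coe_degZeroSMulHom, hD, Finset.smul_sum]
  refine Finset.sum_congr rfl fun i _ => ?_
  rw [smul_sub, SemilinearAut.smul_single, SemilinearAut.smul_single]

/-- the transported chart. -/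
def h73gChart (τ : GQ) (c : H96Chart M g) : H96Chart M g where
  Q i := gal M τ • c.Q i
  t i := gal M τ • c.t i
  O i := (c.O i).map
    (MulSemiringAction.toRingHom (SemilinearAut Kbar (FF M)) (FF M) (gal M τ))

theorem h73g_mem_O_iff (τ : GQ) (c : H96Chart M g) (i : Fin g) (f : FF M) :
    f ∈ (h73gChart τ c).O i ↔ gal M τ⁻¹ • f ∈ c.O i := by
  constructor
  · rintro ⟨f₀, hf₀, rfl⟩
    have e : gal M τ⁻¹ • (MulSemiringAction.toRingHom (SemilinearAut Kbar (FF M)) (FF M)
        (gal M τ)) f₀ = f₀ := h73g_gal_inv_smul_fun τ f₀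
    rw [e]
    exact hf₀
  · intro h
    exact ⟨gal M τ⁻¹ • f, h, h73g_gal_smul_inv_fun τ f⟩

theorem h73g_smul_mem_O (τ : GQ) (c : H96Chart M g) (i : Fin g) {f : FF M} (hf : f ∈ c.O i) :
    gal M τ • f ∈ (h73gChart τ c).O i :=
  ⟨f, hf, rfl⟩

theorem h73g_isCoord_gal {τ : GQ} (hτ : τ ∈ A.decompositionSubgroup ℚ) {c : H96Chart M g}
    {x : JZero M} {i : Fin g} {a : Kbar} (h : c.IsCoord A x i a) :
    (h73gChart τ c).IsCoord A (τ • x) i (τ a) := by
  obtain ⟨P, hP, hcls, hval⟩ := h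
  exact ⟨fun i => gal M τ • P i, fun i => h73g_sameRed_gal hτ (hP i), h73g_isCls_gal τ hcls,
    GalI.valueAt_gal τ hval⟩

/-! ## unramified lifts -/

/-- every place has an inertia-fixed place in its residue disc. -/
def H73gUnrPlaces (M : ℕ) [NeZero M] (A : ValuationSubring Kbar) : Prop :=
  ∀ v : Place Kbar (FF M), ∃ Q : Place Kbar (FF M),
    (∀ σ ∈ A.inertiaSubgroupIn ℚ, gal M σ • Q = Q) ∧ SameRed A v Q

theorem h73g_degree_mapDomain (q : Place Kbar (FF M) → Place Kbar (FF M))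
    (D : Divisor Kbar (FF M)) :
    Divisor.degree (Finsupp.mapDomain q D) = Divisor.degree D := by
  induction D using Finsupp.induction_linear with
  | zero => rw [Finsupp.mapDomain_zero]
  | add D E hD hE => rw [Finsupp.mapDomain_add, map_add, map_add, hD, hE]
  | single v n =>
    rw [Finsupp.mapDomain_single, Divisor.degree_single, Divisor.degree_single,
      Fermat.Agent.Red.HKMod.place_deg_FF, Fermat.Agent.Red.HKMod.place_deg_FF]

theorem h73g_sub_mapDomain_mem (q : Place Kbar (FF M) → Place Kbar (FF M))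
    (hq : ∀ v, SameRed A v (q v)) (D : Divisor Kbar (FF M)) :
    D - Finsupp.mapDomain q D ∈ redKer M A := by
  induction D using Finsupp.induction_linear with
  | zero => rw [Finsupp.mapDomain_zero, sub_zero]; exact (redKer M A).zero_mem
  | add D E hD hE =>
    rw [Finsupp.mapDomain_add, add_sub_add_comm]
    exact (redKer M A).add_mem hD hE
  | single v n =>
    rw [Finsupp.mapDomain_single]
    have e : (Finsupp.single v n - Finsupp.single (q v) n : Divisor Kbar (FF M))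
        = n • (Finsupp.single v (1 : ℤ) - Finsupp.single (q v) (1 : ℤ)) := by
      rw [smul_sub, Finsupp.smul_single, Finsupp.smul_single, smul_eq_mul, mul_one]
    rw [e]
    exact (redKer M A).zsmul_mem (single_sub_single_mem_redKer (hq v)) n

/-- **clause 5 of `H96GeoInputs`**: unramified lifts of all classes. -/
theorem h73g_lifts_of (h : H73gUnrPlaces M A) (y : JZero M) :
    ∃ c₀ : JZero M, (∀ σ ∈ A.inertiaSubgroupIn ℚ, σ • c₀ = c₀) ∧ y - c₀ ∈ redKerPic M A := by
  classical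
  choose q hqfix hqred using h
  obtain ⟨D, rfl⟩ := Pic0.mk_surjective y
  have hdeg : Finsupp.mapDomain q (D : Divisor Kbar (FF M)) ∈
      Divisor.degZero (K := Kbar) (F := FF M) := by
    rw [Divisor.mem_degZero, h73g_degree_mapDomain]
    exact D.2
  refine ⟨Pic0.mk ⟨Finsupp.mapDomain q (D : Divisor Kbar (FF M)), hdeg⟩, ?_, ?_⟩
  · intro σ hσ
    show Pic0.mk (SemilinearAut.degZeroSMulHom (gal M σ) _) = _
    congr 1
    apply Subtype.ext
    rw [SemilinearAut.coe_degZeroSMulHom]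
    show gal M σ • Finsupp.mapDomain q (D : Divisor Kbar (FF M)) = _
    rw [SemilinearAut.divisor_smul_def, ← Finsupp.mapDomain_comp]
    congr 1
    funext v
    exact hqfix v σ hσ
  · refine ⟨D - ⟨Finsupp.mapDomain q (D : Divisor Kbar (FF M)), hdeg⟩, ?_, rfl⟩
    exact h73g_sub_mapDomain_mem q hqred (D : Divisor Kbar (FF M))

end Fermat.Agent.P5
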