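import Fermat.Agent.P5.H31Zero
import Fermat.Agent.P5.H41Div
import Fermat.Agent.P5.H73GeoGal
import Fermat.Agent.S36.H25RedIsoInst
import Fermat.Agent.Red.GGChartAsm
import Fermat.Agent.Red.H67LocalUnifGG
import Fermat.Agent.Red.KR.Asm

/-!
# P5 (wave 5, S19), block GEO, row UNR-PLACE (helper31): an inertia-fixed place in EVERY disc

`A` a valuation subring of `ℚ̄` over `ℓ`, `I` its inertia group, `M` a good level
(`ℓ ∤ M`, `auxLevel ℓ ∣ M`), `t0 = j` or `t0 = 1/j`, `B = chart M A t0`.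

* `h31i_fixed_chartPlace` (chart-generic): at every closed point `𝔫` of the special fibre of
  `B` there is a place centred at `𝔫` which is fixed by `I`.  [`𝔫 = (t') + 𝔪_A B` locally
  (LOCAL-UNIF); `t' ≡ u` modulo `𝔪_A B` with `u` fixed by `I` (R-REDISO); `u` has exactly one
  zero in the disc of `𝔫` (`P5/H31Zero.lean`); `I` stabilises `𝔫` and fixes `u`, hence
  permutes the zeros of `u` in the disc: the zero is fixed.]
* `h31i_unrPlaces : H73gUnrPlaces M A` : every place, **finite or not** (cusp discs included),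
  has the same reduction as an inertia-fixed place.
* `h31i_unram_lift` : **conjunct 5 of `H96GeoInputs`**, unconditional at a good level.
-/

set_option autoImplicit false
set_option synthInstance.maxHeartbeats 400000
set_option linter.unusedSectionVars false
set_option linter.unusedVariables false
set_option linter.style.haveILetI false
set_option linter.style.longLine false

open AlgebraicCurve ModularCurve WithZero IsLocalRing

noncomputable section

namespace Fermat.Agent.P5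

open Fermat.Agent.S37 Fermat.Agent.S37.GalI Fermat.Agent.Red Fermat.Agent.Red.Match
  Fermat.Agent.Red.GG Fermat.Agent.Red.GV Fermat.Agent.S36

variable {M : ℕ} [NeZero M] {A : ValuationSubring Kbar} {t0 : FF M}

/-! ## `𝔪_A B` is Gauss-small and stable under the decomposition group -/

/-- the elements of `𝔪_A B` are Gauss-small. -/
theorem h31i_mExt_small {ℓ : ℕ} (hℓ : ℓ.Prime) (hM : ¬ ℓ ∣ M) (hA : A.LiesOverPrime ℓ)
    (hBV : ∀ x ∈ modelAt M A t0, x ∈ gaussV A M) {x : FF M} (hx : x ∈ h25i_mExt A M t0) :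
    ∃ h : x ∈ gaussV A M, gaussR A M ⟨x, h⟩ = 0 := by
  refine AddSubgroup.closure_induction
    (p := fun x _ => ∃ h : x ∈ gaussV A M, gaussR A M ⟨x, h⟩ = 0) ?_ ?_ ?_ ?_ hx
  · rintro _ ⟨a, b, ha, hb, rfl⟩
    have haV : cst M a ∈ gaussV A M := (cst_mem_gaussV_iff A M hA a).2 (A.nonunits_subset ha)
    have hbV : b ∈ gaussV A M := hBV b hb
    have ha0 : gaussR A M ⟨cst M a, haV⟩ = 0 := by
      rw [gaussR_eq_zero_iff A M hℓ hM hA]
      rcases eq_or_ne a 0 with rfl | h0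
      · left
        exact cst_zero
      · right
        show (cst M a)⁻¹ ∉ gaussV A M
        rw [← cst_inv, cst_mem_gaussV_iff A M hA]
        exact (mem_nonunits_iff_inv A h0).1 ha
    refine ⟨mul_mem haV hbV, ?_⟩
    have e : (⟨cst M a * b, mul_mem haV hbV⟩ : gaussV A M) = ⟨cst M a, haV⟩ * ⟨b, hbV⟩ := rfl
    rw [e, map_mul, ha0, zero_mul]
  · exact ⟨zero_mem _, map_zero _⟩
  · rintro x y _ _ ⟨hx, hx0⟩ ⟨hy, hy0⟩
    refine ⟨add_mem hx hy, ?_⟩
    have e : (⟨x + y, add_mem hx hy⟩ : gaussV A M) = ⟨x, hx⟩ + ⟨y, hy⟩ := rfl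
    rw [e, map_add, hx0, hy0, add_zero]
  · rintro x _ ⟨hx, hx0⟩
    refine ⟨neg_mem hx, ?_⟩
    have e : (⟨-x, neg_mem hx⟩ : gaussV A M) = -⟨x, hx⟩ := rfl
    rw [e, map_neg, hx0, neg_zero]

/-- the decomposition group maps `𝔪_A B` into itself. -/
theorem h31i_gal_mExt {σ : GQ} (hσ : σ ∈ A.decompositionSubgroup ℚ)
    (ht0 : gal M σ • t0 = t0) {x : FF M} (hx : x ∈ h25i_mExt A M t0) :
    gal M σ • x ∈ h25i_mExt A M t0 := by
  refine AddSubgroup.closure_induction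
    (p := fun x _ => gal M σ • x ∈ h25i_mExt A M t0) ?_ ?_ ?_ ?_ hx
  · rintro _ ⟨a, b, ha, hb, rfl⟩
    rw [smul_mul', gal_smul_cst]
    refine h25i_gen_mem (h73g_dec_nonunits hσ ha) ?_
    have h := Fermat.Agent.Red.KR.gal_mem_modelAt A hσ hb
    rwa [ht0] at h
  · rw [smul_zero]
    exact zero_mem _
  · intro x y _ _ hx hy
    rw [smul_add]
    exact add_mem hx hy
  · intro x _ hx
    rw [smul_neg]
    exact neg_mem hx

/-- **inertia acts trivially on the special fibre of the chart**: `σ b - b ∈ 𝔪_A B`. -/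
theorem h31i_gal_sub_mem
    (hRI : ∀ b : chart M A t0, ∃ b₀ : h62rChart A M t0,
      b - h62rIncl A M t0 b₀ ∈ h62rM A M t0)
    {σ : GQ} (hσ : σ ∈ A.inertiaSubgroupIn ℚ) (ht0 : gal M σ • t0 = t0)
    {b : FF M} (hb : b ∈ modelAt M A t0) :
    gal M σ • b - b ∈ h25i_mExt A M t0 := by
  obtain ⟨b₀, hb₀⟩ := hRI ⟨b, hb⟩
  have hm : b - (b₀ : FF M) ∈ h25i_mExt A M t0 := h25i_mExt_of_mem_h62rM hb₀
  have hfix : gal M σ • (b₀ : FF M) = (b₀ : FF M) := (h62r_mem_chart.mp b₀.2).2 σ hσ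
  have hσm := h31i_gal_mExt (mem_decomp_of_mem_inertia A hσ) ht0 hm
  rw [smul_sub, hfix] at hσm
  have e : gal M σ • b - b = (gal M σ • b - (b₀ : FF M)) - (b - (b₀ : FF M)) := by ring
  rw [e]
  exact sub_mem hσm hm

/-! ## The fixed place of a disc (chart-generic) -/

/-- **an inertia-fixed place centred at every closed point of the special fibre.** -/
theorem h31i_fixed_chartPlace {ℓ : ℕ} (hℓ : ℓ.Prime) (hM : ¬ ℓ ∣ M) (hA : A.LiesOverPrime ℓ)
    (hC : IfaceChart M A t0) (hfin : IfaceFinite M A t0) (hLU : IfaceLocalUnif M A t0)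
    (hRI : ∀ b : chart M A t0, ∃ b₀ : h62rChart A M t0,
      b - h62rIncl A M t0 b₀ ∈ h62rM A M t0)
    (ht0 : ∀ σ : GQ, gal M σ • t0 = t0)
    (𝔫 : Ideal (chart M A t0)) (h𝔫 : 𝔫.IsMaximal)
    (hm : (maximalIdeal A).map (algebraMap A (chart M A t0)) ≤ 𝔫) :
    ∃ i : ChartPlace M t0, h26Centered (chart M A t0) (chartVal M t0) 𝔫 i ∧
      ∀ σ ∈ A.inertiaSubgroupIn ℚ, gal M σ • i.1 = i.1 := by
  haveI : 𝔫.IsPrime := h𝔫.isPrime
  obtain ⟨t', ht'𝔫, ht'0, ht'V, hgen'⟩ := hLU 𝔫 h𝔫 hm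
  obtain ⟨u₀, hu₀⟩ := hRI t'
  set u : chart M A t0 := h62rIncl A M t0 u₀ with hu
  have hufix : ∀ σ ∈ A.inertiaSubgroupIn ℚ, gal M σ • (u : FF M) = (u : FF M) :=
    (h62r_mem_chart.mp u₀.2).2
  have hu𝔫 : u ∈ 𝔫 := by
    have h := 𝔫.sub_mem ht'𝔫 (hm hu₀)
    rwa [sub_sub_cancel] at h
  -- `u` is a Gauss unit
  obtain ⟨hsV, hs0⟩ := h31i_mExt_small hℓ hM hA hC.hBV (h25i_mExt_of_mem_h62rM hu₀)
  have ht'mem : ((t' : chart M A t0) : FF M) ∈ gaussV A M := hC.hBV _ t'.2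
  have humem : ((u : chart M A t0) : FF M) ∈ gaussV A M := hC.hBV _ u.2
  have hRt' : gaussR A M ⟨(t' : FF M), ht'mem⟩ ≠ 0 := by
    rw [Ne, gaussR_eq_zero_iff A M hℓ hM hA, not_or, not_not]
    exact ⟨ht'0, ht'V⟩
  have hRu : gaussR A M ⟨(u : FF M), humem⟩ = gaussR A M ⟨(t' : FF M), ht'mem⟩ := by
    have e : (⟨(u : FF M), humem⟩ : gaussV A M) =
        ⟨(t' : FF M), ht'mem⟩ - ⟨((t' - u : chart M A t0) : FF M), hsV⟩ := by
      apply Subtype.ext
      show (u : FF M) = (t' : FF M) - ((t' - u : chart M A t0) : FF M)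
      push_cast
      ring
    rw [e, map_sub, hs0, sub_zero]
  have hRu0 : gaussR A M ⟨(u : FF M), humem⟩ ≠ 0 := by
    rw [hRu]
    exact hRt'
  rw [Ne, gaussR_eq_zero_iff A M hℓ hM hA, not_or, not_not] at hRu0
  obtain ⟨hu0, huV⟩ := hRu0
  -- local generation by `u`
  have hgen : ∀ y ∈ 𝔫, ∃ s, s ∉ 𝔫 ∧
      s * y ∈ Ideal.span {u} ⊔ (maximalIdeal A).map (algebraMap A (chart M A t0)) := by
    intro y hy
    obtain ⟨s, hs, hsy⟩ := hgen' y hy
    refine ⟨s, hs, ?_⟩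
    have hle : Ideal.span {t'} ⊔ (maximalIdeal A).map (algebraMap A (chart M A t0)) ≤
        Ideal.span {u} ⊔ (maximalIdeal A).map (algebraMap A (chart M A t0)) := by
      refine sup_le ?_ le_sup_right
      rw [Ideal.span_le, Set.singleton_subset_iff]
      have h1 : t' = u + (t' - u) := by ring
      rw [h1]
      exact Ideal.add_mem _ (Ideal.mem_sup_left (Ideal.subset_span rfl))
        (Ideal.mem_sup_right hu₀)
    exact hle hsy
  have hsec := ifaceSection_of M A t0 hfin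
  obtain ⟨i, ⟨hi, hui⟩, huniq⟩ := h31u_exists_unique_zero hC 𝔫 hm u hu𝔫 hu0 huV hgen
    (fun i hi => hsec i 𝔫 h𝔫 hm hi)
  refine ⟨i, hi, fun σ hσ => ?_⟩
  have hmemk : t0 ∈ (gal M σ • i.1).toValuationSubring := by
    obtain ⟨a, ha⟩ := h71_value_mem_of_centered A t0 i 𝔫 h𝔫 hm hi
    have h := valueAt_gal σ ha
    rw [ht0 σ] at h
    exact GalI.valueAt_mem h
  have hk : h26Centered (chart M A t0) (chartVal M t0) 𝔫 ⟨gal M σ • i.1, hmemk⟩ := by
    intro b hb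
    have hb' : ValueAt (gal M σ • i.1) (b : FF M) 0 :=
      (h71_adicValuation_lt_one_iff_valueAt _ _).mp hb
    have h1 := valueAt_gal σ⁻¹ hb'
    rw [Fermat.Agent.Red.KR.gal_inv_smul_smul, map_zero] at h1
    have hσi : σ⁻¹ ∈ A.inertiaSubgroupIn ℚ := inv_mem hσ
    have hcm : gal M σ⁻¹ • (b : FF M) ∈ modelAt M A t0 := by
      have h := Fermat.Agent.Red.KR.gal_mem_modelAt A (mem_decomp_of_mem_inertia A hσi) b.2
      rwa [ht0] at h
    have hc𝔫 : (⟨gal M σ⁻¹ • (b : FF M), hcm⟩ : chart M A t0) ∈ 𝔫 :=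
      hi ⟨_, hcm⟩ ((h71_adicValuation_lt_one_iff_valueAt _ _).mpr h1)
    have hdiff := h31i_gal_sub_mem hRI hσi (ht0 σ⁻¹) b.2
    have hd𝔫 : ((⟨gal M σ⁻¹ • (b : FF M), hcm⟩ : chart M A t0) - b) ∈ 𝔫 :=
      hm (h25i_mem_h62rM_iff.mpr hdiff)
    have h := 𝔫.sub_mem hc𝔫 hd𝔫
    rwa [sub_sub_cancel] at h
  have huk : chartVal M t0 ⟨gal M σ • i.1, hmemk⟩ (u : FF M) < 1 := by
    have h1 : ValueAt i.1 (u : FF M) 0 := (h71_adicValuation_lt_one_iff_valueAt _ _).mp hui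
    have h2 := valueAt_gal σ h1
    rw [hufix σ hσ, map_zero] at h2
    exact (h71_adicValuation_lt_one_iff_valueAt _ _).mpr h2
  exact congrArg Subtype.val (huniq _ hk huk)

/-! ## From the centre to `SameRed` -/

/-- a place centred at the centre of `v` takes values congruent to those of `v`. -/
theorem h31i_congAt_of_centered (A : ValuationSubring Kbar) (t0 : FF M)
    (v : Place Kbar (FF M)) (hv : ∃ a : A, ValueAt v t0 (a : Kbar)) (i : ChartPlace M t0)
    (hi : h26Centered (chart M A t0) (chartVal M t0) (h41dCentre A t0 v hv) i) :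
    (∃ a : A, ValueAt i.1 t0 (a : Kbar)) ∧ ∀ f ∈ modelAt M A t0, CongAt A v i.1 f := by
  have hx : ∃ a : A, ValueAt i.1 t0 (a : Kbar) :=
    h71_value_mem_of_centered A t0 i _ (h41d_centre_isMaximal A t0 v hv)
      (h41d_map_le_centre A t0 v hv) hi
  refine ⟨hx, fun f hf => ?_⟩
  set a : A := chartEv A t0 v hv ⟨f, hf⟩ with ha
  set b : A := chartEv A t0 i.1 hx ⟨f, hf⟩ with hb
  have hav : ValueAt v f (a : Kbar) := chartEv_spec A t0 v hv ⟨f, hf⟩
  have hbv : ValueAt i.1 f (b : Kbar) := chartEv_spec A t0 i.1 hx ⟨f, hf⟩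
  refine ⟨(a : Kbar), (b : Kbar), a.2, b.2, hav, hbv, ?_⟩
  set g : chart M A t0 := ⟨f, hf⟩ - algebraMap A (chart M A t0) b with hg
  have hg0 : chartEv A t0 i.1 hx g = 0 := by
    rw [hg, map_sub, AlgHom.commutes]
    exact sub_self _
  have hg𝔫 : g ∈ h41dCentre A t0 v hv :=
    hi g ((chartEv_eq_zero_iff A t0 i.1 hx g).1 hg0)
  rw [h41d_mem_centre] at hg𝔫
  have e : ((chartEv A t0 v hv g : A) : Kbar) = (a : Kbar) - (b : Kbar) := by
    rw [hg, map_sub, AlgHom.commutes]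
    rfl
  rwa [e] at hg𝔫

/-- a place with `1/j`-value in `𝔪_A` is not finite. -/
theorem h31i_not_isFinAt {v : Place Kbar (FF M)} {b : Kbar} (hb : b ∈ A.nonunits)
    (hv : ValueAt v (jB M)⁻¹ b) : ¬ IsFinAt A v := by
  rintro ⟨c, hc, hvc⟩
  have hj0 : jB M ≠ 0 := by
    intro h0
    have htr := GGC97_transcendental_jB M
    rw [h0] at htr
    exact htr (isAlgebraic_zero)
  have h1 := GalI.valueAt_mul hvc hv
  rw [mul_inv_cancel₀ hj0] at h1
  have h2 : c * b = 1 := GalI.valueAt_unique h1 (GalI.valueAt_one v)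
  have h3 : c * b ∈ A.nonunits := GalI.mul_mem_nonunits_right A hc hb
  rw [h2, A.mem_nonunits_iff, map_one] at h3
  exact lt_irrefl _ h3

/-- **UNR-PLACE, all places**: at a good level every place (finite or not) has the same
reduction as an inertia-fixed place. -/
theorem h31i_unrPlaces {ℓ : ℕ} (hℓ : ℓ.Prime) (hM : ¬ ℓ ∣ M) (haux : auxLevel ℓ ∣ M)
    (hA : A.LiesOverPrime ℓ) : H73gUnrPlaces M A := by
  intro v
  by_cases hfv : IsFinAt A v
  · -- the finite chart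
    have hv : ∃ a : A, ValueAt v (jB M) (a : Kbar) := by
      obtain ⟨a, ha, hva⟩ := hfv
      exact ⟨⟨a, ha⟩, hva⟩
    obtain ⟨i, hi, hfix⟩ := h31i_fixed_chartPlace hℓ hM hA (ifaceChart_fin hℓ hM hA)
      (ModelO.h85_modelFin_fg hℓ hM hA)
      (h67_ifaceLocalUnif_fin M A Fermat.Agent.Red.SM.TID18.h18t_ifaceSmooth hℓ hM haux hA)
      (h25i_redIso_M_fin hℓ hM hA).1 (fun σ => gal_smul_jB σ)
      (h41dCentre A (jB M) v hv) (h41d_centre_isMaximal A _ v hv)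
      (h41d_map_le_centre A _ v hv)
    obtain ⟨⟨a, ha⟩, hcong⟩ := h31i_congAt_of_centered A (jB M) v hv i hi
    exact ⟨i.1, hfix, Or.inl ⟨hfv, ⟨(a : Kbar), a.2, ha⟩, hcong⟩⟩
  · -- the chart at infinity
    obtain ⟨a₀, ha₀, hva₀⟩ := exists_valueAt_inv_of_not_isFinAt hfv
    have hv : ∃ a : A, ValueAt v (jB M)⁻¹ (a : Kbar) :=
      ⟨⟨a₀, A.nonunits_subset ha₀⟩, hva₀⟩
    obtain ⟨i, hi, hfix⟩ := h31i_fixed_chartPlace hℓ hM hA (ifaceChart_inf hℓ hM hA)
      (ModelO.h85_modelInf_fg hℓ hM hA)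
      (h67_ifaceLocalUnif_inf M A Fermat.Agent.Red.SM.TID18.h18t_ifaceSmooth hℓ hM haux hA)
      (h25i_redIso_M_inf hℓ hM hA).1 (fun σ => gal_smul_jB_inv σ)
      (h41dCentre A (jB M)⁻¹ v hv) (h41d_centre_isMaximal A _ v hv)
      (h41d_map_le_centre A _ v hv)
    obtain ⟨-, hcong⟩ := h31i_congAt_of_centered A (jB M)⁻¹ v hv i hi
    have hfi : ¬ IsFinAt A i.1 := by
      obtain ⟨a, b, haA, hbA, hva, hib, hab⟩ :=
        hcong (jB M)⁻¹ (ModelO.h85_self_mem_modelAt M A (jB M)⁻¹)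
      have haa : a = a₀ := GalI.valueAt_unique hva hva₀
      have hbm : b ∈ A.nonunits := by
        rw [haa] at hab
        have h1 : b = a₀ - (a₀ - b) := by ring
        rw [h1]
        exact GalI.sub_mem_nonunits A ha₀ hab
      exact h31i_not_isFinAt hbm hib
    exact ⟨i.1, hfix, Or.inr ⟨hfv, hfi, hcong⟩⟩

/-- **conjunct 5 of `H96GeoInputs`** at a good level: every class of `J₀(M)` is congruent
modulo the kernel of reduction to an inertia-fixed class. -/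
theorem h31i_unram_lift {ℓ : ℕ} (hℓ : ℓ.Prime) (hM : ¬ ℓ ∣ M) (haux : auxLevel ℓ ∣ M)
    (hA : A.LiesOverPrime ℓ) (y : JZero M) :
    ∃ c₀ : JZero M, (∀ σ ∈ A.inertiaSubgroupIn ℚ, σ • c₀ = c₀) ∧ y - c₀ ∈ redKerPic M A :=
  h73g_lifts_of (h31i_unrPlaces hℓ hM haux hA) y

end Fermat.Agent.P5
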