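import Fermat.Agent.Red.LocalFact

/-!
# P5 (wave 5, S19), GEO-DISC: the unique zero of a local parameter in a residue disc
(helper31, abstract core, chart-generic)

`A` a local domain, `B ⊆ F` an `A`-subalgebra (a chart), `V` the Gauss ring, `v i` the places
of the generic fibre which are finite on the chart (`H26Chart`, `Red/LocalFact.lean`).
Let `𝔫 ⊇ 𝔪_A B` be a prime of `B` and `u ∈ 𝔫` a Gauss unit.

* `h31u_exists_zero` : some place centred at `𝔫` is a zero of `u`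
  (otherwise `1/u` is regular at all places centred at `𝔫`, so `a s / u ∈ B` by step C, so
  `s / u ∈ B` by QEP, so `s ∈ (u) ⊆ 𝔫`).
* `h31u_zero_unique` : if moreover `𝔫 = (u) + 𝔪_A B` locally and the places centred at `𝔫`
  have sections with finitely generated kernel, the zero is unique
  (the kernel of the section is `(u)` locally at `𝔫`; distinct places have incomparable centres).
* `h31u_exists_unique_zero` : both.

Mathlib + `Red/LocalFact.lean` only.  Every declaration is a proved theorem.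
-/

set_option autoImplicit false

open WithZero IsLocalRing

namespace Fermat.Agent.P5

open Fermat.Agent.Red

variable {A : Type*} [CommRing A] {F : Type*} [Field F] [Algebra A F]
variable {B : Subalgebra A F} {V : Subring F} {ι : Type*} {v : ι → Valuation F ℤᵐ⁰}

/-- **existence of a zero in the disc.** -/
theorem h31u_exists_zero [IsLocalRing A] (hC : H26Chart B V v) (𝔫 : Ideal B) [h𝔫 : 𝔫.IsPrime]
    (u : B) (hu𝔫 : u ∈ 𝔫) (hu0 : (u : F) ≠ 0) (huV : (u : F)⁻¹ ∈ V) :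
    ∃ i, h26Centered B v 𝔫 i ∧ v i (u : F) < 1 := by
  by_contra hcon
  push_neg at hcon
  have hreg : ∀ i, h26Centered B v 𝔫 i → v i ((u : F)⁻¹) ≤ 1 := by
    intro i hi
    have h1 : 1 ≤ v i (u : F) := hcon i hi
    rw [map_inv₀]
    exact inv_le_one_of_one_le₀ h1
  obtain ⟨a, ha, s, hs, hmem⟩ := h26_stepC hC.hfin hC.hint hC.hB 𝔫 ((u : F)⁻¹) hreg
  have hxV : (s : F) * (u : F)⁻¹ ∈ V := V.mul_mem (hC.hBV _ s.2) huV
  have hxB : (s : F) * (u : F)⁻¹ ∈ B := hC.hQEP a ha _ hxV hmem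
  have hsu : s = u * ⟨(s : F) * (u : F)⁻¹, hxB⟩ := by
    apply Subtype.ext
    show (s : F) = (u : F) * ((s : F) * (u : F)⁻¹)
    field_simp
  exact hs (hsu ▸ 𝔫.mul_mem_right _ hu𝔫)

/-- **uniqueness of the zero in the disc.** -/
theorem h31u_zero_unique [IsLocalRing A] [IsDomain A] (hC : H26Chart B V v) (𝔫 : Ideal B)
    [h𝔫 : 𝔫.IsPrime] (h𝔪𝔫 : (maximalIdeal A).map (algebraMap A B) ≤ 𝔫)
    (u : B) (hu𝔫 : u ∈ 𝔫)
    (hgen : ∀ y ∈ 𝔫, ∃ s, s ∉ 𝔫 ∧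
      s * y ∈ Ideal.span {u} ⊔ (maximalIdeal A).map (algebraMap A B))
    (hsec : ∀ i, h26Centered B v 𝔫 i → ∃ φ : B →ₐ[A] A,
      (∀ b : B, φ b = 0 ↔ v i (b : F) < 1) ∧ (RingHom.ker (φ : B →+* A)).FG)
    {i k : ι} (hi : h26Centered B v 𝔫 i) (hk : h26Centered B v 𝔫 k)
    (hui : v i (u : F) < 1) (huk : v k (u : F) < 1) : i = k := by
  obtain ⟨φ, hφ, hfg⟩ := hsec i hi
  obtain ⟨ψ, hψ, -⟩ := hsec k hk
  have hker : RingHom.ker (φ : B →+* A) ≤ 𝔫 := by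
    intro b hb
    exact hi b ((hφ b).mp (RingHom.mem_ker.mp hb))
  have hloc := h26_section_local 𝔫 φ hker
  have hprin := h26_local_ker_principal (maximalIdeal A) 𝔫 u hu𝔫 hgen h𝔪𝔫 φ hloc hker hfg
  have hφu : φ u = 0 := (hφ u).mpr hui
  have hψu : ψ u = 0 := (hψ u).mpr huk
  refine hC.hinj i k (fun b hb => ?_)
  have hb0 : φ b = 0 := (hφ b).mpr hb
  obtain ⟨s, hs, hsb⟩ := hprin b (RingHom.mem_ker.mpr hb0)
  rw [hφu, map_zero, sub_zero] at hsb
  obtain ⟨c, hc⟩ := Ideal.mem_span_singleton'.mp hsb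
  have h1 : ψ s * ψ b = 0 := by
    rw [← map_mul, ← hc, map_mul, hψu, mul_zero]
  have hψs : ψ s ≠ 0 := fun h => hs (hk s ((hψ s).mp h))
  exact (hψ b).mp ((mul_eq_zero.mp h1).resolve_left hψs)

/-- **the unique zero of a local parameter in a residue disc.** -/
theorem h31u_exists_unique_zero [IsLocalRing A] [IsDomain A] (hC : H26Chart B V v)
    (𝔫 : Ideal B) [h𝔫 : 𝔫.IsPrime] (h𝔪𝔫 : (maximalIdeal A).map (algebraMap A B) ≤ 𝔫)
    (u : B) (hu𝔫 : u ∈ 𝔫) (hu0 : (u : F) ≠ 0) (huV : (u : F)⁻¹ ∈ V)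
    (hgen : ∀ y ∈ 𝔫, ∃ s, s ∉ 𝔫 ∧
      s * y ∈ Ideal.span {u} ⊔ (maximalIdeal A).map (algebraMap A B))
    (hsec : ∀ i, h26Centered B v 𝔫 i → ∃ φ : B →ₐ[A] A,
      (∀ b : B, φ b = 0 ↔ v i (b : F) < 1) ∧ (RingHom.ker (φ : B →+* A)).FG) :
    ∃ i, (h26Centered B v 𝔫 i ∧ v i (u : F) < 1) ∧
      ∀ k, h26Centered B v 𝔫 k → v k (u : F) < 1 → k = i := by
  obtain ⟨i, hi, hui⟩ := h31u_exists_zero hC 𝔫 u hu𝔫 hu0 huV
  exact ⟨i, ⟨hi, hui⟩, fun k hk huk =>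
    h31u_zero_unique hC 𝔫 h𝔪𝔫 u hu𝔫 hgen hsec hk hi huk hui⟩

end Fermat.Agent.P5
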