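import Fermat.Agent.P5.H30LatIface

/-!
# Wave 5, pillar (P), S32, leaf LC-KEY (helper33, second seat): `H30xKey`

`h33x_key : H30xKey` — the annihilator comparison (commutator + polarisation trick), Mathlib only.

Formal integer combinations of group elements are elements of `G →₀ ℤ`; `h33xRW`, `h33xIota`,
`h33xTau`, `h33xMA` are the additive extensions of `ρW`, `ι g = Θ (δ g) ρW g⁻¹`, `τ` and of the
matrices of `ρ`; `h33xBeta` is the bi-additive extension of `B (g, h) = δ h τ (g h⁻¹)`.
-/

set_option autoImplicit false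
set_option linter.unusedSectionVars false
set_option linter.unusedVariables false

open IsLocalRing

noncomputable section

namespace Fermat.Agent.P5

section Ext

variable {G : Type} {A : Type} [AddCommGroup A]

/-- the additive extension of a function `G → A` to `G →₀ ℤ`. -/
def h33xExt (f : G → A) : (G →₀ ℤ) →+ A :=
  Finsupp.liftAddHom (fun g => zmultiplesHom A (f g))

@[simp]
theorem h33xExt_single (f : G → A) (g : G) (n : ℤ) :
    h33xExt f (Finsupp.single g n) = n • f g := by
  simp [h33xExt]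

end Ext

section W

variable {G : Type} [Group G] {W : Type} [AddCommGroup W]
  (ρW : G →* AddMonoid.End W) {P : Type} [CommRing P] (Θ : P →+* AddMonoid.End W)
  (τ δ : G → P)

/-- the additive extension of `ρW`. -/
def h33xRW : (G →₀ ℤ) →+ AddMonoid.End W := h33xExt (fun g => ρW g)

/-- the additive extension of `ι g = Θ (δ g) ρW g⁻¹`. -/
def h33xIota : (G →₀ ℤ) →+ AddMonoid.End W := h33xExt (fun g => Θ (δ g) * ρW g⁻¹)

/-- the additive extension of `τ`. -/
def h33xTau : (G →₀ ℤ) →+ P := h33xExt τ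

/-- the bi-additive extension of `B (g, h) = δ h τ (g h⁻¹)`. -/
def h33xBeta : (G →₀ ℤ) →+ (G →₀ ℤ) →+ P :=
  h33xExt (fun g => h33xExt (fun h => δ h * τ (g * h⁻¹)))

/-- right translation. -/
def h33xTr (h : G) (y : G →₀ ℤ) : G →₀ ℤ := Finsupp.mapDomain (fun g => g * h) y

@[simp] theorem h33xTr_zero (h : G) : h33xTr h (0 : G →₀ ℤ) = 0 := Finsupp.mapDomain_zero

@[simp] theorem h33xTr_add (h : G) (y y' : G →₀ ℤ) :
    h33xTr h (y + y') = h33xTr h y + h33xTr h y' := Finsupp.mapDomain_add

@[simp] theorem h33xTr_single (h g : G) (n : ℤ) :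
    h33xTr h (Finsupp.single g n) = Finsupp.single (g * h) n := Finsupp.mapDomain_single

@[simp] theorem h33xRW_single (g : G) (n : ℤ) :
    h33xRW ρW (Finsupp.single g n) = n • ρW g := h33xExt_single _ g n

@[simp] theorem h33xIota_single (g : G) (n : ℤ) :
    h33xIota ρW Θ δ (Finsupp.single g n) = n • (Θ (δ g) * ρW g⁻¹) := h33xExt_single _ g n

@[simp] theorem h33xTau_single (g : G) (n : ℤ) :
    h33xTau τ (Finsupp.single g n) = n • τ g := h33xExt_single _ g n

@[simp] theorem h33xBeta_single (g h : G) (n m : ℤ) :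
    h33xBeta τ δ (Finsupp.single g n) (Finsupp.single h m) = n • m • (δ h * τ (g * h⁻¹)) := by
  simp [h33xBeta]

/-- `ρW (y h) = ρW y * ρW h`. -/
theorem h33x_RW_tr (h : G) (y : G →₀ ℤ) :
    h33xRW ρW (h33xTr h y) = h33xRW ρW y * ρW h := by
  induction y using Finsupp.induction_linear with
  | zero => simp
  | add x y hx hy => rw [h33xTr_add, map_add, map_add, hx, hy, add_mul]
  | single g n =>
    rw [h33xTr_single, h33xRW_single, h33xRW_single, map_mul, smul_mul_assoc]

variable (hcomm : ∀ (a : P) (g : G), Commute (Θ a) (ρW g))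
  (hmul : ∀ g h : G, Θ (δ (g * h)) = Θ (δ g) * Θ (δ h))
  (hES : ∀ g : G, ρW g + Θ (δ g) * ρW g⁻¹ = Θ (τ g))

include hcomm in
/-- `Θ a` commutes with `ρW y`. -/
theorem h33x_comm_RW (a : P) (y : G →₀ ℤ) : Commute (Θ a) (h33xRW ρW y) := by
  induction y using Finsupp.induction_linear with
  | zero => rw [map_zero]; exact Commute.zero_right _
  | add x y hx hy => rw [map_add]; exact hx.add_right hy
  | single g n =>
    rw [h33xRW_single]
    exact (hcomm a g).smul_right n

include hcomm in
/-- `Θ a` commutes with `ι y`. -/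
theorem h33x_comm_iota (a : P) (y : G →₀ ℤ) : Commute (Θ a) (h33xIota ρW Θ δ y) := by
  induction y using Finsupp.induction_linear with
  | zero => rw [map_zero]; exact Commute.zero_right _
  | add x y hx hy => rw [map_add]; exact hx.add_right hy
  | single g n =>
    rw [h33xIota_single]
    refine Commute.smul_right ?_ n
    refine Commute.mul_right ?_ (hcomm a g⁻¹)
    show Θ a * Θ (δ g) = Θ (δ g) * Θ a
    rw [← map_mul, ← map_mul, mul_comm]

include hcomm hmul in
/-- `ι (y h) = ι h * ι y`. -/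
theorem h33x_iota_tr (h : G) (y : G →₀ ℤ) :
    h33xIota ρW Θ δ (h33xTr h y) = (Θ (δ h) * ρW h⁻¹) * h33xIota ρW Θ δ y := by
  induction y using Finsupp.induction_linear with
  | zero => simp
  | add x y hx hy => rw [h33xTr_add, map_add, map_add, hx, hy, mul_add]
  | single g n =>
    rw [h33xTr_single, h33xIota_single, h33xIota_single, mul_smul_comm]
    congr 1
    rw [hmul, mul_inv_rev, map_mul]
    have h1 : Θ (δ g) * Θ (δ h) = Θ (δ h) * Θ (δ g) := by
      rw [← map_mul, ← map_mul, mul_comm]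
    have h2 : ρW h⁻¹ * Θ (δ g) = Θ (δ g) * ρW h⁻¹ := ((hcomm (δ g) h⁻¹).eq).symm
    calc Θ (δ g) * Θ (δ h) * (ρW h⁻¹ * ρW g⁻¹)
        = Θ (δ h) * (Θ (δ g) * ρW h⁻¹) * ρW g⁻¹ := by rw [h1]; simp only [mul_assoc]
      _ = Θ (δ h) * (ρW h⁻¹ * Θ (δ g)) * ρW g⁻¹ := by rw [h2]
      _ = Θ (δ h) * ρW h⁻¹ * (Θ (δ g) * ρW g⁻¹) := by simp only [mul_assoc]

include hES in
/-- `ρW y + ι y = Θ (τ y)`. -/
theorem h33x_RW_add_iota (y : G →₀ ℤ) :
    h33xRW ρW y + h33xIota ρW Θ δ y = Θ (h33xTau τ y) := by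
  induction y using Finsupp.induction_linear with
  | zero => simp
  | add x y hx hy =>
    rw [map_add, map_add, map_add, map_add, ← hx, ← hy]
    abel
  | single g n =>
    rw [h33xRW_single, h33xIota_single, h33xTau_single, ← zsmul_add, hES, map_zsmul]

include hcomm hES in
/-- if `ρW y = 0` then `ι y` commutes with every `ρW g`. -/
theorem h33x_iota_central (y : G →₀ ℤ) (hy : h33xRW ρW y = 0) (g : G) :
    Commute (h33xIota ρW Θ δ y) (ρW g) := by
  have h := h33x_RW_add_iota ρW Θ τ δ hES y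
  rw [hy, zero_add] at h
  rw [h]
  exact hcomm _ g

include hcomm hES in
/-- `ρW y` commutes with `ι y`. -/
theorem h33x_RW_comm_iota (y : G →₀ ℤ) :
    Commute (h33xRW ρW y) (h33xIota ρW Θ δ y) := by
  have h := h33x_RW_add_iota ρW Θ τ δ hES y
  have h2 : h33xIota ρW Θ δ y = Θ (h33xTau τ y) - h33xRW ρW y := by
    rw [← h]; abel
  rw [h2]
  exact ((h33x_comm_RW ρW Θ hcomm _ y).symm).sub_right (Commute.refl _)

/-- left cancellation of an injective endomorphism. -/
theorem h33x_cancel {u X : AddMonoid.End W} (hu : Function.Injective u) (h : u * X = 0) :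
    X = 0 := by
  ext w
  apply hu
  have h1 : (u * X) w = 0 := by rw [h]; rfl
  have h2 : u ((0 : AddMonoid.End W) w) = 0 := map_zero u
  rw [h2]
  exact h1

include hcomm hmul hES in
/-- if `ρW y = 0`, the commutators of `ρW G` kill `ι y`. -/
theorem h33x_comm_kill (hδ : ∀ a : G, Function.Injective (Θ (δ a)))
    (y : G →₀ ℤ) (hy : h33xRW ρW y = 0) (a b : G) :
    (ρW b * ρW a - ρW a * ρW b) * h33xIota ρW Θ δ y = 0 := by
  have hy' : h33xRW ρW (h33xTr a⁻¹ y) = 0 := by rw [h33x_RW_tr, hy, zero_mul]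
  have h1 := (h33x_iota_central ρW Θ τ δ hcomm hES (h33xTr a⁻¹ y) hy' b).eq
  rw [h33x_iota_tr ρW Θ δ hcomm hmul, inv_inv] at h1
  have h2 := (h33x_iota_central ρW Θ τ δ hcomm hES y hy b).eq
  have h3 : ρW b * Θ (δ a⁻¹) = Θ (δ a⁻¹) * ρW b := ((hcomm (δ a⁻¹) b).eq).symm
  apply h33x_cancel (hδ a⁻¹)
  calc Θ (δ a⁻¹) * ((ρW b * ρW a - ρW a * ρW b) * h33xIota ρW Θ δ y)
      = (Θ (δ a⁻¹) * ρW b) * (ρW a * h33xIota ρW Θ δ y)
          - Θ (δ a⁻¹) * ρW a * (ρW b * h33xIota ρW Θ δ y) := by
        simp only [mul_sub, sub_mul, mul_assoc]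
    _ = (ρW b * Θ (δ a⁻¹)) * (ρW a * h33xIota ρW Θ δ y)
          - Θ (δ a⁻¹) * ρW a * (h33xIota ρW Θ δ y * ρW b) := by rw [h3, h2]
    _ = ρW b * (Θ (δ a⁻¹) * ρW a * h33xIota ρW Θ δ y)
          - Θ (δ a⁻¹) * ρW a * h33xIota ρW Θ δ y * ρW b := by
        simp only [mul_assoc]
    _ = 0 := by rw [h1]; exact sub_self _

include hcomm hmul hES in
/-- polarisation on generators. -/
theorem h33x_polar_gen (g h : G) :
    ρW g * (Θ (δ h) * ρW h⁻¹) + ρW h * (Θ (δ g) * ρW g⁻¹) = Θ (δ h * τ (g * h⁻¹)) := by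
  have e1 : ρW g * Θ (δ h) = Θ (δ h) * ρW g := ((hcomm (δ h) g).eq).symm
  have e2 : ρW h * Θ (δ g) = Θ (δ g) * ρW h := ((hcomm (δ g) h).eq).symm
  have e3 : Θ (δ h) * Θ (δ (g * h⁻¹)) = Θ (δ g) := by
    have : Θ (δ h) * Θ (δ (g * h⁻¹)) = Θ (δ (g * h⁻¹)) * Θ (δ h) := by
      rw [← map_mul, ← map_mul, mul_comm]
    rw [this, ← hmul, inv_mul_cancel_right]
  have e4 : (g * h⁻¹)⁻¹ = h * g⁻¹ := by rw [mul_inv_rev, inv_inv]
  rw [map_mul, ← hES (g * h⁻¹), mul_add, ← mul_assoc (Θ (δ h)) (Θ (δ (g * h⁻¹))), e3, e4,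
    map_mul ρW g h⁻¹, map_mul ρW h g⁻¹, ← mul_assoc, e1, ← mul_assoc (ρW h), e2]
  simp only [mul_assoc]

include hcomm hmul hES in
/-- polarisation: `ρW z * ι w + ρW w * ι z = Θ (B (z, w))`. -/
theorem h33x_polar (z w : G →₀ ℤ) :
    h33xRW ρW z * h33xIota ρW Θ δ w + h33xRW ρW w * h33xIota ρW Θ δ z
      = Θ (h33xBeta τ δ z w) := by
  induction z using Finsupp.induction_linear with
  | zero => simp
  | add x y hx hy =>
    rw [map_add, map_add, map_add, AddMonoidHom.add_apply, map_add, ← hx, ← hy, add_mul, mul_add]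
    abel
  | single g n =>
    induction w using Finsupp.induction_linear with
    | zero => simp
    | add x y hx hy =>
      rw [map_add, map_add, map_add, map_add, ← hx, ← hy, add_mul, mul_add]
      abel
    | single h m =>
      rw [h33xBeta_single, h33xRW_single, h33xRW_single, h33xIota_single, h33xIota_single,
        map_zsmul, map_zsmul, ← h33x_polar_gen ρW Θ τ δ hcomm hmul hES g h]
      simp only [smul_mul_assoc, mul_smul_comm, zsmul_add]
      rw [smul_comm m n (ρW g * (Θ (δ h) * ρW h⁻¹))]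

end W

section Mat

variable {T : Type} [CommRing T]

/-- the polarisation of the determinant of `2 × 2` matrices: `B₂ X Y = tr (X adj Y)`. -/
def h33xB2 (X Y : Matrix (Fin 2) (Fin 2) T) : T :=
  X 0 0 * Y 1 1 - X 0 1 * Y 1 0 - X 1 0 * Y 0 1 + X 1 1 * Y 0 0

theorem h33xB2_add_left (X X' Y : Matrix (Fin 2) (Fin 2) T) :
    h33xB2 (X + X') Y = h33xB2 X Y + h33xB2 X' Y := by
  simp only [h33xB2, Matrix.add_apply]; ring

theorem h33xB2_add_right (X Y Y' : Matrix (Fin 2) (Fin 2) T) :
    h33xB2 X (Y + Y') = h33xB2 X Y + h33xB2 X Y' := by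
  simp only [h33xB2, Matrix.add_apply]; ring

theorem h33xB2_smul_left (t : T) (X Y : Matrix (Fin 2) (Fin 2) T) :
    h33xB2 (t • X) Y = t * h33xB2 X Y := by
  simp only [h33xB2, Matrix.smul_apply, smul_eq_mul]; ring

theorem h33xB2_smul_right (t : T) (X Y : Matrix (Fin 2) (Fin 2) T) :
    h33xB2 X (t • Y) = t * h33xB2 X Y := by
  simp only [h33xB2, Matrix.smul_apply, smul_eq_mul]; ring

theorem h33xB2_zsmul_left (n : ℤ) (X Y : Matrix (Fin 2) (Fin 2) T) :
    h33xB2 (n • X) Y = n • h33xB2 X Y := by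
  simp only [h33xB2, Matrix.smul_apply, zsmul_eq_mul]; ring

theorem h33xB2_zsmul_right (n : ℤ) (X Y : Matrix (Fin 2) (Fin 2) T) :
    h33xB2 X (n • Y) = n • h33xB2 X Y := by
  simp only [h33xB2, Matrix.smul_apply, zsmul_eq_mul]; ring

theorem h33xB2_zero_left (Y : Matrix (Fin 2) (Fin 2) T) : h33xB2 0 Y = 0 := by
  simp [h33xB2]

theorem h33xB2_zero_right (X : Matrix (Fin 2) (Fin 2) T) : h33xB2 X 0 = 0 := by
  simp [h33xB2]

theorem h33xB2_self (X : Matrix (Fin 2) (Fin 2) T) : h33xB2 X X = 2 * X.det := by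
  rw [Matrix.det_fin_two]; simp only [h33xB2]; ring

theorem h33xB2_eq_det (X Y : Matrix (Fin 2) (Fin 2) T) :
    h33xB2 X Y = (X + Y).det - X.det - Y.det := by
  simp only [Matrix.det_fin_two, h33xB2, Matrix.add_apply]; ring

theorem h33xB2_mul_inv (X Y Z : Matrix (Fin 2) (Fin 2) T) (h : Y * Z = 1) :
    h33xB2 X Y = Y.det * (X * Z).trace := by
  have hadj : Y.adjugate = Y.det • Z := by
    calc Y.adjugate = Y.adjugate * (Y * Z) := by rw [h, mul_one]
      _ = (Y.adjugate * Y) * Z := by rw [mul_assoc]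
      _ = Y.det • Z := by rw [Matrix.adjugate_mul, Matrix.smul_mul, one_mul]
  have h1 : h33xB2 X Y = (X * Y.adjugate).trace := by
    rw [Matrix.adjugate_fin_two, Matrix.trace_fin_two]
    simp only [h33xB2, Matrix.mul_apply, Fin.sum_univ_two, Matrix.of_apply, Matrix.cons_val',
      Matrix.cons_val_zero, Matrix.cons_val_one, Matrix.cons_val_fin_one]
    ring
  rw [h1, hadj, Matrix.mul_smul, Matrix.trace_smul, smul_eq_mul]

end Mat

section Core

variable {G : Type} [Group G] {W : Type} [AddCommGroup W]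
  (ρW : G →* AddMonoid.End W) {P : Type} [CommRing P] (Θ : P →+* AddMonoid.End W)
  (τ δ : G → P) {T : Type} [CommRing T] (π : P →+* T) (I : Ideal T)
  (M : G →* Matrix (Fin 2) (Fin 2) T)

/-- the additive extension of `M`. -/
def h33xMA : (G →₀ ℤ) →+ Matrix (Fin 2) (Fin 2) T := h33xExt (fun g => M g)

@[simp] theorem h33xMA_single (g : G) (n : ℤ) :
    h33xMA M (Finsupp.single g n) = n • M g := h33xExt_single _ g n

/-- `M (y h) = M y * M h`. -/
theorem h33x_MA_tr (h : G) (y : G →₀ ℤ) :
    h33xMA M (h33xTr h y) = h33xMA M y * M h := by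
  induction y using Finsupp.induction_linear with
  | zero => simp
  | add x y hx hy => rw [h33xTr_add, map_add, map_add, hx, hy, add_mul]
  | single g n =>
    rw [h33xTr_single, h33xMA_single, h33xMA_single, map_mul, smul_mul_assoc]

variable (htr : ∀ g : G, (M g).trace - π (τ g) ∈ I)
  (hdet : ∀ g : G, (M g).det - π (δ g) ∈ I)

include htr in
theorem h33x_tau_congr (y : G →₀ ℤ) : (h33xMA M y).trace - π (h33xTau τ y) ∈ I := by
  induction y using Finsupp.induction_linear with
  | zero => simp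
  | add x y hx hy =>
    rw [map_add, map_add, Matrix.trace_add, map_add]
    have h := I.add_mem hx hy
    have e : (h33xMA M x).trace + (h33xMA M y).trace - (π (h33xTau τ x) + π (h33xTau τ y))
        = (h33xMA M x).trace - π (h33xTau τ x) + ((h33xMA M y).trace - π (h33xTau τ y)) := by
      ring
    rw [e]; exact h
  | single g n =>
    rw [h33xMA_single, h33xTau_single, Matrix.trace_smul, map_zsmul, ← zsmul_sub]
    exact zsmul_mem (htr g) n

include htr hdet in
theorem h33x_beta_gen (g h : G) : h33xB2 (M g) (M h) - π (δ h * τ (g * h⁻¹)) ∈ I := by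
  have hinv : M h * M h⁻¹ = 1 := by rw [← map_mul, mul_inv_cancel, map_one]
  rw [h33xB2_mul_inv (M g) (M h) (M h⁻¹) hinv, ← map_mul M, map_mul π]
  have h1 := hdet h
  have h2 := htr (g * h⁻¹)
  have e : (M h).det * (M (g * h⁻¹)).trace - π (δ h) * π (τ (g * h⁻¹))
      = ((M h).det - π (δ h)) * (M (g * h⁻¹)).trace
        + π (δ h) * ((M (g * h⁻¹)).trace - π (τ (g * h⁻¹))) := by ring
  rw [e]
  exact I.add_mem (I.mul_mem_right _ h1) (I.mul_mem_left _ h2)

include htr hdet in
theorem h33x_beta_congr (z w : G →₀ ℤ) :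
    h33xB2 (h33xMA M z) (h33xMA M w) - π (h33xBeta τ δ z w) ∈ I := by
  induction z using Finsupp.induction_linear with
  | zero => simp [h33xB2_zero_left]
  | add x y hx hy =>
    rw [map_add, map_add, AddMonoidHom.add_apply, map_add, h33xB2_add_left]
    have h := I.add_mem hx hy
    have e : h33xB2 (h33xMA M x) (h33xMA M w) + h33xB2 (h33xMA M y) (h33xMA M w)
          - (π (h33xBeta τ δ x w) + π (h33xBeta τ δ y w))
        = h33xB2 (h33xMA M x) (h33xMA M w) - π (h33xBeta τ δ x w)
          + (h33xB2 (h33xMA M y) (h33xMA M w) - π (h33xBeta τ δ y w)) := by ring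
    rw [e]; exact h
  | single g n =>
    induction w using Finsupp.induction_linear with
    | zero => simp [h33xB2_zero_right]
    | add x y hx hy =>
      rw [map_add, map_add, map_add, h33xB2_add_right]
      have h := I.add_mem hx hy
      have e : h33xB2 (h33xMA M (Finsupp.single g n)) (h33xMA M x)
            + h33xB2 (h33xMA M (Finsupp.single g n)) (h33xMA M y)
            - (π (h33xBeta τ δ (Finsupp.single g n) x) + π (h33xBeta τ δ (Finsupp.single g n) y))
          = h33xB2 (h33xMA M (Finsupp.single g n)) (h33xMA M x)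
              - π (h33xBeta τ δ (Finsupp.single g n) x)
            + (h33xB2 (h33xMA M (Finsupp.single g n)) (h33xMA M y)
              - π (h33xBeta τ δ (Finsupp.single g n) y)) := by ring
      rw [e]; exact h
    | single h m =>
      rw [h33xBeta_single, h33xMA_single, h33xMA_single, h33xB2_zsmul_left, h33xB2_zsmul_right,
        map_zsmul, map_zsmul, ← zsmul_sub, ← zsmul_sub]
      exact zsmul_mem (zsmul_mem (h33x_beta_gen τ δ π I M htr hdet g h) m) n

end Core

section Unit

variable {G : Type} [Group G] {T : Type} [CommRing T] [IsLocalRing T]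
  (M : G →* Matrix (Fin 2) (Fin 2) T)

/-- the additive group of formal commutators. -/
def h33xC (G : Type) [Group G] : AddSubgroup (G →₀ ℤ) :=
  AddSubgroup.closure
    {c | ∃ h k : G, c = Finsupp.single (k * h) (1 : ℤ) - Finsupp.single (h * k) (1 : ℤ)}

/-- some formal combination of commutators has unit determinant. -/
theorem h33x_exists_unit (hspan : Submodule.span T (Set.range M) = ⊤) :
    ∃ c ∈ h33xC G, (h33xMA M c).det ∉ maximalIdeal T := by
  by_contra hcon
  push Not at hcon
  have hD : ∀ c ∈ h33xC G, ∀ c' ∈ h33xC G,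
      h33xB2 (h33xMA M c) (h33xMA M c') ∈ maximalIdeal T := by
    intro c hc c' hc'
    rw [h33xB2_eq_det, ← map_add]
    exact sub_mem (sub_mem (hcon _ (add_mem hc hc')) (hcon _ hc)) (hcon _ hc')
  let N : Submodule T (Matrix (Fin 2) (Fin 2) T) :=
    Submodule.span T ((h33xMA M) '' (h33xC G : Set (G →₀ ℤ)))
  have hN1 : ∀ X ∈ N, ∀ c' ∈ h33xC G, h33xB2 X (h33xMA M c') ∈ maximalIdeal T := by
    intro X hX c' hc'
    induction hX using Submodule.span_induction with
    | mem x hx =>
      obtain ⟨c, hc, rfl⟩ := hx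
      exact hD c hc c' hc'
    | zero => rw [h33xB2_zero_left]; exact zero_mem _
    | add x y _ _ hx hy => rw [h33xB2_add_left]; exact add_mem hx hy
    | smul t x _ hx => rw [h33xB2_smul_left]; exact Ideal.mul_mem_left _ _ hx
  have hN2 : ∀ X ∈ N, ∀ Y ∈ N, h33xB2 X Y ∈ maximalIdeal T := by
    intro X hX Y hY
    induction hY using Submodule.span_induction with
    | mem y hy =>
      obtain ⟨c, hc, rfl⟩ := hy
      exact hN1 X hX c hc
    | zero => rw [h33xB2_zero_right]; exact zero_mem _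
    | add x y _ _ hx hy => rw [h33xB2_add_right]; exact add_mem hx hy
    | smul t x _ hx => rw [h33xB2_smul_right]; exact Ideal.mul_mem_left _ _ hx
  have hcm : ∀ X Y : Matrix (Fin 2) (Fin 2) T, X * Y - Y * X ∈ N := by
    intro X Y
    have hX : X ∈ Submodule.span T (Set.range M) := by rw [hspan]; trivial
    have hY : Y ∈ Submodule.span T (Set.range M) := by rw [hspan]; trivial
    induction hX using Submodule.span_induction with
    | mem x hx =>
      obtain ⟨k, rfl⟩ := hx
      induction hY using Submodule.span_induction with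
      | mem y hy =>
        obtain ⟨h, rfl⟩ := hy
        apply Submodule.subset_span
        refine ⟨Finsupp.single (k * h) (1 : ℤ) - Finsupp.single (h * k) (1 : ℤ),
          AddSubgroup.subset_closure ⟨h, k, rfl⟩, ?_⟩
        rw [map_sub, h33xMA_single, h33xMA_single, one_smul, one_smul, map_mul, map_mul]
      | zero => rw [mul_zero, zero_mul, sub_self]; exact zero_mem _
      | add y y' _ _ hy hy' =>
        have e : M k * (y + y') - (y + y') * M k
            = (M k * y - y * M k) + (M k * y' - y' * M k) := by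
          rw [mul_add, add_mul]; abel
        rw [e]; exact add_mem hy hy'
      | smul t y _ hy =>
        rw [Matrix.mul_smul, Matrix.smul_mul, ← smul_sub]
        exact N.smul_mem t hy
    | zero => rw [mul_zero, zero_mul, sub_self]; exact zero_mem _
    | add x x' _ _ hx hx' =>
      have e : (x + x') * Y - Y * (x + x') = (x * Y - Y * x) + (x' * Y - Y * x') := by
        rw [mul_add, add_mul]; abel
      rw [e]; exact add_mem hx hx'
    | smul t x _ hx =>
      rw [Matrix.mul_smul, Matrix.smul_mul, ← smul_sub]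
      exact N.smul_mem t hx
  have h12 := hcm !![1, 0; 0, 0] !![0, 1; 0, 0]
  have h21 := hcm !![0, 0; 0, 1] !![0, 0; 1, 0]
  have h := hN2 _ h12 _ h21
  have hval : h33xB2 ((!![1, 0; 0, 0] : Matrix (Fin 2) (Fin 2) T) * !![0, 1; 0, 0]
        - !![0, 1; 0, 0] * !![1, 0; 0, 0])
      ((!![0, 0; 0, 1] : Matrix (Fin 2) (Fin 2) T) * !![0, 0; 1, 0]
        - !![0, 0; 1, 0] * !![0, 0; 0, 1]) = -1 := by
    simp [h33xB2]
  rw [hval] at h
  have h1 : (1 : T) ∈ maximalIdeal T := by
    have := neg_mem h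
    rwa [neg_neg] at this
  exact (Ideal.ne_top_iff_one _).mp (IsLocalRing.maximalIdeal.isMaximal T).ne_top h1

end Unit

section Final

variable {G : Type} [Group G] {W : Type} [AddCommGroup W]
  (ρW : G →* AddMonoid.End W) {P : Type} [CommRing P] (Θ : P →+* AddMonoid.End W)
  (τ δ : G → P) {T : Type} [CommRing T] [IsLocalRing T] (π : P →+* T) (I : Ideal T)
  (M : G →* Matrix (Fin 2) (Fin 2) T)

/-- the matrix form of the annihilator comparison. -/
theorem h33x_core (h2 : (2 : T) ∉ maximalIdeal T) (hI : I ≤ maximalIdeal T)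
    (hcomm : ∀ (a : P) (g : G), Commute (Θ a) (ρW g))
    (hES : ∀ g : G, ρW g + Θ (δ g) * ρW g⁻¹ = Θ (τ g))
    (hmul : ∀ g h : G, Θ (δ (g * h)) = Θ (δ g) * Θ (δ h))
    (htr : ∀ g : G, (M g).trace - π (τ g) ∈ I)
    (hdet : ∀ g : G, (M g).det - π (δ g) ∈ I)
    (hspan : Submodule.span T (Set.range M) = ⊤)
    (hkey : ∀ Q : P, Θ Q = 0 → π Q ∈ I)
    (hinj : ∀ u : P, π u ∉ maximalIdeal T → Function.Injective (Θ u))
    (y : G →₀ ℤ) (hy : h33xRW ρW y = 0) (i j : Fin 2) : h33xMA M y i j ∈ I := by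
  have hδ : ∀ a : G, Function.Injective (Θ (δ a)) := by
    intro a
    apply hinj
    intro hmem
    have hu : IsUnit (M a).det := by
      have h1 : (M a).det * (M a⁻¹).det = 1 := by
        rw [← Matrix.det_mul, ← map_mul, mul_inv_cancel, map_one, Matrix.det_one]
      exact IsUnit.of_mul_eq_one _ h1
    have h1 : (M a).det ∈ maximalIdeal T := by
      have := add_mem (hI (hdet a)) hmem
      rwa [sub_add_cancel] at this
    exact (IsLocalRing.mem_maximalIdeal _).mp h1 hu
  obtain ⟨c, hc, hcu⟩ := h33x_exists_unit M hspan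
  have hkill : ∀ c ∈ h33xC G, h33xRW ρW c * h33xIota ρW Θ δ y = 0 := by
    intro c hc
    induction hc using AddSubgroup.closure_induction with
    | mem x hx =>
      obtain ⟨h, k, rfl⟩ := hx
      rw [map_sub, h33xRW_single, h33xRW_single, one_smul, one_smul, map_mul, map_mul]
      exact h33x_comm_kill ρW Θ τ δ hcomm hmul hES hδ y hy h k
    | zero => rw [map_zero, zero_mul]
    | add x x' _ _ hx hx' => rw [map_add, add_mul, hx, hx', add_zero]
    | neg x _ hx => rw [map_neg, neg_mul, hx, neg_zero]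
  have hcinj : Function.Injective (h33xRW ρW c) := by
    have hb := h33x_beta_congr τ δ π I M htr hdet c c
    rw [h33xB2_self] at hb
    have hnm : π (h33xBeta τ δ c c) ∉ maximalIdeal T := by
      intro hmem
      have h1 : 2 * (h33xMA M c).det ∈ maximalIdeal T := by
        have := add_mem (hI hb) hmem
        rwa [sub_add_cancel] at this
      rcases (IsLocalRing.maximalIdeal.isMaximal T).isPrime.mem_or_mem h1 with h | h
      · exact h2 h
      · exact hcu h
    have hΘ := hinj _ hnm
    have hp := h33x_polar ρW Θ τ δ hcomm hmul hES c c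
    have hcm := (h33x_RW_comm_iota ρW Θ τ δ hcomm hES c).eq
    rw [hcm, ← add_mul] at hp
    rw [← hp] at hΘ
    have hΘ' : Function.Injective
        (⇑(h33xIota ρW Θ δ c + h33xIota ρW Θ δ c) ∘ ⇑(h33xRW ρW c)) := hΘ
    exact Function.Injective.of_comp hΘ'
  have hι : h33xIota ρW Θ δ y = 0 := h33x_cancel hcinj (hkill c hc)
  have htrI : ∀ h : G, (h33xMA M y * M h).trace ∈ I := by
    intro h
    have h1 : Θ (h33xTau τ (h33xTr h y)) = 0 := by
      rw [← h33x_RW_add_iota ρW Θ τ δ hES, h33x_RW_tr, h33x_iota_tr ρW Θ δ hcomm hmul, hy, hι,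
        zero_mul, mul_zero, add_zero]
    have h3 := hkey _ h1
    have h4 := h33x_tau_congr τ π I M htr (h33xTr h y)
    rw [h33x_MA_tr] at h4
    have := add_mem h4 h3
    rwa [sub_add_cancel] at this
  have hall : ∀ Y : Matrix (Fin 2) (Fin 2) T, (h33xMA M y * Y).trace ∈ I := by
    intro Y
    have hY : Y ∈ Submodule.span T (Set.range M) := by rw [hspan]; trivial
    induction hY using Submodule.span_induction with
    | mem x hx =>
      obtain ⟨h, rfl⟩ := hx
      exact htrI h
    | zero => rw [mul_zero, Matrix.trace_zero]; exact zero_mem _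
    | add x x' _ _ hx hx' => rw [mul_add, Matrix.trace_add]; exact add_mem hx hx'
    | smul t x _ hx =>
      rw [Matrix.mul_smul, Matrix.trace_smul, smul_eq_mul]
      exact I.mul_mem_left _ hx
  have h := hall (Matrix.single j i 1)
  rw [Matrix.trace_mul_single] at h
  simpa using h

end Final

/-- **LC-KEY**: the annihilator comparison. -/
theorem h33x_key : H30xKey := by
  intro G _ W _ _ ρW P _ Θ T _ _ π I V _ _ _ _ ρ τ δ hrank h2 hcomm hES hmul _ htr hdet hspan
    hkey hinj m n g hW v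
  by_cases hI : I = ⊤
  · rw [hI, Submodule.top_smul]; trivial
  have hIm : I ≤ maximalIdeal T := IsLocalRing.le_maximalIdeal hI
  let b : Module.Basis (Fin 2) T V := Module.finBasisOfFinrankEq T V hrank
  let M : G →* Matrix (Fin 2) (Fin 2) T :=
    { toFun := fun g => LinearMap.toMatrix b b (ρ g)
      map_one' := by rw [map_one]; exact LinearMap.toMatrix_one b
      map_mul' := fun g h => by rw [map_mul]; exact LinearMap.toMatrix_mul b _ _ }
  have hM : ∀ g, M g = LinearMap.toMatrix b b (ρ g) := fun g => rfl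
  have htr' : ∀ g : G, (M g).trace - π (τ g) ∈ I := by
    intro g
    rw [hM, ← LinearMap.trace_eq_matrix_trace T b (ρ g)]
    exact htr g
  have hdet' : ∀ g : G, (M g).det - π (δ g) ∈ I := by
    intro g
    rw [hM, LinearMap.det_toMatrix b (ρ g)]
    exact hdet g
  have hspan' : Submodule.span T (Set.range M) = ⊤ := by
    have e : Set.range M = (LinearMap.toMatrix b b) '' (Set.range ρ) := by
      ext X
      constructor
      · rintro ⟨g, rfl⟩
        exact ⟨ρ g, ⟨g, rfl⟩, rfl⟩
      · rintro ⟨_, ⟨g, rfl⟩, rfl⟩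
        exact ⟨g, rfl⟩
    have h1 := Submodule.map_span
      ((LinearMap.toMatrix b b).toLinearMap) (Set.range ρ)
    rw [hspan, Submodule.map_top, LinearMap.range_eq_top.mpr (LinearEquiv.surjective _)] at h1
    rw [e]
    exact h1.symm
  let x : G →₀ ℤ := ∑ i, Finsupp.single (g i) (n i)
  have hx : h33xRW ρW x = 0 := by
    ext w
    have h1 : h33xRW ρW x = ∑ i, n i • ρW (g i) := by
      simp only [x, map_sum, h33xRW_single]
    rw [h1]
    have h2 : (∑ i, n i • ρW (g i)) w = ∑ i, n i • ρW (g i) w :=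
      map_sum (AddMonoidHom.eval w) (fun i => n i • ρW (g i)) Finset.univ
    rw [h2, hW w]
    rfl
  have hent := h33x_core ρW Θ τ δ π I M h2 hIm hcomm hES hmul htr' hdet' hspan' hkey hinj x hx
  let φ : Module.End T V := ∑ i, n i • ρ (g i)
  have hφ : LinearMap.toMatrix b b φ = h33xMA M x := by
    simp only [φ, x, map_sum, map_zsmul, h33xMA_single, hM]
  have hφv : ∑ i, n i • ρ (g i) v = φ v := by
    simp only [φ, LinearMap.sum_apply, LinearMap.smul_apply]
  rw [hφv, ← b.sum_repr (φ v)]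
  refine Submodule.sum_mem _ fun j _ => ?_
  refine Submodule.smul_mem_smul ?_ trivial
  rw [← LinearMap.toMatrix_mulVec_repr b b φ v, hφ]
  simp only [Matrix.mulVec, dotProduct]
  exact Ideal.sum_mem _ fun k _ => I.mul_mem_right _ (hent j k)

end Fermat.Agent.P5
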