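import Mathlib

/-!
# Wave 5, pillar (P), block ALG-DESC (helper47): Frobenius descent of lattices, abstract core

`S` a commutative ring with an element `ℓ` such that every nonzero element is `ℓ ^ c * unit`
(a discrete valuation ring with uniformiser `ℓ`), `φ : S →+* S` a ring endomorphism with
`φ ℓ = ℓ` such that `φ - 1` is surjective modulo `ℓ ^ m` (Artin--Schreier).

* `h47d_core` : a `φ`-stable submodule `N` of `S ^ n` containing `ℓ ^ m S ^ n` is spanned by its
  vectors fixed by `φ` modulo `ℓ ^ m`.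
* `h47d_lattice` : if moreover the elements fixed by `φ` modulo `ℓ ^ m` are congruent modulo
  `ℓ ^ m` to elements of a subring `R₀` containing `ℓ`, then `N` is spanned by its vectors with
  coordinates in `R₀`.
* `h47d_AS_pow`, `h47d_fix_pow` : the two hypotheses modulo `ℓ ^ m` follow from the same
  hypotheses modulo `ℓ` when `ℓ` is a non-zero-divisor.
-/

set_option autoImplicit false

open scoped Pointwise

namespace Fermat.Agent.P5

section Core

variable {S : Type*} [CommRing S]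

/-- the linear map `w ↦ (0, w)`. -/
def h47dCons (S : Type*) [CommRing S] (n : ℕ) : (Fin n → S) →ₗ[S] (Fin (n + 1) → S) :=
  LinearMap.pi fun i =>
    Fin.cases (0 : (Fin n → S) →ₗ[S] S) (fun j => LinearMap.proj j) i

@[simp]
theorem h47dCons_zero (n : ℕ) (w : Fin n → S) : h47dCons S n w 0 = 0 := by
  simp [h47dCons]

@[simp]
theorem h47dCons_succ (n : ℕ) (w : Fin n → S) (j : Fin n) : h47dCons S n w j.succ = w j := by
  simp [h47dCons]

theorem h47dCons_tail (n : ℕ) (v : Fin (n + 1) → S) (h0 : v 0 = 0) :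
    h47dCons S n (fun j => v j.succ) = v := by
  funext i
  refine Fin.cases ?_ (fun j => ?_) i
  · rw [h47dCons_zero, h0]
  · rw [h47dCons_succ]

/-- **Core of the Frobenius descent.** -/
theorem h47d_core (ℓ : S) (φ : S →+* S) (m : ℕ)
    (hdvr : ∀ s : S, s ≠ 0 → ∃ c : ℕ, ∃ u : S, IsUnit u ∧ s = ℓ ^ c * u)
    (hφℓ : φ ℓ = ℓ)
    (hAS : ∀ s : S, ∃ t : S, ℓ ^ m ∣ φ t - t - s) :
    ∀ (n : ℕ) (N : Submodule S (Fin n → S)),
      (∀ v : Fin n → S, (∀ i, ℓ ^ m ∣ v i) → v ∈ N) →
      (∀ v ∈ N, (fun i => φ (v i)) ∈ N) →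
      N ≤ Submodule.span S {v | v ∈ N ∧ ∀ i, ℓ ^ m ∣ φ (v i) - v i} := by
  intro n
  induction n with
  | zero =>
    intro N _ _ v _
    have : v = 0 := Subsingleton.elim _ _
    rw [this]
    exact zero_mem _
  | succ n ih =>
    intro N hbig hN
    -- the submodule of vectors with zero first coordinate
    set N' : Submodule S (Fin n → S) := N.comap (h47dCons S n) with hN'
    have hbig' : ∀ w : Fin n → S, (∀ i, ℓ ^ m ∣ w i) → w ∈ N' := by
      intro w hw
      rw [hN', Submodule.mem_comap]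
      refine hbig _ fun i => ?_
      refine Fin.cases ?_ (fun j => ?_) i
      · rw [h47dCons_zero]; exact dvd_zero _
      · rw [h47dCons_succ]; exact hw j
    have hcons_φ : ∀ w : Fin n → S,
        (fun i => φ (h47dCons S n w i)) = h47dCons S n (fun j => φ (w j)) := by
      intro w
      funext i
      refine Fin.cases ?_ (fun j => ?_) i
      · simp
      · simp
    have hNφ' : ∀ w ∈ N', (fun i => φ (w i)) ∈ N' := by
      intro w hw
      rw [hN', Submodule.mem_comap] at hw ⊢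
      rw [← hcons_φ]
      exact hN _ hw
    have ih' := ih N' hbig' hNφ'
    set T' : Set (Fin n → S) := {w | w ∈ N' ∧ ∀ i, ℓ ^ m ∣ φ (w i) - w i} with hT'
    set T : Set (Fin (n + 1) → S) := {v | v ∈ N ∧ ∀ i, ℓ ^ m ∣ φ (v i) - v i} with hT
    -- `(0, w)` for `w ∈ T'` lies in `T`
    have hTT' : ∀ w ∈ T', h47dCons S n w ∈ T := by
      intro w hw
      refine ⟨hw.1, fun i => ?_⟩
      refine Fin.cases ?_ (fun j => ?_) i
      · simp
      · simpa using hw.2 j
    have hspan' : ∀ w ∈ N', h47dCons S n w ∈ Submodule.span S T := by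
      intro w hw
      have h1 : w ∈ Submodule.span S T' := ih' hw
      have h2 : h47dCons S n w ∈ (Submodule.span S T').map (h47dCons S n) :=
        Submodule.mem_map_of_mem h1
      rw [Submodule.map_span] at h2
      refine Submodule.span_mono ?_ h2
      rintro _ ⟨w', hw', rfl⟩
      exact hTT' w' hw'
    -- solving `(φ - 1) u = - w` modulo `ℓ ^ m` inside `N'`
    have hsolve : ∀ w ∈ Submodule.span S T', ∃ u ∈ N', ∀ j, ℓ ^ m ∣ φ (u j) - u j + w j := by
      have key : ∀ w ∈ AddSubmonoid.closure ((Set.univ : Set S) • T'),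
          ∃ u ∈ N', ∀ j, ℓ ^ m ∣ φ (u j) - u j + w j := by
        intro w hw
        induction hw using AddSubmonoid.closure_induction with
        | mem x hx =>
          obtain ⟨s, -, e, he, rfl⟩ := Set.mem_smul.mp hx
          obtain ⟨t, ht⟩ := hAS (-s)
          refine ⟨t • e, N'.smul_mem t he.1, fun j => ?_⟩
          have h1 := he.2 j
          have e1 : φ ((t • e) j) - (t • e) j + (s • e) j =
              φ t * (φ (e j) - e j) + (φ t - t - -s) * e j := by
            simp only [Pi.smul_apply, smul_eq_mul, map_mul]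
            ring
          rw [e1]
          exact dvd_add (Dvd.dvd.mul_left h1 _) (Dvd.dvd.mul_right ht _)
        | zero =>
          exact ⟨0, N'.zero_mem, fun j => by simp⟩
        | add x y _ _ hx hy =>
          obtain ⟨u₁, hu₁, h₁⟩ := hx
          obtain ⟨u₂, hu₂, h₂⟩ := hy
          refine ⟨u₁ + u₂, N'.add_mem hu₁ hu₂, fun j => ?_⟩
          have e1 : φ ((u₁ + u₂) j) - (u₁ + u₂) j + (x + y) j =
              (φ (u₁ j) - u₁ j + x j) + (φ (u₂ j) - u₂ j + y j) := by
            simp only [Pi.add_apply, map_add]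
            ring
          rw [e1]
          exact dvd_add (h₁ j) (h₂ j)
      intro w hw
      have hw' : w ∈ (Submodule.span S T').toAddSubmonoid := hw
      rw [Submodule.span_eq_closure] at hw'
      exact key w hw'
    -- the ideal of first coordinates
    have hpow : ∃ c : ℕ, ∃ v ∈ N, v 0 = ℓ ^ c := by
      refine ⟨m, Pi.single 0 (ℓ ^ m), hbig _ fun i => ?_, by simp⟩
      by_cases hi : i = 0
      · subst hi; simp
      · simp [Pi.single_eq_of_ne hi]
    classical
    set c := Nat.find hpow with hc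
    obtain ⟨v, hvN, hv0'⟩ := Nat.find_spec hpow
    have hv0 : v 0 = ℓ ^ c := hv0'
    clear hv0'
    have hmin : ∀ x ∈ N, ℓ ^ c ∣ x 0 := by
      intro x hx
      by_cases hx0 : x 0 = 0
      · rw [hx0]; exact dvd_zero _
      obtain ⟨c', u, hu, hxu⟩ := hdvr (x 0) hx0
      obtain ⟨u', rfl⟩ := hu
      have hle : c ≤ c' := by
        refine Nat.find_min' hpow ⟨(↑u'⁻¹ : S) • x, N.smul_mem _ hx, ?_⟩
        simp only [Pi.smul_apply, smul_eq_mul, hxu]
        rw [mul_comm, mul_assoc, Units.mul_inv, mul_one]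
      rw [hxu]
      exact Dvd.dvd.mul_right (pow_dvd_pow ℓ hle) _
    -- the difference `φ v - v`
    set d : Fin (n + 1) → S := fun i => φ (v i) - v i with hd
    have hdN : d ∈ N := N.sub_mem (hN v hvN) hvN
    have hd0 : d 0 = 0 := by
      simp only [hd]
      rw [hv0, map_pow, hφℓ, sub_self]
    have hdN' : (fun j => d j.succ) ∈ N' := by
      rw [hN', Submodule.mem_comap, h47dCons_tail n d hd0]
      exact hdN
    obtain ⟨u, huN', hu⟩ := hsolve _ (ih' hdN')
    -- the corrected vector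
    set v' : Fin (n + 1) → S := v + h47dCons S n u with hv'
    have hv'N : v' ∈ N := N.add_mem hvN huN'
    have hv'0 : v' 0 = ℓ ^ c := by
      simp [hv', hv0]
    have hv'T : v' ∈ T := by
      refine ⟨hv'N, fun i => ?_⟩
      refine Fin.cases ?_ (fun j => ?_) i
      · rw [hv'0, map_pow, hφℓ, sub_self]; exact dvd_zero _
      · have e1 : φ (v' j.succ) - v' j.succ = φ (u j) - u j + d j.succ := by
          simp only [hv', hd, Pi.add_apply, h47dCons_succ, map_add]
          ring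
        rw [e1]
        exact hu j
    -- conclusion
    intro x hx
    obtain ⟨s, hs⟩ := hmin x hx
    set y : Fin (n + 1) → S := x - s • v' with hy
    have hyN : y ∈ N := N.sub_mem hx (N.smul_mem s hv'N)
    have hy0 : y 0 = 0 := by
      simp only [hy, Pi.sub_apply, Pi.smul_apply, smul_eq_mul, hv'0, hs]
      ring
    have hyN' : (fun j => y j.succ) ∈ N' := by
      rw [hN', Submodule.mem_comap, h47dCons_tail n y hy0]
      exact hyN
    have h1 := hspan' _ hyN'
    rw [h47dCons_tail n y hy0] at h1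
    have h2 : x = s • v' + y := by
      rw [hy]; abel
    rw [h2]
    exact add_mem (Submodule.smul_mem _ s (Submodule.subset_span hv'T)) h1

/-- **Frobenius descent of lattices**: `N` is spanned by its vectors with coordinates in `R₀`. -/
theorem h47d_lattice (R₀ : Subring S) (ℓ : S) (hℓR : ℓ ∈ R₀) (φ : S →+* S) (m : ℕ)
    (hdvr : ∀ s : S, s ≠ 0 → ∃ c : ℕ, ∃ u : S, IsUnit u ∧ s = ℓ ^ c * u)
    (hφℓ : φ ℓ = ℓ)
    (hAS : ∀ s : S, ∃ t : S, ℓ ^ m ∣ φ t - t - s)
    (hfix : ∀ s : S, ℓ ^ m ∣ φ s - s → ∃ r ∈ R₀, ℓ ^ m ∣ s - r)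
    (n : ℕ) (N : Submodule S (Fin n → S))
    (hbig : ∀ v : Fin n → S, (∀ i, ℓ ^ m ∣ v i) → v ∈ N)
    (hN : ∀ v ∈ N, (fun i => φ (v i)) ∈ N) :
    N ≤ Submodule.span S {v | v ∈ N ∧ ∀ i, v i ∈ R₀} := by
  classical
  refine (h47d_core ℓ φ m hdvr hφℓ hAS n N hbig hN).trans ?_
  rw [Submodule.span_le]
  rintro v ⟨hvN, hv⟩
  choose r hrR hr using fun i => hfix (v i) (hv i)
  choose q hq using hr
  -- `v = r + ∑ q i • (ℓ ^ m e_i)`
  have hrN : r ∈ N := by
    have h1 : v - r ∈ N := hbig _ fun i => by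
      show ℓ ^ m ∣ v i - r i
      exact ⟨q i, hq i⟩
    have h2 : r = v - (v - r) := by abel
    rw [h2]
    exact N.sub_mem hvN h1
  have hr_mem : r ∈ Submodule.span S {v | v ∈ N ∧ ∀ i, v i ∈ R₀} :=
    Submodule.subset_span ⟨hrN, hrR⟩
  have hsingle : ∀ i, (Pi.single i (ℓ ^ m) : Fin n → S) ∈
      Submodule.span S {v | v ∈ N ∧ ∀ i, v i ∈ R₀} := by
    intro i
    refine Submodule.subset_span ⟨hbig _ fun j => ?_, fun j => ?_⟩
    · by_cases hj : j = i
      · subst hj; simp
      · simp [Pi.single_eq_of_ne hj]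
    · by_cases hj : j = i
      · subst hj; simp [pow_mem hℓR m]
      · simp [Pi.single_eq_of_ne hj]
  have hv_eq : v = r + ∑ i, q i • (Pi.single i (ℓ ^ m) : Fin n → S) := by
    funext j
    simp only [Pi.add_apply, Finset.sum_apply, Pi.smul_apply, smul_eq_mul, Pi.single_apply]
    rw [Finset.sum_eq_single j]
    · simp only [if_true]
      have := hq j
      linear_combination this
    · intro b _ hb
      rw [if_neg (Ne.symm hb), mul_zero]
    · intro h
      exact absurd (Finset.mem_univ j) h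
  show v ∈ Submodule.span S {v | v ∈ N ∧ ∀ i, v i ∈ R₀}
  rw [hv_eq]
  exact add_mem hr_mem (Submodule.sum_mem _ fun i _ => Submodule.smul_mem _ _ (hsingle i))

end Core

section Lift

variable {S : Type*} [CommRing S]

/-- Artin--Schreier modulo `ℓ` implies Artin--Schreier modulo `ℓ ^ m`. -/
theorem h47d_AS_pow (ℓ : S) (φ : S →+* S) (hφℓ : φ ℓ = ℓ)
    (hAS : ∀ s : S, ∃ t : S, ℓ ∣ φ t - t - s) (m : ℕ) :
    ∀ s : S, ∃ t : S, ℓ ^ m ∣ φ t - t - s := by
  induction m with
  | zero => intro s; exact ⟨0, by simp⟩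
  | succ m ih =>
    intro s
    obtain ⟨t₀, s₁, hs₁⟩ := hAS s
    obtain ⟨t₁, r, hr⟩ := ih (-s₁)
    refine ⟨t₀ + ℓ * t₁, r, ?_⟩
    rw [map_add, map_mul, hφℓ, pow_succ]
    linear_combination hs₁ + ℓ * hr

/-- Fixed points modulo `ℓ` in `R₀` implies fixed points modulo `ℓ ^ m` in `R₀`. -/
theorem h47d_fix_pow (R₀ : Subring S) (ℓ : S) (hℓR : ℓ ∈ R₀) (hreg : IsLeftRegular ℓ)
    (φ : S →+* S) (hφℓ : φ ℓ = ℓ) (hφR : ∀ r ∈ R₀, φ r = r)
    (hfix : ∀ s : S, ℓ ∣ φ s - s → ∃ r ∈ R₀, ℓ ∣ s - r) (m : ℕ) :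
    ∀ s : S, ℓ ^ m ∣ φ s - s → ∃ r ∈ R₀, ℓ ^ m ∣ s - r := by
  induction m with
  | zero => intro s _; exact ⟨0, R₀.zero_mem, by simp⟩
  | succ m ih =>
    intro s hs
    have hs1 : ℓ ∣ φ s - s := (dvd_pow_self ℓ (Nat.succ_ne_zero m)).trans hs
    obtain ⟨r₀, hr₀, s', hs'⟩ := hfix s hs1
    -- `s = r₀ + ℓ s'`
    have e1 : φ s - s = ℓ * (φ s' - s') := by
      have h1 : s = r₀ + ℓ * s' := by linear_combination hs'
      rw [h1, map_add, map_mul, hφℓ, hφR r₀ hr₀]
      ring
    obtain ⟨w, hw⟩ := hs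
    have e2 : ℓ * (φ s' - s') = ℓ * (ℓ ^ m * w) := by
      rw [← e1, hw, pow_succ]; ring
    have e3 : φ s' - s' = ℓ ^ m * w := hreg e2
    obtain ⟨r₁, hr₁, q, hq⟩ := ih s' ⟨w, e3⟩
    refine ⟨r₀ + ℓ * r₁, R₀.add_mem hr₀ (R₀.mul_mem hℓR hr₁), q, ?_⟩
    rw [pow_succ]
    linear_combination hs' + ℓ * hq

end Lift

end Fermat.Agent.P5
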