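import Mathlib
import Fermat.Agent.S36.H23InertiaDVR
import Fermat.Agent.S54.Frobenius
import Fermat.Agent.S37.AsmSpec
import Fermat.Agent.P5.H47DescCore
import Fermat.Prelude.Def_GaloisRep_Flat

/-!
# Wave 5, pillar (P), block ALG-DESC (helper34): the arithmetic inputs of the Frobenius descent

`A` a valuation subring of `ℚ̄` over the prime `ℓ`, `I`, `D` its inertia and decomposition
groups, `φ ∈ D` a Frobenius element (`A.IsFrobeniusAt φ ℓ`).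

* `h34d_S A : Subring ℚ̄` : the integers of the inertia field, `S = A ∩ ℚ̄^I`;
* `h34d_phi A τ hτ : S →+* S` : the action of `τ ∈ D` on `S`;
* `h34d_R0 ℓ A : Subring S` : the elements of `S` lying in `ℤ_(ℓ) = ratLocalizedAt ℓ`;
* `h34d_dvd_iff` : `ℓ ∣ s` in `S` iff `s ∈ 𝔪_A`;
* `h34d_hdvr` : every non-zero element of `S` is `ℓ ^ c * unit`;
* `h34d_hAS` : Artin–Schreier, `∀ s, ∃ t, ℓ ∣ φ t - t - s`;
* `h34d_hfix` : `ℓ ∣ φ s - s → ∃ r ∈ R₀, ℓ ∣ s - r`;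
* `h34d_hAS_pow`, `h34d_hfix_pow` : the same modulo `ℓ ^ m`;
* `h34d_lattice` : **Frobenius descent of lattices over `S`** (= `h47d_lattice` of helper47 with
  all hypotheses discharged): a `φ`-stable `S`-submodule `N` of `S ^ n` containing `ℓ ^ m S ^ n`
  is spanned by its vectors with coordinates in `ℤ_(ℓ)`.

Inputs: `S36/H23InertiaField` (helper23: `h23u_unif`, `h23u_exists_zpow`, `h23u_residue`),
`S54/Frobenius` (Frobenius elements), `S37/AsmSpec` (`D` normalises `I`).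
-/

set_option autoImplicit false
set_option linter.style.haveILetI false

open scoped Pointwise

open Polynomial

noncomputable section

namespace Fermat.Agent.P5

/-! ## Calculus of non-units -/

section Nonunits

variable {L : Type*} [Field L] (B : ValuationSubring L)

theorem h34d_nu_add {x y : L} (hx : x ∈ B.nonunits) (hy : y ∈ B.nonunits) :
    x + y ∈ B.nonunits := by
  rw [ValuationSubring.mem_nonunits_iff] at hx hy ⊢
  exact lt_of_le_of_lt (B.valuation.map_add x y) (max_lt hx hy)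

theorem h34d_nu_neg {x : L} (hx : x ∈ B.nonunits) : -x ∈ B.nonunits := by
  rw [ValuationSubring.mem_nonunits_iff] at hx ⊢
  rwa [Valuation.map_neg]

theorem h34d_nu_sub {x y : L} (hx : x ∈ B.nonunits) (hy : y ∈ B.nonunits) :
    x - y ∈ B.nonunits := by
  rw [sub_eq_add_neg]
  exact h34d_nu_add B hx (h34d_nu_neg B hy)

theorem h34d_nu_mul {a x : L} (ha : a ∈ B) (hx : x ∈ B.nonunits) : a * x ∈ B.nonunits := by
  rw [ValuationSubring.mem_nonunits_iff] at hx ⊢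
  rw [map_mul]
  have h1 : B.valuation a ≤ 1 := (B.valuation_le_one_iff a).2 ha
  exact mul_lt_one_of_nonneg_of_lt_one_right h1 zero_le hx

theorem h34d_nu_mul' {a x : L} (ha : a ∈ B) (hx : x ∈ B.nonunits) : x * a ∈ B.nonunits := by
  rw [mul_comm]
  exact h34d_nu_mul B ha hx

theorem h34d_nu_pow {x : L} (hx : x ∈ B.nonunits) {n : ℕ} (hn : n ≠ 0) :
    x ^ n ∈ B.nonunits := by
  obtain ⟨m, rfl⟩ := Nat.exists_eq_succ_of_ne_zero hn
  rw [pow_succ]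
  exact h34d_nu_mul B (B.pow_mem (ValuationSubring.nonunits_subset hx) m) hx

theorem h34d_one_not_nu : (1 : L) ∉ B.nonunits := by
  rw [ValuationSubring.mem_nonunits_iff, map_one]
  exact lt_irrefl _

/-- the residue of an element of `B` vanishes iff it is a non-unit. -/
theorem h34d_residue_eq_zero_iff {x : L} (hx : x ∈ B) :
    IsLocalRing.residue B ⟨x, hx⟩ = 0 ↔ x ∈ B.nonunits := by
  rw [IsLocalRing.residue_eq_zero_iff, ← ValuationSubring.coe_mem_nonunits_iff]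

theorem h34d_residue_eq_iff {x y : L} (hx : x ∈ B) (hy : y ∈ B) :
    IsLocalRing.residue B ⟨x, hx⟩ = IsLocalRing.residue B ⟨y, hy⟩ ↔ x - y ∈ B.nonunits := by
  rw [← sub_eq_zero, ← map_sub]
  exact h34d_residue_eq_zero_iff B (sub_mem hx hy)

end Nonunits

/-! ## Fixed points of the Frobenius of a field of characteristic `ℓ` -/

theorem h34d_frob_fixed {k : Type*} [Field k] (ℓ : ℕ) [Fact ℓ.Prime] [CharP k ℓ] {x : k}
    (hx : x ^ ℓ = x) : ∃ n : ℕ, x = (n : k) := by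
  classical
  have hℓ : ℓ.Prime := Fact.out
  haveI : NeZero ℓ := ⟨hℓ.ne_zero⟩
  have hP : (X ^ ℓ - X : k[X]) ≠ 0 := FiniteField.X_pow_card_sub_X_ne_zero k hℓ.one_lt
  have hdeg : (X ^ ℓ - X : k[X]).natDegree = ℓ :=
    FiniteField.X_pow_card_sub_X_natDegree_eq k hℓ.one_lt
  let ι : ZMod ℓ →+* k := ZMod.castHom (dvd_refl ℓ) k
  have hinj : Function.Injective ι := ι.injective
  have hroot : ∀ y : k, y ∈ (X ^ ℓ - X : k[X]).roots.toFinset ↔ y ^ ℓ = y := by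
    intro y
    rw [Multiset.mem_toFinset, mem_roots hP, IsRoot.def, eval_sub, eval_pow, eval_X, sub_eq_zero]
  have hsub : (Finset.univ.image ι) ⊆ (X ^ ℓ - X : k[X]).roots.toFinset := by
    intro y hy
    obtain ⟨a, -, rfl⟩ := Finset.mem_image.1 hy
    rw [hroot, ← map_pow, ZMod.pow_card]
  have hcard : (X ^ ℓ - X : k[X]).roots.toFinset.card ≤ (Finset.univ.image ι).card := by
    rw [Finset.card_image_of_injective _ hinj, Finset.card_univ, ZMod.card]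
    calc (X ^ ℓ - X : k[X]).roots.toFinset.card ≤ Multiset.card (X ^ ℓ - X : k[X]).roots :=
          Multiset.toFinset_card_le _
      _ ≤ (X ^ ℓ - X : k[X]).natDegree := card_roots' _
      _ = ℓ := hdeg
  have heq := Finset.eq_of_subset_of_card_le hsub hcard
  have hxr : x ∈ (X ^ ℓ - X : k[X]).roots.toFinset := (hroot x).2 hx
  rw [← heq] at hxr
  obtain ⟨a, -, rfl⟩ := Finset.mem_image.1 hxr
  exact ⟨a.val, by rw [← map_natCast ι, ZMod.natCast_zmod_val]⟩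

/-! ## The integers of the inertia field -/

local notation "Qb" => AlgebraicClosure ℚ

local notation "GQ" => (AlgebraicClosure ℚ ≃ₐ[ℚ] AlgebraicClosure ℚ)

/-- `S = A ∩ ℚ̄^I`: the integers of the inertia field. -/
def h34d_S (A : ValuationSubring Qb) : Subring Qb where
  carrier := {x | x ∈ A ∧ ∀ σ ∈ A.inertiaSubgroupIn ℚ, σ x = x}
  mul_mem' {a b} ha hb := ⟨A.mul_mem _ _ ha.1 hb.1, fun σ hσ => by
    rw [map_mul, ha.2 σ hσ, hb.2 σ hσ]⟩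
  one_mem' := ⟨A.one_mem, fun σ _ => map_one σ⟩
  add_mem' {a b} ha hb := ⟨A.add_mem _ _ ha.1 hb.1, fun σ hσ => by
    rw [map_add, ha.2 σ hσ, hb.2 σ hσ]⟩
  zero_mem' := ⟨A.zero_mem, fun σ _ => map_zero σ⟩
  neg_mem' {a} ha := ⟨A.neg_mem _ ha.1, fun σ hσ => by rw [map_neg, ha.2 σ hσ]⟩

theorem h34d_mem_S {A : ValuationSubring Qb} {x : Qb} :
    x ∈ h34d_S A ↔ x ∈ A ∧ ∀ σ ∈ A.inertiaSubgroupIn ℚ, σ x = x := Iff.rfl

/-- the decomposition group preserves `A`. -/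
theorem h34d_map_mem {A : ValuationSubring Qb} {τ : GQ} (hτ : τ ∈ A.decompositionSubgroup ℚ)
    {x : Qb} (hx : x ∈ A) : τ x ∈ A := by
  have h1 : τ • A = A := MulAction.mem_stabilizer_iff.1 hτ
  have h2 : τ • x ∈ τ • A := ValuationSubring.smul_mem_pointwise_smul τ x A hx
  rw [h1] at h2
  exact h2

/-- the decomposition group preserves the non-units of `A`. -/
theorem h34d_map_nu {A : ValuationSubring Qb} {τ : GQ} (hτ : τ ∈ A.decompositionSubgroup ℚ)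
    {x : Qb} (hx : x ∈ A.nonunits) : τ x ∈ A.nonunits := by
  rw [Fermat.Agent.Bridge.mem_nonunits_iff_inv] at hx ⊢
  rcases hx with hx | hx
  · left
    rw [hx, map_zero]
  · right
    intro h
    apply hx
    have h1 := h34d_map_mem ((A.decompositionSubgroup ℚ).inv_mem hτ) h
    rw [← map_inv₀] at h1
    have h2 : τ⁻¹ (τ x⁻¹) = x⁻¹ := by
      rw [← AlgEquiv.mul_apply, inv_mul_cancel, AlgEquiv.one_apply]
    rw [h2] at h1
    exact h1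

/-- the decomposition group preserves the inertia field. -/
theorem h34d_map_fixed {A : ValuationSubring Qb} {τ : GQ} (hτ : τ ∈ A.decompositionSubgroup ℚ)
    {x : Qb} (hx : ∀ σ ∈ A.inertiaSubgroupIn ℚ, σ x = x) :
    ∀ σ ∈ A.inertiaSubgroupIn ℚ, σ (τ x) = τ x := by
  intro σ hσ
  have h1 : τ⁻¹ * σ * τ ∈ A.inertiaSubgroupIn ℚ := by
    have h := Fermat.Agent.S37.conj_mem_inertiaSubgroupIn
      ((A.decompositionSubgroup ℚ).inv_mem hτ) hσ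
    rwa [inv_inv] at h
  have h2 := hx _ h1
  have h3 : τ ((τ⁻¹ * σ * τ) x) = σ (τ x) := by
    rw [AlgEquiv.mul_apply, AlgEquiv.mul_apply, ← AlgEquiv.mul_apply τ τ⁻¹, mul_inv_cancel,
      AlgEquiv.one_apply]
  rw [← h3, h2]

/-- the action of an element of the decomposition group on `S`. -/
def h34d_phi (A : ValuationSubring Qb) (τ : GQ) (hτ : τ ∈ A.decompositionSubgroup ℚ) :
    ↥(h34d_S A) →+* ↥(h34d_S A) :=
  (((τ : Qb →ₐ[ℚ] Qb) : Qb →+* Qb).comp (h34d_S A).subtype).codRestrict (h34d_S A)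
    (fun x => ⟨h34d_map_mem hτ x.2.1, h34d_map_fixed hτ x.2.2⟩)

@[simp]
theorem h34d_phi_coe (A : ValuationSubring Qb) (τ : GQ) (hτ : τ ∈ A.decompositionSubgroup ℚ)
    (s : ↥(h34d_S A)) : ((h34d_phi A τ hτ s : ↥(h34d_S A)) : Qb) = τ (s : Qb) := rfl

/-- the elements of `S` lying in `ℤ_(ℓ)`. -/
def h34d_R0 (ℓ : ℕ) (A : ValuationSubring Qb) : Subring ↥(h34d_S A) :=
  Subring.comap (h34d_S A).subtype ((GaloisRep.ratLocalizedAt ℓ).map (algebraMap ℚ Qb))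

theorem h34d_mem_R0 {ℓ : ℕ} {A : ValuationSubring Qb} {s : ↥(h34d_S A)} :
    s ∈ h34d_R0 ℓ A ↔ ∃ r ∈ GaloisRep.ratLocalizedAt ℓ, algebraMap ℚ Qb r = (s : Qb) := by
  unfold h34d_R0
  rw [Subring.mem_comap, Subring.mem_map]
  rfl

theorem h34d_phi_R0 {ℓ : ℕ} (A : ValuationSubring Qb) (τ : GQ)
    (hτ : τ ∈ A.decompositionSubgroup ℚ) :
    ∀ r ∈ h34d_R0 ℓ A, h34d_phi A τ hτ r = r := by
  intro r hr
  obtain ⟨c, -, hc⟩ := h34d_mem_R0.1 hr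
  apply Subtype.ext
  rw [h34d_phi_coe, ← hc]
  exact τ.commutes c

section Arith

variable {ℓ : ℕ} (hℓ : ℓ.Prime) (A : ValuationSubring Qb) (hA : A.LiesOverPrime ℓ)

omit hℓ hA in
theorem h34d_coe_natCast (n : ℕ) : (((n : ℕ) : ↥(h34d_S A)) : Qb) = (n : Qb) := by
  push_cast
  rfl

omit hℓ hA in
theorem h34d_phi_natCast (τ : GQ) (hτ : τ ∈ A.decompositionSubgroup ℚ) (n : ℕ) :
    h34d_phi A τ hτ (n : ↥(h34d_S A)) = (n : ↥(h34d_S A)) :=
  map_natCast _ n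

include hℓ hA

/-- `ℓ ∣ s` in `S` iff `s ∈ 𝔪_A`. -/
theorem h34d_dvd_iff (s : ↥(h34d_S A)) :
    ((ℓ : ℕ) : ↥(h34d_S A)) ∣ s ↔ (s : Qb) ∈ A.nonunits := by
  have hℓ0 : ((ℓ : ℕ) : Qb) ≠ 0 := by exact_mod_cast hℓ.ne_zero
  constructor
  · rintro ⟨t, rfl⟩
    rw [Subring.coe_mul, h34d_coe_natCast, mul_comm]
    exact h34d_nu_mul A t.2.1 hA
  · intro h
    have h1 := Fermat.Agent.S36.h23u_unif hℓ A hA s.2.2 h
    have h2 : ∀ σ ∈ A.inertiaSubgroupIn ℚ,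
        σ ((s : Qb) / ((ℓ : ℕ) : Qb)) = (s : Qb) / ((ℓ : ℕ) : Qb) := by
      intro σ hσ
      rw [map_div₀, map_natCast, s.2.2 σ hσ]
    refine ⟨⟨_, h1, h2⟩, ?_⟩
    apply Subtype.ext
    rw [Subring.coe_mul, h34d_coe_natCast]
    show (s : Qb) = ((ℓ : ℕ) : Qb) * ((s : Qb) / ((ℓ : ℕ) : Qb))
    field_simp

/-- every non-zero element of `S` is `ℓ ^ c * unit`. -/
theorem h34d_hdvr : ∀ s : ↥(h34d_S A), s ≠ 0 →
    ∃ c : ℕ, ∃ u : ↥(h34d_S A), IsUnit u ∧ s = ((ℓ : ℕ) : ↥(h34d_S A)) ^ c * u := by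
  intro s hs
  have hℓ0 : ((ℓ : ℕ) : Qb) ≠ 0 := by exact_mod_cast hℓ.ne_zero
  have hs0 : (s : Qb) ≠ 0 := fun h => hs (Subtype.ext h)
  obtain ⟨n, hn1, hn2⟩ := Fermat.Agent.S36.h23u_exists_zpow hℓ A hA hs0 s.2.2
  have hne : (s : Qb) / ((ℓ : ℕ) : Qb) ^ n ≠ 0 := div_ne_zero hs0 (zpow_ne_zero _ hℓ0)
  have hn : 0 ≤ n := by
    by_contra hcon
    obtain ⟨m, hm⟩ : ∃ m : ℕ, n = -((m : ℤ) + 1) := ⟨(-n - 1).toNat, by omega⟩
    have e : (s : Qb) / ((ℓ : ℕ) : Qb) ^ n = (s : Qb) * ((ℓ : ℕ) : Qb) ^ (m + 1) := by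
      rw [hm, zpow_neg, div_inv_eq_mul, ← Nat.cast_succ, zpow_natCast]
    have h1 : (s : Qb) / ((ℓ : ℕ) : Qb) ^ n ∈ A.nonunits := by
      rw [e]
      exact h34d_nu_mul A s.2.1 (h34d_nu_pow A hA (Nat.succ_ne_zero m))
    rw [Fermat.Agent.Bridge.mem_nonunits_iff_inv] at h1
    rcases h1 with h1 | h1
    · exact hne h1
    · exact h1 hn2
  obtain ⟨c, rfl⟩ := Int.eq_ofNat_of_zero_le hn
  rw [zpow_natCast] at hn1 hn2 hne
  have hfix : ∀ σ ∈ A.inertiaSubgroupIn ℚ,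
      σ ((s : Qb) / ((ℓ : ℕ) : Qb) ^ c) = (s : Qb) / ((ℓ : ℕ) : Qb) ^ c := by
    intro σ hσ
    rw [map_div₀, map_pow, map_natCast, s.2.2 σ hσ]
  have hfix' : ∀ σ ∈ A.inertiaSubgroupIn ℚ,
      σ ((s : Qb) / ((ℓ : ℕ) : Qb) ^ c)⁻¹ = ((s : Qb) / ((ℓ : ℕ) : Qb) ^ c)⁻¹ := by
    intro σ hσ
    rw [map_inv₀, hfix σ hσ]
  refine ⟨c, ⟨_, hn1, hfix⟩, ?_, ?_⟩
  · refine IsUnit.of_mul_eq_one (⟨_, hn2, hfix'⟩ : ↥(h34d_S A)) ?_
    apply Subtype.ext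
    show (s : Qb) / ((ℓ : ℕ) : Qb) ^ c * ((s : Qb) / ((ℓ : ℕ) : Qb) ^ c)⁻¹ = 1
    exact mul_inv_cancel₀ hne
  · apply Subtype.ext
    rw [Subring.coe_mul, Subring.coe_pow, h34d_coe_natCast]
    show (s : Qb) = ((ℓ : ℕ) : Qb) ^ c * ((s : Qb) / ((ℓ : ℕ) : Qb) ^ c)
    field_simp

/-- the Frobenius congruence on `A`. -/
theorem h34d_frob_cong {φ : GQ} (hφ : A.IsFrobeniusAt φ ℓ) {z : Qb} (hz : z ∈ A) :
    φ z - z ^ ℓ ∈ A.nonunits := by
  have hD := hφ.mem_decompositionSubgroup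
  have h1 := hφ.smul_residue_eq (IsLocalRing.residue A ⟨z, hz⟩)
  rw [← IsLocalRing.ResidueField.residue_smul, ← map_pow, ← sub_eq_zero, ← map_sub,
    IsLocalRing.residue_eq_zero_iff] at h1
  rw [ValuationSubring.mem_nonunits_iff_exists_mem_maximalIdeal]
  exact ⟨sub_mem (h34d_map_mem hD hz) (A.pow_mem hz ℓ), h1⟩

/-- a root of an Artin–Schreier polynomial over `A` lies in `A`. -/
theorem h34d_as_root_mem {s α : Qb} (hs : s ∈ A) (hα : α ^ ℓ - α - s = 0) : α ∈ A := by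
  by_contra hcon
  have hα0 : α ≠ 0 := fun h => hcon (h ▸ A.zero_mem)
  have hinv : α⁻¹ ∈ A.nonunits := by
    rw [Fermat.Agent.Bridge.mem_nonunits_iff_inv, inv_inv]
    exact Or.inr hcon
  have hℓ1 : ℓ - 1 ≠ 0 := by
    have := hℓ.two_le
    omega
  have e : (1 : Qb) = (α⁻¹) ^ (ℓ - 1) + s * (α⁻¹) ^ ℓ := by
    have h1 : α ^ ℓ = α + s := by linear_combination hα
    have h2 : α ^ ℓ = α ^ (ℓ - 1) * α := by
      rw [← pow_succ]
      congr 1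
      have := hℓ.two_le
      omega
    have h3 : α ^ (ℓ - 1) ≠ 0 := pow_ne_zero _ hα0
    have h4 : α ^ ℓ ≠ 0 := pow_ne_zero _ hα0
    have h5 : (α ^ (ℓ - 1))⁻¹ = α * (α ^ ℓ)⁻¹ := by
      rw [h2, mul_inv, mul_comm α, mul_assoc, inv_mul_cancel₀ hα0, mul_one]
    rw [inv_pow, inv_pow, h5, ← add_mul, ← h1, mul_inv_cancel₀ h4]
  have h5 : (1 : Qb) ∈ A.nonunits := by
    rw [e]
    exact h34d_nu_add A (h34d_nu_pow A hinv hℓ1)
      (h34d_nu_mul A hs (h34d_nu_pow A hinv hℓ.ne_zero))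
  exact h34d_one_not_nu A h5

/-- **Artin–Schreier** on `S`. -/
theorem h34d_hAS {φ : GQ} (hφ : A.IsFrobeniusAt φ ℓ) :
    ∀ s : ↥(h34d_S A), ∃ t : ↥(h34d_S A),
      ((ℓ : ℕ) : ↥(h34d_S A)) ∣ h34d_phi A φ hφ.mem_decompositionSubgroup t - t - s := by
  intro s
  have hdeg : (X ^ ℓ - X - C (s : Qb) : Qb[X]).degree ≠ 0 := by
    have h1 : (X ^ ℓ - X - C (s : Qb) : Qb[X]) = X ^ ℓ - (X + C (s : Qb)) := by ring
    have h2 : (X + C (s : Qb) : Qb[X]).degree < (X ^ ℓ : Qb[X]).degree := by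
      rw [degree_X_add_C, degree_X_pow]
      exact_mod_cast hℓ.one_lt
    rw [h1, degree_sub_eq_left_of_degree_lt h2, degree_X_pow]
    exact_mod_cast hℓ.ne_zero
  obtain ⟨α, hα⟩ := IsAlgClosed.exists_root (X ^ ℓ - X - C (s : Qb) : Qb[X]) hdeg
  rw [IsRoot.def, eval_sub, eval_sub, eval_pow, eval_X, eval_C] at hα
  have hαA : α ∈ A := h34d_as_root_mem hℓ A hA s.2.1 hα
  obtain ⟨t, htA, htfix, htα⟩ := Fermat.Agent.S36.h23u_residue hℓ A hA hαA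
  refine ⟨⟨t, htA, htfix⟩, ?_⟩
  rw [h34d_dvd_iff hℓ A hA]
  show φ t - t - (s : Qb) ∈ A.nonunits
  have h1 : φ t - t ^ ℓ ∈ A.nonunits := h34d_frob_cong hℓ A hA hφ htA
  have h2 : α ^ ℓ - t ^ ℓ ∈ A.nonunits := by
    have e := geom_sum₂_mul α t ℓ
    rw [← e]
    refine h34d_nu_mul A ?_ htα
    exact Subring.sum_mem A.toSubring (fun i _ =>
      A.mul_mem _ _ (A.pow_mem hαA _) (A.pow_mem htA _))
  have e : φ t - t - (s : Qb) = (φ t - t ^ ℓ) - (α ^ ℓ - t ^ ℓ) + (α - t) := by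
    linear_combination hα
  rw [e]
  exact h34d_nu_add A (h34d_nu_sub A h1 h2) htα

/-- the residue field of `A` has characteristic `ℓ`. -/
theorem h34d_charP : CharP (IsLocalRing.ResidueField A) ℓ := by
  haveI : Fact ℓ.Prime := ⟨hℓ⟩
  refine (CharP.charP_iff_prime_eq_zero hℓ).mpr ?_
  have hmem : ((ℓ : ℕ) : Qb) ∈ A := ValuationSubring.nonunits_subset hA
  have h1 : IsLocalRing.residue A ⟨((ℓ : ℕ) : Qb), hmem⟩ = 0 :=
    (h34d_residue_eq_zero_iff A hmem).2 hA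
  have h2 : (⟨((ℓ : ℕ) : Qb), hmem⟩ : A) = ((ℓ : ℕ) : A) := Subtype.ext (by push_cast; rfl)
  rw [h2, map_natCast] at h1
  exact h1

/-- **Fixed points of the Frobenius** on `S` modulo `ℓ`. -/
theorem h34d_hfix {φ : GQ} (hφ : A.IsFrobeniusAt φ ℓ) :
    ∀ s : ↥(h34d_S A),
      ((ℓ : ℕ) : ↥(h34d_S A)) ∣ h34d_phi A φ hφ.mem_decompositionSubgroup s - s →
      ∃ r ∈ h34d_R0 ℓ A, ((ℓ : ℕ) : ↥(h34d_S A)) ∣ s - r := by
  intro s hs
  haveI : Fact ℓ.Prime := ⟨hℓ⟩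
  haveI := h34d_charP hℓ A hA
  rw [h34d_dvd_iff hℓ A hA] at hs
  have hs' : φ (s : Qb) - (s : Qb) ∈ A.nonunits := hs
  have h1 : φ (s : Qb) - (s : Qb) ^ ℓ ∈ A.nonunits := h34d_frob_cong hℓ A hA hφ s.2.1
  have h2 : (s : Qb) ^ ℓ - (s : Qb) ∈ A.nonunits := by
    have e : (s : Qb) ^ ℓ - (s : Qb) = (φ (s : Qb) - (s : Qb)) - (φ (s : Qb) - (s : Qb) ^ ℓ) := by
      ring
    rw [e]
    exact h34d_nu_sub A hs' h1
  have h3 : (IsLocalRing.residue A ⟨(s : Qb), s.2.1⟩) ^ ℓ =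
      IsLocalRing.residue A ⟨(s : Qb), s.2.1⟩ := by
    rw [← map_pow, ← sub_eq_zero, ← map_sub, IsLocalRing.residue_eq_zero_iff,
      ← ValuationSubring.coe_mem_nonunits_iff]
    exact h2
  obtain ⟨n, hn⟩ := h34d_frob_fixed ℓ h3
  refine ⟨(n : ↥(h34d_S A)), natCast_mem _ n, ?_⟩
  rw [h34d_dvd_iff hℓ A hA]
  have h4 : IsLocalRing.residue A (⟨(s : Qb), s.2.1⟩ - (n : A)) = 0 := by
    rw [map_sub, map_natCast, hn, sub_self]
  rw [IsLocalRing.residue_eq_zero_iff, ← ValuationSubring.coe_mem_nonunits_iff] at h4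
  have e : (((s - (n : ↥(h34d_S A)) : ↥(h34d_S A))) : Qb) =
      (((⟨(s : Qb), s.2.1⟩ - (n : A) : A)) : Qb) := by
    push_cast
    rfl
  rw [e]
  exact h4

omit hA in
theorem h34d_ell_ne_zero : ((ℓ : ℕ) : ↥(h34d_S A)) ≠ 0 := by
  intro h
  have h1 := congrArg (fun x : ↥(h34d_S A) => (x : Qb)) h
  simp only [h34d_coe_natCast] at h1
  have h2 : ((ℓ : ℕ) : Qb) ≠ 0 := by exact_mod_cast hℓ.ne_zero
  exact h2 (by simpa using h1)

omit hA in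
theorem h34d_hreg : IsLeftRegular ((ℓ : ℕ) : ↥(h34d_S A)) :=
  (IsRegular.of_ne_zero (h34d_ell_ne_zero hℓ A)).left

/-- Artin–Schreier modulo `ℓ ^ m`. -/
theorem h34d_hAS_pow {φ : GQ} (hφ : A.IsFrobeniusAt φ ℓ) (m : ℕ) :
    ∀ s : ↥(h34d_S A), ∃ t : ↥(h34d_S A),
      ((ℓ : ℕ) : ↥(h34d_S A)) ^ m ∣ h34d_phi A φ hφ.mem_decompositionSubgroup t - t - s :=
  h47d_AS_pow _ _ (h34d_phi_natCast A φ hφ.mem_decompositionSubgroup ℓ)
    (h34d_hAS hℓ A hA hφ) m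

/-- fixed points modulo `ℓ ^ m`. -/
theorem h34d_hfix_pow {φ : GQ} (hφ : A.IsFrobeniusAt φ ℓ) (m : ℕ) :
    ∀ s : ↥(h34d_S A),
      ((ℓ : ℕ) : ↥(h34d_S A)) ^ m ∣ h34d_phi A φ hφ.mem_decompositionSubgroup s - s →
      ∃ r ∈ h34d_R0 ℓ A, ((ℓ : ℕ) : ↥(h34d_S A)) ^ m ∣ s - r :=
  h47d_fix_pow (h34d_R0 ℓ A) _ (natCast_mem _ ℓ) (h34d_hreg hℓ A) _
    (h34d_phi_natCast A φ hφ.mem_decompositionSubgroup ℓ)
    (h34d_phi_R0 A φ hφ.mem_decompositionSubgroup) (h34d_hfix hℓ A hA hφ) m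

/-- **Frobenius descent of lattices over the integers of the inertia field**: a `φ`-stable
submodule `N` of `S ^ n` containing `ℓ ^ m S ^ n` is spanned by its vectors with coordinates in
`ℤ_(ℓ)`. -/
theorem h34d_lattice {φ : GQ} (hφ : A.IsFrobeniusAt φ ℓ) (m n : ℕ)
    (N : Submodule ↥(h34d_S A) (Fin n → ↥(h34d_S A)))
    (hbig : ∀ v : Fin n → ↥(h34d_S A), (∀ i, ((ℓ : ℕ) : ↥(h34d_S A)) ^ m ∣ v i) → v ∈ N)
    (hN : ∀ v ∈ N, (fun i => h34d_phi A φ hφ.mem_decompositionSubgroup (v i)) ∈ N) :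
    N ≤ Submodule.span ↥(h34d_S A) {v | v ∈ N ∧ ∀ i, v i ∈ h34d_R0 ℓ A} :=
  h47d_lattice (h34d_R0 ℓ A) _ (natCast_mem _ ℓ) _ m (h34d_hdvr hℓ A hA)
    (h34d_phi_natCast A φ hφ.mem_decompositionSubgroup ℓ) (h34d_hAS_pow hℓ A hA hφ m)
    (h34d_hfix_pow hℓ A hA hφ m) n N hbig hN

/-- a Frobenius element exists. -/
theorem h34d_exists_frob : ∃ φ : GQ, A.IsFrobeniusAt φ ℓ :=
  Fermat.Agent.S54.exists_isFrobeniusAt_of_liesOverPrime hℓ A hA

end Arith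

end Fermat.Agent.P5
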