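import Fermat.Agent.P5.Skeleton

/-!
# Wave 5, pillar (P), block ALG-DESC (row TOP-DESC): frozen sub-interface (helper47)

`H98pDescent` (P5/Skeleton.lean) is split into three independent blocks:

* `H47dGlobBasis` (D-GLOB, global Galois descent): on a finite set with a continuous action of
  `G_ℚ` there is a `ℚ̄`-basis of the functions `M → ℚ̄` consisting of `G_ℚ`-equivariant functions.
* `H47dCoord` (D-COORD, Frobenius descent in coordinates): a set `N` of vectors of `ℚ̄ ^ n` which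
  is a module over the inertia ring `O^ur = A ∩ ℚ̄ ^ I` (`h47dOur A`), commensurable with
  `(O^ur) ^ n`, stable under the coefficientwise action of the decomposition group, is spanned
  over `O^ur` by its vectors with rational coordinates.
* `H47dAsm` (D-ASM): the assembly `H47dGlobBasis → H47dCoord → H98pDescent`.
-/

set_option autoImplicit false

noncomputable section

namespace Fermat.Agent.P5

/-- The inertia ring `O^ur = A ∩ ℚ̄ ^ I`: the elements of `A` fixed by the inertia group. -/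
def h47dOur (A : ValuationSubring H98pQb) : Subring H98pQb where
  carrier := {x | x ∈ A ∧ ∀ σ ∈ A.inertiaSubgroupIn ℚ, σ x = x}
  mul_mem' := fun {a b} ha hb =>
    ⟨A.mul_mem _ _ ha.1 hb.1, fun σ hσ => by rw [map_mul, ha.2 σ hσ, hb.2 σ hσ]⟩
  one_mem' := ⟨A.one_mem, fun σ _ => map_one σ⟩
  add_mem' := fun {a b} ha hb =>
    ⟨A.add_mem _ _ ha.1 hb.1, fun σ hσ => by rw [map_add, ha.2 σ hσ, hb.2 σ hσ]⟩
  zero_mem' := ⟨A.zero_mem, fun σ _ => map_zero σ⟩
  neg_mem' := fun {a} ha => ⟨A.neg_mem _ ha.1, fun σ hσ => by rw [map_neg, ha.2 σ hσ]⟩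

theorem h47d_mem_our {A : ValuationSubring H98pQb} {x : H98pQb} :
    x ∈ h47dOur A ↔ x ∈ A ∧ ∀ σ ∈ A.inertiaSubgroupIn ℚ, σ x = x :=
  Iff.rfl

/-- **D-GLOB.** A `ℚ̄`-basis of the functions on a finite continuous `G_ℚ`-set consisting of
equivariant functions. -/
def H47dGlobBasis : Prop :=
  ∀ (M : Type) [AddCommGroup M] [Finite M] (act : H98pGQ → M → M), H98pIsGalAct act →
    ∃ (n : ℕ) (e : Fin n → M → H98pQb), (∀ i σ x, e i (act σ x) = σ (e i x)) ∧
      LinearIndependent H98pQb e ∧ Submodule.span H98pQb (Set.range e) = ⊤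

/-- **D-COORD.** Frobenius descent of lattices over the inertia ring, in coordinates. -/
def H47dCoord : Prop :=
  ∀ (p : ℕ), p.Prime → ∀ A : ValuationSubring H98pQb, A.LiesOverPrime p →
    ∀ (n : ℕ) (N : Set (Fin n → H98pQb)) (a : ℕ),
      (∀ v w, v ∈ N → w ∈ N → v + w ∈ N) →
      (∀ c ∈ h47dOur A, ∀ v ∈ N, (fun i => c * v i) ∈ N) →
      (∀ v ∈ N, ∀ i, (p : H98pQb) ^ a * v i ∈ h47dOur A) →
      (∀ v : Fin n → H98pQb, (∀ i, ∃ w ∈ h47dOur A, v i = (p : H98pQb) ^ a * w) → v ∈ N) →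
      (∀ τ ∈ A.decompositionSubgroup ℚ, ∀ v ∈ N, (fun i => τ (v i)) ∈ N) →
      ∀ v ∈ N, ∃ (k : ℕ) (c : Fin k → H98pQb) (w : Fin k → Fin n → H98pQb),
        (∀ j, c j ∈ h47dOur A) ∧ (∀ j, w j ∈ N) ∧
        (∀ j i, w j i ∈ Set.range (algebraMap ℚ H98pQb)) ∧
        ∀ i, v i = ∑ j, c j * w j i

/-- **D-ASM.** The assembly. -/
def H47dAsm : Prop :=
  H47dGlobBasis → H47dCoord → H98pDescent

end Fermat.Agent.P5
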