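import Mathlib
import Fermat.Agent.P5.H34DescArith
import Fermat.Agent.P5.H47DescIface

/-!
# Wave 5, pillar (P), block ALG-DESC, row DESC-COORD (helper34): `H47dCoord`

The wiring of `h34d_lattice` (P5/H34DescArith.lean: Frobenius descent of lattices over the
integers `S = A ∩ ℚ̄^I` of the inertia field) into the frozen coordinate form `H47dCoord` of
P5/H47DescIface.lean.

For a set `N ⊆ ℚ̄ ^ n` as in `H47dCoord` (an `S`-module, `p ^ a N ⊆ S ^ n`, `p ^ a S ^ n ⊆ N`,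
stable under the decomposition group) put `N' := {u ∈ S ^ n | p ^ (-a) u ∈ N}`; it is an
`S`-submodule of `S ^ n` containing `p ^ (2 a) S ^ n` and stable under a Frobenius element.

* `h34e_coord : H47dCoord`.
-/

set_option autoImplicit false
set_option linter.style.haveILetI false

open scoped Pointwise

noncomputable section

namespace Fermat.Agent.P5

local notation "Qb" => AlgebraicClosure ℚ

local notation "GQ" => (AlgebraicClosure ℚ ≃ₐ[ℚ] AlgebraicClosure ℚ)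

/-- the two inertia rings agree. -/
theorem h34e_mem_iff {A : ValuationSubring Qb} {x : Qb} : x ∈ h47dOur A ↔ x ∈ h34d_S A :=
  Iff.rfl

/-- the `S`-submodule `N' = {u ∈ S ^ n | p ^ (-a) u ∈ N}`. -/
def h34eScaled (p : ℕ) (A : ValuationSubring Qb) (n : ℕ) (N : Set (Fin n → Qb)) (a : ℕ)
    (hadd : ∀ v w, v ∈ N → w ∈ N → v + w ∈ N)
    (hsmul : ∀ c ∈ h47dOur A, ∀ v ∈ N, (fun i => c * v i) ∈ N)
    (hlow : ∀ v : Fin n → Qb, (∀ i, ∃ w ∈ h47dOur A, v i = (p : Qb) ^ a * w) → v ∈ N) :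
    Submodule ↥(h34d_S A) (Fin n → ↥(h34d_S A)) where
  carrier := {u | (fun i => ((u i : ↥(h34d_S A)) : Qb) * ((p : Qb) ^ a)⁻¹) ∈ N}
  add_mem' := by
    intro u u' hu hu'
    have h := hadd _ _ hu hu'
    have e : (fun i => (((u + u') i : ↥(h34d_S A)) : Qb) * ((p : Qb) ^ a)⁻¹) =
        (fun i => ((u i : ↥(h34d_S A)) : Qb) * ((p : Qb) ^ a)⁻¹) +
          (fun i => ((u' i : ↥(h34d_S A)) : Qb) * ((p : Qb) ^ a)⁻¹) := by
      funext i
      rw [Pi.add_apply, Pi.add_apply, Subring.coe_add, add_mul]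
    show (fun i => (((u + u') i : ↥(h34d_S A)) : Qb) * ((p : Qb) ^ a)⁻¹) ∈ N
    rw [e]
    exact h
  zero_mem' := by
    show (fun i => (((0 : Fin n → ↥(h34d_S A)) i : ↥(h34d_S A)) : Qb) * ((p : Qb) ^ a)⁻¹) ∈ N
    refine hlow _ (fun i => ⟨0, (h47dOur A).zero_mem, ?_⟩)
    rw [Pi.zero_apply, Subring.coe_zero, zero_mul, mul_zero]
  smul_mem' := by
    intro c u hu
    have h := hsmul (c : Qb) c.2 _ hu
    have e : (fun i => (((c • u) i : ↥(h34d_S A)) : Qb) * ((p : Qb) ^ a)⁻¹) =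
        (fun i => (c : Qb) * (((u i : ↥(h34d_S A)) : Qb) * ((p : Qb) ^ a)⁻¹)) := by
      funext i
      rw [Pi.smul_apply, smul_eq_mul, Subring.coe_mul, mul_assoc]
    show (fun i => (((c • u) i : ↥(h34d_S A)) : Qb) * ((p : Qb) ^ a)⁻¹) ∈ N
    rw [e]
    exact h

/-- **D-COORD.** Frobenius descent of lattices over the inertia ring, in coordinates. -/
theorem h34e_coord : H47dCoord := by
  intro p hp A hA n N a hadd hsmul hup hlow hD v hv
  have hp0 : ((p : ℕ) : Qb) ≠ 0 := by exact_mod_cast hp.ne_zero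
  have hpa : ((p : ℕ) : Qb) ^ a ≠ 0 := pow_ne_zero _ hp0
  obtain ⟨φ, hφ⟩ := h34d_exists_frob hp A hA
  let N' := h34eScaled p A n N a hadd hsmul hlow
  have hmemN' : ∀ u : Fin n → ↥(h34d_S A),
      u ∈ N' ↔ (fun i => ((u i : ↥(h34d_S A)) : Qb) * ((p : Qb) ^ a)⁻¹) ∈ N := fun _ => Iff.rfl
  -- `N'` contains `p ^ (2 a) S ^ n`
  have hbig : ∀ u : Fin n → ↥(h34d_S A),
      (∀ i, ((p : ℕ) : ↥(h34d_S A)) ^ (a + a) ∣ u i) → u ∈ N' := by
    intro u hu
    rw [hmemN']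
    refine hlow _ (fun i => ?_)
    obtain ⟨t, ht⟩ := hu i
    refine ⟨(t : Qb), t.2, ?_⟩
    rw [ht, Subring.coe_mul, Subring.coe_pow, h34d_coe_natCast, pow_add]
    field_simp
  -- `N'` is stable under the Frobenius
  have hN : ∀ u ∈ N', (fun i => h34d_phi A φ hφ.mem_decompositionSubgroup (u i)) ∈ N' := by
    intro u hu
    rw [hmemN'] at hu ⊢
    have h := hD φ hφ.mem_decompositionSubgroup _ hu
    have e : (fun i => ((h34d_phi A φ hφ.mem_decompositionSubgroup (u i) : ↥(h34d_S A)) : Qb) *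
        ((p : Qb) ^ a)⁻¹) = (fun i => φ (((u i : ↥(h34d_S A)) : Qb) * ((p : Qb) ^ a)⁻¹)) := by
      funext i
      rw [h34d_phi_coe, map_mul, map_inv₀, map_pow, map_natCast]
    rw [e]
    exact h
  have hspan := h34d_lattice hp A hA hφ (a + a) n N' hbig hN
  -- the vector `u = p ^ a v`
  let u : Fin n → ↥(h34d_S A) := fun i => ⟨(p : Qb) ^ a * v i, hup v hv i⟩
  have hu : u ∈ N' := by
    rw [hmemN']
    have e : (fun i => ((u i : ↥(h34d_S A)) : Qb) * ((p : Qb) ^ a)⁻¹) = v := by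
      funext i
      show (p : Qb) ^ a * v i * ((p : Qb) ^ a)⁻¹ = v i
      field_simp
    rw [e]
    exact hv
  obtain ⟨k, f, g, hfg⟩ := Submodule.mem_span_set'.1 (hspan hu)
  refine ⟨k, fun j => ((f j : ↥(h34d_S A)) : Qb),
    fun j i => (((g j : Fin n → ↥(h34d_S A)) i : ↥(h34d_S A)) : Qb) * ((p : Qb) ^ a)⁻¹,
    fun j => (f j).2, fun j => (g j).2.1, ?_, ?_⟩
  · intro j i
    obtain ⟨r, -, hr⟩ := h34d_mem_R0.1 ((g j).2.2 i)
    refine ⟨r * ((p : ℚ) ^ a)⁻¹, ?_⟩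
    rw [map_mul, map_inv₀, map_pow, map_natCast, hr]
  · intro i
    have h1 := congrFun hfg i
    have h2 : ((u i : ↥(h34d_S A)) : Qb) = (p : Qb) ^ a * v i := rfl
    have h3 : ((u i : ↥(h34d_S A)) : Qb) =
        ∑ j, ((f j : ↥(h34d_S A)) : Qb) * (((g j : Fin n → ↥(h34d_S A)) i : ↥(h34d_S A)) : Qb) := by
      rw [← h1, Finset.sum_apply]
      rw [← Subring.coe_subtype, map_sum]
      refine Finset.sum_congr rfl (fun j _ => ?_)
      rw [Pi.smul_apply, smul_eq_mul, map_mul]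
    have h4 : v i = ((u i : ↥(h34d_S A)) : Qb) * ((p : Qb) ^ a)⁻¹ := by
      rw [h2]
      field_simp
    rw [h4, h3, Finset.sum_mul]
    refine Finset.sum_congr rfl (fun j _ => ?_)
    rw [mul_assoc]

end Fermat.Agent.P5
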