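import Fermat.Agent.P5.H41Div
import Fermat.Agent.P5.H37DiscIface
import Fermat.Agent.S36.H25RedIsoInst
import Fermat.Agent.Red.BC.Main
import Fermat.Agent.S37.Inertia

/-!
# P5 (wave 5, S19), block GEO-DISC: the disc calculus exists (helper36, second seat)

`h36a_discExists : H37DiscExists` — at a good level every finite place `v` lies in the residue
disc of an inertia-fixed centre `Q` with a disc calculus `H37DiscAt A Q t O`.

Construction (all inputs landed):

* `𝔫` = the centre of `v` on the finite chart `B = chart M A (jB M)` (helper41, `P5/H41Div`);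
* `t'` a local uniformiser at `𝔫`, a Gauss unit (`h67_ifaceLocalUnif_fin`, from smoothness);
* `u` inertia-fixed with `t' - u ∈ 𝔪_A B` (R-REDISO, `h25i_redIso_M_fin`): `u ∈ 𝔫` is again a Gauss
  unit generating `𝔫` locally modulo `𝔪_A B` (`h36a_exists_fixed_param`);
* `Q` = a zero of `u` centred at `𝔫` (`h26_local_unit`: otherwise `u` is a unit of `B_𝔫`)
  (`h36a_exists_zero`);
* `Q` is inertia-fixed: `σ Q` is in the disc of `Q` (`ifaceInertia_of`), `u (σ Q) = σ (u Q) = 0`,
  and `u` is injective on the disc (`h41d_t_inj`);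
* `O = h41dO A (jB M) Q` the local ring of `B` at `𝔫`; the fields of the calculus are helper41's
  `h41d_*`, and `O_unit` by hand.
-/

set_option autoImplicit false
set_option synthInstance.maxHeartbeats 400000
set_option linter.unusedSectionVars false
set_option linter.style.haveILetI false

open AlgebraicCurve ModularCurve WithZero IsLocalRing

noncomputable section

namespace Fermat.Agent.P5

open Fermat.Agent.S37 Fermat.Agent.Red Fermat.Agent.Red.Match
  Fermat.Agent.Red.GG Fermat.Agent.Red.GV Fermat.Agent.S36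

variable {M : ℕ} [NeZero M] {A : ValuationSubring Kbar}

/-- a finite place has a value of `j` in `A`. -/
theorem h36a_hQ {Q : Place Kbar (FF M)} (hQ : IsFinAt A Q) :
    ∃ a : A, ValueAt Q (jB M) (a : Kbar) := by
  obtain ⟨a, ha, h⟩ := hQ
  exact ⟨⟨a, ha⟩, h⟩

/-- a place centred at the centre of `v` has the same centre as `v`. -/
theorem h36a_same_of_centered (v : Place Kbar (FF M))
    (hv : ∃ a : A, ValueAt v (jB M) (a : Kbar)) (k : ChartPlace M (jB M))
    (hk : h26Centered (chart M A (jB M)) (chartVal M (jB M)) (h41dCentre A (jB M) v hv) k) :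
    h41dSame A (jB M) k.1 v := by
  have hk' : ∃ a : A, ValueAt k.1 (jB M) (a : Kbar) :=
    h71_value_mem_of_centered A (jB M) k _ (h41d_centre_isMaximal A _ v hv)
      (h41d_map_le_centre A _ v hv) hk
  refine ⟨hk', fun f hf => ?_⟩
  set b : chart M A (jB M) := ⟨f, hf⟩ with hb
  set α : A := chartEv A (jB M) k.1 hk' b with hα
  set β : A := chartEv A (jB M) v hv b with hβ
  have hαv : ValueAt k.1 f (α : Kbar) := chartEv_spec A (jB M) k.1 hk' b
  have hβv : ValueAt v f (β : Kbar) := chartEv_spec A (jB M) v hv b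
  refine ⟨α, β, α.2, β.2, hαv, hβv, ?_⟩
  have h1 : b - algebraMap A (chart M A (jB M)) α ∈ h41dCentre A (jB M) v hv := by
    apply hk
    show k.1.adicValuation (f - cst M (α : Kbar)) < 1
    rw [h71_adicValuation_lt_one_iff_valueAt]
    have h2 := valueAt_sub hαv (valueAt_cst k.1 (α : Kbar))
    rwa [sub_self] at h2
  have h3 : chartEv A (jB M) v hv (b - algebraMap A (chart M A (jB M)) α) ∈ maximalIdeal A := h1
  rw [map_sub, AlgHom.commutes] at h3
  have h4 : ((β - α : A) : Kbar) ∈ A.nonunits := ValuationSubring.coe_mem_nonunits_iff.2 h3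
  have h5 : (α : Kbar) - (β : Kbar) = -((β - α : A) : Kbar) := by
    push_cast
    ring
  rw [h5]
  exact GalI.neg_mem_nonunits A h4

/-- **existence of a zero in the disc**: a Gauss unit of the chart lying in the centre of `v`
vanishes at a place with the same centre. -/
theorem h36a_exists_zero {ℓ : ℕ} (hℓ : ℓ.Prime) (hM : ¬ ℓ ∣ M) (hA : A.LiesOverPrime ℓ)
    (v : Place Kbar (FF M)) (hv : ∃ a : A, ValueAt v (jB M) (a : Kbar))
    (u : chart M A (jB M)) (hun : u ∈ h41dCentre A (jB M) v hv)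
    (hu0 : (u : FF M) ≠ 0) (huV : (u : FF M)⁻¹ ∈ gaussV A M) :
    ∃ Q : Place Kbar (FF M), h41dSame A (jB M) Q v ∧ ValueAt Q (u : FF M) 0 := by
  have hC : IfaceChart M A (jB M) := ifaceChart_fin hℓ hM hA
  have hex : ∃ k : ChartPlace M (jB M),
      h26Centered (chart M A (jB M)) (chartVal M (jB M)) (h41dCentre A (jB M) v hv) k ∧
        chartVal M (jB M) k (u : FF M) ≠ 1 := by
    by_contra hno
    simp only [not_exists, not_and, ne_eq, not_not] at hno
    obtain ⟨s, hs, -, hsu⟩ := h26_local_unit hC (h41dCentre A (jB M) v hv) (u : FF M)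
      (hC.hBV _ u.2) huV hno
    apply hs
    have h1 : s = (⟨(s : FF M) * (u : FF M)⁻¹, hsu⟩ : chart M A (jB M)) * u := by
      apply Subtype.ext
      push_cast
      rw [mul_assoc, inv_mul_cancel₀ hu0, mul_one]
    rw [h1]
    exact Ideal.mul_mem_left _ _ hun
  obtain ⟨k, hk, hku⟩ := hex
  have hlt : k.1.adicValuation (u : FF M) < 1 := lt_of_le_of_ne (hC.hB _ u.2 k) hku
  exact ⟨k.1, h36a_same_of_centered v hv k hk,
    (h71_adicValuation_lt_one_iff_valueAt k.1 _).1 hlt⟩

/-! ### An inertia-fixed local parameter -/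

/-- the reduction map on the finite chart. -/
def h36aRed {ℓ : ℕ} (hℓ : ℓ.Prime) (hM : ¬ ℓ ∣ M) (hA : A.LiesOverPrime ℓ) :
    chart M A (jB M) →+* LaurentSeries (IsLocalRing.ResidueField A) :=
  (gaussR A M).comp ((Subring.inclusion (modelFin_le_gaussV A M hℓ hM hA)).comp
    (chartToModel M A (jB M)))

theorem h36aRed_apply {ℓ : ℕ} (hℓ : ℓ.Prime) (hM : ¬ ℓ ∣ M) (hA : A.LiesOverPrime ℓ)
    (b : chart M A (jB M)) :
    h36aRed hℓ hM hA b = gaussR A M ⟨(b : FF M), modelFin_le_gaussV A M hℓ hM hA b.2⟩ := rfl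

/-- the reduction kills `𝔪_A B`. -/
theorem h36aRed_map_eq_zero {ℓ : ℕ} (hℓ : ℓ.Prime) (hM : ¬ ℓ ∣ M) (hA : A.LiesOverPrime ℓ)
    {d : chart M A (jB M)}
    (hd : d ∈ (maximalIdeal A).map (algebraMap A (chart M A (jB M)))) :
    h36aRed hℓ hM hA d = 0 := by
  have hle : (maximalIdeal A).map (algebraMap A (chart M A (jB M))) ≤
      RingHom.ker (h36aRed hℓ hM hA) := by
    rw [Ideal.map_le_iff_le_comap]
    intro a ha
    rw [Ideal.mem_comap, RingHom.mem_ker, h36aRed_apply]
    exact gaussR_cst_of_nonunit A M hA (a : Kbar) (ValuationSubring.coe_mem_nonunits_iff.2 ha) _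
  exact hle hd

/-- a chart function is a Gauss unit iff its reduction is nonzero. -/
theorem h36aRed_ne_zero_iff {ℓ : ℕ} (hℓ : ℓ.Prime) (hM : ¬ ℓ ∣ M) (hA : A.LiesOverPrime ℓ)
    (b : chart M A (jB M)) :
    h36aRed hℓ hM hA b ≠ 0 ↔ (b : FF M) ≠ 0 ∧ (b : FF M)⁻¹ ∈ gaussV A M := by
  rw [h36aRed_apply, Ne, gaussR_eq_zero_iff A M hℓ hM hA, not_or, not_not]

/-- **an inertia-fixed local parameter** at the centre of a finite place of a good level:
`u` in the centre, a Gauss unit, inertia-fixed, generating the centre locally modulo `𝔪_A B`. -/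
theorem h36a_exists_fixed_param {ℓ : ℕ} (hℓ : ℓ.Prime) (hM : ¬ ℓ ∣ M) (haux : auxLevel ℓ ∣ M)
    (hA : A.LiesOverPrime ℓ) (v : Place Kbar (FF M))
    (hv : ∃ a : A, ValueAt v (jB M) (a : Kbar)) :
    ∃ u : chart M A (jB M), u ∈ h41dCentre A (jB M) v hv ∧ (u : FF M) ≠ 0 ∧
      (u : FF M)⁻¹ ∈ gaussV A M ∧
      (∀ σ ∈ A.inertiaSubgroupIn ℚ, gal M σ • (u : FF M) = (u : FF M)) ∧
      ∀ y ∈ h41dCentre A (jB M) v hv, ∃ s, s ∉ h41dCentre A (jB M) v hv ∧
        s * y ∈ Ideal.span {u} ⊔ (maximalIdeal A).map (algebraMap A (chart M A (jB M))) := by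
  have hLU : IfaceLocalUnif M A (jB M) :=
    h67_ifaceLocalUnif_fin M A Fermat.Agent.Red.SM.TID18.h18t_ifaceSmooth hℓ hM haux hA
  have hle := h41d_map_le_centre A (jB M) v hv
  obtain ⟨t', ht'n, ht'0, ht'V, hprin⟩ := hLU (h41dCentre A (jB M) v hv)
    (h41d_centre_isMaximal A _ v hv) hle
  obtain ⟨b₀, hb₀⟩ := (h25i_redIso_M_fin hℓ hM hA).1 t'
  have hb₀' : t' - h62rIncl A M (jB M) b₀ ∈
      (maximalIdeal A).map (algebraMap A (chart M A (jB M))) := hb₀
  set u : chart M A (jB M) := h62rIncl A M (jB M) b₀ with hu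
  have hun : u ∈ h41dCentre A (jB M) v hv := by
    have h1 := (h41dCentre A (jB M) v hv).sub_mem ht'n (hle hb₀')
    rwa [sub_sub_cancel] at h1
  have hred : h36aRed hℓ hM hA u ≠ 0 := by
    have h1 : h36aRed hℓ hM hA t' ≠ 0 := (h36aRed_ne_zero_iff hℓ hM hA t').2 ⟨ht'0, ht'V⟩
    have h2 : h36aRed hℓ hM hA (t' - u) = 0 := h36aRed_map_eq_zero hℓ hM hA hb₀'
    rw [map_sub, sub_eq_zero] at h2
    rwa [← h2]
  obtain ⟨hu0, huV⟩ := (h36aRed_ne_zero_iff hℓ hM hA u).1 hred
  refine ⟨u, hun, hu0, huV, fun σ hσ => (h62r_mem_chart.mp b₀.2).2 σ hσ, fun y hy => ?_⟩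
  obtain ⟨s, hs, hsy⟩ := hprin y hy
  refine ⟨s, hs, ?_⟩
  have hle' : Ideal.span {t'} ⊔ (maximalIdeal A).map (algebraMap A (chart M A (jB M))) ≤
      Ideal.span {u} ⊔ (maximalIdeal A).map (algebraMap A (chart M A (jB M))) := by
    refine sup_le ?_ le_sup_right
    rw [Ideal.span_le, Set.singleton_subset_iff]
    have h1 : t' = u + (t' - u) := by ring
    rw [h1]
    exact Ideal.add_mem _ (Ideal.mem_sup_left (Ideal.subset_span rfl))
      (Ideal.mem_sup_right hb₀')
  exact hle' hsy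

/-! ### The disc calculus -/

/-- `CongAt` is symmetric. -/
theorem h36a_congAt_symm {v w : Place Kbar (FF M)} {f : FF M} (h : CongAt A v w f) :
    CongAt A w v f := by
  obtain ⟨a, b, ha, hb, hv, hw, hab⟩ := h
  refine ⟨b, a, hb, ha, hw, hv, ?_⟩
  have e : b - a = -(a - b) := by ring
  rw [e]
  exact GalI.neg_mem_nonunits A hab

/-- **GEO-DISC**: the disc calculus exists at every finite place of a good level. -/
theorem h36a_discExists : H37DiscExists := by
  intro ℓ hℓ M _ hM haux A hA v hvfin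
  have hv := h36a_hQ hvfin
  obtain ⟨u, hun, hu0, huV, hufix, hprin⟩ := h36a_exists_fixed_param hℓ hM haux hA v hv
  obtain ⟨Q, hQv, hQu⟩ := h36a_exists_zero hℓ hM hA v hv u hun hu0 huV
  have hQ : ∃ a : A, ValueAt Q (jB M) (a : Kbar) := hQv.1
  have hQfin : IsFinAt A Q := by
    obtain ⟨a, ha⟩ := hQ
    exact ⟨a, a.2, ha⟩
  have hcen : h41dCentre A (jB M) Q hQ = h41dCentre A (jB M) v hv := h41d_centre_eq hv hQv
  have hunQ : u ∈ h41dCentre A (jB M) Q hQ := by rw [hcen]; exact hun
  have hprinQ : ∀ y ∈ h41dCentre A (jB M) Q hQ, ∃ s, s ∉ h41dCentre A (jB M) Q hQ ∧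
      s * y ∈ Ideal.span {u} ⊔ (maximalIdeal A).map (algebraMap A (chart M A (jB M))) := by
    rw [hcen]
    exact hprin
  have hfin : IfaceFinite M A (jB M) := ModelO.h85_modelFin_fg hℓ hM hA
  have hsame : ∀ P, SameRed A P Q → h41dSame A (jB M) P Q :=
    fun P hP => h41d_same_of_sameRed_fin hQfin hP
  have hrefl : SameRed A Q Q := by
    left
    refine ⟨hQfin, hQfin, fun f hf => ?_⟩
    have hα := chartEv_spec A (jB M) Q hQ ⟨f, hf⟩
    refine ⟨_, _, (chartEv A (jB M) Q hQ ⟨f, hf⟩).2, (chartEv A (jB M) Q hQ ⟨f, hf⟩).2,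
      hα, hα, ?_⟩
    rw [sub_self]
    exact GalI.zero_mem_nonunits A
  have htr := GGC97_transcendental_jB M
  refine ⟨Q, (u : FF M), h41dO A (jB M) Q hQ, ?_, ?_⟩
  · left
    exact ⟨hvfin, hQfin, fun f hf => h36a_congAt_symm (hQv.2 f hf)⟩
  · refine
      { Q_fixed := fun σ hσ => ?_
        t_fixed := hufix
        Q_fin := hQfin
        t_zero := hQu
        t_small := fun P hP => h41d_t_small (hsame P hP) u.2 hQu
        t_inj := fun P P' a hP hP' hta hta' =>
          h41d_t_inj hfin htr hQ u hunQ hprinQ (hsame P hP) (hsame P' hP') hta hta'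
        refl := hrefl
        O_cst := fun a ha => h41d_O_cst A _ Q hQ a ha
        O_t := h41d_chart_le_O A _ Q hQ u.2
        O_model := fun b hb => h41d_chart_le_O A _ Q hQ hb
        O_unit := fun f hf a hfa ha0 hainv => ?_
        O_val := fun f hf P hP => h41d_O_val hQ (hsame P hP) hf
        O_div := fun f hf P hP a a' hfa hta =>
          h41d_O_div hfin hQ u hunQ hprinQ (hsame P hP) hf hfa hta }
    · -- `Q` is inertia-fixed
      have h1 : SameRed A (gal M σ • Q) Q :=
        ifaceInertia_of M (BC.ifaceBaseChange M) ℓ hℓ hM A hA σ hσ Q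
      have h2 : ValueAt (gal M σ • Q) (u : FF M) 0 := by
        have h3 := GalI.valueAt_gal σ hQu
        rwa [hufix σ hσ, map_zero] at h3
      exact h41d_t_inj hfin htr hQ u hunQ hprinQ (hsame _ h1) (hsame Q hrefl) h2 hQu
    · -- `O_unit`
      obtain ⟨b, s, hs, hfs⟩ := hf
      have hf0 : f ≠ 0 := by
        rintro rfl
        exact ha0 (valueAt_unique hfa (valueAt_zero Q))
      have hsv := chartEv_spec A (jB M) Q hQ s
      have hbv := chartEv_spec A (jB M) Q hQ b
      have hprod : ValueAt Q ((b : FF M)) (a * ((chartEv A (jB M) Q hQ s : A) : Kbar)) := by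
        rw [← hfs]
        exact valueAt_mul hfa hsv
      have hβ : ((chartEv A (jB M) Q hQ b : A) : Kbar)
          = a * ((chartEv A (jB M) Q hQ s : A) : Kbar) := valueAt_unique hbv hprod
      have hb : b ∉ h41dCentre A (jB M) Q hQ := by
        intro hbn
        apply hs
        rw [h41d_mem_centre] at hbn ⊢
        rw [hβ] at hbn
        have h4 : ((chartEv A (jB M) Q hQ s : A) : Kbar)
            = a⁻¹ * (a * ((chartEv A (jB M) Q hQ s : A) : Kbar)) := by
          rw [← mul_assoc, inv_mul_cancel₀ ha0, one_mul]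
        rw [h4]
        exact GalI.mul_mem_nonunits_right A hainv hbn
      refine ⟨s, b, hb, ?_⟩
      rw [← hfs, ← mul_assoc, inv_mul_cancel₀ hf0, one_mul]

end Fermat.Agent.P5
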