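import Fermat.Agent.P5.H13SFIface
import Fermat.Agent.Red.GV.BarGalois

/-!
# P5 (wave 5, S19), block GEO-RR, leaf S1 = `H13sField` (helper36)

The function field of the special fibre `h13sFt A M` (the subfield of `k((q))` generated by the
reductions of the Gauss-integral functions) is the SET of these reductions: the reductions form
a subfield containing the constants, because the Gauss ring is a valuation ring whose maximal
ideal is the kernel of the reduction.

* `h36v_range_const`, `h36v_range_inv` : constants and inverses of reductions are reductions;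
* `h36v_mem_range` : every element of `h13sF A M` is a reduction;
* `h36v_field : H13sField`.
-/

set_option autoImplicit false
set_option linter.style.haveILetI false
set_option linter.unusedSectionVars false

open AlgebraicCurve ModularCurve

noncomputable section

namespace Fermat.Agent.P5

open Fermat.Agent.S37 Fermat.Agent.Red.GV

variable {ℓ : ℕ} {M : ℕ} [NeZero M] {A : ValuationSubring Kbar}

/-- constants are reductions. -/
theorem h36v_range_const (A : ValuationSubring Kbar) (M : ℕ) (c : h13sK A) :
    algebraMap (h13sK A) (LaurentSeries (h13sK A)) c ∈ Set.range (h13sR A M) := by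
  obtain ⟨a, ha⟩ := IsLocalRing.residue_surjective (R := A) c
  refine ⟨⟨cst M (a : Kbar), algebraMap_mem_gaussSubring A (IsLocalRing.residue A) M a⟩, ?_⟩
  have h := gaussRed_algebraMap A (IsLocalRing.residue A) M a
  have hc : algebraMap (h13sK A) (LaurentSeries (h13sK A)) c
      = (HahnSeries.C : h13sK A →+* LaurentSeries (h13sK A)) c := by
    rw [ModularCurve.algebraMap_laurentSeries_eq_single]
    rfl
  rw [hc]
  exact h.trans (congrArg _ ha)

/-- inverses of reductions are reductions. -/
theorem h36v_range_inv (hℓ : ℓ.Prime) (hM : ¬ ℓ ∣ M) (hA : A.LiesOverPrime ℓ)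
    {y : LaurentSeries (h13sK A)} (hy : y ∈ Set.range (h13sR A M)) :
    y⁻¹ ∈ Set.range (h13sR A M) := by
  obtain ⟨x, rfl⟩ := hy
  by_cases h0 : h13sR A M x = 0
  · rw [h0, inv_zero]
    exact ⟨0, map_zero _⟩
  · have : Fact ℓ.Prime := ⟨hℓ⟩
    have hinv : (x : FF M)⁻¹ ∈ gaussV A M :=
      inv_mem_gaussSubring_of_gaussRed_ne_zero A (IsLocalRing.residue A) M ℓ
        (isResidueMap_residue A ℓ hA) hM x h0
    refine ⟨⟨(x : FF M)⁻¹, hinv⟩, ?_⟩
    have hx0 : (x : FF M) ≠ 0 := by
      intro h
      apply h0
      have : x = 0 := Subtype.ext h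
      rw [this, map_zero]
    have h1 : h13sR A M ⟨(x : FF M)⁻¹, hinv⟩ * h13sR A M x = 1 := by
      rw [← map_mul]
      have : (⟨(x : FF M)⁻¹, hinv⟩ : gaussV A M) * x = 1 :=
        Subtype.ext (inv_mul_cancel₀ hx0)
      rw [this, map_one]
    exact eq_inv_of_mul_eq_one_left h1

/-- every element of the special fibre field is a reduction. -/
theorem h36v_mem_range (hℓ : ℓ.Prime) (hM : ¬ ℓ ∣ M) (hA : A.LiesOverPrime ℓ)
    {y : LaurentSeries (h13sK A)} (hy : y ∈ h13sF A M) : y ∈ Set.range (h13sR A M) := by
  unfold h13sF at hy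
  induction hy using IntermediateField.adjoin_induction with
  | mem x hx => exact hx
  | algebraMap c => exact h36v_range_const A M c
  | add x y _ _ hx hy =>
    obtain ⟨a, rfl⟩ := hx
    obtain ⟨b, rfl⟩ := hy
    exact ⟨a + b, map_add _ _ _⟩
  | inv x _ hx => exact h36v_range_inv hℓ hM hA hx
  | mul x y _ _ hx hy =>
    obtain ⟨a, rfl⟩ := hx
    obtain ⟨b, rfl⟩ := hy
    exact ⟨a * b, map_mul _ _ _⟩

/-- **SF-FIELD** (leaf S1): the special fibre field is the set of reductions. -/
theorem h36v_field : H13sField := by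
  intro ℓ hℓ M _ hM _ A hA y
  obtain ⟨x, hx⟩ := h36v_mem_range hℓ hM hA y.2
  exact ⟨x, Subtype.ext hx⟩

end Fermat.Agent.P5
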