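import Mathlib

/-!
# P5 (wave 5, S19), block GEO-DISC (helper37): the diagonal lemma

`A₀` a commutative ring, `B₀` a finitely generated `A₀`-algebra, `𝔰` a maximal ideal of `B₀`
with rational residue field (`A₀ → B₀ ⧸ 𝔰` surjective), generated locally by `ℓ ∈ A₀` and
`u ∈ 𝔰`.  In `T = B₀ ⊗[A₀] B₀` let `d b = b ⊗ 1 - 1 ⊗ b` and `𝔐 = 𝔰 ⊗ 1 + 1 ⊗ 𝔰`.

* `h37d_diag` : there is `r ∈ 1 + 𝔐` such that `r * d b ∈ (d u)` for ALL `b`
  (the diagonal ideal is generated by `d u` near the diagonal point: `Ω` is generated by `du`).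
  Proof: `d` is a derivation, the diagonal ideal `I` is generated by `d` of the algebra
  generators, `I ≤ (d u) + 𝔐 I`, Nakayama.
* `h37d_eval` : for two `A₀`-algebra maps `f, g : B₀ → R`:
  `Φ r * (f b - g b) = (f u - g u) * Φ c` with `Φ = productMap f g`, and `Φ r ∈ 1 + J` as soon as
  `f 𝔰, g 𝔰 ⊆ J`.  With `f` the inclusion into the function field and `g = cst ∘ ev_P` this is
  the DIVISION `b - b(P) = (u - u(P)) h` in the local ring of the residue disc.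

Mathlib only.
-/

set_option autoImplicit false

open TensorProduct

namespace Fermat.Agent.P5

variable {A₀ B₀ : Type*} [CommRing A₀] [CommRing B₀] [Algebra A₀ B₀]

/-- `d b = b ⊗ 1 - 1 ⊗ b`. -/
def h37dD (A₀ : Type*) {B₀ : Type*} [CommRing A₀] [CommRing B₀] [Algebra A₀ B₀] (b : B₀) :
    B₀ ⊗[A₀] B₀ :=
  b ⊗ₜ[A₀] (1 : B₀) - (1 : B₀) ⊗ₜ[A₀] b

/-- `𝔐 = 𝔰 ⊗ 1 + 1 ⊗ 𝔰`. -/
def h37dM (A₀ : Type*) {B₀ : Type*} [CommRing A₀] [CommRing B₀] [Algebra A₀ B₀]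
    (𝔰 : Ideal B₀) : Ideal (B₀ ⊗[A₀] B₀) :=
  Ideal.span ((fun b : B₀ => b ⊗ₜ[A₀] (1 : B₀)) '' (𝔰 : Set B₀)) ⊔
    Ideal.span ((fun b : B₀ => (1 : B₀) ⊗ₜ[A₀] b) '' (𝔰 : Set B₀))

theorem h37d_left_mem {𝔰 : Ideal B₀} {z : B₀} (hz : z ∈ 𝔰) :
    z ⊗ₜ[A₀] (1 : B₀) ∈ h37dM A₀ 𝔰 :=
  Ideal.mem_sup_left (Ideal.subset_span ⟨z, hz, rfl⟩)

theorem h37d_right_mem {𝔰 : Ideal B₀} {z : B₀} (hz : z ∈ 𝔰) :
    (1 : B₀) ⊗ₜ[A₀] z ∈ h37dM A₀ 𝔰 :=
  Ideal.mem_sup_right (Ideal.subset_span ⟨z, hz, rfl⟩)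

theorem h37dD_add (x y : B₀) : h37dD A₀ (x + y) = h37dD A₀ x + h37dD A₀ y := by
  simp only [h37dD, TensorProduct.add_tmul, TensorProduct.tmul_add]
  ring

theorem h37dD_sub (x y : B₀) : h37dD A₀ (x - y) = h37dD A₀ x - h37dD A₀ y := by
  simp only [h37dD, TensorProduct.sub_tmul, TensorProduct.tmul_sub]
  ring

theorem h37dD_algebraMap (a : A₀) : h37dD A₀ (algebraMap A₀ B₀ a) = 0 := by
  simp only [h37dD, Algebra.algebraMap_eq_smul_one]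
  rw [TensorProduct.smul_tmul, sub_self]

theorem h37dD_mul (x y : B₀) :
    h37dD A₀ (x * y) = x ⊗ₜ[A₀] (1 : B₀) * h37dD A₀ y + (1 : B₀) ⊗ₜ[A₀] y * h37dD A₀ x := by
  simp only [h37dD, mul_sub, Algebra.TensorProduct.tmul_mul_tmul, mul_one, one_mul]
  rw [mul_comm y x]
  ring

theorem h37dD_one : h37dD A₀ (1 : B₀) = 0 := by
  simp [h37dD]

/-- the diagonal ideal is generated by `d` of algebra generators. -/
theorem h37d_mem_span_of_adjoin (G : Set B₀) (hG : Algebra.adjoin A₀ G = ⊤) (b : B₀) :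
    h37dD A₀ b ∈ Ideal.span ((h37dD A₀) '' G) := by
  have hb : b ∈ Algebra.adjoin A₀ G := by rw [hG]; exact Algebra.mem_top
  induction hb using Algebra.adjoin_induction with
  | mem x hx => exact Ideal.subset_span ⟨x, hx, rfl⟩
  | algebraMap a => rw [h37dD_algebraMap]; exact Ideal.zero_mem _
  | add x y _ _ hx hy => rw [h37dD_add]; exact Ideal.add_mem _ hx hy
  | mul x y _ _ hx hy =>
    rw [h37dD_mul]
    exact Ideal.add_mem _ (Ideal.mul_mem_left _ _ hy) (Ideal.mul_mem_left _ _ hx)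

/-- **the diagonal lemma.** -/
theorem h37d_diag (hfg : Algebra.FiniteType A₀ B₀) (𝔰 : Ideal B₀) (h𝔰 : 𝔰.IsMaximal)
    (hres : ∀ b : B₀, ∃ a : A₀, b - algebraMap A₀ B₀ a ∈ 𝔰)
    (ℓ : A₀) (u : B₀)
    (hgen : ∀ z ∈ 𝔰, ∃ s, s ∉ 𝔰 ∧ s * z ∈ Ideal.span {algebraMap A₀ B₀ ℓ, u})
    (hℓ : algebraMap A₀ B₀ ℓ ∈ 𝔰) (hu : u ∈ 𝔰) :
    ∃ r : B₀ ⊗[A₀] B₀, r - 1 ∈ h37dM A₀ 𝔰 ∧
      ∀ b : B₀, ∃ c : B₀ ⊗[A₀] B₀, r * h37dD A₀ b = h37dD A₀ u * c := by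
  classical
  obtain ⟨G, hG⟩ := hfg.out
  set I : Ideal (B₀ ⊗[A₀] B₀) := Ideal.span ((h37dD A₀) '' (G : Set B₀)) with hI
  have hdI : ∀ b : B₀, h37dD A₀ b ∈ I := h37d_mem_span_of_adjoin (G : Set B₀) hG
  set 𝔐 := h37dM A₀ 𝔰 with h𝔐
  set δ := h37dD A₀ u with hδ
  -- `d b ∈ (δ) + 𝔐 I`
  have hstep : ∀ b : B₀, h37dD A₀ b ∈ Ideal.span {δ} ⊔ 𝔐 * I := by
    intro b
    obtain ⟨a, ha⟩ := hres b
    set z := b - algebraMap A₀ B₀ a with hz
    have hdz : h37dD A₀ z = h37dD A₀ b := by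
      rw [hz, h37dD_sub, h37dD_algebraMap, sub_zero]
    rw [← hdz]
    obtain ⟨s, hs, hsz⟩ := hgen z ha
    obtain ⟨c₁, c₂, hc⟩ := Ideal.mem_span_pair.1 hsz
    -- `(s ⊗ 1) d z ∈ (δ) + 𝔐 I`
    have h1 : s ⊗ₜ[A₀] (1 : B₀) * h37dD A₀ z ∈ Ideal.span {δ} ⊔ 𝔐 * I := by
      have e : s ⊗ₜ[A₀] (1 : B₀) * h37dD A₀ z =
          h37dD A₀ (c₁ * algebraMap A₀ B₀ ℓ + c₂ * u) - (1 : B₀) ⊗ₜ[A₀] z * h37dD A₀ s := by
        rw [hc, h37dD_mul s z]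
        ring
      rw [e, h37dD_add, h37dD_mul c₁, h37dD_mul c₂, h37dD_algebraMap, mul_zero, zero_add]
      refine Ideal.sub_mem _ (Ideal.add_mem _ ?_ (Ideal.add_mem _ ?_ ?_)) ?_
      · exact Ideal.mem_sup_right
          (Ideal.mul_mem_mul (h37d_right_mem hℓ) (hdI c₁))
      · exact Ideal.mem_sup_left (Ideal.mul_mem_left _ _ (Ideal.subset_span rfl))
      · exact Ideal.mem_sup_right (Ideal.mul_mem_mul (h37d_right_mem hu) (hdI c₂))
      · exact Ideal.mem_sup_right (Ideal.mul_mem_mul (h37d_right_mem ha) (hdI s))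
    -- invert `s` modulo `𝔰`
    obtain ⟨s', m, hm, hsm⟩ := Ideal.IsMaximal.exists_inv h𝔰 hs
    have e2 : h37dD A₀ z = s' ⊗ₜ[A₀] (1 : B₀) * (s ⊗ₜ[A₀] (1 : B₀) * h37dD A₀ z)
        + m ⊗ₜ[A₀] (1 : B₀) * h37dD A₀ z := by
      rw [← mul_assoc, ← add_mul, Algebra.TensorProduct.tmul_mul_tmul, mul_one,
        ← TensorProduct.add_tmul, hsm]
      rw [← Algebra.TensorProduct.one_def, one_mul]
    rw [e2]
    refine Ideal.add_mem _ (Ideal.mul_mem_left _ _ h1) ?_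
    exact Ideal.mem_sup_right (Ideal.mul_mem_mul (h37d_left_mem hm) (hdI z))
  -- Nakayama in the quotient by `(δ)`
  let π := Ideal.Quotient.mk (Ideal.span {δ})
  have hIle : I ≤ Ideal.span {δ} ⊔ 𝔐 * I := by
    rw [hI, Ideal.span_le]
    rintro _ ⟨g, -, rfl⟩
    exact hstep g
  have hN : I.map π ≤ 𝔐.map π • I.map π := by
    have h2 := Ideal.map_mono (f := π) hIle
    rw [Ideal.map_sup, Ideal.map_mul] at h2
    have h3 : (Ideal.span {δ}).map π = ⊥ := by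
      rw [Ideal.map_span, Set.image_singleton]
      have : π δ = 0 := Ideal.Quotient.eq_zero_iff_mem.2 (Ideal.subset_span rfl)
      rw [this]
      simp
    rw [h3, bot_sup_eq] at h2
    exact h2
  have hfgN : (I.map π).FG := by
    rw [hI, Ideal.map_span]
    exact ⟨(G.image (h37dD A₀)).image π, by simp [Finset.coe_image]⟩
  obtain ⟨r', hr'1, hr'2⟩ :=
    Submodule.exists_sub_one_mem_and_smul_eq_zero_of_fg_of_le_smul (𝔐.map π) (I.map π) hfgN hN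
  obtain ⟨r₀, rfl⟩ := Ideal.Quotient.mk_surjective r'
  -- correct `r₀` by a multiple of `δ`
  have h4 : π (r₀ - 1) ∈ 𝔐.map π := by
    rw [map_sub, map_one]; exact hr'1
  obtain ⟨m, hm, hmr⟩ := (Ideal.mem_map_iff_of_surjective π Ideal.Quotient.mk_surjective).1 h4
  have h5 : r₀ - 1 - m ∈ Ideal.span {δ} := by
    rw [← Ideal.Quotient.eq_zero_iff_mem, map_sub, hmr, sub_self]
  refine ⟨1 + m, by rw [add_sub_cancel_left]; exact hm, fun b => ?_⟩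
  have h6 : π ((1 + m) * h37dD A₀ b) = 0 := by
    have h7 : π (1 + m) = π r₀ := by
      have := Ideal.Quotient.eq_zero_iff_mem.2 h5
      rw [map_sub, map_sub, map_one] at this
      rw [map_add, map_one]
      have h8 : π r₀ = 1 + π m := by
        have := sub_eq_zero.1 this
        rw [sub_eq_iff_eq_add] at this
        rw [this, add_comm]
      rw [h8]
    rw [map_mul, h7]
    have h9 := hr'2 (π (h37dD A₀ b)) (Ideal.mem_map_of_mem π (hdI b))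
    rw [smul_eq_mul] at h9
    exact h9
  have h10 := Ideal.Quotient.eq_zero_iff_mem.1 h6
  obtain ⟨c, hc⟩ := Ideal.mem_span_singleton'.1 h10
  exact ⟨c, by rw [← hc, mul_comm]⟩

/-- **the division at two points.** -/
theorem h37d_eval {R : Type*} [CommRing R] [Algebra A₀ R] (f g : B₀ →ₐ[A₀] R)
    (𝔰 : Ideal B₀) (J : Ideal R) (hf : ∀ z ∈ 𝔰, f z ∈ J) (hg : ∀ z ∈ 𝔰, g z ∈ J)
    (r : B₀ ⊗[A₀] B₀) (hr : r - 1 ∈ h37dM A₀ 𝔰) :
    Algebra.TensorProduct.productMap f g r - 1 ∈ J := by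
  have h1 : (h37dM A₀ 𝔰).map (Algebra.TensorProduct.productMap f g).toRingHom ≤ J := by
    rw [h37dM, Ideal.map_sup, Ideal.map_span, Ideal.map_span]
    refine sup_le ?_ ?_
    · rw [Ideal.span_le]
      rintro _ ⟨_, ⟨z, hz, rfl⟩, rfl⟩
      show Algebra.TensorProduct.productMap f g (z ⊗ₜ[A₀] (1 : B₀)) ∈ J
      rw [Algebra.TensorProduct.productMap_apply_tmul, map_one, mul_one]
      exact hf z hz
    · rw [Ideal.span_le]
      rintro _ ⟨_, ⟨z, hz, rfl⟩, rfl⟩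
      show Algebra.TensorProduct.productMap f g ((1 : B₀) ⊗ₜ[A₀] z) ∈ J
      rw [Algebra.TensorProduct.productMap_apply_tmul, map_one, one_mul]
      exact hg z hz
  have h2 := h1 (Ideal.mem_map_of_mem _ hr)
  have h3 : (Algebra.TensorProduct.productMap f g).toRingHom (r - 1) =
      Algebra.TensorProduct.productMap f g r - 1 := by
    show Algebra.TensorProduct.productMap f g (r - 1) = _
    rw [map_sub, map_one]
  rwa [h3] at h2

theorem h37d_productMap_D {R : Type*} [CommRing R] [Algebra A₀ R] (f g : B₀ →ₐ[A₀] R)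
    (b : B₀) : Algebra.TensorProduct.productMap f g (h37dD A₀ b) = f b - g b := by
  rw [h37dD, map_sub, Algebra.TensorProduct.productMap_apply_tmul,
    Algebra.TensorProduct.productMap_apply_tmul, map_one, map_one, mul_one, one_mul]

/-- **DIVISION**: `ρ (f b - g b) = (f u - g u) h` with `ρ ∈ 1 + J` independent of `b`. -/
theorem h37d_division (hfg : Algebra.FiniteType A₀ B₀) (𝔰 : Ideal B₀) (h𝔰 : 𝔰.IsMaximal)
    (hres : ∀ b : B₀, ∃ a : A₀, b - algebraMap A₀ B₀ a ∈ 𝔰)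
    (ℓ : A₀) (u : B₀)
    (hgen : ∀ z ∈ 𝔰, ∃ s, s ∉ 𝔰 ∧ s * z ∈ Ideal.span {algebraMap A₀ B₀ ℓ, u})
    (hℓ : algebraMap A₀ B₀ ℓ ∈ 𝔰) (hu : u ∈ 𝔰)
    {R : Type*} [CommRing R] [Algebra A₀ R] (f g : B₀ →ₐ[A₀] R)
    (J : Ideal R) (hf : ∀ z ∈ 𝔰, f z ∈ J) (hg : ∀ z ∈ 𝔰, g z ∈ J) :
    ∃ ρ : R, ρ - 1 ∈ J ∧ ∀ b : B₀, ∃ h : R, ρ * (f b - g b) = (f u - g u) * h := by
  obtain ⟨r, hr, hdiv⟩ := h37d_diag hfg 𝔰 h𝔰 hres ℓ u hgen hℓ hu
  refine ⟨Algebra.TensorProduct.productMap f g r, h37d_eval f g 𝔰 J hf hg r hr, fun b => ?_⟩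
  obtain ⟨c, hc⟩ := hdiv b
  refine ⟨Algebra.TensorProduct.productMap f g c, ?_⟩
  rw [← h37d_productMap_D f g b, ← h37d_productMap_D f g u, ← map_mul, ← map_mul, hc]

end Fermat.Agent.P5
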