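import Fermat.Agent.P5.H37DiscIface
import Fermat.Agent.Red.GV.Bar

/-!
# P5 (wave 5, S19), block GEO-DISC: the bridge DISC ↔ RR, frozen interface (helper37)

The rings `O` of the disc calculus are the local rings of the normal model at the closed point
of the centre.  The consumers on the Riemann–Roch side (`H96Link.b_mem`, `bs_mem`, `der_unit`)
produce GAUSS-INTEGRAL functions without poles on the residue disc; to put them in `O` one needs
the characterisation

* `H37DiscChar A Q O` : `O ⊆ gaussV A M` (`O_gauss`), and every Gauss-integral function which is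
  regular at all places of the residue disc of `Q` lies in `O` (`O_char`).
  [Proof for `O = (modelFin)_𝔫`: landed `h26_stepC` + `H26Chart.hQEP`, as in `h26_local_unit`.]
* `H37DiscExistsC` : **GEO-DISC with the bridge**: `H37DiscExists` with `H37DiscChar` in addition.

Every declaration is a definition; nothing is assumed.
-/

set_option autoImplicit false

open AlgebraicCurve ModularCurve

noncomputable section

namespace Fermat.Agent.P5

open Fermat.Agent.S37 Fermat.Agent.Red.GV

/-- the characterisation of the ring `O` of a disc inside the Gauss ring. -/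
structure H37DiscChar {M : ℕ} [NeZero M] (A : ValuationSubring Kbar) (Q : Place Kbar (FF M))
    (O : Subring (FF M)) : Prop where
  O_gauss : ∀ f ∈ O, f ∈ gaussV A M
  O_char : ∀ f ∈ gaussV A M, (∀ P, SameRed A P Q → f ∈ P.toValuationSubring) → f ∈ O

/-- **GEO-DISC with the bridge to RR.** -/
def H37DiscExistsC : Prop :=
  ∀ (ℓ : ℕ), ℓ.Prime → ∀ (M : ℕ) [NeZero M], ¬ ℓ ∣ M → auxLevel ℓ ∣ M →
    ∀ A : ValuationSubring Kbar, A.LiesOverPrime ℓ →
    ∀ v : Place Kbar (FF M), IsFinAt A v →
      ∃ (Q : Place Kbar (FF M)) (t : FF M) (O : Subring (FF M)),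
        SameRed A v Q ∧ H37DiscAt A Q t O ∧ H37DiscChar A Q O

theorem h37k_exists_of_existsC (h : H37DiscExistsC) : H37DiscExists := by
  intro ℓ hℓ M _ hM haux A hA v hv
  obtain ⟨Q, t, O, h1, h2, -⟩ := h ℓ hℓ M hM haux A hA v hv
  exact ⟨Q, t, O, h1, h2⟩

/-- the `O` of a disc with the bridge is DETERMINED by the centre: two rings with the disc
calculus and the bridge at the same centre are equal. -/
theorem h37k_O_unique {M : ℕ} [NeZero M] {A : ValuationSubring Kbar} {Q : Place Kbar (FF M)}
    {t t' : FF M} {O O' : Subring (FF M)} (hd : H37DiscAt A Q t O) (hc : H37DiscChar A Q O)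
    (hd' : H37DiscAt A Q t' O') (hc' : H37DiscChar A Q O') : O = O' := by
  have key : ∀ {t₁ t₂ : FF M} {O₁ O₂ : Subring (FF M)}, H37DiscAt A Q t₁ O₁ →
      H37DiscChar A Q O₁ → H37DiscChar A Q O₂ → O₁ ≤ O₂ := by
    intro t₁ t₂ O₁ O₂ h1 c1 c2 f hf
    refine c2.O_char f (c1.O_gauss f hf) fun P hP => ?_
    obtain ⟨a, -, ha⟩ := h1.O_val f hf P hP
    -- `f - a ∈ 𝔪_P` and the constant `a` is in `𝒪_P`
    have h2 : f - cst M a ∈ P.toValuationSubring :=
      (P.toValuationSubring.mem_nonunits_iff_exists_mem_maximalIdeal.mp ha).choose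
    have h3 : cst M a ∈ P.toValuationSubring := by
      have := (algebraMap Kbar P.toValuationSubring a).2
      exact this
    have := P.toValuationSubring.add_mem _ _ h2 h3
    simpa using this
  exact le_antisymm (key (t₂ := t') hd hc hc') (key (t₂ := t) hd' hc' hc)

end Fermat.Agent.P5
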