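import Fermat.Agent.P5.H4RepLink
import Fermat.Agent.P5.H37DiscInert
import Fermat.Agent.P5.H36ChartGal

/-!
# P5 (wave 5, S19), GEO wiring (helper4): `H96GeoInputs` from two seed charts

Conditional assembly, in the frozen vocabularies of `P5/H96LawIface.lean` (helper96),
`P5/H37DiscIface.lean` (helper37) and `P5/H4Rep.lean` / `P5/H4RepLink.lean` (helper4):

* `H4sChart A c` : the chart `c` has a disc calculus at every centre, pairwise distinct
  reductions of the centres, non-special reduction (`H4rNonSpec`), and one place outside its discs.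
* `H4sLinkRaw A c c'` : the raw data of a link `c → c'` (everything except `step`, `der_unit`).
* `h4s_valid` : `H4sChart A c → c.Valid A`.
* `h4s_link` : `H4sChart A c → H4sChart A c' → H4sLinkRaw A c c' → Nonempty (H96Link A c c')`.
* `h4s_geoInputs` : two seed charts linked both ways + unramified lifts + inertia trivial modulo
  the kernel of reduction `⟹ H96GeoInputs M A`.
-/

set_option autoImplicit false
set_option linter.unusedSectionVars false

open AlgebraicCurve ModularCurve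

noncomputable section

namespace Fermat.Agent.P5

open Fermat.Agent.S37

variable {M : ℕ} [NeZero M] {g : ℕ}

/-- a seed chart: disc calculus at the centres + the reduction input. -/
structure H4sChart (A : ValuationSubring Kbar) (c : H96Chart M g) : Prop where
  disc : ∀ i, H37DiscAt A (c.Q i) (c.t i) (c.O i)
  distinct : ∀ i j, SameRed A (c.Q i) (c.Q j) → i = j
  nonspec : H4rNonSpec A c.Q
  out : ∃ v : Place Kbar (FF M), ∀ i, ¬ SameRed A v (c.Q i)

/-- the raw data of a link `c → c'`: everything except the fields `step` and `der_unit`. -/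
structure H4sLinkRaw (A : ValuationSubring Kbar) (c c' : H96Chart M g) : Prop where
  ex : ∃ (b : Fin g ⊕ Fin g → FF M) (bs : FF M)
    (N0 : Matrix (Fin g ⊕ Fin g) (Fin g ⊕ Fin g) Kbar),
    H4rLinkData A c c' b bs ∧
    (∀ j i, b j ∈ c.O i ∧ b j ∈ c'.O i) ∧ (∀ i, bs ∈ c.O i ∧ bs ∈ c'.O i) ∧
    (∀ i j, ValueAt (c.Q i) (b j) (N0 (Sum.inl i) j)) ∧
    (∀ i j, ∃ h ∈ c.O i, b j - cst M (N0 (Sum.inl i) j) = c.t i * h ∧
      ValueAt (c.Q i) h (N0 (Sum.inr i) j)) ∧
    (N0.det ≠ 0 ∧ (N0.det)⁻¹ ∈ A) ∧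
    (∀ i, ∃ h ∈ c'.O i, ∃ d : Kbar, bs = c'.t i * h ∧
      ValueAt (c'.Q i) h d ∧ d ≠ 0 ∧ d⁻¹ ∈ A)

/-- a seed chart is valid (generic Riemann: `g ≤ deg D → L(D) ≠ ⊥`). -/
theorem h4s_valid (A : ValuationSubring Kbar) [HasPrincipalDivisors Kbar (FF M)]
    (hdeg : ∀ v : Place Kbar (FF M), v.deg = 1)
    (hRR : ∀ D : Divisor Kbar (FF M), (g : ℤ) ≤ Divisor.degree D → riemannRochSpace D ≠ ⊥)
    {c : H96Chart M g} (hc : H4sChart A c) : c.Valid A :=
  h37j_valid_of_disc A c hc.disc (h4r_rep A c.Q hdeg hRR hc.distinct hc.nonspec)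
    (h4r_rep_unique A c.Q hc.distinct hc.nonspec hc.out)

/-- the link from the raw data. -/
theorem h4s_link (A : ValuationSubring Kbar) [HasPrincipalDivisors Kbar (FF M)]
    (hdeg : ∀ v : Place Kbar (FF M), v.deg = 1)
    {c c' : H96Chart M g} (hc : H4sChart A c) (hc' : H4sChart A c')
    (hL : H4sLinkRaw A c c') : Nonempty (H96Link A c c') := by
  obtain ⟨b, bs, N0, hLD, hb, hbs, hv, hder, hunit, hbsder⟩ := hL.ex
  exact ⟨h4r_link A c c' hdeg (fun i => (hc.disc i).O_val) (fun i => (hc.disc i).O_t)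
    (fun i => (hc.disc i).t_zero) hc.distinct hc'.distinct hc'.nonspec hc'.out b bs hLD hb hbs
    N0 hv hder hunit hbsder⟩

/-- **GEO wiring**: two seed charts linked both ways give the geometric inputs. -/
theorem h4s_geoInputs (A : ValuationSubring Kbar) [HasPrincipalDivisors Kbar (FF M)]
    (hdeg : ∀ v : Place Kbar (FF M), v.deg = 1)
    (hRR : ∀ D : Divisor Kbar (FF M), (g : ℤ) ≤ Divisor.degree D → riemannRochSpace D ≠ ⊥)
    (c c' : H96Chart M g) (hc : H4sChart A c) (hc' : H4sChart A c')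
    (hL : H4sLinkRaw A c c') (hL' : H4sLinkRaw A c' c)
    (hlift : ∀ y : JZero M, ∃ c₀ : JZero M, (∀ σ ∈ A.inertiaSubgroupIn ℚ, σ • c₀ = c₀) ∧
      y - c₀ ∈ redKerPic M A)
    (hin : ∀ σ ∈ A.inertiaSubgroupIn ℚ, ∀ x : JZero M, σ • x - x ∈ redKerPic M A) :
    H96GeoInputs M A := by
  refine h36q_geoInputs_of_seed (A := A) ({c, c'} : Set (H96Chart M g)) ⟨c, Or.inl rfl⟩
    ?_ ?_ hlift hin
  · rintro d (rfl | rfl)
    · exact h4s_valid A hdeg hRR hc
    · exact h4s_valid A hdeg hRR hc'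
  · rintro d (rfl | rfl)
    · exact ⟨c', Or.inr rfl, h4s_link A hdeg hc' hc hL'⟩
    · exact ⟨c, Or.inl rfl, h4s_link A hdeg hc hc' hL⟩

end Fermat.Agent.P5
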