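import Fermat.Agent.P5.H38LinkC
import Fermat.Agent.P5.H4Seed

/-!
# P5 (wave 5, S19), row GEO-LINK (helper38): the raw link data

`h38l_core` : for two charts `c`, `c'` with disc calculus + bridge (`H37DiscAt`, `H37DiscChar`)
at all centres, the `2g` centres with pairwise distinct reductions, and the Riemann–Roch input
`H38lDims A r c c'`: the raw link data `H4sLinkRaw A c c'` (helper4, `P5/H4Seed.lean`).

Construction: `s` a section of `L~(r_* D)`, `D = 2 D₀ + D₁`, with exact pole orders at the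
`2g` reduced centres; `w` a Gauss-integral lift in `L(D)`; `E₀ = div w + D`; `bs = 1/w`;
`b j = bs · F j`, `F j` Gauss-integral lifts of elements `y j` of `L~(r_* D)` independent modulo
the constants.
-/

set_option autoImplicit false
set_option linter.unusedSectionVars false
set_option linter.unusedVariables false
set_option maxHeartbeats 1600000

open AlgebraicCurve ModularCurve

noncomputable section

namespace Fermat.Agent.P5

open Fermat.Agent.S37 Fermat.Agent.Red.GV

variable {M : ℕ} [NeZero M] {ℓ : ℕ} {A : ValuationSubring Kbar}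
  {r : Place Kbar (FF M) → Place (h13sK A) (h13sFt A M)} {g : ℕ}

/-- **GEO-LINK, core.** -/
theorem h38l_core (hℓ : ℓ.Prime) (hM : ¬ ℓ ∣ M) (hA : A.LiesOverPrime ℓ)
    (hr : H13sIsRed A M r) (hB : H13rBase Kbar (FF M)) (c c' : H96Chart M g)
    (hd : ∀ i, H37DiscAt A (c.Q i) (c.t i) (c.O i))
    (hk : ∀ i, H37DiscChar A (c.Q i) (c.O i))
    (hd' : ∀ i, H37DiscAt A (c'.Q i) (c'.t i) (c'.O i))
    (hk' : ∀ i, H37DiscChar A (c'.Q i) (c'.O i))
    (hQ : Function.Injective fun i => r (c.Q i))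
    (hQ' : Function.Injective fun i => r (c'.Q i))
    (hQQ' : ∀ i j, r (c.Q i) ≠ r (c'.Q j)) (hdims : H38lDims A r c c') :
    H4sLinkRaw A c c' := by
  classical
  have c0 : cst M (0 : Kbar) = 0 := map_zero _
  have hD0 : 0 ≤ (h38lD c c') := h38l_D_nonneg c c'
  have hD0v : ∀ v, 0 ≤ (h38lD c c') v := fun v => by
    have := Finsupp.le_def.mp hD0 v
    simpa using this
  have hDt0 : 0 ≤ (h13sPush r (h38lD c c')) := h71r_push_nonneg r hD0
  have hDt2 : ∀ i, (h13sPush r (h38lD c c')) (r (c.Q i)) = 2 := h38l_push_D_src c c' hQ hQQ'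
  have hDt1 : ∀ i, (h13sPush r (h38lD c c')) (r (c'.Q i)) = 1 := h38l_push_D_tgt c c' hQ' hQQ'
  -- the section with exact pole orders and its lift
  obtain ⟨s, hsL, hs0, hsQ, hsQ'⟩ := h38l_exists_exact c c' hdims
  obtain ⟨w, hwV, hwL, hwred⟩ := hdims.lift s hsL
  let wV : gaussV A M := ⟨w, hwV⟩
  have hwred' : h38lRed A M wV = s := hwred
  obtain ⟨hw0, hwi⟩ := h38l_unit_of_red_ne A hℓ hM hA wV (by rw [hwred']; exact hs0)
  have hw0' : w ≠ 0 := hw0
  have hwi' : w⁻¹ ∈ gaussV A M := hwi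
  let bsV : gaussV A M := ⟨w⁻¹, hwi'⟩
  have hbw : bsV * wV = 1 := Subtype.ext (inv_mul_cancel₀ hw0')
  have hbsred : h38lRed A M bsV = s⁻¹ := by
    have h1 := congrArg (h38lRed A M) hbw
    rw [map_mul, map_one, hwred'] at h1
    exact eq_inv_of_mul_eq_one_left h1
  obtain ⟨Dw, hDw, -⟩ := hB.pd w hw0'
  set E₀ : Divisor Kbar (FF M) := Dw + (h38lD c c') with hE₀
  have hE₀v : ∀ v : Place Kbar (FF M), E₀ v = v.ord w + (h38lD c c') v := fun v => by
    rw [hE₀, Finsupp.add_apply, hDw]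
  have hE₀nnv : ∀ v : Place Kbar (FF M), 0 ≤ E₀ v := fun v => by
    rw [hE₀v]
    exact h81l_effective hwL hw0' v
  have hE₀nn : 0 ≤ E₀ := by
    rw [Finsupp.le_def]
    intro v
    simpa using hE₀nnv v
  have hpushE : ∀ n : Place (h13sK A) (h13sFt A M),
      (Finsupp.mapDomain r E₀) n = n.ord s + (h13sPush r (h38lD c c')) n := by
    intro n
    rw [hE₀, Finsupp.mapDomain_add, Finsupp.add_apply,
      h38l_ord_red hr hB wV hw0 hwi Dw hDw n, hwred']
    rfl
  have hE₀out : ∀ Q₀ : Place Kbar (FF M), (r Q₀).ord s = - (h13sPush r (h38lD c c')) (r Q₀) →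
      ∀ v, SameRed A v Q₀ → E₀ v = 0 := by
    intro Q₀ hQ₀ v hv
    have hv' : r v = r Q₀ := (hr.2.1 v Q₀).2 hv
    have h1 := h71r_push_ge r E₀ (r Q₀) (fun a _ => hE₀nnv a) v hv'
    rw [hpushE, hQ₀] at h1
    have h2 := hE₀nnv v
    omega
  have hEc : ∀ i v, SameRed A v (c.Q i) → E₀ v = 0 := fun i => hE₀out (c.Q i) (hsQ i)
  have hEc' : ∀ i v, SameRed A v (c'.Q i) → E₀ v = 0 := fun i => hE₀out (c'.Q i) (hsQ' i)
  have hbsord : ∀ v : Place Kbar (FF M), v.ord (w⁻¹) = (h38lD c c') v - E₀ v := fun v => by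
    rw [Place.ord_inv, hE₀v]
    ring
  -- the functions `y j`, `F j`
  have hdimS : Module.finrank (h13sK A) (riemannRochSpace (h13sPush r (h38lD c c'))) = 2 * g + 1 := hdims.dimS
  obtain ⟨y, hyL, hyind⟩ := h38l_exists_compl g (riemannRochSpace (h13sPush r (h38lD c c'))) (h71r_one_mem hDt0) hdimS
  choose F hFV hFL hFred using fun j => hdims.lift (y j) (hyL j)
  let fV : Fin g ⊕ Fin g → gaussV A M := fun j => ⟨F j, hFV j⟩
  have hfred : ∀ j, h38lRed A M (fV j) = y j := hFred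
  let bV : Fin g ⊕ Fin g → gaussV A M := fun j => bsV * fV j
  have hbVc : ∀ j, (bV j : FF M) = w⁻¹ * F j := fun j => rfl
  -- membership in `L(E₀)`
  have hbsL : w⁻¹ ∈ riemannRochSpace E₀ := by
    rw [mem_riemannRochSpace_iff]
    intro v
    right
    rw [hbsord]
    have := hD0v v
    omega
  have hbL : ∀ j, w⁻¹ * F j ∈ riemannRochSpace E₀ := by
    intro j
    rw [mem_riemannRochSpace_iff]
    intro v
    by_cases hF : F j = 0
    · left
      rw [hF, mul_zero]
    · right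
      rw [v.ord_mul (inv_ne_zero hw0') hF, hbsord]
      have := (mem_riemannRochSpace_iff.1 (hFL j) v).resolve_left hF
      omega
  -- membership in the rings `O`
  have hmemO : ∀ (Q₀ : Place Kbar (FF M)) (O₀ : Subring (FF M)), H37DiscChar A Q₀ O₀ →
      (∀ v, SameRed A v Q₀ → E₀ v = 0) → ∀ x : FF M, x ∈ gaussV A M →
      x ∈ riemannRochSpace E₀ → x ∈ O₀ := by
    intro Q₀ O₀ hk₀ hE x hxV hx
    refine hk₀.O_char x hxV fun P hP => ?_
    apply Fermat.Agent.S24.DiffPlace.mem_of_ord_nonneg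
    rcases mem_riemannRochSpace_iff.1 hx P with h | h
    · rw [h]
      simp
    · rw [hE P hP] at h
      omega
  have hbsO : ∀ i, w⁻¹ ∈ c.O i := fun i => hmemO _ _ (hk i) (hEc i) _ hwi' hbsL
  have hbsO' : ∀ i, w⁻¹ ∈ c'.O i := fun i => hmemO _ _ (hk' i) (hEc' i) _ hwi' hbsL
  have hbO : ∀ j i, (bV j : FF M) ∈ c.O i := fun j i =>
    hmemO _ _ (hk i) (hEc i) _ (bV j).2 (hbL j)
  have hbO' : ∀ j i, (bV j : FF M) ∈ c'.O i := fun j i =>
    hmemO _ _ (hk' i) (hEc' i) _ (bV j).2 (hbL j)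
  -- the jets
  choose a haA hav using fun i j => (hd i).O_val _ (hbO j i) (c.Q i) (hd i).refl
  choose h hhO hhe using fun i j =>
    (hd i).O_div _ (hbO j i) (c.Q i) (hd i).refl (a i j) 0 (hav i j) (hd i).t_zero
  choose d hdA hdv using fun i j => (hd i).O_val (h i j) (hhO i j) (c.Q i) (hd i).refl
  let N0 : Matrix (Fin g ⊕ Fin g) (Fin g ⊕ Fin g) Kbar :=
    fun p j => Sum.elim (fun i => a i j) (fun i => d i j) p
  have N0_val : ∀ i j, ValueAt (c.Q i) (bV j : FF M) (N0 (Sum.inl i) j) := fun i j => hav i j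
  have N0_der : ∀ i j, ∃ h' ∈ c.O i, (bV j : FF M) - cst M (N0 (Sum.inl i) j) = c.t i * h' ∧
      ValueAt (c.Q i) h' (N0 (Sum.inr i) j) := fun i j => by
    refine ⟨h i j, hhO i j, ?_, hdv i j⟩
    have := hhe i j
    rw [c0, sub_zero] at this
    exact this
  -- the independence input
  have hind : ∀ γ : Fin g ⊕ Fin g → A, (∃ j, h13sPi A (γ j) ≠ 0) →
      h38lRed A M (∑ j, h40fCst A M (γ j) * bV j) ≠ 0 ∧
      ∃ i, (r (c.Q i)).ord (h38lRed A M (∑ j, h40fCst A M (γ j) * bV j)) < 2 := by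
    intro γ hγ
    set yt : h13sFt A M :=
      ∑ j, algebraMap (h13sK A) (h13sFt A M) (h13sPi A (γ j)) * y j with hyt
    have hred : h38lRed A M (∑ j, h40fCst A M (γ j) * bV j) = s⁻¹ * yt := by
      rw [map_sum, hyt, Finset.mul_sum]
      refine Finset.sum_congr rfl fun j _ => ?_
      show h38lRed A M (h40fCst A M (γ j) * (bsV * fV j)) = _
      rw [map_mul, map_mul, h38l_red_cst, hbsred, hfred]
      ring
    have hytc : ∀ c₁ : h13sK A, yt ≠ algebraMap (h13sK A) (h13sFt A M) c₁ :=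
      fun c₁ => hyind (fun j => h13sPi A (γ j)) hγ c₁
    have hyt0 : yt ≠ 0 := by
      have := hytc 0
      rwa [map_zero] at this
    have hytL : yt ∈ riemannRochSpace (h13sPush r (h38lD c c')) := by
      refine Submodule.sum_mem _ fun j _ => ?_
      rw [← Algebra.smul_def]
      exact Submodule.smul_mem _ _ (hyL j)
    rw [hred]
    refine ⟨mul_ne_zero (inv_ne_zero hs0) hyt0, ?_⟩
    by_contra hall
    push_neg at hall
    have hord : ∀ i, 0 ≤ (r (c.Q i)).ord yt := by
      intro i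
      have h1 := hall i
      rw [(r (c.Q i)).ord_mul (inv_ne_zero hs0) hyt0, Place.ord_inv, hsQ i] at h1
      have h2 := hDt2 i
      omega
    have hyt1 : yt ∈ riemannRochSpace (h13sPush r (h38lSum c'.Q)) := by
      rw [mem_riemannRochSpace_iff]
      intro n
      right
      by_cases hn : ∃ i, r (c.Q i) = n
      · obtain ⟨i, rfl⟩ := hn
        rw [h38l_push_S_src c c' hQQ' i]
        have := hord i
        omega
      · push_neg at hn
        rw [← h38l_push_D_out c c' n hn]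
        exact (mem_riemannRochSpace_iff.1 hytL n).resolve_left hyt0
    obtain ⟨c₁, hc₁⟩ := h71r_const_of_finrank_one
      (h71r_push_nonneg r (h38l_sum_nonneg c'.Q)) hdims.dimS1 hyt1
    exact hytc c₁ hc₁
  have N0_unit : N0.det ≠ 0 ∧ (N0.det)⁻¹ ∈ A :=
    h38l_N0_unit hℓ hM hA hr hB c hd hk bV hbO N0 N0_val N0_der hind
  -- the derivative of `bs` at the target centres
  have hbsder : ∀ i, ∃ h' ∈ c'.O i, ∃ d' : Kbar, w⁻¹ = c'.t i * h' ∧
      ValueAt (c'.Q i) h' d' ∧ d' ≠ 0 ∧ d'⁻¹ ∈ A := by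
    intro i
    refine h38l_der hℓ hM hA hr hB (hd' i) (hk' i) bsV (hbsO' i) ?_ ?_
    · apply h38l_val_zero_of_ord_pos
      show 0 < (c'.Q i).ord (w⁻¹)
      rw [hbsord, hEc' i (c'.Q i) (hd' i).refl]
      have h1 : 1 ≤ h38lSum c'.Q (c'.Q i) := h38l_sum_self_pos c'.Q i
      have h2 : (h38lD c c') (c'.Q i) = h38lSum c.Q (c'.Q i) + h38lSum c.Q (c'.Q i) +
          h38lSum c'.Q (c'.Q i) := by
        unfold h38lD
        rw [Finsupp.add_apply, Finsupp.add_apply]
      have h3 : 0 ≤ h38lSum c.Q (c'.Q i) := by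
        have := Finsupp.le_def.mp (h38l_sum_nonneg c.Q) (c'.Q i)
        simpa using this
      omega
    · rw [hbsred, Place.ord_inv, hsQ' i]
      have := hDt1 i
      omega
  -- independence of `bs`
  have hindep : ∀ (e : Kbar) (co : Fin g ⊕ Fin g → Kbar),
      cst M e * w⁻¹ + ∑ j, cst M (co j) * (bV j : FF M) = 0 → e = 0 := by
    intro e co he
    refine h38l_indep hℓ hM hA fV (fun γ hγ c₁ => ?_) e co ?_
    · have := hyind γ hγ c₁
      intro h1
      apply this
      rw [← h1]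
      refine Finset.sum_congr rfl fun j _ => ?_
      rw [hfred]
    · have h1 : w * (cst M e * w⁻¹ + ∑ j, cst M (co j) * (bV j : FF M)) =
          cst M e + ∑ j, cst M (co j) * ((fV j : gaussV A M) : FF M) := by
        rw [mul_add, Finset.mul_sum]
        congr 1
        · field_simp
        · refine Finset.sum_congr rfl fun j _ => ?_
          rw [hbVc]
          show w * (cst M (co j) * (w⁻¹ * F j)) = cst M (co j) * F j
          field_simp
      rw [← h1, he, mul_zero]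
  -- assembly
  refine ⟨⟨fun j => (bV j : FF M), w⁻¹, N0, ?_, ?_, ?_, N0_val, N0_der, N0_unit, hbsder⟩⟩
  · refine ⟨⟨E₀, hE₀nn, hEc, hEc', hbL, hbsL, fun v => ?_⟩, inv_ne_zero hw0', hindep⟩
    rw [hbsord]
    have h2 : (h38lD c c') v = h4r_sum c.Q v + h4r_sum c.Q v + h4r_sum c'.Q v := by
      unfold h38lD
      rw [Finsupp.add_apply, Finsupp.add_apply]
      rfl
    rw [h2]
    ring
  · exact fun j i => ⟨hbO j i, hbO' j i⟩
  · exact fun i => ⟨hbsO i, hbsO' i⟩

end Fermat.Agent.P5
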