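import Fermat.Agent.P5.H4RepLeaf

/-!
# P5 (wave 5, S19), row GEO-LINK, final glue (helper4): `H4sLinkRaw ⟹ H56gLink`

* `h4s_chart_of_nonSpec` : the seed-chart package `H4sChart A c` from the hypotheses of the
  frozen leaves of `P5/H56GeoAsm.lean` (disc calculus at the centres, `H56gNonSpec r c.Q`).
* `H4sLinkRawLeaf` : the raw link data (`H4sLinkRaw`, `P5/H4Seed.lean`) under the hypotheses of
  `H56gLink` (a definition; nothing is assumed).
* `h4s_linkLeaf : H4sLinkRawLeaf → H56gLink` (exact frozen Prop of `P5/H56GeoAsm.lean`).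
-/

set_option autoImplicit false
set_option linter.unusedSectionVars false

open AlgebraicCurve ModularCurve

noncomputable section

namespace Fermat.Agent.P5

open Fermat.Agent.S37 Fermat.Agent.Red.GV

/-- the seed-chart package from the hypotheses of the frozen leaves. -/
theorem h4s_chart_of_nonSpec {M : ℕ} [NeZero M] {g : ℕ} {ℓ : ℕ} (hℓ : ℓ.Prime)
    (hM : ¬ ℓ ∣ M) (A : ValuationSubring Kbar) (hA : A.LiesOverPrime ℓ)
    (r : Place Kbar (FF M) → Place (h13sK A) (h13sFt A M)) (hr : H13sIsRed A M r)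
    (c : H96Chart M g) (hd : ∀ i, H37DiscAt A (c.Q i) (c.t i) (c.O i))
    (hns : H56gNonSpec r c.Q) : H4sChart A c where
  disc := hd
  distinct := fun i j h => hns.1 ((hr.2.1 (c.Q i) (c.Q j)).2 h)
  nonspec := by
    refine h4n_nonSpec hℓ hM A hA r hr c.Q ?_
    rw [h4r_push_sum]
    exact hns.2
  out := h4r_out_of_fin A c.Q fun i => (hd i).Q_fin

/-- **the raw link data** under the hypotheses of `H56gLink`. -/
def H4sLinkRawLeaf : Prop :=
  ∀ (ℓ : ℕ), ℓ.Prime → ∀ (M : ℕ) [NeZero M], ¬ ℓ ∣ M → auxLevel ℓ ∣ M →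
    ∀ A : ValuationSubring Kbar, A.LiesOverPrime ℓ →
    ∀ r : Place Kbar (FF M) → Place (h13sK A) (h13sFt A M), H13sIsRed A M r →
    ∀ g : ℕ, H13rIsGenus Kbar (FF M) g → H13rIsGenus (h13sK A) (h13sFt A M) g →
    ∀ c c' : H96Chart M g, (∀ i, H37DiscAt A (c.Q i) (c.t i) (c.O i)) →
      (∀ i, H37DiscAt A (c'.Q i) (c'.t i) (c'.O i)) →
      H56gNonSpec r c.Q → H56gNonSpec r c'.Q → (∀ i j, r (c.Q i) ≠ r (c'.Q j)) →
      H4sLinkRaw A c c'

/-- **GEO-LINK, final glue**: the frozen leaf `H56gLink` from the raw link data. -/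
theorem h4s_linkLeaf (hraw : H4sLinkRawLeaf) : H56gLink := by
  intro ℓ hℓ M _ hℓM haux A hA r hr g hgG hgS c c' hd hd' hns hns' hne
  have : HasPrincipalDivisors Kbar (FF M) := ⟨(h13g_gBase M).pd⟩
  exact h4s_link A (h13g_gBase M).deg_one
    (h4s_chart_of_nonSpec hℓ hℓM A hA r hr c hd hns)
    (h4s_chart_of_nonSpec hℓ hℓM A hA r hr c' hd' hns')
    (hraw ℓ hℓ M hℓM haux A hA r hr g hgG hgS c c' hd hd' hns hns' hne)

end Fermat.Agent.P5
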