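import Fermat.Agent.P5.H96LawIface
import Fermat.Agent.S37.Assembly
import Fermat.Agent.S37.Inertia
import Fermat.Agent.Red.BC.Main
import Fermat.Agent.Red.KR.Basic
import Fermat.Agent.Bridge.Restrict

/-!
# P5 (wave 5, S19), block GEO (helper94): the Galois conjuncts of `H96GeoInputs`

`A` a valuation subring of `ℚ̄`, `D`, `I` its decomposition and inertia groups, `M` a level.

* `h94q_sameRed_gal` : `τ ∈ D` maps places with the same reduction to places with the same
  reduction.
* `h94q_gal_mem_redKer` : `redKer M A` is stable under `D`.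
* `h94q_decomp_stable` : `redKerPic M A` is stable under `D`
  (conjunct 7 of `H96GeoInputs`).
* `h94q_inertia_mod` : inertia acts trivially modulo `redKerPic M A` for `ℓ ∤ M`
  (conjunct 6 of `H96GeoInputs`; from the landed P-RED `ifaceInertia_of`, `ifaceBaseChange`).
-/

set_option autoImplicit false
set_option linter.unusedSectionVars false
set_option linter.unusedVariables false
set_option linter.style.haveILetI false
set_option linter.style.longLine false

open AlgebraicCurve ModularCurve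

noncomputable section

namespace Fermat.Agent.P5

open Fermat.Agent.S37 Fermat.Agent.S37.GalI

variable {M : ℕ} [NeZero M] {A : ValuationSubring Kbar}

/-- the decomposition group preserves `A`. -/
theorem h94q_decomp_mem {τ : GQ} (hτ : τ ∈ A.decompositionSubgroup ℚ) {a : Kbar} (ha : a ∈ A) :
    τ a ∈ A :=
  (Fermat.Agent.Red.GV.decompA A τ hτ ⟨a, ha⟩).2

/-- the decomposition group preserves the maximal ideal of `A`. -/
theorem h94q_decomp_nonunits {τ : GQ} (hτ : τ ∈ A.decompositionSubgroup ℚ) {a : Kbar}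
    (ha : a ∈ A.nonunits) : τ a ∈ A.nonunits :=
  (Fermat.Agent.Bridge.mem_nonunits_of_mem_decomp hτ).mpr ha

/-- finiteness of the reduction is preserved by the decomposition group. -/
theorem h94q_isFinAt_gal {τ : GQ} (hτ : τ ∈ A.decompositionSubgroup ℚ)
    {v : Place Kbar (FF M)} (h : IsFinAt A v) : IsFinAt A (gal M τ • v) := by
  obtain ⟨a, ha, hv⟩ := h
  have h3 := valueAt_gal τ hv
  rw [gal_smul_jB] at h3
  exact ⟨τ a, h94q_decomp_mem hτ ha, h3⟩

theorem h94q_gal_inv_smul (τ : GQ) (v : Place Kbar (FF M)) :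
    gal M τ⁻¹ • gal M τ • v = v := by
  rw [← mul_smul, ← map_mul, inv_mul_cancel, map_one, one_smul]

theorem h94q_gal_smul_inv (τ : GQ) (f : FF M) :
    gal M τ • gal M τ⁻¹ • f = f := by
  rw [← mul_smul, ← map_mul, mul_inv_cancel, map_one, one_smul]

theorem h94q_isFinAt_gal_iff {τ : GQ} (hτ : τ ∈ A.decompositionSubgroup ℚ)
    {v : Place Kbar (FF M)} : IsFinAt A (gal M τ • v) ↔ IsFinAt A v := by
  refine ⟨fun h => ?_, h94q_isFinAt_gal hτ⟩
  have h1 := h94q_isFinAt_gal ((A.decompositionSubgroup ℚ).inv_mem hτ) h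
  rwa [h94q_gal_inv_smul] at h1

/-- `CongAt` is transported by the decomposition group. -/
theorem h94q_congAt_gal {τ : GQ} (hτ : τ ∈ A.decompositionSubgroup ℚ)
    {v w : Place Kbar (FF M)} {f : FF M} (h : CongAt A v w (gal M τ⁻¹ • f)) :
    CongAt A (gal M τ • v) (gal M τ • w) f := by
  obtain ⟨a, b, ha, hb, hva, hwb, hab⟩ := h
  have h1 := valueAt_gal τ hva
  have h2 := valueAt_gal τ hwb
  rw [h94q_gal_smul_inv] at h1 h2
  refine ⟨τ a, τ b, h94q_decomp_mem hτ ha, h94q_decomp_mem hτ hb, h1, h2, ?_⟩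
  rw [← map_sub]
  exact h94q_decomp_nonunits hτ hab

/-- **the decomposition group preserves "same reduction".** -/
theorem h94q_sameRed_gal {τ : GQ} (hτ : τ ∈ A.decompositionSubgroup ℚ)
    {v w : Place Kbar (FF M)} (h : SameRed A v w) :
    SameRed A (gal M τ • v) (gal M τ • w) := by
  have hτ' : τ⁻¹ ∈ A.decompositionSubgroup ℚ := (A.decompositionSubgroup ℚ).inv_mem hτ
  rcases h with ⟨hv, hw, hc⟩ | ⟨hv, hw, hc⟩
  · refine Or.inl ⟨h94q_isFinAt_gal hτ hv, h94q_isFinAt_gal hτ hw, fun f hf => ?_⟩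
    apply h94q_congAt_gal hτ
    apply hc
    have h1 := Fermat.Agent.Red.KR.gal_mem_modelAt A hτ' (t := jB M) (x := f) hf
    rw [gal_smul_jB] at h1
    exact h1
  · refine Or.inr ⟨fun h => hv ((h94q_isFinAt_gal_iff hτ).mp h),
      fun h => hw ((h94q_isFinAt_gal_iff hτ).mp h), fun f hf => ?_⟩
    apply h94q_congAt_gal hτ
    apply hc
    have h1 := Fermat.Agent.Red.KR.gal_mem_modelAt A hτ' (t := (jB M)⁻¹) (x := f) hf
    rw [gal_smul_jB_inv] at h1
    exact h1

/-- **`redKer` is stable under the decomposition group.** -/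
theorem h94q_gal_mem_redKer {τ : GQ} (hτ : τ ∈ A.decompositionSubgroup ℚ)
    {D : Divisor Kbar (FF M)} (hD : D ∈ redKer M A) : gal M τ • D ∈ redKer M A := by
  unfold redKer at hD
  induction hD using AddSubgroup.closure_induction with
  | mem E hE =>
    obtain ⟨v, w, hvw, rfl⟩ := hE
    rw [smul_sub, SemilinearAut.smul_single, SemilinearAut.smul_single]
    exact single_sub_single_mem_redKer (h94q_sameRed_gal hτ hvw)
  | zero => rw [smul_zero]; exact (redKer M A).zero_mem
  | add E E' _ _ hE hE' => rw [smul_add]; exact (redKer M A).add_mem hE hE'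
  | neg E _ hE => rw [smul_neg]; exact (redKer M A).neg_mem hE

/-- **the kernel of reduction is stable under the decomposition group**
(conjunct 7 of `H96GeoInputs`). -/
theorem h94q_decomp_stable (M : ℕ) [NeZero M] (A : ValuationSubring Kbar) :
    ∀ τ ∈ A.decompositionSubgroup ℚ, ∀ x ∈ redKerPic M A, τ • x ∈ redKerPic M A := by
  rintro τ hτ _ ⟨D, hD, rfl⟩
  exact ⟨SemilinearAut.degZeroSMulHom (gal M τ) D, h94q_gal_mem_redKer hτ hD, rfl⟩

/-- **inertia acts trivially modulo the kernel of reduction** (conjunct 6 of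
`H96GeoInputs`). -/
theorem h94q_inertia_mod (M : ℕ) [NeZero M] (A : ValuationSubring Kbar) (ℓ : ℕ)
    (hℓ : ℓ.Prime) (hℓM : ¬ ℓ ∣ M) (hA : A.LiesOverPrime ℓ) :
    ∀ σ ∈ A.inertiaSubgroupIn ℚ, ∀ x : JZero M, σ • x - x ∈ redKerPic M A := by
  intro σ hσ x
  obtain ⟨D, rfl⟩ := Pic0.mk_surjective x
  refine ⟨SemilinearAut.degZeroSMulHom (gal M σ) D - D, ?_, rfl⟩
  exact smul_sub_mem_redKer (gal M σ)
    (ifaceInertia_of M (Fermat.Agent.Red.BC.ifaceBaseChange M) ℓ hℓ hℓM A hA σ hσ)
    (D : Divisor Kbar (FF M))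

end Fermat.Agent.P5
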