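import Fermat.Agent.P5.H36ChartGal
import Fermat.Agent.P5.H94RedGal
import Fermat.Agent.P5.H37DiscIface
import Fermat.Agent.P5.H13SFIface
import Fermat.Agent.P5.H78RRMoving
import Fermat.Agent.P5.H69LevelTop
import Fermat.Agent.S54.Frobenius

/-!
# P5 (wave 5, S19), rows GEO-SEED + GEO-ASM (helper56): the wiring of `H96GeoInputs`

`M` a good level (`ℓ ∤ M`, `auxLevel ℓ ∣ M`), `A` a valuation subring of `ℚ̄` over `ℓ`,
`k = h13sK A`, `F~ = h13sFt A M` the function field of the special fibre, `r` THE reduction map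
of places (`H13sIsRed A M r`, `P5/H13SFIface.lean`).

Frozen leaf Props of this file (producers: rows GEO-REP / GEO-NONSPEC, GEO-LINK, GEO-RR-SF,
GEO-GAL-567 (5)); nothing is assumed, every declaration is a definition or a proved theorem:

* `H56gNonSpec r Q` : the centres `Q i` reduce to pairwise distinct places of `F~` and
  `ℓ~(∑ r (Q i)) = 1`;
* `H56gInfFin` : the reductions of the places NOT finite at `A` lie in a finite set
  (the poles of `j~`);
* `H56gRep`  : a chart with disc calculus at its centres (`H37DiscAt`) and non-special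
  centres has `rep` and `rep_unique`;
* `H56gLink` : two such charts whose `2g` centres have pairwise distinct reductions are linked;
* `H56gLift` : every class has an inertia-fixed lift modulo the kernel of reduction
  (conjunct 5 of `H96GeoInputs`).

Proved here:

* `h56g_inert` : the field `inert` of `H96Chart.Valid` from `Q_fixed`, `t_fixed`;
* `h56g_seed` : **GEO-SEED** — two valid charts linked both ways;
* `h56g_geoInputs` : **GEO-ASM** — `H96GeoInputs M A` for EVERY `A` over `ℓ` at a good level;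
* `h56g_geoGood : … → H69vGeoGood`, `h56g_level : … → H98pLevel` (the frozen Prop of
  `P5/Skeleton.lean`).
-/

set_option autoImplicit false
set_option linter.unusedSectionVars false
set_option linter.unusedVariables false
set_option linter.style.longLine false

open AlgebraicCurve ModularCurve

noncomputable section

namespace Fermat.Agent.P5

open Fermat.Agent.S37

/-! ### The frozen leaves -/

/-- the centres `Q i` reduce to pairwise distinct places of the special fibre and their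
reduction is a NON-SPECIAL divisor (`ℓ~(∑ r (Q i)) = 1`). -/
def H56gNonSpec {M : ℕ} [NeZero M] {A : ValuationSubring Kbar}
    (r : Place Kbar (FF M) → Place (h13sK A) (h13sFt A M)) {g : ℕ}
    (Q : Fin g → Place Kbar (FF M)) : Prop :=
  Function.Injective (fun i => r (Q i)) ∧
    h13rL (h13sK A) (h13sFt A M) (∑ i, Finsupp.single (r (Q i)) (1 : ℤ)) = 1

/-- **INF-FIN** (row GEO-RR-SF): the reductions of the places which are not finite at `A` lie
in a finite set of places of the special fibre (the poles of `j~`). -/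
def H56gInfFin : Prop :=
  ∀ (ℓ : ℕ), ℓ.Prime → ∀ (M : ℕ) [NeZero M], ¬ ℓ ∣ M → auxLevel ℓ ∣ M →
    ∀ A : ValuationSubring Kbar, A.LiesOverPrime ℓ →
    ∀ r : Place Kbar (FF M) → Place (h13sK A) (h13sFt A M), H13sIsRed A M r →
      ∃ S : Finset (Place (h13sK A) (h13sFt A M)),
        ∀ v : Place Kbar (FF M), ¬ IsFinAt A v → r v ∈ S

/-- **REP** (rows GEO-REP + GEO-NONSPEC): a chart with a disc calculus at every centre, whose
centres are non-special with distinct reductions, represents every class of the kernel of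
reduction, uniquely. -/
def H56gRep : Prop :=
  ∀ (ℓ : ℕ), ℓ.Prime → ∀ (M : ℕ) [NeZero M], ¬ ℓ ∣ M → auxLevel ℓ ∣ M →
    ∀ A : ValuationSubring Kbar, A.LiesOverPrime ℓ →
    ∀ r : Place Kbar (FF M) → Place (h13sK A) (h13sFt A M), H13sIsRed A M r →
    ∀ g : ℕ, H13rIsGenus Kbar (FF M) g → H13rIsGenus (h13sK A) (h13sFt A M) g →
    ∀ c : H96Chart M g, (∀ i, H37DiscAt A (c.Q i) (c.t i) (c.O i)) → H56gNonSpec r c.Q →
      (∀ x ∈ redKerPic M A, ∃ P : Fin g → Place Kbar (FF M),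
        (∀ i, SameRed A (P i) (c.Q i)) ∧ h96m_IsCls x P c.Q) ∧
      (∀ (x : JZero M) (P P' : Fin g → Place Kbar (FF M)),
        (∀ i, SameRed A (P i) (c.Q i)) → (∀ i, SameRed A (P' i) (c.Q i)) →
        h96m_IsCls x P c.Q → h96m_IsCls x P' c.Q → P = P')

/-- **LINK** (row GEO-LINK): two charts with disc calculus and non-special centres, all `2g`
centres with pairwise distinct reductions, are linked (source `c`, target `c'`). -/
def H56gLink : Prop :=
  ∀ (ℓ : ℕ), ℓ.Prime → ∀ (M : ℕ) [NeZero M], ¬ ℓ ∣ M → auxLevel ℓ ∣ M →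
    ∀ A : ValuationSubring Kbar, A.LiesOverPrime ℓ →
    ∀ r : Place Kbar (FF M) → Place (h13sK A) (h13sFt A M), H13sIsRed A M r →
    ∀ g : ℕ, H13rIsGenus Kbar (FF M) g → H13rIsGenus (h13sK A) (h13sFt A M) g →
    ∀ c c' : H96Chart M g, (∀ i, H37DiscAt A (c.Q i) (c.t i) (c.O i)) →
      (∀ i, H37DiscAt A (c'.Q i) (c'.t i) (c'.O i)) →
      H56gNonSpec r c.Q → H56gNonSpec r c'.Q → (∀ i j, r (c.Q i) ≠ r (c'.Q j)) →
      Nonempty (H96Link A c c')

/-- **LIFT** (row GEO-GAL-567, conjunct 5): every class of `J₀(M)` is congruent modulo the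
kernel of reduction to an inertia-fixed class. -/
def H56gLift : Prop :=
  ∀ (ℓ : ℕ), ℓ.Prime → ∀ (M : ℕ) [NeZero M], ¬ ℓ ∣ M → auxLevel ℓ ∣ M →
    ∀ A : ValuationSubring Kbar, A.LiesOverPrime ℓ →
    ∀ y : JZero M, ∃ c₀ : JZero M, (∀ σ ∈ A.inertiaSubgroupIn ℚ, σ • c₀ = c₀) ∧
      y - c₀ ∈ redKerPic M A

/-! ### The field `inert` -/

theorem h56g_mem_decomp {A : ValuationSubring Kbar} {σ : GQ}
    (hσ : σ ∈ A.inertiaSubgroupIn ℚ) : σ ∈ A.decompositionSubgroup ℚ := by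
  obtain ⟨s, -, rfl⟩ := hσ
  exact s.2

/-- the field `inert` of `H96Chart.Valid`: the coordinates of a chart with inertia-fixed
centres and parameters are inertia-equivariant. -/
theorem h56g_inert {M : ℕ} [NeZero M] {g : ℕ} (A : ValuationSubring Kbar) (c : H96Chart M g)
    (hQ : ∀ i, ∀ σ ∈ A.inertiaSubgroupIn ℚ, gal M σ • c.Q i = c.Q i)
    (ht : ∀ i, ∀ σ ∈ A.inertiaSubgroupIn ℚ, gal M σ • c.t i = c.t i) :
    ∀ σ ∈ A.inertiaSubgroupIn ℚ, ∀ (x : JZero M) (i : Fin g) (a : Kbar),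
      c.IsCoord A x i a → c.IsCoord A (σ • x) i (σ a) := by
  intro σ hσ x i a h
  obtain ⟨P, hP, hcls, hval⟩ := h36q_isCoord_smul (h56g_mem_decomp hσ) c h
  have hQ' : (h36qSmul σ c).Q = c.Q := funext fun j => by rw [h36qSmul_Q, hQ j σ hσ]
  refine ⟨P, fun j => ?_, ?_, ?_⟩
  · have h1 := hP j
    rwa [hQ'] at h1
  · rwa [hQ'] at hcls
  · rwa [h36qSmul_t, ht i σ hσ] at hval

/-- a chart with a disc calculus at every centre, `rep` and `rep_unique` is valid. -/
theorem h56g_valid {M : ℕ} [NeZero M] {g : ℕ} (A : ValuationSubring Kbar) (c : H96Chart M g)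
    (hd : ∀ i, H37DiscAt A (c.Q i) (c.t i) (c.O i))
    (hrep : ∀ x ∈ redKerPic M A, ∃ P : Fin g → Place Kbar (FF M),
      (∀ i, SameRed A (P i) (c.Q i)) ∧ h96m_IsCls x P c.Q)
    (hrep_unique : ∀ (x : JZero M) (P P' : Fin g → Place Kbar (FF M)),
      (∀ i, SameRed A (P i) (c.Q i)) → (∀ i, SameRed A (P' i) (c.Q i)) →
      h96m_IsCls x P c.Q → h96m_IsCls x P' c.Q → P = P') : c.Valid A :=
  h37i_valid_of_disc A c hd hrep hrep_unique
    (h56g_inert A c (fun i => (hd i).Q_fixed) (fun i => (hd i).t_fixed))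

/-! ### The choice of the centres -/

/-- over a reduced divisor `T` of the special fibre avoiding the infinite points, a family of
centres with disc calculus, enumerated by `Fin g`. -/
theorem h56g_centres (hDisc : H37DiscExists) (ℓ : ℕ) (hℓ : ℓ.Prime) (M : ℕ) [NeZero M]
    (hℓM : ¬ ℓ ∣ M) (haux : auxLevel ℓ ∣ M) (A : ValuationSubring Kbar)
    (hA : A.LiesOverPrime ℓ)
    (r : Place Kbar (FF M) → Place (h13sK A) (h13sFt A M)) (hr : H13sIsRed A M r)
    (S : Finset (Place (h13sK A) (h13sFt A M)))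
    (hS : ∀ v : Place Kbar (FF M), ¬ IsFinAt A v → r v ∈ S)
    (g : ℕ) (T : Finset (Place (h13sK A) (h13sFt A M))) (hTS : Disjoint T S)
    (hTc : T.card = g) (hTl : h13rL (h13sK A) (h13sFt A M) (h13rSum _ _ T) = 1) :
    ∃ c : H96Chart M g, (∀ i, H37DiscAt A (c.Q i) (c.t i) (c.O i)) ∧ H56gNonSpec r c.Q ∧
      ∀ i, r (c.Q i) ∈ T := by
  classical
  have key : ∀ w : Place (h13sK A) (h13sFt A M), w ∈ T →
      ∃ (Q : Place Kbar (FF M)) (t : FF M) (O : Subring (FF M)),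
        r Q = w ∧ H37DiscAt A Q t O := by
    intro w hw
    obtain ⟨v, rfl⟩ := hr.1 w
    have hfin : IsFinAt A v := by
      by_contra hv
      exact (Finset.disjoint_left.1 hTS hw) (hS v hv)
    obtain ⟨Q, t, O, hvQ, hd⟩ := hDisc ℓ hℓ M hℓM haux A hA v hfin
    exact ⟨Q, t, O, ((hr.2.1 v Q).2 hvQ).symm, hd⟩
  let e : Fin g ≃ T := (Finset.equivFinOfCardEq hTc).symm
  choose Q t O hQ hd using fun i : Fin g => key (e i : Place (h13sK A) (h13sFt A M)) (e i).2
  refine ⟨⟨Q, t, O⟩, hd, ⟨?_, ?_⟩, fun i => ?_⟩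
  · intro i j hij
    have h1 : ((e i : T) : Place (h13sK A) (h13sFt A M)) = (e j : T) := by
      rw [← hQ i, ← hQ j]; exact hij
    exact e.injective (Subtype.ext h1)
  · have h2 : (∑ i, Finsupp.single (r (Q i)) (1 : ℤ) : Divisor (h13sK A) (h13sFt A M)) =
        h13rSum (h13sK A) (h13sFt A M) T := by
      unfold h13rSum
      rw [← Finset.sum_coe_sort T (fun v => (Finsupp.single v (1 : ℤ) :
        Divisor (h13sK A) (h13sFt A M)))]
      rw [← Equiv.sum_comp e]
      exact Finset.sum_congr rfl fun i _ => by rw [hQ i]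
    show h13rL (h13sK A) (h13sFt A M) (∑ i, Finsupp.single (r (Q i)) (1 : ℤ)) = 1
    rw [h2]
    exact hTl
  · show r (Q i) ∈ T
    rw [hQ i]
    exact (e i).2

/-! ### GEO-SEED -/

/-- **GEO-SEED**: at a good level, two valid charts linked both ways. -/
theorem h56g_seed (hDisc : H37DiscExists) (hBase : H13sBase) (hRed : H13sRedDiv)
    (hGen : H13sGenus) (hInf : H56gInfFin) (hRep : H56gRep) (hLink : H56gLink)
    (ℓ : ℕ) (hℓ : ℓ.Prime) (M : ℕ) [NeZero M] (hℓM : ¬ ℓ ∣ M) (haux : auxLevel ℓ ∣ M)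
    (A : ValuationSubring Kbar) (hA : A.LiesOverPrime ℓ) :
    ∃ (g : ℕ) (c c' : H96Chart M g), c.Valid A ∧ c'.Valid A ∧
      Nonempty (H96Link A c c') ∧ Nonempty (H96Link A c' c) := by
  classical
  obtain ⟨r, hr⟩ := hRed ℓ hℓ M hℓM haux A hA
  obtain ⟨g, hgG, hgS⟩ := hGen ℓ hℓ M hℓM haux A hA
  have hB := hBase ℓ hℓ M hℓM haux A hA
  obtain ⟨S, hS⟩ := hInf ℓ hℓ M hℓM haux A hA r hr
  obtain ⟨T₀, hT₀S, hT₀c, hT₀l⟩ := h78m_moving (K := h13sK A) (F := h13sFt A M) hB g hgS S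
  obtain ⟨T₁, hT₁S, hT₁c, hT₁l⟩ :=
    h78m_moving (K := h13sK A) (F := h13sFt A M) hB g hgS (S ∪ T₀)
  have hT₁S' : Disjoint T₁ S := Finset.disjoint_of_subset_right Finset.subset_union_left hT₁S
  have hT₁T₀ : Disjoint T₁ T₀ :=
    Finset.disjoint_of_subset_right Finset.subset_union_right hT₁S
  obtain ⟨c, hcd, hcn, hcT⟩ :=
    h56g_centres hDisc ℓ hℓ M hℓM haux A hA r hr S hS g T₀ hT₀S hT₀c hT₀l
  obtain ⟨c', hcd', hcn', hcT'⟩ :=
    h56g_centres hDisc ℓ hℓ M hℓM haux A hA r hr S hS g T₁ hT₁S' hT₁c hT₁l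
  have hne : ∀ i j, r (c.Q i) ≠ r (c'.Q j) := fun i j h =>
    Finset.disjoint_left.1 hT₁T₀ (hcT' j) (h ▸ hcT i)
  have hne' : ∀ i j, r (c'.Q i) ≠ r (c.Q j) := fun i j h => hne j i h.symm
  obtain ⟨hrep, hrepu⟩ := hRep ℓ hℓ M hℓM haux A hA r hr g hgG hgS c hcd hcn
  obtain ⟨hrep', hrepu'⟩ := hRep ℓ hℓ M hℓM haux A hA r hr g hgG hgS c' hcd' hcn'
  exact ⟨g, c, c', h56g_valid A c hcd hrep hrepu, h56g_valid A c' hcd' hrep' hrepu',
    hLink ℓ hℓ M hℓM haux A hA r hr g hgG hgS c c' hcd hcd' hcn hcn' hne,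
    hLink ℓ hℓ M hℓM haux A hA r hr g hgG hgS c' c hcd' hcd hcn' hcn hne'⟩

/-! ### GEO-ASM -/

/-- **GEO-ASM**: the geometric inputs at a good level, for EVERY valuation subring over `ℓ`. -/
theorem h56g_geoInputs (hDisc : H37DiscExists) (hBase : H13sBase) (hRed : H13sRedDiv)
    (hGen : H13sGenus) (hInf : H56gInfFin) (hRep : H56gRep) (hLink : H56gLink)
    (hLift : H56gLift)
    (ℓ : ℕ) (hℓ : ℓ.Prime) (M : ℕ) [NeZero M] (hℓM : ¬ ℓ ∣ M) (haux : auxLevel ℓ ∣ M)
    (A : ValuationSubring Kbar) (hA : A.LiesOverPrime ℓ) : H96GeoInputs M A := by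
  obtain ⟨g, c, c', hc, hc', ⟨L⟩, ⟨L'⟩⟩ :=
    h56g_seed hDisc hBase hRed hGen hInf hRep hLink ℓ hℓ M hℓM haux A hA
  refine h36q_geoInputs_of_seed (A := A) ({c, c'} : Set (H96Chart M g)) ⟨c, Or.inl rfl⟩ ?_ ?_
    (hLift ℓ hℓ M hℓM haux A hA) (h94q_inertia_mod M A ℓ hℓ hℓM hA)
  · rintro d (rfl | rfl)
    · exact hc
    · exact hc'
  · rintro d (rfl | rfl)
    · exact ⟨c', Or.inr rfl, ⟨L'⟩⟩
    · exact ⟨c, Or.inl rfl, ⟨L⟩⟩

/-- **TOP-GEO**: `H69vGeoGood` from the leaves. -/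
theorem h56g_geoGood (hDisc : H37DiscExists) (hBase : H13sBase) (hRed : H13sRedDiv)
    (hGen : H13sGenus) (hInf : H56gInfFin) (hRep : H56gRep) (hLink : H56gLink)
    (hLift : H56gLift) : H69vGeoGood := by
  intro ℓ hℓ M _ haux hℓM
  obtain ⟨A, hA⟩ := Fermat.Agent.S54.exists_liesOverPrime hℓ.out
  exact ⟨A, hA, h56g_geoInputs hDisc hBase hRed hGen hInf hRep hLink hLift ℓ hℓ.out M hℓM haux
    A hA⟩

/-- **TOP-LEVEL**: the frozen `H98pLevel` of `P5/Skeleton.lean` from the GEO leaves. -/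
theorem h56g_level (hDisc : H37DiscExists) (hBase : H13sBase) (hRed : H13sRedDiv)
    (hGen : H13sGenus) (hInf : H56gInfFin) (hRep : H56gRep) (hLink : H56gLink)
    (hLift : H56gLift) : H98pLevel :=
  h69v_level_of_geo (h56g_geoGood hDisc hBase hRed hGen hInf hRep hLink hLift)

end Fermat.Agent.P5
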