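import Fermat.Agent.P5.H4NonSpec
import Fermat.Agent.P5.H56GeoAsm
import Fermat.Agent.P5.H13GBase
import Fermat.Agent.P5.H78RRLeaves

/-!
# P5 (wave 5, S19), rows GEO-REP + GEO-NONSPEC (helper4): the frozen leaf `H56gRep`

`h4r_repLeaf : H56gRep` (exact frozen Prop of `P5/H56GeoAsm.lean`, helper56), unconditional:
a chart with a disc calculus at every centre, whose centres are non-special with distinct
reductions, represents every class of the kernel of reduction, uniquely.

Proof: `h4n_nonSpec` (`H13sIsRed` + `ℓ̃ = 1 ⟹ H4rNonSpec`), `h4r_rep`, `h4r_rep_unique`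
(`P5/H4Rep.lean`), generic Riemann (`h78q_large`), generic base (`h13g_gBase`); the place
outside the discs is a pole of `j`.
-/

set_option autoImplicit false
set_option linter.unusedSectionVars false

open AlgebraicCurve ModularCurve

noncomputable section

namespace Fermat.Agent.P5

open Fermat.Agent.S37 Fermat.Agent.Red.GV

variable {M : ℕ} [NeZero M] {g : ℕ}

/-- the push-forward of `∑ Q i` is `∑ r (Q i)`. -/
theorem h4r_push_sum (A : ValuationSubring Kbar)
    (r : Place Kbar (FF M) → Place (h13sK A) (h13sFt A M)) (Q : Fin g → Place Kbar (FF M)) :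
    h13sPush r (h4r_sum Q) = ∑ i, Finsupp.single (r (Q i)) (1 : ℤ) := by
  unfold h13sPush h4r_sum
  rw [Finsupp.mapDomain_finsetSum]
  exact Finset.sum_congr rfl fun i _ => Finsupp.mapDomain_single

/-- a pole of `j` is a place which is not finite at `A`. -/
theorem h4r_exists_not_fin (A : ValuationSubring Kbar) :
    ∃ v : Place Kbar (FF M), ¬ IsFinAt A v := by
  have hB := h13g_gBase M
  by_contra hcon
  push Not at hcon
  have h1 : ∀ v : Place Kbar (FF M), 0 ≤ v.ord (jB M) := by
    intro v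
    obtain ⟨a, -, ha⟩ := hcon v
    exact Fermat.Agent.S24.DiffPlace.ord_nonneg_of_mem v (h4r_mem_of_valueAt ha)
  obtain ⟨a, ha⟩ := hB.const (jB M) h1
  have h2 : IsAlgebraic Kbar (jB M) := by
    rw [← ha]
    exact isAlgebraic_algebraMap a
  exact (Fermat.Agent.S24.transcendental_jBar M) h2

/-- a place outside the discs of finite centres. -/
theorem h4r_out_of_fin (A : ValuationSubring Kbar) (Q : Fin g → Place Kbar (FF M))
    (hQ : ∀ i, IsFinAt A (Q i)) : ∃ v : Place Kbar (FF M), ∀ i, ¬ SameRed A v (Q i) := by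
  obtain ⟨v, hv⟩ := h4r_exists_not_fin (M := M) A
  exact ⟨v, fun i h => hv ((Fermat.Agent.Red.Match.sameRed_isFinAt_iff h).2 (hQ i))⟩

/-- **the frozen leaf `H56gRep`** (rows GEO-REP + GEO-NONSPEC). -/
theorem h4r_repLeaf : H56gRep := by
  intro ℓ hℓ M _ hℓM _ A hA r hr g hgG _ c hd hns
  have : HasPrincipalDivisors Kbar (FF M) := ⟨(h13g_gBase M).pd⟩
  have hdeg : ∀ v : Place Kbar (FF M), v.deg = 1 := (h13g_gBase M).deg_one
  have hRR : ∀ D : Divisor Kbar (FF M), (g : ℤ) ≤ Divisor.degree D →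
      riemannRochSpace D ≠ ⊥ := (h78q_large (h13g_gBase M) g hgG).2
  have hQ : ∀ i j, SameRed A (c.Q i) (c.Q j) → i = j :=
    fun i j h => hns.1 ((hr.2.1 (c.Q i) (c.Q j)).2 h)
  have hNS : H4rNonSpec A c.Q := by
    refine h4n_nonSpec hℓ hℓM A hA r hr c.Q ?_
    rw [h4r_push_sum]
    exact hns.2
  exact ⟨h4r_rep A c.Q hdeg hRR hQ hNS,
    h4r_rep_unique A c.Q hQ hNS (h4r_out_of_fin A c.Q fun i => (hd i).Q_fin)⟩

end Fermat.Agent.P5
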