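import Fermat.Agent.P5.H37DiscIface
import Fermat.Agent.P5.H13SFIface

/-!
# P5 (wave 5, S19), row GEO-LINK: frozen interface (helper38)

`M` a good level, `A` a valuation subring of `ℚ̄` over `ℓ`, `c`, `c'` two charts with centres
`Q i`, `Q' i`; `D₀ = ∑ Q i`, `D₁ = ∑ Q' i`, `D = 2 D₀ + D₁`, `r` the reduction map of places.

* `h38lSum Q`, `h38lD c c'` : the divisors `∑ Q i` and `2 D₀ + D₁`.
* `H38lBase A c c' E₀ bs b` : the GLOBAL shape of the link: `E₀ ≥ 0` without points in the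
  discs of `c` and `c'`, `div bs = 2 D₀ + D₁ - E₀`, `b j ∈ L(E₀)`, `bs, b j` linearly independent
  over `ℚ̄`.  This is what the field `step` of `H96Link` is proved from (GEO-REP).
* `H38lStep A c c' bs b` : verbatim the field `step` of `H96Link`.
* `H38lJets A c c' bs b` : the other fields of `H96Link` (membership in the rings `O i`, the
  jet matrix `N0` with unit determinant, the unit derivative at `D₁`).
* `H38lMem A Q O` : **LINK-MEM**, a Gauss unit without poles in the disc of `Q` lies in `O`.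
* `H38lDims A r c c'` : the Riemann–Roch input (dimensions on the special fibre, lifting of
  `L~(r_* D)`, `ℓ(D₁) = 1`).
* `h38l_link_of` : `H38lJets → H38lStep → Nonempty (H96Link A c c')`.

Frozen leaves (every one a `Prop`; nothing is assumed):

* `H38lMemLeaf` : LINK-MEM for every disc calculus of GEO-DISC.
* `H38lCoreStatement` : the construction of `E₀, bs, b` (proved in `P5/H38Link.lean`).
* `H38lDimsLeaf` : `H38lDims` from weak Riemann–Roch on both fibres, equality of the genera,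
  semicontinuity and the non-speciality of the reductions of `D₀`, `D₁`.
-/

set_option autoImplicit false

open AlgebraicCurve ModularCurve

noncomputable section

namespace Fermat.Agent.P5

open Fermat.Agent.S37 Fermat.Agent.Red.GV

variable {M : ℕ} [NeZero M] {g : ℕ}

/-- the reduced divisor `∑ Q i`. -/
def h38lSum (Q : Fin g → Place Kbar (FF M)) : Divisor Kbar (FF M) :=
  ∑ i, Finsupp.single (Q i) (1 : ℤ)

/-- the divisor `2 D₀ + D₁`. -/
def h38lD (c c' : H96Chart M g) : Divisor Kbar (FF M) :=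
  h38lSum c.Q + h38lSum c.Q + h38lSum c'.Q

/-- the global shape of the link. -/
structure H38lBase (A : ValuationSubring Kbar) (c c' : H96Chart M g)
    (E₀ : Divisor Kbar (FF M)) (bs : FF M) (b : Fin g ⊕ Fin g → FF M) : Prop where
  E0_nonneg : 0 ≤ E₀
  E0_out : ∀ i P, SameRed A P (c.Q i) → E₀ P = 0
  E0_out' : ∀ i P, SameRed A P (c'.Q i) → E₀ P = 0
  bs_ne : bs ≠ 0
  bs_ord : ∀ v : Place Kbar (FF M), v.ord bs = h38lD c c' v - E₀ v
  b_L : ∀ j, b j ∈ riemannRochSpace E₀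
  indep : ∀ (l : Kbar) (co : Fin g ⊕ Fin g → Kbar),
    cst M l * bs + ∑ j, cst M (co j) * b j = 0 → l = 0 ∧ ∀ j, co j = 0

/-- verbatim the field `step` of `H96Link`. -/
def H38lStep (A : ValuationSubring Kbar) (c c' : H96Chart M g) (bs : FF M)
    (b : Fin g ⊕ Fin g → FF M) : Prop :=
  ∀ (P P' : Fin g → Place Kbar (FF M)), (∀ i, SameRed A (P i) (c.Q i)) →
    (∀ i, SameRed A (P' i) (c.Q i)) → ∀ co : Fin g ⊕ Fin g → Kbar,
    (∀ i, ∃ h ∈ c.O i, ∃ a a', ValueAt (P i) (c.t i) a ∧ ValueAt (P' i) (c.t i) a' ∧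
      bs + ∑ j, cst M (co j) * b j = (c.t i - cst M a) * (c.t i - cst M a') * h) →
    ∃ E : Fin g → Place Kbar (FF M), (∀ i, SameRed A (E i) (c'.Q i)) ∧
      (∀ i, ValueAt (E i) (bs + ∑ j, cst M (co j) * b j) 0) ∧
      ∀ x y : JZero M, h96m_IsCls x P c.Q → h96m_IsCls y P' c.Q →
        h96m_IsCls (-(x + y)) E c'.Q

/-- the local fields of `H96Link`. -/
structure H38lJets (A : ValuationSubring Kbar) (c c' : H96Chart M g) (bs : FF M)
    (b : Fin g ⊕ Fin g → FF M) : Prop where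
  b_mem : ∀ j i, b j ∈ c.O i ∧ b j ∈ c'.O i
  bs_mem : ∀ i, bs ∈ c.O i ∧ bs ∈ c'.O i
  jets : ∃ N0 : Matrix (Fin g ⊕ Fin g) (Fin g ⊕ Fin g) Kbar,
    (∀ i j, ValueAt (c.Q i) (b j) (N0 (Sum.inl i) j)) ∧
    (∀ i j, ∃ h ∈ c.O i, b j - cst M (N0 (Sum.inl i) j) = c.t i * h ∧
      ValueAt (c.Q i) h (N0 (Sum.inr i) j)) ∧
    (N0.det ≠ 0 ∧ (N0.det)⁻¹ ∈ A)
  der_unit : ∀ co : Fin g ⊕ Fin g → Kbar,
    (∀ i, ∃ h ∈ c.O i, bs + ∑ j, cst M (co j) * b j = c.t i * c.t i * h) →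
    ∀ i, ∃ h ∈ c'.O i, ∃ d : Kbar, bs + ∑ j, cst M (co j) * b j = c'.t i * h ∧
      ValueAt (c'.Q i) h d ∧ d ≠ 0 ∧ d⁻¹ ∈ A

/-- **assembly of the link.** -/
theorem h38l_link_of {A : ValuationSubring Kbar} {c c' : H96Chart M g} {bs : FF M}
    {b : Fin g ⊕ Fin g → FF M} (hj : H38lJets A c c' bs b) (hs : H38lStep A c c' bs b) :
    Nonempty (H96Link A c c') := by
  obtain ⟨N0, h1, h2, h3⟩ := hj.jets
  exact ⟨{ b := b, bs := bs, b_mem := hj.b_mem, bs_mem := hj.bs_mem, N0 := N0, N0_val := h1,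
           N0_der := h2, N0_unit := h3, step := hs, der_unit := hj.der_unit }⟩

/-- **LINK-MEM**: a Gauss unit without poles in the disc of `Q` lies in `O`. -/
def H38lMem (A : ValuationSubring Kbar) (Q : Place Kbar (FF M)) (O : Subring (FF M)) : Prop :=
  ∀ f : FF M, f ∈ gaussV A M → f⁻¹ ∈ gaussV A M →
    (∀ P : Place Kbar (FF M), SameRed A P Q → 0 ≤ P.ord f) → f ∈ O

/-- the Riemann–Roch input of the link. -/
structure H38lDims (A : ValuationSubring Kbar)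
    (r : Place Kbar (FF M) → Place (h13sK A) (h13sFt A M)) (c c' : H96Chart M g) : Prop where
  lift : ∀ y ∈ riemannRochSpace (h13sPush r (h38lD c c')),
    ∃ (f : FF M) (hf : f ∈ gaussV A M), f ∈ riemannRochSpace (h38lD c c') ∧
      h13sRed A M ⟨f, hf⟩ = y
  dimS : h13rL (h13sK A) (h13sFt A M) (h13sPush r (h38lD c c')) = 2 * g + 1
  dimS_sub : ∀ i, h13rL (h13sK A) (h13sFt A M)
    (h13sPush r (h38lD c c') - Finsupp.single (r (c.Q i)) 1) ≤ 2 * g
  dimS_sub' : ∀ i, h13rL (h13sK A) (h13sFt A M)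
    (h13sPush r (h38lD c c') - Finsupp.single (r (c'.Q i)) 1) ≤ 2 * g
  dimS1 : h13rL (h13sK A) (h13sFt A M) (h13sPush r (h38lSum c'.Q)) = 1
  dimG1 : h13rL Kbar (FF M) (h38lSum c'.Q) = 1

/-! ### The frozen leaves -/

/-- **LINK-MEM** for the disc calculus of GEO-DISC. -/
def H38lMemLeaf : Prop :=
  ∀ (ℓ : ℕ), ℓ.Prime → ∀ (M : ℕ) [NeZero M], ¬ ℓ ∣ M → auxLevel ℓ ∣ M →
    ∀ A : ValuationSubring Kbar, A.LiesOverPrime ℓ →
    ∀ (Q : Place Kbar (FF M)) (t : FF M) (O : Subring (FF M)), H37DiscAt A Q t O →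
      H38lMem A Q O

/-- **LINK-CORE**: the construction of `E₀`, `bs`, `b j`. -/
def H38lCoreStatement : Prop :=
  ∀ (ℓ : ℕ), ℓ.Prime → ∀ (M : ℕ) [NeZero M], ¬ ℓ ∣ M →
    ∀ A : ValuationSubring Kbar, A.LiesOverPrime ℓ →
    ∀ r : Place Kbar (FF M) → Place (h13sK A) (h13sFt A M), H13sIsRed A M r →
    H13rBase Kbar (FF M) →
    ∀ (g : ℕ) (c c' : H96Chart M g),
      (∀ i, H37DiscAt A (c.Q i) (c.t i) (c.O i)) →
      (∀ i, H37DiscAt A (c'.Q i) (c'.t i) (c'.O i)) →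
      (∀ i, c.t i ∈ gaussV A M) → (∀ i, c'.t i ∈ gaussV A M) →
      (∀ i, H38lMem A (c.Q i) (c.O i)) → (∀ i, H38lMem A (c'.Q i) (c'.O i)) →
      (∀ i j, SameRed A (c.Q i) (c.Q j) → i = j) →
      (∀ i j, SameRed A (c'.Q i) (c'.Q j) → i = j) →
      (∀ i j, ¬ SameRed A (c.Q i) (c'.Q j)) →
      H38lDims A r c c' →
      ∃ (E₀ : Divisor Kbar (FF M)) (bs : FF M) (b : Fin g ⊕ Fin g → FF M),
        H38lBase A c c' E₀ bs b ∧ H38lJets A c c' bs b

/-- **LINK-DIMS**: the Riemann–Roch input of the link from the frozen leaves of GEO-RR. -/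
def H38lDimsLeaf : Prop :=
  H13sSemi →
  ∀ (ℓ : ℕ), ℓ.Prime → ∀ (M : ℕ) [NeZero M], ¬ ℓ ∣ M → auxLevel ℓ ∣ M →
    ∀ A : ValuationSubring Kbar, A.LiesOverPrime ℓ →
    ∀ r : Place Kbar (FF M) → Place (h13sK A) (h13sFt A M), H13sIsRed A M r →
    H13rBase Kbar (FF M) → H13rBase (h13sK A) (h13sFt A M) →
    H13rFin Kbar (FF M) → H13rFin (h13sK A) (h13sFt A M) →
    H13rMono Kbar (FF M) → H13rMono (h13sK A) (h13sFt A M) →
    ∀ g : ℕ, H13rIsGenus Kbar (FF M) g → H13rIsGenus (h13sK A) (h13sFt A M) g →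
    ∀ c c' : H96Chart M g,
      (∀ i j, SameRed A (c.Q i) (c.Q j) → i = j) →
      (∀ i j, SameRed A (c'.Q i) (c'.Q j) → i = j) →
      (∀ i j, ¬ SameRed A (c.Q i) (c'.Q j)) →
      h13rL (h13sK A) (h13sFt A M) (h13sPush r (h38lSum c.Q)) = 1 →
      h13rL (h13sK A) (h13sFt A M) (h13sPush r (h38lSum c'.Q)) = 1 →
      H38lDims A r c c'

end Fermat.Agent.P5
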