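import Fermat.Agent.P5.H50LinkE0
import Fermat.Agent.P5.H38LinkIface

/-!
# P5 (wave 5, S19), row GEO-LINK, leaf LINK-DIMS (helper50)

`h50l_dimsLeaf : H38lDimsLeaf` (exact frozen Prop of `P5/H38LinkIface.lean`): the Riemann–Roch
input `H38lDims A r c c'` of the link from `H13sSemi`, weak Riemann–Roch on both fibres with the
same genus and the non-speciality of the reductions of `D₀`, `D₁`.

Proof: semicontinuity `ℓ(E) ≤ ℓ~(r_* E)` (`h50l_semi_le`, from clause 4 of `H13sSemi`) gives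
`ℓ(D₀) = ℓ(D₁) = 1`; by `H13rMono` (`h78q_mono`) every divisor above `D₀` (resp. `r_* D₀`) is
non-special, so `ℓ(2 D₀ + D₁) = 2g + 1 = ℓ~(r_* (2 D₀ + D₁))` and
`ℓ~(r_* (2 D₀ + D₁) - n) = 2g` for each of the `2g` centres `n`; the lift is the last clause of
`H13sSemi`.
-/

set_option autoImplicit false
set_option linter.unusedSectionVars false
set_option linter.unusedVariables false

open AlgebraicCurve ModularCurve

noncomputable section

namespace Fermat.Agent.P5

open Fermat.Agent.S37 Fermat.Agent.Red.GV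

variable {M : ℕ} [NeZero M] {g : ℕ}

theorem h50l_sum_eq (Q : Fin g → Place Kbar (FF M)) : h38lSum Q = h50lSum Q := rfl

theorem h50l_D_eq (c c' : H96Chart M g) : h38lD c c' = h50lDelta c.Q c'.Q := by
  unfold h38lD h50lDelta
  rw [two_nsmul, h50l_sum_eq, h50l_sum_eq]

/-- **LINK-DIMS.** -/
theorem h50l_dimsLeaf : H38lDimsLeaf := by
  intro hSemi ℓ hℓ M _ hM haux A hA r hr hBg hBs _ _ _ _ g hGg hGs c c' _ _ _ hQ hQ'
  have hS : H50lSemiAt A M r := h50l_semiAt_of hSemi hℓ hM haux hA r hr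
  rw [h50l_sum_eq, h50l_push_sum] at hQ hQ'
  set Qs : Fin g → Place (h13sK A) (h13sFt A M) := fun i => r (c.Q i) with hQs
  set Qs' : Fin g → Place (h13sK A) (h13sFt A M) := fun i => r (c'.Q i) with hQs'
  have hpush : h13sPush r (h38lD c c') = h50lDelta Qs Qs' := by
    rw [h50l_D_eq]
    exact h50l_push_delta r c.Q c'.Q
  have hQg : h13rL Kbar (FF M) (h50lSum c.Q) = 1 :=
    h50l_generic_nonspecial r hℓ hM hA hBg hBs hS c.Q hQ
  have hQg' : h13rL Kbar (FF M) (h50lSum c'.Q) = 1 :=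
    h50l_generic_nonspecial r hℓ hM hA hBg hBs hS c'.Q hQ'
  have hdg : (h13rL Kbar (FF M) (h50lDelta c.Q c'.Q) : ℤ) + g =
      Divisor.degree (h50lDelta c.Q c'.Q) + 1 :=
    h50l_rr_above hBg hGg c.Q hQg (h50l_sum_le_delta c.Q c'.Q)
  have hds : (h13rL (h13sK A) (h13sFt A M) (h50lDelta Qs Qs') : ℤ) + g =
      Divisor.degree (h50lDelta Qs Qs') + 1 :=
    h50l_rr_above hBs hGs Qs hQ (h50l_sum_le_delta Qs Qs')
  rw [h50l_degree_delta hBg.deg_one] at hdg
  rw [h50l_degree_delta hBs.deg_one] at hds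
  have hsub : ∀ n : Place (h13sK A) (h13sFt A M), ((∃ i, Qs i = n) ∨ ∃ i, Qs' i = n) →
      h13rL (h13sK A) (h13sFt A M) (h50lDelta Qs Qs' - Finsupp.single n 1) ≤ 2 * g := by
    intro n hn
    have h2 : (h13rL (h13sK A) (h13sFt A M) (h50lDelta Qs Qs' - Finsupp.single n 1) : ℤ) + g =
        Divisor.degree (h50lDelta Qs Qs' - Finsupp.single n 1) + 1 :=
      h50l_rr_above hBs hGs Qs hQ (h50l_sum_le_delta_sub Qs Qs' n hn)
    rw [map_sub, Divisor.degree_single, hBs.deg_one, h50l_degree_delta hBs.deg_one] at h2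
    push_cast at h2
    omega
  refine
    { lift := ?_
      dimS := ?_
      dimS_sub := ?_
      dimS_sub' := ?_
      dimS1 := ?_
      dimG1 := ?_ }
  · have hdim : h13rL Kbar (FF M) (h38lD c c') =
        h13rL (h13sK A) (h13sFt A M) (h13sPush r (h38lD c c')) := by
      rw [hpush, h50l_D_eq]
      have : (h13rL Kbar (FF M) (h50lDelta c.Q c'.Q) : ℤ) =
          h13rL (h13sK A) (h13sFt A M) (h50lDelta Qs Qs') := by omega
      exact_mod_cast this
    obtain ⟨b, -, -, -, -, -, hlift⟩ := hS (h38lD c c')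
    exact hlift hdim
  · rw [hpush]
    have : (h13rL (h13sK A) (h13sFt A M) (h50lDelta Qs Qs') : ℤ) = 2 * g + 1 := by omega
    exact_mod_cast this
  · intro i
    rw [hpush]
    exact hsub (r (c.Q i)) (Or.inl ⟨i, rfl⟩)
  · intro i
    rw [hpush]
    exact hsub (r (c'.Q i)) (Or.inr ⟨i, rfl⟩)
  · rw [h50l_sum_eq, h50l_push_sum]
    exact hQ'
  · rw [h50l_sum_eq]
    exact hQg'

end Fermat.Agent.P5
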