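import Fermat.Agent.P5.H62DiscFinal
import Fermat.Agent.P5.H37DiscChar

/-!
# P5 (wave 5, S19), block GEO-DISC, assembly (helper62), part 5: the bridge `H37DiscExistsC`

For `O = h62qO A 𝔫` (the localisation of the finite chart at the centre `𝔫` of `Q`):

* `h62q_O_gauss` : `O ⊆ gaussV A M` (an element of the chart outside `𝔫` is a Gauss unit);
* `h62q_O_char` : a Gauss-integral function which is regular at all places of the residue disc
  lies in `O` (`h26_stepC` + `H26Chart.hQEP`);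
* **`h62q_discExistsC : H37DiscExistsC`**, unconditionally.
-/

set_option autoImplicit false
set_option linter.unusedSectionVars false
set_option linter.unusedVariables false
set_option linter.style.longLine false

open AlgebraicCurve ModularCurve IsLocalRing

noncomputable section

namespace Fermat.Agent.P5

open Fermat.Agent.S37 Fermat.Agent.Red Fermat.Agent.Red.GG Fermat.Agent.Red.Match
  Fermat.Agent.Red.GV Fermat.Agent.S36

variable {M : ℕ} [NeZero M] (A : ValuationSubring Kbar) {ℓ : ℕ}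

/-- a place of the chart centred at the centre of `v` is finite and lies in the residue disc
of `v`. -/
theorem h62q_centered_sameRed {v : Place Kbar (FF M)} (hv : IsFinAt A v)
    (k : ChartPlace M (jB M))
    (hk : h26Centered (chart M A (jB M)) (chartVal M (jB M)) (h62qCen A hv) k) :
    SameRed A k.1 v := by
  obtain ⟨a, ha⟩ := h71_value_mem_of_centered A (jB M) k (h62qCen A hv)
    (h62q_cen_isMaximal A hv) (h62q_map_le_cen A hv) hk
  have hkfin : IsFinAt A k.1 := ⟨(a : Kbar), a.2, ha⟩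
  refine h62q_sameRed_of_cen_le A hkfin hv ?_
  intro b hb
  apply hk
  show k.1.adicValuation (b : FF M) < 1
  rw [h71_adicValuation_lt_one_iff_valueAt]
  have h1 := h62q_ev_spec A hkfin b
  rw [RingHom.mem_ker] at hb
  have hb' : h62qEv A hkfin b = 0 := hb
  rwa [hb', ZeroMemClass.coe_zero] at h1

/-- the kernel of the Gauss reduction on the chart is `𝔪_A · chart`. -/
theorem h62q_rho_ker_le (hℓ : ℓ.Prime) (hM : ¬ ℓ ∣ M) (hA : A.LiesOverPrime ℓ) :
    RingHom.ker (h62qRho A hℓ hM hA) ≤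
      (maximalIdeal A).map (algebraMap A (chart M A (jB M))) := by
  intro s hs
  rw [RingHom.mem_ker, h62q_rho_apply] at hs
  obtain ⟨c, x', -, hc, hx', hsx⟩ := exists_eq_cst_mul_of_gaussR_eq_zero_fin A M hℓ hM hA
    ⟨(s : FF M), modelFin_le_gaussV A M hℓ hM hA s.2⟩ s.2 hs
  have hcA : c ∈ A := A.nonunits_subset hc
  have e : s = algebraMap A (chart M A (jB M)) ⟨c, hcA⟩ * ⟨x', hx'⟩ := Subtype.ext hsx
  rw [e]
  exact Ideal.mul_mem_right _ _
    (Ideal.mem_map_of_mem _ (ValuationSubring.coe_mem_nonunits_iff.mp hc))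

/-- an element of the chart outside a prime containing `𝔪_A · chart` is a Gauss unit. -/
theorem h62q_inv_mem_gaussV (hℓ : ℓ.Prime) (hM : ¬ ℓ ∣ M) (hA : A.LiesOverPrime ℓ)
    (𝔫 : Ideal (chart M A (jB M)))
    (h𝔪 : (maximalIdeal A).map (algebraMap A (chart M A (jB M))) ≤ 𝔫)
    {s : chart M A (jB M)} (hs : s ∉ 𝔫) : (s : FF M)⁻¹ ∈ gaussV A M := by
  have h1 : h62qRho A hℓ hM hA s ≠ 0 := fun h0 =>
    hs (h𝔪 (h62q_rho_ker_le A hℓ hM hA ((RingHom.mem_ker).mpr h0)))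
  exact ((h62q_rho_ne_zero_iff A hℓ hM hA s).mp h1).2

theorem h62q_O_gauss (hℓ : ℓ.Prime) (hM : ¬ ℓ ∣ M) (hA : A.LiesOverPrime ℓ)
    {Q : Place Kbar (FF M)} (hQ : IsFinAt A Q) [h𝔫 : (h62qCen A hQ).IsPrime] :
    ∀ f ∈ h62qO A (h62qCen A hQ), f ∈ gaussV A M := by
  rintro f ⟨r, s, hs, hf⟩
  have hs0 : (s : FF M) ≠ 0 := h62q_coe_ne_zero A hQ hs
  have e : f = (r : FF M) * (s : FF M)⁻¹ := (eq_mul_inv_iff_mul_eq₀ hs0).mpr hf
  rw [e]
  exact mul_mem (modelFin_le_gaussV A M hℓ hM hA r.2)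
    (h62q_inv_mem_gaussV A hℓ hM hA _ (h62q_map_le_cen A hQ) hs)

theorem h62q_O_char (hℓ : ℓ.Prime) (hM : ¬ ℓ ∣ M) (hA : A.LiesOverPrime ℓ)
    {Q : Place Kbar (FF M)} (hQ : IsFinAt A Q) [h𝔫 : (h62qCen A hQ).IsPrime] :
    ∀ f ∈ gaussV A M, (∀ P, SameRed A P Q → f ∈ P.toValuationSubring) →
      f ∈ h62qO A (h62qCen A hQ) := by
  intro f hfV hreg
  have hC : IfaceChart M A (jB M) := ifaceChart_fin hℓ hM hA
  obtain ⟨a, ha, s, hs, h1⟩ := h26_stepC hC.hfin hC.hint hC.hB (h62qCen A hQ) f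
    (fun k hk => k.1.adicValuation_le_one_of_mem
      (hreg k.1 (h62q_centered_sameRed A hQ k hk)))
  have h2 : (s : FF M) * f ∈ chart M A (jB M) :=
    hC.hQEP a ha _ (mul_mem (hC.hBV _ s.2) hfV) h1
  exact ⟨⟨(s : FF M) * f, h2⟩, s, hs, mul_comm _ _⟩

theorem h62q_discChar (hℓ : ℓ.Prime) (hM : ¬ ℓ ∣ M) (hA : A.LiesOverPrime ℓ)
    {Q : Place Kbar (FF M)} (hQ : IsFinAt A Q) [h𝔫 : (h62qCen A hQ).IsPrime] :
    H37DiscChar A Q (h62qO A (h62qCen A hQ)) :=
  ⟨h62q_O_gauss A hℓ hM hA hQ, h62q_O_char A hℓ hM hA hQ⟩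

/-- **GEO-DISC with the bridge**: `H37DiscExistsC`. -/
theorem h62q_discExistsC : H37DiscExistsC := by
  intro ℓ hℓ M _ hM haux A hA v hv
  obtain ⟨u, hu, huV, hfix⟩ := h62q_exists_param A hℓ hM haux hA hv
  obtain ⟨Q, hQv, hQ0⟩ := h62q_exists_zero A hℓ hM hA hv u hu.1 huV
  have hQ : IsFinAt A Q := (sameRed_isFinAt_iff hQv).mpr hv
  have hcen : h62qCen A hQ = h62qCen A hv := h62q_cen_eq_of_sameRed A hQ hv hQv
  have hmax : (h62qCen A hQ).IsMaximal := h62q_cen_isMaximal A hQ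
  have hprime : (h62qCen A hQ).IsPrime := hmax.isPrime
  have hu' : H62qParam A hQ u := by
    unfold H62qParam
    rw [hcen]
    exact hu
  exact ⟨Q, (u : FF M), h62qO A (h62qCen A hQ), sameRed_symm hQv,
    h62q_discAt A hℓ hM hA hQ u hu' hQ0 hfix, h62q_discChar A hℓ hM hA hQ⟩

/-- the disc calculus with the bridge at ANY inertia-fixed finite place `Q` of a good level
(for consumers which choose the centres themselves). -/
theorem h62q_discAt_of_fixed (hℓ : ℓ.Prime) (hM : ¬ ℓ ∣ M) (haux : auxLevel ℓ ∣ M)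
    (hA : A.LiesOverPrime ℓ) {Q : Place Kbar (FF M)} (hQ : IsFinAt A Q)
    (hQfix : ∀ σ ∈ A.inertiaSubgroupIn ℚ, gal M σ • Q = Q) :
    ∃ (t : FF M) (O : Subring (FF M)), H37DiscAt A Q t O ∧ H37DiscChar A Q O := by
  obtain ⟨u, hu, huV, hfix⟩ := h62q_exists_param A hℓ hM haux hA hQ
  obtain ⟨Q', hQ'Q, hQ'0⟩ := h62q_exists_zero A hℓ hM hA hQ u hu.1 huV
  have hmax : (h62qCen A hQ).IsMaximal := h62q_cen_isMaximal A hQ
  have hprime : (h62qCen A hQ).IsPrime := hmax.isPrime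
  have hfin : IfaceFinite M A (jB M) := Fermat.Agent.Red.ModelO.h85_modelFin_fg hℓ hM hA
  -- the value `a₀ = u(Q)` is inertia-fixed and small; `t = u - a₀`
  set a₀ : A := h62qEv A hQ u with ha₀
  have ha₀Q : ValueAt Q (u : FF M) (a₀ : Kbar) := h62q_ev_spec A hQ u
  have ha₀fix : ∀ σ ∈ A.inertiaSubgroupIn ℚ, σ (a₀ : Kbar) = (a₀ : Kbar) := by
    intro σ hσ
    have h2 := Fermat.Agent.S37.GalI.valueAt_gal σ ha₀Q
    rw [hfix σ hσ, hQfix σ hσ] at h2
    exact valueAt_unique h2 ha₀Q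
  set t : chart M A (jB M) := u - algebraMap A (chart M A (jB M)) a₀ with ht
  have hta₀ : algebraMap A (chart M A (jB M)) a₀ ∈ h62qCen A hQ := by
    rw [h62q_mem_cen, h62q_ev_algebraMap]
    exact hu.1
  have htP : H62qParam A hQ t := by
    refine ⟨(h62qCen A hQ).sub_mem hu.1 hta₀, fun y hy => ?_⟩
    obtain ⟨s, hs, hsy⟩ := hu.2 y hy
    refine ⟨s, hs, ?_⟩
    have hle : Ideal.span {u} ⊔ (maximalIdeal A).map (algebraMap A (chart M A (jB M))) ≤
        Ideal.span {t} ⊔ (maximalIdeal A).map (algebraMap A (chart M A (jB M))) := by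
      refine sup_le ?_ le_sup_right
      rw [Ideal.span_le, Set.singleton_subset_iff]
      have e : u = t + algebraMap A (chart M A (jB M)) a₀ := by rw [ht]; ring
      rw [e]
      exact Ideal.add_mem _ (Ideal.mem_sup_left (Ideal.mem_span_singleton_self t))
        (Ideal.mem_sup_right (Ideal.mem_map_of_mem _ hu.1))
    exact hle hsy
  have ht0 : ValueAt Q (t : FF M) 0 := by
    have h1 := valueAt_sub ha₀Q (valueAt_cst Q (a₀ : Kbar))
    rwa [sub_self] at h1
  have htfix : ∀ σ ∈ A.inertiaSubgroupIn ℚ, gal M σ • (t : FF M) = (t : FF M) := by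
    intro σ hσ
    show gal M σ • ((u : FF M) - cst M (a₀ : Kbar)) = (u : FF M) - cst M (a₀ : Kbar)
    rw [smul_sub, hfix σ hσ, Fermat.Agent.S37.GalI.gal_smul_cst, ha₀fix σ hσ]
  exact ⟨(t : FF M), h62qO A (h62qCen A hQ),
    h62q_discAt A hℓ hM hA hQ t htP ht0 htfix, h62q_discChar A hℓ hM hA hQ⟩

end Fermat.Agent.P5
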