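import Fermat.Agent.P5.H71RepAbs
import Fermat.Agent.P5.H13SFIface
import Fermat.Agent.P5.H96LawIface
import Fermat.Agent.P5.H78RRMoving
import Fermat.Agent.Red.MatchLoc

/-!
# Wave 5, pillar (P), block GEO: `H96Chart.Valid.rep` / `rep_unique` from the frozen GEO-RR
interface (helper71)

Consumer of helper13's frozen interface (`P5/H13RRIface.lean`, `P5/H13SFIface.lean`):
`r` a reduction map of places (`H13sIsRed A M r`), `H13rBase` on both fibres, the Riemann
inequality on the generic fibre, centres `Q i` with pairwise distinct reductions and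
`ℓ~ (∑ r (Q i)) = 1`.

* `h71r_red_of_isRed` : `H13sIsRed A M r → H71rRed r` (Gauss normalisation);
* `h71r_push_redKer` : `r_* D = 0` for `D ∈ redKer M A`;
* `h71r_rep`, `h71r_rep_unique` : the two fields of `H96Chart.Valid`, verbatim;
* `h71r_centres` : choice of the centres (from `H13rMoving` on the special fibre), outside any
  finite set of places of the special fibre.
-/

set_option autoImplicit false
set_option linter.unusedSectionVars false
set_option linter.style.haveILetI false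

open AlgebraicCurve ModularCurve

noncomputable section

namespace Fermat.Agent.P5

open Fermat.Agent.S37 Fermat.Agent.Red.GV

/-! ### Orders and values -/

theorem h71r_ord_pos_of_mem_nonunits {K F : Type*} [Field K] [Field F] [Algebra K F]
    (v : Place K F) {x : F} (hx0 : x ≠ 0) (hx : x ∈ v.toValuationSubring.nonunits) :
    0 < v.ord x := by
  obtain ⟨hxm, hmax⟩ := ValuationSubring.mem_nonunits_iff_exists_mem_maximalIdeal.mp hx
  have h0 : 0 ≤ v.ord x := (Fermat.Agent.S24.DiffPlace.ord_nonneg_iff_mem v).mpr hxm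
  rcases h0.lt_or_eq with h | h
  · exact h
  · exfalso
    have hz0 : (⟨x, hxm⟩ : v.toValuationSubring) ≠ 0 := fun h' => hx0 (congrArg Subtype.val h')
    have hu := Fermat.Agent.S24.DiffPlace.isUnit_of_ord_eq_zero v hz0 h.symm
    exact (IsLocalRing.mem_maximalIdeal _).mp hmax hu

theorem h71r_hval {M : ℕ} [NeZero M] (v : Place Kbar (FF M)) (f : FF M) (hf : 0 ≤ v.ord f) :
    ∃ a : Kbar, f - algebraMap Kbar (FF M) a = 0 ∨ 0 < v.ord (f - algebraMap Kbar (FF M) a) := by
  obtain ⟨c, hc⟩ := Fermat.Agent.Red.Match.exists_valueAt v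
    ((Fermat.Agent.S24.DiffPlace.ord_nonneg_iff_mem v).mp hf)
  refine ⟨c, ?_⟩
  by_cases h0 : f - algebraMap Kbar (FF M) c = 0
  · exact Or.inl h0
  · exact Or.inr (h71r_ord_pos_of_mem_nonunits v h0 hc)

/-! ### The reduction datum -/

section Red

variable {ℓ : ℕ} {M : ℕ} [NeZero M] {A : ValuationSubring Kbar}
  {r : Place Kbar (FF M) → Place (h13sK A) (h13sFt A M)}

/-- Gauss normalisation: `H13sIsRed` gives the abstract reduction datum. -/
theorem h71r_red_of_isRed (hℓ : ℓ.Prime) (hM : ¬ ℓ ∣ M) (hA : A.LiesOverPrime ℓ)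
    (hr : H13sIsRed A M r) : H71rRed r := by
  refine ⟨hr.1, fun f hf D hD => ?_⟩
  obtain ⟨c, hc0, h1, h2⟩ := exists_cst_mul_unit A M hℓ hM hA f hf
  have hcc : cst M c ≠ 0 := by
    simpa only [cst, ne_eq, map_eq_zero] using hc0
  refine ⟨h13sRed A M ⟨cst M c * f, h1⟩, ?_, fun Q => ?_⟩
  · intro h0
    have h3 : gaussR A M ⟨cst M c * f, h1⟩ = 0 := by
      have := congrArg (h13sIncl A M) h0
      rwa [h13sIncl_red, map_zero] at this
    rcases (gaussR_eq_zero_iff A M hℓ hM hA _).mp h3 with h4 | h4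
    · exact (mul_ne_zero hcc hf) h4
    · exact h4 h2
  · refine hr.2.2 (cst M c * f) h1 h2 D (fun v => ?_) Q
    rw [hD v, v.ord_mul hcc hf, Fermat.Agent.S24.DiffPlace.ord_algebraMap, zero_add]

/-- divisors in `redKer` reduce to zero. -/
theorem h71r_push_redKer (hr : H13sIsRed A M r) {D : Divisor Kbar (FF M)}
    (hD : D ∈ redKer M A) : Finsupp.mapDomain r D = 0 := by
  unfold redKer at hD
  induction hD using AddSubgroup.closure_induction with
  | mem E hE =>
    obtain ⟨v, w, hvw, rfl⟩ := hE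
    rw [← Finsupp.mapDomain.addMonoidHom_apply, map_sub, Finsupp.mapDomain.addMonoidHom_apply,
      Finsupp.mapDomain.addMonoidHom_apply, Finsupp.mapDomain_single, Finsupp.mapDomain_single,
      (hr.2.1 v w).mpr hvw, sub_self]
  | zero => exact Finsupp.mapDomain_zero
  | add E E' _ _ hE hE' => rw [Finsupp.mapDomain_add, hE, hE', add_zero]
  | neg E _ hE =>
    rw [← Finsupp.mapDomain.addMonoidHom_apply, map_neg, Finsupp.mapDomain.addMonoidHom_apply,
      hE, neg_zero]

end Red

/-! ### The class of `∑ (P i - Q i)` -/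

section Cls

variable {M : ℕ} [NeZero M] {g : ℕ}

theorem h71r_sum_sub (P Q : Fin g → Place Kbar (FF M)) :
    (∑ i, (Finsupp.single (P i) (1 : ℤ) - Finsupp.single (Q i) (1 : ℤ))) =
      (∑ i, Finsupp.single (P i) (1 : ℤ)) - ∑ i, Finsupp.single (Q i) (1 : ℤ) :=
  Finset.sum_sub_distrib _ _

theorem h71r_sum_sub_mem_degZero (hB : H13rBase Kbar (FF M)) (P Q : Fin g → Place Kbar (FF M)) :
    (∑ i, (Finsupp.single (P i) (1 : ℤ) - Finsupp.single (Q i) (1 : ℤ))) ∈
      Divisor.degZero (K := Kbar) (F := FF M) := by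
  rw [Divisor.mem_degZero, h71r_sum_sub, map_sub, h71r_degree_sum_single hB P,
    h71r_degree_sum_single hB Q, sub_self]

/-- `Pic0.mk D = Pic0.mk D'` as soon as `D' - D` is principal. -/
theorem h71r_mk_eq {D D' : Divisor.degZero (K := Kbar) (F := FF M)}
    (h : Divisor.IsPrincipal ((D' : Divisor Kbar (FF M)) - (D : Divisor Kbar (FF M)))) :
    (Pic0.mk D : JZero M) = Pic0.mk D' := by
  unfold Pic0.mk
  rw [QuotientAddGroup.eq, AddSubgroup.mem_addSubgroupOf, Divisor.mem_principal]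
  have h1 : ((-D + D' : Divisor.degZero (K := Kbar) (F := FF M)) : Divisor Kbar (FF M)) =
      (D' : Divisor Kbar (FF M)) - (D : Divisor Kbar (FF M)) := by
    rw [AddSubgroup.coe_add, AddSubgroup.coe_neg]
    abel
  rw [h1]
  exact h

theorem h71r_principal_of_mk_eq {D D' : Divisor.degZero (K := Kbar) (F := FF M)}
    (h : (Pic0.mk D : JZero M) = Pic0.mk D') :
    Divisor.IsPrincipal ((D' : Divisor Kbar (FF M)) - (D : Divisor Kbar (FF M))) := by
  unfold Pic0.mk at h
  rw [QuotientAddGroup.eq, AddSubgroup.mem_addSubgroupOf, Divisor.mem_principal] at h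
  have h1 : ((-D + D' : Divisor.degZero (K := Kbar) (F := FF M)) : Divisor Kbar (FF M)) =
      (D' : Divisor Kbar (FF M)) - (D : Divisor Kbar (FF M)) := by
    rw [AddSubgroup.coe_add, AddSubgroup.coe_neg]
    abel
  rw [h1] at h
  exact h

end Cls

/-! ### The two fields of `H96Chart.Valid` -/

section Main

variable {ℓ : ℕ} {M : ℕ} [NeZero M] {A : ValuationSubring Kbar}
  {r : Place Kbar (FF M) → Place (h13sK A) (h13sFt A M)} {g : ℕ}

/-- **`H96Chart.Valid.rep`**, verbatim, for centres with distinct reductions and non-special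
reduced divisor. -/
theorem h71r_rep (hℓ : ℓ.Prime) (hM : ¬ ℓ ∣ M) (hA : A.LiesOverPrime ℓ)
    (hr : H13sIsRed A M r) (hB : H13rBase Kbar (FF M))
    (hRiem : ∀ D : Divisor Kbar (FF M), (g : ℤ) ≤ Divisor.degree D → riemannRochSpace D ≠ ⊥)
    (Q : Fin g → Place Kbar (FF M)) (hQ : Function.Injective fun i => r (Q i))
    (hns : h13rL (h13sK A) (h13sFt A M) (∑ i, Finsupp.single (r (Q i)) (1 : ℤ)) = 1) :
    ∀ x ∈ redKerPic M A, ∃ P : Fin g → Place Kbar (FF M),
      (∀ i, SameRed A (P i) (Q i)) ∧ h96m_IsCls x P Q := by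
  rintro x ⟨D, hDred, rfl⟩
  obtain ⟨P, hP, f, hf0, hdiv⟩ := h71r_rep_div (h71r_red_of_isRed hℓ hM hA hr) hB hRiem Q hQ hns
    (D : Divisor Kbar (FF M)) (Divisor.mem_degZero.mp D.2) (h71r_push_redKer hr hDred)
  refine ⟨P, fun i => (hr.2.1 _ _).mp (hP i), ⟨_, h71r_sum_sub_mem_degZero hB P Q⟩, rfl, ?_⟩
  refine h71r_mk_eq ⟨f, hf0, fun v => ?_⟩
  rw [← hdiv v]
  show ((∑ i, (Finsupp.single (P i) (1 : ℤ) - Finsupp.single (Q i) (1 : ℤ))) -
    (D : Divisor Kbar (FF M))) v = _
  rw [h71r_sum_sub]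

/-- **`H96Chart.Valid.rep_unique`**, verbatim. -/
theorem h71r_rep_unique (hℓ : ℓ.Prime) (hM : ¬ ℓ ∣ M) (hA : A.LiesOverPrime ℓ)
    (hr : H13sIsRed A M r) (hB : H13rBase Kbar (FF M))
    (hBs : H13rBase (h13sK A) (h13sFt A M))
    (Q : Fin g → Place Kbar (FF M)) (hQ : Function.Injective fun i => r (Q i))
    (hns : h13rL (h13sK A) (h13sFt A M) (∑ i, Finsupp.single (r (Q i)) (1 : ℤ)) = 1) :
    ∀ (x : JZero M) (P P' : Fin g → Place Kbar (FF M)),
      (∀ i, SameRed A (P i) (Q i)) → (∀ i, SameRed A (P' i) (Q i)) →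
      h96m_IsCls x P Q → h96m_IsCls x P' Q → P = P' := by
  rintro x P P' hP hP' ⟨D, hD, hx⟩ ⟨D', hD', hx'⟩
  haveI := hBs.infinite
  obtain ⟨f, -, hf⟩ := h71r_principal_of_mk_eq (hx.symm.trans hx')
  refine (h71r_unique_div (h71r_red_of_isRed hℓ hM hA hr) hB h71r_hval Q hQ hns P' P
    (fun i => (hr.2.1 _ _).mpr (hP' i)) (fun i => (hr.2.1 _ _).mpr (hP i)) f fun v => ?_).symm
  rw [← hf v, hD, hD', h71r_sum_sub, h71r_sum_sub]
  simp only [Finsupp.coe_sub, Pi.sub_apply]
  ring

end Main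

/-! ### Choice of the centres -/

section Centres

variable {K F k Ft : Type*} [Field K] [Field F] [Algebra K F] [Field k] [Field Ft]
  [Algebra k Ft]

/-- centres with pairwise distinct reductions outside a given finite set of places of the
special fibre, with non-special reduced divisor. -/
theorem h71r_centres {r : Place K F → Place k Ft} (hr : Function.Surjective r)
    (hBs : H13rBase k Ft) {g : ℕ} (hgs : H13rIsGenus k Ft g) (S : Finset (Place k Ft)) :
    ∃ Q : Fin g → Place K F, (Function.Injective fun i => r (Q i)) ∧ (∀ i, r (Q i) ∉ S) ∧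
      h13rL k Ft (∑ i, Finsupp.single (r (Q i)) (1 : ℤ)) = 1 := by
  classical
  obtain ⟨T, hTS, hTc, hT1⟩ := h78m_moving hBs g hgs S
  let e : Fin g ≃ ↥T := (T.equivFinOfCardEq hTc).symm
  have hex : ∀ i : Fin g, ∃ v : Place K F, r v = ((e i : ↥T) : Place k Ft) := fun i => hr _
  choose Q hQ using hex
  refine ⟨Q, ?_, ?_, ?_⟩
  · intro i j hij
    have h1 : ((e i : ↥T) : Place k Ft) = ((e j : ↥T) : Place k Ft) := by
      rw [← hQ i, ← hQ j]
      exact hij
    exact e.injective (Subtype.ext h1)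
  · intro i hi
    rw [hQ i] at hi
    exact (Finset.disjoint_left.mp hTS (e i).2) hi
  · have h1 : (∑ i, Finsupp.single (r (Q i)) (1 : ℤ)) = h13rSum k Ft T := by
      unfold h13rSum
      rw [← Finset.sum_coe_sort T fun v => Finsupp.single v (1 : ℤ),
        ← Equiv.sum_comp e fun t : ↥T => Finsupp.single (t : Place k Ft) (1 : ℤ)]
      exact Finset.sum_congr rfl fun i _ => by rw [hQ i]
    rw [h1]
    exact hT1

end Centres

end Fermat.Agent.P5
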