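import Fermat.Agent.P5.H60RedDiv
import Fermat.Agent.P5.H37DiscIface
import Fermat.Agent.P5.H40RRInst

/-!
# Wave 5, pillar (P), block GEO-LINK, sub-leaf LINK-MEM (helper81)

**Gauss-integral functions which are regular on a residue disc lie in the ring of the disc.**

`M` a good level, `A` a valuation subring of `ℚ̄` over `ℓ`, `Q` a finite place of `F_M`.

* `h81m_exact_chart` : EXACT form of the local factorisation at a closed point `n` of a chart
  (`h26_local_factor`, before any reduction): a Gauss unit `x` without poles at the places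
  centred at `n` lies in the local ring of the chart at `n`: `s * x ∈ R` with `s ∈ R ∖ n`.
* `h81m_exact_fin` : the same on the finite chart at a good level, unconditional.
* `h81mPt hQ` : the closed point of the finite chart below the finite place `Q`;
  `h81m_pt_isMaximal`, `h81m_maxExt_le_pt`, `h81m_sameRed_of_centeredAt`, `h81m_unit_of_not_mem`.
* `h81m_mem_of` : `f` Gauss-integral, `0 ≤ ord_P f` for all `P` in the disc of `Q`
  ⟹ `f ∈ O`, for every subring `O ⊇ modelFin M A`, containing the constants of `A`, in which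
  the functions with a unit value at `Q` are invertible.
* `h81m_mem` : the same for `O` with `H37DiscAt A Q t O` (`P5/H37DiscIface.lean`).
* `h81m_div` : `f ∈ O` with `f(Q) = 0` ⟹ `f = t * h`, `h ∈ O` (from `O_div`).
-/

set_option autoImplicit false
set_option linter.unusedSectionVars false
set_option linter.unusedVariables false

open AlgebraicCurve ModularCurve WithZero IsLocalRing

noncomputable section

namespace Fermat.Agent.P5

open Fermat.Agent.S37 Fermat.Agent.Red.GV Fermat.Agent.Red.Match Fermat.Agent.Red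
  Fermat.Agent.Red.Nz

variable {M : ℕ} [NeZero M] {A : ValuationSubring Kbar} {ℓ : ℕ}

/-- **Exact local membership at a closed point of a chart.** -/
theorem h81m_exact_chart (hℓ : ℓ.Prime) (hM : ¬ ℓ ∣ M) (hA : A.LiesOverPrime ℓ) (t : FF M)
    (hC : GG.IfaceChart M A t) (hS : GG.IfaceSection M A t)
    (n : Ideal (modelAt M A t)) (hn : n.IsMaximal) (hmax : maxExt A (modelAt M A t) ≤ n)
    (t' : GG.chart M A t) (ht'n : t' ∈ (n : Ideal (GG.chart M A t)))
    (ht'0 : ((t' : GG.chart M A t) : FF M) ≠ 0)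
    (ht'V : ((t' : GG.chart M A t) : FF M)⁻¹ ∈ gaussV A M)
    (hprin : ∀ y ∈ (n : Ideal (GG.chart M A t)), ∃ s, s ∉ (n : Ideal (GG.chart M A t)) ∧
      s * y ∈ Ideal.span {t'} ⊔ (maximalIdeal A).map (algebraMap A (GG.chart M A t)))
    (x : FF M) (hx0 : x ≠ 0) (hxV : x ∈ gaussV A M) (hxiV : x⁻¹ ∈ gaussV A M)
    (T₀ : Finset (Place Kbar (FF M))) (hT₀c : ∀ v ∈ T₀, CenteredAt A (modelAt M A t) n v)
    (hT₀all : ∀ v : Place Kbar (FF M), CenteredAt A (modelAt M A t) n v → v.ord x ≠ 0 →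
      v ∈ T₀)
    (hpos : ∀ v ∈ T₀, 0 ≤ v.ord x) :
    ∃ s : modelAt M A t, s ∉ n ∧ (s : FF M) * x ∈ modelAt M A t := by
  classical
  have hnP : (n : Ideal (GG.chart M A t)).IsPrime := hn.isPrime
  have hle := h89_map_le t n hmax
  have htm : t ∈ modelAt M A t :=
    ringAdj_le_modelAt M A t (Fermat.Agent.Red.Match.self_mem_ringAdj M A t)
  have hreg : ∀ v ∈ T₀, t ∈ v.toValuationSubring := fun v hv => by
    obtain ⟨a, ha⟩ := (hT₀c v hv).1 ⟨t, htm⟩
    exact valueAt_mem ha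
  set T : Finset (GG.ChartPlace M t) :=
    T₀.subtype (fun v => t ∈ v.toValuationSubring) with hT
  have hTmem : ∀ i : GG.ChartPlace M t, i ∈ T ↔ i.1 ∈ T₀ := fun i => Finset.mem_subtype
  have hTc : ∀ i ∈ T, h26Centered (GG.chart M A t) (GG.chartVal M t)
      (n : Ideal (GG.chart M A t)) i := fun i hi =>
    h89_h26Centered_of_centeredAt t n hn (hT₀c i.1 ((hTmem i).mp hi)) i.2
  have hval : ∀ i : GG.ChartPlace M t, GG.chartVal M t i x = exp (-(i.1.ord x)) := fun i =>
    i.1.adicValuation_eq_exp_neg_ord hx0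
  have hw1 : ∀ k, h26Centered (GG.chart M A t) (GG.chartVal M t)
      (n : Ideal (GG.chart M A t)) k → k ∉ T → GG.chartVal M t k x = 1 := by
    intro k hk hkT
    have hkc := h89_centeredAt_of_h26Centered t n hn hmax k hk
    have hord : k.1.ord x = 0 := by
      by_contra h0
      exact hkT ((hTmem k).mpr (hT₀all k.1 hkc h0))
    exact h89_adic_eq_one_of_ord_eq_zero k.1 hx0 hord
  by_cases hTe : T = ∅
  · have hw1' : ∀ k, h26Centered (GG.chart M A t) (GG.chartVal M t)
        (n : Ideal (GG.chart M A t)) k → GG.chartVal M t k x = 1 := fun k hk =>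
      hw1 k hk (by rw [hTe]; exact Finset.notMem_empty k)
    obtain ⟨s, hs, h1, -⟩ :=
      h26_local_unit (h𝔫 := hnP) hC (n : Ideal (GG.chart M A t)) x hxV hxiV hw1'
    exact ⟨s, hs, h1⟩
  · obtain ⟨i₀, hi₀⟩ := Finset.nonempty_iff_ne_empty.mpr hTe
    obtain ⟨φ₀, -, -⟩ := hS i₀ (n : Ideal (GG.chart M A t)) hn hle (hTc i₀ hi₀)
    have hex : ∀ i : GG.ChartPlace M t, ∃ φ : GG.chart M A t →ₐ[A] A, i ∈ T →
        ((∀ b : GG.chart M A t, φ b = 0 ↔ GG.chartVal M t i (b : FF M) < 1) ∧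
          (RingHom.ker (φ : GG.chart M A t →+* A)).FG) := by
      intro i
      by_cases hi : i ∈ T
      · obtain ⟨φ, h1, h2⟩ := hS i (n : Ideal (GG.chart M A t)) hn hle (hTc i hi)
        exact ⟨φ, fun _ => ⟨h1, h2⟩⟩
      · exact ⟨φ₀, fun h => (hi h).elim⟩
    choose φ hφ using hex
    obtain ⟨s, hs, h1, -⟩ := h26_local_factor (h𝔫 := hnP) hC (n : Ideal (GG.chart M A t)) hle
      t' ht'n ht'0
      ht'V hprin T φ (fun i hi => (hφ i hi).1) (fun i hi => (hφ i hi).2) hTc x hxV hxiV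
      (fun i => i.1.ord x) (fun i _ => hval i) hw1
    have hci : ∀ i ∈ T, φ i t' ∈ maximalIdeal A := fun i hi =>
      h26_section_local (B := GG.chart M A t) (h𝔫 := hnP) (n : Ideal (GG.chart M A t)) (φ i)
        (fun b hb => hTc i hi b (((hφ i hi).1 b).mp hb)) t' ht'n
    -- the linear factors are non-zero
    have hne : ∀ i ∈ T, (t' : FF M) - algebraMap A (FF M) (φ i t') ≠ 0 := by
      intro i hi h0
      have h3 : (t' : FF M) = cst M ((φ i t' : A) : Kbar) := sub_eq_zero.mp h0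
      have h4 : ((φ i t' : A) : Kbar) ≠ 0 := by
        intro h5
        rw [h5] at h3
        exact ht'0 (h3.trans (map_zero _))
      have h6 : cst M ((φ i t' : A) : Kbar)⁻¹ ∈ gaussV A M := by
        have h7 : cst M ((φ i t' : A) : Kbar)⁻¹ = (t' : FF M)⁻¹ := by
          rw [h3]
          exact map_inv₀ _ _
        rw [h7]
        exact ht'V
      have h8 : ((φ i t' : A) : Kbar)⁻¹ ∈ A := (cst_mem_gaussV_iff A M hA _).mp h6
      have h9 : ((φ i t' : A) : Kbar) ∈ A.nonunits :=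
        ValuationSubring.coe_mem_nonunits_iff.mpr (hci i hi)
      rw [ValuationSubring.mem_nonunits_iff_or] at h9
      rcases h9 with h9 | h9
      · exact h4 h9
      · exact h9 h8
    -- the positive powers of the linear factors lie in the chart
    have hpw : ∀ i ∈ T, ((t' : FF M) - algebraMap A (FF M) (φ i t')) ^ (i.1.ord x) ∈
        GG.chart M A t := by
      intro i hi
      obtain ⟨m, hm⟩ := Int.eq_ofNat_of_zero_le (hpos i.1 ((hTmem i).mp hi))
      rw [hm, zpow_natCast]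
      exact pow_mem (sub_mem t'.2 ((GG.chart M A t).algebraMap_mem _)) m
    have hprod : (∏ i ∈ T, ((t' : FF M) - algebraMap A (FF M) (φ i t')) ^ (i.1.ord x)) ∈
        GG.chart M A t := Subalgebra.prod_mem _ hpw
    have hcancel : (∏ i ∈ T, ((t' : FF M) - algebraMap A (FF M) (φ i t')) ^ (-(i.1.ord x))) *
        (∏ i ∈ T, ((t' : FF M) - algebraMap A (FF M) (φ i t')) ^ (i.1.ord x)) = 1 := by
      rw [← Finset.prod_mul_distrib]
      refine Finset.prod_eq_one (fun i hi => ?_)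
      rw [← zpow_add₀ (hne i hi), neg_add_cancel, zpow_zero]
    refine ⟨s, hs, ?_⟩
    have h2 : (s : FF M) * x =
        ((s : FF M) * (x * ∏ i ∈ T,
          ((t' : FF M) - algebraMap A (FF M) (φ i t')) ^ (-(i.1.ord x)))) *
        (∏ i ∈ T, ((t' : FF M) - algebraMap A (FF M) (φ i t')) ^ (i.1.ord x)) := by
      rw [mul_assoc, mul_assoc, hcancel, mul_one]
    rw [h2]
    exact mul_mem h1 hprod

/-- **Exact local membership, finite chart** (good level, unconditional). -/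
theorem h81m_exact_fin (hℓ : ℓ.Prime) (hM : ¬ ℓ ∣ M) (haux : auxLevel ℓ ∣ M)
    (hA : A.LiesOverPrime ℓ)
    (n : Ideal (modelFin M A)) (hn : n.IsMaximal) (hmax : maxExt A (modelFin M A) ≤ n)
    (x : FF M) (hx0 : x ≠ 0) (hxV : x ∈ gaussV A M) (hxiV : x⁻¹ ∈ gaussV A M)
    (hpos : ∀ v : Place Kbar (FF M), CenteredAt A (modelFin M A) n v → 0 ≤ v.ord x) :
    ∃ s : modelFin M A, s ∉ n ∧ (s : FF M) * x ∈ modelFin M A := by
  classical
  obtain ⟨⟨hC, -⟩, -, ⟨hS, -⟩, -, -⟩ := GG.gatePieces ℓ hℓ M hM haux A hA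
  obtain ⟨t', ht'n, ht'0, ht'V, hprin⟩ :=
    h60p_exists_unif_fin hℓ hM haux hA n hn (h89_map_le (jB M) n hmax)
  obtain ⟨D, hD, -⟩ := (h40r_base_FF (N := M)).pd x hx0
  exact h81m_exact_chart hℓ hM hA (jB M) hC hS n hn hmax t' ht'n ht'0 ht'V hprin x hx0 hxV
    hxiV (D.support.filter (fun v => CenteredAt A (modelFin M A) n v))
    (fun v hv => (Finset.mem_filter.mp hv).2)
    (fun v hc hv => Finset.mem_filter.mpr
      ⟨Finsupp.mem_support_iff.mpr (by rw [hD]; exact hv), hc⟩)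
    (fun v hv => hpos v (Finset.mem_filter.mp hv).2)

/-! ### The closed point below a finite place -/

/-- the closed point of the finite chart below the finite place `Q`. -/
def h81mPt {Q : Place Kbar (FF M)} (hQ : IsFinAt A Q) : Ideal (modelFin M A) :=
  RingHom.ker (rdFin hQ)

theorem h81m_mem_pt {Q : Place Kbar (FF M)} (hQ : IsFinAt A Q) (b : modelFin M A) :
    b ∈ h81mPt hQ ↔ ((evFin hQ b : A) : Kbar) ∈ A.nonunits := by
  unfold h81mPt
  rw [RingHom.mem_ker, rdFin_apply, IsLocalRing.residue_eq_zero_iff,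
    ← ValuationSubring.coe_mem_nonunits_iff]

/-- the evaluation of a constant. -/
theorem h81m_evFin_cst {Q : Place Kbar (FF M)} (hQ : IsFinAt A Q) {a : Kbar} (ha : a ∈ A)
    (h : cst M a ∈ modelFin M A) : ((evFin hQ ⟨cst M a, h⟩ : A) : Kbar) = a :=
  valueAt_unique (evFin_spec hQ ⟨cst M a, h⟩) (valueAt_cst Q a)

theorem h81m_cst_mem_modelFin {a : Kbar} (ha : a ∈ A) : cst M a ∈ modelFin M A :=
  cst_mem_modelAt M A (jB M) ha

theorem h81m_rdFin_surjective {Q : Place Kbar (FF M)} (hQ : IsFinAt A Q) :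
    Function.Surjective (rdFin hQ) := by
  intro c
  obtain ⟨a, rfl⟩ := IsLocalRing.residue_surjective c
  refine ⟨⟨cst M (a : Kbar), h81m_cst_mem_modelFin a.2⟩, ?_⟩
  rw [rdFin_apply]
  congr 1
  exact Subtype.ext (h81m_evFin_cst hQ a.2 _)

theorem h81m_pt_isMaximal {Q : Place Kbar (FF M)} (hQ : IsFinAt A Q) :
    (h81mPt hQ).IsMaximal :=
  RingHom.ker_isMaximal_of_surjective _ (h81m_rdFin_surjective hQ)

theorem h81m_maxExt_le_pt {Q : Place Kbar (FF M)} (hQ : IsFinAt A Q) :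
    maxExt A (modelFin M A) ≤ h81mPt hQ := by
  unfold maxExt
  rw [Ideal.span_le]
  rintro x ⟨a, ha, hxa⟩
  rw [SetLike.mem_coe, h81m_mem_pt]
  have h1 : ((evFin hQ x : A) : Kbar) = a := by
    refine valueAt_unique (evFin_spec hQ x) ?_
    rw [hxa]
    exact valueAt_cst Q a
  rw [h1]
  exact ha

/-- the places centred at the closed point of `Q` are the places of the disc of `Q`. -/
theorem h81m_sameRed_of_centeredAt {Q : Place Kbar (FF M)} (hQ : IsFinAt A Q)
    {P : Place Kbar (FF M)} (hP : CenteredAt A (modelFin M A) (h81mPt hQ) P) :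
    SameRed A P Q := by
  have hPf : IsFinAt A P := h89_isFinAt_of_centeredAt hP
  rw [sameRed_iff_fin hPf hQ]
  refine RingHom.ext (fun f => ?_)
  rw [rdFin_apply, rdFin_apply]
  -- `f - f(Q)` lies in the closed point
  have hc : cst M ((evFin hQ f : A) : Kbar) ∈ modelFin M A :=
    h81m_cst_mem_modelFin (evFin hQ f).2
  have hmem : f - ⟨cst M ((evFin hQ f : A) : Kbar), hc⟩ ∈ h81mPt hQ := by
    rw [h81m_mem_pt, map_sub]
    have h1 : ((evFin hQ ⟨cst M ((evFin hQ f : A) : Kbar), hc⟩ : A) : Kbar) =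
        ((evFin hQ f : A) : Kbar) := h81m_evFin_cst hQ (evFin hQ f).2 hc
    have h2 : ((evFin hQ f - evFin hQ ⟨cst M ((evFin hQ f : A) : Kbar), hc⟩ : A) : Kbar) = 0 := by
      push_cast
      rw [h1, sub_self]
    rw [h2]
    exact zero_mem _
  obtain ⟨a, ha, hfa⟩ := hP.2 _ hmem
  have h3 : ValueAt P ((f : FF M) - cst M ((evFin hQ f : A) : Kbar))
      (((evFin hPf f : A) : Kbar) - ((evFin hQ f : A) : Kbar)) :=
    valueAt_sub (evFin_spec hPf f) (valueAt_cst P _)
  have h4 : ((evFin hPf f : A) : Kbar) - ((evFin hQ f : A) : Kbar) = a :=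
    valueAt_unique h3 hfa
  have h5 : evFin hPf f - evFin hQ f ∈ maximalIdeal A := by
    rw [← ValuationSubring.coe_mem_nonunits_iff]
    push_cast
    rw [h4]
    exact ha
  rw [← sub_eq_zero, ← map_sub, IsLocalRing.residue_eq_zero_iff]
  exact h5

/-- a function of the finite chart outside the closed point of `Q` has a unit value at `Q`. -/
theorem h81m_unit_of_not_mem {Q : Place Kbar (FF M)} (hQ : IsFinAt A Q) {s : modelFin M A}
    (hs : s ∉ h81mPt hQ) :
    ∃ a : Kbar, ValueAt Q (s : FF M) a ∧ a ≠ 0 ∧ a⁻¹ ∈ A := by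
  refine ⟨((evFin hQ s : A) : Kbar), evFin_spec hQ s, ?_, ?_⟩
  · intro h0
    apply hs
    rw [h81m_mem_pt, h0]
    exact zero_mem _
  · by_contra hinv
    apply hs
    rw [h81m_mem_pt, ValuationSubring.mem_nonunits_iff_or]
    exact Or.inr hinv

/-! ### Membership in the ring of the disc -/

/-- **LINK-MEM** (general form): a Gauss-integral function which is regular at all places of
the residue disc of the finite place `Q` lies in every ring `O` containing the finite chart and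
the constants of `A`, in which functions with a unit value at `Q` are invertible. -/
theorem h81m_mem_of (hℓ : ℓ.Prime) (hM : ¬ ℓ ∣ M) (haux : auxLevel ℓ ∣ M)
    (hA : A.LiesOverPrime ℓ) {Q : Place Kbar (FF M)} (hQ : IsFinAt A Q) (O : Subring (FF M))
    (hOc : ∀ a, a ∈ A → cst M a ∈ O) (hOm : ∀ b ∈ modelFin M A, b ∈ O)
    (hOu : ∀ f ∈ O, ∀ a, ValueAt Q f a → a ≠ 0 → a⁻¹ ∈ A → f⁻¹ ∈ O)
    {f : FF M} (hf : f ∈ gaussV A M) (hreg : ∀ P, SameRed A P Q → 0 ≤ P.ord f) : f ∈ O := by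
  rcases eq_or_ne f 0 with rfl | hf0
  · exact zero_mem _
  obtain ⟨c, hc0, hxV, hxiV⟩ := exists_cst_mul_unit A M hℓ hM hA f hf0
  have hcc : cst M c ≠ 0 := by
    simpa only [cst, ne_eq, map_eq_zero] using hc0
  have hx0 : cst M c * f ≠ 0 := mul_ne_zero hcc hf0
  -- `c⁻¹ ∈ A`
  have hcinv : c⁻¹ ∈ A := by
    refine (cst_mem_gaussV_iff A M hA _).mp ?_
    have h1 : cst M c⁻¹ = (cst M c * f)⁻¹ * f := by
      have e : cst M c⁻¹ = (cst M c)⁻¹ := map_inv₀ _ _
      rw [e, mul_inv]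
      field_simp
    rw [h1]
    exact mul_mem hxiV hf
  have hord : ∀ P : Place Kbar (FF M), P.ord (cst M c * f) = P.ord f := by
    intro P
    rw [P.ord_mul hcc hf0, Fermat.Agent.S24.DiffPlace.ord_algebraMap, zero_add]
  obtain ⟨s, hs, hsx⟩ := h81m_exact_fin hℓ hM haux hA (h81mPt hQ) (h81m_pt_isMaximal hQ)
    (h81m_maxExt_le_pt hQ) (cst M c * f) hx0 hxV hxiV
    (fun v hv => by rw [hord]; exact hreg v (h81m_sameRed_of_centeredAt hQ hv))
  obtain ⟨a, hsa, ha0, hainv⟩ := h81m_unit_of_not_mem hQ hs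
  have hsO : (s : FF M) ∈ O := hOm _ s.2
  have hsinv : (s : FF M)⁻¹ ∈ O := hOu _ hsO a hsa ha0 hainv
  have hs0 : (s : FF M) ≠ 0 := by
    intro h0
    rw [h0] at hsa
    exact ha0 (valueAt_unique hsa (valueAt_zero Q))
  have h2 : f = cst M c⁻¹ * ((s : FF M)⁻¹ * ((s : FF M) * (cst M c * f))) := by
    have e : cst M c⁻¹ = (cst M c)⁻¹ := map_inv₀ _ _
    rw [e]
    field_simp
  rw [h2]
  exact mul_mem (hOc _ hcinv) (mul_mem hsinv (hOm _ hsx))

/-- **LINK-MEM**: a Gauss-integral function which is regular on the residue disc of the centre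
`Q` of a disc calculus lies in the ring `O` of the disc. -/
theorem h81m_mem (hℓ : ℓ.Prime) (hM : ¬ ℓ ∣ M) (haux : auxLevel ℓ ∣ M)
    (hA : A.LiesOverPrime ℓ) {Q : Place Kbar (FF M)} {t : FF M} {O : Subring (FF M)}
    (hd : H37DiscAt A Q t O) {f : FF M} (hf : f ∈ gaussV A M)
    (hreg : ∀ P, SameRed A P Q → 0 ≤ P.ord f) : f ∈ O :=
  h81m_mem_of hℓ hM haux hA hd.Q_fin O hd.O_cst hd.O_model hd.O_unit hf hreg


/-- **LINK-MEM for sections of `L(E)`**: a Gauss-integral element of `L(E)`, `E` without points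
in the residue disc of `Q`, lies in the ring of the disc. -/
theorem h81m_mem_of_L (hℓ : ℓ.Prime) (hM : ¬ ℓ ∣ M) (haux : auxLevel ℓ ∣ M)
    (hA : A.LiesOverPrime ℓ) {Q : Place Kbar (FF M)} {t : FF M} {O : Subring (FF M)}
    (hd : H37DiscAt A Q t O) {E : Divisor Kbar (FF M)}
    (hE : ∀ P, SameRed A P Q → E P = 0) {f : FF M} (hf : f ∈ gaussV A M)
    (hfE : f ∈ riemannRochSpace E) : f ∈ O := by
  refine h81m_mem hℓ hM haux hA hd hf (fun P hP => ?_)
  rcases (mem_riemannRochSpace_iff.mp hfE) P with h0 | h0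
  · rw [h0, Place.ord_zero]
  · rw [hE P hP, neg_zero] at h0
    exact h0

/-- **LINK-UNIT**: a Gauss unit without zeros and poles on the residue disc of `Q` is a unit of
the ring of the disc, and its value at `Q` is a unit of `A`. -/
theorem h81m_unit (hℓ : ℓ.Prime) (hM : ¬ ℓ ∣ M) (haux : auxLevel ℓ ∣ M)
    (hA : A.LiesOverPrime ℓ) {Q : Place Kbar (FF M)} {t : FF M} {O : Subring (FF M)}
    (hd : H37DiscAt A Q t O) {f : FF M} (hf0 : f ≠ 0) (hf : f ∈ gaussV A M)
    (hfi : f⁻¹ ∈ gaussV A M) (hreg : ∀ P, SameRed A P Q → P.ord f = 0) :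
    f ∈ O ∧ f⁻¹ ∈ O ∧ ∃ d : Kbar, ValueAt Q f d ∧ d ∈ A ∧ d ≠ 0 ∧ d⁻¹ ∈ A := by
  have h1 : f ∈ O := h81m_mem hℓ hM haux hA hd hf (fun P hP => (hreg P hP).ge)
  have h2 : f⁻¹ ∈ O := h81m_mem hℓ hM haux hA hd hfi (fun P hP => by
    rw [Place.ord_inv, hreg P hP, neg_zero])
  refine ⟨h1, h2, ?_⟩
  obtain ⟨d, hdA, hfd⟩ := hd.O_val f h1 Q hd.refl
  obtain ⟨d', hd'A, hfd'⟩ := hd.O_val f⁻¹ h2 Q hd.refl
  have h6 := valueAt_mul hfd hfd'
  rw [mul_inv_cancel₀ hf0] at h6
  have h7 : d * d' = 1 := valueAt_unique h6 (valueAt_one Q)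
  have hd0 : d ≠ 0 := fun h => by rw [h, zero_mul] at h7; exact zero_ne_one h7
  refine ⟨d, hfd, hdA, hd0, ?_⟩
  have h8 : d⁻¹ = d' := by
    rw [eq_comm, ← mul_right_inj' hd0, h7, mul_inv_cancel₀ hd0]
  rw [h8]
  exact hd'A

/-- division by the parameter: a function of `O` vanishing at the centre is `t * h`. -/
theorem h81m_div {Q : Place Kbar (FF M)} {t : FF M} {O : Subring (FF M)}
    (hd : H37DiscAt A Q t O) {f : FF M} (hf : f ∈ O) (h0 : ValueAt Q f 0) :
    ∃ h ∈ O, f = t * h := by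
  obtain ⟨h, hh, e⟩ := hd.O_div f hf Q hd.refl 0 0 h0 hd.t_zero
  refine ⟨h, hh, ?_⟩
  simpa only [cst, map_zero, sub_zero] using e

end Fermat.Agent.P5
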