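import Fermat.Agent.P5.H37DiscChar
import Fermat.Agent.P5.H81LinkMem
import Fermat.Agent.P5.H71Rep
import Fermat.Agent.P5.H13GBase
import Fermat.Agent.Red.GV.BarGalois

/-!
# P5 (wave 5, S19), row GEO-DISC-GAUSS (helper89): the bridge DISC ↔ RR for an ARBITRARY ring
of a disc calculus

`M` a good level, `A` a valuation subring of `ℚ̄` over `ℓ`, `r` THE reduction map of places
(`H13sIsRed A M r`).  The frozen leaves `H56gLink` / `H4sLinkRawLeaf` assume a disc calculus
`H37DiscAt A Q t O` for an arbitrary ring `O`; the construction of the link uses the bridge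
`H37DiscChar A Q O` (`O ⊆ gaussV`, and Gauss-integral functions regular on the disc lie in `O`).
Here the bridge is PROVED from the disc calculus and the reduction map:

* `h89g_exists_value` : **surjectivity on a disc.**  A Gauss unit `u`, regular on the residue disc
  of `Q`, with `u(Q) ∈ 𝔪_A`, takes EVERY value `e ∈ 𝔪_A` at some place of the disc
  (conservation of number: `u - u(Q)` and `u - e` have the same reduction).
* `h89g_gauss_of_val` : **maximum principle.**  A function with `A`-integral values at all places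
  of a residue disc is Gauss-integral.
* `h89g_O_gauss`, `h89g_param_gauss` : `O ⊆ gaussV A M` and `t ∈ gaussV A M` for every disc calculus.
* `h89g_discChar` : `H13sIsRed A M r → H37DiscAt A Q t O → H37DiscChar A Q O`
  (`O_char` is the landed `h81m_mem` of helper81).
-/

set_option autoImplicit false

open AlgebraicCurve ModularCurve

noncomputable section

namespace Fermat.Agent.P5

open Fermat.Agent.S37 Fermat.Agent.Red.GV

variable {ℓ : ℕ} {M : ℕ} [NeZero M] {A : ValuationSubring Kbar}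
  {r : Place Kbar (FF M) → Place (h13sK A) (h13sFt A M)}

/-- **surjectivity on a disc**: a Gauss unit which is regular on the residue disc of `Q` and
small at `Q` takes every value of `𝔪_A` on the disc. -/
theorem h89g_exists_value (hℓ : ℓ.Prime) (hM : ¬ ℓ ∣ M) (hA : A.LiesOverPrime ℓ)
    (hr : H13sIsRed A M r) (Q : Place Kbar (FF M)) {u : FF M} (hu : u ∈ gaussV A M)
    (hui : u⁻¹ ∈ gaussV A M) (hu0 : u ≠ 0)
    (hreg : ∀ P : Place Kbar (FF M), SameRed A P Q → u ∈ P.toValuationSubring)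
    {a0 : Kbar} (ha0 : a0 ∈ A.nonunits) (hQ : ValueAt Q u a0)
    {e : Kbar} (he : e ∈ A.nonunits) :
    ∃ P : Place Kbar (FF M), SameRed A P Q ∧ ValueAt P u e := by
  classical
  obtain ⟨-, hfib, hdiv⟩ := hr
  have hredne : gaussR A M ⟨u, hu⟩ ≠ 0 := by
    intro h0
    rcases (gaussR_eq_zero_iff A M hℓ hM hA _).1 h0 with h | h
    · exact hu0 h
    · exact h hui
  -- the functions `u - b`, `b ∈ 𝔪_A`, are Gauss units with the reduction of `u`
  have key : ∀ b : Kbar, b ∈ A.nonunits → ∃ hx : u - cst M b ∈ gaussV A M,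
      u - cst M b ≠ 0 ∧ (u - cst M b)⁻¹ ∈ gaussV A M ∧
      h13sRed A M ⟨u - cst M b, hx⟩ = h13sRed A M ⟨u, hu⟩ := by
    intro b hb
    have hbA : b ∈ A := (ValuationSubring.mem_nonunits_iff_exists_mem_maximalIdeal.1 hb).1
    have hcst : cst M b ∈ gaussV A M := (cst_mem_gaussV_iff A M hA b).2 hbA
    have hx : u - cst M b ∈ gaussV A M := Subring.sub_mem _ hu hcst
    have hred : gaussR A M ⟨u - cst M b, hx⟩ = gaussR A M ⟨u, hu⟩ := by
      have e' : (⟨u - cst M b, hx⟩ : gaussV A M) = ⟨u, hu⟩ - ⟨cst M b, hcst⟩ := rfl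
      rw [e', map_sub, gaussR_cst_of_nonunit A M hA b hb hcst, sub_zero]
    refine ⟨hx, ?_, ?_, Subtype.ext hred⟩
    · intro h
      apply hredne
      rw [← hred]
      have e' : (⟨u - cst M b, hx⟩ : gaussV A M) = 0 := Subtype.ext h
      rw [e', map_zero]
    · by_contra hcon
      apply hredne
      rw [← hred]
      exact (gaussR_eq_zero_iff A M hℓ hM hA ⟨_, hx⟩).2 (Or.inr hcon)
  obtain ⟨hx1, hx1ne, hx1i, hs1⟩ := key a0 ha0
  obtain ⟨hx2, hx2ne, hx2i, hs2⟩ := key e he
  obtain ⟨D1, hD1, -⟩ := (h13g_gBase M).pd _ hx1ne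
  obtain ⟨D2, hD2, -⟩ := (h13g_gBase M).pd _ hx2ne
  have e1 := hdiv _ hx1 hx1i D1 hD1 (r Q)
  have e2 := hdiv _ hx2 hx2i D2 hD2 (r Q)
  -- regularity on the class
  have hregx : ∀ (b : Kbar) (P : Place Kbar (FF M)), r P = r Q → 0 ≤ P.ord (u - cst M b) := by
    intro b P hP
    have hsr : SameRed A P Q := (hfib P Q).1 hP
    refine (Fermat.Agent.S24.DiffPlace.ord_nonneg_iff_mem P).2 (sub_mem (hreg P hsr) ?_)
    exact Fermat.Agent.Red.Match.valueAt_mem (Fermat.Agent.Red.Match.valueAt_cst P b)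
  have h1 : 1 ≤ D1 Q := by
    rw [hD1 Q]
    exact h71r_ord_pos_of_mem_nonunits Q hx1ne hQ
  have h3 : 1 ≤ h13sPush r D1 (r Q) :=
    le_trans h1 (h71r_push_ge r D1 (r Q) (fun P hP => by rw [hD1 P]; exact hregx a0 P hP) Q rfl)
  have h4 : 1 ≤ h13sPush r D2 (r Q) := by
    rw [e2, hs2, ← hs1, ← e1]
    exact h3
  by_contra hcon
  have h5 : h13sPush r D2 (r Q) = 0 := by
    unfold h13sPush
    rw [h71r_push_apply]
    refine Finset.sum_eq_zero fun P _ => ?_
    split_ifs with hP
    · have hsr : SameRed A P Q := (hfib P Q).1 hP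
      have h0 := hregx e P hP
      rw [hD2 P]
      rcases h0.lt_or_eq with h | h
      · exfalso
        have hm : u - cst M e ∈ P.toValuationSubring :=
          (Fermat.Agent.S24.DiffPlace.ord_nonneg_iff_mem P).1 h0
        have hmax := Fermat.Agent.S24.DiffPlace.mem_maximalIdeal_of_ord_pos P
          (z := ⟨u - cst M e, hm⟩) h
        exact hcon ⟨P, hsr, ValuationSubring.mem_nonunits_iff_exists_mem_maximalIdeal.2
          ⟨hm, hmax⟩⟩
      · exact h.symm
    · rfl
  omega

/-- **maximum principle on a residue disc**: a function whose values at all places of the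
residue disc of `Q` are `A`-integral is Gauss-integral. -/
theorem h89g_gauss_of_val (hℓ : ℓ.Prime) (hM : ¬ ℓ ∣ M) (hA : A.LiesOverPrime ℓ)
    (hr : H13sIsRed A M r) (Q : Place Kbar (FF M)) {f : FF M}
    (hval : ∀ P : Place Kbar (FF M), SameRed A P Q → ∃ a ∈ A, ValueAt P f a) :
    f ∈ gaussV A M := by
  by_contra hf
  have hf0 : f ≠ 0 := fun h => hf (h ▸ Subring.zero_mem _)
  obtain ⟨c, hc0, hu, hui⟩ := exists_cst_mul_unit A M hℓ hM hA f hf0
  -- `c ∈ 𝔪_A`
  have hcm : c ∈ A.nonunits := by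
    rw [ValuationSubring.mem_nonunits_iff_or]
    right
    intro hci
    apply hf
    have e' : f = cst M c⁻¹ * (cst M c * f) := by
      rw [← mul_assoc, ← map_mul, inv_mul_cancel₀ hc0, map_one, one_mul]
    rw [e']
    exact Subring.mul_mem _ ((cst_mem_gaussV_iff A M hA _).2 hci) hu
  -- a square root `e` of `c`
  obtain ⟨e, he⟩ := IsAlgClosed.exists_eq_mul_self c
  have he0 : e ≠ 0 := by
    rintro rfl
    exact hc0 (by rw [he, mul_zero])
  have hem : e ∈ A.nonunits := by
    rw [ValuationSubring.mem_nonunits_iff_or]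
    right
    intro hei
    have hci : c⁻¹ ∈ A := by
      rw [he, mul_inv]
      exact A.mul_mem _ _ hei hei
    rcases (ValuationSubring.mem_nonunits_iff_or A).1 hcm with h | h
    · exact hc0 h
    · exact h hci
  -- the Gauss unit `u = c f`
  have hcst0 : cst M c ≠ 0 := by
    simpa only [cst, ne_eq, map_eq_zero] using hc0
  have hu0 : cst M c * f ≠ 0 := mul_ne_zero hcst0 hf0
  obtain ⟨a0, ha0A, ha0⟩ := hval Q (Fermat.Agent.Red.Match.sameRed_refl A Q)
  have hQ : ValueAt Q (cst M c * f) (c * a0) :=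
    Fermat.Agent.Red.Match.valueAt_mul (Fermat.Agent.Red.Match.valueAt_cst Q c) ha0
  have hca0 : c * a0 ∈ A.nonunits := by
    rw [ValuationSubring.mem_nonunits_iff, map_mul]
    exact mul_lt_one_of_lt_of_le ((ValuationSubring.mem_nonunits_iff A).1 hcm)
      ((A.valuation_le_one_iff a0).2 ha0A)
  have hreg : ∀ P : Place Kbar (FF M), SameRed A P Q →
      cst M c * f ∈ P.toValuationSubring := by
    intro P hP
    obtain ⟨a, -, ha⟩ := hval P hP
    exact Fermat.Agent.Red.Match.valueAt_mem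
      (Fermat.Agent.Red.Match.valueAt_mul (Fermat.Agent.Red.Match.valueAt_cst P c) ha)
  obtain ⟨P, hP, hPe⟩ := h89g_exists_value hℓ hM hA hr Q hu hui hu0 hreg hca0 hQ hem
  obtain ⟨a, haA, ha⟩ := hval P hP
  have hPe' : ValueAt P (cst M c * f) (c * a) :=
    Fermat.Agent.Red.Match.valueAt_mul (Fermat.Agent.Red.Match.valueAt_cst P c) ha
  have heq : e = c * a := Fermat.Agent.Red.Match.valueAt_unique hPe hPe'
  -- `e = e e a`, so `e⁻¹ = a ∈ A`
  have h1 : e⁻¹ = a := by
    rw [he, mul_assoc] at heq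
    have h2 : e * 1 = e * (e * a) := by rw [mul_one]; exact heq
    have h3 : (1 : Kbar) = e * a := mul_left_cancel₀ he0 h2
    exact inv_eq_of_mul_eq_one_right h3.symm
  rcases (ValuationSubring.mem_nonunits_iff_or A).1 hem with h | h
  · exact he0 h
  · exact h (h1 ▸ haA)

/-- **`O_gauss` for every disc calculus**: the ring of a disc consists of Gauss-integral
functions. -/
theorem h89g_O_gauss (hℓ : ℓ.Prime) (hM : ¬ ℓ ∣ M) (hA : A.LiesOverPrime ℓ)
    (hr : H13sIsRed A M r) {Q : Place Kbar (FF M)} {t : FF M} {O : Subring (FF M)}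
    (hd : H37DiscAt A Q t O) : ∀ f ∈ O, f ∈ gaussV A M :=
  fun f hf => h89g_gauss_of_val hℓ hM hA hr Q (fun P hP => hd.O_val f hf P hP)

/-- the parameter of a disc calculus is Gauss-integral. -/
theorem h89g_param_gauss (hℓ : ℓ.Prime) (hM : ¬ ℓ ∣ M) (hA : A.LiesOverPrime ℓ)
    (hr : H13sIsRed A M r) {Q : Place Kbar (FF M)} {t : FF M} {O : Subring (FF M)}
    (hd : H37DiscAt A Q t O) : t ∈ gaussV A M :=
  h89g_O_gauss hℓ hM hA hr hd t hd.O_t

/-- **the bridge DISC ↔ RR for an arbitrary ring of a disc calculus.** -/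
theorem h89g_discChar (hℓ : ℓ.Prime) (hM : ¬ ℓ ∣ M) (haux : auxLevel ℓ ∣ M)
    (hA : A.LiesOverPrime ℓ) (hr : H13sIsRed A M r) {Q : Place Kbar (FF M)} {t : FF M}
    {O : Subring (FF M)} (hd : H37DiscAt A Q t O) : H37DiscChar A Q O where
  O_gauss := h89g_O_gauss hℓ hM hA hr hd
  O_char := fun _ hf hreg =>
    h81m_mem hℓ hM haux hA hd hf
      (fun P hP => (Fermat.Agent.S24.DiffPlace.ord_nonneg_iff_mem P).2 (hreg P hP))

/-- the parameter of a disc calculus takes every value of `𝔪_A` on the disc, as soon as it is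
a Gauss unit. -/
theorem h89g_param_surj (hℓ : ℓ.Prime) (hM : ¬ ℓ ∣ M) (hA : A.LiesOverPrime ℓ)
    (hr : H13sIsRed A M r) {Q : Place Kbar (FF M)} {t : FF M} {O : Subring (FF M)}
    (hd : H37DiscAt A Q t O) (ht0 : t ≠ 0) (hti : t⁻¹ ∈ gaussV A M)
    {e : Kbar} (he : e ∈ A.nonunits) :
    ∃ P : Place Kbar (FF M), SameRed A P Q ∧ ValueAt P t e := by
  refine h89g_exists_value hℓ hM hA hr Q (h89g_param_gauss hℓ hM hA hr hd) hti ht0 ?_
    (a0 := 0) ?_ hd.t_zero he
  · intro P hP
    obtain ⟨a, -, ha⟩ := hd.t_small P hP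
    exact Fermat.Agent.Red.Match.valueAt_mem ha
  · rw [ValuationSubring.mem_nonunits_iff_or]
    exact Or.inl rfl

end Fermat.Agent.P5
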