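import Fermat.Agent.P5.H56GeoAsm
import Fermat.Agent.P5.H71Rep
import Fermat.Agent.P5.H13GBase
import Fermat.Agent.Red.GV.BarGalois
import Fermat.Agent.Red.ModelO.Mid

/-!
# P5 (wave 5, S19), row GEO-INFFIN (helper89): the leaf `H56gInfFin`

`M` a good level, `A` a valuation subring of `ℚ̄` over `ℓ`, `r` THE reduction map of places
(`H13sIsRed A M r`).  The reductions of the places of `F_M` which are NOT finite at `A`
(`j(v) ∉ A`) lie in a finite set of places of the special fibre: the reductions of the zeros of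
`1 / j` (the cusps).

Proof.  Let `D = div (1 / j)` and `S = r (supp D)`.  For `v` not finite, `b := (1 / j)(v)` lies
in `𝔪_A`; the function `f := 1 / j - b` is Gauss-integral with the same reduction as `1 / j`
(a Gauss unit), it vanishes at `v` and it is regular at every place of the class of `v`
(all of them are non-finite).  By the RED-DIV clause of `H13sIsRed`, applied to `f` and to `1 / j`,
`(r_* D)(r v) = ord_{r v} (red (1 / j)) = ord_{r v} (red f) = (r_* div f)(r v) ≥ ord_v f ≥ 1`,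
so some zero of `1 / j` reduces to `r v`.

* `h89n_infFin : H56gInfFin` (the exact frozen Prop of `P5/H56GeoAsm.lean`), unconditional.
* `h89n_infFin_at` : the same at one `(M, A, r)`, with the explicit set.
-/

set_option autoImplicit false

open AlgebraicCurve ModularCurve

noncomputable section

namespace Fermat.Agent.P5

open Fermat.Agent.S37 Fermat.Agent.Red.GV

/-- the push-forward of a divisor vanishes at a place which is not the image of a point of the
support. -/
theorem h89n_push_eq_zero {α β : Type*} (r : α → β) (D : α →₀ ℤ) (b : β)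
    (h : ∀ a ∈ D.support, r a ≠ b) : Finsupp.mapDomain r D b = 0 := by
  classical
  rw [h71r_push_apply]
  refine Finset.sum_eq_zero fun a ha => ?_
  rw [if_neg (h a ha)]

/-- **INF-FIN** at one level: the reductions of the non-finite places are reductions of zeros of
`1 / j`. -/
theorem h89n_infFin_at {ℓ : ℕ} (hℓ : ℓ.Prime) {M : ℕ} [NeZero M] (hM : ¬ ℓ ∣ M)
    {A : ValuationSubring Kbar} (hA : A.LiesOverPrime ℓ)
    {r : Place Kbar (FF M) → Place (h13sK A) (h13sFt A M)} (hr : H13sIsRed A M r)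
    (D : Divisor Kbar (FF M)) (hD : ∀ v : Place Kbar (FF M), D v = v.ord (jB M)⁻¹)
    (v : Place Kbar (FF M)) (hv : ¬ IsFinAt A v) :
    ∃ w ∈ D.support, r w = r v := by
  classical
  obtain ⟨-, hfib, hdiv⟩ := hr
  have hj0 : (jB M)⁻¹ ≠ 0 := inv_ne_zero (Fermat.Agent.Red.ModelO.h85_jB_ne_zero M)
  -- the value of `1 / j` at `v`
  obtain ⟨b, hbA, hbv⟩ := Fermat.Agent.Red.Match.exists_valueAt_inv_of_not_isFinAt hv
  have hbA' : b ∈ A := (ValuationSubring.mem_nonunits_iff_exists_mem_maximalIdeal.1 hbA).1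
  have hjinv : (jB M)⁻¹ ∈ gaussV A M := jB_inv_mem_gaussV A M hℓ hM hA
  have hjunit : ((jB M)⁻¹)⁻¹ ∈ gaussV A M := by
    rw [inv_inv]
    exact jB_mem_gaussV A M
  have hcst : cst M b ∈ gaussV A M := (cst_mem_gaussV_iff A M hA b).2 hbA'
  -- the function `f = 1 / j - b`
  obtain ⟨f, hfdef⟩ : ∃ f : FF M, f = (jB M)⁻¹ - cst M b := ⟨_, rfl⟩
  have hf : f ∈ gaussV A M := by
    rw [hfdef]
    exact Subring.sub_mem _ hjinv hcst
  have hred : gaussR A M ⟨f, hf⟩ = gaussR A M ⟨(jB M)⁻¹, hjinv⟩ := by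
    have e : (⟨f, hf⟩ : gaussV A M) = ⟨(jB M)⁻¹, hjinv⟩ - ⟨cst M b, hcst⟩ :=
      Subtype.ext hfdef
    rw [e, map_sub, gaussR_cst_of_nonunit A M hA b hbA hcst, sub_zero]
  have hredne : gaussR A M ⟨(jB M)⁻¹, hjinv⟩ ≠ 0 := by
    intro h0
    rcases (gaussR_eq_zero_iff A M hℓ hM hA _).1 h0 with h | h
    · exact hj0 h
    · exact h hjunit
  have hf0 : f ≠ 0 := by
    intro h
    apply hredne
    rw [← hred]
    have e : (⟨f, hf⟩ : gaussV A M) = 0 := Subtype.ext h
    rw [e, map_zero]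
  have hfunit : f⁻¹ ∈ gaussV A M := by
    by_contra hcon
    apply hredne
    rw [← hred]
    exact (gaussR_eq_zero_iff A M hℓ hM hA ⟨f, hf⟩).2 (Or.inr hcon)
  -- the divisor of `f`
  obtain ⟨D', hD', -⟩ := (h13g_gBase M).pd f hf0
  have e1 := hdiv f hf hfunit D' hD' (r v)
  have e2 := hdiv (jB M)⁻¹ hjinv hjunit D hD (r v)
  have hsame : h13sRed A M ⟨f, hf⟩ = h13sRed A M ⟨(jB M)⁻¹, hjinv⟩ := Subtype.ext hred
  -- `f` vanishes at `v`
  have hfv : f ∈ v.toValuationSubring.nonunits := by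
    rw [hfdef]
    exact hbv
  have h1 : 1 ≤ D' v := by
    rw [hD' v]
    exact h71r_ord_pos_of_mem_nonunits v hf0 hfv
  -- `f` is regular on the class of `v`
  have h2 : ∀ w : Place Kbar (FF M), r w = r v → 0 ≤ D' w := by
    intro w hw
    have hsr : SameRed A w v := (hfib w v).1 hw
    have hwfin : ¬ IsFinAt A w := fun h => hv ((Fermat.Agent.Red.Match.sameRed_isFinAt_iff hsr).1 h)
    obtain ⟨b', -, hb'⟩ := Fermat.Agent.Red.Match.exists_valueAt_inv_of_not_isFinAt hwfin
    have hm1 : (jB M)⁻¹ ∈ w.toValuationSubring := Fermat.Agent.Red.Match.valueAt_mem hb'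
    have hm2 : cst M b ∈ w.toValuationSubring :=
      Fermat.Agent.Red.Match.valueAt_mem (Fermat.Agent.Red.Match.valueAt_cst w b)
    have hm : f ∈ w.toValuationSubring := by
      rw [hfdef]
      exact sub_mem hm1 hm2
    rw [hD' w]
    exact (Fermat.Agent.S24.DiffPlace.ord_nonneg_iff_mem w).2 hm
  have h3 : 1 ≤ h13sPush r D' (r v) := le_trans h1 (h71r_push_ge r D' (r v) h2 v rfl)
  have h4 : 1 ≤ h13sPush r D (r v) := by
    rw [e2, ← hsame, ← e1]
    exact h3
  by_contra hcon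
  have h5 : h13sPush r D (r v) = 0 :=
    h89n_push_eq_zero r D (r v) fun w hw hrw => hcon ⟨w, hw, hrw⟩
  omega

/-- **INF-FIN** (row GEO-INFFIN): the frozen leaf `H56gInfFin` of `P5/H56GeoAsm.lean`. -/
theorem h89n_infFin : H56gInfFin := by
  intro ℓ hℓ M _ hM _ A hA r hr
  classical
  have hj0 : (jB M)⁻¹ ≠ 0 := inv_ne_zero (Fermat.Agent.Red.ModelO.h85_jB_ne_zero M)
  obtain ⟨D, hD, -⟩ := (h13g_gBase M).pd (jB M)⁻¹ hj0
  refine ⟨D.support.image r, fun v hv => ?_⟩
  obtain ⟨w, hw, hrw⟩ := h89n_infFin_at hℓ hM hA hr D hD v hv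
  exact Finset.mem_image.2 ⟨w, hw, hrw⟩

end Fermat.Agent.P5
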