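import Fermat.Agent.Red.LocalFact

/-!
# P5 (wave 5, S19), block GEO: zeros of a local parameter in a residue disc (helper91)

Abstract setting of `Red/LocalFact.lean`: `A` a local ring, `B ⊆ F` a chart, `V` the Gauss ring,
`v i` the places finite on the chart, `𝔫` a prime of `B` containing `𝔪_A B` at which
`𝔫 = (t) + 𝔪_A B` locally, `t` a Gauss unit.

* `h91n_exists_zero` : `t` has a zero centered at `𝔫`;
* `h91n_exists_value` : every `a ∈ 𝔪_A` is the value of `t` at a place centered at `𝔫`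
  (**surjectivity** of the coordinate `t` from the residue disc onto `𝔪_A`);
* `h91n_value_unique` : two centered places (with sections) at which `t` takes the same value
  are equal (**injectivity** of the coordinate).
-/

set_option autoImplicit false

open WithZero IsLocalRing

noncomputable section

namespace Fermat.Agent.P5

open Fermat.Agent.Red

variable {A : Type*} [CommRing A] [IsLocalRing A] {F : Type*} [Field F] [Algebra A F]
variable {B : Subalgebra A F} {V : Subring F} {ι : Type*} {v : ι → Valuation F ℤᵐ⁰}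

/-- a local parameter at `𝔫` has a zero centered at `𝔫`. -/
theorem h91n_exists_zero (hC : H26Chart B V v) (𝔫 : Ideal B) [h𝔫 : 𝔫.IsPrime]
    (h𝔪𝔫 : (maximalIdeal A).map (algebraMap A B) ≤ 𝔫)
    (t : B) (ht : t ∈ 𝔫) (ht0 : (t : F) ≠ 0) (htV : (t : F)⁻¹ ∈ V)
    (hprin : ∀ y ∈ 𝔫, ∃ s, s ∉ 𝔫 ∧
      s * y ∈ Ideal.span {t} ⊔ (maximalIdeal A).map (algebraMap A B))
    (φ₀ : B →ₐ[A] A) :
    ∃ i, h26Centered B v 𝔫 i ∧ v i (t : F) < 1 := by
  classical
  by_contra hno
  have hw1 : ∀ k, h26Centered B v 𝔫 k → k ∉ (∅ : Finset ι) → v k (t : F) = 1 :=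
    fun k hk _ => le_antisymm (hC.hB _ t.2 k) (not_lt.mp fun hlt => hno ⟨k, hk, hlt⟩)
  obtain ⟨s, hs, -, h2⟩ := h26_local_factor hC 𝔫 h𝔪𝔫 t ht ht0 htV hprin ∅ (fun _ => φ₀)
    (fun i hi => absurd hi (Finset.notMem_empty i))
    (fun i hi => absurd hi (Finset.notMem_empty i))
    (fun i hi => absurd hi (Finset.notMem_empty i))
    (t : F) (hC.hBV _ t.2) htV (fun _ => 0)
    (fun i hi => absurd hi (Finset.notMem_empty i)) hw1
  rw [Finset.prod_empty, mul_one] at h2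
  apply hs
  have e : s = ⟨(s : F) * (t : F)⁻¹, h2⟩ * t := by
    apply Subtype.ext
    show (s : F) = (s : F) * (t : F)⁻¹ * (t : F)
    rw [mul_assoc, inv_mul_cancel₀ ht0, mul_one]
  rw [e]
  exact 𝔫.mul_mem_left _ ht

/-- `t - a` is again a local parameter at `𝔫`, for `a ∈ 𝔪_A`. -/
theorem h91n_prin_sub (𝔫 : Ideal B)
    (t : B) {a : A} (ha : a ∈ maximalIdeal A)
    (hprin : ∀ y ∈ 𝔫, ∃ s, s ∉ 𝔫 ∧
      s * y ∈ Ideal.span {t} ⊔ (maximalIdeal A).map (algebraMap A B)) :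
    ∀ y ∈ 𝔫, ∃ s, s ∉ 𝔫 ∧
      s * y ∈ Ideal.span {t - algebraMap A B a} ⊔ (maximalIdeal A).map (algebraMap A B) := by
  intro y hy
  obtain ⟨s, hs, hsy⟩ := hprin y hy
  refine ⟨s, hs, ?_⟩
  have hle : Ideal.span {t} ⊔ (maximalIdeal A).map (algebraMap A B) ≤
      Ideal.span {t - algebraMap A B a} ⊔ (maximalIdeal A).map (algebraMap A B) := by
    refine sup_le ?_ le_sup_right
    rw [Ideal.span_singleton_le_iff_mem]
    have e : (t - algebraMap A B a) + algebraMap A B a = t := by ring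
    have h3 : (t - algebraMap A B a) + algebraMap A B a ∈
        Ideal.span {t - algebraMap A B a} ⊔ (maximalIdeal A).map (algebraMap A B) :=
      Ideal.add_mem _ (Ideal.mem_sup_left (Ideal.mem_span_singleton_self _))
        (Ideal.mem_sup_right (Ideal.mem_map_of_mem _ ha))
    rwa [e] at h3
  exact hle hsy

/-- **surjectivity of the coordinate**: every `a ∈ 𝔪_A` (different from `t`) is the value of
the local parameter `t` at a place centered at `𝔫`. -/
theorem h91n_exists_value (hC : H26Chart B V v) (𝔫 : Ideal B) [h𝔫 : 𝔫.IsPrime]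
    (h𝔪𝔫 : (maximalIdeal A).map (algebraMap A B) ≤ 𝔫)
    (t : B) (ht : t ∈ 𝔫) (ht0 : (t : F) ≠ 0) (htV : (t : F)⁻¹ ∈ V)
    (hprin : ∀ y ∈ 𝔫, ∃ s, s ∉ 𝔫 ∧
      s * y ∈ Ideal.span {t} ⊔ (maximalIdeal A).map (algebraMap A B))
    (φ₀ : B →ₐ[A] A) {a : A} (ha : a ∈ maximalIdeal A) (hta : (t : F) ≠ algebraMap A F a) :
    ∃ i, h26Centered B v 𝔫 i ∧ v i ((t : F) - algebraMap A F a) < 1 := by
  have h1 : t - algebraMap A B a ∈ 𝔫 :=
    𝔫.sub_mem ht (h𝔪𝔫 (Ideal.mem_map_of_mem _ ha))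
  have hcoe : ((t - algebraMap A B a : B) : F) = (t : F) - algebraMap A F a := rfl
  have h0 : ((t - algebraMap A B a : B) : F) ≠ 0 := by
    rw [hcoe]
    exact sub_ne_zero.mpr hta
  have hV : ((t - algebraMap A B a : B) : F)⁻¹ ∈ V := by
    have h2 := hC.hVunit (-a) (neg_mem ha) _ htV
    have e : ((t - algebraMap A B a : B) : F)⁻¹ =
        (t : F)⁻¹ * (1 + algebraMap A F (-a) * (t : F)⁻¹)⁻¹ := by
      rw [hcoe, ← mul_inv, map_neg]
      congr 1
      field_simp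
      ring
    rw [e]
    exact mul_mem htV h2
  obtain ⟨i, hi, hlt⟩ := h91n_exists_zero hC 𝔫 h𝔪𝔫 (t - algebraMap A B a) h1 h0 hV
    (h91n_prin_sub 𝔫 t ha hprin) φ₀
  exact ⟨i, hi, hlt⟩

/-- **injectivity of the coordinate**: two places centered at `𝔫` at which the local parameter
`t` takes the same value `a` are equal. -/
theorem h91n_value_unique (hC : H26Chart B V v) (𝔫 : Ideal B) [h𝔫 : 𝔫.IsPrime]
    (h𝔪𝔫 : (maximalIdeal A).map (algebraMap A B) ≤ 𝔫)
    (t : B) (ht : t ∈ 𝔫)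
    (hprin : ∀ y ∈ 𝔫, ∃ s, s ∉ 𝔫 ∧
      s * y ∈ Ideal.span {t} ⊔ (maximalIdeal A).map (algebraMap A B))
    {i k : ι} (hi : h26Centered B v 𝔫 i) (hk : h26Centered B v 𝔫 k)
    (φ : B →ₐ[A] A) (hφ : ∀ b : B, φ b = 0 ↔ v i (b : F) < 1)
    (hfg : (RingHom.ker (φ : B →+* A)).FG) (a : A)
    (hti : v i ((t : F) - algebraMap A F a) < 1) (htk : v k ((t : F) - algebraMap A F a) < 1) :
    i = k := by
  refine hC.hinj i k fun b hb => ?_
  have hkerle : RingHom.ker (φ : B →+* A) ≤ 𝔫 := fun y hy => hi y ((hφ y).mp hy)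
  have hφ𝔫 := h26_section_local 𝔫 φ hkerle
  have hbker : b ∈ RingHom.ker (φ : B →+* A) := (hφ b).mpr hb
  obtain ⟨s, hs, hsb⟩ := h26_local_ker_principal (maximalIdeal A) 𝔫 t ht hprin h𝔪𝔫 φ hφ𝔫 hkerle
    hfg b hbker
  -- `φ t = a`
  have hφt : φ t = a := by
    have h1 : φ (t - algebraMap A B a) = 0 := (hφ _).mpr hti
    rw [map_sub, AlgHom.commutes] at h1
    exact sub_eq_zero.mp h1
  rw [hφt] at hsb
  obtain ⟨c, hc⟩ := Ideal.mem_span_singleton'.mp hsb
  -- valuations at `k`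
  have hsval : v k (s : F) = 1 :=
    le_antisymm (hC.hB _ s.2 k) (not_lt.mp fun hlt => hs (hk s hlt))
  have h2 : v k ((s : F) * (b : F)) < 1 := by
    have e : (s : F) * (b : F) = (c : F) * ((t : F) - algebraMap A F a) := by
      have := congrArg (fun x : B => (x : F)) hc
      exact this.symm
    rw [e, map_mul]
    calc v k (c : F) * v k ((t : F) - algebraMap A F a)
        ≤ 1 * v k ((t : F) - algebraMap A F a) := by
          exact mul_le_mul_left (hC.hB _ c.2 k) _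
      _ < 1 := by rw [one_mul]; exact htk
  rwa [map_mul, hsval, one_mul] at h2

/-! ## Parameters congruent modulo `𝔪_A B` -/

section ValRing

/-- over a valuation ring, the elements of `I B` are of the form `m b` with `m ∈ I`. -/
theorem h91n_mem_map {A₀ : Type*} [CommRing A₀] [IsDomain A₀] [ValuationRing A₀] {B₀ : Type*}
    [CommRing B₀] [Algebra A₀ B₀] (I : Ideal A₀) {x : B₀} (hx : x ∈ I.map (algebraMap A₀ B₀)) :
    ∃ m ∈ I, ∃ b : B₀, x = algebraMap A₀ B₀ m * b := by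
  rw [Ideal.map] at hx
  induction hx using Submodule.span_induction with
  | mem x hx =>
    obtain ⟨a, ha, rfl⟩ := hx
    exact ⟨a, ha, 1, (mul_one _).symm⟩
  | zero => exact ⟨0, I.zero_mem, 0, by simp⟩
  | add x y _ _ hx hy =>
    obtain ⟨m, hm, b, rfl⟩ := hx
    obtain ⟨m', hm', b', rfl⟩ := hy
    rcases ValuationRing.dvd_total m m' with ⟨c, rfl⟩ | ⟨c, rfl⟩
    · exact ⟨m, hm, b + algebraMap A₀ B₀ c * b', by rw [map_mul]; ring⟩
    · exact ⟨m', hm', algebraMap A₀ B₀ c * b + b', by rw [map_mul]; ring⟩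
  | smul r x _ hx =>
    obtain ⟨m, hm, b, rfl⟩ := hx
    exact ⟨m, hm, r * b, by rw [smul_eq_mul]; ring⟩

variable [IsDomain A] [ValuationRing A]

set_option linter.overlappingInstances false in
/-- a chart element congruent modulo `𝔪_A B` to a local parameter at `𝔫` is a local parameter
at `𝔫`. -/
theorem h91n_param_congr (hC : H26Chart B V v) (𝔫 : Ideal B) [h𝔫 : 𝔫.IsPrime]
    (h𝔪𝔫 : (maximalIdeal A).map (algebraMap A B) ≤ 𝔫)
    (t : B) (ht : t ∈ 𝔫) (ht0 : (t : F) ≠ 0) (htV : (t : F)⁻¹ ∈ V)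
    (hprin : ∀ y ∈ 𝔫, ∃ s, s ∉ 𝔫 ∧
      s * y ∈ Ideal.span {t} ⊔ (maximalIdeal A).map (algebraMap A B))
    (t' : B) (hcong : t - t' ∈ (maximalIdeal A).map (algebraMap A B)) :
    t' ∈ 𝔫 ∧ (t' : F) ≠ 0 ∧ (t' : F)⁻¹ ∈ V ∧
      ∀ y ∈ 𝔫, ∃ s, s ∉ 𝔫 ∧
        s * y ∈ Ideal.span {t'} ⊔ (maximalIdeal A).map (algebraMap A B) := by
  obtain ⟨m, hm, b, hmb⟩ := h91n_mem_map (maximalIdeal A) hcong
  have hmbF : (t : F) - (t' : F) = algebraMap A F m * (b : F) :=
    congrArg (fun x : B => (x : F)) hmb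
  have hbt : (b : F) * (t : F)⁻¹ ∈ V := mul_mem (hC.hBV _ b.2) htV
  have ht'n : t' ∈ 𝔫 := by
    have h1 := 𝔫.sub_mem ht (h𝔪𝔫 hcong)
    rwa [sub_sub_cancel] at h1
  have ht'0 : (t' : F) ≠ 0 := by
    intro h0
    rw [h0, sub_zero] at hmbF
    have hm0 : algebraMap A F m ≠ 0 := by
      intro h
      rw [h, zero_mul] at hmbF
      exact ht0 hmbF
    have h1 : m • ((b : F) * (t : F)⁻¹) = 1 := by
      rw [Algebra.smul_def, ← mul_assoc, ← hmbF, mul_inv_cancel₀ ht0]
    have h2 : (b : F) * (t : F)⁻¹ ∈ B := hC.hQEP m hm0 _ hbt (by rw [h1]; exact B.one_mem)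
    have h3 : algebraMap A B m * ⟨(b : F) * (t : F)⁻¹, h2⟩ = 1 := by
      apply Subtype.ext
      show algebraMap A F m * ((b : F) * (t : F)⁻¹) = 1
      rw [← Algebra.smul_def, h1]
    have h4 : (1 : B) ∈ 𝔫 := by
      rw [← h3]
      exact 𝔫.mul_mem_right _ (h𝔪𝔫 (Ideal.mem_map_of_mem _ hm))
    exact h𝔫.ne_top ((Ideal.eq_top_iff_one _).mpr h4)
  refine ⟨ht'n, ht'0, ?_, ?_⟩
  · have h2 := hC.hVunit (-m) (neg_mem hm) _ hbt
    have e : (t' : F)⁻¹ =
        (t : F)⁻¹ * (1 + algebraMap A F (-m) * ((b : F) * (t : F)⁻¹))⁻¹ := by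
      have e0 : (t' : F) = (t : F) - algebraMap A F m * (b : F) := by
        rw [← hmbF]
        ring
      have e2 : (t : F) * (algebraMap A F m * ((b : F) * (t : F)⁻¹)) =
          algebraMap A F m * (b : F) := by
        have e3 : (t : F) * (algebraMap A F m * ((b : F) * (t : F)⁻¹)) =
            algebraMap A F m * (b : F) * ((t : F) * (t : F)⁻¹) := by ring
        rw [e3, mul_inv_cancel₀ ht0, mul_one]
      have e1 : (t' : F) = (t : F) * (1 + algebraMap A F (-m) * ((b : F) * (t : F)⁻¹)) := by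
        rw [map_neg, mul_add, mul_one, neg_mul, mul_neg, e2, e0]
        ring
      rw [e1, mul_inv]
    rw [e]
    exact mul_mem htV h2
  · intro y hy
    obtain ⟨s, hs, hsy⟩ := hprin y hy
    refine ⟨s, hs, ?_⟩
    have hle : Ideal.span {t} ⊔ (maximalIdeal A).map (algebraMap A B) ≤
        Ideal.span {t'} ⊔ (maximalIdeal A).map (algebraMap A B) := by
      refine sup_le ?_ le_sup_right
      rw [Ideal.span_singleton_le_iff_mem]
      have e : t' + (t - t') = t := by ring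
      have h3 : t' + (t - t') ∈
          Ideal.span {t'} ⊔ (maximalIdeal A).map (algebraMap A B) :=
        Ideal.add_mem _ (Ideal.mem_sup_left (Ideal.mem_span_singleton_self _))
          (Ideal.mem_sup_right hcong)
      rwa [e] at h3
    exact hle hsy

end ValRing


end Fermat.Agent.P5
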