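import Fermat.Agent.S37.Final37
import Fermat.Agent.S37.Smooth37
import Fermat.Agent.LGC.H57Teich
import Fermat.Agent.P5.H91UnrAbs
import Fermat.Agent.P5.H96LawIface

/-!
# P5 (wave 5, S19), block GEO: the last three fields of `H96GeoInputs` (helper91)

`M` a level, `ℓ ∤ M` a prime, `A` a valuation subring of `ℚ̄` over `ℓ`, `I ⊆ D` the inertia and
decomposition groups of `A`.

* `h91n_sameRed_gal` : the decomposition group preserves `SameRed A`;
* `h91n_redKer_gal`, `h91n_dstab` (**DSTAB**) : `redKer`, `redKerPic` are stable under `D`;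
* `h91n_inert` (**INERT**) : inertia acts trivially modulo `redKerPic` (from `RedKerPackage`);
* `H91nUnrPlace M A` : every place has an inertia-fixed place with the same reduction;
* `h91n_unrPlace` (**UNR-PLACE**) : `H91nUnrPlace M A` at the good levels (`ℓ ∤ M`,
  `auxLevel ℓ ∣ M`): an inertia-invariant local parameter at the centre of the place has a
  zero in the residue disc (`h91n_exists_zero`), which is inertia-fixed because the coordinate
  is injective on the disc (`h91n_value_unique`);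
* `h91n_unr_of_place` (**UNR**) : `H91nUnrPlace M A` gives inertia-fixed lifts of all classes;
* `h91n_geo_tail` : the last three fields of `H96GeoInputs M A` at a good level.
-/

set_option autoImplicit false

open AlgebraicCurve ModularCurve

noncomputable section

namespace Fermat.Agent.P5

open Fermat.Agent.S37 Fermat.Agent.Red Fermat.Agent.Red.KR

variable {M : ℕ} [NeZero M] {A : ValuationSubring Kbar}

/-! ## The decomposition group -/

theorem h91n_nonunits_decomp {τ : GQ} (hτ : τ ∈ A.decompositionSubgroup ℚ) {a : Kbar}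
    (ha : a ∈ A.nonunits) : τ a ∈ A.nonunits := by
  by_cases h0 : a = 0
  · rw [h0, map_zero]
    exact GalI.zero_mem_nonunits A
  have hτa0 : τ a ≠ 0 := fun h => h0 ((map_eq_zero_iff τ τ.injective).mp h)
  rw [GalI.mem_nonunits_iff_inv A hτa0]
  rw [GalI.mem_nonunits_iff_inv A h0] at ha
  intro h
  apply ha
  have h1 := decomp_apply_mem (inv_mem hτ) h
  have e : (τ⁻¹ : GQ) (τ a)⁻¹ = a⁻¹ := by
    rw [map_inv₀]
    congr 1
    exact τ.symm_apply_apply a
  rwa [e] at h1

omit [NeZero M] in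
theorem h91n_gal_smul_inv_smul_fun (τ : GQ) (f : FF M) : gal M τ • gal M τ⁻¹ • f = f := by
  rw [show gal M τ⁻¹ = (gal M τ)⁻¹ from map_inv _ τ, smul_inv_smul]

omit [NeZero M] in
theorem h91n_congAt_gal {τ : GQ} (hτ : τ ∈ A.decompositionSubgroup ℚ)
    {v w : Place Kbar (FF M)} {f : FF M} (h : CongAt A v w (gal M τ⁻¹ • f)) :
    CongAt A (gal M τ • v) (gal M τ • w) f := by
  obtain ⟨a, b, ha, hb, hva, hwb, hab⟩ := h
  have h1 := GalI.valueAt_gal τ hva
  have h2 := GalI.valueAt_gal τ hwb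
  rw [h91n_gal_smul_inv_smul_fun] at h1 h2
  refine ⟨τ a, τ b, decomp_apply_mem hτ ha, decomp_apply_mem hτ hb, h1, h2, ?_⟩
  rw [← map_sub]
  exact h91n_nonunits_decomp hτ hab

/-- the decomposition group preserves `SameRed A`. -/
theorem h91n_sameRed_gal {τ : GQ} (hτ : τ ∈ A.decompositionSubgroup ℚ)
    {v w : Place Kbar (FF M)} (h : SameRed A v w) :
    SameRed A (gal M τ • v) (gal M τ • w) := by
  have hτ' : τ⁻¹ ∈ A.decompositionSubgroup ℚ := inv_mem hτ
  rcases h with ⟨hv, hw, h⟩ | ⟨hv, hw, h⟩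
  · refine Or.inl ⟨(isFinAt_gal_iff hτ).mpr hv, (isFinAt_gal_iff hτ).mpr hw, fun f hf => ?_⟩
    refine h91n_congAt_gal hτ (h _ ?_)
    have h1 := gal_mem_modelAt A hτ' (t := jB M) (x := f) hf
    rwa [GalI.gal_smul_jB] at h1
  · refine Or.inr ⟨fun h' => hv ((isFinAt_gal_iff hτ).mp h'),
      fun h' => hw ((isFinAt_gal_iff hτ).mp h'), fun f hf => ?_⟩
    refine h91n_congAt_gal hτ (h _ ?_)
    have h1 := gal_mem_modelAt A hτ' (t := (jB M)⁻¹) (x := f) hf
    rwa [GalI.gal_smul_jB_inv] at h1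

/-- `redKer` is stable under the decomposition group. -/
theorem h91n_redKer_gal {τ : GQ} (hτ : τ ∈ A.decompositionSubgroup ℚ)
    {D : Divisor Kbar (FF M)} (hD : D ∈ redKer M A) : gal M τ • D ∈ redKer M A := by
  unfold redKer at hD
  induction hD using AddSubgroup.closure_induction with
  | mem x hx =>
    obtain ⟨v, w, hvw, rfl⟩ := hx
    rw [smul_sub, SemilinearAut.smul_single, SemilinearAut.smul_single]
    exact single_sub_single_mem_redKer (h91n_sameRed_gal hτ hvw)
  | zero => rw [smul_zero]; exact (redKer M A).zero_mem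
  | add x y _ _ hx hy => rw [smul_add]; exact (redKer M A).add_mem hx hy
  | neg x _ hx => rw [smul_neg]; exact (redKer M A).neg_mem hx

/-- **DSTAB**: `redKerPic` is stable under the decomposition group. -/
theorem h91n_dstab (M : ℕ) [NeZero M] (A : ValuationSubring Kbar) :
    ∀ τ ∈ A.decompositionSubgroup ℚ, ∀ x ∈ redKerPic M A, τ • x ∈ redKerPic M A := by
  rintro τ hτ x ⟨D, hD, rfl⟩
  exact ⟨SemilinearAut.degZeroSMulHom (gal M τ) D, h91n_redKer_gal hτ hD, rfl⟩

/-! ## Inertia -/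

/-- the reduction package at every level. -/
theorem h91n_package (N : ℕ) [NeZero N] : RedKerPackage N :=
  redKerPackage_of_four (h37_gateGood_of_smooth h37_ifaceSmooth)
    (h37_ifaceNormalize_of_smooth h37_ifaceSmooth) N (BC.ifaceBaseChange N)
    (h37_ifaceKronecker N)

/-- **INERT**: inertia acts trivially modulo `redKerPic`. -/
theorem h91n_inert {ℓ : ℕ} (hℓ : ℓ.Prime) (hM : ¬ ℓ ∣ M) (hA : A.LiesOverPrime ℓ) :
    ∀ σ ∈ A.inertiaSubgroupIn ℚ, ∀ x : JZero M, σ • x - x ∈ redKerPic M A :=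
  (h91n_package M ℓ hℓ hM A hA).1

/-- inertia does not move the reduction of a place. -/
theorem h91n_inertia_place {ℓ : ℕ} (hℓ : ℓ.Prime) (hM : ¬ ℓ ∣ M) (hA : A.LiesOverPrime ℓ)
    {σ : GQ} (hσ : σ ∈ A.inertiaSubgroupIn ℚ) (v : Place Kbar (FF M)) :
    SameRed A (gal M σ • v) v :=
  ifaceInertia_of M (BC.ifaceBaseChange M) ℓ hℓ hM A hA σ hσ v

/-! ## Unramified lifts -/

/-- **UNR-PLACE**: every place has an inertia-fixed place with the same reduction. -/
def H91nUnrPlace (M : ℕ) [NeZero M] (A : ValuationSubring Kbar) : Prop :=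
  ∀ v : Place Kbar (FF M), ∃ v' : Place Kbar (FF M), SameRed A v v' ∧
    ∀ σ ∈ A.inertiaSubgroupIn ℚ, gal M σ • v' = v'

/-! ## The centre of a place on a chart -/

section Centre

variable {t : FF M}

/-- the centre on the chart `modelAt M A t` of a place at which the chart has values in `A`. -/
def h91nCentre (A : ValuationSubring Kbar) (t : FF M) (v : Place Kbar (FF M))
    (hval : ∀ f : modelAt M A t, ∃ a : A, ValueAt v (f : FF M) (a : Kbar)) :
    Ideal (modelAt M A t) :=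
  RingHom.ker (Match.redHom A (modelAt M A t) v hval)

omit [NeZero M] in
theorem h91n_centre_isMaximal (v : Place Kbar (FF M))
    (hval : ∀ f : modelAt M A t, ∃ a : A, ValueAt v (f : FF M) (a : Kbar)) :
    (h91nCentre A t v hval).IsMaximal := by
  refine RingHom.ker_isMaximal_of_surjective _ fun r => ?_
  obtain ⟨a, rfl⟩ := IsLocalRing.residue_surjective r
  exact ⟨⟨cst M (a : Kbar), Match.cst_mem_modelAt M A t a.2⟩, Match.redHom_cst A _ v hval a _⟩

omit [NeZero M] in
theorem h91n_maxExt_le_centre (v : Place Kbar (FF M))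
    (hval : ∀ f : modelAt M A t, ∃ a : A, ValueAt v (f : FF M) (a : Kbar)) :
    maxExt A (modelAt M A t) ≤ h91nCentre A t v hval := by
  refine Ideal.span_le.mpr ?_
  rintro x ⟨a, ha, hx⟩
  show x ∈ RingHom.ker _
  rw [RingHom.mem_ker]
  have e : x = ⟨cst M ((⟨a, A.nonunits_subset ha⟩ : A) : Kbar),
      Match.cst_mem_modelAt M A t (A.nonunits_subset ha)⟩ := Subtype.ext hx
  rw [e, Match.redHom_cst, IsLocalRing.residue_eq_zero_iff]
  exact ValuationSubring.coe_mem_nonunits_iff.mp ha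

omit [NeZero M] in
theorem h91n_centeredAt_centre (v : Place Kbar (FF M))
    (hval : ∀ f : modelAt M A t, ∃ a : A, ValueAt v (f : FF M) (a : Kbar)) :
    Nz.CenteredAt A (modelAt M A t) (h91nCentre A t v hval) v := by
  refine ⟨hval, fun f hf =>
    ⟨(Match.valHom A _ v hval f : A), ?_, Match.valHom_spec A _ v hval f⟩⟩
  have h1 : Match.redHom A (modelAt M A t) v hval f = 0 := hf
  unfold Match.redHom at h1
  rw [RingHom.comp_apply, IsLocalRing.residue_eq_zero_iff] at h1
  exact ValuationSubring.coe_mem_nonunits_iff.mpr h1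

omit [NeZero M] in
/-- two places centred at the same closed point have congruent values on the chart. -/
theorem h91n_congAt_of_centeredAt {n : Ideal (modelAt M A t)} (hn : n.IsMaximal)
    {v w : Place Kbar (FF M)} (hv : Nz.CenteredAt A (modelAt M A t) n v)
    (hw : Nz.CenteredAt A (modelAt M A t) n w) (f : FF M) (hf : f ∈ modelAt M A t) :
    CongAt A v w f := by
  obtain ⟨a, ha⟩ := hv.1 ⟨f, hf⟩
  obtain ⟨b, hb⟩ := hw.1 ⟨f, hf⟩
  refine ⟨a, b, a.2, b.2, ha, hb, ?_⟩
  have hcm : cst M (a : Kbar) ∈ modelAt M A t := Match.cst_mem_modelAt M A t a.2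
  have hg : (⟨f, hf⟩ - ⟨cst M (a : Kbar), hcm⟩ : modelAt M A t) ∈ n := by
    by_contra hgn
    obtain ⟨c, i, hi, hci⟩ := hn.exists_inv hgn
    obtain ⟨e, he, hie⟩ := hv.2 i hi
    obtain ⟨cv, hcv⟩ := hv.1 c
    have hg0 : ValueAt v (f - cst M (a : Kbar)) 0 := by
      have h := Match.valueAt_sub ha (Match.valueAt_cst v (a : Kbar))
      rwa [sub_self] at h
    have h1 := Match.valueAt_add (Match.valueAt_mul hcv hg0) hie
    have h2 : ((c : modelAt M A t) : FF M) * (f - cst M (a : Kbar)) +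
        ((i : modelAt M A t) : FF M) = 1 := congrArg Subtype.val hci
    rw [h2] at h1
    have h3 := Match.valueAt_unique h1 (Match.valueAt_one v)
    rw [mul_zero, zero_add] at h3
    rw [h3] at he
    exact Nz.h89_one_not_mem_nonunits A he
  obtain ⟨e, he, hge⟩ := hw.2 _ hg
  have h4 : ValueAt w (f - cst M (a : Kbar)) ((b : Kbar) - a) :=
    Match.valueAt_sub hb (Match.valueAt_cst w _)
  have h5 : e = (b : Kbar) - a := Match.valueAt_unique hge h4
  have h6 : (a : Kbar) - b = -e := by rw [h5]; ring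
  rw [h6]
  exact GalI.neg_mem_nonunits A he

omit [NeZero M] in
/-- a place whose values on the chart are congruent to those of a place centred at `n` is
centred at `n`. -/
theorem h91n_centeredAt_of_congAt {n : Ideal (modelAt M A t)} {v w : Place Kbar (FF M)}
    (hv : Nz.CenteredAt A (modelAt M A t) n v) (h : ∀ f ∈ modelAt M A t, CongAt A w v f) :
    Nz.CenteredAt A (modelAt M A t) n w := by
  refine ⟨fun f => ?_, fun f hf => ?_⟩
  · obtain ⟨a, b, ha, hb, hwa, hvb, hab⟩ := h f f.2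
    exact ⟨⟨a, ha⟩, hwa⟩
  · obtain ⟨a, b, ha, hb, hwa, hvb, hab⟩ := h f f.2
    obtain ⟨e, he, hve⟩ := hv.2 f hf
    have hbe : b = e := Match.valueAt_unique hvb hve
    refine ⟨a, ?_, hwa⟩
    have e1 : a = (a - b) + e := by rw [hbe]; ring
    rw [e1]
    exact GalI.add_mem_nonunits A hab he

end Centre

/-! ## Inertia-invariant approximation modulo `𝔪_A` -/

section Approx

variable {t : FF M}

omit [NeZero M] in
/-- **`B = B^I + 𝔪_A B`**: every element of a chart with base change is congruent modulo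
`𝔪_A B` to an inertia-invariant element of the chart. -/
theorem h91n_inv_approx {ℓ : ℕ} (hℓ : ℓ.Prime) (hA : A.LiesOverPrime ℓ)
    (hBC : modelAt M A t ≤ Subring.closure
      ((fun a : Kbar => cst M a) '' (A : Set Kbar) ∪ {f | IsRat f ∧ f ∈ modelAt M A t}))
    (x : GG.chart M A t) :
    ∃ x₀ : GG.chart M A t, (∀ σ ∈ A.inertiaSubgroupIn ℚ, gal M σ • (x₀ : FF M) = x₀) ∧
      x - x₀ ∈ (IsLocalRing.maximalIdeal A).map (algebraMap A (GG.chart M A t)) := by
  set J := (IsLocalRing.maximalIdeal A).map (algebraMap A (GG.chart M A t)) with hJ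
  have key : ∀ y ∈ Subring.closure
      ((fun a : Kbar => cst M a) '' (A : Set Kbar) ∪ {f | IsRat f ∧ f ∈ modelAt M A t}),
      ∃ y' y₀ : GG.chart M A t, (y' : FF M) = y ∧
        (∀ σ ∈ A.inertiaSubgroupIn ℚ, gal M σ • (y₀ : FF M) = y₀) ∧ y' - y₀ ∈ J := by
    intro y hy
    induction hy using Subring.closure_induction with
    | mem y hy =>
      rcases hy with ⟨a, ha, rfl⟩ | ⟨hrat, hmem⟩
      · obtain ⟨a', ha', hfix, hcong⟩ := Fermat.Agent.LGC.h57_exists_inertia_fixed (k := ℚ)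
          (fun x => Fermat.Agent.LGC.h57_isAlgebraic_int x) A hℓ hA ha
        refine ⟨⟨cst M a, ModelO.h85_cst_mem_modelAt M A t ha⟩,
          ⟨cst M a', ModelO.h85_cst_mem_modelAt M A t ha'⟩, rfl, fun σ hσ => ?_, ?_⟩
        · show gal M σ • cst M a' = cst M a'
          rw [GalI.gal_smul_cst, hfix σ hσ]
        · have e : (⟨cst M a, ModelO.h85_cst_mem_modelAt M A t ha⟩ -
              ⟨cst M a', ModelO.h85_cst_mem_modelAt M A t ha'⟩ : GG.chart M A t) =
              algebraMap A (GG.chart M A t) ⟨a - a', A.sub_mem ha ha'⟩ := by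
            apply Subtype.ext
            show cst M a - cst M a' = cst M (a - a')
            exact (map_sub (algebraMap Kbar (FF M)) a a').symm
          rw [e]
          exact Ideal.mem_map_of_mem _ (ValuationSubring.coe_mem_nonunits_iff.mp hcong)
      · exact ⟨⟨y, hmem⟩, ⟨y, hmem⟩, rfl, fun σ _ => GalI.gal_smul_of_isRat σ hrat, by
          rw [sub_self]; exact J.zero_mem⟩
    | zero =>
      exact ⟨0, 0, rfl, fun σ _ => smul_zero _, by rw [sub_zero]; exact J.zero_mem⟩
    | one =>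
      exact ⟨1, 1, rfl, fun σ _ => smul_one _, by rw [sub_self]; exact J.zero_mem⟩
    | add y z _ _ ihy ihz =>
      obtain ⟨y', y₀, hy', hy₀, hyy⟩ := ihy
      obtain ⟨z', z₀, hz', hz₀, hzz⟩ := ihz
      refine ⟨y' + z', y₀ + z₀, ?_, fun σ hσ => ?_, ?_⟩
      · rw [← hy', ← hz']; rfl
      · show gal M σ • ((y₀ : FF M) + (z₀ : FF M)) = (y₀ : FF M) + (z₀ : FF M)
        rw [smul_add, hy₀ σ hσ, hz₀ σ hσ]
      · have e : y' + z' - (y₀ + z₀) = (y' - y₀) + (z' - z₀) := by ring
        rw [e]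
        exact J.add_mem hyy hzz
    | neg y _ ihy =>
      obtain ⟨y', y₀, hy', hy₀, hyy⟩ := ihy
      refine ⟨-y', -y₀, ?_, fun σ hσ => ?_, ?_⟩
      · rw [← hy']; rfl
      · show gal M σ • (-(y₀ : FF M)) = -(y₀ : FF M)
        rw [smul_neg, hy₀ σ hσ]
      · have e : -y' - -y₀ = -(y' - y₀) := by ring
        rw [e]
        exact J.neg_mem hyy
    | mul y z _ _ ihy ihz =>
      obtain ⟨y', y₀, hy', hy₀, hyy⟩ := ihy
      obtain ⟨z', z₀, hz', hz₀, hzz⟩ := ihz
      refine ⟨y' * z', y₀ * z₀, ?_, fun σ hσ => ?_, ?_⟩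
      · rw [← hy', ← hz']; rfl
      · show gal M σ • ((y₀ : FF M) * (z₀ : FF M)) = (y₀ : FF M) * (z₀ : FF M)
        rw [smul_mul', hy₀ σ hσ, hz₀ σ hσ]
      · have e : y' * z' - y₀ * z₀ = y' * (z' - z₀) + (y' - y₀) * z₀ := by ring
        rw [e]
        exact J.add_mem (J.mul_mem_left _ hzz) (J.mul_mem_right _ hyy)
  obtain ⟨x', x₀, hx', h1, h2⟩ := key (x : FF M) (hBC x.2)
  have hxx : x' = x := Subtype.ext hx'
  rw [hxx] at h2
  exact ⟨x₀, h1, h2⟩

end Approx

/-! ## Unramified places on a chart -/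

section Chart

/-- on a chart with local uniformisers, sections and base change, every place at which the
coordinate of the chart is integral has an inertia-fixed place in its residue disc. -/
theorem h91n_unrPlace_chart {ℓ : ℕ} (hℓ : ℓ.Prime) (hA : A.LiesOverPrime ℓ) (t : FF M)
    (hC : GG.IfaceChart M A t) (hS : GG.IfaceSection M A t) (hU : GG.IfaceLocalUnif M A t)
    (hBC : modelAt M A t ≤ Subring.closure
      ((fun a : Kbar => cst M a) '' (A : Set Kbar) ∪ {f | IsRat f ∧ f ∈ modelAt M A t}))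
    (v : Place Kbar (FF M)) (hv : ∃ a : A, ValueAt v t (a : Kbar)) :
    ∃ v' : Place Kbar (FF M), (∀ f ∈ modelAt M A t, CongAt A v v' f) ∧
      ∀ σ ∈ A.inertiaSubgroupIn ℚ, gal M σ • v' = v' := by
  classical
  have hval : ∀ f : modelAt M A t, ∃ a : A, ValueAt v (f : FF M) (a : Kbar) := fun f =>
    Match.exists_valueAt_modelAt A v t hv f f.2
  have htm : t ∈ modelAt M A t :=
    Match.ringAdj_le_modelAt M A t (Match.self_mem_ringAdj M A t)
  set n : Ideal (modelAt M A t) := h91nCentre A t v hval with hn_def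
  have hn : n.IsMaximal := h91n_centre_isMaximal v hval
  have hmax : maxExt A (modelAt M A t) ≤ n := h91n_maxExt_le_centre v hval
  have hcv : Nz.CenteredAt A (modelAt M A t) n v := h91n_centeredAt_centre v hval
  have hnP : (n : Ideal (GG.chart M A t)).IsPrime := hn.isPrime
  have hle := Nz.h89_map_le t n hmax
  have htv : t ∈ v.toValuationSubring := by
    obtain ⟨a, ha⟩ := hv
    exact Match.valueAt_mem ha
  have hc0 : h26Centered (GG.chart M A t) (GG.chartVal M t) (n : Ideal (GG.chart M A t))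
      ⟨v, htv⟩ := Nz.h89_h26Centered_of_centeredAt t n hn hcv htv
  obtain ⟨φ₀, -, -⟩ := hS ⟨v, htv⟩ (n : Ideal (GG.chart M A t)) hn hle hc0
  obtain ⟨t', ht'n, ht'0, ht'V, hprin⟩ := hU (n : Ideal (GG.chart M A t)) hn hle
  obtain ⟨t'', hinv, hcong⟩ := h91n_inv_approx hℓ hA hBC t'
  obtain ⟨h1, h2, h3, h4⟩ := h91n_param_congr (h𝔫 := hnP) hC (n : Ideal (GG.chart M A t)) hle
    t' ht'n ht'0 ht'V hprin t'' hcong
  obtain ⟨i, hi, hlt⟩ := h91n_exists_zero (h𝔫 := hnP) hC (n : Ideal (GG.chart M A t)) hle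
    t'' h1 h2 h3 h4 φ₀
  have hci : Nz.CenteredAt A (modelAt M A t) n i.1 :=
    Nz.h89_centeredAt_of_h26Centered t n hn hmax i hi
  refine ⟨i.1, h91n_congAt_of_centeredAt hn hcv hci, fun σ hσ => ?_⟩
  obtain ⟨a, ha⟩ := hci.1 ⟨t, htm⟩
  have hcong' : ∀ f ∈ modelAt M A t, CongAt A (gal M σ • i.1) i.1 f :=
    GalI.congAt_chart A hσ i.1 a.2 ha hBC
  have hcσ : Nz.CenteredAt A (modelAt M A t) n (gal M σ • i.1) :=
    h91n_centeredAt_of_congAt hci hcong'
  have htσ : t ∈ (gal M σ • i.1).toValuationSubring := by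
    obtain ⟨b, hb⟩ := hcσ.1 ⟨t, htm⟩
    exact Match.valueAt_mem hb
  have hcσ' : h26Centered (GG.chart M A t) (GG.chartVal M t) (n : Ideal (GG.chart M A t))
      ⟨gal M σ • i.1, htσ⟩ := Nz.h89_h26Centered_of_centeredAt t n hn hcσ htσ
  obtain ⟨φ, hφ, hfg⟩ := hS i (n : Ideal (GG.chart M A t)) hn hle hi
  have hz : ValueAt i.1 (t'' : FF M) 0 := by
    unfold ValueAt
    simp only [cst, map_zero, sub_zero]
    exact (Nz.h89_adic_lt_one_iff i.1 _).mp hlt
  have hzσ : ValueAt (gal M σ • i.1) (t'' : FF M) 0 := by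
    have h := GalI.valueAt_gal σ hz
    rwa [hinv σ hσ, map_zero] at h
  have hltσ : GG.chartVal M t ⟨gal M σ • i.1, htσ⟩ (t'' : FF M) < 1 := by
    refine (Nz.h89_adic_lt_one_iff (gal M σ • i.1) _).mpr ?_
    unfold ValueAt at hzσ
    simpa only [cst, map_zero, sub_zero] using hzσ
  have huniq := h91n_value_unique (h𝔫 := hnP) hC (n : Ideal (GG.chart M A t)) hle t'' h1 h4
    hi hcσ' φ hφ hfg 0 (by rw [map_zero, sub_zero]; exact hlt)
    (by rw [map_zero, sub_zero]; exact hltσ)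
  exact (congrArg Subtype.val huniq).symm

end Chart

/-! ## Unramified lifts -/

section Unr

/-- **UNR-PLACE** at the good levels. -/
theorem h91n_unrPlace {ℓ : ℕ} (hℓ : ℓ.Prime) (hM : ¬ ℓ ∣ M) (haux : auxLevel ℓ ∣ M)
    (hA : A.LiesOverPrime ℓ) : H91nUnrPlace M A := by
  intro v
  obtain ⟨hBCf, hBCi⟩ := BC.ifaceBaseChange M ℓ hℓ hM A hA
  by_cases hv : IsFinAt A v
  · obtain ⟨a, ha, hva⟩ := hv
    obtain ⟨v', hcong, hfix⟩ := h91n_unrPlace_chart hℓ hA (jB M) (GG.ifaceChart_fin hℓ hM hA)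
      (ModelO.h85_ifaceSection_fin hℓ hM hA)
      (GG.h67_ifaceLocalUnif_fin M A h37_ifaceSmooth hℓ hM haux hA) hBCf v ⟨⟨a, ha⟩, hva⟩
    refine ⟨v', Or.inl ⟨⟨a, ha, hva⟩, ?_, hcong⟩, hfix⟩
    obtain ⟨_, b, _, hb, _, hvb, _⟩ := hcong (jB M) (Nz.h89_jB_mem_modelFin M A)
    exact ⟨b, hb, hvb⟩
  · obtain ⟨a, ha, hva⟩ := Match.exists_valueAt_inv_of_not_isFinAt hv
    obtain ⟨v', hcong, hfix⟩ := h91n_unrPlace_chart hℓ hA (jB M)⁻¹
      (GG.ifaceChart_inf hℓ hM hA) (ModelO.h85_ifaceSection_inf hℓ hM hA)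
      (GG.h67_ifaceLocalUnif_inf M A h37_ifaceSmooth hℓ hM haux hA) hBCi v
      ⟨⟨a, A.nonunits_subset ha⟩, hva⟩
    refine ⟨v', Or.inr ⟨hv, ?_, hcong⟩, hfix⟩
    obtain ⟨a', b, _, hb, hva', hvb, hab⟩ := hcong (jB M)⁻¹ (Nz.h89_jB_inv_mem_modelInf M A)
    have haa : a' = a := Match.valueAt_unique hva' hva
    have hbn : b ∈ A.nonunits := by
      have e : b = a - (a' - b) := by rw [haa]; ring
      rw [e]
      exact GalI.sub_mem_nonunits A ha hab
    rintro ⟨c, hc, hvc⟩
    have h1 := Match.valueAt_mul hvc hvb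
    rw [mul_inv_cancel₀ (Nz.h89_jB_ne_zero M)] at h1
    have h2 : c * b = 1 := Match.valueAt_unique h1 (Match.valueAt_one v')
    have h3 : c * b ∈ A.nonunits := by
      rw [mul_comm]
      exact Match.h71_mul_mem_nonunits A hbn hc
    rw [h2] at h3
    exact Nz.h89_one_not_mem_nonunits A h3

/-- **UNR**: inertia-fixed lifts of all classes, from inertia-fixed lifts of all places. -/
theorem h91n_unr_of_place (h : H91nUnrPlace M A) :
    ∀ y : JZero M, ∃ c₀ : JZero M, (∀ σ ∈ A.inertiaSubgroupIn ℚ, σ • c₀ = c₀) ∧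
      y - c₀ ∈ redKerPic M A := by
  classical
  choose φ hφ1 hφ2 using h
  have hdeg : ∀ v : Place Kbar (FF M), v.deg = 1 := fun v => by
    have := Fermat.Agent.Red.HKMod.finiteDimensional_jBar M
    have halg : Algebra.IsAlgebraic (IntermediateField.adjoin Kbar {jB M}) (FF M) :=
      Algebra.IsAlgebraic.of_finite _ _
    exact Fermat.Agent.S24.DiffPlace.place_deg_eq_one (jB M) halg v
  have key : ∀ D : Divisor Kbar (FF M), ∃ D' : Divisor Kbar (FF M),
      D - D' ∈ redKer M A ∧ (∀ σ ∈ A.inertiaSubgroupIn ℚ, gal M σ • D' = D') ∧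
        Divisor.degree D' = Divisor.degree D := by
    intro D
    induction D using Finsupp.induction_linear with
    | zero =>
      exact ⟨0, by rw [sub_zero]; exact (redKer M A).zero_mem, fun σ _ => smul_zero _, rfl⟩
    | add D E hD hE =>
      obtain ⟨D', h1, h2, h3⟩ := hD
      obtain ⟨E', h1', h2', h3'⟩ := hE
      refine ⟨D' + E', ?_, fun σ hσ => ?_, ?_⟩
      · have e : D + E - (D' + E') = (D - D') + (E - E') := by abel
        rw [e]
        exact (redKer M A).add_mem h1 h1'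
      · rw [smul_add, h2 σ hσ, h2' σ hσ]
      · rw [map_add, map_add, h3, h3']
    | single v n =>
      refine ⟨Finsupp.single (φ v) n, ?_, fun σ hσ => ?_, ?_⟩
      · have e : (Finsupp.single v n - Finsupp.single (φ v) n : Divisor Kbar (FF M)) =
            n • (Finsupp.single v (1 : ℤ) - Finsupp.single (φ v) (1 : ℤ)) := by
          rw [smul_sub, Finsupp.smul_single, Finsupp.smul_single, smul_eq_mul, mul_one]
        rw [e]
        exact (redKer M A).zsmul_mem (single_sub_single_mem_redKer (hφ1 v)) n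
      · rw [SemilinearAut.smul_single, hφ2 v σ hσ]
      · rw [Divisor.degree_single, Divisor.degree_single, hdeg, hdeg]
  intro y
  obtain ⟨D, rfl⟩ := Pic0.mk_surjective y
  obtain ⟨D', h1, h2, h3⟩ := key (D : Divisor Kbar (FF M))
  have hD' : D' ∈ Divisor.degZero (K := Kbar) (F := FF M) := by
    rw [Divisor.mem_degZero, h3]
    exact D.2
  refine ⟨Pic0.mk ⟨D', hD'⟩, fun σ hσ => ?_, ⟨D - ⟨D', hD'⟩, h1, rfl⟩⟩
  show Pic0.mk (SemilinearAut.degZeroSMulHom (gal M σ) ⟨D', hD'⟩) = Pic0.mk ⟨D', hD'⟩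
  congr 1
  exact Subtype.ext (h2 σ hσ)

/-- **the last three fields of `H96GeoInputs M A`** at a good level. -/
theorem h91n_geo_tail {ℓ : ℕ} (hℓ : ℓ.Prime) (hM : ¬ ℓ ∣ M) (haux : auxLevel ℓ ∣ M)
    (hA : A.LiesOverPrime ℓ) :
    (∀ y : JZero M, ∃ c₀ : JZero M, (∀ σ ∈ A.inertiaSubgroupIn ℚ, σ • c₀ = c₀) ∧
      y - c₀ ∈ redKerPic M A) ∧
    (∀ σ ∈ A.inertiaSubgroupIn ℚ, ∀ x : JZero M, σ • x - x ∈ redKerPic M A) ∧
    (∀ τ ∈ A.decompositionSubgroup ℚ, ∀ x ∈ redKerPic M A, τ • x ∈ redKerPic M A) :=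
  ⟨h91n_unr_of_place (h91n_unrPlace hℓ hM haux hA), h91n_inert hℓ hM hA, h91n_dstab M A⟩

end Unr


end Fermat.Agent.P5
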