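import Fermat.Agent.P5.H56GeoAsm
import Fermat.Agent.P5.H62DiscChar
import Fermat.Agent.P5.H88RedDivFinal
import Fermat.Agent.P5.H26GenusFinal
import Fermat.Agent.P5.H89InfFin
import Fermat.Agent.P5.H4RepLeaf
import Fermat.Agent.P5.H4LinkLeaf
import Fermat.Agent.P5.H91Unr
import Fermat.Agent.P5.H38Link
import Fermat.Agent.P5.H89DiscGauss
import Fermat.Agent.P5.H50LinkDims
import Fermat.Agent.P5.H13GBase
import Fermat.Agent.P5.H68RRFin
import Fermat.Agent.P5.H68RRLarge

/-!
# P5 (wave 5, S19), row TOP-GEO (helper37): the geometric inputs, UNCONDITIONALLY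

Final wiring of the landed leaves of GEO-DISC and GEO-RR:

* `h37t_linkRawLeaf : H4sLinkRawLeaf` : the raw link data (`h38l_core` of helper38, the bridge
  `h89g_discChar` of helper89, the dimensions `h50l_dimsLeaf` of helper50, semicontinuity
  `h26s_semi`, the special fibre base `h26s_base`);
* `h37t_link : H56gLink`, `h37t_lift : H56gLift`;
* `h37t_geoGood : H69vGeoGood` : at every good level `M` (`ℓ ∤ M`, `auxLevel ℓ ∣ M`) there is a
  valuation subring `A` of `ℚ̄` over `ℓ` with `H96GeoInputs M A`;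
* `h37t_level : H98pLevel` : the frozen Prop of `P5/Skeleton.lean`.
-/

set_option autoImplicit false

open AlgebraicCurve ModularCurve

noncomputable section

namespace Fermat.Agent.P5

open Fermat.Agent.S37

/-- **GEO-LINK, final leaf**: the raw link data in the frozen shape of `P5/H4LinkLeaf.lean`. -/
theorem h37t_linkRawLeaf : H4sLinkRawLeaf := by
  intro ℓ hℓ M _ hM haux A hA r hr g hgG hgS c c' hd hd' hns hns' hne
  have hBg : H13rBase Kbar (FF M) := h13g_gBase M
  have hBs : H13rBase (h13sK A) (h13sFt A M) := h26s_base ℓ hℓ M hM haux A hA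
  have hsame : ∀ v w : Place Kbar (FF M), r v = r w ↔ SameRed A v w := hr.2.1
  have hinj : ∀ i j : Fin g, SameRed A (c.Q i) (c.Q j) → i = j := fun i j h =>
    hns.1 ((hsame _ _).2 h)
  have hinj' : ∀ i j : Fin g, SameRed A (c'.Q i) (c'.Q j) → i = j := fun i j h =>
    hns'.1 ((hsame _ _).2 h)
  have hdisj : ∀ i j : Fin g, ¬ SameRed A (c.Q i) (c'.Q j) := fun i j h =>
    hne i j ((hsame _ _).2 h)
  have hl1 : h13rL (h13sK A) (h13sFt A M) (h13sPush r (h38lSum c.Q)) = 1 := by
    rw [h38l_push_S]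
    exact hns.2
  have hl1' : h13rL (h13sK A) (h13sFt A M) (h13sPush r (h38lSum c'.Q)) = 1 := by
    rw [h38l_push_S]
    exact hns'.2
  have hdims : H38lDims A r c c' :=
    h50l_dimsLeaf h26s_semi ℓ hℓ M hM haux A hA r hr hBg hBs (h68r_fin _ _) (h68r_fin _ _)
      (h68r_mono _ _) (h68r_mono _ _) g hgG hgS c c' hinj hinj' hdisj hl1 hl1'
  exact h38l_core hℓ hM hA hr hBg c c' hd (fun i => h89g_discChar hℓ hM haux hA hr (hd i))
    hd' (fun i => h89g_discChar hℓ hM haux hA hr (hd' i)) hns.1 hns'.1 hne hdims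

/-- **GEO-LINK**: the frozen leaf `H56gLink` of `P5/H56GeoAsm.lean`. -/
theorem h37t_link : H56gLink := h4s_linkLeaf h37t_linkRawLeaf

/-- conjunct 5 of `H96GeoInputs` in the shape of the leaf `H56gLift`. -/
theorem h37t_lift : H56gLift := fun _ hℓ _ _ hM haux _ hA =>
  (h91n_geo_tail hℓ hM haux hA).1

/-- **TOP-GEO**: the geometric inputs at every good level, unconditionally. -/
theorem h37t_geoGood : H69vGeoGood :=
  h56g_geoGood h62q_discExists h26s_base h88r_redDiv h26s_genus h89n_infFin h4r_repLeaf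
    h37t_link h37t_lift

/-- **TOP-LEVEL**: the frozen `H98pLevel` of `P5/Skeleton.lean`, unconditionally. -/
theorem h37t_level : H98pLevel := h69v_level_of_geo h37t_geoGood

end Fermat.Agent.P5
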