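import Mathlib
import Fermat.Agent.P5.H13RRIface
import Fermat.Agent.S24.DiffPlace

/-!
# Wave 5, pillar (P), block GEO: the chart property `rep` / `rep_unique`, abstract core (helper71)

`F / K` the generic fibre, `Ft / k` the special fibre, `r : Place K F → Place k Ft` the reduction
of places with the reduction of principal divisors (`H71rRed`: for every `f ≠ 0` there is
`y ≠ 0` in `Ft` with `r_* div f = div y`).

For centres `Q i` with pairwise distinct reductions such that `∑ r (Q i)` is non-special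
(`ℓ~ = 1`):

* `h71r_nonspec` : `f ≠ 0`, `r_* div f + ∑ r (Q i) ≥ 0` ⟹ `r_* div f = 0`;
* `h71r_rep_div` : every divisor `D` of degree `0` with `r_* D = 0` is linearly equivalent to
  `∑ (P i - Q i)` with `r (P i) = r (Q i)` (uses only `g ≤ deg E ⟹ L(E) ≠ 0` on `F`);
* `h71r_unique_div` : the `P i` are unique (no semicontinuity needed: subtract the value of the
  function at a place outside the discs).
-/

set_option autoImplicit false

noncomputable section

namespace Fermat.Agent.P5

open AlgebraicCurve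

/-! ### Push-forward of finitely supported functions -/

section Push

variable {α β : Type*}

open Classical in
theorem h71r_push_apply (r : α → β) (D : α →₀ ℤ) (b : β) :
    Finsupp.mapDomain r D b = ∑ a ∈ D.support, if r a = b then D a else 0 := by
  rw [Finsupp.mapDomain, Finsupp.sum_apply]
  unfold Finsupp.sum
  refine Finset.sum_congr rfl fun a _ => ?_
  show (Finsupp.single (r a) (D a)) b = _
  rw [Finsupp.single_apply]

theorem h71r_push_ge (r : α → β) (D : α →₀ ℤ) (b : β) (hD : ∀ a, r a = b → 0 ≤ D a)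
    (a0 : α) (ha0 : r a0 = b) : D a0 ≤ Finsupp.mapDomain r D b := by
  classical
  rw [h71r_push_apply]
  have hnn : ∀ a ∈ D.support, 0 ≤ (if r a = b then D a else 0) := by
    intro a _
    split_ifs with h
    · exact hD a h
    · exact le_rfl
  by_cases h0 : a0 ∈ D.support
  · have h1 := Finset.single_le_sum hnn h0
    rwa [if_pos ha0] at h1
  · rw [Finsupp.notMem_support_iff.mp h0]
    exact Finset.sum_nonneg hnn

theorem h71r_push_nonneg (r : α → β) {D : α →₀ ℤ} (hD : 0 ≤ D) :
    0 ≤ Finsupp.mapDomain r D := by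
  classical
  rw [Finsupp.le_def]
  intro b
  rw [h71r_push_apply]
  refine Finset.sum_nonneg fun a _ => ?_
  split_ifs
  · exact Finsupp.le_def.mp hD a
  · exact le_rfl

open Classical in
theorem h71r_sum_single_apply {g : ℕ} (q : Fin g → β) (b : β) :
    (∑ i, Finsupp.single (q i) (1 : ℤ)) b = ∑ i, if q i = b then (1 : ℤ) else 0 := by
  rw [Finsupp.finsetSum_apply]
  refine Finset.sum_congr rfl fun i _ => ?_
  rw [Finsupp.single_apply]

theorem h71r_sum_single_nonneg {g : ℕ} (q : Fin g → β) :
    (0 : β →₀ ℤ) ≤ ∑ i, Finsupp.single (q i) (1 : ℤ) := by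
  classical
  rw [Finsupp.le_def]
  intro b
  rw [h71r_sum_single_apply]
  refine Finset.sum_nonneg fun i _ => ?_
  split_ifs <;> simp

theorem h71r_sum_single_self {g : ℕ} (q : Fin g → β) (hq : Function.Injective q) (i : Fin g) :
    (∑ j, Finsupp.single (q j) (1 : ℤ)) (q i) = 1 := by
  classical
  rw [h71r_sum_single_apply, Finset.sum_eq_single i]
  · rw [if_pos rfl]
  · intro j _ hji
    rw [if_neg fun h => hji (hq h)]
  · intro h
    exact absurd (Finset.mem_univ i) h

theorem h71r_sum_single_pos {g : ℕ} (q : Fin g → β) (b : β)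
    (h : 0 < (∑ j, Finsupp.single (q j) (1 : ℤ)) b) : ∃ j, q j = b := by
  classical
  by_contra hne
  have hne' : ∀ j, q j ≠ b := fun j hj => hne ⟨j, hj⟩
  rw [h71r_sum_single_apply] at h
  have h0 : (∑ i, if q i = b then (1 : ℤ) else 0) = 0 :=
    Finset.sum_eq_zero fun i _ => if_neg (hne' i)
  omega

theorem h71r_sum_single_zero {g : ℕ} (q : Fin g → β) (b : β) (h : ∀ j, q j ≠ b) :
    (∑ j, Finsupp.single (q j) (1 : ℤ)) b = 0 := by
  classical
  rw [h71r_sum_single_apply]
  exact Finset.sum_eq_zero fun i _ => if_neg (h i)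

/-- an effective divisor whose push-forward is the reduced divisor `∑ q i` (`q` injective) is
`∑ P i` with `r (P i) = q i`. -/
theorem h71r_decomp (r : α → β) {E : α →₀ ℤ} (hE : 0 ≤ E) {g : ℕ} (q : Fin g → β)
    (hq : Function.Injective q)
    (h : Finsupp.mapDomain r E = ∑ i, Finsupp.single (q i) (1 : ℤ)) :
    ∃ P : Fin g → α, (∀ i, r (P i) = q i) ∧ E = ∑ i, Finsupp.single (P i) (1 : ℤ) := by
  classical
  have hE' : ∀ a, 0 ≤ E a := fun a => Finsupp.le_def.mp hE a
  have hsupp : ∀ a ∈ E.support, 1 ≤ E a := by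
    intro a ha
    have h1 := hE' a
    have h2 := Finsupp.mem_support_iff.mp ha
    omega
  -- the fibre sums
  have hfib : ∀ i, (∑ a ∈ E.support, if r a = q i then E a else 0) = 1 := by
    intro i
    rw [← h71r_push_apply, h, h71r_sum_single_self q hq i]
  have hnn : ∀ (b : β), ∀ a ∈ E.support, 0 ≤ (if r a = b then E a else 0) := by
    intro b a _
    split_ifs
    · exact hE' a
    · exact le_rfl
  -- existence of a point in each fibre
  have hex : ∀ i, ∃ a, a ∈ E.support ∧ r a = q i := by
    intro i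
    by_contra hne
    have h0 : (∑ a ∈ E.support, if r a = q i then E a else 0) = 0 :=
      Finset.sum_eq_zero fun a ha => if_neg fun hra => hne ⟨a, ha, hra⟩
    have := hfib i
    omega
  choose P hPs hPr using hex
  -- uniqueness in each fibre and multiplicity one
  have hone : ∀ i, E (P i) = 1 ∧ ∀ a ∈ E.support, r a = q i → a = P i := by
    intro i
    have h1 := Finset.add_sum_erase E.support (fun a => if r a = q i then E a else 0) (hPs i)
    beta_reduce at h1
    rw [if_pos (hPr i), hfib i] at h1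
    have h2 : 0 ≤ ∑ a ∈ E.support.erase (P i), (if r a = q i then E a else 0) :=
      Finset.sum_nonneg fun a ha => hnn (q i) a (Finset.mem_of_mem_erase ha)
    have h3 := hsupp (P i) (hPs i)
    have h4 : (∑ a ∈ E.support.erase (P i), (if r a = q i then E a else 0)) = 0 := by omega
    refine ⟨by omega, fun a ha hra => ?_⟩
    by_contra hne
    have h5 := (Finset.sum_eq_zero_iff_of_nonneg
      (fun a ha => hnn (q i) a (Finset.mem_of_mem_erase ha))).mp h4 a
      (Finset.mem_erase.mpr ⟨hne, ha⟩)
    rw [if_pos hra] at h5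
    have := hsupp a ha
    omega
  have hPinj : Function.Injective P := by
    intro i j hij
    apply hq
    rw [← hPr i, ← hPr j, hij]
  -- every point of the support is some `P i`
  have hall : ∀ a ∈ E.support, ∃ i, a = P i := by
    intro a ha
    have h1 : E a ≤ Finsupp.mapDomain r E (r a) :=
      h71r_push_ge r E (r a) (fun a' _ => hE' a') a rfl
    rw [h] at h1
    have h2 := hsupp a ha
    obtain ⟨j, hj⟩ := h71r_sum_single_pos q (r a) (by omega)
    exact ⟨j, (hone j).2 a ha hj.symm⟩
  refine ⟨P, hPr, ?_⟩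
  ext a
  by_cases ha : a ∈ E.support
  · obtain ⟨i, rfl⟩ := hall a ha
    rw [h71r_sum_single_self P hPinj i, (hone i).1]
  · rw [Finsupp.notMem_support_iff.mp ha, h71r_sum_single_zero P a]
    intro j hj
    exact ha (hj ▸ hPs j)

/-- two reduced divisors `∑ P i = ∑ P' i` with `r ∘ P = r ∘ P'` injective have `P = P'`. -/
theorem h71r_eq_of_sum_eq (r : α → β) {g : ℕ} (P P' : Fin g → α)
    (hr : ∀ i, r (P i) = r (P' i)) (hinj : Function.Injective fun i => r (P' i))
    (h : (∑ i, Finsupp.single (P i) (1 : ℤ)) = ∑ i, Finsupp.single (P' i) (1 : ℤ)) :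
    P = P' := by
  classical
  funext i
  have hPinj : Function.Injective P := by
    intro a b hab
    apply hinj
    show r (P' a) = r (P' b)
    rw [← hr a, ← hr b, hab]
  have h1 := h71r_sum_single_self P hPinj i
  rw [h] at h1
  obtain ⟨j, hj⟩ := h71r_sum_single_pos P' (P i) (by omega)
  have h2 : r (P' j) = r (P' i) := by rw [hj, hr i]
  have h3 : j = i := hinj h2
  rw [← hj, h3]

end Push

/-! ### The abstract chart property -/

section Abs

variable {K F k Ft : Type*} [Field K] [Field F] [Algebra K F] [Field k] [Field Ft]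
  [Algebra k Ft]

/-- the reduction of places, with the reduction of principal divisors. -/
structure H71rRed (r : Place K F → Place k Ft) : Prop where
  surj : Function.Surjective r
  div : ∀ f : F, f ≠ 0 → ∀ D : Divisor K F, (∀ v : Place K F, D v = v.ord f) →
    ∃ y : Ft, y ≠ 0 ∧ ∀ Q : Place k Ft, Finsupp.mapDomain r D Q = Q.ord y

theorem h71r_one_mem {K F : Type*} [Field K] [Field F] [Algebra K F] {D : Divisor K F}
    (hD : 0 ≤ D) : (1 : F) ∈ riemannRochSpace D := by
  rw [mem_riemannRochSpace_iff]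
  intro v
  right
  rw [Place.ord_one]
  have := Finsupp.le_def.mp hD v
  simp only [Finsupp.coe_zero, Pi.zero_apply] at this
  omega

/-- in a one-dimensional `L(D)`, `D ≥ 0`, every function is constant. -/
theorem h71r_const_of_finrank_one {K F : Type*} [Field K] [Field F] [Algebra K F]
    {D : Divisor K F} (hD : 0 ≤ D) (h1 : h13rL K F D = 1) {y : F}
    (hy : y ∈ riemannRochSpace D) : ∃ c : K, y = algebraMap K F c := by
  have hone : (⟨1, h71r_one_mem hD⟩ : ↥(riemannRochSpace D)) ≠ 0 := by
    intro h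
    have := congrArg Subtype.val h
    simp at this
  obtain ⟨c, hc⟩ := (finrank_eq_one_iff_of_nonzero' _ hone).mp h1 ⟨y, hy⟩
  refine ⟨c, ?_⟩
  have := congrArg Subtype.val hc
  simp only [Submodule.coe_smul] at this
  rw [← this, Algebra.smul_def, mul_one]

variable {r : Place K F → Place k Ft}

/-- **non-speciality after reduction.** -/
theorem h71r_nonspec (hr : H71rRed r) {g : ℕ} (Qt : Fin g → Place k Ft)
    (hns : h13rL k Ft (∑ i, Finsupp.single (Qt i) (1 : ℤ)) = 1)
    {f : F} (hf : f ≠ 0) {D : Divisor K F} (hD : ∀ v : Place K F, D v = v.ord f)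
    (hpos : 0 ≤ Finsupp.mapDomain r D + ∑ i, Finsupp.single (Qt i) (1 : ℤ)) :
    Finsupp.mapDomain r D = 0 := by
  obtain ⟨y, hy0, hy⟩ := hr.div f hf D hD
  have hmem : y ∈ riemannRochSpace (∑ i, Finsupp.single (Qt i) (1 : ℤ)) := by
    rw [mem_riemannRochSpace_iff]
    intro Q
    right
    have := Finsupp.le_def.mp hpos Q
    simp only [Finsupp.coe_zero, Pi.zero_apply, Finsupp.coe_add, Pi.add_apply] at this
    rw [← hy Q]
    omega
  obtain ⟨c, hc⟩ := h71r_const_of_finrank_one (h71r_sum_single_nonneg Qt) hns hmem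
  ext Q
  rw [hy Q, hc, Fermat.Agent.S24.DiffPlace.ord_algebraMap]
  rfl

theorem h71r_degree_sum_single (hB : H13rBase K F) {g : ℕ} (Q : Fin g → Place K F) :
    Divisor.degree (∑ i, Finsupp.single (Q i) (1 : ℤ)) = g := by
  rw [map_sum]
  simp only [Divisor.degree_single, hB.deg_one, Nat.cast_one, mul_one, Finset.sum_const,
    Finset.card_univ, Fintype.card_fin, nsmul_eq_mul]

theorem h71r_push_sum_single {g : ℕ} (Q : Fin g → Place K F) :
    Finsupp.mapDomain r (∑ i, Finsupp.single (Q i) (1 : ℤ)) =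
      ∑ i, Finsupp.single (r (Q i)) (1 : ℤ) := by
  rw [Finsupp.mapDomain_finsetSum]
  exact Finset.sum_congr rfl fun i _ => Finsupp.mapDomain_single

/-- **rep, divisor form.** -/
theorem h71r_rep_div (hr : H71rRed r) (hB : H13rBase K F) {g : ℕ}
    (hRiem : ∀ D : Divisor K F, (g : ℤ) ≤ Divisor.degree D → riemannRochSpace D ≠ ⊥)
    (Q : Fin g → Place K F) (hQ : Function.Injective fun i => r (Q i))
    (hns : h13rL k Ft (∑ i, Finsupp.single (r (Q i)) (1 : ℤ)) = 1)
    (D : Divisor K F) (hD0 : Divisor.degree D = 0) (hDr : Finsupp.mapDomain r D = 0) :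
    ∃ P : Fin g → Place K F, (∀ i, r (P i) = r (Q i)) ∧
      ∃ f : F, f ≠ 0 ∧ ∀ v : Place K F,
        ((∑ i, Finsupp.single (P i) (1 : ℤ)) - (∑ i, Finsupp.single (Q i) (1 : ℤ)) - D) v =
          v.ord f := by
  set E0 : Divisor K F := D + ∑ i, Finsupp.single (Q i) (1 : ℤ) with hE0
  have hdeg : (g : ℤ) ≤ Divisor.degree E0 := by
    rw [hE0, map_add, hD0, h71r_degree_sum_single hB Q, zero_add]
  obtain ⟨f, hfm, hf0⟩ := (Submodule.ne_bot_iff _).mp (hRiem E0 hdeg)
  obtain ⟨Df, hDf, -⟩ := hB.pd f hf0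
  have hEpos : (0 : Divisor K F) ≤ Df + E0 := by
    rw [Finsupp.le_def]
    intro v
    have h1 := (mem_riemannRochSpace_iff.mp hfm v).resolve_left hf0
    simp only [Finsupp.coe_zero, Pi.zero_apply, Finsupp.coe_add, Pi.add_apply]
    rw [hDf v]
    omega
  have hpush : Finsupp.mapDomain r (Df + E0) =
      Finsupp.mapDomain r Df + ∑ i, Finsupp.single (r (Q i)) (1 : ℤ) := by
    rw [Finsupp.mapDomain_add, hE0, Finsupp.mapDomain_add, hDr, zero_add,
      h71r_push_sum_single]
  have hpos : 0 ≤ Finsupp.mapDomain r Df + ∑ i, Finsupp.single (r (Q i)) (1 : ℤ) := by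
    rw [← hpush]
    exact h71r_push_nonneg r hEpos
  have hzero := h71r_nonspec hr (fun i => r (Q i)) hns hf0 hDf hpos
  rw [hzero, zero_add] at hpush
  obtain ⟨P, hP, hEP⟩ := h71r_decomp r hEpos (fun i => r (Q i)) hQ hpush
  refine ⟨P, hP, f, hf0, fun v => ?_⟩
  rw [← hEP, ← hDf v, hE0]
  simp only [Finsupp.coe_sub, Finsupp.coe_add, Pi.sub_apply, Pi.add_apply]
  ring

/-- **rep_unique, divisor form.** -/
theorem h71r_unique_div (hr : H71rRed r) (hB : H13rBase K F) [Infinite (Place k Ft)]
    (hval : ∀ (v : Place K F) (f : F), 0 ≤ v.ord f →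
      ∃ a : K, f - algebraMap K F a = 0 ∨ 0 < v.ord (f - algebraMap K F a))
    {g : ℕ} (Q : Fin g → Place K F) (hQ : Function.Injective fun i => r (Q i))
    (hns : h13rL k Ft (∑ i, Finsupp.single (r (Q i)) (1 : ℤ)) = 1)
    (P P' : Fin g → Place K F) (hP : ∀ i, r (P i) = r (Q i)) (hP' : ∀ i, r (P' i) = r (Q i))
    (f : F)
    (hdiv : ∀ v : Place K F,
      ((∑ i, Finsupp.single (P i) (1 : ℤ)) - ∑ i, Finsupp.single (P' i) (1 : ℤ)) v = v.ord f) :
    P = P' := by
  classical
  have hrPP' : ∀ i, r (P i) = r (P' i) := fun i => (hP i).trans (hP' i).symm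
  have hinj' : Function.Injective fun i => r (P' i) := by
    intro i j hij
    apply hQ
    show r (Q i) = r (Q j)
    rw [← hP' i, ← hP' j]
    exact hij
  -- a place outside the discs
  obtain ⟨Q0, hQ0⟩ := Infinite.exists_notMem_finset (Finset.univ.image fun i => r (Q i))
  have hQ0' : ∀ i, r (Q i) ≠ Q0 := fun i h =>
    hQ0 (Finset.mem_image.mpr ⟨i, Finset.mem_univ i, h⟩)
  obtain ⟨v0, hv0⟩ := hr.surj Q0
  have hoff : ∀ (P'' : Fin g → Place K F), (∀ i, r (P'' i) = r (Q i)) → ∀ a, r a = Q0 →
      (∑ i, Finsupp.single (P'' i) (1 : ℤ)) a = 0 := by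
    intro P'' hP'' a ha
    refine h71r_sum_single_zero P'' a fun j hj => hQ0' j ?_
    rw [← hP'' j, hj, ha]
  have hord0 : v0.ord f = 0 := by
    rw [← hdiv v0]
    simp only [Finsupp.coe_sub, Pi.sub_apply]
    rw [hoff P hP v0 hv0, hoff P' hP' v0 hv0, sub_zero]
  obtain ⟨a, ha⟩ := hval v0 f hord0.ge
  have hSP' := h71r_sum_single_nonneg P'
  have hSP := h71r_sum_single_nonneg P
  rcases ha with ha | ha
  · -- `f` is constant
    have hfa : f = algebraMap K F a := sub_eq_zero.mp ha
    refine h71r_eq_of_sum_eq r P P' hrPP' hinj' ?_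
    ext v
    have := hdiv v
    rw [hfa, Fermat.Agent.S24.DiffPlace.ord_algebraMap] at this
    simp only [Finsupp.coe_sub, Pi.sub_apply] at this
    omega
  · -- `h = f - a` vanishes at `v0`: contradiction
    exfalso
    set h : F := f - algebraMap K F a with hh
    have hh0 : h ≠ 0 := by
      intro h0
      rw [h0, Place.ord_zero] at ha
      exact lt_irrefl _ ha
    have hfm : f ∈ riemannRochSpace (∑ i, Finsupp.single (P' i) (1 : ℤ)) := by
      rw [mem_riemannRochSpace_iff]
      intro v
      right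
      rw [← hdiv v]
      simp only [Finsupp.coe_sub, Pi.sub_apply]
      have := Finsupp.le_def.mp hSP v
      simp only [Finsupp.coe_zero, Pi.zero_apply] at this
      omega
    have ham : algebraMap K F a ∈ riemannRochSpace (∑ i, Finsupp.single (P' i) (1 : ℤ)) := by
      have := (riemannRochSpace (∑ i, Finsupp.single (P' i) (1 : ℤ))).smul_mem a
        (h71r_one_mem hSP')
      rwa [Algebra.smul_def, mul_one] at this
    have hhm : h ∈ riemannRochSpace (∑ i, Finsupp.single (P' i) (1 : ℤ)) :=
      Submodule.sub_mem _ hfm ham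
    obtain ⟨Dh, hDh, -⟩ := hB.pd h hh0
    have hge : ∀ v : Place K F, 0 ≤ Dh v + (∑ i, Finsupp.single (P' i) (1 : ℤ)) v := by
      intro v
      have h1 := (mem_riemannRochSpace_iff.mp hhm v).resolve_left hh0
      rw [hDh v]
      omega
    have hpos : 0 ≤ Finsupp.mapDomain r Dh + ∑ i, Finsupp.single (r (Q i)) (1 : ℤ) := by
      have h1 : (0 : Divisor K F) ≤ Dh + ∑ i, Finsupp.single (P' i) (1 : ℤ) := by
        rw [Finsupp.le_def]
        intro v
        simpa only [Finsupp.coe_zero, Pi.zero_apply, Finsupp.coe_add, Pi.add_apply] using hge v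
      have h2 := h71r_push_nonneg r h1
      rw [Finsupp.mapDomain_add, h71r_push_sum_single] at h2
      have h3 : (∑ i, Finsupp.single (r (P' i)) (1 : ℤ)) =
          ∑ i, Finsupp.single (r (Q i)) (1 : ℤ) :=
        Finset.sum_congr rfl fun i _ => by rw [hP' i]
      rwa [h3] at h2
    have hzero := h71r_nonspec hr (fun i => r (Q i)) hns hh0 hDh hpos
    have hfibre : ∀ a', r a' = Q0 → 0 ≤ Dh a' := by
      intro a' ha'
      have := hge a'
      rw [hoff P' hP' a' ha'] at this
      omega
    have hbig := h71r_push_ge r Dh Q0 hfibre v0 hv0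
    rw [hzero, hDh v0] at hbig
    simp only [Finsupp.coe_zero, Pi.zero_apply] at hbig
    omega

end Abs

end Fermat.Agent.P5
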