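import Fermat.Agent.P5.H38LinkIface
import Fermat.Agent.P5.H37DiscChar
import Fermat.Agent.P5.H40SFField
import Fermat.Agent.P5.H71RepAbs
import Fermat.Agent.Red.MatchLoc
import Fermat.Agent.Red.SM.Ram

/-!
# P5 (wave 5, S19), row GEO-LINK, part A (helper38): the local lemmas

* `h38lRed` : the reduction of Gauss-integral functions as a ring homomorphism.
* `h38l_two` : a Gauss unit of the form `t² h`, `h ∈ O`, has a reduction vanishing at least
  twice at the closed point of the disc.
* `h38l_der` : a Gauss unit `u ∈ O` vanishing at `Q` whose reduction vanishes exactly once at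
  the closed point is `t h` with `h(Q)` a unit of `A`.
-/

set_option autoImplicit false
set_option linter.unusedSectionVars false
set_option linter.unusedVariables false

open AlgebraicCurve ModularCurve

noncomputable section

namespace Fermat.Agent.P5

open Fermat.Agent.S37 Fermat.Agent.Red.GV

section Red

variable (A : ValuationSubring Kbar) (M : ℕ)

/-- the reduction of Gauss-integral functions, as a ring homomorphism. -/
def h38lRed : gaussV A M →+* h13sFt A M where
  toFun := h13sRed A M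
  map_one' := Subtype.ext (map_one (h13sR A M))
  map_mul' x y := Subtype.ext (map_mul (h13sR A M) x y)
  map_zero' := Subtype.ext (map_zero (h13sR A M))
  map_add' x y := Subtype.ext (map_add (h13sR A M) x y)

theorem h38l_red_apply (x : gaussV A M) : h38lRed A M x = h13sRed A M x := rfl

theorem h38l_red_eq_zero_iff (x : gaussV A M) : h38lRed A M x = 0 ↔ h13sR A M x = 0 := by
  constructor
  · intro h
    have := congrArg Subtype.val h
    exact this
  · intro h
    exact Subtype.ext h

/-- the reduction of a constant. -/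
theorem h38l_red_cst (a : A) :
    h38lRed A M (h40fCst A M a) = algebraMap (h13sK A) (h13sFt A M) (h13sPi A a) := by
  apply Subtype.ext
  show h13sR A M (h40fCst A M a) = algebraMap (h13sK A) (LaurentSeries (h13sK A)) (h13sPi A a)
  rw [h40f_red_cst, h40f_algebraMap_eq]

/-- the reduction of a small constant vanishes. -/
theorem h38l_red_cst_small (a : A) (ha : (a : Kbar) ∈ A.nonunits) :
    h38lRed A M (h40fCst A M a) = 0 := by
  rw [h38l_red_cst]
  have : h13sPi A a = 0 := by
    show IsLocalRing.residue A a = 0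
    rw [IsLocalRing.residue_eq_zero_iff]
    exact ValuationSubring.coe_mem_nonunits_iff.1 ha
  rw [this, map_zero]

variable {M} {ℓ : ℕ} [NeZero M]

theorem h38l_unit_of_red_ne (hℓ : ℓ.Prime) (hM : ¬ ℓ ∣ M) (hA : A.LiesOverPrime ℓ)
    (x : gaussV A M) (hx : h38lRed A M x ≠ 0) : (x : FF M) ≠ 0 ∧ (x : FF M)⁻¹ ∈ gaussV A M := by
  have hx' : h13sR A M x ≠ 0 := fun h => hx ((h38l_red_eq_zero_iff A M x).2 h)
  exact ⟨h40f_ne_zero A M hℓ hM hA x hx', h40f_inv_mem A M hℓ hM hA x hx'⟩

theorem h38l_red_ne_of_unit (hℓ : ℓ.Prime) (hM : ¬ ℓ ∣ M) (hA : A.LiesOverPrime ℓ)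
    (x : gaussV A M) (hx0 : (x : FF M) ≠ 0) (hx : (x : FF M)⁻¹ ∈ gaussV A M) :
    h38lRed A M x ≠ 0 := by
  intro h
  rcases (gaussR_eq_zero_iff A M hℓ hM hA x).1 ((h38l_red_eq_zero_iff A M x).1 h) with h1 | h1
  · exact hx0 h1
  · exact h1 hx

end Red

section Local

variable {M : ℕ} [NeZero M] {ℓ : ℕ} {A : ValuationSubring Kbar}
  {r : Place Kbar (FF M) → Place (h13sK A) (h13sFt A M)}

/-- the order of the reduction of a Gauss unit at a closed point. -/
theorem h38l_ord_red (hr : H13sIsRed A M r) (hB : H13rBase Kbar (FF M))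
    (x : gaussV A M) (hx0 : (x : FF M) ≠ 0) (hx : (x : FF M)⁻¹ ∈ gaussV A M)
    (D : Divisor Kbar (FF M)) (hD : ∀ v : Place Kbar (FF M), D v = v.ord (x : FF M))
    (n : Place (h13sK A) (h13sFt A M)) :
    Finsupp.mapDomain r D n = n.ord (h38lRed A M x) :=
  hr.2.2 (x : FF M) x.2 hx D hD n

theorem h38l_ord_nonneg_of_val {P : Place Kbar (FF M)} {f : FF M} {a : Kbar}
    (h : ValueAt P f a) : 0 ≤ P.ord f :=
  Fermat.Agent.S24.DiffPlace.ord_nonneg_of_mem P (Fermat.Agent.Red.Match.valueAt_mem h)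

theorem h38l_ord_pos_of_val_zero {P : Place Kbar (FF M)} {f : FF M}
    (h : ValueAt P f 0) (hf : f ≠ 0) : 0 < P.ord f := by
  unfold ValueAt at h
  rw [show cst M (0 : Kbar) = 0 from map_zero _, sub_zero] at h
  exact Fermat.Agent.Red.SM.h31_ord_pos_of_mem_nonunits P h hf

theorem h38l_val_zero_of_ord_pos {P : Place Kbar (FF M)} {f : FF M}
    (h : 0 < P.ord f) : ValueAt P f 0 := by
  unfold ValueAt
  rw [show cst M (0 : Kbar) = 0 from map_zero _, sub_zero]
  exact Fermat.Agent.Red.SM.h31_mem_nonunits_of_ord_pos P h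

/-- **TWO**: a Gauss unit `t² h`, `h ∈ O`, reduces to a function vanishing twice. -/
theorem h38l_two (hr : H13sIsRed A M r) (hB : H13rBase Kbar (FF M))
    {Q : Place Kbar (FF M)} {t : FF M} {O : Subring (FF M)} (hd : H37DiscAt A Q t O)
    (x : gaussV A M) (hx0 : (x : FF M) ≠ 0) (hx : (x : FF M)⁻¹ ∈ gaussV A M)
    {h : FF M} (hh : h ∈ O) (e : (x : FF M) = t * t * h) :
    2 ≤ (r Q).ord (h38lRed A M x) := by
  obtain ⟨D, hD, -⟩ := hB.pd (x : FF M) hx0
  rw [← h38l_ord_red hr hB x hx0 hx D hD (r Q)]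
  have ht0 : t ≠ 0 := by
    rintro rfl
    apply hx0
    rw [e]; simp
  have hh0 : h ≠ 0 := by
    rintro rfl
    apply hx0
    rw [e]; simp
  have hord : ∀ P : Place Kbar (FF M), D P = P.ord t + P.ord t + P.ord h := by
    intro P
    rw [hD P, e, P.ord_mul (mul_ne_zero ht0 ht0) hh0, P.ord_mul ht0 ht0]
  have hreg : ∀ P : Place Kbar (FF M), r P = r Q → 0 ≤ P.ord t ∧ 0 ≤ P.ord h := by
    intro P hP
    have hs : SameRed A P Q := (hr.2.1 P Q).1 hP
    obtain ⟨a, -, ha⟩ := hd.O_val t hd.O_t P hs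
    obtain ⟨b, -, hb⟩ := hd.O_val h hh P hs
    exact ⟨h38l_ord_nonneg_of_val ha, h38l_ord_nonneg_of_val hb⟩
  have h1 : D Q ≤ Finsupp.mapDomain r D (r Q) :=
    h71r_push_ge r D (r Q) (fun P hP => by
      rw [hord P]
      have := hreg P hP
      omega) Q rfl
  have h2 : 0 < Q.ord t := h38l_ord_pos_of_val_zero hd.t_zero ht0
  have h3 := hreg Q rfl
  have h4 := hord Q
  omega

end Local

end Fermat.Agent.P5
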