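import Fermat.Agent.P5.H38LinkA

/-!
# P5 (wave 5, S19), row GEO-LINK, part B (helper38): the jet lemmas

* `h38l_der` : a Gauss unit `u ∈ O` vanishing at `Q` whose reduction vanishes exactly once at
  the closed point is `t h` with `h(Q)` a unit of `A`.
* `h38l_N0_unit` : the jet matrix of functions whose integral combinations with a unit
  coefficient never reduce to a function vanishing twice at all centres has unit determinant.
* `h38l_indep` : functions whose reductions are independent modulo the constants are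
  independent of the constants over `ℚ̄`.
-/

set_option autoImplicit false
set_option linter.unusedSectionVars false
set_option linter.unusedVariables false

open AlgebraicCurve ModularCurve

noncomputable section

namespace Fermat.Agent.P5

open Fermat.Agent.S37 Fermat.Agent.Red.GV

section Val

variable {K : Type*} [Field K] (A : ValuationSubring K)

theorem h38l_nonunit_of {d : K} (h : ¬ (d ≠ 0 ∧ d⁻¹ ∈ A)) : d ∈ A.nonunits := by
  rw [A.mem_nonunits_iff]
  by_cases h0 : d = 0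
  · rw [h0, map_zero]; exact zero_lt_one
  · have h1 : d⁻¹ ∉ A := fun h' => h ⟨h0, h'⟩
    have h2 : ¬ A.valuation d⁻¹ ≤ 1 := fun h' => h1 ((A.valuation_le_one_iff _).1 h')
    rw [map_inv₀] at h2
    by_contra h3
    push_neg at h3
    exact h2 (inv_le_one_of_one_le₀ h3)

theorem h38l_unit_of_isUnit {d : A} (h : IsUnit d) : (d : K) ≠ 0 ∧ (d : K)⁻¹ ∈ A := by
  obtain ⟨u, rfl⟩ := h
  have h1 : ((u : A) : K) * (((u⁻¹ : Aˣ) : A) : K) = 1 := by
    have := congrArg A.subtype (u.mul_inv)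
    rw [map_mul, map_one] at this
    exact this
  have h0 : ((u : A) : K) ≠ 0 := left_ne_zero_of_mul_eq_one h1
  refine ⟨h0, ?_⟩
  have h2 : ((u : A) : K)⁻¹ = ((u⁻¹ : Aˣ) : A) := by
    rw [inv_eq_iff_eq_inv]
    exact eq_inv_of_mul_eq_one_left h1
  rw [h2]
  exact ((u⁻¹ : Aˣ) : A).2

/-- scaling a finite family to a primitive one. -/
theorem h38l_scale {ι : Type*} [Fintype ι] (x : ι → K) (hx : ∃ j, x j ≠ 0) :
    ∃ m, x m ≠ 0 ∧ ∀ j, x j * (x m)⁻¹ ∈ A := by
  classical
  obtain ⟨j0, hj0⟩ := hx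
  obtain ⟨m, -, hm⟩ := Finset.exists_max_image Finset.univ (fun j => A.valuation (x j))
    ⟨j0, Finset.mem_univ j0⟩
  have hm0 : x m ≠ 0 := by
    intro h
    have h1 := hm j0 (Finset.mem_univ _)
    rw [h, map_zero] at h1
    exact hj0 ((Valuation.zero_iff _).1 (le_antisymm h1 zero_le'))
  refine ⟨m, hm0, fun j => ?_⟩
  rw [← A.valuation_le_one_iff, map_mul, map_inv₀]
  have hv : A.valuation (x m) ≠ 0 := (Valuation.ne_zero_iff _).2 hm0
  rw [mul_inv_le_iff₀ (zero_lt_iff.2 hv), one_mul]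
  exact hm j (Finset.mem_univ _)

end Val

section Jets

variable {M : ℕ} [NeZero M] {ℓ : ℕ} {A : ValuationSubring Kbar}
  {r : Place Kbar (FF M) → Place (h13sK A) (h13sFt A M)}

theorem h38l_cst_mul (a b : Kbar) : cst M (a * b) = cst M a * cst M b := map_mul _ _ _

theorem h38l_cst_sum {ι : Type*} (s : Finset ι) (a : ι → Kbar) :
    cst M (∑ j ∈ s, a j) = ∑ j ∈ s, cst M (a j) := map_sum _ _ _

/-- **the derivative at a simple zero of the reduction is a unit.** -/
theorem h38l_der (hℓ : ℓ.Prime) (hM : ¬ ℓ ∣ M) (hA : A.LiesOverPrime ℓ)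
    (hr : H13sIsRed A M r) (hB : H13rBase Kbar (FF M))
    {Q : Place Kbar (FF M)} {t : FF M} {O : Subring (FF M)} (hd : H37DiscAt A Q t O)
    (hk : H37DiscChar A Q O) (u : gaussV A M) (hu : (u : FF M) ∈ O)
    (hu0 : ValueAt Q (u : FF M) 0) (hord : (r Q).ord (h38lRed A M u) = 1) :
    ∃ h ∈ O, ∃ d : Kbar, (u : FF M) = t * h ∧ ValueAt Q h d ∧ d ≠ 0 ∧ d⁻¹ ∈ A := by
  have c0 : cst M (0 : Kbar) = 0 := map_zero _
  obtain ⟨h, hh, e⟩ := hd.O_div (u : FF M) hu Q hd.refl 0 0 hu0 hd.t_zero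
  rw [c0, sub_zero, sub_zero] at e
  obtain ⟨d, hdA, hdv⟩ := hd.O_val h hh Q hd.refl
  refine ⟨h, hh, d, e, hdv, ?_⟩
  by_contra hcon
  have hdn : d ∈ A.nonunits := h38l_nonunit_of A hcon
  obtain ⟨h₂, hh₂, e₂⟩ := hd.O_div h hh Q hd.refl d 0 hdv hd.t_zero
  rw [c0, sub_zero] at e₂
  let tV : gaussV A M := ⟨t, hk.O_gauss t hd.O_t⟩
  let φ : gaussV A M := u - h40fCst A M ⟨d, hdA⟩ * tV
  have hφ : (φ : FF M) = t * t * h₂ := by
    show (u : FF M) - cst M d * t = _
    rw [e]
    linear_combination t * e₂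
  have hred : h38lRed A M φ = h38lRed A M u := by
    show h38lRed A M (u - h40fCst A M ⟨d, hdA⟩ * tV) = _
    rw [map_sub, map_mul, h38l_red_cst_small A M ⟨d, hdA⟩ hdn, zero_mul, sub_zero]
  have hune : h38lRed A M u ≠ 0 := by
    intro h0
    rw [h0, Place.ord_zero] at hord
    exact zero_ne_one hord
  obtain ⟨hφ0, hφi⟩ := h38l_unit_of_red_ne A hℓ hM hA φ (by rw [hred]; exact hune)
  have h2 := h38l_two hr hB hd φ hφ0 hφi hh₂ hφ
  rw [hred, hord] at h2
  omega

theorem h38l_val_sum {ι : Type*} (s : Finset ι) (v : Place Kbar (FF M)) (f : ι → FF M)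
    (a : ι → Kbar) (h : ∀ i ∈ s, ValueAt v (f i) (a i)) :
    ValueAt v (∑ i ∈ s, f i) (∑ i ∈ s, a i) := by
  classical
  induction s using Finset.induction_on with
  | empty =>
    simp only [Finset.sum_empty]
    exact Fermat.Agent.Red.Match.valueAt_zero v
  | insert j s hj ih =>
    rw [Finset.sum_insert hj, Finset.sum_insert hj]
    exact Fermat.Agent.Red.Match.valueAt_add (h j (Finset.mem_insert_self j s))
      (ih fun i hi => h i (Finset.mem_insert_of_mem hi))

/-- **N0_unit.** -/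
theorem h38l_N0_unit (hℓ : ℓ.Prime) (hM : ¬ ℓ ∣ M) (hA : A.LiesOverPrime ℓ)
    (hr : H13sIsRed A M r) (hB : H13rBase Kbar (FF M)) {g : ℕ}
    (c : H96Chart M g) (hd : ∀ i, H37DiscAt A (c.Q i) (c.t i) (c.O i))
    (hk : ∀ i, H37DiscChar A (c.Q i) (c.O i))
    (b : Fin g ⊕ Fin g → gaussV A M) (hbO : ∀ j i, (b j : FF M) ∈ c.O i)
    (N0 : Matrix (Fin g ⊕ Fin g) (Fin g ⊕ Fin g) Kbar)
    (N0_val : ∀ i j, ValueAt (c.Q i) (b j : FF M) (N0 (Sum.inl i) j))
    (N0_der : ∀ i j, ∃ h ∈ c.O i, (b j : FF M) - cst M (N0 (Sum.inl i) j) = c.t i * h ∧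
      ValueAt (c.Q i) h (N0 (Sum.inr i) j))
    (hind : ∀ γ : Fin g ⊕ Fin g → A, (∃ j, h13sPi A (γ j) ≠ 0) →
      h38lRed A M (∑ j, h40fCst A M (γ j) * b j) ≠ 0 ∧
      ∃ i, (r (c.Q i)).ord (h38lRed A M (∑ j, h40fCst A M (γ j) * b j)) < 2) :
    N0.det ≠ 0 ∧ (N0.det)⁻¹ ∈ A := by
  classical
  have c0 : cst M (0 : Kbar) = 0 := map_zero _
  have hA1 : ∀ i j, N0 (Sum.inl i) j ∈ A := fun i j => by
    obtain ⟨a, ha, hav⟩ := (hd i).O_val _ (hbO j i) (c.Q i) (hd i).refl
    rw [Fermat.Agent.Red.Match.valueAt_unique (N0_val i j) hav]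
    exact ha
  have hA2 : ∀ i j, N0 (Sum.inr i) j ∈ A := fun i j => by
    obtain ⟨h, hh, -, hv⟩ := N0_der i j
    obtain ⟨a, ha, hav⟩ := (hd i).O_val h hh (c.Q i) (hd i).refl
    rw [Fermat.Agent.Red.Match.valueAt_unique hv hav]
    exact ha
  have hAll : ∀ p q, N0 p q ∈ A := by
    rintro (i | i) q
    · exact hA1 i q
    · exact hA2 i q
  let NA : Matrix (Fin g ⊕ Fin g) (Fin g ⊕ Fin g) A := fun p q => ⟨N0 p q, hAll p q⟩
  have hN : N0 = A.subtype.mapMatrix NA := by
    ext p q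
    rfl
  have hdet : N0.det = ((NA.det : A) : Kbar) := by
    rw [hN, ← RingHom.map_det]
    rfl
  by_contra hcon
  have hnu : ¬ IsUnit NA.det := by
    intro hu
    apply hcon
    rw [hdet]
    exact h38l_unit_of_isUnit A hu
  have hres : IsLocalRing.residue A NA.det = 0 := by
    rw [IsLocalRing.residue_eq_zero_iff]
    exact (IsLocalRing.mem_maximalIdeal _).2 hnu
  have hdet0 : ((IsLocalRing.residue A).mapMatrix NA).det = 0 := by
    rw [← RingHom.map_det]
    exact hres
  obtain ⟨v, hv0, hv⟩ := Matrix.exists_mulVec_eq_zero_iff.2 hdet0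
  choose γ hγ using fun j => IsLocalRing.residue_surjective (v j)
  have hex : ∃ j, h13sPi A (γ j) ≠ 0 := by
    by_contra hall
    push_neg at hall
    apply hv0
    funext j
    rw [← hγ j]
    exact hall j
  obtain ⟨hfne, i, hi⟩ := hind γ hex
  set f : gaussV A M := ∑ j, h40fCst A M (γ j) * b j with hf
  have hfc : (f : FF M) = ∑ j, cst M (γ j : Kbar) * (b j : FF M) := by
    rw [hf]
    rw [← Subring.coe_subtype, map_sum]
    rfl
  choose hh hhO hhe hhv using N0_der i
  let α : A := ∑ j, γ j * NA (Sum.inl i) j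
  let δ : A := ∑ j, γ j * NA (Sum.inr i) j
  have hrow : ∀ p, IsLocalRing.residue A (∑ j, γ j * NA p j) = 0 := by
    intro p
    have h1 := congrFun hv p
    simp only [Matrix.mulVec, dotProduct, RingHom.mapMatrix_apply, Matrix.map_apply,
      Pi.zero_apply] at h1
    rw [map_sum]
    rw [← h1]
    refine Finset.sum_congr rfl fun j _ => ?_
    rw [map_mul, hγ j, mul_comm]
  have hsmall : ∀ p, ((∑ j, γ j * NA p j : A) : Kbar) ∈ A.nonunits := by
    intro p
    rw [ValuationSubring.coe_mem_nonunits_iff, ← IsLocalRing.residue_eq_zero_iff]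
    exact hrow p
  have hαc : ((α : A) : Kbar) = ∑ j, (γ j : Kbar) * N0 (Sum.inl i) j := by
    show A.subtype (∑ j, γ j * NA (Sum.inl i) j) = _
    rw [map_sum]
    rfl
  have hδc : ((δ : A) : Kbar) = ∑ j, (γ j : Kbar) * N0 (Sum.inr i) j := by
    show A.subtype (∑ j, γ j * NA (Sum.inr i) j) = _
    rw [map_sum]
    rfl
  let H : FF M := ∑ j, cst M (γ j : Kbar) * hh j
  have hHO : H ∈ c.O i :=
    sum_mem fun j _ => mul_mem ((hd i).O_cst _ (γ j).2) (hhO j)
  have e1 : (f : FF M) - cst M (α : Kbar) = c.t i * H := by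
    rw [hfc, hαc, h38l_cst_sum, ← Finset.sum_sub_distrib, Finset.mul_sum]
    refine Finset.sum_congr rfl fun j _ => ?_
    rw [h38l_cst_mul]
    linear_combination cst M (γ j : Kbar) * hhe j
  have hHv : ValueAt (c.Q i) H (δ : Kbar) := by
    rw [hδc]
    exact h38l_val_sum _ _ _ _ fun j _ =>
      Fermat.Agent.Red.Match.valueAt_mul (Fermat.Agent.Red.Match.valueAt_cst _ _) (hhv j)
  obtain ⟨H', hH'O, e2⟩ := (hd i).O_div H hHO (c.Q i) (hd i).refl (δ : Kbar) 0 hHv (hd i).t_zero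
  rw [c0, sub_zero] at e2
  let tV : gaussV A M := ⟨c.t i, (hk i).O_gauss _ (hd i).O_t⟩
  let φ : gaussV A M := f - h40fCst A M α - h40fCst A M δ * tV
  have hφ : (φ : FF M) = c.t i * c.t i * H' := by
    show (f : FF M) - cst M (α : Kbar) - cst M (δ : Kbar) * c.t i = _
    rw [e1]
    linear_combination c.t i * e2
  have hred : h38lRed A M φ = h38lRed A M f := by
    show h38lRed A M (f - h40fCst A M α - h40fCst A M δ * tV) = _
    rw [map_sub, map_sub, map_mul, h38l_red_cst_small A M α (hsmall _),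
      h38l_red_cst_small A M δ (hsmall _), zero_mul, sub_zero, sub_zero]
  obtain ⟨hφ0, hφi⟩ := h38l_unit_of_red_ne A hℓ hM hA φ (by rw [hred]; exact hfne)
  have h2 := h38l_two hr hB (hd i) φ hφ0 hφi hH'O hφ
  rw [hred] at h2
  omega

/-- **independence of the constants.** -/
theorem h38l_indep (hℓ : ℓ.Prime) (hM : ¬ ℓ ∣ M) (hA : A.LiesOverPrime ℓ)
    {ι : Type} [Fintype ι] (f : ι → gaussV A M)
    (hy : ∀ γ : ι → h13sK A, (∃ j, γ j ≠ 0) → ∀ c : h13sK A,
      ∑ j, algebraMap (h13sK A) (h13sFt A M) (γ j) * h38lRed A M (f j) ≠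
        algebraMap (h13sK A) (h13sFt A M) c)
    (e : Kbar) (co : ι → Kbar)
    (h : cst M e + ∑ j, cst M (co j) * (f j : FF M) = 0) : e = 0 := by
  classical
  by_contra he
  let x : Option ι → Kbar := fun p => Option.elim p e co
  obtain ⟨m, hm0, hm⟩ := h38l_scale A x ⟨none, he⟩
  set s : Kbar := (x m)⁻¹ with hs
  let e' : A := ⟨e * s, hm none⟩
  let co' : ι → A := fun j => ⟨co j * s, hm (some j)⟩
  have hrel : h40fCst A M e' + ∑ j, h40fCst A M (co' j) * f j = 0 := by
    apply Subtype.ext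
    show cst M (e * s) + ((∑ j, h40fCst A M (co' j) * f j : gaussV A M) : FF M) = 0
    rw [← Subring.coe_subtype, map_sum]
    show cst M (e * s) + ∑ j, cst M (co j * s) * (f j : FF M) = 0
    have : cst M (e * s) + ∑ j, cst M (co j * s) * (f j : FF M) =
        cst M s * (cst M e + ∑ j, cst M (co j) * (f j : FF M)) := by
      rw [mul_add, Finset.mul_sum, h38l_cst_mul]
      congr 1
      · ring
      · refine Finset.sum_congr rfl fun j _ => ?_
        rw [h38l_cst_mul]; ring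
    rw [this, h, mul_zero]
  have hred := congrArg (h38lRed A M) hrel
  rw [map_add, map_sum, map_zero, h38l_red_cst] at hred
  have hred' : ∑ j, algebraMap (h13sK A) (h13sFt A M) (h13sPi A (co' j)) * h38lRed A M (f j) =
      algebraMap (h13sK A) (h13sFt A M) (-(h13sPi A e')) := by
    rw [map_neg, eq_neg_iff_add_eq_zero, add_comm, ← hred]
    congr 1
    refine Finset.sum_congr rfl fun j _ => ?_
    rw [map_mul, h38l_red_cst]
  have hco : ∀ j, h13sPi A (co' j) = 0 := by
    by_contra hne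
    push_neg at hne
    exact hy (fun j => h13sPi A (co' j)) hne _ hred'
  have he' : h13sPi A e' = 0 := by
    have h1 : algebraMap (h13sK A) (h13sFt A M) (-(h13sPi A e')) = 0 := by
      rw [← hred']
      exact Finset.sum_eq_zero fun j _ => by rw [hco j, map_zero, zero_mul]
    have h2 := (map_eq_zero (algebraMap (h13sK A) (h13sFt A M))).1 h1
    exact neg_eq_zero.1 h2
  have hone : ∀ a : A, (a : Kbar) = 1 → h13sPi A a ≠ 0 := by
    intro a ha h0
    have : a = 1 := Subtype.ext ha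
    rw [this] at h0
    have h1 : h13sPi A 1 = 1 := map_one _
    rw [h1] at h0
    exact one_ne_zero h0
  cases m with
  | none =>
    exact hone e' (mul_inv_cancel₀ hm0) he'
  | some j =>
    exact hone (co' j) (mul_inv_cancel₀ hm0) (hco j)

end Jets

end Fermat.Agent.P5
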