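import Mathlib
import Fermat.Agent.P5.H13RRIface

/-!
# Wave 5, pillar (P), block GEO-LINK (helper81): sections with exact pole orders

Prelude vocabulary, any function field `F / K` with `K` infinite.

* `h81l_ord_eq_of_not_mem` : `s ∈ L(D)`, `s ∉ L(D - P)` ⟹ `ord_P s = - D P`.
* `h81l_exists_exact` : if no place of the finite set `T` is a base point of `L(D)`
  (`L(D - P) ≠ L(D)` for `P ∈ T`) and `L(D) ≠ 0`, there is `s ∈ L(D)`, `s ≠ 0`, with
  `ord_P s = - D P` for all `P ∈ T`: the effective divisor `div s + D` avoids `T`.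
  (Used for `E₀ ∼ 2 D₀ + D₁` away from the discs of the centres.)
* `h81l_effective` : for such `s`, `0 ≤ ord_v s + D v` at every place.
* `h81l_exists_exact_of_nonspecial` : the same from weak Riemann–Roch: `D₀` non-special,
  `D₀ ≤ D - P` for `P ∈ T`, `g ≤ deg D` (hypotheses = frozen Props of `P5/H13RRIface.lean`).
-/

set_option autoImplicit false

open AlgebraicCurve

namespace Fermat.Agent.P5

variable {K F : Type*} [Field K] [Field F] [Algebra K F]

theorem h81l_ord_eq_of_not_mem {D : Divisor K F} {P : Place K F} {s : F}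
    (hs : s ∈ riemannRochSpace D)
    (hs' : s ∉ riemannRochSpace (D - Finsupp.single P (1 : ℤ))) :
    s ≠ 0 ∧ P.ord s = - D P := by
  classical
  rw [mem_riemannRochSpace_iff] at hs hs'
  have hne : s ≠ 0 := by
    intro h0
    apply hs'
    intro v
    exact Or.inl h0
  refine ⟨hne, ?_⟩
  by_contra hord
  apply hs'
  intro v
  right
  have hv := (hs v).resolve_left hne
  by_cases hvP : v = P
  · subst hvP
    have h1 : (D - Finsupp.single v (1 : ℤ)) v = D v - 1 := by
      simp
    rw [h1]
    have h2 : - D v < v.ord s := lt_of_le_of_ne hv (fun h => hord h.symm)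
    omega
  · have h1 : (D - Finsupp.single P (1 : ℤ)) v = D v := by
      simp [Ne.symm hvP]
    rw [h1]
    exact hv

/-- **sections with exact pole orders on a finite set.** -/
theorem h81l_exists_exact [Infinite K] (D : Divisor K F) (T : Finset (Place K F))
    (h0 : riemannRochSpace D ≠ ⊥)
    (h : ∀ P ∈ T, ∃ f ∈ riemannRochSpace D,
      f ∉ riemannRochSpace (D - Finsupp.single P (1 : ℤ))) :
    ∃ s ∈ riemannRochSpace D, s ≠ 0 ∧ ∀ P ∈ T, P.ord s = - D P := by
  classical
  -- the subspaces of `L(D)` to avoid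
  let p : Place K F → Submodule K ↥(riemannRochSpace D) := fun P =>
    (riemannRochSpace (D - Finsupp.single P (1 : ℤ))).comap (riemannRochSpace D).subtype
  let S : Finset (Submodule K ↥(riemannRochSpace D)) := insert ⊥ (T.image p)
  have hS : (⊤ : Submodule K ↥(riemannRochSpace D)) ∉ S := by
    intro htop
    rcases Finset.mem_insert.mp htop with h1 | h1
    · -- `⊤ = ⊥` contradicts `L(D) ≠ 0`
      apply h0
      rw [Submodule.eq_bot_iff]
      intro x hx
      have hx' : (⟨x, hx⟩ : ↥(riemannRochSpace D)) ∈ (⊤ : Submodule K ↥(riemannRochSpace D)) :=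
        Submodule.mem_top
      rw [h1] at hx'
      have := (Submodule.mem_bot K).mp hx'
      exact congrArg Subtype.val this
    · obtain ⟨P, hP, hPtop⟩ := Finset.mem_image.mp h1
      obtain ⟨f, hf, hf'⟩ := h P hP
      apply hf'
      have hx' : (⟨f, hf⟩ : ↥(riemannRochSpace D)) ∈ p P := by
        rw [hPtop]; exact Submodule.mem_top
      exact hx'
  have hcov := Subspace.biUnion_ne_univ_of_top_notMem hS
  obtain ⟨x, hx⟩ : ∃ x : ↥(riemannRochSpace D), x ∉ ⋃ q ∈ S, (q : Set ↥(riemannRochSpace D)) := by
    by_contra hcon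
    apply hcov
    ext y
    simp only [Set.mem_univ, iff_true]
    by_contra hy
    exact hcon ⟨y, hy⟩
  simp only [Set.mem_iUnion, not_exists] at hx
  refine ⟨x.1, x.2, ?_, ?_⟩
  · intro hx0
    apply hx ⊥ (Finset.mem_insert_self _ _)
    show x ∈ (⊥ : Submodule K ↥(riemannRochSpace D))
    rw [Submodule.mem_bot]
    exact Subtype.ext hx0
  · intro P hP
    have hxP : x ∉ p P := fun hmem =>
      hx (p P) (Finset.mem_insert_of_mem (Finset.mem_image_of_mem p hP)) hmem
    exact (h81l_ord_eq_of_not_mem x.2 hxP).2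

/-- the divisor `div s + D` is effective and avoids `T`. -/
theorem h81l_effective {D : Divisor K F} {s : F} (hs : s ∈ riemannRochSpace D) (hs0 : s ≠ 0)
    (v : Place K F) : 0 ≤ v.ord s + D v := by
  have := ((mem_riemannRochSpace_iff.mp hs) v).resolve_left hs0
  omega

/-- **sections with exact pole orders, from weak Riemann–Roch.** -/
theorem h81l_exists_exact_of_nonspecial [Infinite K] (hB : H13rBase K F)
    (hmono : H13rMono K F) {g : ℕ} (hg : H13rIsGenus K F g) (D₀ D : Divisor K F)
    (T : Finset (Place K F))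
    (hD₀ : (h13rL K F D₀ : ℤ) + g = Divisor.degree D₀ + 1) (hle : D₀ ≤ D)
    (hT : ∀ P ∈ T, D₀ ≤ D - Finsupp.single P (1 : ℤ))
    (hdeg : (g : ℤ) ≤ Divisor.degree D) :
    ∃ s ∈ riemannRochSpace D, s ≠ 0 ∧ ∀ P ∈ T, P.ord s = - D P := by
  have hD : (h13rL K F D : ℤ) + g = Divisor.degree D + 1 := hmono hB g hg D₀ D hle hD₀
  have hpos : 0 < h13rL K F D := by
    have : (0 : ℤ) < (h13rL K F D : ℤ) := by linarith
    exact_mod_cast this
  refine h81l_exists_exact D T ?_ ?_
  · intro hbot
    unfold h13rL at hpos
    rw [hbot] at hpos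
    simp at hpos
  · intro P hP
    have hDP : (h13rL K F (D - Finsupp.single P (1 : ℤ)) : ℤ) + g
        = Divisor.degree (D - Finsupp.single P (1 : ℤ)) + 1 :=
      hmono hB g hg D₀ _ (hT P hP) hD₀
    have hdegP : Divisor.degree (D - Finsupp.single P (1 : ℤ)) = Divisor.degree D - 1 := by
      rw [map_sub, Divisor.degree_single, hB.deg_one P]
      simp
    have hlt : h13rL K F (D - Finsupp.single P (1 : ℤ)) < h13rL K F D := by
      have : (h13rL K F (D - Finsupp.single P (1 : ℤ)) : ℤ) < (h13rL K F D : ℤ) := by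
        linarith
      exact_mod_cast this
    by_contra hcon
    have hsub : riemannRochSpace D ≤ riemannRochSpace (D - Finsupp.single P (1 : ℤ)) := by
      intro f hf
      by_contra hf'
      exact hcon ⟨f, hf, hf'⟩
    have hsup : riemannRochSpace (D - Finsupp.single P (1 : ℤ)) ≤ riemannRochSpace D := by
      intro f hf
      rw [mem_riemannRochSpace_iff] at hf ⊢
      intro v
      rcases hf v with h | h
      · exact Or.inl h
      · right
        have h1 : (D - Finsupp.single P (1 : ℤ)) v ≤ D v := by
          classical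
          simp only [Finsupp.coe_sub, Pi.sub_apply, Finsupp.single_apply]
          split_ifs <;> omega
        omega
    have heq : riemannRochSpace (D - Finsupp.single P (1 : ℤ)) = riemannRochSpace D :=
      le_antisymm hsup hsub
    unfold h13rL at hlt
    rw [heq] at hlt
    exact lt_irrefl _ hlt

end Fermat.Agent.P5
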