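import Fermat.Agent.P5.H38LinkB
import Fermat.Agent.P5.H81Exact
import Fermat.Agent.S18.ResAlgClosed

/-!
# P5 (wave 5, S19), row GEO-LINK, part C (helper38): the choices on the special fibre

* `h38l_exists_compl` : in a space `L ∋ 1` of dimension `2g + 1`, `2g` elements independent
  modulo the constants.
* `h38l_push_D_*` : the reduction of `2 D₀ + D₁` at the centres.
* `h38l_exists_exact` : a section of `L~(r_* D)` with exact pole orders at the `2g` centres.
-/

set_option autoImplicit false
set_option linter.unusedSectionVars false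
set_option linter.unusedVariables false

open AlgebraicCurve ModularCurve

noncomputable section

namespace Fermat.Agent.P5

open Fermat.Agent.S37 Fermat.Agent.Red.GV

theorem h38l_exists_compl {k Ft : Type*} [Field k] [Field Ft] [Algebra k Ft] (g : ℕ)
    (L : Submodule k Ft) (h1 : (1 : Ft) ∈ L) (hdim : Module.finrank k L = 2 * g + 1) :
    ∃ y : Fin g ⊕ Fin g → Ft, (∀ j, y j ∈ L) ∧
      ∀ γ : Fin g ⊕ Fin g → k, (∃ j, γ j ≠ 0) → ∀ c : k,
        ∑ j, algebraMap k Ft (γ j) * y j ≠ algebraMap k Ft c := by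
  classical
  haveI : Module.Finite k L := Module.finite_of_finrank_pos (by omega)
  let one₁ : L := ⟨1, h1⟩
  have hone : one₁ ≠ 0 := fun h => one_ne_zero (congrArg Subtype.val h)
  let S : Submodule k L := Submodule.span k {one₁}
  have hS : Module.finrank k S = 1 := finrank_span_singleton hone
  have hQ : Module.finrank k (L ⧸ S) = 2 * g := by
    have := Submodule.finrank_quotient_add_finrank S
    omega
  let β₀ := Module.finBasisOfFinrankEq k (L ⧸ S) hQ
  let e : Fin (2 * g) ≃ Fin g ⊕ Fin g := (finCongr (two_mul g)).trans finSumFinEquiv.symm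
  let β := β₀.reindex e
  choose y' hy' using fun j => Submodule.mkQ_surjective S (β j)
  refine ⟨fun j => (y' j : Ft), fun j => (y' j).2, ?_⟩
  rintro γ ⟨j0, hj0⟩ c hc
  have h2 : ∑ j, γ j • y' j = c • one₁ := by
    apply Subtype.ext
    rw [Submodule.coe_sum]
    simp only [Submodule.coe_smul, Algebra.smul_def]
    rw [hc]
    show algebraMap k Ft c = algebraMap k Ft c * 1
    rw [mul_one]
  have h3 := congrArg S.mkQ h2
  have h4 : S.mkQ (c • one₁) = 0 := by
    rw [map_smul]
    have : S.mkQ one₁ = 0 :=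
      (Submodule.Quotient.mk_eq_zero S).2 (Submodule.mem_span_singleton_self _)
    rw [this, smul_zero]
  rw [h4, map_sum] at h3
  have h5 : ∑ j, γ j • β j = 0 := by
    rw [← h3]
    refine Finset.sum_congr rfl fun j _ => ?_
    rw [map_smul, hy' j]
  exact hj0 (Fintype.linearIndependent_iff.1 β.linearIndependent γ h5 j0)

section Push

variable {M : ℕ} [NeZero M] {A : ValuationSubring Kbar}
  {r : Place Kbar (FF M) → Place (h13sK A) (h13sFt A M)} {g : ℕ}

theorem h38l_sum_nonneg (Q : Fin g → Place Kbar (FF M)) : 0 ≤ h38lSum Q :=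
  h71r_sum_single_nonneg Q

theorem h38l_D_nonneg (c c' : H96Chart M g) : 0 ≤ h38lD c c' :=
  add_nonneg (add_nonneg (h38l_sum_nonneg _) (h38l_sum_nonneg _)) (h38l_sum_nonneg _)

theorem h38l_sum_self_pos (Q : Fin g → Place Kbar (FF M)) (i : Fin g) :
    1 ≤ h38lSum Q (Q i) := by
  classical
  unfold h38lSum
  rw [h71r_sum_single_apply]
  have := Finset.single_le_sum (f := fun j => if Q j = Q i then (1 : ℤ) else 0)
    (s := Finset.univ) (fun j _ => by
      show (0 : ℤ) ≤ if Q j = Q i then (1 : ℤ) else 0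
      split_ifs <;> simp) (Finset.mem_univ i)
  simpa using this

theorem h38l_push_D (c c' : H96Chart M g) :
    h13sPush r (h38lD c c') =
      (∑ i, Finsupp.single (r (c.Q i)) (1 : ℤ)) + (∑ i, Finsupp.single (r (c.Q i)) (1 : ℤ)) +
        ∑ i, Finsupp.single (r (c'.Q i)) (1 : ℤ) := by
  unfold h13sPush h38lD h38lSum
  rw [Finsupp.mapDomain_add, Finsupp.mapDomain_add, h71r_push_sum_single,
    h71r_push_sum_single]

theorem h38l_push_S (Q : Fin g → Place Kbar (FF M)) :
    h13sPush r (h38lSum Q) = ∑ i, Finsupp.single (r (Q i)) (1 : ℤ) := by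
  unfold h13sPush h38lSum
  rw [h71r_push_sum_single]

theorem h38l_push_D_src (c c' : H96Chart M g)
    (hQ : Function.Injective fun i => r (c.Q i)) (hQQ' : ∀ i j, r (c.Q i) ≠ r (c'.Q j))
    (i : Fin g) : h13sPush r (h38lD c c') (r (c.Q i)) = 2 := by
  rw [h38l_push_D, Finsupp.add_apply, Finsupp.add_apply,
    h71r_sum_single_self (fun i => r (c.Q i)) hQ i,
    h71r_sum_single_zero (fun j => r (c'.Q j)) (r (c.Q i)) (fun j h => hQQ' i j h.symm)]
  norm_num

theorem h38l_push_D_tgt (c c' : H96Chart M g)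
    (hQ' : Function.Injective fun i => r (c'.Q i)) (hQQ' : ∀ i j, r (c.Q i) ≠ r (c'.Q j))
    (i : Fin g) : h13sPush r (h38lD c c') (r (c'.Q i)) = 1 := by
  rw [h38l_push_D, Finsupp.add_apply, Finsupp.add_apply,
    h71r_sum_single_self (fun i => r (c'.Q i)) hQ' i,
    h71r_sum_single_zero (fun j => r (c.Q j)) (r (c'.Q i)) (fun j h => hQQ' j i h)]
  norm_num

theorem h38l_push_D_out (c c' : H96Chart M g) (n : Place (h13sK A) (h13sFt A M))
    (hn : ∀ i, r (c.Q i) ≠ n) :
    h13sPush r (h38lD c c') n = h13sPush r (h38lSum c'.Q) n := by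
  rw [h38l_push_D, h38l_push_S, Finsupp.add_apply, Finsupp.add_apply,
    h71r_sum_single_zero (fun j => r (c.Q j)) n hn]
  norm_num

theorem h38l_push_S_src (c c' : H96Chart M g) (hQQ' : ∀ i j, r (c.Q i) ≠ r (c'.Q j))
    (i : Fin g) : h13sPush r (h38lSum c'.Q) (r (c.Q i)) = 0 := by
  rw [h38l_push_S]
  exact h71r_sum_single_zero (fun j => r (c'.Q j)) (r (c.Q i)) (fun j h => hQQ' i j h.symm)

theorem h38l_L_mono {K F : Type*} [Field K] [Field F] [Algebra K F] {D E : Divisor K F}
    (h : D ≤ E) : riemannRochSpace D ≤ riemannRochSpace E := by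
  intro f hf
  rw [mem_riemannRochSpace_iff] at hf ⊢
  intro v
  rcases hf v with h0 | h0
  · exact Or.inl h0
  · right
    have := Finsupp.le_def.mp h v
    omega

/-- a section of `L~(r_* D)` with exact pole orders at the `2g` centres. -/
theorem h38l_exists_exact (c c' : H96Chart M g) (hdims : H38lDims A r c c') :
    ∃ s ∈ riemannRochSpace (h13sPush r (h38lD c c')), s ≠ 0 ∧
      (∀ i, (r (c.Q i)).ord s = - h13sPush r (h38lD c c') (r (c.Q i))) ∧
      (∀ i, (r (c'.Q i)).ord s = - h13sPush r (h38lD c c') (r (c'.Q i))) := by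
  classical
  haveI : Infinite (h13sK A) := by
    haveI := Fermat.Agent.S18.h72_residueField_isAlgClosed A
    show Infinite (IsLocalRing.ResidueField A)
    infer_instance
  set Dt := h13sPush r (h38lD c c') with hDt
  have hDt0 : 0 ≤ Dt := h71r_push_nonneg r (h38l_D_nonneg c c')
  have hdim : Module.finrank (h13sK A) (riemannRochSpace Dt) = 2 * g + 1 := hdims.dimS
  haveI : Module.Finite (h13sK A) (riemannRochSpace Dt) :=
    Module.finite_of_finrank_pos (by omega)
  have h0 : riemannRochSpace Dt ≠ ⊥ := by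
    intro h
    have h1 : (1 : h13sFt A M) ∈ riemannRochSpace Dt := h71r_one_mem hDt0
    rw [h] at h1
    exact one_ne_zero ((Submodule.mem_bot _).1 h1)
  have key : ∀ P : Place (h13sK A) (h13sFt A M),
      Module.finrank (h13sK A) (riemannRochSpace (Dt - Finsupp.single P (1 : ℤ))) ≤ 2 * g →
      ∃ f ∈ riemannRochSpace Dt, f ∉ riemannRochSpace (Dt - Finsupp.single P (1 : ℤ)) := by
    intro P hP
    by_contra hcon
    push_neg at hcon
    have hle : riemannRochSpace Dt ≤ riemannRochSpace (Dt - Finsupp.single P (1 : ℤ)) := hcon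
    have hge : riemannRochSpace (Dt - Finsupp.single P (1 : ℤ)) ≤ riemannRochSpace Dt := by
      apply h38l_L_mono
      rw [Finsupp.le_def]
      intro v
      rw [Finsupp.sub_apply, Finsupp.single_apply]
      split_ifs <;> omega
    have heq := le_antisymm hle hge
    rw [← heq] at hP
    omega
  let T : Finset (Place (h13sK A) (h13sFt A M)) :=
    Finset.univ.image (fun i => r (c.Q i)) ∪ Finset.univ.image (fun i => r (c'.Q i))
  obtain ⟨s, hs, hs0, hsT⟩ := h81l_exists_exact (K := h13sK A) (F := h13sFt A M) Dt T h0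
    (fun P hP => by
      rcases Finset.mem_union.1 hP with h | h
      · obtain ⟨i, -, rfl⟩ := Finset.mem_image.1 h
        exact key _ (hdims.dimS_sub i)
      · obtain ⟨i, -, rfl⟩ := Finset.mem_image.1 h
        exact key _ (hdims.dimS_sub' i))
  refine ⟨s, hs, hs0, fun i => hsT _ ?_, fun i => hsT _ ?_⟩
  · exact Finset.mem_union_left _ (Finset.mem_image_of_mem _ (Finset.mem_univ i))
  · exact Finset.mem_union_right _ (Finset.mem_image_of_mem _ (Finset.mem_univ i))

end Push

end Fermat.Agent.P5
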