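import Fermat.Agent.P5.H38Link
import Fermat.Agent.P5.H50LinkDims
import Fermat.Agent.P5.H26GenusFinal
import Fermat.Agent.P5.H4LinkLeaf

/-!
# P5 (wave 5, S19), row GEO-LINK (helper38): the link, UNCONDITIONAL

* `h38l_dims` : the Riemann–Roch input `H38lDims A r c c'` from the landed leaves
  (`h50l_dimsLeaf` of helper50, `h26s_semi`, `h26s_base` of helper26, `h13g_gBase` of helper13,
  `h3r_fin`, `h68r_mono`).
* `h38l_linkRawC` : the raw link data `H4sLinkRaw A c c'` under the hypotheses of `H56gLink`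
  plus the bridge `H37DiscChar` at the centres.
* `h38l_linkC` : `Nonempty (H96Link A c c')` under the same hypotheses.
-/

set_option autoImplicit false
set_option linter.unusedSectionVars false
set_option linter.unusedVariables false

open AlgebraicCurve ModularCurve

noncomputable section

namespace Fermat.Agent.P5

open Fermat.Agent.S37 Fermat.Agent.Red.GV

/-- the Riemann–Roch input of the link, unconditionally. -/
theorem h38l_dims (ℓ : ℕ) (hℓ : ℓ.Prime) (M : ℕ) [NeZero M] (hℓM : ¬ ℓ ∣ M)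
    (haux : auxLevel ℓ ∣ M) (A : ValuationSubring Kbar) (hA : A.LiesOverPrime ℓ)
    (r : Place Kbar (FF M) → Place (h13sK A) (h13sFt A M)) (hr : H13sIsRed A M r)
    (g : ℕ) (hgG : H13rIsGenus Kbar (FF M) g) (hgS : H13rIsGenus (h13sK A) (h13sFt A M) g)
    (c c' : H96Chart M g) (hns : H56gNonSpec r c.Q) (hns' : H56gNonSpec r c'.Q)
    (hne : ∀ i j, r (c.Q i) ≠ r (c'.Q j)) : H38lDims A r c c' := by
  refine h50l_dimsLeaf h26s_semi ℓ hℓ M hℓM haux A hA r hr (h13g_gBase M)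
    (h26s_base ℓ hℓ M hℓM haux A hA) h3r_fin h3r_fin (h68r_mono _ _) (h68r_mono _ _) g hgG hgS
    c c' ?_ ?_ ?_ ?_ ?_
  · exact fun i j h => hns.1 ((hr.2.1 (c.Q i) (c.Q j)).2 h)
  · exact fun i j h => hns'.1 ((hr.2.1 (c'.Q i) (c'.Q j)).2 h)
  · exact fun i j h => hne i j ((hr.2.1 (c.Q i) (c'.Q j)).2 h)
  · rw [h38l_push_S]
    exact hns.2
  · rw [h38l_push_S]
    exact hns'.2

/-- **GEO-LINK, raw data**: under the hypotheses of `H56gLink` and the bridge `H37DiscChar`. -/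
theorem h38l_linkRawC (ℓ : ℕ) (hℓ : ℓ.Prime) (M : ℕ) [NeZero M] (hℓM : ¬ ℓ ∣ M)
    (haux : auxLevel ℓ ∣ M) (A : ValuationSubring Kbar) (hA : A.LiesOverPrime ℓ)
    (r : Place Kbar (FF M) → Place (h13sK A) (h13sFt A M)) (hr : H13sIsRed A M r)
    (g : ℕ) (hgG : H13rIsGenus Kbar (FF M) g) (hgS : H13rIsGenus (h13sK A) (h13sFt A M) g)
    (c c' : H96Chart M g)
    (hd : ∀ i, H37DiscAt A (c.Q i) (c.t i) (c.O i))
    (hk : ∀ i, H37DiscChar A (c.Q i) (c.O i))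
    (hd' : ∀ i, H37DiscAt A (c'.Q i) (c'.t i) (c'.O i))
    (hk' : ∀ i, H37DiscChar A (c'.Q i) (c'.O i))
    (hns : H56gNonSpec r c.Q) (hns' : H56gNonSpec r c'.Q)
    (hne : ∀ i j, r (c.Q i) ≠ r (c'.Q j)) : H4sLinkRaw A c c' :=
  h38l_core hℓ hℓM hA hr (h13g_gBase M) c c' hd hk hd' hk' hns.1 hns'.1 hne
    (h38l_dims ℓ hℓ M hℓM haux A hA r hr g hgG hgS c c' hns hns' hne)

/-- **GEO-LINK**: the link, under the hypotheses of `H56gLink` and the bridge `H37DiscChar`. -/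
theorem h38l_linkC (ℓ : ℕ) (hℓ : ℓ.Prime) (M : ℕ) [NeZero M] (hℓM : ¬ ℓ ∣ M)
    (haux : auxLevel ℓ ∣ M) (A : ValuationSubring Kbar) (hA : A.LiesOverPrime ℓ)
    (r : Place Kbar (FF M) → Place (h13sK A) (h13sFt A M)) (hr : H13sIsRed A M r)
    (g : ℕ) (hgG : H13rIsGenus Kbar (FF M) g) (hgS : H13rIsGenus (h13sK A) (h13sFt A M) g)
    (c c' : H96Chart M g)
    (hd : ∀ i, H37DiscAt A (c.Q i) (c.t i) (c.O i))
    (hk : ∀ i, H37DiscChar A (c.Q i) (c.O i))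
    (hd' : ∀ i, H37DiscAt A (c'.Q i) (c'.t i) (c'.O i))
    (hk' : ∀ i, H37DiscChar A (c'.Q i) (c'.O i))
    (hns : H56gNonSpec r c.Q) (hns' : H56gNonSpec r c'.Q)
    (hne : ∀ i j, r (c.Q i) ≠ r (c'.Q j)) : Nonempty (H96Link A c c') := by
  have : HasPrincipalDivisors Kbar (FF M) := ⟨(h13g_gBase M).pd⟩
  exact h4s_link A (h13g_gBase M).deg_one
    (h4s_chart_of_nonSpec hℓ hℓM A hA r hr c hd hns)
    (h4s_chart_of_nonSpec hℓ hℓM A hA r hr c' hd' hns')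
    (h38l_linkRawC ℓ hℓ M hℓM haux A hA r hr g hgG hgS c c' hd hk hd' hk' hns hns' hne)

end Fermat.Agent.P5
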