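import Fermat.Agent.P5.H39Clos

/-!
# Wave 5, pillar (P): the rank-one hypothesis `h39p_Arch` for valuation subrings over a prime

`K` a field all of whose elements are algebraic over `ℤ` (e.g. `AlgebraicClosure ℚ`),
`A : ValuationSubring K` with `(ℓ : K) ∈ A.nonunits` for a prime `ℓ`
(`ValuationSubring.LiesOverPrime` of the Prelude).  Then `h39p_Arch A ℓ`.
-/

set_option autoImplicit false

open Polynomial

namespace Fermat.Agent.P5

variable {K : Type*} [Field K]

section

variable (A : ValuationSubring K) {ℓ : ℕ}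

theorem h39q_intCast_mem (m : ℤ) : (m : K) ∈ A := intCast_mem A m

theorem h39q_natCast_mem (m : ℕ) : (m : K) ∈ A := natCast_mem A m

/-- Integers prime to `ℓ` are units of `A`. -/
theorem h39q_val_coprime (hℓ : ℓ.Prime) (hA : (ℓ : K) ∈ A.nonunits) {m : ℕ} (hm : ¬ ℓ ∣ m) :
    A.valuation (m : K) = 1 := by
  have hle : A.valuation (m : K) ≤ 1 := (A.valuation_le_one_iff _).mpr (h39q_natCast_mem A m)
  rcases lt_or_eq_of_le hle with hlt | heq
  · exfalso
    have hcop : Nat.Coprime ℓ m := (Nat.Prime.coprime_iff_not_dvd hℓ).mpr hm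
    have hb : (ℓ : ℤ) * Nat.gcdA ℓ m + (m : ℤ) * Nat.gcdB ℓ m = 1 := by
      have := Nat.gcd_eq_gcd_ab ℓ m
      rw [hcop] at this
      exact_mod_cast this.symm
    have hK : (ℓ : K) * (Nat.gcdA ℓ m : K) + (m : K) * (Nat.gcdB ℓ m : K) = 1 := by
      exact_mod_cast congrArg (fun z : ℤ => (z : K)) hb
    have h1 : A.valuation ((ℓ : K) * (Nat.gcdA ℓ m : K)) < 1 := by
      rw [map_mul]
      exact mul_lt_one_of_lt_of_le (A.mem_nonunits_iff.mp hA)
        ((A.valuation_le_one_iff _).mpr (h39q_intCast_mem A _))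
    have h2 : A.valuation ((m : K) * (Nat.gcdB ℓ m : K)) < 1 := by
      rw [map_mul]
      exact mul_lt_one_of_lt_of_le hlt
        ((A.valuation_le_one_iff _).mpr (h39q_intCast_mem A _))
    have h3 : A.valuation (1 : K) < 1 := by
      rw [← hK]
      exact lt_of_le_of_lt (A.valuation.map_add _ _) (max_lt h1 h2)
    rw [map_one] at h3
    exact lt_irrefl _ h3
  · exact heq

/-- The valuation of a non-zero integer is a power of the valuation of `ℓ`. -/
theorem h39q_val_nat (hℓ : ℓ.Prime) (hA : (ℓ : K) ∈ A.nonunits) {a : ℕ} (ha : a ≠ 0) :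
    ∃ n : ℕ, A.valuation (a : K) = A.valuation (ℓ : K) ^ n := by
  obtain ⟨n, m, hm, rfl⟩ := Nat.exists_eq_pow_mul_and_not_dvd ha ℓ hℓ.ne_one
  refine ⟨n, ?_⟩
  push_cast
  rw [map_mul, map_pow, h39q_val_coprime A hℓ hA hm, mul_one]

theorem h39q_isIntegral_mem {y : K} (hy : IsIntegral ℤ y) : y ∈ A := by
  have h1 : IsIntegral A y := hy.tower_top
  obtain ⟨z, hz⟩ := IsIntegrallyClosed.isIntegral_iff.mp h1
  rw [← hz]
  exact z.2


theorem h39q_val_int (hℓ : ℓ.Prime) (hA : (ℓ : K) ∈ A.nonunits) {a : ℤ} (ha : a ≠ 0) :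
    ∃ n : ℕ, A.valuation (a : K) = A.valuation (ℓ : K) ^ n := by
  have hn : a.natAbs ≠ 0 := Int.natAbs_ne_zero.mpr ha
  obtain ⟨n, hn'⟩ := h39q_val_nat A hℓ hA hn
  refine ⟨n, ?_⟩
  rw [← hn']
  rcases Int.natAbs_eq a with h | h
  · conv_lhs => rw [h]
    simp
  · conv_lhs => rw [h]
    simp

/-- Every element of `K` becomes integral after multiplication by a power of `ℓ`. -/
theorem h39q_arch (halg : ∀ x : K, IsAlgebraic ℤ x) (hℓ : ℓ.Prime)
    (hA : (ℓ : K) ∈ A.nonunits) (x : K) : ∃ n : ℕ, (ℓ : K) ^ n * x ∈ A := by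
  obtain ⟨y, hy0, hint⟩ := (halg x).exists_integral_multiple
  have hmem : y • x ∈ A := h39q_isIntegral_mem A hint
  rw [zsmul_eq_mul] at hmem
  obtain ⟨n, hn⟩ := h39q_val_int A hℓ hA hy0
  refine ⟨n, ?_⟩
  rw [← A.valuation_le_one_iff, map_mul, map_pow, ← hn, ← map_mul]
  exact (A.valuation_le_one_iff _).mpr hmem

/-- Every non-unit of `A` has a power divisible by `ℓ`. -/
theorem h39q_small [CharZero K] (halg : ∀ x : K, IsAlgebraic ℤ x) (hℓ : ℓ.Prime)
    (hA : (ℓ : K) ∈ A.nonunits) (y : K) (hy : y ∈ A) (hyinv : y⁻¹ ∉ A) :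
    ∃ N : ℕ, y ^ N * (ℓ : K)⁻¹ ∈ A := by
  classical
  have hy0 : y ≠ 0 := by
    rintro rfl
    exact hyinv (by simp [A.zero_mem])
  have hvy1 : A.valuation y < 1 := by
    rcases lt_or_eq_of_le ((A.valuation_le_one_iff _).mpr hy) with h | h
    · exact h
    · exfalso
      apply hyinv
      rw [← A.valuation_le_one_iff, map_inv₀, h, inv_one]
  have hvy0 : 0 < A.valuation y := by
    rw [pos_iff_ne_zero]
    exact (_root_.map_ne_zero _).mpr hy0
  have hvℓ : A.valuation (ℓ : K) < 1 := A.mem_nonunits_iff.mp hA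
  have hℓ0 : (ℓ : K) ≠ 0 := by exact_mod_cast hℓ.ne_zero
  have hvℓ0 : 0 < A.valuation (ℓ : K) := by
    rw [pos_iff_ne_zero]
    exact (_root_.map_ne_zero _).mpr hℓ0
  obtain ⟨p, hp0, hp⟩ := halg y
  set q := p.primPart with hq
  have hqy : aeval y q = 0 := aeval_primPart_eq_zero hp0 hp
  have hqprim : q.IsPrimitive := isPrimitive_primPart p
  have hex : ∃ i, ¬ (ℓ : ℤ) ∣ q.coeff i := by
    by_contra hcon
    push Not at hcon
    have hdvd : C (ℓ : ℤ) ∣ q := (C_dvd_iff_dvd_coeff _ _).mpr hcon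
    have hu := isPrimitive_iff_isUnit_of_C_dvd.mp hqprim _ hdvd
    have := Int.isUnit_iff.mp hu
    have h2 := hℓ.two_le
    omega
  set i₀ := Nat.find hex with hi₀
  have hi₀_spec : ¬ (ℓ : ℤ) ∣ q.coeff i₀ := Nat.find_spec hex
  have hi₀_min : ∀ i < i₀, (ℓ : ℤ) ∣ q.coeff i := fun i hi => by
    by_contra h
    exact Nat.find_min hex hi h
  -- the valuation of the coefficient at `i₀` is one
  have hvc : A.valuation ((q.coeff i₀ : ℤ) : K) = 1 := by
    have h1 : ¬ ℓ ∣ (q.coeff i₀).natAbs := by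
      intro h
      exact hi₀_spec (Int.natCast_dvd.mpr h)
    have h2 := h39q_val_coprime A hℓ hA h1
    rcases Int.natAbs_eq (q.coeff i₀) with h | h
    · conv_lhs => rw [h]
      simpa using h2
    · conv_lhs => rw [h]
      simpa using h2
  -- the equation
  have hsum : ∑ i ∈ Finset.range (q.natDegree + 1), ((q.coeff i : ℤ) : K) * y ^ i = 0 := by
    rw [← hqy, aeval_eq_sum_range]
    refine Finset.sum_congr rfl fun i _ => ?_
    rw [zsmul_eq_mul]
  have hi₀_mem : i₀ ∈ Finset.range (q.natDegree + 1) := by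
    rw [Finset.mem_range]
    by_contra h
    push Not at h
    apply hi₀_spec
    rw [coeff_eq_zero_of_natDegree_lt (by omega)]
    exact dvd_zero _
  have hterm : ((q.coeff i₀ : ℤ) : K) * y ^ i₀ =
      - ∑ i ∈ (Finset.range (q.natDegree + 1)).erase i₀, ((q.coeff i : ℤ) : K) * y ^ i := by
    rw [← Finset.add_sum_erase _ _ hi₀_mem] at hsum
    exact eq_neg_of_add_eq_zero_left hsum
  have hbound : A.valuation (((q.coeff i₀ : ℤ) : K) * y ^ i₀) ≤
      max (A.valuation (ℓ : K)) (A.valuation y ^ (i₀ + 1)) := by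
    rw [hterm, Valuation.map_neg]
    apply Valuation.map_sum_le
    intro i hi
    have hne : i ≠ i₀ := (Finset.mem_erase.mp hi).1
    rcases lt_or_gt_of_ne hne with hlt | hgt
    · obtain ⟨c, hc⟩ := hi₀_min i hlt
      refine le_trans ?_ (le_max_left _ _)
      rw [hc]
      push_cast
      rw [map_mul, map_mul, map_pow]
      have h1 : A.valuation ((c : ℤ) : K) ≤ 1 :=
        (A.valuation_le_one_iff _).mpr (h39q_intCast_mem A c)
      have h2 : A.valuation y ^ i ≤ 1 := pow_le_one' hvy1.le i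
      calc A.valuation (ℓ : K) * A.valuation ((c : ℤ) : K) * A.valuation y ^ i
          ≤ A.valuation (ℓ : K) * 1 * 1 := by gcongr
        _ = A.valuation (ℓ : K) := by simp
    · refine le_trans ?_ (le_max_right _ _)
      rw [map_mul, map_pow]
      have h1 : A.valuation ((q.coeff i : ℤ) : K) ≤ 1 :=
        (A.valuation_le_one_iff _).mpr (h39q_intCast_mem A _)
      have h2 : A.valuation y ^ i ≤ A.valuation y ^ (i₀ + 1) :=
        pow_le_pow_right_of_le_one' hvy1.le (by omega)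
      calc A.valuation ((q.coeff i : ℤ) : K) * A.valuation y ^ i
          ≤ 1 * A.valuation y ^ (i₀ + 1) := by gcongr
        _ = A.valuation y ^ (i₀ + 1) := one_mul _
  rw [map_mul, hvc, one_mul, map_pow] at hbound
  have hlt : A.valuation y ^ (i₀ + 1) < A.valuation y ^ i₀ := by
    rw [pow_succ]
    exact mul_lt_of_lt_one_right (pow_pos hvy0 _) hvy1
  have hle : A.valuation y ^ i₀ ≤ A.valuation (ℓ : K) := by
    rcases le_max_iff.mp hbound with h | h
    · exact h
    · exact absurd h (not_le.mpr hlt)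
  refine ⟨i₀, ?_⟩
  rw [← A.valuation_le_one_iff, map_mul, map_pow, map_inv₀, ← div_eq_mul_inv]
  exact div_le_one_of_le₀ hle zero_le

/-- **The rank-one hypothesis** for a valuation subring over a prime `ℓ` of a field which is
algebraic over `ℤ` and of characteristic zero. -/
theorem h39q_arch_of_nonunit [CharZero K] (halg : ∀ x : K, IsAlgebraic ℤ x) (hℓ : ℓ.Prime)
    (hA : (ℓ : K) ∈ A.nonunits) : h39p_Arch A (ℓ : K) where
  mem := A.nonunits_le hA
  inv_notMem := by
    intro h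
    have h1 : A.valuation (ℓ : K) < 1 := A.mem_nonunits_iff.mp hA
    have h2 : A.valuation (ℓ : K)⁻¹ ≤ 1 := (A.valuation_le_one_iff _).mpr h
    have hℓ0 : (ℓ : K) ≠ 0 := by exact_mod_cast hℓ.ne_zero
    have h3 : A.valuation (ℓ : K) * A.valuation (ℓ : K)⁻¹ = 1 := by
      rw [← map_mul, mul_inv_cancel₀ hℓ0, map_one]
    have h4 : A.valuation (ℓ : K) * A.valuation (ℓ : K)⁻¹ < 1 :=
      mul_lt_one_of_lt_of_le h1 h2
    rw [h3] at h4
    exact lt_irrefl _ h4
  arch := h39q_arch A halg hℓ hA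
  small := h39q_small A halg hℓ hA

end

/-- The case of `AlgebraicClosure ℚ`. -/
theorem h39q_arch_algClosure (A : ValuationSubring (AlgebraicClosure ℚ)) {ℓ : ℕ}
    (hℓ : ℓ.Prime) (hA : ((ℓ : ℕ) : AlgebraicClosure ℚ) ∈ A.nonunits) :
    h39p_Arch A ((ℓ : ℕ) : AlgebraicClosure ℚ) := by
  refine h39q_arch_of_nonunit A (fun x => ?_) hℓ hA
  have h1 : IsAlgebraic ℚ x := (AlgebraicClosure.isAlgebraic ℚ).isAlgebraic x
  exact (IsFractionRing.isAlgebraic_iff ℤ ℚ (AlgebraicClosure ℚ)).mpr h1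

end Fermat.Agent.P5
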