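import Mathlib

/-!
# Wave 5, pillar (P): closed function algebras on finite sets (helper39, Mathlib only)

`K` a field, `A : ValuationSubring K`, `w ∈ A` a non-unit such that the valuation is of rank one
relative to `w` (`h39p_Arch`).  For a finite set `S` we consider `A`-submodules and
`A`-subalgebras of `S → K`.

* `h39p_closed`   : a finitely generated `A`-submodule of `S → K` is `w`-adically closed;
* `h39p_inv_mem`  : a subalgebra contains the inverse of a function with unit values;
* `h39p_newton`   : a closed subalgebra contains the small root of a Hensel-type equation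
                    (truncated power series with integral remainders);
* `h39p_box`      : the "tensor product" of two function modules inside `S × S' → K`.
-/

set_option autoImplicit false

open Polynomial

namespace Fermat.Agent.P5

variable {K : Type*} [Field K]

/-- Rank-one hypotheses on `(A, w)`: `w` is a non-unit of `A`, every element of `K` becomes
integral after multiplication by a power of `w`, and every non-unit of `A` has a power
divisible by `w`. -/
structure h39p_Arch (A : ValuationSubring K) (w : K) : Prop where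
  mem : w ∈ A
  inv_notMem : w⁻¹ ∉ A
  arch : ∀ x : K, ∃ n : ℕ, w ^ n * x ∈ A
  small : ∀ y : K, y ∈ A → y⁻¹ ∉ A → ∃ N : ℕ, y ^ N * w⁻¹ ∈ A

/-- `f` and `g` agree modulo `w ^ n`. -/
def h39p_Near (A : ValuationSubring K) (w : K) {S : Type*} (n : ℕ) (f g : S → K) : Prop :=
  ∀ s, ∃ a ∈ A, f s - g s = w ^ n * a

section basic

variable {A : ValuationSubring K} {w : K}

theorem h39p_w_ne_zero (hA : h39p_Arch A w) : w ≠ 0 := by
  rintro rfl
  exact hA.inv_notMem (by simp [A.zero_mem])

theorem h39p_pow_mem (hA : h39p_Arch A w) (n : ℕ) : w ^ n ∈ A := pow_mem hA.mem n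

/-- Separation: an element divisible by all powers of `w` is zero. -/
theorem h39p_sep (hA : h39p_Arch A w) {x : K} (h : ∀ n : ℕ, ∃ a ∈ A, x = w ^ n * a) : x = 0 := by
  by_contra hx
  have hw := h39p_w_ne_zero hA
  obtain ⟨n, hn⟩ := hA.arch x⁻¹
  obtain ⟨a, ha, hxa⟩ := h (n + 1)
  have ha0 : a ≠ 0 := by
    rintro rfl
    exact hx (by simpa using hxa)
  apply hA.inv_notMem
  have : w⁻¹ = (w ^ n * x⁻¹) * a := by
    rw [hxa]
    field_simp
    ring
  rw [this]
  exact mul_mem hn ha

/-- Monotonicity in the exponent. -/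
theorem h39p_near_mono (hA : h39p_Arch A w) {S : Type*} {m n : ℕ} (hmn : m ≤ n) {f g : S → K}
    (h : h39p_Near A w n f g) : h39p_Near A w m f g := by
  intro s
  obtain ⟨a, ha, e⟩ := h s
  refine ⟨w ^ (n - m) * a, mul_mem (h39p_pow_mem hA _) ha, ?_⟩
  rw [e, ← mul_assoc, ← pow_add, Nat.add_sub_cancel' hmn]

/-- A uniform power of `w` clearing the denominators of a finite family. -/
theorem h39p_clear (hA : h39p_Arch A w) {ι : Type*} [Finite ι] (x : ι → K) :
    ∃ N : ℕ, ∀ i, w ^ N * x i ∈ A := by
  classical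
  cases nonempty_fintype ι
  choose n hn using fun i => hA.arch (x i)
  refine ⟨Finset.univ.sup n, fun i => ?_⟩
  have hle : n i ≤ Finset.univ.sup n := Finset.le_sup (Finset.mem_univ i)
  have : w ^ Finset.univ.sup n * x i = w ^ (Finset.univ.sup n - n i) * (w ^ n i * x i) := by
    rw [← mul_assoc, ← pow_add, Nat.sub_add_cancel hle]
  rw [this]
  exact mul_mem (h39p_pow_mem hA _) (hn i)

/-- In a valuation ring, a finite non-empty family has an element dividing all others. -/
theorem h39p_exists_max {ι : Type*} [Finite ι] [Nonempty ι] (A : ValuationSubring K)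
    (x : ι → K) : ∃ j, ∀ i, x j = 0 → x i = 0 := by
  classical
  cases nonempty_fintype ι
  obtain ⟨j, -, hj⟩ := Finset.exists_max_image Finset.univ (fun i => A.valuation (x i))
    Finset.univ_nonempty
  refine ⟨j, fun i h0 => ?_⟩
  have := hj i (Finset.mem_univ i)
  rw [h0, map_zero] at this
  exact (map_eq_zero _).mp (le_antisymm this zero_le)

theorem h39p_exists_dvd {ι : Type*} [Finite ι] [Nonempty ι] (A : ValuationSubring K)
    (x : ι → K) : ∃ j, ∀ i, ∃ a ∈ A, x i = x j * a := by
  classical
  cases nonempty_fintype ι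
  obtain ⟨j, -, hj⟩ := Finset.exists_max_image Finset.univ (fun i => A.valuation (x i))
    Finset.univ_nonempty
  refine ⟨j, fun i => ?_⟩
  have hij := hj i (Finset.mem_univ i)
  by_cases h0 : x j = 0
  · have : x i = 0 := by
      rw [h0, map_zero] at hij
      exact (map_eq_zero _).mp (le_antisymm hij zero_le)
    exact ⟨0, A.zero_mem, by rw [this, mul_zero]⟩
  · refine ⟨x i / x j, ?_, by field_simp⟩
    rw [← A.valuation_le_one_iff, map_div₀]
    exact div_le_one_of_le₀ hij zero_le

end basic


section closed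

variable {A : ValuationSubring K} {w : K} {S : Type*}

theorem h39p_smul_apply (a : A) (f : S → K) (s : S) : (a • f) s = (a : K) * f s := rfl

/-- A linearly dependent generating family can be shortened. -/
theorem h39p_span_reduce {n : ℕ} (e : Fin (n + 1) → S → K) (hdep : ¬ LinearIndependent K e) :
    ∃ e' : Fin n → S → K,
      Submodule.span A (Set.range e') = Submodule.span A (Set.range e) := by
  classical
  obtain ⟨g, hg, i₀, hi₀⟩ := Fintype.not_linearIndependent_iff.mp hdep
  obtain ⟨j, hj⟩ := h39p_exists_dvd A g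
  have hgj : g j ≠ 0 := by
    intro h0
    obtain ⟨a, -, e1⟩ := hj i₀
    exact hi₀ (by rw [e1, h0, zero_mul])
  choose a ha hga using hj
  have hsum : ∑ i, a i • e i = 0 := by
    have h1 : g j • ∑ i, a i • e i = 0 := by
      rw [Finset.smul_sum, ← hg]
      refine Finset.sum_congr rfl fun i _ => ?_
      rw [smul_smul, ← hga i]
    exact (smul_eq_zero.mp h1).resolve_left hgj
  have haj : a j = 1 := by
    have := hga j
    field_simp at this
    exact this.symm
  refine ⟨fun k => e (j.succAbove k), le_antisymm ?_ ?_⟩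
  · apply Submodule.span_mono
    rintro _ ⟨k, rfl⟩
    exact ⟨_, rfl⟩
  · rw [Submodule.span_le]
    rintro _ ⟨i, rfl⟩
    rcases eq_or_ne i j with rfl | hij
    · have h2 : e i = ∑ k : Fin n, (⟨-a (i.succAbove k), neg_mem (ha _)⟩ : A) •
          e (i.succAbove k) := by
        rw [Fin.sum_univ_succAbove _ i, haj, one_smul] at hsum
        have h3 : e i = - ∑ k : Fin n, a (i.succAbove k) • e (i.succAbove k) :=
          eq_neg_of_add_eq_zero_left hsum
        rw [h3, ← Finset.sum_neg_distrib]
        refine Finset.sum_congr rfl fun k _ => ?_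
        funext s
        rw [h39p_smul_apply, Pi.neg_apply, Pi.smul_apply, smul_eq_mul, neg_mul]
      rw [h2]
      exact Submodule.sum_mem _ fun k _ =>
        Submodule.smul_mem _ _ (Submodule.subset_span ⟨k, rfl⟩)
    · obtain ⟨k, rfl⟩ := Fin.exists_succAbove_eq hij
      exact Submodule.subset_span ⟨k, rfl⟩

/-- A finitely generated `A`-submodule of `S → K` has a `K`-linearly independent generating
family. -/
theorem h39p_exists_indep (L : Submodule A (S → K)) (hL : L.FG) :
    ∃ (n : ℕ) (e : Fin n → S → K), LinearIndependent K e ∧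
      Submodule.span A (Set.range e) = L := by
  classical
  have hex : ∃ n : ℕ, ∃ e : Fin n → S → K, Submodule.span A (Set.range e) = L :=
    Submodule.fg_iff_exists_fin_generating_family.mp hL
  obtain ⟨e, he⟩ := Nat.find_spec hex
  refine ⟨Nat.find hex, e, ?_, he⟩
  by_contra hdep
  rcases hn : Nat.find hex with _ | m
  · apply hdep
    have : IsEmpty (Fin (Nat.find hex)) := by rw [hn]; infer_instance
    exact linearIndependent_empty_type
  · have key : ∀ (k : ℕ) (hk : k = m + 1) (e : Fin k → S → K),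
        Submodule.span A (Set.range e) = L → ¬ LinearIndependent K e → False := by
      rintro k rfl e he hdep
      obtain ⟨e', he'⟩ := h39p_span_reduce (A := A) e hdep
      have hlt : m < Nat.find hex := by rw [hn]; exact Nat.lt_succ_self m
      exact Nat.find_min hex hlt ⟨e', he'.trans he⟩
    exact key _ hn e he hdep

variable [Finite S]

/-- **Closedness.**  A finitely generated `A`-submodule of `S → K` (`S` finite) is `w`-adically
closed. -/
theorem h39p_closed (hA : h39p_Arch A w) (L : Submodule A (S → K)) (hL : L.FG) {f : S → K}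
    (hf : ∀ n : ℕ, ∃ g ∈ L, h39p_Near A w n f g) : f ∈ L := by
  classical
  cases nonempty_fintype S
  obtain ⟨n, e, hli, hspan⟩ := h39p_exists_indep L hL
  set T : (Fin n → K) →ₗ[K] (S → K) := Fintype.linearCombination K e with hT
  have hker : LinearMap.ker T = ⊥ := by
    rw [LinearMap.ker_eq_bot']
    intro c hc
    funext i
    exact Fintype.linearIndependent_iff.mp hli c hc i
  obtain ⟨G, hG⟩ := T.exists_leftInverse_of_injective hker
  have hGT : ∀ c, G (T c) = c := fun c => by
    have := congrArg (fun F => F c) hG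
    simpa using this
  -- elements of `L` have integral coordinates
  have hL_coord : ∀ g ∈ L, ∃ c : Fin n → K, (∀ i, c i ∈ A) ∧ g = T c := by
    intro g hg
    rw [← hspan] at hg
    obtain ⟨c, hc⟩ := (Submodule.mem_span_range_iff_exists_fun A).mp hg
    refine ⟨fun i => (c i : K), fun i => (c i).2, ?_⟩
    rw [← hc, hT, Fintype.linearCombination_apply]
    rfl
  -- the matrix of `G`
  obtain ⟨N₁, hN₁⟩ := h39p_clear hA (fun q : Fin n × S => G (Pi.single q.2 1) q.1)
  obtain ⟨N₂, hN₂⟩ := h39p_clear hA (fun q : Fin n × S => e q.1 q.2)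
  have hGexp : ∀ (h : S → K) (i : Fin n), G h i = ∑ s, h s * G (Pi.single s 1) i := by
    intro h i
    have h1 : h = ∑ s, h s • (Pi.single s (1 : K) : S → K) := by
      funext t
      simp [Finset.sum_apply, Pi.single_apply]
    conv_lhs => rw [h1]
    rw [map_sum, Finset.sum_apply]
    refine Finset.sum_congr rfl fun s _ => ?_
    rw [map_smul]
    rfl
  -- `G` maps small functions to small vectors
  have hGsmall : ∀ (M : ℕ) (h : S → K), (∀ s, ∃ a ∈ A, h s = w ^ (M + N₁) * a) →
      ∀ i, ∃ b ∈ A, G h i = w ^ M * b := by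
    intro M h hh i
    choose a ha hha using hh
    refine ⟨∑ s, a s * (w ^ N₁ * G (Pi.single s 1) i),
      sum_mem fun s _ => mul_mem (ha s) (hN₁ (i, s)), ?_⟩
    rw [hGexp, Finset.mul_sum]
    refine Finset.sum_congr rfl fun s _ => ?_
    rw [hha s, pow_add]
    ring
  -- `f` lies in the `K`-span
  have hfT : f = T (G f) := by
    funext s
    have hd : f s - T (G f) s = 0 := by
      apply h39p_sep hA
      intro m
      obtain ⟨g, hg, hnear⟩ := hf (m + N₂ + N₁)
      obtain ⟨c, hc, hgc⟩ := hL_coord g hg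
      have hsm := hGsmall (m + N₂) (f - g) (fun s => by simpa using hnear s)
      choose b hb hGb using hsm
      obtain ⟨a, ha, hfa⟩ := hnear s
      have hTg : T (G g) = g := by rw [hgc, hGT]
      have e1 : f s - T (G f) s = (f s - g s) - T (G (f - g)) s := by
        have h2 : G f = G (f - g) + G g := by rw [← map_add, sub_add_cancel]
        have h1 : T (G f) s = T (G (f - g)) s + g s := by
          calc T (G f) s = T (G (f - g) + G g) s := by rw [← h2]
            _ = T (G (f - g)) s + T (G g) s := by rw [map_add]; rfl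
            _ = T (G (f - g)) s + g s := by rw [hTg]
        rw [h1]
        ring
      have e2 : T (G (f - g)) s = ∑ i, G (f - g) i * e i s := by
        rw [hT, Fintype.linearCombination_apply, Finset.sum_apply]
        rfl
      refine ⟨w ^ (N₂ + N₁) * a - ∑ i, b i * (w ^ N₂ * e i s),
        sub_mem (mul_mem (h39p_pow_mem hA _) ha)
          (sum_mem fun i _ => mul_mem (hb i) (hN₂ (i, s))), ?_⟩
      rw [e1, e2, hfa, mul_sub, Finset.mul_sum]
      congr 1
      · rw [← mul_assoc, ← pow_add]
        congr 2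
        omega
      · refine Finset.sum_congr rfl fun i _ => ?_
        rw [hGb i, pow_add]
        ring
    exact sub_eq_zero.mp hd
  -- the coordinates of `f` are integral
  have hcoord : ∀ i, G f i ∈ A := by
    intro i
    obtain ⟨g, hg, hnear⟩ := hf (0 + N₁)
    obtain ⟨c, hc, hgc⟩ := hL_coord g hg
    obtain ⟨b, hb, hGb⟩ := hGsmall 0 (f - g) (fun s => by simpa using hnear s) i
    have : G f i = G (f - g) i + c i := by
      have h1 : G f = G (f - g) + G g := by rw [← map_add, sub_add_cancel]
      rw [h1, hgc, hGT]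
      rfl
    rw [this, hGb, pow_zero, one_mul]
    exact add_mem hb (hc i)
  rw [← hspan, hfT]
  have : T (G f) = ∑ i, (⟨G f i, hcoord i⟩ : A) • e i := by
    rw [hT, Fintype.linearCombination_apply]
    rfl
  rw [this]
  exact Submodule.sum_mem _ fun i _ =>
    Submodule.smul_mem _ _ (Submodule.subset_span ⟨i, rfl⟩)

end closed

section algebra

variable {A : ValuationSubring K} {w : K} {S : Type*}

/-- **Unit inverse.**  A subalgebra of `S → K` (`S` finite) contains the inverse of each of its
elements with unit values. -/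
theorem h39p_inv_mem [Finite S] (R : Subalgebra A (S → K)) {f : S → K} (hf : f ∈ R)
    (hu : ∀ s, f s ∈ A ∧ (f s)⁻¹ ∈ A ∧ f s ≠ 0) : f⁻¹ ∈ R := by
  classical
  cases nonempty_fintype S
  set P : Polynomial A := ∏ s, (X - C (⟨f s, (hu s).1⟩ : A)) with hP
  set Q : Polynomial A := P.divX with hQ
  have hPQ : Q * X + C (P.coeff 0) = P := Polynomial.divX_mul_X_add P
  -- evaluation at a point
  have hev : ∀ t : S, aeval (f t) P = 0 := by
    intro t
    rw [hP, map_prod]
    apply Finset.prod_eq_zero (Finset.mem_univ t)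
    simp [aeval_def]
  set cK : K := ((P.coeff 0 : A) : K) with hcK
  have hc_eq : cK = ∏ s, (- f s) := by
    rw [hcK, Polynomial.coeff_zero_eq_eval_zero, hP, Polynomial.eval_prod]
    simp
  have hc0 : cK ≠ 0 := by
    rw [hc_eq]
    exact Finset.prod_ne_zero_iff.mpr fun s _ => neg_ne_zero.mpr (hu s).2.2
  have hcinv : cK⁻¹ ∈ A := by
    rw [hc_eq, ← Finset.prod_inv_distrib]
    refine prod_mem fun s _ => ?_
    rw [inv_neg]
    exact neg_mem (hu s).2.1
  have hrel : ∀ t : S, aeval (f t) Q * f t = - cK := by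
    intro t
    have h1 := hev t
    rw [← hPQ] at h1
    simp only [map_add, map_mul, aeval_X, aeval_C] at h1
    have h2 : (algebraMap A K) (P.coeff 0) = cK := rfl
    rw [h2] at h1
    exact eq_neg_of_add_eq_zero_left h1
  have hQmem : aeval f Q ∈ R := by
    have := (aeval (⟨f, hf⟩ : R) Q).2
    rwa [Polynomial.aeval_subalgebra_coe] at this
  have hg : f⁻¹ = (⟨-cK⁻¹, neg_mem hcinv⟩ : A) • aeval f Q := by
    funext t
    have h3 : (aeval f Q) t = aeval (f t) Q := by
      have := Polynomial.aeval_algHom_apply (Pi.evalAlgHom A (fun _ : S => K) t) f Q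
      simpa using this.symm
    show (f t)⁻¹ = (-cK⁻¹) * (aeval f Q) t
    rw [h3]
    have h4 := hrel t
    have hft := (hu t).2.2
    field_simp
    linear_combination h4
  rw [hg]
  exact R.smul_mem hQmem _

/-- The elements of a subalgebra which is finitely generated as a module have integral
values. -/
theorem h39p_values_mem (R : Subalgebra A (S → K)) (hR : (Subalgebra.toSubmodule R).FG)
    {f : S → K} (hf : f ∈ R) (s : S) : f s ∈ A := by
  have h1 : IsIntegral A f := IsIntegral.of_mem_of_fg R hR f hf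
  have h2 : IsIntegral A (f s) := by
    have := h1.map (Pi.evalAlgHom A (fun _ : S => K) s)
    simpa using this
  obtain ⟨y, hy⟩ := IsIntegrallyClosed.isIntegral_iff.mp h2
  rw [← hy]
  exact y.2

/-- `x` is divisible by `w ^ e` in `A`. -/
def h39p_D (A : ValuationSubring K) (w : K) (e : ℕ) (x : K) : Prop := ∃ a ∈ A, x = w ^ e * a

theorem h39p_D_zero_iff {x : K} : h39p_D A w 0 x ↔ x ∈ A := by
  constructor
  · rintro ⟨a, ha, rfl⟩
    simpa using ha
  · intro h
    exact ⟨x, h, by simp⟩

theorem h39p_D_zero (e : ℕ) : h39p_D A w e 0 := ⟨0, A.zero_mem, by simp⟩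

theorem h39p_D_add {e : ℕ} {x y : K} (hx : h39p_D A w e x) (hy : h39p_D A w e y) :
    h39p_D A w e (x + y) := by
  obtain ⟨a, ha, rfl⟩ := hx
  obtain ⟨b, hb, rfl⟩ := hy
  exact ⟨a + b, add_mem ha hb, by ring⟩

theorem h39p_D_neg {e : ℕ} {x : K} (hx : h39p_D A w e x) : h39p_D A w e (-x) := by
  obtain ⟨a, ha, rfl⟩ := hx
  exact ⟨-a, neg_mem ha, by ring⟩

theorem h39p_D_sub {e : ℕ} {x y : K} (hx : h39p_D A w e x) (hy : h39p_D A w e y) :
    h39p_D A w e (x - y) := by
  rw [sub_eq_add_neg]
  exact h39p_D_add hx (h39p_D_neg hy)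

theorem h39p_D_sum {e : ℕ} {ι : Type*} (t : Finset ι) (x : ι → K)
    (hx : ∀ i ∈ t, h39p_D A w e (x i)) : h39p_D A w e (∑ i ∈ t, x i) := by
  classical
  induction t using Finset.induction_on with
  | empty => simpa using h39p_D_zero e
  | insert i t hi ih =>
    rw [Finset.sum_insert hi]
    exact h39p_D_add (hx i (Finset.mem_insert_self i t))
      (ih fun j hj => hx j (Finset.mem_insert_of_mem hj))

theorem h39p_D_mul {e e' : ℕ} {x y : K} (hx : h39p_D A w e x) (hy : h39p_D A w e' y) :
    h39p_D A w (e + e') (x * y) := by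
  obtain ⟨a, ha, rfl⟩ := hx
  obtain ⟨b, hb, rfl⟩ := hy
  exact ⟨a * b, mul_mem ha hb, by ring⟩

theorem h39p_D_mul_mem {e : ℕ} {x y : K} (hx : h39p_D A w e x) (hy : y ∈ A) :
    h39p_D A w e (x * y) := by
  have := h39p_D_mul hx (h39p_D_zero_iff.mpr hy)
  simpa using this

theorem h39p_D_mem_mul {e : ℕ} {x y : K} (hy : y ∈ A) (hx : h39p_D A w e x) :
    h39p_D A w e (y * x) := by
  rw [mul_comm]
  exact h39p_D_mul_mem hx hy

theorem h39p_D_mono (hw : w ∈ A) {e e' : ℕ} (h : e' ≤ e) {x : K} (hx : h39p_D A w e x) :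
    h39p_D A w e' x := by
  obtain ⟨a, ha, rfl⟩ := hx
  refine ⟨w ^ (e - e') * a, mul_mem (pow_mem hw _) ha, ?_⟩
  rw [← mul_assoc, ← pow_add, Nat.add_sub_cancel' h]

theorem h39p_D_mem (hw : w ∈ A) {e : ℕ} {x : K} (hx : h39p_D A w e x) : x ∈ A :=
  h39p_D_zero_iff.mp (h39p_D_mono hw (Nat.zero_le e) hx)

theorem h39p_D_pow {x : K} (hx : h39p_D A w 1 x) (k : ℕ) : h39p_D A w k (x ^ k) := by
  obtain ⟨a, ha, rfl⟩ := hx
  exact ⟨a ^ k, pow_mem ha k, by ring⟩

/-- `x ^ k - y ^ k` for `k ≥ 1`, `x, y` divisible by `w`, gains one power of `w`. -/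
theorem h39p_D_pow_sub_pow (hw : w ∈ A) {e : ℕ} {x y : K} (hx : h39p_D A w 1 x)
    (hy : h39p_D A w 1 y) (hxy : h39p_D A w e (x - y)) {k : ℕ} (hk : 2 ≤ k) :
    h39p_D A w (e + 1) (x ^ k - y ^ k) := by
  rw [← geom_sum₂_mul, mul_comm]
  refine h39p_D_mul hxy (h39p_D_sum _ _ fun i hi => ?_)
  have hi' : i < k := Finset.mem_range.mp hi
  have h1 := h39p_D_mul (h39p_D_pow hx i) (h39p_D_pow hy (k - 1 - i))
  refine h39p_D_mono hw ?_ h1
  omega



/-- **Approximate Newton.**  `R` a subalgebra of `S → K`, finitely generated as a module;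
`Y : S → K` with values divisible by `w`; for every `n` there is a polynomial
`∑ k < m, c k * T ^ k` over `R` with `c 1` a unit at every point and
`∑ k < m, c k s * Y s ^ k ∈ w ^ n A` for all `s`.  Then `Y ∈ R`. -/
theorem h39p_newton [Finite S] (hA : h39p_Arch A w) (R : Subalgebra A (S → K))
    (hR : (Subalgebra.toSubmodule R).FG) (Y : S → K) (hY : ∀ s, h39p_D A w 1 (Y s))
    (h : ∀ n : ℕ, ∃ (m : ℕ) (c : ℕ → S → K), 2 ≤ m ∧ (∀ k, c k ∈ R) ∧
      (∀ s, c 1 s ≠ 0 ∧ (c 1 s)⁻¹ ∈ A) ∧
      ∀ s, h39p_D A w n (∑ k ∈ Finset.range m, c k s * Y s ^ k)) : Y ∈ R := by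
  classical
  have hw := hA.mem
  apply h39p_closed hA (Subalgebra.toSubmodule R) hR
  intro n
  rcases Nat.eq_zero_or_pos n with rfl | hn
  · refine ⟨0, R.zero_mem, fun s => ?_⟩
    have := h39p_D_mem hw (hY s)
    exact ⟨Y s, this, by simp⟩
  obtain ⟨m, c, hm, hc, hu, hP⟩ := h n
  have hval : ∀ k s, c k s ∈ A := fun k s => h39p_values_mem R hR (hc k) s
  have hu_mem : (c 1)⁻¹ ∈ R := h39p_inv_mem R (hc 1) fun s => ⟨hval 1 s, (hu s).2, (hu s).1⟩
  set Φ : (S → K) → (S → K) :=
    fun Z => - ((c 1)⁻¹ * (c 0 + ∑ k ∈ Finset.Ico 2 m, c k * Z ^ k)) with hΦ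
  have hΦ_mem : ∀ Z ∈ R, Φ Z ∈ R := fun Z hZ =>
    R.neg_mem (R.mul_mem hu_mem (R.add_mem (hc 0)
      (R.sum_mem fun k _ => R.mul_mem (hc k) (R.pow_mem hZ k))))
  have hΦ_apply : ∀ Z s, Φ Z s =
      - ((c 1 s)⁻¹ * (c 0 s + ∑ k ∈ Finset.Ico 2 m, c k s * Z s ^ k)) := by
    intro Z s
    simp [hΦ, Finset.sum_apply]
  have hsplit : ∀ s (y : K), ∑ k ∈ Finset.range m, c k s * y ^ k =
      c 0 s + c 1 s * y + ∑ k ∈ Finset.Ico 2 m, c k s * y ^ k := by
    intro s y
    rw [Finset.range_eq_Ico, Finset.sum_eq_sum_Ico_succ_bot (by omega),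
      Finset.sum_eq_sum_Ico_succ_bot (by omega)]
    simp [add_assoc]
  have hIco : ∀ s (y : K), h39p_D A w 1 y →
      h39p_D A w 1 (∑ k ∈ Finset.Ico 2 m, c k s * y ^ k) := by
    intro s y hy
    refine h39p_D_sum _ _ fun k hk => ?_
    have hk2 : 2 ≤ k := (Finset.mem_Ico.mp hk).1
    exact h39p_D_mem_mul (hval k s) (h39p_D_mono hw (by omega) (h39p_D_pow hy k))
  have hc0 : ∀ s, h39p_D A w 1 (c 0 s) := by
    intro s
    have h1 := hsplit s (Y s)
    have h2 : c 0 s = (∑ k ∈ Finset.range m, c k s * Y s ^ k) - c 1 s * Y s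
        - ∑ k ∈ Finset.Ico 2 m, c k s * Y s ^ k := by
      rw [h1]; ring
    rw [h2]
    exact h39p_D_sub (h39p_D_sub (h39p_D_mono hw hn (hP s))
      (h39p_D_mem_mul (hval 1 s) (hY s))) (hIco s _ (hY s))
  have key : ∀ (Z : S → K) (e : ℕ), (∀ s, h39p_D A w 1 (Z s)) →
      (∀ s, h39p_D A w e (Y s - Z s)) →
      (∀ s, h39p_D A w 1 (Φ Z s)) ∧ ∀ s, h39p_D A w (min (e + 1) n) (Y s - Φ Z s) := by
    intro Z e hZ1 hZe
    constructor
    · intro s
      rw [hΦ_apply]
      exact h39p_D_neg (h39p_D_mem_mul (hu s).2 (h39p_D_add (hc0 s) (hIco s _ (hZ1 s))))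
    · intro s
      have hid : Y s - Φ Z s = (c 1 s)⁻¹ * ((∑ k ∈ Finset.range m, c k s * Y s ^ k)
          - ∑ k ∈ Finset.Ico 2 m, c k s * (Y s ^ k - Z s ^ k)) := by
        rw [hΦ_apply, hsplit]
        have h1 := (hu s).1
        simp only [mul_sub, Finset.sum_sub_distrib]
        field_simp
        ring
      rw [hid]
      refine h39p_D_mem_mul (hu s).2 (h39p_D_sub (h39p_D_mono hw (min_le_right _ _) (hP s)) ?_)
      refine h39p_D_sum _ _ fun k hk => ?_
      have hk2 : 2 ≤ k := (Finset.mem_Ico.mp hk).1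
      exact h39p_D_mem_mul (hval k s) (h39p_D_mono hw (min_le_left _ _)
        (h39p_D_pow_sub_pow hw (hY s) (hZ1 s) (hZe s) hk2))
  have iter : ∀ j : ℕ, ∃ Z ∈ R, (∀ s, h39p_D A w 1 (Z s)) ∧
      ∀ s, h39p_D A w (min (j + 1) n) (Y s - Z s) := by
    intro j
    induction j with
    | zero =>
      refine ⟨0, R.zero_mem, fun s => h39p_D_zero 1, fun s => ?_⟩
      have : min (0 + 1) n = 1 := by omega
      rw [this]
      simpa using hY s
    | succ j ih =>
      obtain ⟨Z, hZ, hZ1, hZe⟩ := ih
      obtain ⟨k1, k2⟩ := key Z _ hZ1 hZe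
      refine ⟨Φ Z, hΦ_mem Z hZ, k1, fun s => ?_⟩
      have : min (j + 1 + 1) n = min (min (j + 1) n + 1) n := by omega
      rw [this]
      exact k2 s
  obtain ⟨Z, hZ, -, hZn⟩ := iter n
  refine ⟨Z, hZ, fun s => ?_⟩
  have : min (n + 1) n = n := by omega
  have h2 := hZn s
  rw [this] at h2
  exact h2

end algebra

section box

variable {A : ValuationSubring K} {w : K} {S S' : Type*}

/-- `a ⊗ b = ((s, s') ↦ a s * b s')`, as an `A`-bilinear map. -/
def h39p_tens (A : ValuationSubring K) (S S' : Type*) :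
    (S → K) →ₗ[A] (S' → K) →ₗ[A] (S × S' → K) :=
  LinearMap.mk₂ A (fun a b q => a q.1 * b q.2)
    (fun a a' b => by funext q; simp [add_mul])
    (fun c a b => by funext q; simp [Algebra.smul_def, mul_assoc])
    (fun a b b' => by funext q; simp [mul_add])
    (fun c a b => by funext q; simp [Algebra.smul_def, mul_left_comm])

@[simp] theorem h39p_tens_apply (a : S → K) (b : S' → K) (q : S × S') :
    h39p_tens A S S' a b q = a q.1 * b q.2 := rfl

/-- The `A`-span of the products `a ⊗ b`, `a ∈ L`, `b ∈ L'`. -/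
def h39p_box (L : Submodule A (S → K)) (L' : Submodule A (S' → K)) :
    Submodule A (S × S' → K) :=
  Submodule.map₂ (h39p_tens A S S') L L'

theorem h39p_box_mem {L : Submodule A (S → K)} {L' : Submodule A (S' → K)} {a : S → K}
    (ha : a ∈ L) {b : S' → K} (hb : b ∈ L') :
    (fun q : S × S' => a q.1 * b q.2) ∈ h39p_box L L' :=
  Submodule.apply_mem_map₂ (h39p_tens A S S') ha hb

theorem h39p_box_fg {L : Submodule A (S → K)} {L' : Submodule A (S' → K)} (hL : L.FG)
    (hL' : L'.FG) : (h39p_box L L').FG :=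
  Submodule.FG.map₂ _ hL hL'

/-- The box of two finitely generated modules is closed. -/
theorem h39p_box_closed [Finite S] [Finite S'] (hA : h39p_Arch A w)
    {L : Submodule A (S → K)} {L' : Submodule A (S' → K)} (hL : L.FG) (hL' : L'.FG)
    {F : S × S' → K} (hF : ∀ n : ℕ, ∃ G ∈ h39p_box L L', h39p_Near A w n F G) :
    F ∈ h39p_box L L' :=
  h39p_closed hA _ (h39p_box_fg hL hL') hF

/-- Sweedler form of the elements of the box. -/
theorem h39p_box_sweedler {L : Submodule A (S → K)} {L' : Submodule A (S' → K)}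
    {F : S × S' → K} (hF : F ∈ h39p_box L L') :
    ∃ (ι : Type) (_ : Fintype ι) (a : ι → S → K) (b : ι → S' → K),
      (∀ i, a i ∈ L) ∧ (∀ i, b i ∈ L') ∧ ∀ q, F q = ∑ i, a i q.1 * b i q.2 := by
  classical
  rw [h39p_box, Submodule.map₂_eq_span_image2] at hF
  induction hF using Submodule.span_induction with
  | mem F hF =>
    obtain ⟨a, ha, b, hb, rfl⟩ := hF
    exact ⟨Unit, inferInstance, fun _ => a, fun _ => b, fun _ => ha, fun _ => hb,
      fun q => by simp⟩
  | zero =>
    exact ⟨Empty, inferInstance, fun i => i.elim, fun i => i.elim, fun i => i.elim,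
      fun i => i.elim, fun q => by simp⟩
  | add F G _ _ hF hG =>
    obtain ⟨ι, _, a, b, ha, hb, e⟩ := hF
    obtain ⟨ι', _, a', b', ha', hb', e'⟩ := hG
    refine ⟨ι ⊕ ι', inferInstance, Sum.elim a a', Sum.elim b b', ?_, ?_, fun q => ?_⟩
    · rintro (i | i)
      · exact ha i
      · exact ha' i
    · rintro (i | i)
      · exact hb i
      · exact hb' i
    · simp [Fintype.sum_sum_type, e q, e' q]
  | smul c F _ hF =>
    obtain ⟨ι, _, a, b, ha, hb, e⟩ := hF
    refine ⟨ι, inferInstance, fun i => c • a i, b, fun i => L.smul_mem c (ha i), hb,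
      fun q => ?_⟩
    simp only [Pi.smul_apply, e q, Finset.smul_sum]
    refine Finset.sum_congr rfl fun i _ => ?_
    simp [Algebra.smul_def, mul_assoc]

/-- The box of two subalgebras, as a subalgebra of `S × S' → K`. -/
def h39p_boxAlg (R : Subalgebra A (S → K)) (R' : Subalgebra A (S' → K)) :
    Subalgebra A (S × S' → K) :=
  (h39p_box (Subalgebra.toSubmodule R) (Subalgebra.toSubmodule R')).toSubalgebra
    (by
      have := h39p_box_mem (L := Subalgebra.toSubmodule R) (L' := Subalgebra.toSubmodule R')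
        (a := 1) R.one_mem (b := 1) R'.one_mem
      convert this using 1
      funext q
      simp)
    (by
      intro x y hx hy
      have hle : h39p_box (Subalgebra.toSubmodule R) (Subalgebra.toSubmodule R') *
          h39p_box (Subalgebra.toSubmodule R) (Subalgebra.toSubmodule R') ≤
          h39p_box (Subalgebra.toSubmodule R) (Subalgebra.toSubmodule R') := by
        rw [h39p_box, Submodule.map₂_eq_span_image2, Submodule.span_mul_span,
          Submodule.span_le]
        rintro _ ⟨_, ⟨a, ha, b, hb, rfl⟩, _, ⟨a', ha', b', hb', rfl⟩, rfl⟩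
        have := Submodule.subset_span (R := A)
          (s := Set.image2 (fun m n => (h39p_tens A S S') m n)
            (Subalgebra.toSubmodule R : Set (S → K)) (Subalgebra.toSubmodule R' : Set (S' → K)))
          ⟨a * a', R.mul_mem ha ha', b * b', R'.mul_mem hb hb', rfl⟩
        convert this using 1
        funext q
        simp [mul_mul_mul_comm]
      exact hle (Submodule.mul_mem_mul hx hy))

theorem h39p_mem_boxAlg {R : Subalgebra A (S → K)} {R' : Subalgebra A (S' → K)}
    {F : S × S' → K} :
    F ∈ h39p_boxAlg R R' ↔ F ∈ h39p_box (Subalgebra.toSubmodule R) (Subalgebra.toSubmodule R') :=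
  Iff.rfl

theorem h39p_boxAlg_fg {R : Subalgebra A (S → K)} {R' : Subalgebra A (S' → K)}
    (hR : (Subalgebra.toSubmodule R).FG) (hR' : (Subalgebra.toSubmodule R').FG) :
    (Subalgebra.toSubmodule (h39p_boxAlg R R')).FG := by
  have : Subalgebra.toSubmodule (h39p_boxAlg R R') =
      h39p_box (Subalgebra.toSubmodule R) (Subalgebra.toSubmodule R') := by
    ext F
    rfl
  rw [this]
  exact h39p_box_fg hR hR'

theorem h39p_fst_mem_boxAlg {R : Subalgebra A (S → K)} (R' : Subalgebra A (S' → K))
    {a : S → K} (ha : a ∈ R) : (fun q : S × S' => a q.1) ∈ h39p_boxAlg R R' := by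
  have := h39p_box_mem (L := Subalgebra.toSubmodule R) (L' := Subalgebra.toSubmodule R')
    ha (b := 1) R'.one_mem
  rw [h39p_mem_boxAlg]
  convert this using 1
  funext q
  simp

theorem h39p_snd_mem_boxAlg (R : Subalgebra A (S → K)) {R' : Subalgebra A (S' → K)}
    {b : S' → K} (hb : b ∈ R') : (fun q : S × S' => b q.2) ∈ h39p_boxAlg R R' := by
  have := h39p_box_mem (L := Subalgebra.toSubmodule R) (L' := Subalgebra.toSubmodule R')
    (a := 1) R.one_mem hb
  rw [h39p_mem_boxAlg]
  convert this using 1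
  funext q
  simp



open scoped Classical in
/-- The divided difference of a polynomial over `A` (the derivative on the diagonal). -/
noncomputable def h39p_dd (p : Polynomial A) (x y : K) : K :=
  if x = y then aeval x (derivative p) else (aeval x p - aeval y p) / (x - y)

theorem h39p_dd_mul_sub (p : Polynomial A) (x y : K) :
    h39p_dd p x y * (x - y) = aeval x p - aeval y p := by
  unfold h39p_dd
  split_ifs with h
  · rw [h]; simp
  · have : x - y ≠ 0 := sub_ne_zero.mpr h
    field_simp

theorem h39p_dd_add (p p' : Polynomial A) (x y : K) :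
    h39p_dd (p + p') x y = h39p_dd p x y + h39p_dd p' x y := by
  unfold h39p_dd
  split_ifs with h
  · simp
  · simp only [map_add]
    ring

theorem h39p_dd_monomial (k : ℕ) (c : A) (x y : K) :
    h39p_dd (monomial k c) x y = (c : K) * ∑ i ∈ Finset.range k, x ^ i * y ^ (k - 1 - i) := by
  unfold h39p_dd
  split_ifs with h
  · subst h
    have h1 : ∑ i ∈ Finset.range k, x ^ i * x ^ (k - 1 - i) = k * x ^ (k - 1) := by
      rw [Finset.sum_congr rfl (fun i hi => by
        rw [← pow_add, show i + (k - 1 - i) = k - 1 from by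
          have := Finset.mem_range.mp hi; omega])]
      simp
    rw [h1, derivative_monomial, aeval_monomial]
    simp only [map_mul, map_natCast]
    have : (algebraMap A K) c = (c : K) := rfl
    rw [this]
    ring
  · have hxy : x - y ≠ 0 := sub_ne_zero.mpr h
    rw [aeval_monomial, aeval_monomial]
    have : (algebraMap A K) c = (c : K) := rfl
    rw [this, div_eq_iff hxy, mul_assoc, geom_sum₂_mul]
    ring

/-- **Divided differences.**  For `u ∈ R`, `u' ∈ R'` and a polynomial `p` over `A`, the divided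
difference `(s, s') ↦ (p (u s) - p (u' s')) / (u s - u' s')` (the derivative on the diagonal)
lies in the box of `R` and `R'`. -/
theorem h39p_dd_mem (R : Subalgebra A (S → K)) (R' : Subalgebra A (S' → K)) {u : S → K}
    (hu : u ∈ R) {u' : S' → K} (hu' : u' ∈ R') (p : Polynomial A) :
    (fun q : S × S' => h39p_dd p (u q.1) (u' q.2)) ∈ h39p_boxAlg R R' := by
  induction p using Polynomial.induction_on' with
  | add p p' hp hp' =>
    have : (fun q : S × S' => h39p_dd (p + p') (u q.1) (u' q.2)) =
        (fun q : S × S' => h39p_dd p (u q.1) (u' q.2)) +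
        (fun q : S × S' => h39p_dd p' (u q.1) (u' q.2)) := by
      funext q
      simp [h39p_dd_add]
    rw [this]
    exact (h39p_boxAlg R R').add_mem hp hp'
  | monomial k c =>
    have : (fun q : S × S' => h39p_dd (monomial k c) (u q.1) (u' q.2)) =
        c • ∑ i ∈ Finset.range k, (fun q : S × S' => u q.1) ^ i *
          (fun q : S × S' => u' q.2) ^ (k - 1 - i) := by
      funext q
      simp [h39p_dd_monomial, Finset.sum_apply, Algebra.smul_def]
    rw [this]
    refine (h39p_boxAlg R R').smul_mem ?_ c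
    exact (h39p_boxAlg R R').sum_mem fun i _ => (h39p_boxAlg R R').mul_mem
      ((h39p_boxAlg R R').pow_mem (h39p_fst_mem_boxAlg R' hu) _)
      ((h39p_boxAlg R R').pow_mem (h39p_snd_mem_boxAlg R hu') _)


end box

end Fermat.Agent.P5
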