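import Fermat.Agent.P5.H96LawLeaves

/-!
# P5 (wave 5, S19), block GEO-LAW: shared basics (helper39, prefix `h39m_`)

* `h39m_val_*` : the dictionary for `ValueAt` (constants, uniqueness, ring operations, finite
  sums, powers).
* `h39m_taylor` : finite Taylor expansion in the ring `c.O i` of a valid chart: for `f ∈ c.O i`
  and every `n`, `f = ∑ k < n, cst (β k) * t ^ k + t ^ n * r` with `β k ∈ A`, `r ∈ c.O i`.
* `h39m_taylor_two` : the same expansion cut at order two.
* `h39m_val_taylor` : the value of a Taylor expansion at a place of the disc.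
-/

set_option autoImplicit false

open AlgebraicCurve ModularCurve

noncomputable section

namespace Fermat.Agent.P5

open Fermat.Agent.S37

section values

variable {M : ℕ} {v : Place Kbar (FF M)}

theorem h39m_cst_mem (v : Place Kbar (FF M)) (a : Kbar) : cst M a ∈ v.toValuationSubring :=
  v.algebraMap_mem' a

theorem h39m_nonunits_add {F : Type*} [Field F] (B : ValuationSubring F) {x y : F}
    (hx : x ∈ B.nonunits) (hy : y ∈ B.nonunits) : x + y ∈ B.nonunits := by
  rw [B.mem_nonunits_iff] at *
  exact lt_of_le_of_lt (B.valuation.map_add x y) (max_lt hx hy)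

theorem h39m_nonunits_neg {F : Type*} [Field F] (B : ValuationSubring F) {x : F}
    (hx : x ∈ B.nonunits) : -x ∈ B.nonunits := by
  rw [B.mem_nonunits_iff] at *
  rwa [Valuation.map_neg]

theorem h39m_nonunits_mul {F : Type*} [Field F] (B : ValuationSubring F) {x y : F}
    (hx : x ∈ B.nonunits) (hy : y ∈ B) : x * y ∈ B.nonunits := by
  rw [B.mem_nonunits_iff] at *
  rw [map_mul]
  have h1 : B.valuation y ≤ 1 := (B.valuation_le_one_iff y).mpr hy
  calc B.valuation x * B.valuation y ≤ B.valuation x * 1 := by gcongr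
    _ = B.valuation x := mul_one _
    _ < 1 := hx

theorem h39m_nonunits_zero {F : Type*} [Field F] (B : ValuationSubring F) :
    (0 : F) ∈ B.nonunits := by
  rw [B.mem_nonunits_iff, map_zero]
  exact zero_lt_one

theorem h39m_nonunits_sum {F : Type*} [Field F] (B : ValuationSubring F) {ι : Type*}
    (s : Finset ι) (x : ι → F) (hx : ∀ i ∈ s, x i ∈ B.nonunits) :
    ∑ i ∈ s, x i ∈ B.nonunits := by
  classical
  induction s using Finset.induction_on with
  | empty => simp [h39m_nonunits_zero B]
  | insert a s ha ih =>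
    rw [Finset.sum_insert ha]
    exact h39m_nonunits_add B (hx a (Finset.mem_insert_self a s))
      (ih fun i hi => hx i (Finset.mem_insert_of_mem hi))

theorem h39m_val_cst (v : Place Kbar (FF M)) (a : Kbar) : ValueAt v (cst M a) a := by
  unfold ValueAt
  rw [sub_self]
  exact h39m_nonunits_zero _

theorem h39m_val_zero (v : Place Kbar (FF M)) : ValueAt v (0 : FF M) 0 := by
  have h := h39m_val_cst v 0
  simpa only [cst, map_zero] using h

theorem h39m_val_one (v : Place Kbar (FF M)) : ValueAt v (1 : FF M) 1 := by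
  have h := h39m_val_cst v 1
  simpa only [cst, map_one] using h

theorem h39m_val_mem {f : FF M} {a : Kbar} (h : ValueAt v f a) : f ∈ v.toValuationSubring := by
  have h1 : f - cst M a ∈ v.toValuationSubring := v.toValuationSubring.nonunits_le h
  have h2 := add_mem h1 (h39m_cst_mem v a)
  rwa [sub_add_cancel] at h2

theorem h39m_val_unique {f : FF M} {a a' : Kbar} (h : ValueAt v f a) (h' : ValueAt v f a') :
    a = a' := by
  by_contra hne
  have h1 : cst M (a - a') ∈ v.toValuationSubring.nonunits := by
    have h2 := h39m_nonunits_add _ h' (h39m_nonunits_neg _ h)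
    have h3 : f - cst M a' + -(f - cst M a) = cst M (a - a') := by
      simp only [cst, map_sub]; ring
    rwa [h3] at h2
  have h4 : (cst M (a - a'))⁻¹ ∈ v.toValuationSubring := by
    rw [← map_inv₀]
    exact h39m_cst_mem v _
  have h5 := h39m_nonunits_mul _ h1 h4
  have h6 : cst M (a - a') ≠ 0 := by
    intro h0
    rw [map_eq_zero] at h0
    exact hne (sub_eq_zero.mp h0)
  rw [mul_inv_cancel₀ h6, v.toValuationSubring.mem_nonunits_iff, map_one] at h5
  exact lt_irrefl _ h5

theorem h39m_val_add {f g : FF M} {a b : Kbar} (hf : ValueAt v f a) (hg : ValueAt v g b) :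
    ValueAt v (f + g) (a + b) := by
  unfold ValueAt at *
  have h := h39m_nonunits_add _ hf hg
  have h3 : f - cst M a + (g - cst M b) = f + g - cst M (a + b) := by
    simp only [cst, map_add]; ring
  rwa [h3] at h

theorem h39m_val_neg {f : FF M} {a : Kbar} (hf : ValueAt v f a) : ValueAt v (-f) (-a) := by
  unfold ValueAt at *
  have h := h39m_nonunits_neg _ hf
  have h3 : -(f - cst M a) = -f - cst M (-a) := by
    simp only [cst, map_neg]; ring
  rwa [h3] at h

theorem h39m_val_sub {f g : FF M} {a b : Kbar} (hf : ValueAt v f a) (hg : ValueAt v g b) :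
    ValueAt v (f - g) (a - b) := by
  rw [sub_eq_add_neg, sub_eq_add_neg]
  exact h39m_val_add hf (h39m_val_neg hg)

theorem h39m_val_mul {f g : FF M} {a b : Kbar} (hf : ValueAt v f a) (hg : ValueAt v g b) :
    ValueAt v (f * g) (a * b) := by
  have hgm := h39m_val_mem hg
  unfold ValueAt at *
  have h1 := h39m_nonunits_mul _ hf hgm
  have h2 := h39m_nonunits_mul _ hg (h39m_cst_mem v a)
  have h := h39m_nonunits_add _ h1 h2
  have h3 : (f - cst M a) * g + (g - cst M b) * cst M a = f * g - cst M (a * b) := by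
    simp only [cst, map_mul]; ring
  rwa [h3] at h

theorem h39m_val_pow {f : FF M} {a : Kbar} (hf : ValueAt v f a) (n : ℕ) :
    ValueAt v (f ^ n) (a ^ n) := by
  induction n with
  | zero => simpa using h39m_val_one v
  | succ n ih =>
    rw [pow_succ, pow_succ]
    exact h39m_val_mul ih hf

theorem h39m_val_sum {ι : Type*} (s : Finset ι) (f : ι → FF M) (a : ι → Kbar)
    (h : ∀ i ∈ s, ValueAt v (f i) (a i)) : ValueAt v (∑ i ∈ s, f i) (∑ i ∈ s, a i) := by
  classical
  induction s using Finset.induction_on with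
  | empty => simpa using h39m_val_zero v
  | insert j s hj ih =>
    rw [Finset.sum_insert hj, Finset.sum_insert hj]
    exact h39m_val_add (h j (Finset.mem_insert_self j s))
      (ih fun i hi => h i (Finset.mem_insert_of_mem hi))

end values

section taylor

variable {M : ℕ} [NeZero M] {g : ℕ} {A : ValuationSubring Kbar}

/-- **Finite Taylor expansion** in the ring `c.O i` of a valid chart. -/
theorem h39m_taylor {c : H96Chart M g} (hc : c.Valid A) (i : Fin g) (n : ℕ) :
    ∀ f ∈ c.O i, ∃ (β : ℕ → Kbar) (r : FF M), (∀ k, β k ∈ A) ∧ r ∈ c.O i ∧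
      f = ∑ k ∈ Finset.range n, cst M (β k) * c.t i ^ k + c.t i ^ n * r := by
  induction n with
  | zero =>
    intro f hf
    exact ⟨fun _ => 0, f, fun _ => A.zero_mem, hf, by simp⟩
  | succ n ih =>
    intro f hf
    obtain ⟨β, r, hβ, hr, hfr⟩ := ih f hf
    obtain ⟨a, ha, hva⟩ := hc.O_val i r hr (c.Q i) (hc.refl i)
    obtain ⟨h, hh, hrh⟩ := hc.O_div i r hr (c.Q i) (hc.refl i) a 0 hva (hc.t_zero i)
    have hr' : r = cst M a + c.t i * h := by
      have h1 : r = cst M a + (c.t i - cst M 0) * h := by rw [← hrh]; ring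
      rw [h1]
      simp only [cst, map_zero, sub_zero]
    refine ⟨fun k => if k = n then a else β k, h, fun k => ?_, hh, ?_⟩
    · by_cases hk : k = n
      · simp only [hk, if_true]; exact ha
      · simp only [hk, if_false]; exact hβ k
    · rw [Finset.sum_range_succ]
      have h2 : ∑ k ∈ Finset.range n, cst M (if k = n then a else β k) * c.t i ^ k =
          ∑ k ∈ Finset.range n, cst M (β k) * c.t i ^ k := by
        refine Finset.sum_congr rfl fun k hk => ?_
        have hkn : k ≠ n := (Finset.mem_range.mp hk).ne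
        simp only [hkn, if_false]
      rw [h2]
      simp only [if_true]
      rw [hfr, hr']
      ring

/-- a Taylor expansion of order `n + 2`, cut at order two. -/
theorem h39m_taylor_two {c : H96Chart M g} (hc : c.Valid A) (i : Fin g) (n : ℕ)
    (β : ℕ → Kbar) (hβ : ∀ k, β k ∈ A) (r : FF M) (hr : r ∈ c.O i) :
    ∃ r2 ∈ c.O i, ∑ k ∈ Finset.range (n + 2), cst M (β k) * c.t i ^ k + c.t i ^ (n + 2) * r =
      cst M (β 0) + cst M (β 1) * c.t i + c.t i * c.t i * r2 := by
  refine ⟨∑ k ∈ Finset.range n, cst M (β (k + 2)) * c.t i ^ k + c.t i ^ n * r, ?_, ?_⟩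
  · refine add_mem (sum_mem fun k _ => ?_) (mul_mem (pow_mem (hc.O_t i) n) hr)
    exact mul_mem (hc.O_cst i _ (hβ _)) (pow_mem (hc.O_t i) k)
  · rw [Finset.sum_range_succ', Finset.sum_range_succ']
    simp only [pow_zero, mul_one, zero_add, pow_one]
    rw [mul_add, Finset.mul_sum]
    have h1 : ∑ k ∈ Finset.range n, cst M (β (k + 1 + 1)) * c.t i ^ (k + 1 + 1) =
        ∑ k ∈ Finset.range n, c.t i * c.t i * (cst M (β (k + 2)) * c.t i ^ k) := by
      refine Finset.sum_congr rfl fun k _ => ?_
      ring
    rw [h1]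
    ring

/-- the value of a Taylor expansion at a place of the disc. -/
theorem h39m_val_taylor {c : H96Chart M g} (hc : c.Valid A) (i : Fin g) (n : ℕ)
    (β : ℕ → Kbar) (r : FF M) (hr : r ∈ c.O i) (E : Place Kbar (FF M))
    (hE : SameRed A E (c.Q i)) {y : Kbar} (hy : ValueAt E (c.t i) y) :
    ∃ ρ ∈ A, ValueAt E (∑ k ∈ Finset.range n, cst M (β k) * c.t i ^ k + c.t i ^ n * r)
      (∑ k ∈ Finset.range n, β k * y ^ k + y ^ n * ρ) := by
  obtain ⟨ρ, hρ, hvρ⟩ := hc.O_val i r hr E hE
  refine ⟨ρ, hρ, h39m_val_add (h39m_val_sum _ _ _ fun k _ => ?_) (h39m_val_mul (h39m_val_pow hy n) hvρ)⟩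
  exact h39m_val_mul (h39m_val_cst E _) (h39m_val_pow hy k)

end taylor

end Fermat.Agent.P5
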