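import Fermat.Agent.P5.H96LawLeaves
import Fermat.Agent.S37.Inertia

/-!
# P5 / GEO-LAW: basic properties of the coordinates `h96w_X` (helper96)

For a valid chart `c`: classes with a representation lie in `J¹ = redKerPic`, coordinates are
unique, `h96w_X` is the coordinate on `J¹` and `0` outside, with values in `A` (in the maximal
ideal on `J¹`), injective on `J¹`, inertia-equivariant.
-/

set_option autoImplicit false

open AlgebraicCurve ModularCurve

noncomputable section

namespace Fermat.Agent.P5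

open Fermat.Agent.S37

variable {M : ℕ} [NeZero M] {g : ℕ} {A : ValuationSubring Kbar}

/-- a class with a representation in residue discs lies in the kernel of reduction. -/
theorem h96o_isCls_mem {x : JZero M} {P Q : Fin g → Place Kbar (FF M)}
    (h : ∀ i, SameRed A (P i) (Q i)) (hx : h96m_IsCls x P Q) : x ∈ redKerPic M A := by
  obtain ⟨D, hD, rfl⟩ := hx
  refine ⟨D, ?_, rfl⟩
  rw [hD]
  exact AddSubgroup.sum_mem _ fun i _ => single_sub_single_mem_redKer (h i)

/-- two classes with the same representation are equal. -/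
theorem h96o_isCls_eq {x y : JZero M} {P Q : Fin g → Place Kbar (FF M)}
    (hx : h96m_IsCls x P Q) (hy : h96m_IsCls y P Q) : x = y := by
  obtain ⟨D, hD, rfl⟩ := hx
  obtain ⟨E, hE, rfl⟩ := hy
  have : D = E := Subtype.ext (hD.trans hE.symm)
  rw [this]

theorem h96o_isCoord_mem {c : H96Chart M g} {x : JZero M} {i : Fin g} {a : Kbar}
    (h : c.IsCoord A x i a) : x ∈ redKerPic M A := by
  obtain ⟨P, hP, hcl, -⟩ := h
  exact h96o_isCls_mem hP hcl

theorem h96o_isCoord_unique {c : H96Chart M g} (hc : c.Valid A) {x : JZero M} {i : Fin g}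
    {a a' : Kbar} (h : c.IsCoord A x i a) (h' : c.IsCoord A x i a') : a = a' := by
  obtain ⟨P, hP, hcl, hv⟩ := h
  obtain ⟨P', hP', hcl', hv'⟩ := h'
  have hPP : P = P' := hc.rep_unique x P P' hP hP' hcl hcl'
  subst hPP
  exact GalI.valueAt_unique hv hv'

theorem h96o_exists_isCoord {c : H96Chart M g} (hc : c.Valid A) {x : JZero M}
    (hx : x ∈ redKerPic M A) (i : Fin g) : ∃ a, a ∈ A.nonunits ∧ c.IsCoord A x i a := by
  obtain ⟨P, hP, hcl⟩ := hc.rep x hx
  obtain ⟨a, ha, hv⟩ := hc.t_small i (P i) (hP i)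
  exact ⟨a, ha, P, hP, hcl, hv⟩

theorem h96o_X_eq {c : H96Chart M g} (hc : c.Valid A) {x : JZero M} {i : Fin g} {a : Kbar}
    (h : c.IsCoord A x i a) : h96w_X A c i x = a := by
  have hex : ∃ a, c.IsCoord A x i a := ⟨a, h⟩
  unfold h96w_X
  rw [dif_pos hex]
  exact h96o_isCoord_unique hc hex.choose_spec h

theorem h96o_X_of_not_mem (c : H96Chart M g) {x : JZero M} (hx : x ∉ redKerPic M A)
    (i : Fin g) : h96w_X A c i x = 0 := by
  unfold h96w_X
  rw [dif_neg]
  rintro ⟨a, ha⟩
  exact hx (h96o_isCoord_mem ha)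

theorem h96o_X_isCoord {c : H96Chart M g} (hc : c.Valid A) {x : JZero M}
    (hx : x ∈ redKerPic M A) (i : Fin g) : c.IsCoord A x i (h96w_X A c i x) := by
  obtain ⟨a, -, ha⟩ := h96o_exists_isCoord hc hx i
  rw [h96o_X_eq hc ha]
  exact ha

theorem h96o_X_mem_nonunits {c : H96Chart M g} (hc : c.Valid A) {x : JZero M}
    (hx : x ∈ redKerPic M A) (i : Fin g) : h96w_X A c i x ∈ A.nonunits := by
  obtain ⟨a, ha, hco⟩ := h96o_exists_isCoord hc hx i
  rw [h96o_X_eq hc hco]
  exact ha

theorem h96o_X_mem {c : H96Chart M g} (hc : c.Valid A) (x : JZero M) (i : Fin g) :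
    h96w_X A c i x ∈ A := by
  by_cases hx : x ∈ redKerPic M A
  · exact GalI.nonunits_le _ (h96o_X_mem_nonunits hc hx i)
  · rw [h96o_X_of_not_mem c hx i]
    exact A.zero_mem

/-- the places of a class of `J¹`, with the values of the parameters. -/
theorem h96o_exists_places {c : H96Chart M g} (hc : c.Valid A) {x : JZero M}
    (hx : x ∈ redKerPic M A) : ∃ P : Fin g → Place Kbar (FF M),
      (∀ i, SameRed A (P i) (c.Q i)) ∧ h96m_IsCls x P c.Q ∧
      ∀ i, ValueAt (P i) (c.t i) (h96w_X A c i x) := by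
  obtain ⟨P, hP, hcl⟩ := hc.rep x hx
  refine ⟨P, hP, hcl, fun i => ?_⟩
  obtain ⟨a, -, hv⟩ := hc.t_small i (P i) (hP i)
  have hco : c.IsCoord A x i a := ⟨P, hP, hcl, hv⟩
  rw [h96o_X_eq hc hco]
  exact hv

/-- the coordinates are injective on `J¹`. -/
theorem h96o_X_inj {c : H96Chart M g} (hc : c.Valid A) {x y : JZero M}
    (hx : x ∈ redKerPic M A) (hy : y ∈ redKerPic M A)
    (h : ∀ i, h96w_X A c i x = h96w_X A c i y) : x = y := by
  obtain ⟨P, hP, hclx, hvx⟩ := h96o_exists_places hc hx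
  obtain ⟨P', hP', hcly, hvy⟩ := h96o_exists_places hc hy
  have hPP : P = P' := by
    funext i
    have h1 := hvx i
    rw [h i] at h1
    exact hc.t_inj i (P i) (P' i) _ (hP i) (hP' i) h1 (hvy i)
  subst hPP
  exact h96o_isCls_eq hclx hcly

/-- the coordinates are inertia-equivariant. -/
theorem h96o_X_inert {c : H96Chart M g} (hc : c.Valid A) {σ : GQ}
    (hσ : σ ∈ A.inertiaSubgroupIn ℚ) (x : JZero M) (i : Fin g) :
    h96w_X A c i (σ • x) = σ (h96w_X A c i x) := by
  by_cases hex : ∃ a, c.IsCoord A x i a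
  · obtain ⟨a, ha⟩ := hex
    rw [h96o_X_eq hc ha, h96o_X_eq hc (hc.inert σ hσ x i a ha)]
  · have hex' : ¬ ∃ a, c.IsCoord A (σ • x) i a := by
      rintro ⟨a, ha⟩
      apply hex
      have h1 := hc.inert σ⁻¹ (inv_mem hσ) (σ • x) i a ha
      rw [inv_smul_smul] at h1
      exact ⟨_, h1⟩
    unfold h96w_X
    rw [dif_neg hex, dif_neg hex', map_zero]

/-- transport of coordinates along the decomposition group. -/
theorem h96o_X_transport {c cτ : H96Chart M g} (hc : c.Valid A) (hcτ : cτ.Valid A) {τ : GQ}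
    (hτ : ∀ (x : JZero M) (i : Fin g) (a : Kbar), c.IsCoord A x i a → cτ.IsCoord A (τ • x) i (τ a))
    (hstab : ∀ x : JZero M, τ • x ∈ redKerPic M A → x ∈ redKerPic M A)
    (x : JZero M) (i : Fin g) :
    h96w_X A cτ i (τ • x) = τ (h96w_X A c i x) := by
  by_cases hx : x ∈ redKerPic M A
  · have h1 := h96o_X_isCoord hc hx i
    rw [h96o_X_eq hcτ (hτ x i _ h1)]
  · have hx' : τ • x ∉ redKerPic M A := fun h => hx (hstab x h)
    rw [h96o_X_of_not_mem c hx i, h96o_X_of_not_mem cτ hx' i, map_zero]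

end Fermat.Agent.P5
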