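import Fermat.Agent.P5.H39LawBasic
import Fermat.Agent.P5.H96LawBasic
import Fermat.Agent.P5.H39Clos
import Fermat.Agent.P5.H39Arch

/-!
# P5 (wave 5, S19), block GEO-LAW, leaf A2 (helper39, prefix `h39n_`)

`h39n_newtonStep : H96wNewtonStep`, i.e. `H96wCramer → H96wAdd`: the coordinates of `-(x + y)`
in the target chart of a link lie in the algebra generated by the coordinates of `x` and `y`.

Proof.  Cramer gives coefficient functions `co j` with `u_p = bs + ∑ co_j(p) b_j` vanishing on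
`D_x + D_y`; `H96Link.step` gives the places `E i` in the discs of the target chart with
`u_p (E i) = 0` and `[∑ (E i - Q' i)] = -(x + y)`, so `Y(p) = t' i (E i)`.  The finite Taylor
expansion of `bs`, `b j` in `c'.O i` (order `n + 2`) gives
`∑ k < n + 2, U_k(p) Y(p) ^ k = - ρ Y(p) ^ (n + 2)` with `U_k = σ_k + ∑ co_j β_{j,k}` in the
algebra and `ρ ∈ A`; `U_1 ≡ d` modulo the maximal ideal, `d` the unit of `H96Link.der_unit`.
Approximate Newton (`h39p_newton`, rank one by `h39q_arch_algClosure`) concludes.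
-/

set_option autoImplicit false

open AlgebraicCurve ModularCurve

noncomputable section

namespace Fermat.Agent.P5

open Fermat.Agent.S37

section algebra

variable {K : Type*} [Field K] {A : ValuationSubring K}

/-- rank one with respect to `w` implies rank one with respect to any nonzero non-unit. -/
theorem h39n_arch_of {w : K} (hA : h39p_Arch A w) {w' : K} (hw' : w' ∈ A.nonunits)
    (h0 : w' ≠ 0) : h39p_Arch A w' := by
  have hwA : w' ∈ A := A.nonunits_le hw'
  have hinv : w'⁻¹ ∉ A := by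
    intro h
    have h1 := h39m_nonunits_mul A hw' h
    rw [mul_inv_cancel₀ h0, A.mem_nonunits_iff, map_one] at h1
    exact lt_irrefl _ h1
  have hw0 : w ≠ 0 := h39p_w_ne_zero hA
  obtain ⟨N, hN⟩ := hA.small w' hwA hinv
  obtain ⟨a, ha, hNa⟩ : ∃ a ∈ A, w' ^ N = w * a := ⟨_, hN, by field_simp⟩
  refine ⟨hwA, hinv, fun x => ?_, fun y hy hyinv => ?_⟩
  · obtain ⟨n, hn⟩ := hA.arch x
    refine ⟨N * n, ?_⟩
    have e : w' ^ (N * n) * x = a ^ n * (w ^ n * x) := by
      rw [pow_mul, hNa]; ring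
    rw [e]
    exact mul_mem (pow_mem ha n) hn
  · obtain ⟨N', hN'⟩ := hA.small y hy hyinv
    obtain ⟨b, hb, hNb⟩ : ∃ b ∈ A, y ^ N' = w * b := ⟨_, hN', by field_simp⟩
    obtain ⟨n, hn⟩ := hA.arch w'⁻¹
    refine ⟨N' * n, ?_⟩
    have e : y ^ (N' * n) * w'⁻¹ = b ^ n * (w ^ n * w'⁻¹) := by
      rw [pow_mul, hNb]; ring
    rw [e]
    exact mul_mem (pow_mem hb n) hn

/-- **Approximate Newton** for a function with values in the maximal ideal. -/
theorem h39n_newton {w : K} {S : Type*} [Finite S] (hA : h39p_Arch A w)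
    (R : Subalgebra A (S → K)) (hR : (Subalgebra.toSubmodule R).FG) (Y : S → K)
    (hY : ∀ s, Y s ∈ A.nonunits)
    (h : ∀ n : ℕ, ∃ (m : ℕ) (c : ℕ → S → K), 2 ≤ m ∧ (∀ k, c k ∈ R) ∧
      (∀ s, c 1 s ≠ 0 ∧ (c 1 s)⁻¹ ∈ A) ∧
      ∀ s, ∃ ρ ∈ A, ∑ k ∈ Finset.range m, c k s * Y s ^ k = ρ * Y s ^ n) : Y ∈ R := by
  classical
  rcases isEmpty_or_nonempty S with hS | hS
  · have : Y = 0 := by funext s; exact (IsEmpty.false s).elim
    rw [this]; exact R.zero_mem
  obtain ⟨j, hj⟩ := h39p_exists_dvd A Y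
  by_cases h0 : Y j = 0
  · have : Y = 0 := by
      funext s
      obtain ⟨a, -, ha⟩ := hj s
      rw [ha, h0, zero_mul]; rfl
    rw [this]; exact R.zero_mem
  have hA' := h39n_arch_of hA (hY j) h0
  refine h39p_newton hA' R hR Y (fun s => ?_) (fun n => ?_)
  · obtain ⟨a, ha, e⟩ := hj s
    exact ⟨a, ha, by rw [pow_one]; exact e⟩
  · obtain ⟨m, c, hm, hc, hu, hs⟩ := h n
    refine ⟨m, c, hm, hc, hu, fun s => ?_⟩
    obtain ⟨ρ, hρ, e⟩ := hs s
    obtain ⟨a, ha, ea⟩ := hj s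
    refine ⟨ρ * a ^ n, mul_mem hρ (pow_mem ha n), ?_⟩
    rw [e, ea]; ring

/-- a function with integral values on a finite set is integral over `A`. -/
theorem h39n_isIntegral {S : Type*} [Finite S] (f : S → K) (hf : ∀ s, f s ∈ A) :
    IsIntegral A f := by
  have h1 : IsIntegral A (fun s => (⟨f s, hf s⟩ : A)) := IsIntegral.of_finite A _
  have h2 := h1.map (AlgHom.compLeft (Algebra.ofId A K) S)
  exact h2

theorem h39n_adjoin_fg {S : Type*} [Finite S] (G : Set (S → K)) (hG : G.Finite)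
    (hval : ∀ f ∈ G, ∀ s, f s ∈ A) : (Subalgebra.toSubmodule (Algebra.adjoin A G)).FG :=
  fg_adjoin_of_finite hG fun f hf => h39n_isIntegral f (hval f hf)

/-- a unit plus a non-unit is a unit. -/
theorem h39n_unit_add {d e : K} (hd0 : d ≠ 0) (hdinv : d⁻¹ ∈ A) (he : e ∈ A.nonunits) :
    d + e ≠ 0 ∧ (d + e)⁻¹ ∈ A := by
  have h2 : A.valuation d⁻¹ ≤ 1 := (A.valuation_le_one_iff _).mpr hdinv
  have h3 : A.valuation e < 1 := A.mem_nonunits_iff.mp he
  have hpos : 0 < A.valuation d := by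
    rw [Valuation.pos_iff]; exact hd0
  rw [map_inv₀, inv_le_one₀ hpos] at h2
  have h4 : A.valuation e < A.valuation d := lt_of_lt_of_le h3 h2
  have h5 : A.valuation (d + e) = A.valuation d := Valuation.map_add_eq_of_lt_left _ h4
  have h6 : d + e ≠ 0 := by
    intro h
    rw [h, map_zero] at h5
    exact hpos.ne h5
  refine ⟨h6, ?_⟩
  rw [← A.valuation_le_one_iff, map_inv₀, h5, inv_le_one₀ hpos]
  exact h2

/-- the algebraic identity behind the Taylor expansion of a linear combination. -/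
theorem h39n_comb {F : Type*} [CommRing F] {J : Type*} [Fintype J] (N : ℕ) (t bs : F)
    (b : J → F) (σ : ℕ → F) (β : J → ℕ → F) (rs : F) (r : J → F) (e : J → F)
    (ebs : bs = ∑ k ∈ Finset.range N, σ k * t ^ k + t ^ N * rs)
    (eb : ∀ j, b j = ∑ k ∈ Finset.range N, β j k * t ^ k + t ^ N * r j) :
    bs + ∑ j, e j * b j =
      ∑ k ∈ Finset.range N, (σ k + ∑ j, e j * β j k) * t ^ k + t ^ N * (rs + ∑ j, e j * r j) := by
  have h1 : ∑ j, e j * b j =
      ∑ k ∈ Finset.range N, (∑ j, e j * β j k) * t ^ k + t ^ N * ∑ j, e j * r j := by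
    calc ∑ j, e j * b j
        = ∑ j, (∑ k ∈ Finset.range N, e j * β j k * t ^ k + t ^ N * (e j * r j)) := by
          refine Finset.sum_congr rfl fun j _ => ?_
          rw [eb j, mul_add, Finset.mul_sum]
          congr 1
          · refine Finset.sum_congr rfl fun k _ => ?_
            ring
          · ring
      _ = ∑ j, ∑ k ∈ Finset.range N, e j * β j k * t ^ k + ∑ j, t ^ N * (e j * r j) :=
          Finset.sum_add_distrib
      _ = ∑ k ∈ Finset.range N, ∑ j, e j * β j k * t ^ k + t ^ N * ∑ j, e j * r j := by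
          rw [Finset.sum_comm, Finset.mul_sum]
      _ = _ := by simp only [Finset.sum_mul]
  rw [ebs, h1]
  simp only [add_mul, Finset.sum_add_distrib]
  ring

end algebra

section prod

variable {K : Type} [Field K] {A : ValuationSubring K} {S S' : Type}

/-- the algebra generated by the two pull-backs is the box of the two algebras. -/
theorem h39n_prod_eq (R : Subalgebra A (S → K)) (R' : Subalgebra A (S' → K)) :
    h96c_prod A R R' = h39p_boxAlg R R' := by
  apply le_antisymm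
  · apply Algebra.adjoin_le
    rintro F (⟨f, hf, rfl⟩ | ⟨f, hf, rfl⟩)
    · exact h39p_fst_mem_boxAlg R' hf
    · exact h39p_snd_mem_boxAlg R hf
  · intro F hF
    rw [h39p_mem_boxAlg] at hF
    obtain ⟨ι, _, a, b, ha, hb, e⟩ := h39p_box_sweedler hF
    have hFe : F = ∑ i, (fun p : S × S' => a i p.1) * (fun p : S × S' => b i p.2) := by
      funext q
      rw [e q]
      simp [Finset.sum_apply]
    rw [hFe]
    refine sum_mem fun i _ => mul_mem ?_ ?_
    · exact Algebra.subset_adjoin (Or.inl ⟨a i, ha i, rfl⟩)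
    · exact Algebra.subset_adjoin (Or.inr ⟨b i, hb i, rfl⟩)

theorem h39n_prod_fg {R : Subalgebra A (S → K)} {R' : Subalgebra A (S' → K)}
    (hR : (Subalgebra.toSubmodule R).FG) (hR' : (Subalgebra.toSubmodule R').FG) :
    (Subalgebra.toSubmodule (h96c_prod A R R')).FG := by
  rw [h39n_prod_eq]
  exact h39p_boxAlg_fg hR hR'

end prod

section law

variable {M : ℕ} [NeZero M] {g : ℕ} {A : ValuationSubring Kbar}

/-- the coordinate algebra of a finite set is a finitely generated module. -/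
theorem h39n_R_fg {c : H96Chart M g} (hc : c.Valid A) (S : Set (JZero M)) (hS : S.Finite) :
    (Subalgebra.toSubmodule (h96w_R A c S)).FG := by
  have : Finite ↥S := hS.to_subtype
  refine h39n_adjoin_fg _ (Set.finite_range _) ?_
  rintro _ ⟨j, rfl⟩ s
  exact h96o_X_mem hc _ j

/-- **LEAF A2 (Newton).** -/
theorem h39n_newtonStep : H96wNewtonStep := by
  intro hCr M _ A ℓ hℓ hAℓ g c c' hc hc' hL S S' hS hS' hSr hS'r i
  obtain ⟨L⟩ := hL
  obtain ⟨co, co0, hco, hco0, hcong, hdbl, hvan⟩ :=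
    hCr M A ℓ hℓ hAℓ g c c' hc hc' L S S' hS hS' hSr hS'r
  have hfS : Finite ↥S := hS.to_subtype
  have hfS' : Finite ↥S' := hS'.to_subtype
  -- the geometric step
  have key : ∀ p : ↥S × ↥S', ∃ E : Place Kbar (FF M), SameRed A E (c'.Q i) ∧
      ValueAt E (L.bs + ∑ j, cst M (co j p) * L.b j) 0 ∧
      ValueAt E (c'.t i) (h96w_X A c' i (-((p.1 : JZero M) + (p.2 : JZero M)))) := by
    intro p
    obtain ⟨P, hP, hclP⟩ := hc.rep _ (hSr p.1.2)
    obtain ⟨P', hP', hclP'⟩ := hc.rep _ (hS'r p.2.2)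
    obtain ⟨E, hE, hEv, hEcl⟩ := L.step P P' hP hP' (fun j => co j p)
      (hvan p P P' hP hP' hclP hclP')
    have hcl := hEcl _ _ hclP hclP'
    obtain ⟨a, -, hva⟩ := hc'.t_small i (E i) (hE i)
    have hcoo : c'.IsCoord A (-((p.1 : JZero M) + (p.2 : JZero M))) i a := ⟨E, hE, hcl, hva⟩
    refine ⟨E i, hE i, hEv i, ?_⟩
    rw [h96o_X_eq hc' hcoo]
    exact hva
  have hYnon : ∀ p : ↥S × ↥S',
      h96w_X A c' i (-((p.1 : JZero M) + (p.2 : JZero M))) ∈ A.nonunits := fun p =>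
    h96o_X_mem_nonunits hc' (neg_mem (add_mem (hSr p.1.2) (hS'r p.2.2))) i
  -- the degenerate case `t' i = 0`
  by_cases ht : c'.t i = 0
  · have h0 : (fun p : ↥S × ↥S' => h96w_X A c' i (-((p.1 : JZero M) + (p.2 : JZero M)))) = 0 := by
      funext p
      obtain ⟨E, -, -, hEt⟩ := key p
      rw [ht] at hEt
      exact h39m_val_unique hEt (h39m_val_zero E)
    rw [h0]
    exact zero_mem _
  -- rank one and finite generation
  have hArch : h39p_Arch A ((ℓ : ℕ) : Kbar) := h39q_arch_algClosure A hℓ hAℓ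
  have hFG : (Subalgebra.toSubmodule (h96c_prod A (h96w_R A c S) (h96w_R A c S'))).FG :=
    h39n_prod_fg (h39n_R_fg hc S hS) (h39n_R_fg hc S' hS')
  have hcoA : ∀ j p, co j p ∈ A := by
    intro j p
    have h1 : co j p - co0 j ∈ A := A.nonunits_le (hcong j p)
    have h2 := add_mem h1 (hco0 j)
    rwa [sub_add_cancel] at h2
  refine h39n_newton hArch _ hFG _ hYnon (fun n => ?_)
  -- Taylor expansions of order `n + 2`
  obtain ⟨σ, rs, hσ, hrs, ebs⟩ := h39m_taylor hc' i (n + 2) L.bs (L.bs_mem i).2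
  choose β r hβ hr eb using fun j => h39m_taylor hc' i (n + 2) (L.b j) (L.b_mem j i).2
  have hcomb : ∀ e : Fin g ⊕ Fin g → Kbar, L.bs + ∑ j, cst M (e j) * L.b j =
      ∑ k ∈ Finset.range (n + 2), cst M (σ k + ∑ j, e j * β j k) * c'.t i ^ k +
        c'.t i ^ (n + 2) * (rs + ∑ j, cst M (e j) * r j) := by
    intro e
    have h1 := h39n_comb (n + 2) (c'.t i) L.bs L.b (fun k => cst M (σ k))
      (fun j k => cst M (β j k)) rs r (fun j => cst M (e j)) ebs eb
    rw [h1]
    congr 1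
    refine Finset.sum_congr rfl fun k _ => ?_
    simp only [cst, map_add, map_sum, map_mul]
  have hrem : ∀ e : Fin g ⊕ Fin g → Kbar, (∀ j, e j ∈ A) →
      rs + ∑ j, cst M (e j) * r j ∈ c'.O i := fun e he =>
    add_mem hrs (sum_mem fun j _ => mul_mem (hc'.O_cst i _ (he j)) (hr j))
  have hcoef : ∀ e : Fin g ⊕ Fin g → Kbar, (∀ j, e j ∈ A) → ∀ k, σ k + ∑ j, e j * β j k ∈ A :=
    fun e he k => add_mem (hσ k) (sum_mem fun j _ => mul_mem (he j) (hβ j k))
  -- the unit `d`
  have hd : (σ 1 + ∑ j, co0 j * β j 1) ≠ 0 ∧ (σ 1 + ∑ j, co0 j * β j 1)⁻¹ ∈ A := by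
    obtain ⟨h, hh, d, eh, hvd, hd0, hdinv⟩ := L.der_unit co0 hdbl i
    obtain ⟨r2, hr2, e2⟩ := h39m_taylor_two hc' i n (fun k => σ k + ∑ j, co0 j * β j k)
      (hcoef co0 hco0) (rs + ∑ j, cst M (co0 j) * r j) (hrem co0 hco0)
    have e3 : c'.t i * h = cst M (σ 0 + ∑ j, co0 j * β j 0) +
        cst M (σ 1 + ∑ j, co0 j * β j 1) * c'.t i + c'.t i * c'.t i * r2 := by
      rw [← eh, hcomb co0, ← e2]
    obtain ⟨ρ2, -, hv2⟩ := hc'.O_val i r2 hr2 (c'.Q i) (hc'.refl i)
    have ht0 := hc'.t_zero i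
    have hvL : ValueAt (c'.Q i) (c'.t i * h) (0 * d) := h39m_val_mul ht0 hvd
    have hvR : ValueAt (c'.Q i) (cst M (σ 0 + ∑ j, co0 j * β j 0) +
        cst M (σ 1 + ∑ j, co0 j * β j 1) * c'.t i + c'.t i * c'.t i * r2)
        ((σ 0 + ∑ j, co0 j * β j 0) + (σ 1 + ∑ j, co0 j * β j 1) * 0 + 0 * 0 * ρ2) :=
      h39m_val_add (h39m_val_add (h39m_val_cst _ _) (h39m_val_mul (h39m_val_cst _ _) ht0))
        (h39m_val_mul (h39m_val_mul ht0 ht0) hv2)
    rw [← e3] at hvR
    have hz : σ 0 + ∑ j, co0 j * β j 0 = 0 := by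
      have := h39m_val_unique hvR hvL
      simpa using this
    have e4 : h = cst M (σ 1 + ∑ j, co0 j * β j 1) + c'.t i * r2 := by
      have e5 : c'.t i * h = c'.t i * (cst M (σ 1 + ∑ j, co0 j * β j 1) + c'.t i * r2) := by
        rw [e3, hz]
        simp only [cst, map_zero]
        ring
      exact mul_left_cancel₀ ht e5
    have hvh : ValueAt (c'.Q i) h ((σ 1 + ∑ j, co0 j * β j 1) + 0 * ρ2) := by
      rw [e4]
      exact h39m_val_add (h39m_val_cst _ _) (h39m_val_mul ht0 hv2)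
    have hdeq : d = σ 1 + ∑ j, co0 j * β j 1 := by
      have := h39m_val_unique hvd hvh
      simpa using this
    rw [← hdeq]
    exact ⟨hd0, hdinv⟩
  refine ⟨n + 2, fun k p => σ k + ∑ j, co j p * β j k, by omega, fun k => ?_, fun p => ?_,
    fun p => ?_⟩
  · -- the coefficients lie in the algebra
    have e : (fun p : ↥S × ↥S' => σ k + ∑ j, co j p * β j k) =
        (⟨σ k, hσ k⟩ : A) • (1 : ↥S × ↥S' → Kbar) +
          ∑ j, (⟨β j k, hβ j k⟩ : A) • co j := by
      funext p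
      simp only [Pi.add_apply, Finset.sum_apply, h39p_smul_apply, Pi.one_apply, mul_one]
      congr 1
      refine Finset.sum_congr rfl fun j _ => ?_
      exact mul_comm _ _
    show (fun p : ↥S × ↥S' => σ k + ∑ j, co j p * β j k) ∈ _
    rw [e]
    exact add_mem (Subalgebra.smul_mem _ (one_mem _) _)
      (sum_mem fun j _ => Subalgebra.smul_mem _ (hco j) _)
  · -- the linear coefficient is a unit
    have e : σ 1 + ∑ j, co j p * β j 1 =
        (σ 1 + ∑ j, co0 j * β j 1) + ∑ j, (co j p - co0 j) * β j 1 := by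
      simp only [sub_mul, Finset.sum_sub_distrib]
      ring
    show σ 1 + ∑ j, co j p * β j 1 ≠ 0 ∧ (σ 1 + ∑ j, co j p * β j 1)⁻¹ ∈ A
    rw [e]
    exact h39n_unit_add hd.1 hd.2
      (h39m_nonunits_sum A _ _ fun j _ => h39m_nonunits_mul A (hcong j p) (hβ j 1))
  · -- the equation
    obtain ⟨E, hE, hEv, hEt⟩ := key p
    obtain ⟨ρ, hρ, hval⟩ := h39m_val_taylor hc' i (n + 2)
      (fun k => σ k + ∑ j, co j p * β j k) _ (hrem _ (fun j => hcoA j p)) E hE hEt
    rw [← hcomb (fun j => co j p)] at hval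
    have h0 := h39m_val_unique hval hEv
    have hYA : h96w_X A c' i (-((p.1 : JZero M) + (p.2 : JZero M))) ∈ A :=
      A.nonunits_le (hYnon p)
    have hm : ρ * h96w_X A c' i (-((p.1 : JZero M) + (p.2 : JZero M))) ^ 2 ∈ A :=
      mul_mem hρ (pow_mem hYA 2)
    have hm' : -(ρ * h96w_X A c' i (-((p.1 : JZero M) + (p.2 : JZero M))) ^ 2) ∈ A :=
      neg_mem hm
    refine ⟨-(ρ * h96w_X A c' i (-((p.1 : JZero M) + (p.2 : JZero M))) ^ 2), hm', ?_⟩
    simp only at h0 ⊢
    linear_combination h0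

end law

end Fermat.Agent.P5
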