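import Mathlib

/-!
# Wave 5 (P), block GEO-RR (leaf `H13sSemi`): orthonormal bases by pivot functionals (helper3)

Abstract core, Mathlib only.  `K` a field, `A` a valuation subring, `L` a finite-dimensional
`K`-vector space, `Lam ⊆ L` ("integral vectors") closed under addition and `A`-scalars, `FF` a
set of `K`-linear functionals with `φ(Lam) ⊆ A`, and every `f ≠ 0` has a multiple `c • f ∈ Lam`
on which some `φ ∈ FF` takes a unit value.  Then `L` has a basis `b` of integral vectors with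
`∑ c_i b_i ∈ Lam ⟹ c_i ∈ A` ("orthonormal basis").

The induction is on the dimension: `L = K u ⊕ ker φ`, `Lam = A u ⊕ (Lam ∩ ker φ)`, and the
SAME family of functionals restricts to `ker φ`.  No limit process, no completeness.
-/

set_option autoImplicit false

namespace Fermat.Agent.P5

section Ortho

universe u v

variable {K : Type u} [Field K] (A : ValuationSubring K)

/-- The statement, for a fixed dimension `n`. -/
theorem h3o_exists_basis_aux (n : ℕ) :
    ∀ (L : Type v) [AddCommGroup L] [Module K L] [FiniteDimensional K L]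
      (_ : Module.finrank K L = n) (Lam : Set L)
      (_ : ∀ x ∈ Lam, ∀ y ∈ Lam, x + y ∈ Lam)
      (_ : ∀ a : K, a ∈ A → ∀ x ∈ Lam, a • x ∈ Lam)
      (FF : Set (L →ₗ[K] K))
      (_ : ∀ φ ∈ FF, ∀ x ∈ Lam, φ x ∈ A)
      (_ : ∀ f : L, f ≠ 0 → ∃ c : K, c ≠ 0 ∧ ∃ φ ∈ FF, c • f ∈ Lam ∧
        φ (c • f) ≠ 0 ∧ (φ (c • f))⁻¹ ∈ A),
      ∃ b : Fin n → L,
        (∀ i, b i ∈ Lam) ∧
        (∀ c : Fin n → K, (∑ i, c i • b i) ∈ Lam → ∀ i, c i ∈ A) ∧
        LinearIndependent K b := by
  induction n with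
  | zero =>
    intro L _ _ _ _ Lam _ _ FF _ _
    exact ⟨Fin.elim0, fun i => i.elim0, fun _ _ i => i.elim0, linearIndependent_empty_type⟩
  | succ n ih =>
    intro L _ _ _ hn Lam hadd hsmul FF hint hpiv
    have hpos : 0 < Module.finrank K L := by omega
    have hnt : Nontrivial L := Module.nontrivial_of_finrank_pos (R := K) hpos
    obtain ⟨f, hf⟩ := exists_ne (0 : L)
    obtain ⟨c, _, φ, hφ, hu, hφu, hφuinv⟩ := hpiv f hf
    set u : L := c • f with hu_def
    -- the kernel of `φ`
    have hsurj : Function.Surjective φ := by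
      intro a
      refine ⟨(a * (φ u)⁻¹) • u, ?_⟩
      rw [map_smul, smul_eq_mul, mul_assoc, inv_mul_cancel₀ hφu, mul_one]
    have hker : Module.finrank K ↥(LinearMap.ker φ) = n := by
      have h1 := LinearMap.finrank_range_add_finrank_ker φ
      rw [LinearMap.range_eq_top.mpr hsurj, finrank_top, Module.finrank_self] at h1
      omega
    obtain ⟨b', hb'mem, hb'int, hb'li⟩ := ih ↥(LinearMap.ker φ) hker
      {x | (x : L) ∈ Lam}
      (fun x hx y hy => hadd _ hx _ hy)
      (fun a ha x hx => hsmul a ha _ hx)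
      ((fun ψ : L →ₗ[K] K => ψ.domRestrict (LinearMap.ker φ)) '' FF)
      (by
        rintro _ ⟨ψ, hψ, rfl⟩ x hx
        exact hint ψ hψ _ hx)
      (by
        intro g hg
        have hg' : (g : L) ≠ 0 := fun h => hg (Subtype.ext h)
        obtain ⟨c', hc', ψ, hψ, h1, h2, h3⟩ := hpiv (g : L) hg'
        exact ⟨c', hc', ψ.domRestrict (LinearMap.ker φ), ⟨ψ, hψ, rfl⟩, h1, h2, h3⟩)
    refine ⟨Fin.cons u (fun i => (b' i : L)), ?_, ?_, ?_⟩
    · intro i
      refine Fin.cases ?_ (fun j => ?_) i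
      · simpa using hu
      · simpa using hb'mem j
    · intro co hco
      rw [Fin.sum_univ_succ] at hco
      simp only [Fin.cons_zero, Fin.cons_succ] at hco
      -- apply `φ`
      have hφx := hint φ hφ _ hco
      have hkerb : ∀ j, φ (b' j : L) = 0 := fun j => (b' j).2
      rw [map_add, map_smul, map_sum] at hφx
      have hz : ∑ j : Fin n, φ (co j.succ • (b' j : L)) = 0 := by
        apply Finset.sum_eq_zero
        intro j _
        rw [map_smul, hkerb j, smul_zero]
      rw [hz, add_zero, smul_eq_mul] at hφx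
      have h0 : co 0 ∈ A := by
        have : co 0 = (co 0 * φ u) * (φ u)⁻¹ := by
          rw [mul_assoc, mul_inv_cancel₀ hφu, mul_one]
        rw [this]
        exact A.mul_mem _ _ hφx hφuinv
      have hrest : (∑ j : Fin n, co j.succ • (b' j : L)) ∈ Lam := by
        have h1 : (-(co 0)) • u ∈ Lam := hsmul _ (A.neg_mem _ h0) _ hu
        have h2 := hadd _ h1 _ hco
        have h3 : -co 0 • u + (co 0 • u + ∑ j : Fin n, co j.succ • (b' j : L)) =
            ∑ j : Fin n, co j.succ • (b' j : L) := by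
          rw [neg_smul]; abel
        rwa [h3] at h2
      have hrest' : (∑ j : Fin n, co j.succ • b' j) ∈ {x : ↥(LinearMap.ker φ) | (x : L) ∈ Lam} := by
        show ((∑ j : Fin n, co j.succ • b' j : ↥(LinearMap.ker φ)) : L) ∈ Lam
        have : ((∑ j : Fin n, co j.succ • b' j : ↥(LinearMap.ker φ)) : L) =
            ∑ j : Fin n, co j.succ • (b' j : L) := by
          simp
        rw [this]
        exact hrest
      have hall := hb'int (fun j => co j.succ) hrest'
      intro i
      refine Fin.cases ?_ (fun j => ?_) i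
      · exact h0
      · exact hall j
    · rw [linearIndependent_finCons]
      refine ⟨?_, ?_⟩
      · exact hb'li.map' (LinearMap.ker φ).subtype (Submodule.ker_subtype _)
      · intro hmem
        have hle : Submodule.span K (Set.range fun i => (b' i : L)) ≤ LinearMap.ker φ := by
          rw [Submodule.span_le]
          rintro _ ⟨j, rfl⟩
          exact (b' j).2
        exact hφu (hle hmem)

/-- **Orthonormal bases by pivot functionals.** -/
theorem h3o_exists_basis {L : Type v} [AddCommGroup L] [Module K L] [FiniteDimensional K L]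
    (Lam : Set L)
    (hadd : ∀ x ∈ Lam, ∀ y ∈ Lam, x + y ∈ Lam)
    (hsmul : ∀ a : K, a ∈ A → ∀ x ∈ Lam, a • x ∈ Lam)
    (FF : Set (L →ₗ[K] K))
    (hint : ∀ φ ∈ FF, ∀ x ∈ Lam, φ x ∈ A)
    (hpiv : ∀ f : L, f ≠ 0 → ∃ c : K, c ≠ 0 ∧ ∃ φ ∈ FF, c • f ∈ Lam ∧
      φ (c • f) ≠ 0 ∧ (φ (c • f))⁻¹ ∈ A) :
    ∃ b : Fin (Module.finrank K L) → L,
      (∀ i, b i ∈ Lam) ∧
      (∀ c : Fin (Module.finrank K L) → K, (∑ i, c i • b i) ∈ Lam → ∀ i, c i ∈ A) ∧
      LinearIndependent K b ∧ Submodule.span K (Set.range b) = ⊤ := by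
  obtain ⟨b, h1, h2, h3⟩ := h3o_exists_basis_aux A (Module.finrank K L) L rfl Lam hadd hsmul FF
    hint hpiv
  exact ⟨b, h1, h2, h3, h3.span_eq_top_of_card_eq_finrank' (by simp)⟩

/-! ## Reductions of an orthonormal basis -/

section Red

variable {L : Type v} [AddCommGroup L] [Module K L]
  {W : Type*} [AddCommGroup W] [Module (IsLocalRing.ResidueField A) W]
  (Lam : Set L) (red : L → W)

/-- `A`-combinations of integral vectors are integral, and `red` is additive on them. -/
theorem h3o_sum_mem_and_red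
    (h0 : (0 : L) ∈ Lam)
    (hadd : ∀ x ∈ Lam, ∀ y ∈ Lam, x + y ∈ Lam)
    (hsmul : ∀ a : K, a ∈ A → ∀ x ∈ Lam, a • x ∈ Lam)
    (hradd : ∀ x ∈ Lam, ∀ y ∈ Lam, red (x + y) = red x + red y)
    (hrsmul : ∀ (a : K) (ha : a ∈ A), ∀ x ∈ Lam,
      red (a • x) = IsLocalRing.residue A ⟨a, ha⟩ • red x)
    {n : ℕ} (b : Fin n → L) (hb : ∀ i, b i ∈ Lam) (c : Fin n → K) (hc : ∀ i, c i ∈ A)
    (s : Finset (Fin n)) :
    (∑ i ∈ s, c i • b i) ∈ Lam ∧
      red (∑ i ∈ s, c i • b i) = ∑ i ∈ s, IsLocalRing.residue A ⟨c i, hc i⟩ • red (b i) := by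
  classical
  have hr0 : red 0 = 0 := by
    have := hrsmul 0 A.zero_mem 0 h0
    rw [zero_smul] at this
    rw [this]
    have h00 : (⟨0, A.zero_mem⟩ : A) = 0 := rfl
    rw [h00, map_zero, zero_smul]
  induction s using Finset.induction_on with
  | empty => simpa using ⟨h0, hr0⟩
  | insert a s ha ih =>
    rw [Finset.sum_insert ha, Finset.sum_insert ha]
    have h1 : c a • b a ∈ Lam := hsmul _ (hc a) _ (hb a)
    refine ⟨hadd _ h1 _ ih.1, ?_⟩
    rw [hradd _ h1 _ ih.1, hrsmul _ (hc a) _ (hb a), ih.2]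

/-- **The reductions of an orthonormal basis are linearly independent.** -/
theorem h3o_red_linearIndependent
    (h0 : (0 : L) ∈ Lam)
    (hadd : ∀ x ∈ Lam, ∀ y ∈ Lam, x + y ∈ Lam)
    (hsmul : ∀ a : K, a ∈ A → ∀ x ∈ Lam, a • x ∈ Lam)
    (hradd : ∀ x ∈ Lam, ∀ y ∈ Lam, red (x + y) = red x + red y)
    (hrsmul : ∀ (a : K) (ha : a ∈ A), ∀ x ∈ Lam,
      red (a • x) = IsLocalRing.residue A ⟨a, ha⟩ • red x)
    (hrker : ∀ x ∈ Lam, red x = 0 → x = 0 ∨ ∃ c : K, c ∈ A ∧ c⁻¹ ∉ A ∧ ∃ y ∈ Lam, x = c • y)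
    {n : ℕ} (b : Fin n → L) (hb : ∀ i, b i ∈ Lam)
    (horth : ∀ c : Fin n → K, (∑ i, c i • b i) ∈ Lam → ∀ i, c i ∈ A)
    (hli : LinearIndependent K b) :
    LinearIndependent (IsLocalRing.ResidueField A) (fun i => red (b i)) := by
  classical
  rw [Fintype.linearIndependent_iff]
  intro ct hct
  -- lift the coefficients
  choose c hc using fun i => IsLocalRing.residue_surjective (R := A) (ct i)
  have hcA : ∀ i, ((c i : A) : K) ∈ A := fun i => (c i).2
  obtain ⟨hx, hrx⟩ := h3o_sum_mem_and_red A Lam red h0 hadd hsmul hradd hrsmul b hb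
    (fun i => ((c i : A) : K)) hcA Finset.univ
  have hrx0 : red (∑ i, ((c i : A) : K) • b i) = 0 := by
    rw [hrx, ← hct]
    apply Finset.sum_congr rfl
    intro i _
    have : (⟨((c i : A) : K), hcA i⟩ : A) = c i := rfl
    rw [this, hc i]
  have hnonunit : ∀ i, ct i = 0 := by
    rcases hrker _ hx hrx0 with hzero | ⟨d, hd, hdinv, y, hy, hxy⟩
    · intro i
      have := (Fintype.linearIndependent_iff.mp hli) _ hzero i
      have hci : c i = 0 := Subtype.ext this
      rw [← hc i, hci, map_zero]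
    · intro i
      have hd0 : d ≠ 0 := by
        rintro rfl
        apply hdinv
        simp
      -- `y = ∑ (c_i / d) b_i`
      have hy' : y = ∑ j, (d⁻¹ * ((c j : A) : K)) • b j := by
        have : y = d⁻¹ • (d • y) := by rw [smul_smul, inv_mul_cancel₀ hd0, one_smul]
        rw [this, ← hxy, Finset.smul_sum]
        apply Finset.sum_congr rfl
        intro j _
        rw [smul_smul]
      have h1 := horth (fun j => d⁻¹ * ((c j : A) : K)) (hy' ▸ hy) i
      -- `c i = d * (d⁻¹ c i)` is a non-unit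
      rw [← hc i, IsLocalRing.residue_eq_zero_iff, IsLocalRing.mem_maximalIdeal,
        mem_nonunits_iff]
      intro hunit
      obtain ⟨w, hw⟩ := hunit.exists_right_inv
      have hw' : ((c i : A) : K) * (w : K) = 1 := by
        have := congrArg (fun z : A => (z : K)) hw
        simpa using this
      have hci0 : ((c i : A) : K) ≠ 0 := fun h => by rw [h, zero_mul] at hw'; exact zero_ne_one hw'
      apply hdinv
      have : d⁻¹ = (d⁻¹ * ((c i : A) : K)) * (w : K) := by
        rw [mul_assoc, hw', mul_one]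
      rw [this]
      exact A.mul_mem _ _ h1 w.2
  exact hnonunit

/-- **Lifting**: if the reductions of an orthonormal basis lie in a subspace `W'` of dimension
`n`, every element of `W'` is the reduction of an `A`-combination of the basis. -/
theorem h3o_red_lift
    (h0 : (0 : L) ∈ Lam)
    (hadd : ∀ x ∈ Lam, ∀ y ∈ Lam, x + y ∈ Lam)
    (hsmul : ∀ a : K, a ∈ A → ∀ x ∈ Lam, a • x ∈ Lam)
    (hradd : ∀ x ∈ Lam, ∀ y ∈ Lam, red (x + y) = red x + red y)
    (hrsmul : ∀ (a : K) (ha : a ∈ A), ∀ x ∈ Lam,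
      red (a • x) = IsLocalRing.residue A ⟨a, ha⟩ • red x)
    (hrker : ∀ x ∈ Lam, red x = 0 → x = 0 ∨ ∃ c : K, c ∈ A ∧ c⁻¹ ∉ A ∧ ∃ y ∈ Lam, x = c • y)
    {n : ℕ} (b : Fin n → L) (hb : ∀ i, b i ∈ Lam)
    (horth : ∀ c : Fin n → K, (∑ i, c i • b i) ∈ Lam → ∀ i, c i ∈ A)
    (hli : LinearIndependent K b)
    (W' : Submodule (IsLocalRing.ResidueField A) W)
    [Module.Finite (IsLocalRing.ResidueField A) ↥W']
    (hW' : Module.finrank (IsLocalRing.ResidueField A) ↥W' = n)
    (hbW : ∀ i, red (b i) ∈ W') (y : W) (hy : y ∈ W') :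
    ∃ c : Fin n → K, (∀ i, c i ∈ A) ∧ (∑ i, c i • b i) ∈ Lam ∧ red (∑ i, c i • b i) = y := by
  classical
  have hli' := h3o_red_linearIndependent A Lam red h0 hadd hsmul hradd hrsmul hrker b hb horth hli
  -- the reductions span `W'`
  let bt : Fin n → ↥W' := fun i => ⟨red (b i), hbW i⟩
  have hbt : LinearIndependent (IsLocalRing.ResidueField A) bt := by
    apply LinearIndependent.of_comp W'.subtype
    exact hli'
  have hspan : Submodule.span (IsLocalRing.ResidueField A) (Set.range bt) = ⊤ :=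
    hbt.span_eq_top_of_card_eq_finrank' (by simp [hW'])
  have hymem : (⟨y, hy⟩ : ↥W') ∈ Submodule.span (IsLocalRing.ResidueField A) (Set.range bt) := by
    rw [hspan]; trivial
  obtain ⟨ct, hct⟩ := (Submodule.mem_span_range_iff_exists_fun _).mp hymem
  choose c hc using fun i => IsLocalRing.residue_surjective (R := A) (ct i)
  have hcA : ∀ i, ((c i : A) : K) ∈ A := fun i => (c i).2
  obtain ⟨hx, hrx⟩ := h3o_sum_mem_and_red A Lam red h0 hadd hsmul hradd hrsmul b hb
    (fun i => ((c i : A) : K)) hcA Finset.univ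
  refine ⟨fun i => ((c i : A) : K), hcA, hx, ?_⟩
  rw [hrx]
  have h1 := congrArg (fun z : ↥W' => (z : W)) hct
  simp only [Submodule.coe_sum, Submodule.coe_smul] at h1
  rw [← h1]
  apply Finset.sum_congr rfl
  intro i _
  have : (⟨((c i : A) : K), hcA i⟩ : A) = c i := rfl
  rw [this, hc i]

end Red

end Ortho

end Fermat.Agent.P5
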