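import Mathlib

/-!
# Wave 5 (P), block GEO-RR: abstract Riemann inequality (helper3)

Vocabulary-free core of the weak Riemann-Roch theorem (no duality, no differentials).

`Dv` is any ordered additive commutative group of "divisors", `deg : Dv →+ ℤ` the degree,
`prin` the subgroup of principal divisors and `ell D` the dimension of `L(D)`.
From
* invariance of `ell` under `prin`,
* `D ≤ D' → ell D ≤ ell D' ≤ ell D + (deg D' - deg D)`,
* `0 < ell D → ∃ p ∈ prin, 0 ≤ D + p`,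
* one divisor `Dinf` of degree `d > 0` with `ell (n • Dinf) = n * d + 1 - g` for `n ≥ n₀`
  (this is what the Čech computation on the two charts gives),
we get Riemann's inequality `deg D + 1 - g ≤ ell D` for every `D`, equality above any
non-special divisor, and equality as soon as `deg D ≥ n₀ * d + g`.
-/

set_option autoImplicit false

namespace Fermat.Agent.P5

section Riemann

variable {Dv : Type*} [AddCommGroup Dv] [PartialOrder Dv] [IsOrderedAddMonoid Dv]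
  (deg : Dv →+ ℤ) (prin : AddSubgroup Dv) (ell : Dv → ℕ)

omit [IsOrderedAddMonoid Dv] in
/-- Monotonicity of the defect `deg D - ell D`. -/
theorem h3r_defect_le
    (hstep : ∀ D D', D ≤ D' → (ell D' : ℤ) ≤ ell D + (deg D' - deg D))
    {D D' : Dv} (h : D ≤ D') : deg D - ell D ≤ deg D' - ell D' := by
  have := hstep D D' h
  linarith

/-- Any divisor is linearly equivalent to one below `n • Dinf`, for every large `n`. -/
theorem h3r_exists_move
    (hmono : ∀ D D', D ≤ D' → ell D ≤ ell D')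
    (hstep : ∀ D D', D ≤ D' → (ell D' : ℤ) ≤ ell D + (deg D' - deg D))
    (hpos : ∀ D, 0 < ell D → ∃ p ∈ prin, 0 ≤ D + p)
    (hub : ∀ D : Dv, ∃ E, D ≤ E ∧ 0 ≤ E)
    (Dinf : Dv) (d g : ℤ) (n₀ : ℕ) (hd : 0 < d) (hdeg : deg Dinf = d)
    (hinf : ∀ n : ℕ, n₀ ≤ n → (ell (n • Dinf) : ℤ) = n * d + 1 - g)
    (D : Dv) :
    ∃ N : ℕ, ∀ n : ℕ, N ≤ n → ∃ p ∈ prin, D + p ≤ n • Dinf := by
  obtain ⟨E, hDE, hE⟩ := hub D
  -- choose `N` with `N * d + 1 - g - deg E > 0`
  obtain ⟨m, hm⟩ : ∃ m : ℕ, g + deg E < m := by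
    obtain ⟨m, hm⟩ := exists_nat_gt (g + deg E)
    exact ⟨m, by exact_mod_cast hm⟩
  refine ⟨max n₀ m, fun n hn => ?_⟩
  have hn0 : n₀ ≤ n := le_trans (le_max_left _ _) hn
  have hnm : (m : ℤ) ≤ n := by exact_mod_cast le_trans (le_max_right _ _) hn
  have h1 : n • Dinf - E ≤ n • Dinf := by
    simpa using sub_le_sub_left hE (n • Dinf)
  have h2 := hstep _ _ h1
  have h3 := hinf n hn0
  have hdegn : deg (n • Dinf) = n * d := by
    rw [map_nsmul, hdeg]; simp
  have h4 : deg (n • Dinf - E) = n * d - deg E := by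
    rw [map_sub, hdegn]
  have hnd : (m : ℤ) ≤ n * d := by
    have : (n : ℤ) * 1 ≤ n * d := by
      apply mul_le_mul_of_nonneg_left (by omega) (by positivity)
    linarith
  have h5 : 0 < ell (n • Dinf - E) := by
    have : (0 : ℤ) < ell (n • Dinf - E) := by
      rw [h4, h3, hdegn] at h2
      linarith
    exact_mod_cast this
  have h6 : n • Dinf - E ≤ n • Dinf - D := sub_le_sub_left hDE _
  have h7 : 0 < ell (n • Dinf - D) := lt_of_lt_of_le h5 (hmono _ _ h6)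
  obtain ⟨p, hp, hp0⟩ := hpos _ h7
  refine ⟨-p, prin.neg_mem hp, ?_⟩
  have : D + -p + 0 ≤ D + -p + (n • Dinf - D + p) := by gcongr
  have h8 : D + -p + (n • Dinf - D + p) = n • Dinf := by abel
  simpa [h8] using this

/-- **Riemann's inequality.** -/
theorem h3r_riemann
    (hdegp : ∀ p ∈ prin, deg p = 0)
    (hprin : ∀ D, ∀ p ∈ prin, ell (D + p) = ell D)
    (hmono : ∀ D D', D ≤ D' → ell D ≤ ell D')
    (hstep : ∀ D D', D ≤ D' → (ell D' : ℤ) ≤ ell D + (deg D' - deg D))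
    (hpos : ∀ D, 0 < ell D → ∃ p ∈ prin, 0 ≤ D + p)
    (hub : ∀ D : Dv, ∃ E, D ≤ E ∧ 0 ≤ E)
    (Dinf : Dv) (d g : ℤ) (n₀ : ℕ) (hd : 0 < d) (hdeg : deg Dinf = d)
    (hinf : ∀ n : ℕ, n₀ ≤ n → (ell (n • Dinf) : ℤ) = n * d + 1 - g)
    (D : Dv) : deg D + 1 - g ≤ ell D := by
  obtain ⟨N, hN⟩ := h3r_exists_move deg prin ell hmono hstep hpos hub Dinf d g n₀ hd hdeg
    hinf D
  obtain ⟨p, hp, hle⟩ := hN (max N n₀) (le_max_left _ _)
  have h1 := h3r_defect_le deg ell hstep hle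
  have h2 := hinf (max N n₀) (le_max_right _ _)
  have hdegn : deg ((max N n₀) • Dinf) = (max N n₀ : ℕ) * d := by
    rw [map_nsmul, hdeg]; simp
  rw [map_add, hdegp p hp, hprin D p hp, hdegn, h2] at h1
  linarith

omit [IsOrderedAddMonoid Dv] in
/-- Above a non-special divisor every divisor is non-special. -/
theorem h3r_nonspecial_of_le
    (hstep : ∀ D D', D ≤ D' → (ell D' : ℤ) ≤ ell D + (deg D' - deg D))
    (g : ℤ) (hriem : ∀ D, deg D + 1 - g ≤ ell D)
    {D₀ E : Dv} (h0 : (ell D₀ : ℤ) = deg D₀ + 1 - g) (hle : D₀ ≤ E) :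
    (ell E : ℤ) = deg E + 1 - g := by
  have h1 := hstep _ _ hle
  have h2 := hriem E
  linarith

/-- Every divisor of degree `≥ n₀ * d + g` is non-special. -/
theorem h3r_nonspecial_of_deg
    (hdegp : ∀ p ∈ prin, deg p = 0)
    (hprin : ∀ D, ∀ p ∈ prin, ell (D + p) = ell D)
    (hstep : ∀ D D', D ≤ D' → (ell D' : ℤ) ≤ ell D + (deg D' - deg D))
    (hpos : ∀ D, 0 < ell D → ∃ p ∈ prin, 0 ≤ D + p)
    (Dinf : Dv) (d g : ℤ) (n₀ : ℕ) (hdeg : deg Dinf = d)
    (hinf : ∀ n : ℕ, n₀ ≤ n → (ell (n • Dinf) : ℤ) = n * d + 1 - g)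
    (hriem : ∀ D, deg D + 1 - g ≤ ell D)
    (D : Dv) (hD : n₀ * d + g ≤ deg D) :
    (ell D : ℤ) = deg D + 1 - g := by
  have hdegn : deg (n₀ • Dinf) = n₀ * d := by
    rw [map_nsmul, hdeg]; simp
  have h1 := hriem (D - n₀ • Dinf)
  rw [map_sub, hdegn] at h1
  have h2 : 0 < ell (D - n₀ • Dinf) := by
    have : (0 : ℤ) < ell (D - n₀ • Dinf) := by linarith
    exact_mod_cast this
  obtain ⟨p, hp, hp0⟩ := hpos _ h2
  have h3 : n₀ • Dinf ≤ D + p := by
    have : n₀ • Dinf + 0 ≤ n₀ • Dinf + (D - n₀ • Dinf + p) := by gcongr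
    have h8 : n₀ • Dinf + (D - n₀ • Dinf + p) = D + p := by abel
    simpa [h8] using this
  have h4 := h3r_nonspecial_of_le deg ell hstep g hriem
    (D₀ := n₀ • Dinf) (by rw [hdegn]; exact hinf n₀ le_rfl) h3
  rw [hprin D p hp, map_add, hdegp p hp] at h4
  linarith

omit [IsOrderedAddMonoid Dv] in
/-- `ell D = 0` for divisors of negative degree. -/
theorem h3r_ell_eq_zero_of_deg_neg
    (hdegp : ∀ p ∈ prin, deg p = 0)
    (hpos : ∀ D, 0 < ell D → ∃ p ∈ prin, 0 ≤ D + p)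
    (hnn : ∀ D : Dv, 0 ≤ D → 0 ≤ deg D)
    (D : Dv) (hD : deg D < 0) : ell D = 0 := by
  by_contra h
  obtain ⟨p, hp, hp0⟩ := hpos D (Nat.pos_of_ne_zero h)
  have := hnn _ hp0
  rw [map_add, hdegp p hp] at this
  omega

end Riemann

end Fermat.Agent.P5
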