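import Mathlib

/-!
# Wave 5 (P), block GEO-RR: the base-change inequality `g ≤ g~` (helper3)

`A` a local ring with residue field `k`, `K` any field which is an `A`-algebra (e.g. the fraction
field of a local domain), `H` a finitely generated `A`-module.  Then
`dim_K (K ⊗ H) ≤ dim_k (k ⊗ H) = dim_k (H / 𝔪 H)` (Nakayama).
-/

set_option autoImplicit false

namespace Fermat.Agent.P5

open TensorProduct

section BaseChange

variable (A : Type*) [CommRing A] [IsLocalRing A]
  (K : Type*) [Field K] [Algebra A K]
  (H : Type*) [AddCommGroup H] [Module A H] [Module.Finite A H]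

/-- A finitely generated module over a local ring is generated by `dim_k (k ⊗ H)` elements. -/
theorem h3r_exists_span_residue :
    ∃ f : Fin (Module.finrank (IsLocalRing.ResidueField A) (IsLocalRing.ResidueField A ⊗[A] H)) → H,
      Submodule.span A (Set.range f) = ⊤ := by
  let k := IsLocalRing.ResidueField A
  let b := Module.finBasis k (k ⊗[A] H)
  have hsurj : Function.Surjective (TensorProduct.mk A k H 1) :=
    TensorProduct.mk_surjective A H k Ideal.Quotient.mk_surjective
  choose f hf using fun i => hsurj (b i)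
  exact ⟨f, IsLocalRing.span_eq_top_of_tmul_eq_basis f b hf⟩

omit [IsLocalRing A] [Module.Finite A H] in
/-- If `H` is generated by `n` elements over `A` then `dim_K (K ⊗ H) ≤ n`. -/
theorem h3r_finrank_baseChange_le_of_span {n : ℕ} (f : Fin n → H)
    (hf : Submodule.span A (Set.range f) = ⊤) :
    Module.finrank K (K ⊗[A] H) ≤ n := by
  have h1 : Submodule.span K (TensorProduct.mk A K H 1 '' Set.range f) = ⊤ := by
    rw [← Submodule.baseChange_span, hf, Submodule.baseChange_top]
  have h2 : TensorProduct.mk A K H 1 '' Set.range f =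
      Set.range (fun i => TensorProduct.mk A K H 1 (f i)) := by
    rw [← Set.range_comp]
    rfl
  rw [h2] at h1
  have h3 := finrank_range_le_card (R := K) (fun i => TensorProduct.mk A K H 1 (f i))
  unfold Set.finrank at h3
  rw [h1, finrank_top] at h3
  simpa using h3

/-- **Base-change inequality** (tensor form): `dim_K (K ⊗ H) ≤ dim_k (k ⊗ H)`. -/
theorem h3r_finrank_baseChange_le :
    Module.finrank K (K ⊗[A] H) ≤
      Module.finrank (IsLocalRing.ResidueField A) (IsLocalRing.ResidueField A ⊗[A] H) := by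
  obtain ⟨f, hf⟩ := h3r_exists_span_residue A H
  exact h3r_finrank_baseChange_le_of_span A K H f hf

/-- The quotient form of the special fibre: `dim_k (H / 𝔪 H) = dim_k (k ⊗ H)`, with the
`A ⧸ 𝔪`-module structure of Mathlib on `H ⧸ 𝔪 • ⊤`. -/
theorem h3r_exists_span_quot :
    ∃ f : Fin (Module.finrank (A ⧸ IsLocalRing.maximalIdeal A)
        (H ⧸ (IsLocalRing.maximalIdeal A • ⊤ : Submodule A H))) → H,
      Submodule.span A (Set.range f) = ⊤ := by
  let 𝔪 := IsLocalRing.maximalIdeal A
  let _ : Field (A ⧸ 𝔪) := Ideal.Quotient.field 𝔪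
  have : Module.Finite (A ⧸ 𝔪) (H ⧸ (𝔪 • ⊤ : Submodule A H)) :=
    Module.Finite.of_restrictScalars_finite A _ _
  let b := Module.finBasis (A ⧸ 𝔪) (H ⧸ (𝔪 • ⊤ : Submodule A H))
  choose f hf using fun i => Submodule.mkQ_surjective (𝔪 • ⊤ : Submodule A H) (b i)
  refine ⟨f, ?_⟩
  rw [← IsLocalRing.map_mkQ_eq_top, Submodule.map_span,
    ← Submodule.restrictScalars_span A (A ⧸ 𝔪) Ideal.Quotient.mk_surjective,
    Submodule.restrictScalars_eq_top_iff, ← Set.range_comp]
  have : (⇑(Submodule.mkQ (𝔪 • ⊤ : Submodule A H)) ∘ f) = b := funext hf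
  rw [this, b.span_eq]

/-- **Base-change inequality** (quotient form): `dim_K (K ⊗ H) ≤ dim_k (H / 𝔪 H)`. -/
theorem h3r_finrank_baseChange_le_quot :
    Module.finrank K (K ⊗[A] H) ≤
      Module.finrank (A ⧸ IsLocalRing.maximalIdeal A)
        (H ⧸ (IsLocalRing.maximalIdeal A • ⊤ : Submodule A H)) := by
  obtain ⟨f, hf⟩ := h3r_exists_span_quot A H
  exact h3r_finrank_baseChange_le_of_span A K H f hf

end BaseChange

end Fermat.Agent.P5
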