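import Mathlib

/-!
# Wave 5 (P), block GEO-RR: the five-term sequence of a lattice pair (helper3)

`C` a vector space over a field `K`, `B`, `Λ' ≤ Λ''` subspaces.  The sequence
`0 → B ⊓ Λ' → B ⊓ Λ'' → Λ''/Λ' → C/(B ⊔ Λ') → C/(B ⊔ Λ'') → 0`
is exact; we record the resulting rank identity (in cardinals, no finiteness hypothesis)
and its `finrank` consequences.  This is the step `χ(D + P) = χ(D) + deg P` of the Čech
proof of the weak Riemann-Roch theorem.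
-/

set_option autoImplicit false

namespace Fermat.Agent.P5

open Module Cardinal

section Five

universe u v

variable {K : Type u} {C : Type v} [Field K] [AddCommGroup C] [Module K C]
  (B Λ' Λ'' : Submodule K C)

/-- The map `B ⊓ Λ'' → Λ''/Λ'`. -/
noncomputable def h3rF (B Λ' Λ'' : Submodule K C) :
    ↥(B ⊓ Λ'') →ₗ[K] (↥Λ'' ⧸ Λ'.submoduleOf Λ'') :=
  (Λ'.submoduleOf Λ'').mkQ ∘ₗ Submodule.inclusion (inf_le_right : B ⊓ Λ'' ≤ Λ'')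

/-- The map `Λ''/Λ' → C/(B ⊔ Λ')`. -/
noncomputable def h3rE (B Λ' Λ'' : Submodule K C) :
    (↥Λ'' ⧸ Λ'.submoduleOf Λ'') →ₗ[K] (C ⧸ (B ⊔ Λ')) :=
  (Λ'.submoduleOf Λ'').liftQ ((B ⊔ Λ').mkQ ∘ₗ Λ''.subtype) (by
    intro x hx
    rw [LinearMap.mem_ker, LinearMap.comp_apply, Submodule.mkQ_apply,
      Submodule.Quotient.mk_eq_zero]
    exact (le_sup_right : Λ' ≤ B ⊔ Λ') hx)

/-- The map `C/(B ⊔ Λ') → C/(B ⊔ Λ'')`. -/
noncomputable def h3rH (B Λ' Λ'' : Submodule K C) (h : Λ' ≤ Λ'') :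
    (C ⧸ (B ⊔ Λ')) →ₗ[K] (C ⧸ (B ⊔ Λ'')) :=
  Submodule.factor (sup_le_sup_left h B)

theorem h3rF_apply (x : ↥(B ⊓ Λ'')) :
    h3rF B Λ' Λ'' x = (Λ'.submoduleOf Λ'').mkQ ⟨x.1, x.2.2⟩ := rfl

theorem h3rE_mk (y : ↥Λ'') :
    h3rE B Λ' Λ'' ((Λ'.submoduleOf Λ'').mkQ y) = (B ⊔ Λ').mkQ (y : C) := rfl

theorem h3rH_mk (h : Λ' ≤ Λ'') (c : C) :
    h3rH B Λ' Λ'' h ((B ⊔ Λ').mkQ c) = (B ⊔ Λ'').mkQ c := rfl

theorem h3rH_surjective (h : Λ' ≤ Λ'') : Function.Surjective (h3rH B Λ' Λ'' h) := by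
  intro y
  obtain ⟨c, rfl⟩ := Submodule.mkQ_surjective _ y
  exact ⟨(B ⊔ Λ').mkQ c, rfl⟩

/-- `ker (B ⊓ Λ'' → Λ''/Λ') ≃ B ⊓ Λ'`. -/
noncomputable def h3rKerF (h : Λ' ≤ Λ'') :
    ↥(LinearMap.ker (h3rF B Λ' Λ'')) ≃ₗ[K] ↥(B ⊓ Λ') where
  toFun x := ⟨x.1.1, x.1.2.1, by
    have := x.2
    rw [LinearMap.mem_ker] at this
    change (Submodule.Quotient.mk (⟨x.1.1, x.1.2.2⟩ : ↥Λ'') : ↥Λ'' ⧸ Λ'.submoduleOf Λ'') = 0
      at this
    rw [Submodule.Quotient.mk_eq_zero] at this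
    exact this⟩
  invFun y := ⟨⟨y.1, y.2.1, h y.2.2⟩, by
    rw [LinearMap.mem_ker]
    change (Submodule.Quotient.mk (⟨y.1, h y.2.2⟩ : ↥Λ'') : ↥Λ'' ⧸ Λ'.submoduleOf Λ'') = 0
    rw [Submodule.Quotient.mk_eq_zero]
    exact y.2.2⟩
  map_add' _ _ := rfl
  map_smul' _ _ := rfl
  left_inv _ := rfl
  right_inv _ := rfl

theorem h3r_mem_range_F_iff (h : Λ' ≤ Λ'') (y : ↥Λ'') :
    (Λ'.submoduleOf Λ'').mkQ y ∈ LinearMap.range (h3rF B Λ' Λ'') ↔ (y : C) ∈ B ⊔ Λ' := by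
  constructor
  · rintro ⟨x, hx⟩
    change (Submodule.Quotient.mk (⟨x.1, x.2.2⟩ : ↥Λ'') : ↥Λ'' ⧸ Λ'.submoduleOf Λ'') =
      Submodule.Quotient.mk y at hx
    rw [Submodule.Quotient.eq] at hx
    have hxy : (x.1 : C) - (y : C) ∈ Λ' := hx
    have : (y : C) = x.1 - (x.1 - y) := by abel
    rw [this]
    exact Submodule.sub_mem _ (Submodule.mem_sup_left x.2.1) (Submodule.mem_sup_right hxy)
  · intro hy
    obtain ⟨b, hb, l, hl, hbl⟩ := Submodule.mem_sup.mp hy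
    have hbL : b ∈ Λ'' := by
      have : b = (y : C) - l := by rw [← hbl]; abel
      rw [this]
      exact Submodule.sub_mem _ y.2 (h hl)
    refine ⟨⟨b, hb, hbL⟩, ?_⟩
    change (Submodule.Quotient.mk (⟨b, hbL⟩ : ↥Λ'') : ↥Λ'' ⧸ Λ'.submoduleOf Λ'') =
      Submodule.Quotient.mk y
    rw [Submodule.Quotient.eq]
    show (b : C) - (y : C) ∈ Λ'
    have : b - (y : C) = -l := by rw [← hbl]; abel
    rw [this]
    exact Submodule.neg_mem _ hl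

theorem h3r_range_F_eq_ker_E (h : Λ' ≤ Λ'') :
    LinearMap.range (h3rF B Λ' Λ'') = LinearMap.ker (h3rE B Λ' Λ'') := by
  ext z
  obtain ⟨y, rfl⟩ := Submodule.mkQ_surjective _ z
  rw [h3r_mem_range_F_iff B Λ' Λ'' h, LinearMap.mem_ker]
  change _ ↔ (Submodule.Quotient.mk (y : C) : C ⧸ (B ⊔ Λ')) = 0
  rw [Submodule.Quotient.mk_eq_zero]

theorem h3r_range_E_eq_ker_H (h : Λ' ≤ Λ'') :
    LinearMap.range (h3rE B Λ' Λ'') = LinearMap.ker (h3rH B Λ' Λ'' h) := by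
  ext z
  obtain ⟨c, rfl⟩ := Submodule.mkQ_surjective _ z
  rw [LinearMap.mem_ker]
  change _ ↔ (Submodule.Quotient.mk c : C ⧸ (B ⊔ Λ'')) = 0
  rw [Submodule.Quotient.mk_eq_zero]
  constructor
  · rintro ⟨w, hw⟩
    obtain ⟨y, rfl⟩ := Submodule.mkQ_surjective _ w
    change (Submodule.Quotient.mk (y : C) : C ⧸ (B ⊔ Λ')) = Submodule.Quotient.mk c at hw
    rw [Submodule.Quotient.eq] at hw
    -- `y - c ∈ B ⊔ Λ'`
    have h1 : (y : C) - c ∈ B ⊔ Λ'' := sup_le_sup_left h B hw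
    have : c = (y : C) - ((y : C) - c) := by abel
    rw [this]
    exact Submodule.sub_mem _ (Submodule.mem_sup_right y.2) h1
  · intro hc
    obtain ⟨b, hb, l, hl, hbl⟩ := Submodule.mem_sup.mp hc
    refine ⟨(Λ'.submoduleOf Λ'').mkQ ⟨l, hl⟩, ?_⟩
    change (Submodule.Quotient.mk l : C ⧸ (B ⊔ Λ')) = Submodule.Quotient.mk c
    rw [Submodule.Quotient.eq]
    have : l - c = -b := by rw [← hbl]; abel
    rw [this]
    exact Submodule.neg_mem _ (Submodule.mem_sup_left hb)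

/-- **Rank identity of the five-term sequence** (cardinals, no finiteness needed). -/
theorem h3r_five_rank (h : Λ' ≤ Λ'') :
    Module.rank K ↥(B ⊓ Λ'') + Module.rank K (C ⧸ (B ⊔ Λ')) =
      Module.rank K ↥(B ⊓ Λ') + Module.rank K (C ⧸ (B ⊔ Λ'')) +
        Module.rank K (↥Λ'' ⧸ Λ'.submoduleOf Λ'') := by
  have hF := LinearMap.rank_range_add_rank_ker (h3rF B Λ' Λ'')
  have hE := LinearMap.rank_range_add_rank_ker (h3rE B Λ' Λ'')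
  have hH := LinearMap.rank_range_add_rank_ker (h3rH B Λ' Λ'' h)
  have hkF : Module.rank K ↥(LinearMap.ker (h3rF B Λ' Λ'')) = Module.rank K ↥(B ⊓ Λ') :=
    (h3rKerF B Λ' Λ'' h).rank_eq
  have hrH : Module.rank K ↥(LinearMap.range (h3rH B Λ' Λ'' h)) =
      Module.rank K (C ⧸ (B ⊔ Λ'')) := by
    rw [LinearMap.range_eq_top.mpr (h3rH_surjective B Λ' Λ'' h)]
    exact rank_top K _
  rw [← h3r_range_F_eq_ker_E B Λ' Λ'' h] at hE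
  rw [← h3r_range_E_eq_ker_H B Λ' Λ'' h] at hH
  rw [← hF, ← hH, ← hE, hkF, hrH]
  ac_rfl

theorem h3r_five_rhs_lt (h : Λ' ≤ Λ'')
    [Module.Finite K ↥(B ⊓ Λ')] [Module.Finite K (C ⧸ (B ⊔ Λ''))]
    [Module.Finite K (↥Λ'' ⧸ Λ'.submoduleOf Λ'')] :
    Module.rank K ↥(B ⊓ Λ'') + Module.rank K (C ⧸ (B ⊔ Λ')) < ℵ₀ := by
  rw [h3r_five_rank B Λ' Λ'' h]
  exact Cardinal.add_lt_aleph0 (Cardinal.add_lt_aleph0 (Module.rank_lt_aleph0 K _)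
    (Module.rank_lt_aleph0 K _)) (Module.rank_lt_aleph0 K _)

/-- Finiteness goes up on `B ⊓ Λ`. -/
theorem h3r_five_finite_inf (h : Λ' ≤ Λ'')
    [Module.Finite K ↥(B ⊓ Λ')] [Module.Finite K (C ⧸ (B ⊔ Λ''))]
    [Module.Finite K (↥Λ'' ⧸ Λ'.submoduleOf Λ'')] :
    Module.Finite K ↥(B ⊓ Λ'') :=
  Module.rank_lt_aleph0_iff.mp
    (lt_of_le_of_lt (self_le_add_right _ _) (h3r_five_rhs_lt B Λ' Λ'' h))

/-- Finiteness goes down on `C/(B ⊔ Λ)`. -/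
theorem h3r_five_finite_quot (h : Λ' ≤ Λ'')
    [Module.Finite K ↥(B ⊓ Λ')] [Module.Finite K (C ⧸ (B ⊔ Λ''))]
    [Module.Finite K (↥Λ'' ⧸ Λ'.submoduleOf Λ'')] :
    Module.Finite K (C ⧸ (B ⊔ Λ')) :=
  Module.rank_lt_aleph0_iff.mp
    (lt_of_le_of_lt (self_le_add_left _ _) (h3r_five_rhs_lt B Λ' Λ'' h))

/-- **`finrank` identity of the five-term sequence.** -/
theorem h3r_five_finrank (h : Λ' ≤ Λ'')
    [Module.Finite K ↥(B ⊓ Λ')] [Module.Finite K (C ⧸ (B ⊔ Λ''))]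
    [Module.Finite K (↥Λ'' ⧸ Λ'.submoduleOf Λ'')] :
    Module.finrank K ↥(B ⊓ Λ'') + Module.finrank K (C ⧸ (B ⊔ Λ')) =
      Module.finrank K ↥(B ⊓ Λ') + Module.finrank K (C ⧸ (B ⊔ Λ'')) +
        Module.finrank K (↥Λ'' ⧸ Λ'.submoduleOf Λ'') := by
  have := h3r_five_finite_inf B Λ' Λ'' h
  have := h3r_five_finite_quot B Λ' Λ'' h
  have := h3r_five_rank B Λ' Λ'' h
  rw [← Module.finrank_eq_rank K ↥(B ⊓ Λ''), ← Module.finrank_eq_rank K (C ⧸ (B ⊔ Λ')),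
    ← Module.finrank_eq_rank K ↥(B ⊓ Λ'), ← Module.finrank_eq_rank K (C ⧸ (B ⊔ Λ'')),
    ← Module.finrank_eq_rank K (↥Λ'' ⧸ Λ'.submoduleOf Λ'')] at this
  exact_mod_cast this

/-- Integer form: `χ(Λ'') = χ(Λ') + dim Λ''/Λ'` with `χ(Λ) = dim (B ⊓ Λ) - dim C/(B ⊔ Λ)`. -/
theorem h3r_five_chi (h : Λ' ≤ Λ'')
    [Module.Finite K ↥(B ⊓ Λ')] [Module.Finite K (C ⧸ (B ⊔ Λ''))]
    [Module.Finite K (↥Λ'' ⧸ Λ'.submoduleOf Λ'')] :
    (Module.finrank K ↥(B ⊓ Λ'') : ℤ) - Module.finrank K (C ⧸ (B ⊔ Λ'')) =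
      (Module.finrank K ↥(B ⊓ Λ') : ℤ) - Module.finrank K (C ⧸ (B ⊔ Λ')) +
        Module.finrank K (↥Λ'' ⧸ Λ'.submoduleOf Λ'') := by
  have := h3r_five_finrank B Λ' Λ'' h
  omega

/-- The easy directions: finiteness goes down on `B ⊓ Λ` and up on `C/(B ⊔ Λ)`. -/
theorem h3r_finite_inf_of_le (h : Λ' ≤ Λ'') [Module.Finite K ↥(B ⊓ Λ'')] :
    Module.Finite K ↥(B ⊓ Λ') :=
  Module.Finite.of_injective (Submodule.inclusion (inf_le_inf_left B h))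
    (Submodule.inclusion_injective _)

theorem h3r_finite_quot_of_le (h : Λ' ≤ Λ'') [Module.Finite K (C ⧸ (B ⊔ Λ'))] :
    Module.Finite K (C ⧸ (B ⊔ Λ'')) :=
  Module.Finite.of_surjective (h3rH B Λ' Λ'' h) (h3rH_surjective B Λ' Λ'' h)

end Five

end Fermat.Agent.P5
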