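import Mathlib
import Fermat.Prelude.Def_AlgebraicCurve_Repartitions
import Fermat.Agent.P5.H13RRIface
import Fermat.Agent.P5.H78RRLeaves

/-!
# Wave 5 (P), block GEO-RR: the leaf `H13rRiemann` (helper3)

Riemann's theorem in the Prelude vocabulary, for an abstract function field `F / K`, by the
classical argument (no Čech cohomology, no integral closure, no separability hypothesis):
`B = (x)_∞` has degree `n = [F : K(x)]` by `H13rZeros`; if `u_1 … u_n` is a basis of `F` over
`K(x)` and `C ≥ 0` bounds the poles of the `u_j`, the `(l + 1) n` functions `x^i u_j`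
(`i ≤ l`) are `K`-linearly independent elements of `L(l B + C)`; hence the defect
`deg D + 1 - ℓ(D)` is bounded on the multiples of `B`, hence (moving lemma) on all divisors;
`g` is its maximum.
-/

set_option autoImplicit false

open AlgebraicCurve IntermediateField

noncomputable section

namespace Fermat.Agent.P5

variable {K F : Type*} [Field K] [Field F] [Algebra K F]

/-! ## The pole divisor of `x` -/

/-- The pole divisor of `x`: effective, `x ∈ L(B)`, of degree `[F : K(x)]`. -/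
theorem h3r_exists_poleDiv (hB : H13rBase K F) (x : F) (hZ : H13rZeros K F x) :
    ∃ Bd : Divisor K F, 0 ≤ Bd ∧ (∀ v : Place K F, -Bd v ≤ v.ord x) ∧
      Divisor.degree Bd = (Module.finrank K⟮x⟯ F : ℤ) := by
  classical
  obtain ⟨s, hs, hsum⟩ := hZ x⁻¹ (Or.inr rfl)
  refine ⟨∑ v ∈ s, Finsupp.single v (v.ord x⁻¹), ?_, ?_, ?_⟩
  · apply Finset.sum_nonneg
    intro v hv
    have := (hs v).mp hv
    rw [Finsupp.le_def]
    intro w
    rw [Finsupp.single_apply]
    split_ifs
    · simpa using this.le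
    · simp
  · intro w
    rw [Finsupp.finsetSum_apply]
    simp only [Finsupp.single_apply]
    rw [Finset.sum_ite_eq' s w]
    split_ifs with hw
    · rw [w.ord_inv]; omega
    · have : ¬ 0 < w.ord x⁻¹ := fun h => hw ((hs w).mpr h)
      rw [w.ord_inv] at this
      omega
  · rw [map_sum, ← hsum]
    apply Finset.sum_congr rfl
    intro v _
    rw [Divisor.degree_single, hB.deg_one v]
    simp

/-! ## A common bound for the poles of finitely many functions -/

theorem h3r_exists_bound (hB : H13rBase K F) {n : ℕ} (u : Fin n → F) (hu : ∀ j, u j ≠ 0) :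
    ∃ C : Divisor K F, 0 ≤ C ∧ ∀ (j : Fin n) (v : Place K F), -C v ≤ v.ord (u j) := by
  classical
  choose E hE _ using fun j => hB.pd (u j) (hu j)
  refine ⟨∑ j, ((-E j) ⊔ 0), ?_, ?_⟩
  · exact Finset.sum_nonneg fun j _ => le_sup_right
  · intro j v
    have h1 : ((-E j) ⊔ 0) v ≤ (∑ j, ((-E j) ⊔ 0)) v := by
      have : ((-E j) ⊔ 0 : Divisor K F) ≤ ∑ j, ((-E j) ⊔ 0) :=
        Finset.single_le_sum (f := fun j => ((-E j) ⊔ 0 : Divisor K F))
          (fun i _ => le_sup_right) (Finset.mem_univ j)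
      exact Finsupp.le_def.mp this v
    have h2 : -(E j) v ≤ ((-E j) ⊔ 0) v := by
      have : (-E j : Divisor K F) ≤ (-E j) ⊔ 0 := le_sup_left
      exact Finsupp.le_def.mp this v
    rw [hE j v] at h2
    omega

/-! ## Linear independence of the `x^i u_j` -/

open Polynomial in
/-- If `x` is transcendental over `K` and `u` is a basis of `F` over `K(x)` then the
`x^i u_j` are linearly independent over `K`. -/
theorem h3r_linearIndependent_pow_mul (x : F) (hx : Transcendental K x) {n : ℕ}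
    (u : Module.Basis (Fin n) K⟮x⟯ F) (l : ℕ) :
    LinearIndependent K (fun p : Fin (l + 1) × Fin n => x ^ (p.1 : ℕ) * u p.2) := by
  classical
  rw [Fintype.linearIndependent_iff]
  intro c hc
  -- the polynomials `p_j`
  let P : Fin n → K[X] := fun j => ∑ i : Fin (l + 1), Polynomial.monomial (i : ℕ) (c (i, j))
  have hP : ∀ j, Polynomial.aeval x (P j) = ∑ i : Fin (l + 1), c (i, j) • x ^ (i : ℕ) := by
    intro j
    simp only [P, map_sum, Polynomial.aeval_monomial, Algebra.smul_def]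
  have hsum : ∑ j, (Polynomial.aeval (AdjoinSimple.gen K x) (P j) : K⟮x⟯) • u j = 0 := by
    have h1 : ∀ j, ((Polynomial.aeval (AdjoinSimple.gen K x) (P j) : K⟮x⟯) : F) =
        Polynomial.aeval x (P j) := by
      intro j
      have := Polynomial.aeval_algebraMap_apply F (AdjoinSimple.gen K x) (P j)
      rw [AdjoinSimple.algebraMap_gen] at this
      exact this.symm
    rw [← hc, Fintype.sum_prod_type_right]
    apply Finset.sum_congr rfl
    intro j _
    rw [IntermediateField.smul_def, smul_eq_mul, h1 j, hP j, Finset.sum_mul]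
    apply Finset.sum_congr rfl
    intro i _
    rw [smul_mul_assoc]
  have hzero := (Fintype.linearIndependent_iff.mp u.linearIndependent) _ hsum
  intro p
  obtain ⟨i, j⟩ := p
  have h2 : Polynomial.aeval x (P j) = 0 := by
    have h3 := hzero j
    have := Polynomial.aeval_algebraMap_apply F (AdjoinSimple.gen K x) (P j)
    rw [AdjoinSimple.algebraMap_gen, h3, map_zero] at this
    exact this
  have h4 : P j = 0 := transcendental_iff.mp hx _ h2
  have h5 : (P j).coeff (i : ℕ) = c (i, j) := by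
    simp only [P, Polynomial.finsetSum_coeff, Polynomial.coeff_monomial]
    rw [Finset.sum_eq_single i]
    · simp
    · intro b _ hb
      rw [if_neg]
      exact fun h => hb (Fin.ext h)
    · intro h; exact absurd (Finset.mem_univ i) h
  rw [← h5, h4, Polynomial.coeff_zero]

/-- `(l + 1) n ≤ ℓ(l B + C)`. -/
theorem h3r_card_le (hB : H13rBase K F) (x : F) (hx : Transcendental K x)
    (Bd C : Divisor K F) (hBd0 : 0 ≤ Bd) (hBd : ∀ v : Place K F, -Bd v ≤ v.ord x) {n : ℕ}
    (u : Module.Basis (Fin n) K⟮x⟯ F) (hC : ∀ (j : Fin n) (v : Place K F), -C v ≤ v.ord (u j))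
    (l : ℕ) : (l + 1) * n ≤ h13rL K F (l • Bd + C) := by
  have hx0 : x ≠ 0 := fun h => hx (h ▸ isAlgebraic_zero)
  have hmem : ∀ p : Fin (l + 1) × Fin n,
      x ^ (p.1 : ℕ) * u p.2 ∈ riemannRochSpace (l • Bd + C) := by
    intro p
    rw [mem_riemannRochSpace_iff]
    intro v
    right
    have hu0 : u p.2 ≠ 0 := u.ne_zero p.2
    have h1 : v.ord (x ^ (p.1 : ℕ)) = (p.1 : ℕ) * v.ord x := by
      have := v.ord_zpow x ((p.1 : ℕ) : ℤ)
      rwa [zpow_natCast] at this
    rw [v.ord_mul (pow_ne_zero _ hx0) hu0, h1, Finsupp.add_apply, Finsupp.smul_apply]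
    have h2 := hBd v
    have h3 := hC p.2 v
    have h4 : 0 ≤ Bd v := by simpa using Finsupp.le_def.mp hBd0 v
    have h5 : ((p.1 : ℕ) : ℤ) ≤ l := by
      have := p.1.2
      omega
    have h6 : -((l : ℤ) * Bd v) ≤ ((p.1 : ℕ) : ℤ) * v.ord x := by
      have h7 : ((p.1 : ℕ) : ℤ) * (-Bd v) ≤ ((p.1 : ℕ) : ℤ) * v.ord x :=
        mul_le_mul_of_nonneg_left h2 (by positivity)
      have h8 : ((p.1 : ℕ) : ℤ) * Bd v ≤ (l : ℤ) * Bd v :=
        mul_le_mul_of_nonneg_right h5 h4
      linarith
    simp only [nsmul_eq_mul] at *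
    linarith
  have hli : LinearIndependent K
      (fun p : Fin (l + 1) × Fin n =>
        (⟨x ^ (p.1 : ℕ) * u p.2, hmem p⟩ : ↥(riemannRochSpace (l • Bd + C)))) := by
    apply LinearIndependent.of_comp (riemannRochSpace (l • Bd + C)).subtype
    exact h3r_linearIndependent_pow_mul x hx u l
  have hfin := h78q_finite hB (l • Bd + C)
  have := hli.fintype_card_le_finrank
  simpa [h13rL] using this

/-! ## Boundedness of the defect -/

/-- The defect `deg D + 1 - ℓ(D)` is bounded above. -/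
theorem h3r_defect_bdd (hB : H13rBase K F) (x : F) (hx : Transcendental K x)
    [FiniteDimensional K⟮x⟯ F] (hZ : H13rZeros K F x) :
    ∃ γ : ℤ, ∀ D : Divisor K F, Divisor.degree D + 1 - h13rL K F D ≤ γ := by
  classical
  let u := Module.finBasis K⟮x⟯ F
  have hn : 0 < Module.finrank K⟮x⟯ F := Module.finrank_pos
  obtain ⟨Bd, hBd0, hBd, hdegB⟩ := h3r_exists_poleDiv hB x hZ
  obtain ⟨C, hC0, hC⟩ := h3r_exists_bound hB (fun j => u j) (fun j => u.ne_zero j)
  set n : ℤ := (Module.finrank K⟮x⟯ F : ℤ) with hn_def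
  have hnpos : 0 < n := by rw [hn_def]; exact_mod_cast hn
  have hdegl : ∀ l : ℕ, Divisor.degree (l • Bd) = l * n := by
    intro l
    rw [map_nsmul, hdegB]
    simp [hn_def]
  -- the bound on the multiples of `Bd`
  have hl : ∀ l : ℕ, ((l : ℤ) + 1) * n ≤ h13rL K F (l • Bd) + Divisor.degree C := by
    intro l
    have h1 := h3r_card_le hB x hx Bd C hBd0 hBd u hC l
    have h2 := h78q_le hB (D := l • Bd) (D' := l • Bd + C) (le_add_of_nonneg_right hC0)
    rw [map_add] at h2
    have h1' : ((l : ℤ) + 1) * n ≤ (h13rL K F (l • Bd + C) : ℤ) := by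
      rw [hn_def]
      exact_mod_cast h1
    linarith
  refine ⟨Divisor.degree C + 1 - n, fun D => ?_⟩
  -- the positive part of `D`
  have hDp0 : (0 : Divisor K F) ≤ D ⊔ 0 := le_sup_right
  have hDDp : D ≤ D ⊔ 0 := le_sup_left
  obtain ⟨l, hl'⟩ : ∃ l : ℕ, Divisor.degree C + Divisor.degree (D ⊔ 0) < ((l : ℤ) + 1) * n := by
    obtain ⟨m, hm⟩ := exists_nat_gt (Divisor.degree C + Divisor.degree (D ⊔ 0))
    refine ⟨m, ?_⟩
    have hm' : Divisor.degree C + Divisor.degree (D ⊔ 0) < (m : ℤ) := by exact_mod_cast hm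
    have : (m : ℤ) ≤ ((m : ℤ) + 1) * n := by nlinarith
    linarith
  have h3 := h78q_le hB (D := l • Bd - (D ⊔ 0)) (D' := l • Bd) (sub_le_self _ hDp0)
  rw [map_sub] at h3
  have hpos : 0 < h13rL K F (l • Bd - (D ⊔ 0)) := by
    have := hl l
    have : (0 : ℤ) < (h13rL K F (l • Bd - (D ⊔ 0)) : ℤ) := by linarith
    exact_mod_cast this
  obtain ⟨f, hf0, hf⟩ := h78q_exists_ne_zero hpos
  obtain ⟨Ef, hEf, hEf0⟩ := hB.pd f hf0
  have hle : D - Ef ≤ l • Bd := by
    rw [Finsupp.le_def]
    intro v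
    have h5 := (mem_riemannRochSpace_iff.mp hf v).resolve_left hf0
    have h6 : D v ≤ (D ⊔ 0) v := Finsupp.le_def.mp hDDp v
    rw [Finsupp.sub_apply] at h5
    rw [Finsupp.sub_apply, hEf v]
    omega
  have hinv : h13rL K F D = h13rL K F (D - Ef) :=
    h78q_inv (D - Ef) D f hf0 (fun v => by rw [Finsupp.sub_apply, hEf v]; ring)
  have h4 := h78q_le hB hle
  rw [map_sub, hEf0, sub_zero, hdegl l] at h4
  have h7 := hl l
  rw [hinv]
  linarith

/-- **RR-RIEMANN** (exact frozen Prop of `P5/H13RRIface.lean`). -/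
theorem h3r_riemannLeaf : H13rRiemann K F := by
  intro hB x hx hfd hZ
  obtain ⟨γ, hγ⟩ := h3r_defect_bdd hB x hx hZ
  obtain ⟨g, ⟨D₁, hD₁⟩, hmax⟩ := Int.exists_greatest_of_bdd
    (P := fun z : ℤ => ∃ D : Divisor K F, Divisor.degree D + 1 - h13rL K F D = z)
    ⟨γ, fun z hz => by obtain ⟨D, rfl⟩ := hz; exact hγ D⟩ ⟨_, 0, rfl⟩
  have hg0 : 0 ≤ g := by
    have h0 := hmax _ ⟨0, rfl⟩
    have h1 : h13rL K F (0 : Divisor K F) = 1 := h78q_finrank_zero hB
    rw [h1, map_zero] at h0
    simpa using h0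
  have hgn : ((g.toNat : ℕ) : ℤ) = g := Int.toNat_of_nonneg hg0
  refine ⟨g.toNat, fun D => ?_, D₁, fun D hD => ?_⟩
  · have := hmax _ ⟨D, rfl⟩
    rw [hgn]
    linarith
  · have h1 := hmax _ ⟨D, rfl⟩
    have h2 := h78q_le hB hD
    rw [hgn]
    linarith

end Fermat.Agent.P5
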