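import Fermat.Agent.P5.H40SFConst
import Fermat.Agent.P5.H11SFAbs
import Fermat.Agent.P5.H42SFpd
import Fermat.Agent.P5.H26GenusWire

/-!
# Wave 5, pillar (P), block GEO-RR-SF-BASE (helper40): the RED-DIV-free half of `H13sBase`
and the inputs of Riemann's theorem at the special fibre

Abstract (characteristic free; `k` algebraically closed, two Dedekind charts `H40fData`):

* `h40b_zeros`    : `H13rZeros k F x` (the fundamental identity for `x - c` and `x⁻¹`).
* `h40b_infinite` : `Place k F` is infinite.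

Special fibre of a good level:

* `h40b_zeros_sf`, `h40b_infinite_sf`, `h40b_half`.
* `h40b_gBase : H13gBase` (generic fibre, characteristic zero; unconditional).
* `h40b_sBase : H13sRedDiv → H13sBase` (only the existence of principal divisors uses RED-DIV).
* `h40b_zerosSF : H26sZerosSF` (unconditional).
-/

set_option autoImplicit false
set_option linter.unusedSectionVars false
set_option linter.unusedVariables false
set_option linter.style.haveILetI false

open AlgebraicCurve ModularCurve Polynomial IntermediateField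

noncomputable section

namespace Fermat.Agent.P5

section Abs

variable {k F : Type*} [Field k] [Field F] [Algebra k F] [IsAlgClosed k]

/-- **ZEROS** from the two Dedekind charts. -/
theorem h40b_zeros {x : F} {B Binf : Subalgebra k F} (h : H40fData k F x B Binf) :
    H13rZeros k F x := by
  haveI := h.ded
  haveI := h.dedInf
  haveI := h48s_isFractionRing B h.frac
  haveI := h48s_isFractionRing Binf h.fracInf
  haveI := h40c_finiteDimensional h
  exact h11s_zeros (B := B) (B' := Binf) x h.transc ⟨x, h.x_mem⟩ rfl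
    (h48s_fin_subtype x B h.x_mem h.fin) ⟨x⁻¹, h.xinv_mem⟩ rfl
    (h48s_fin_subtype x⁻¹ Binf h.xinv_mem h.finInf)

/-- **the set of places is infinite.** -/
theorem h40b_infinite {x : F} {B Binf : Subalgebra k F} (h : H40fData k F x B Binf) :
    Infinite (Place k F) := by
  haveI := h.ded
  haveI := h48s_isFractionRing B h.frac
  haveI := h40c_finiteDimensional h
  exact h11s_infinite_of_zeros x fun c =>
    h11s_zeros_chart (B := B) x h.transc ⟨x, h.x_mem⟩ rfl
      (h48s_fin_subtype x B h.x_mem h.fin) c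

end Abs

/-! ## The special fibre of a good level -/

section SF

open Fermat.Agent.S37 Fermat.Agent.Red.GV

variable (A : ValuationSubring Kbar) (M : ℕ) [NeZero M] {ℓ : ℕ}

theorem h40b_J_eq : h26sJ A M = h40fJ A M := rfl

theorem h40b_zeros_sf (hℓ : ℓ.Prime) (hM : ¬ ℓ ∣ M) (haux : auxLevel ℓ ∣ M)
    (hA : A.LiesOverPrime ℓ) : H13rZeros (h13sK A) (h13sFt A M) (h40fJ A M) :=
  h40b_zeros (h40f_data A M hℓ hM haux hA)

theorem h40b_infinite_sf (hℓ : ℓ.Prime) (hM : ¬ ℓ ∣ M) (haux : auxLevel ℓ ∣ M)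
    (hA : A.LiesOverPrime ℓ) : Infinite (Place (h13sK A) (h13sFt A M)) :=
  h40b_infinite (h40f_data A M hℓ hM haux hA)

theorem h40b_transcendental_sf (hℓ : ℓ.Prime) (hM : ¬ ℓ ∣ M) (haux : auxLevel ℓ ∣ M)
    (hA : A.LiesOverPrime ℓ) : Transcendental (h13sK A) (h40fJ A M) :=
  (h40f_data A M hℓ hM haux hA).transc

/-- the RED-DIV-free half of `H13sBase` (shape of `h42p_base_of`). -/
theorem h40b_rest (hℓ : ℓ.Prime) (hM : ¬ ℓ ∣ M) (haux : auxLevel ℓ ∣ M)
    (hA : A.LiesOverPrime ℓ) :
    (∀ Q : Place (h13sK A) (h13sFt A M), Q.deg = 1) ∧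
    (∀ f : h13sFt A M, (∀ Q : Place (h13sK A) (h13sFt A M), 0 ≤ Q.ord f) →
      f ∈ Set.range (algebraMap (h13sK A) (h13sFt A M))) ∧
    Function.Injective (algebraMap (h13sK A) (h13sFt A M)) ∧
    Infinite (Place (h13sK A) (h13sFt A M)) :=
  ⟨h40c_deg_one_sf A M hℓ hM haux hA, h40c_const_sf A M hℓ hM haux hA, h40c_inj_sf A M,
    h40b_infinite_sf A M hℓ hM haux hA⟩

/-- the RED-DIV-free half of `H13sBase` (shape of `h51f_sBase`). -/
theorem h40b_half (hℓ : ℓ.Prime) (hM : ¬ ℓ ∣ M) (haux : auxLevel ℓ ∣ M)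
    (hA : A.LiesOverPrime ℓ) :
    (∀ Q : Place (h13sK A) (h13sFt A M), Q.deg = 1) ∧
    (∀ f : h13sFt A M, (∀ Q : Place (h13sK A) (h13sFt A M), 0 ≤ Q.ord f) →
      f ∈ Set.range (algebraMap (h13sK A) (h13sFt A M))) ∧
    Infinite (Place (h13sK A) (h13sFt A M)) :=
  ⟨h40c_deg_one_sf A M hℓ hM haux hA, h40c_const_sf A M hℓ hM haux hA,
    h40b_infinite_sf A M hℓ hM haux hA⟩

end SF

open Fermat.Agent.S37 Fermat.Agent.Red.GV

/-- **GF-BASE** (unconditional). -/
theorem h40b_gBase : H13gBase := fun M _ => h40r_base_FF M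

/-- **SF-BASE from RED-DIV**: the frozen `H13sBase` from `H13sRedDiv` alone. -/
theorem h40b_sBase (hRD : H13sRedDiv) : H13sBase :=
  h42p_base_of hRD h40f_field fun ℓ hℓ M _ hM haux A hA => h40b_rest A M hℓ hM haux hA

/-- **SF-ZEROS** (unconditional): the inputs of Riemann's theorem at the special fibre. -/
theorem h40b_zerosSF : H26sZerosSF := fun ℓ hℓ M _ hM haux A hA =>
  ⟨h40b_transcendental_sf A M hℓ hM haux hA, h40c_finiteDimensional_sf A M hℓ hM haux hA,
    h40b_zeros_sf A M hℓ hM haux hA⟩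

/-- the special fibre has a weak genus, given RED-DIV. -/
theorem h40b_riemannSF (hRD : H13sRedDiv) : H26sRiemannSF :=
  h26s_riemannSF_of (h40b_sBase hRD) h40b_zerosSF

end Fermat.Agent.P5
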