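import Fermat.Agent.P5.H40SFData
import Fermat.Agent.P5.H85SFDict
import Fermat.Agent.S24.PrincipalDiv
import Fermat.Agent.S24.DiffPlace
import Fermat.Agent.S18.ResAlgClosed
import Fermat.Agent.P5.H48SFAdapt

/-!
# Wave 5, pillar (P), block GEO-RR, special fibre (helper40): only constants are regular
everywhere

Abstract (characteristic free): `k` algebraically closed, `F / k` a field with two Dedekind
charts `B ∋ x`, `B∞ ∋ x⁻¹` (`H40fData`).

* `h40c_mem_valuationSubring` : an element integral over `k[x]` lies in every valuation subring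
  of `F` containing `k` and `x`.
* `h40c_inter` : `B ∩ B∞ = k`.
* `h40c_const` : a function which is regular at every place is constant (field `const` of
  `H13rBase`).
* `h40c_deg_one` : the places have degree one.

Special fibre of a good level:
* `h40c_const_sf`, `h40c_deg_one_sf`, `h40c_inj_sf`.
-/

set_option autoImplicit false
set_option linter.unusedSectionVars false
set_option linter.unusedVariables false
set_option linter.style.haveILetI false

open AlgebraicCurve ModularCurve Polynomial IntermediateField

noncomputable section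

namespace Fermat.Agent.P5

section Abs

variable {k F : Type*} [Field k] [Field F] [Algebra k F]

/-- an element integral over `k[x]` lies in every valuation subring containing `k` and `x`. -/
theorem h40c_mem_valuationSubring (W : ValuationSubring F)
    (hk : ∀ c : k, algebraMap k F c ∈ W) {x f : F} (hx : x ∈ W)
    (hf : IsIntegral (Algebra.adjoin k {x}) f) : f ∈ W := by
  have hle : ∀ a : Algebra.adjoin k {x}, algebraMap (Algebra.adjoin k {x}) F a ∈ W := by
    intro a
    have h1 : Algebra.adjoin k {x} ≤
        ({ W.toSubring with algebraMap_mem' := hk } : Subalgebra k F) :=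
      Algebra.adjoin_le (by
        intro y hy
        rw [Set.mem_singleton_iff] at hy
        subst hy
        exact hx)
    exact h1 a.2
  let φ : Algebra.adjoin k {x} →+* W :=
    (algebraMap (Algebra.adjoin k {x}) F).codRestrict W.toSubring hle
  letI : Algebra (Algebra.adjoin k {x}) W := φ.toAlgebra
  haveI : IsScalarTower (Algebra.adjoin k {x}) W F :=
    IsScalarTower.of_algebraMap_eq fun _ => rfl
  have hf' : IsIntegral W f := hf.tower_top
  obtain ⟨z, hz⟩ := (IsIntegrallyClosed.isIntegral_iff (R := W) (K := F)).mp hf'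
  rw [← hz]
  exact z.2

variable [IsAlgClosed k]

/-- **`B ∩ B∞ = k`.** -/
theorem h40c_inter {x : F} {B Binf : Subalgebra k F} (h : H40fData k F x B Binf)
    (f : F) (hB : f ∈ B) (hBinf : f ∈ Binf) : f ∈ Set.range (algebraMap k F) := by
  have hint := h85f_isIntegral_of_fin B h.x_mem h.fin f hB
  have hintInf := h85f_isIntegral_of_fin Binf h.xinv_mem h.finInf f hBinf
  have h1 : f ∈ (integralClosure (Subring.closure (Set.range (algebraMap k F))) F).toSubring := by
    rw [← iInf_valuationSubring_superset, Subring.mem_iInf]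
    rintro ⟨W, hW⟩
    have hk : ∀ c : k, algebraMap k F c ∈ W := fun c => hW ⟨c, rfl⟩
    rcases W.mem_or_inv_mem x with hx | hx
    · exact h40c_mem_valuationSubring W hk hx hint
    · exact h40c_mem_valuationSubring W hk hx hintInf
  have h2 : IsIntegral (Subring.closure (Set.range (algebraMap k F))) f := h1
  have hle : Subring.closure (Set.range (algebraMap k F)) ≤ (algebraMap k F).range := by
    rw [Subring.closure_le]
    rintro _ ⟨c, rfl⟩
    exact ⟨c, rfl⟩
  have h3 : (algebraMap k F).IsIntegralElem f :=
    (Fermat.Agent.Red.ModelO.h85_isIntegral_range_iff _ _).1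
      (Fermat.Agent.Red.ModelO.h85_isIntegral_mono hle h2)
  have h4 : IsIntegral k f := h3
  obtain ⟨c, hc⟩ := Fermat.Agent.S24.pd_exists_algebraMap_eq (K := k) h4.isAlgebraic
  exact ⟨c, hc⟩

/-- **only constants are regular everywhere.** -/
theorem h40c_const {x : F} {B Binf : Subalgebra k F} (h : H40fData k F x B Binf)
    (f : F) (hf : ∀ v : Place k F, 0 ≤ v.ord f) : f ∈ Set.range (algebraMap k F) := by
  haveI := h.ded
  haveI := h.dedInf
  have hint := h85f_isIntegral_of_fin B h.x_mem h.fin
  have hintInf := h85f_isIntegral_of_fin Binf h.xinv_mem h.finInf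
  have holo := h85f_holo_subalgebra B h.x_mem h.frac hint
  have holoInf := h85f_holo_subalgebra Binf h.xinv_mem h.fracInf hintInf
  have hreg : ∀ v : Place k F, f ∈ v.toValuationSubring := fun v =>
    Fermat.Agent.S24.DiffPlace.mem_of_ord_nonneg v (hf v)
  exact h40c_inter h f ((holo f).mpr fun v _ => hreg v) ((holoInf f).mpr fun v _ => hreg v)

/-- `F` is finite over `k(x)`. -/
theorem h40c_finiteDimensional {x : F} {B Binf : Subalgebra k F} (h : H40fData k F x B Binf) :
    FiniteDimensional k⟮x⟯ F :=
  h48s_finiteDimensional x B h.frac h.fin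

/-- **the places have degree one.** -/
theorem h40c_deg_one {x : F} {B Binf : Subalgebra k F} (h : H40fData k F x B Binf)
    (v : Place k F) : v.deg = 1 :=
  haveI := h40c_finiteDimensional h
  Fermat.Agent.S24.DiffPlace.place_deg_eq_one x (Algebra.IsAlgebraic.of_finite _ _) v

end Abs

/-! ## The special fibre of a good level -/

section SF

open Fermat.Agent.S37

variable (A : ValuationSubring Kbar) (M : ℕ) [NeZero M] {ℓ : ℕ}

/-- the residue field of `A` is algebraically closed. -/
instance h40c_isAlgClosed : IsAlgClosed (h13sK A) :=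
  Fermat.Agent.S18.h72_residueField_isAlgClosed A

theorem h40c_const_sf (hℓ : ℓ.Prime) (hM : ¬ ℓ ∣ M) (haux : auxLevel ℓ ∣ M)
    (hA : A.LiesOverPrime ℓ) (f : h13sFt A M)
    (hf : ∀ v : Place (h13sK A) (h13sFt A M), 0 ≤ v.ord f) :
    f ∈ Set.range (algebraMap (h13sK A) (h13sFt A M)) :=
  h40c_const (h40f_data A M hℓ hM haux hA) f hf

theorem h40c_deg_one_sf (hℓ : ℓ.Prime) (hM : ¬ ℓ ∣ M) (haux : auxLevel ℓ ∣ M)
    (hA : A.LiesOverPrime ℓ) (v : Place (h13sK A) (h13sFt A M)) : v.deg = 1 :=
  h40c_deg_one (h40f_data A M hℓ hM haux hA) v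

theorem h40c_inj_sf : Function.Injective (algebraMap (h13sK A) (h13sFt A M)) :=
  (algebraMap (h13sK A) (h13sFt A M)).injective

theorem h40c_finiteDimensional_sf (hℓ : ℓ.Prime) (hM : ¬ ℓ ∣ M) (haux : auxLevel ℓ ∣ M)
    (hA : A.LiesOverPrime ℓ) :
    FiniteDimensional (h13sK A)⟮h40fJ A M⟯ (h13sFt A M) :=
  h40c_finiteDimensional (h40f_data A M hℓ hM haux hA)

end SF

end Fermat.Agent.P5
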