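import Fermat.Agent.P5.H37DiscIface
import Fermat.Agent.S37.Inertia
import Fermat.Agent.Red.MatchLoc
import Fermat.Agent.Red.BC.Main

/-!
# P5 (wave 5, S19), block GEO-DISC, leaf DISC-SMALL (helper76)

The elementary fields of the disc calculus `H37DiscAt A Q t O` for the parameter
`t = u - u(Q)`, `u` an inertia-fixed function of the finite chart, `Q` an inertia-fixed finite
place, and the `inert` field of `H96Chart.Valid` for a chart with inertia-fixed centres and
parameters.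

* `h76d_t_zero` : `t(Q) = 0`.
* `h76d_value_fixed` : the value of an inertia-fixed function at an inertia-fixed place is
  inertia-fixed.
* `h76d_t_fixed` : `t` is inertia-fixed.
* `h76d_value_small` : for `f` in the finite chart, `f(P) - f(Q) ∈ 𝔪_A` on the disc of `Q`.
* `h76d_t_small` : `t` maps the residue disc of `Q` into `𝔪_A`.
* `h76d_sameRed_gal` : inertia preserves every residue disc (at levels prime to `ℓ`).
* `h76d_isCls_gal` : the class of `∑ (σ P i - σ Q i)` is `σ • x`.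
* `h76d_inert` : the field `inert` of `H96Chart.Valid`.
-/

set_option autoImplicit false

open AlgebraicCurve ModularCurve

noncomputable section

namespace Fermat.Agent.P5

open Fermat.Agent.S37

section Small

variable {M : ℕ} [NeZero M]

omit [NeZero M] in
/-- `t = u - u(Q)` vanishes at `Q`. -/
theorem h76d_t_zero {Q : Place Kbar (FF M)} {u : FF M} {a₀ : Kbar} (h : ValueAt Q u a₀) :
    ValueAt Q (u - cst M a₀) 0 := by
  unfold ValueAt at *
  rw [GalI.cst_zero, sub_zero]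
  exact h

omit [NeZero M] in
/-- the value of a `σ`-fixed function at a `σ`-fixed place is `σ`-fixed. -/
theorem h76d_value_fixed_one {Q : Place Kbar (FF M)} {u : FF M} {a₀ : Kbar} (σ : GQ)
    (hQ : gal M σ • Q = Q) (hu : gal M σ • u = u) (h : ValueAt Q u a₀) : σ a₀ = a₀ := by
  have h1 := GalI.valueAt_gal σ h
  rw [hQ, hu] at h1
  exact GalI.valueAt_unique h1 h

omit [NeZero M] in
/-- the value of an inertia-fixed function at an inertia-fixed place is inertia-fixed. -/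
theorem h76d_value_fixed (A : ValuationSubring Kbar) {Q : Place Kbar (FF M)} {u : FF M}
    {a₀ : Kbar} (hQ : ∀ σ ∈ A.inertiaSubgroupIn ℚ, gal M σ • Q = Q)
    (hu : ∀ σ ∈ A.inertiaSubgroupIn ℚ, gal M σ • u = u) (h : ValueAt Q u a₀) :
    ∀ σ ∈ A.inertiaSubgroupIn ℚ, σ a₀ = a₀ :=
  fun σ hσ => h76d_value_fixed_one σ (hQ σ hσ) (hu σ hσ) h

omit [NeZero M] in
/-- `t = u - u(Q)` is inertia-fixed. -/
theorem h76d_t_fixed (A : ValuationSubring Kbar) {Q : Place Kbar (FF M)} {u : FF M}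
    {a₀ : Kbar} (hQ : ∀ σ ∈ A.inertiaSubgroupIn ℚ, gal M σ • Q = Q)
    (hu : ∀ σ ∈ A.inertiaSubgroupIn ℚ, gal M σ • u = u) (h : ValueAt Q u a₀) :
    ∀ σ ∈ A.inertiaSubgroupIn ℚ, gal M σ • (u - cst M a₀) = u - cst M a₀ := by
  intro σ hσ
  rw [smul_sub, hu σ hσ, GalI.gal_smul_cst, h76d_value_fixed A hQ hu h σ hσ]

/-- for `f` in the finite chart and `P` in the residue disc of the finite place `Q`:
`f(P) ∈ A` and `f(P) - f(Q) ∈ 𝔪_A`. -/
theorem h76d_value_small (A : ValuationSubring Kbar) {Q : Place Kbar (FF M)}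
    (hQ : IsFinAt A Q) {f : FF M} (hf : f ∈ modelFin M A) {b : Kbar} (hb : ValueAt Q f b)
    {P : Place Kbar (FF M)} (hP : SameRed A P Q) :
    ∃ a, a ∈ A ∧ b ∈ A ∧ ValueAt P f a ∧ a - b ∈ A.nonunits := by
  rcases hP with ⟨-, -, h⟩ | ⟨-, h, -⟩
  · obtain ⟨a, b', ha, hb', hPa, hQb, hab⟩ := h f hf
    have e : b' = b := GalI.valueAt_unique hQb hb
    subst e
    exact ⟨a, ha, hb', hPa, hab⟩
  · exact (h hQ).elim

/-- the value at a finite place of a function of the finite chart is in `A`. -/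
theorem h76d_value_mem (A : ValuationSubring Kbar) {Q : Place Kbar (FF M)}
    (hQ : IsFinAt A Q) {f : FF M} (hf : f ∈ modelFin M A) {b : Kbar} (hb : ValueAt Q f b) :
    b ∈ A := by
  obtain ⟨a, -, hb', -, -⟩ :=
    h76d_value_small A hQ hf hb (Fermat.Agent.Red.Match.sameRed_refl A Q)
  exact hb'

/-- `t = u - u(Q)` maps the residue disc of `Q` into `𝔪_A`. -/
theorem h76d_t_small (A : ValuationSubring Kbar) {Q : Place Kbar (FF M)}
    (hQ : IsFinAt A Q) {u : FF M} (hu : u ∈ modelFin M A) {a₀ : Kbar} (h : ValueAt Q u a₀) :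
    ∀ P, SameRed A P Q → ∃ a ∈ A.nonunits, ValueAt P (u - cst M a₀) a := by
  intro P hP
  obtain ⟨a, -, -, hPa, hab⟩ := h76d_value_small A hQ hu h hP
  have h1 := GalI.valueAt_add hPa (GalI.valueAt_neg (GalI.valueAt_cst P a₀))
  rw [← sub_eq_add_neg, ← sub_eq_add_neg] at h1
  exact ⟨a - a₀, hab, h1⟩

/-- `t = u - u(Q)` is in every ring containing the finite chart and the constants of `A`. -/
theorem h76d_t_mem (A : ValuationSubring Kbar) {Q : Place Kbar (FF M)}
    (hQ : IsFinAt A Q) {u : FF M} (hu : u ∈ modelFin M A) {a₀ : Kbar} (h : ValueAt Q u a₀)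
    (O : Subring (FF M)) (hO : ∀ a, a ∈ A → cst M a ∈ O) (hOm : ∀ b ∈ modelFin M A, b ∈ O) :
    u - cst M a₀ ∈ O :=
  O.sub_mem (hOm u hu) (hO a₀ (h76d_value_mem A hQ hu h))

end Small

section Inert

variable {M : ℕ} [NeZero M] {g : ℕ}

/-- inertia preserves every residue disc. -/
theorem h76d_sameRed_gal (ℓ : ℕ) (hℓ : ℓ.Prime) (hℓM : ¬ ℓ ∣ M) (A : ValuationSubring Kbar)
    (hA : A.LiesOverPrime ℓ) {σ : GQ} (hσ : σ ∈ A.inertiaSubgroupIn ℚ)
    {P Q : Place Kbar (FF M)} (h : SameRed A P Q) : SameRed A (gal M σ • P) Q :=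
  Fermat.Agent.Red.Match.sameRed_trans
    (Fermat.Agent.S37.ifaceInertia_of M (Fermat.Agent.Red.BC.ifaceBaseChange M) ℓ hℓ hℓM A hA
      σ hσ P) h

/-- `σ • [∑ (P i - Q i)] = [∑ (σ P i - σ Q i)]`. -/
theorem h76d_isCls_gal (σ : GQ) {x : JZero M} {P Q : Fin g → Place Kbar (FF M)}
    (h : h96m_IsCls x P Q) :
    h96m_IsCls (σ • x) (fun i => gal M σ • P i) (fun i => gal M σ • Q i) := by
  obtain ⟨D, hD, rfl⟩ := h
  refine ⟨SemilinearAut.degZeroSMulHom (gal M σ) D, ?_, ?_⟩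
  · rw [SemilinearAut.coe_degZeroSMulHom, hD, Finset.smul_sum]
    refine Finset.sum_congr rfl fun i _ => ?_
    rw [smul_sub, SemilinearAut.smul_single, SemilinearAut.smul_single]
  · rw [galois_smul_pic0_def, SemilinearAut.pic0_smul_mk]

/-- **the field `inert` of `H96Chart.Valid`** for a chart with inertia-fixed centres and
parameters, at a level prime to `ℓ`. -/
theorem h76d_inert (ℓ : ℕ) (hℓ : ℓ.Prime) (hℓM : ¬ ℓ ∣ M) (A : ValuationSubring Kbar)
    (hA : A.LiesOverPrime ℓ) (c : H96Chart M g)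
    (hQ : ∀ i, ∀ σ ∈ A.inertiaSubgroupIn ℚ, gal M σ • c.Q i = c.Q i)
    (ht : ∀ i, ∀ σ ∈ A.inertiaSubgroupIn ℚ, gal M σ • c.t i = c.t i) :
    ∀ σ ∈ A.inertiaSubgroupIn ℚ, ∀ (x : JZero M) (i : Fin g) (a : Kbar),
      c.IsCoord A x i a → c.IsCoord A (σ • x) i (σ a) := by
  rintro σ hσ x i a ⟨P, hP, hcls, hval⟩
  refine ⟨fun j => gal M σ • P j, fun j => h76d_sameRed_gal ℓ hℓ hℓM A hA hσ (hP j), ?_, ?_⟩
  · have h1 := h76d_isCls_gal σ hcls
    have h2 : (fun j => gal M σ • c.Q j) = c.Q := funext fun j => hQ j σ hσ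
    rwa [h2] at h1
  · have h1 := GalI.valueAt_gal σ hval
    rwa [ht i σ hσ] at h1

/-- the field `inert` of `H96Chart.Valid` from disc data at every centre. -/
theorem h76d_inert_of_disc (ℓ : ℕ) (hℓ : ℓ.Prime) (hℓM : ¬ ℓ ∣ M) (A : ValuationSubring Kbar)
    (hA : A.LiesOverPrime ℓ) (c : H96Chart M g)
    (hd : ∀ i, H37DiscAt A (c.Q i) (c.t i) (c.O i)) :
    ∀ σ ∈ A.inertiaSubgroupIn ℚ, ∀ (x : JZero M) (i : Fin g) (a : Kbar),
      c.IsCoord A x i a → c.IsCoord A (σ • x) i (σ a) :=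
  h76d_inert ℓ hℓ hℓM A hA c (fun i => (hd i).Q_fixed) (fun i => (hd i).t_fixed)

end Inert

end Fermat.Agent.P5
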