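import Fermat.Agent.P5.H41Div
import Fermat.Agent.P5.H76DiscSmall
import Fermat.Agent.P5.H37DiscIface
import Fermat.Agent.S36.H62L0

/-!
# P5 (wave 5, S19), block GEO-DISC: the disc calculus `H37DiscAt` at every inertia-fixed
finite place of a good level (helper41)

* `h41eO A Q hQ` : the local ring of the finite chart over `A` at the reduction of the finite
  place `Q` (= `h41dO A (jB M) Q _`).
* `h41e_exists_rat_param` : at a good level the centre of `Q` has a RATIONAL local parameter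
  `u` (`IsRat u`, `𝔫 = (u) + 𝔪_A B` locally) — the first half of the proof of R-L0
  (`h62r_L0_of`), over `A`.
* `h41e_discAt` : **for every inertia-fixed finite place `Q` of a good level there is `t` with
  `H37DiscAt A Q t (h41eO A Q hQ)`** (all thirteen fields, unconditional).
* `h41e_discExists_of_unr` : `H37DiscExists` from UNR-PLACE (every finite residue disc contains
  an inertia-fixed place).
-/

set_option autoImplicit false
set_option synthInstance.maxHeartbeats 400000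
set_option linter.unusedSectionVars false
set_option linter.style.haveILetI false

open AlgebraicCurve ModularCurve IsLocalRing

noncomputable section

namespace Fermat.Agent.P5

open Fermat.Agent.S37 Fermat.Agent.Red Fermat.Agent.Red.Match Fermat.Agent.Red.GG
  Fermat.Agent.LGC Fermat.Agent.S36

variable {M : ℕ} [NeZero M] {ℓ : ℕ} {A : ValuationSubring Kbar}

/-- `IsFinAt` as the existence of a value of `j` in `A`. -/
theorem h41e_hQ {Q : Place Kbar (FF M)} (hQ : IsFinAt A Q) :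
    ∃ a : A, ValueAt Q (jB M) (a : Kbar) := by
  obtain ⟨a, ha, h⟩ := hQ
  exact ⟨⟨a, ha⟩, h⟩

/-- the local ring of the finite chart over `A` at the reduction of the finite place `Q`. -/
def h41eO (A : ValuationSubring Kbar) (Q : Place Kbar (FF M)) (hQ : IsFinAt A Q) :
    Subring (FF M) :=
  h41dO A (jB M) Q (h41e_hQ hQ)

/-- **O_unit**: a function of the local ring with a unit value at `Q` is invertible in the
local ring. -/
theorem h41e_O_unit {t0 : FF M} {Q : Place Kbar (FF M)} (hQ : ∃ a : A, ValueAt Q t0 (a : Kbar))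
    {f : FF M} (hf : f ∈ h41dO A t0 Q hQ) {a : Kbar} (hfa : ValueAt Q f a) (ha0 : a ≠ 0)
    (hainv : a⁻¹ ∈ A) : f⁻¹ ∈ h41dO A t0 Q hQ := by
  obtain ⟨b, s, hs, hfs⟩ := hf
  have hsv := chartEv_spec A t0 Q hQ s
  have hbv : ValueAt Q (b : FF M) (a * ((chartEv A t0 Q hQ s : A) : Kbar)) := by
    rw [← hfs]
    exact valueAt_mul hfa hsv
  have hs' := hs
  rw [h41d_mem_centre, ValuationSubring.mem_nonunits_iff_or, not_or, not_not] at hs'
  obtain ⟨hσ0, hσinv⟩ := hs'
  have hb : b ∉ h41dCentre A t0 Q hQ := by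
    rw [h41d_mem_centre_iff hbv, ValuationSubring.mem_nonunits_iff_or, not_or, not_not]
    refine ⟨mul_ne_zero ha0 hσ0, ?_⟩
    rw [mul_inv]
    exact mul_mem hainv hσinv
  have hb0 : (b : FF M) ≠ 0 := by
    intro h0
    apply hb
    have : b = 0 := Subtype.ext h0
    rw [this]
    exact zero_mem _
  have hf0 : f ≠ 0 := by
    intro h0
    rw [h0, zero_mul] at hfs
    exact hb0 hfs.symm
  refine ⟨s, b, hb, ?_⟩
  rw [← hfs]
  field_simp

/-- normalisation of a local parameter: `t' - t'(Q)` is a local parameter vanishing at `Q`. -/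
theorem h41e_normalise {t0 : FF M} {Q : Place Kbar (FF M)}
    (hQ : ∃ a : A, ValueAt Q t0 (a : Kbar)) (t' : chart M A t0)
    (ht' : t' ∈ h41dCentre A t0 Q hQ)
    (hprin : ∀ y ∈ h41dCentre A t0 Q hQ, ∃ s, s ∉ h41dCentre A t0 Q hQ ∧
      s * y ∈ Ideal.span {t'} ⊔ (maximalIdeal A).map (algebraMap A (chart M A t0))) :
    let t : chart M A t0 := t' - algebraMap A _ (chartEv A t0 Q hQ t')
    ValueAt Q (t : FF M) 0 ∧ t ∈ h41dCentre A t0 Q hQ ∧
      ∀ y ∈ h41dCentre A t0 Q hQ, ∃ s, s ∉ h41dCentre A t0 Q hQ ∧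
        s * y ∈ Ideal.span {t} ⊔ (maximalIdeal A).map (algebraMap A (chart M A t0)) := by
  intro t
  have hcm : chartEv A t0 Q hQ t' ∈ maximalIdeal A := ht'
  have htv : ValueAt Q (t : FF M) 0 := by
    have h1 := chartEv_spec A t0 Q hQ t
    have h2 : chartEv A t0 Q hQ t = 0 := by
      show chartEv A t0 Q hQ (t' - algebraMap A _ (chartEv A t0 Q hQ t')) = 0
      rw [map_sub, AlgHom.commutes]
      exact sub_self _
    rwa [h2] at h1
  refine ⟨htv, ?_, ?_⟩
  · rw [h41d_mem_centre_iff htv]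
    exact zero_mem _
  · intro y hy
    obtain ⟨s, hs, hsy⟩ := hprin y hy
    refine ⟨s, hs, ?_⟩
    have hle : Ideal.span {t'} ⊔ (maximalIdeal A).map (algebraMap A (chart M A t0)) ≤
        Ideal.span {t} ⊔ (maximalIdeal A).map (algebraMap A (chart M A t0)) := by
      refine sup_le ?_ le_sup_right
      rw [Ideal.span_le, Set.singleton_subset_iff]
      have h1 : t' = t + algebraMap A _ (chartEv A t0 Q hQ t') := by
        show t' = (t' - algebraMap A _ (chartEv A t0 Q hQ t')) + _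
        ring
      rw [h1]
      exact Ideal.add_mem _ (Ideal.mem_sup_left (Ideal.subset_span rfl))
        (Ideal.mem_sup_right (Ideal.mem_map_of_mem _ hcm))
    exact hle hsy

/-- **rational local parameters over `A`**: at a good level, the centre of a finite place has a
local parameter with rational `q`-expansion. -/
theorem h41e_exists_rat_param [NeZero ℓ] (hℓ : ℓ.Prime) (hM : ¬ ℓ ∣ M) (haux : auxLevel ℓ ∣ M)
    (hA : A.LiesOverPrime ℓ) (Q : Place Kbar (FF M)) (hQ : IsFinAt A Q) :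
    ∃ u : chart M A (jB M), IsRat (u : FF M) ∧ u ∈ h41dCentre A (jB M) Q (h41e_hQ hQ) ∧
      ∀ y ∈ h41dCentre A (jB M) Q (h41e_hQ hQ), ∃ s, s ∉ h41dCentre A (jB M) Q (h41e_hQ hQ) ∧
        s * y ∈ Ideal.span {u} ⊔ (maximalIdeal A).map (algebraMap A (chart M A (jB M))) := by
  set 𝔰 : Ideal (chart M A (jB M)) := h41dCentre A (jB M) Q (h41e_hQ hQ) with h𝔰
  haveI h𝔰max : 𝔰.IsMaximal := h41d_centre_isMaximal A (jB M) Q (h41e_hQ hQ)
  haveI h𝔰p : 𝔰.IsPrime := h𝔰max.isPrime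
  have h𝔪𝔰 : h62rM A M (jB M) ≤ 𝔰 := h41d_map_le_centre A (jB M) Q (h41e_hQ hQ)
  haveI hded : IsDedekindDomain (chart M A (jB M) ⧸ h62rM A M (jB M)) :=
    h13l_hded_fin M A hℓ hM haux hA
  have hnf : ¬ IsField (chart M A (jB M) ⧸ h62rM A M (jB M)) := h13l_hnf_fin M A hℓ hM hA
  haveI h𝔪prime : (h62rM A M (jB M)).IsPrime :=
    (Ideal.Quotient.isDomain_iff_prime _).mp hded.toIsDomain
  obtain ⟨t, ht, -, s, hs, hall⟩ := h3_exists_local_uniformizer (h62rM A M (jB M)) hnf 𝔰 h𝔪𝔰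
  have ht₁ : h62l_LP (h62rM A M (jB M)) 𝔰 t := ⟨ht, fun y hy => ⟨s, hs, hall y hy⟩⟩
  have hne : ¬ 𝔰 ≤ h62rM A M (jB M) := by
    intro hle'
    have h1 : h62rM A M (jB M) = 𝔰 := le_antisymm h𝔪𝔰 hle'
    apply hnf
    have h2 : (h62rM A M (jB M)).IsMaximal := h1 ▸ h𝔰max
    exact (Ideal.Quotient.maximal_ideal_iff_isField_quotient _).mp h2
  have h𝔪A : ∀ a ∈ maximalIdeal A, algebraMap A (chart M A (jB M)) a ∈ h62rM A M (jB M) :=
    fun a ha => Ideal.mem_map_of_mem _ ha
  obtain ⟨u, huR, hu⟩ := h62l_exists_LP_mem (h62rM A M (jB M)) 𝔰 h𝔪𝔰 hne h𝔪A (h62i_R A M)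
    (h62d_span A M hℓ hM hA) (h62d_res A M 𝔰 h𝔰max h𝔪𝔰) (h62d_sep A hℓ hA) ht₁
  have hrat : IsRat (u : FF M) := (h62i_mem_R A M u).mp huR
  exact ⟨u, hrat, hu.1, hu.2⟩

/-- **GEO-DISC at one centre**: for every inertia-fixed finite place `Q` of a good level there
is a parameter `t` with the full disc calculus `H37DiscAt A Q t (h41eO A Q hQ)`. -/
theorem h41e_discAt (hℓ : ℓ.Prime) (hM : ¬ ℓ ∣ M) (haux : auxLevel ℓ ∣ M)
    (hA : A.LiesOverPrime ℓ) (Q : Place Kbar (FF M))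
    (hQfix : ∀ σ ∈ A.inertiaSubgroupIn ℚ, gal M σ • Q = Q) (hQ : IsFinAt A Q) :
    ∃ t : FF M, H37DiscAt A Q t (h41eO A Q hQ) := by
  haveI : NeZero ℓ := ⟨hℓ.ne_zero⟩
  obtain ⟨u, hrat, hu, hprin⟩ := h41e_exists_rat_param hℓ hM haux hA Q hQ
  obtain ⟨htv, htc, hprin'⟩ := h41e_normalise (h41e_hQ hQ) u hu hprin
  set a₀ : A := chartEv A (jB M) Q (h41e_hQ hQ) u with ha₀
  set t : chart M A (jB M) := u - algebraMap A _ a₀ with ht
  have htcoe : (t : FF M) = (u : FF M) - cst M (a₀ : Kbar) := by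
    rw [ht]
    push_cast
    rfl
  have hfin : IfaceFinite M A (jB M) := ModelO.h85_modelFin_fg hℓ hM hA
  have hufix : ∀ σ ∈ A.inertiaSubgroupIn ℚ, gal M σ • (u : FF M) = (u : FF M) :=
    fun σ _ => (Fermat.Agent.Red.GV.Soft.isRat_iff_gal_fixed M (u : FF M)).mp hrat σ
  have huv : ValueAt Q (u : FF M) (a₀ : Kbar) := chartEv_spec A (jB M) Q (h41e_hQ hQ) u
  refine ⟨(t : FF M), ?_⟩
  exact
    { Q_fixed := hQfix
      t_fixed := by
        rw [htcoe]
        exact h76d_t_fixed A hQfix hufix huv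
      Q_fin := hQ
      t_zero := htv
      t_small := fun P hP => h41d_t_small (h41d_same_of_sameRed_fin hQ hP) t.2 htv
      t_inj := fun P P' a hP hP' hta hta' =>
        h41d_t_inj hfin (GGC97_transcendental_jB M) (h41e_hQ hQ) t htc hprin'
          (h41d_same_of_sameRed_fin hQ hP) (h41d_same_of_sameRed_fin hQ hP') hta hta'
      refl := sameRed_refl A Q
      O_cst := fun a ha => h41d_O_cst A (jB M) Q (h41e_hQ hQ) a ha
      O_t := h41d_chart_le_O A (jB M) Q (h41e_hQ hQ) t.2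
      O_model := fun b hb => h41d_chart_le_O A (jB M) Q (h41e_hQ hQ) hb
      O_unit := fun f hf a hfa ha0 hainv => h41e_O_unit (h41e_hQ hQ) hf hfa ha0 hainv
      O_val := fun f hf P hP => h41d_O_val (h41e_hQ hQ) (h41d_same_of_sameRed_fin hQ hP) hf
      O_div := fun f hf P hP a a' hfa hta =>
        h41d_O_div hfin (h41e_hQ hQ) t htc hprin' (h41d_same_of_sameRed_fin hQ hP) hf hfa hta }

/-- **UNR-PLACE** (finite discs): every finite residue disc of a good level contains an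
inertia-fixed place. -/
def H41eUnrPlace : Prop :=
  ∀ (ℓ : ℕ), ℓ.Prime → ∀ (M : ℕ) [NeZero M], ¬ ℓ ∣ M → auxLevel ℓ ∣ M →
    ∀ A : ValuationSubring Kbar, A.LiesOverPrime ℓ →
    ∀ v : Place Kbar (FF M), IsFinAt A v →
      ∃ Q : Place Kbar (FF M), SameRed A v Q ∧ ∀ σ ∈ A.inertiaSubgroupIn ℚ, gal M σ • Q = Q

/-- **GEO-DISC** from UNR-PLACE. -/
theorem h41e_discExists_of_unr (h : H41eUnrPlace) : H37DiscExists := by
  intro ℓ hℓ M _ hM haux A hA v hv
  obtain ⟨Q, hvQ, hQfix⟩ := h ℓ hℓ M hM haux A hA v hv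
  have hQ : IsFinAt A Q := (sameRed_isFinAt_iff hvQ).1 hv
  obtain ⟨t, ht⟩ := h41e_discAt hℓ hM haux hA Q hQfix hQ
  exact ⟨Q, t, h41eO A Q hQ, hvQ, ht⟩

end Fermat.Agent.P5
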