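import Fermat.Agent.P5.H41DiscAt
import Fermat.Agent.P5.H91Unr

/-!
# P5 (wave 5, S19), block GEO-DISC: `H37DiscExists`, unconditional (helper41)

`h41f_discExists : H37DiscExists` — at a good level every finite place lies in the residue disc
of an inertia-fixed centre with the full disc calculus `H37DiscAt`
(`h41e_discAt` + UNR-PLACE `h91n_unrPlace` of helper91).

`h41f_discAt_of_fin` : the same with the explicit ring `h41eO A Q hQ`.
-/

set_option autoImplicit false

open AlgebraicCurve ModularCurve

noncomputable section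

namespace Fermat.Agent.P5

open Fermat.Agent.S37 Fermat.Agent.Red.Match

/-- UNR-PLACE in the shape consumed by `h41e_discExists_of_unr`. -/
theorem h41f_unrPlace : H41eUnrPlace := by
  intro ℓ hℓ M _ hM haux A hA v _
  exact h91n_unrPlace hℓ hM haux hA v

/-- **GEO-DISC**, unconditional. -/
theorem h41f_discExists : H37DiscExists :=
  h41e_discExists_of_unr h41f_unrPlace

/-- every finite place of a good level lies in the disc of an inertia-fixed finite centre `Q`
with a disc calculus on the local ring `h41eO A Q hQ`. -/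
theorem h41f_discAt_of_fin {ℓ : ℕ} (hℓ : ℓ.Prime) {M : ℕ} [NeZero M] (hM : ¬ ℓ ∣ M)
    (haux : auxLevel ℓ ∣ M) {A : ValuationSubring Kbar} (hA : A.LiesOverPrime ℓ)
    (v : Place Kbar (FF M)) (hv : IsFinAt A v) :
    ∃ (Q : Place Kbar (FF M)) (hQ : IsFinAt A Q) (t : FF M),
      SameRed A v Q ∧ H37DiscAt A Q t (h41eO A Q hQ) := by
  obtain ⟨Q, hvQ, hQfix⟩ := h91n_unrPlace hℓ hM haux hA v
  have hQ : IsFinAt A Q := (sameRed_isFinAt_iff hvQ).1 hv
  obtain ⟨t, ht⟩ := h41e_discAt hℓ hM haux hA Q hQfix hQ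
  exact ⟨Q, hQ, t, hvQ, ht⟩

end Fermat.Agent.P5
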