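import Fermat.Prelude.Def_AlgebraicCurve_Repartitions
import Fermat.Agent.P5.H3RRFive

/-!
# Wave 5 (P), block GEO-RR: chart-free weak Riemann-Roch in the Prelude's language (helper42)

For any fields `K ⊆ F`, with the Prelude's `AlgebraicCurve.Place`, `Divisor`,
`riemannRochSpace`, `repartitionsOf`, `principalRepartitions`, `H1`, `genusFF`:

* `h42r_stepEquiv` : `R(D + v) / R(D) ≃ κ(v)` (so its dimension is `deg v`);
* `h42r_LEquiv`    : `L(D) ≃ B ⊓ R(D)` (`B` the principal repartitions);
* `h42r_euler`     : if all residue fields, `L(0)` and `H1(0)` are finite-dimensional, then for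
  every divisor `D`, `L(D)` and `H1(D)` are finite-dimensional and
  `l(D) - i(D) = deg D + l(0) - genusFF`;
* `h42r_riemann`   : Riemann's inequality `l(D) ≥ deg D + l(0) - genusFF`.

No charts, no duality.  The linear algebra is helper3's five-term sequence (`H3RRFive`).
-/

set_option autoImplicit false

noncomputable section

namespace Fermat.Agent.P5

open AlgebraicCurve WithZero

/-- The quotient `Λ''/Λ'` of two subspaces, elaborated in the abstract setting (so that it is
syntactically the quotient appearing in `H3RRFive`). -/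
abbrev h42rQuot {K : Type*} {C : Type*} [Field K] [AddCommGroup C] [Module K C]
    (Λ' Λ'' : Submodule K C) : Type _ := ↥Λ'' ⧸ Λ'.submoduleOf Λ''

variable {K F : Type*} [Field K] [Field F] [Algebra K F]

set_option maxSynthPendingDepth 3

/-! ### Local facts at a place -/

/-- A uniformizer, as an element of `F`. -/
theorem h42r_exists_unif (v : Place K F) : ∃ π : F, π ≠ 0 ∧ v.ord π = 1 := by
  obtain ⟨π, hπ⟩ := IsDiscreteValuationRing.exists_irreducible v.toValuationSubring
  refine ⟨(π : F), ?_, v.ord_coe_irreducible hπ⟩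
  simpa [ne_eq, ZeroMemClass.coe_eq_zero] using hπ.ne_zero

/-- Elements of nonnegative order lie in the valuation ring. -/
theorem h42r_mem_of_ord (v : Place K F) {f : F} (h : f = 0 ∨ 0 ≤ v.ord f) :
    f ∈ v.toValuationSubring := by
  rcases eq_or_ne f 0 with rfl | hf
  · exact zero_mem _
  · have h0 : 0 ≤ v.ord f := h.resolve_left hf
    obtain ⟨π, hπ⟩ := IsDiscreteValuationRing.exists_irreducible v.toValuationSubring
    obtain ⟨u, hu⟩ := v.exists_unit_mul_zpow hf hπ
    rw [hu]
    obtain ⟨n, hn⟩ := Int.eq_ofNat_of_zero_le h0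
    rw [hn, zpow_natCast]
    exact mul_mem (u : v.toValuationSubring).2 (pow_mem π.2 n)

/-- Elements of the valuation ring have nonnegative order. -/
theorem h42r_ord_of_mem (v : Place K F) {f : F} (h : f ∈ v.toValuationSubring) :
    f = 0 ∨ 0 ≤ v.ord f :=
  v.adicValuation_le_one_iff.mp (v.adicValuation_le_one_of_mem h)

/-- The residue of an element of the valuation ring vanishes iff its order is positive. -/
theorem h42r_residue_eq_zero_iff (v : Place K F) (a : v.toValuationSubring) :
    IsLocalRing.residue v.toValuationSubring a = 0 ↔ (a : F) = 0 ∨ 1 ≤ v.ord (a : F) := by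
  rw [IsLocalRing.residue_eq_zero_iff, IsLocalRing.mem_maximalIdeal, mem_nonunits_iff,
    ← v.adicValuation_coe_eq_one_iff]
  rcases eq_or_ne (a : F) 0 with h0 | h0
  · simp [h0]
  · rw [v.adicValuation_eq_exp_neg_ord h0, or_iff_right h0]
    have hnn : 0 ≤ v.ord (a : F) := (h42r_ord_of_mem v a.2).resolve_left h0
    rw [show (1 : ℤᵐ⁰) = exp (0 : ℤ) from rfl, exp_injective.eq_iff]
    omega


/-! ### The step `R(D + v) / R(D) ≃ κ(v)` -/

section Step

variable (D : Divisor K F) (v : Place K F)

theorem h42r_add_single_same : (D + Finsupp.single v 1 : Divisor K F) v = D v + 1 := by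
  rw [Finsupp.add_apply, Finsupp.single_eq_same]

theorem h42r_add_single_ne {w : Place K F} (h : w ≠ v) :
    (D + Finsupp.single v 1 : Divisor K F) w = D w := by
  classical
  rw [Finsupp.add_apply, Finsupp.single_apply, if_neg (Ne.symm h), add_zero]

theorem h42r_le_add_single : D ≤ D + Finsupp.single v 1 := by
  classical
  intro w
  rw [Finsupp.add_apply, Finsupp.single_apply]
  split_ifs <;> omega

/-- `π^(D v + 1) * α_v` lies in the valuation ring for `α ∈ R(D + v)`. -/
theorem h42r_scaled_mem {π : F} (hπ0 : π ≠ 0) (hπ : v.ord π = 1)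
    (α : ↥(repartitionsOf (D + Finsupp.single v 1))) :
    π ^ (D v + 1) * ((α : ↥(repartitions K F)) : Place K F → F) v ∈ v.toValuationSubring := by
  apply h42r_mem_of_ord
  have hα := (mem_repartitionsOf_iff.mp α.2) v
  rw [h42r_add_single_same] at hα
  by_cases h0 : ((α : ↥(repartitions K F)) : Place K F → F) v = 0
  · left; rw [h0, mul_zero]
  · right
    have h := hα.resolve_left h0
    rw [v.ord_mul (zpow_ne_zero _ hπ0) h0, v.ord_zpow, hπ]
    omega

/-- The residue map `R(D + v) → κ(v)`, `α ↦ (π^(D v + 1) α_v mod 𝔪_v)`. -/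
def h42rPsi {π : F} (hπ0 : π ≠ 0) (hπ : v.ord π = 1) :
    ↥(repartitionsOf (D + Finsupp.single v 1)) →ₗ[K] v.ResidueField where
  toFun α := IsLocalRing.residue v.toValuationSubring
    ⟨π ^ (D v + 1) * ((α : ↥(repartitions K F)) : Place K F → F) v,
      h42r_scaled_mem D v hπ0 hπ α⟩
  map_add' α β := by
    rw [← map_add]
    congr 1
    apply Subtype.ext
    simp [mul_add]
  map_smul' c α := by
    rw [RingHom.id_apply, Algebra.smul_def, IsScalarTower.algebraMap_apply K v.toValuationSubring,
      IsLocalRing.ResidueField.algebraMap_eq, ← map_mul]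
    congr 1
    apply Subtype.ext
    simp [Algebra.smul_def]
    ring


theorem h42rPsi_apply {π : F} (hπ0 : π ≠ 0) (hπ : v.ord π = 1)
    (α : ↥(repartitionsOf (D + Finsupp.single v 1))) :
    h42rPsi D v hπ0 hπ α = IsLocalRing.residue v.toValuationSubring
      ⟨π ^ (D v + 1) * ((α : ↥(repartitions K F)) : Place K F → F) v,
        h42r_scaled_mem D v hπ0 hπ α⟩ := rfl

/-- The kernel of the residue map is `R(D)`. -/
theorem h42r_ker_psi {π : F} (hπ0 : π ≠ 0) (hπ : v.ord π = 1) :
    LinearMap.ker (h42rPsi D v hπ0 hπ) =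
      (repartitionsOf D).submoduleOf (repartitionsOf (D + Finsupp.single v 1)) := by
  ext α
  rw [LinearMap.mem_ker, h42rPsi_apply, h42r_residue_eq_zero_iff, Submodule.submoduleOf,
    Submodule.mem_comap, Submodule.subtype_apply, mem_repartitionsOf_iff]
  have hα := mem_repartitionsOf_iff.mp α.2
  constructor
  · intro h w
    by_cases hw : w = v
    · subst hw
      by_cases h0 : ((α : ↥(repartitions K F)) : Place K F → F) w = 0
      · exact Or.inl h0
      · right
        have h1 := h.resolve_left (mul_ne_zero (zpow_ne_zero _ hπ0) h0)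
        rw [w.ord_mul (zpow_ne_zero _ hπ0) h0, w.ord_zpow, hπ] at h1
        omega
    · have := hα w
      rwa [h42r_add_single_ne D v hw] at this
  · intro h
    by_cases h0 : ((α : ↥(repartitions K F)) : Place K F → F) v = 0
    · left
      show π ^ (D v + 1) * ((α : ↥(repartitions K F)) : Place K F → F) v = 0
      rw [h0, mul_zero]
    · right
      have h1 := (h v).resolve_left h0
      show 1 ≤ v.ord (π ^ (D v + 1) * ((α : ↥(repartitions K F)) : Place K F → F) v)
      rw [v.ord_mul (zpow_ne_zero _ hπ0) h0, v.ord_zpow, hπ]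
      omega

/-- The residue map is surjective (repartitions supported at the single place `v`). -/
theorem h42r_psi_surjective {π : F} (hπ0 : π ≠ 0) (hπ : v.ord π = 1) :
    Function.Surjective (h42rPsi D v hπ0 hπ) := by
  classical
  intro r
  obtain ⟨a, rfl⟩ := IsLocalRing.residue_surjective r
  set β : Place K F → F := fun w => if w = v then π ^ (-(D v + 1)) * (a : F) else 0 with hβ
  have hβv : β v = π ^ (-(D v + 1)) * (a : F) := by simp [hβ]
  have hβw : ∀ w, w ≠ v → β w = 0 := fun w hw => by simp [hβ, hw]
  have hmem : ∀ w : Place K F,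
      w.adicValuation (β w) ≤ exp ((D + Finsupp.single v 1 : Divisor K F) w) := by
    intro w
    rw [Place.adicValuation_le_exp_iff]
    by_cases hw : w = v
    · subst hw
      by_cases ha : (a : F) = 0
      · left; rw [hβv, ha, mul_zero]
      · right
        have hnn : 0 ≤ w.ord (a : F) := (h42r_ord_of_mem w a.2).resolve_left ha
        rw [hβv, w.ord_mul (zpow_ne_zero _ hπ0) ha, w.ord_zpow, hπ, h42r_add_single_same]
        omega
    · exact Or.inl (hβw w hw)
  refine ⟨⟨⟨β, mem_repartitions_of_forall_le_exp _ β hmem⟩, hmem⟩, ?_⟩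
  rw [h42rPsi_apply]
  congr 1
  apply Subtype.ext
  show π ^ (D v + 1) * β v = (a : F)
  rw [hβv, zpow_neg, mul_inv_cancel_left₀ (zpow_ne_zero _ hπ0)]

/-- **The step quotient**: `R(D + v) / R(D) ≃ κ(v)` as `K`-vector spaces. -/
theorem h42r_stepEquiv :
    Nonempty (h42rQuot (repartitionsOf D) (repartitionsOf (D + Finsupp.single v 1 : Divisor K F))
        ≃ₗ[K] v.ResidueField) := by
  obtain ⟨π, hπ0, hπ⟩ := h42r_exists_unif v
  exact ⟨(Submodule.quotEquivOfEq _ _ (h42r_ker_psi D v hπ0 hπ).symm).trans
    (LinearMap.quotKerEquivOfSurjective _ (h42r_psi_surjective D v hπ0 hπ))⟩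

/-- The step quotient has dimension `deg v`. -/
theorem h42r_step_finrank :
    Module.finrank K
      (h42rQuot (repartitionsOf D) (repartitionsOf (D + Finsupp.single v 1 : Divisor K F))) =
        v.deg := by
  obtain ⟨e⟩ := h42r_stepEquiv D v
  exact e.finrank_eq

theorem h42r_step_finite (hv : Module.Finite K v.ResidueField) :
    Module.Finite K
      (h42rQuot (repartitionsOf D) (repartitionsOf (D + Finsupp.single v 1 : Divisor K F))) := by
  obtain ⟨e⟩ := h42r_stepEquiv D v
  exact Module.Finite.equiv e.symm

end Step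

/-! ### `L(D)` and `H1(D)` in terms of the lattice pair `(B, R(D))` -/

section Global

variable (D : Divisor K F)

/-- The diagonal map `L(D) → B ⊓ R(D)`. -/
def h42rLMap : ↥(riemannRochSpace D) →ₗ[K]
    ↥(principalRepartitions K F ⊓ repartitionsOf D) :=
  LinearMap.codRestrict _
    (((Algebra.linearMap F ↥(repartitions K F)).restrictScalars K).comp
      (riemannRochSpace D).subtype)
    (by
      intro f
      refine ⟨mem_principalRepartitions_iff.mpr ⟨(f : F), rfl⟩, ?_⟩
      intro w
      exact f.2 w)

theorem h42rLMap_coe (f : ↥(riemannRochSpace D)) (w : Place K F) :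
    (((h42rLMap D f : ↥(principalRepartitions K F ⊓ repartitionsOf D)) :
      ↥(repartitions K F)) : Place K F → F) w = (f : F) := rfl

theorem h42rLMap_injective [Nonempty (Place K F)] : Function.Injective (h42rLMap D) := by
  intro f g hfg
  obtain ⟨w⟩ := ‹Nonempty (Place K F)›
  apply Subtype.ext
  rw [← h42rLMap_coe D f w, ← h42rLMap_coe D g w, hfg]

theorem h42rLMap_surjective : Function.Surjective (h42rLMap D) := by
  rintro ⟨α, hαB, hαD⟩
  obtain ⟨f, hf⟩ := mem_principalRepartitions_iff.mp hαB
  have hfD : f ∈ riemannRochSpace D := by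
    intro w
    have := hαD w
    rwa [hf] at this
  refine ⟨⟨f, hfD⟩, ?_⟩
  apply Subtype.ext
  apply Subtype.ext
  funext w
  rw [h42rLMap_coe]
  exact (congrFun hf w).symm

/-- `L(D) ≃ B ⊓ R(D)` (as soon as there is a place). -/
def h42rLEquiv [Nonempty (Place K F)] :
    ↥(riemannRochSpace D) ≃ₗ[K] ↥(principalRepartitions K F ⊓ repartitionsOf D) :=
  LinearEquiv.ofBijective (h42rLMap D) ⟨h42rLMap_injective D, h42rLMap_surjective D⟩

/-- `H1(D) ≃ C / (B ⊔ R(D))`. -/
def h42rH1Equiv :
    H1 D ≃ₗ[K] (↥(repartitions K F) ⧸ (principalRepartitions K F ⊔ repartitionsOf D)) :=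
  Submodule.quotEquivOfEq _ _ (sup_comm _ _)

end Global

/-! ### Euler characteristic -/

/-- `L(D)` and `H1(D)` are finite-dimensional. -/
def h42rFin (D : Divisor K F) : Prop :=
  Module.Finite K ↥(riemannRochSpace D) ∧ Module.Finite K (H1 D)

/-- The Euler characteristic `l(D) - i(D)`. -/
def h42rChi (D : Divisor K F) : ℤ :=
  (Module.finrank K ↥(riemannRochSpace D) : ℤ) - (Module.finrank K (H1 D) : ℤ)

section Euler

variable (D : Divisor K F) (v : Place K F)

/-- Finiteness passes along a step `D ↔ D + v` in both directions. -/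
theorem h42r_step_fin (hv : Module.Finite K v.ResidueField) :
    h42rFin D ↔ h42rFin (D + Finsupp.single v 1) := by
  have : Nonempty (Place K F) := ⟨v⟩
  have hle : repartitionsOf D ≤ repartitionsOf (D + Finsupp.single v 1 : Divisor K F) :=
    repartitionsOf_mono (h42r_le_add_single D v)
  have := h42r_step_finite D v hv
  constructor
  · rintro ⟨hL, hH⟩
    have : Module.Finite K ↥(principalRepartitions K F ⊓ repartitionsOf D) :=
      Module.Finite.equiv (h42rLEquiv D)
    have : Module.Finite K
        (↥(repartitions K F) ⧸ (principalRepartitions K F ⊔ repartitionsOf D)) :=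
      Module.Finite.equiv (h42rH1Equiv D)
    have : Module.Finite K (↥(repartitions K F) ⧸ (principalRepartitions K F ⊔
        repartitionsOf (D + Finsupp.single v 1 : Divisor K F))) :=
      h3r_finite_quot_of_le _ _ _ hle
    have : Module.Finite K ↥(principalRepartitions K F ⊓
        repartitionsOf (D + Finsupp.single v 1 : Divisor K F)) :=
      h3r_five_finite_inf _ _ _ hle
    exact ⟨Module.Finite.equiv (h42rLEquiv (D + Finsupp.single v 1)).symm,
      Module.Finite.equiv (h42rH1Equiv (D + Finsupp.single v 1)).symm⟩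
  · rintro ⟨hL, hH⟩
    have : Module.Finite K ↥(principalRepartitions K F ⊓
        repartitionsOf (D + Finsupp.single v 1 : Divisor K F)) :=
      Module.Finite.equiv (h42rLEquiv (D + Finsupp.single v 1))
    have : Module.Finite K (↥(repartitions K F) ⧸ (principalRepartitions K F ⊔
        repartitionsOf (D + Finsupp.single v 1 : Divisor K F))) :=
      Module.Finite.equiv (h42rH1Equiv (D + Finsupp.single v 1))
    have : Module.Finite K ↥(principalRepartitions K F ⊓ repartitionsOf D) :=
      h3r_finite_inf_of_le _ _ _ hle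
    have : Module.Finite K
        (↥(repartitions K F) ⧸ (principalRepartitions K F ⊔ repartitionsOf D)) :=
      h3r_five_finite_quot _ _ _ hle
    exact ⟨Module.Finite.equiv (h42rLEquiv D).symm, Module.Finite.equiv (h42rH1Equiv D).symm⟩

/-- `χ(D + v) = χ(D) + deg v`. -/
theorem h42r_step_chi (hv : Module.Finite K v.ResidueField) (hD : h42rFin D) :
    h42rChi (D + Finsupp.single v 1) = h42rChi D + v.deg := by
  have : Nonempty (Place K F) := ⟨v⟩
  have hle : repartitionsOf D ≤ repartitionsOf (D + Finsupp.single v 1 : Divisor K F) :=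
    repartitionsOf_mono (h42r_le_add_single D v)
  have := h42r_step_finite D v hv
  obtain ⟨hL, hH⟩ := hD
  have : Module.Finite K ↥(principalRepartitions K F ⊓ repartitionsOf D) :=
    Module.Finite.equiv (h42rLEquiv D)
  have : Module.Finite K
      (↥(repartitions K F) ⧸ (principalRepartitions K F ⊔ repartitionsOf D)) :=
    Module.Finite.equiv (h42rH1Equiv D)
  have : Module.Finite K (↥(repartitions K F) ⧸ (principalRepartitions K F ⊔
      repartitionsOf (D + Finsupp.single v 1 : Divisor K F))) :=
    h3r_finite_quot_of_le _ _ _ hle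
  have h := h3r_five_chi (principalRepartitions K F) (repartitionsOf D)
    (repartitionsOf (D + Finsupp.single v 1 : Divisor K F)) hle
  have e1 := (h42rLEquiv D).finrank_eq
  have e2 := (h42rLEquiv (D + Finsupp.single v 1)).finrank_eq
  have e3 := (h42rH1Equiv D).finrank_eq
  have e4 := (h42rH1Equiv (D + Finsupp.single v 1)).finrank_eq
  have e5 := h42r_step_finrank D v
  unfold h42rQuot at e5
  unfold h42rChi
  rw [e1, e2, e3, e4, h, e5]


/-- The inductive predicate: finiteness and `χ(D) = deg D + χ(0)`. -/
def h42rGood (D : Divisor K F) : Prop :=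
  h42rFin D ∧ h42rChi D = Divisor.degree D + h42rChi (0 : Divisor K F)

theorem h42r_good_up (hv : Module.Finite K v.ResidueField) (h : h42rGood D) :
    h42rGood (D + Finsupp.single v 1) := by
  refine ⟨(h42r_step_fin D v hv).mp h.1, ?_⟩
  rw [h42r_step_chi D v hv h.1, h.2, map_add, Divisor.degree_single]
  ring

theorem h42r_good_down (hv : Module.Finite K v.ResidueField)
    (h : h42rGood (D + Finsupp.single v 1)) : h42rGood D := by
  have hfin := (h42r_step_fin D v hv).mpr h.1
  refine ⟨hfin, ?_⟩
  have h2 := h.2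
  rw [h42r_step_chi D v hv hfin, map_add, Divisor.degree_single] at h2
  linarith

theorem h42r_good_add_single (hv : Module.Finite K v.ResidueField) (n : ℤ) :
    ∀ D : Divisor K F, h42rGood D → h42rGood (D + Finsupp.single v n) := by
  induction n using Int.induction_on with
  | zero =>
    intro D h
    rwa [Finsupp.single_zero, add_zero]
  | succ n ih =>
    intro D h
    have := h42r_good_up (D + Finsupp.single v (n : ℤ)) v hv (ih D h)
    rwa [add_assoc, ← Finsupp.single_add] at this
  | pred n ih =>
    intro D h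
    apply h42r_good_down (D + Finsupp.single v (-(n : ℤ) - 1)) v hv
    rw [add_assoc, ← Finsupp.single_add, sub_add_cancel]
    exact ih D h

end Euler

/-- **Euler characteristic formula**, inductive form. -/
theorem h42r_good (hres : ∀ v : Place K F, Module.Finite K v.ResidueField)
    (h0 : h42rFin (0 : Divisor K F)) (D : Divisor K F) : h42rGood D := by
  induction D using Finsupp.induction with
  | zero => exact ⟨h0, by rw [map_zero, zero_add]⟩
  | single_add v n D _ _ ih =>
    rw [add_comm]
    exact h42r_good_add_single v (hres v) n D ih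

/-- **Weak Riemann-Roch, Euler characteristic form** (Prelude vocabulary): if the residue
fields, `L(0)` and `H1(0)` are finite-dimensional over `K`, then for every divisor `D` the
spaces `L(D)` and `H1(D)` are finite-dimensional and
`l(D) - i(D) = deg D + l(0) - genusFF`. -/
theorem h42r_euler (hres : ∀ v : Place K F, Module.Finite K v.ResidueField)
    (hL0 : Module.Finite K ↥(riemannRochSpace (0 : Divisor K F)))
    (hH0 : Module.Finite K (H1 (0 : Divisor K F))) (D : Divisor K F) :
    Module.Finite K ↥(riemannRochSpace D) ∧ Module.Finite K (H1 D) ∧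
      (Module.finrank K ↥(riemannRochSpace D) : ℤ) - (Module.finrank K (H1 D) : ℤ) =
        Divisor.degree D + (Module.finrank K ↥(riemannRochSpace (0 : Divisor K F)) : ℤ) -
          (genusFF K F : ℤ) := by
  obtain ⟨⟨h1, h2⟩, h3⟩ := h42r_good hres ⟨hL0, hH0⟩ D
  refine ⟨h1, h2, ?_⟩
  unfold h42rChi at h3
  unfold genusFF
  rw [h3]
  ring

/-- **Riemann's inequality** `l(D) ≥ deg D + l(0) - g` (Prelude vocabulary). -/
theorem h42r_riemann (hres : ∀ v : Place K F, Module.Finite K v.ResidueField)
    (hL0 : Module.Finite K ↥(riemannRochSpace (0 : Divisor K F)))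
    (hH0 : Module.Finite K (H1 (0 : Divisor K F))) (D : Divisor K F) :
    Divisor.degree D + (Module.finrank K ↥(riemannRochSpace (0 : Divisor K F)) : ℤ) -
      (genusFF K F : ℤ) ≤ (Module.finrank K ↥(riemannRochSpace D) : ℤ) := by
  have h := (h42r_euler hres hL0 hH0 D).2.2
  have : (0 : ℤ) ≤ (Module.finrank K (H1 D) : ℤ) := Int.natCast_nonneg _
  linarith

/-- In particular `L(D) ≠ 0` as soon as `deg D + l(0) > g`. -/
theorem h42r_exists_ne_zero (hres : ∀ v : Place K F, Module.Finite K v.ResidueField)
    (hL0 : Module.Finite K ↥(riemannRochSpace (0 : Divisor K F)))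
    (hH0 : Module.Finite K (H1 (0 : Divisor K F))) (D : Divisor K F)
    (hD : (genusFF K F : ℤ) <
      Divisor.degree D + (Module.finrank K ↥(riemannRochSpace (0 : Divisor K F)) : ℤ)) :
    ∃ f : F, f ≠ 0 ∧ f ∈ riemannRochSpace D := by
  have h := h42r_riemann hres hL0 hH0 D
  have hfin := (h42r_euler hres hL0 hH0 D).1
  have hpos : 0 < Module.finrank K ↥(riemannRochSpace D) := by
    have : (0 : ℤ) < (Module.finrank K ↥(riemannRochSpace D) : ℤ) := by linarith
    exact_mod_cast this
  obtain ⟨x, hx⟩ := (Module.finrank_pos_iff_exists_ne_zero (R := K)).mp hpos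
  exact ⟨(x : F), fun h0 => hx (Subtype.ext h0), x.2⟩

/-! ### Monotonicity of `H1` -/

/-- The canonical surjection `H1(D) → H1(D')` for `D ≤ D'`. -/
def h42rH1Map {D D' : Divisor K F} (h : D ≤ D') : H1 D →ₗ[K] H1 D' :=
  Submodule.factor (sup_le_sup_right (repartitionsOf_mono h) _)

theorem h42rH1Map_surjective {D D' : Divisor K F} (h : D ≤ D') :
    Function.Surjective (h42rH1Map h) := by
  intro y
  obtain ⟨c, rfl⟩ := Submodule.mkQ_surjective _ y
  exact ⟨Submodule.mkQ _ c, rfl⟩

/-- `i(D') ≤ i(D)` for `D ≤ D'`. -/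
theorem h42r_finrank_H1_le {D D' : Divisor K F} (h : D ≤ D')
    (hfin : Module.Finite K (H1 D)) :
    Module.finrank K (H1 D') ≤ Module.finrank K (H1 D) :=
  LinearMap.finrank_le_finrank_of_surjective (h42rH1Map_surjective h)

/-- A divisor above a non-special divisor is non-special, and its `l` is given by the
Riemann-Roch formula. -/
theorem h42r_nonspecial_of_le (hres : ∀ v : Place K F, Module.Finite K v.ResidueField)
    (hL0 : Module.Finite K ↥(riemannRochSpace (0 : Divisor K F)))
    (hH0 : Module.Finite K (H1 (0 : Divisor K F))) {D D' : Divisor K F} (h : D ≤ D')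
    (hD : Module.finrank K (H1 D) = 0) :
    Module.finrank K (H1 D') = 0 ∧
      (Module.finrank K ↥(riemannRochSpace D') : ℤ) =
        Divisor.degree D' + (Module.finrank K ↥(riemannRochSpace (0 : Divisor K F)) : ℤ) -
          (genusFF K F : ℤ) := by
  have hfin := (h42r_euler hres hL0 hH0 D).2.1
  have h1 : Module.finrank K (H1 D') = 0 := by
    have := h42r_finrank_H1_le h hfin
    omega
  refine ⟨h1, ?_⟩
  have h2 := (h42r_euler hres hL0 hH0 D').2.2
  rw [h1] at h2
  simpa using h2

end Fermat.Agent.P5
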