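import Mathlib

/-!
# P5 (wave 5, pillar (P)), block ALG-CLOS: closed function algebras on finite sets (helper43)

`A` a valuation subring of a field `K`, `S` a finite set.  Everything is pointwise on `S`.

* `h43c_Small A c f` : the function `f : S → K` has all its values in `c · A`.
* `h43c_closed` : a finitely generated `A`-submodule `B` of `S → K` is `v`-adically closed
  (`A ≠ ⊤`): if for every `c ≠ 0` some `g ∈ B` has `f - g` `c`-small, then `f ∈ B`.
* `h43c_unit_inv` : in an `A`-subalgebra `B` of `S → K`, an element with unit values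
  (`u s ∈ A`, `(u s)⁻¹ ∈ A`) has its pointwise inverse in `B`.
* `h43c_isIntegral`, `h43c_adjoin_fg` : the subalgebra generated by finitely many `A`-valued
  functions is a finitely generated `A`-module.

Mathlib only; nothing is assumed.
-/

set_option autoImplicit false
set_option linter.style.haveILetI false
set_option linter.unusedSimpArgs false

open Polynomial

noncomputable section

namespace Fermat.Agent.P5

variable {K : Type*} [Field K] (A : ValuationSubring K) {S : Type*}

/-- the function `f` has all its values in `c · A`. -/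
def h43c_Small (c : K) (f : S → K) : Prop := ∀ s, ∃ a ∈ A, f s = c * a

variable {A}

theorem h43c_small_zero (c : K) : h43c_Small A c (0 : S → K) :=
  fun _ => ⟨0, A.zero_mem, by simp⟩

theorem h43c_small_add {c : K} {f g : S → K} (hf : h43c_Small A c f) (hg : h43c_Small A c g) :
    h43c_Small A c (f + g) := by
  intro s
  obtain ⟨a, ha, h1⟩ := hf s
  obtain ⟨b, hb, h2⟩ := hg s
  exact ⟨a + b, A.add_mem _ _ ha hb, by rw [Pi.add_apply, h1, h2, mul_add]⟩

theorem h43c_small_neg {c : K} {f : S → K} (hf : h43c_Small A c f) :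
    h43c_Small A c (-f) := by
  intro s
  obtain ⟨a, ha, h1⟩ := hf s
  exact ⟨-a, A.neg_mem _ ha, by rw [Pi.neg_apply, h1, mul_neg]⟩

theorem h43c_small_sub {c : K} {f g : S → K} (hf : h43c_Small A c f) (hg : h43c_Small A c g) :
    h43c_Small A c (f - g) := by
  rw [sub_eq_add_neg]
  exact h43c_small_add hf (h43c_small_neg hg)

theorem h43c_small_mul_left {c : K} {f g : S → K} (hf : h43c_Small A c f)
    (hg : ∀ s, g s ∈ A) : h43c_Small A c (g * f) := by
  intro s
  obtain ⟨a, ha, h1⟩ := hf s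
  exact ⟨g s * a, A.mul_mem _ _ (hg s) ha, by rw [Pi.mul_apply, h1]; ring⟩

theorem h43c_small_of_mul {c d : K} {f : S → K} (hf : h43c_Small A (c * d) f) (hd : d ∈ A) :
    h43c_Small A c f := by
  intro s
  obtain ⟨a, ha, h1⟩ := hf s
  exact ⟨d * a, A.mul_mem _ _ hd ha, by rw [h1]; ring⟩

/-- a nonzero non-unit of `A` when `A ≠ ⊤`. -/
theorem h43c_exists_nonunit (hA : A ≠ ⊤) : ∃ π : K, π ≠ 0 ∧ π ∈ A ∧ π⁻¹ ∉ A := by
  have : ∃ x : K, x ∉ A := by
    by_contra h
    simp only [not_exists, not_not] at h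
    exact hA (eq_top_iff.mpr fun x _ => h x)
  obtain ⟨x, hx⟩ := this
  have hx0 : x ≠ 0 := fun h => hx (h ▸ A.zero_mem)
  refine ⟨x⁻¹, inv_ne_zero hx0, ?_, by rwa [inv_inv]⟩
  rcases A.mem_or_inv_mem x with h | h
  · exact absurd h hx
  · exact h

/-- an element lying in `c · A` for every `c ≠ 0` is zero (`A ≠ ⊤`). -/
theorem h43c_eq_zero_of_forall (hA : A ≠ ⊤) {x : K}
    (h : ∀ c : K, c ≠ 0 → ∃ a ∈ A, x = c * a) : x = 0 := by
  by_contra hx
  obtain ⟨π, hπ0, hπ, hπinv⟩ := h43c_exists_nonunit hA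
  obtain ⟨a, ha, h1⟩ := h (x * π) (mul_ne_zero hx hπ0)
  have h2 : π * a = 1 := by
    have : x * (π * a) = x * 1 := by rw [mul_one]; nth_rewrite 2 [h1]; ring
    exact mul_left_cancel₀ hx this
  have : π⁻¹ = a := inv_eq_of_mul_eq_one_right h2
  exact hπinv (this ▸ ha)

/-- common denominator of finitely many elements of `K`. -/
theorem h43c_common_den {ι : Type*} (T : Finset ι) (m : ι → K) :
    ∃ d : K, d ≠ 0 ∧ d ∈ A ∧ ∀ i ∈ T, d * m i ∈ A := by
  classical
  induction T using Finset.induction_on with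
  | empty => exact ⟨1, one_ne_zero, A.one_mem, by simp⟩
  | insert i T hi ih =>
    obtain ⟨d, hd0, hd, hdT⟩ := ih
    rcases A.mem_or_inv_mem (m i) with h | h
    · refine ⟨d, hd0, hd, ?_⟩
      intro j hj
      rcases Finset.mem_insert.mp hj with rfl | hj
      · exact A.mul_mem _ _ hd h
      · exact hdT j hj
    · by_cases hm : m i = 0
      · refine ⟨d, hd0, hd, ?_⟩
        intro j hj
        rcases Finset.mem_insert.mp hj with rfl | hj
        · rw [hm, mul_zero]; exact A.zero_mem
        · exact hdT j hj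
      · refine ⟨d * (m i)⁻¹, mul_ne_zero hd0 (inv_ne_zero hm), A.mul_mem _ _ hd h, ?_⟩
        intro j hj
        rcases Finset.mem_insert.mp hj with rfl | hj
        · have : d * (m j)⁻¹ * m j = d := by field_simp
          rw [this]; exact hd
        · have : d * (m i)⁻¹ * m j = (m i)⁻¹ * (d * m j) := by ring
          rw [this]; exact A.mul_mem _ _ h (hdT j hj)

/-- **boundedness of linear functionals.** -/
theorem h43c_bounded [Finite S] (L : (S → K) →ₗ[K] K) :
    ∃ d : K, d ≠ 0 ∧ d ∈ A ∧ ∀ (c : K) (x : S → K), h43c_Small A c x →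
      ∃ a ∈ A, d * L x = c * a := by
  classical
  cases nonempty_fintype S
  obtain ⟨d, hd0, hd, hdT⟩ := h43c_common_den (A := A) (Finset.univ : Finset S)
    (fun s => L (fun j => if s = j then 1 else 0))
  refine ⟨d, hd0, hd, ?_⟩
  intro c x hx
  choose a ha hxa using hx
  refine ⟨∑ s, a s * (d * L (fun j => if s = j then 1 else 0)), ?_, ?_⟩
  · exact A.toSubring.sum_mem fun s _ => A.mul_mem _ _ (ha s) (hdT s (Finset.mem_univ s))
  · rw [LinearMap.pi_apply_eq_sum_univ L x, Finset.mul_sum, Finset.mul_sum]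
    refine Finset.sum_congr rfl fun s _ => ?_
    rw [hxa s, smul_eq_mul]
    ring

/-- a finitely generated `A`-submodule of `S → K` is free, with a `K`-linearly independent
basis. -/
theorem h43c_exists_basis (B : Submodule A (S → K)) (hB : B.FG) :
    ∃ (ι : Type) (_ : Fintype ι) (e : ι → (S → K)), (∀ i, e i ∈ B) ∧
      LinearIndependent K e ∧
      ∀ g ∈ B, ∃ a : ι → K, (∀ i, a i ∈ A) ∧ g = ∑ i, a i • e i := by
  classical
  haveI : Module.Finite A B := Module.Finite.iff_fg.mpr hB
  haveI : Module.Flat A B := by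
    rw [Module.Flat.flat_iff_torsion_eq_bot_of_isBezout]
    rw [Submodule.eq_bot_iff]
    intro x hx
    obtain ⟨a, ha⟩ := (Submodule.mem_torsion_iff x).mp hx
    have ha0 : (a : A) ≠ 0 := nonZeroDivisors.coe_ne_zero a
    have h1 : (a : A) • (x : S → K) = 0 := by
      have := congrArg (fun y : B => (y : S → K)) ha
      exact this
    have h2 : (x : S → K) = 0 := by
      funext s
      have h3 := congrFun h1 s
      simp only [Pi.smul_apply, Pi.zero_apply] at h3
      have h4 : ((a : A) : K) * (x : S → K) s = 0 := h3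
      rcases mul_eq_zero.mp h4 with h5 | h5
      · exact absurd (by exact_mod_cast h5) ha0
      · exact h5
    exact Subtype.ext h2
  haveI : Module.Free A B := Module.free_of_flat_of_isLocalRing
  obtain ⟨n, ⟨b⟩⟩ : ∃ n : ℕ, Nonempty (Module.Basis (Fin n) A B) := by
    exact ⟨_, ⟨Module.finBasis A B⟩⟩
  have hliA : LinearIndependent A (fun i => ((b i : B) : S → K)) :=
    b.linearIndependent.map' B.subtype (Submodule.ker_subtype B)
  have hliK : LinearIndependent K (fun i => ((b i : B) : S → K)) :=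
    (LinearIndependent.iff_fractionRing A K).mp hliA
  refine ⟨Fin n, inferInstance, fun i => ((b i : B) : S → K), fun i => (b i).2, hliK, ?_⟩
  intro g hg
  refine ⟨fun i => ((b.repr ⟨g, hg⟩ i : A) : K), fun i => (b.repr ⟨g, hg⟩ i).2, ?_⟩
  have h := b.sum_repr ⟨g, hg⟩
  have h2 := congrArg (fun y : B => (y : S → K)) h
  simp only [Submodule.coe_sum, Submodule.coe_smul] at h2
  exact h2.symm

/-- **finitely generated submodules of `S → K` are `v`-adically closed.** -/
theorem h43c_closed [Finite S] (hA : A ≠ ⊤) (B : Submodule A (S → K)) (hB : B.FG) (f : S → K)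
    (hf : ∀ c : K, c ≠ 0 → ∃ g ∈ B, h43c_Small A c (f - g)) : f ∈ B := by
  classical
  obtain ⟨ι, _, e, heB, hli, hrep⟩ := h43c_exists_basis B hB
  set W : Submodule K (S → K) := Submodule.span K (Set.range e) with hW
  have hBW : ∀ g ∈ B, g ∈ W := by
    intro g hg
    obtain ⟨a, -, rfl⟩ := hrep g hg
    exact Submodule.sum_mem _ fun i _ =>
      Submodule.smul_mem _ _ (Submodule.subset_span ⟨i, rfl⟩)
  have hfW : f ∈ W := by
    by_contra hnot
    obtain ⟨φ, hφf, hφW⟩ := Submodule.exists_dual_map_eq_bot_of_notMem hnot inferInstance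
    have hφ0 : ∀ g ∈ W, φ g = 0 := by
      intro g hg
      have : φ g ∈ W.map φ := Submodule.mem_map_of_mem hg
      rw [hφW] at this
      exact (Submodule.mem_bot K).mp this
    obtain ⟨d, hd0, hd, hbd⟩ := h43c_bounded (A := A) φ
    apply hφf
    have : d * φ f = 0 := by
      apply h43c_eq_zero_of_forall hA
      intro c hc
      obtain ⟨g, hg, hsm⟩ := hf c hc
      obtain ⟨a, ha, h1⟩ := hbd c (f - g) hsm
      refine ⟨a, ha, ?_⟩
      rw [← h1, map_sub, hφ0 g (hBW g hg), sub_zero]
    exact (mul_eq_zero.mp this).resolve_left hd0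
  let bW := Module.Basis.span hli
  obtain ⟨Φ, hΦ⟩ := LinearMap.exists_extend (bW.equivFun : W →ₗ[K] (ι → K))
  have hΦW : ∀ w : W, Φ (w : S → K) = bW.equivFun w := by
    intro w
    have := congrArg (fun F : W →ₗ[K] (ι → K) => F w) hΦ
    simpa using this
  have hbWe : ∀ i, ((bW i : W) : S → K) = e i := by
    intro i
    have := Module.Basis.span_apply hli i
    exact congrArg Subtype.val this
  have hΦe : ∀ i j, Φ (e i) j = if i = j then 1 else 0 := by
    intro i j
    rw [← hbWe i, hΦW (bW i)]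
    simp [Module.Basis.equivFun_self, Pi.single_apply, eq_comm]
  have hcoord : ∀ i, ∃ a ∈ A, Φ f i = a := by
    intro i
    let L : (S → K) →ₗ[K] K := (LinearMap.proj i).comp Φ
    obtain ⟨d, hd0, hd, hbd⟩ := h43c_bounded (A := A) L
    obtain ⟨g, hg, hsm⟩ := hf d hd0
    obtain ⟨a, ha, h1⟩ := hbd d (f - g) hsm
    have h2 : L (f - g) = a := mul_left_cancel₀ hd0 h1
    obtain ⟨c, hc, rfl⟩ := hrep g hg
    have h3 : L (∑ j, c j • e j) = c i := by
      simp only [L, LinearMap.comp_apply, LinearMap.proj_apply, map_sum, map_smul,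
        Finset.sum_apply, Pi.smul_apply, hΦe, smul_eq_mul, mul_ite, mul_one, mul_zero]
      simp
    refine ⟨a + c i, A.add_mem _ _ ha (hc i), ?_⟩
    have h4 : L f = L (f - ∑ j, c j • e j) + L (∑ j, c j • e j) := by
      rw [← map_add]; congr 1; abel
    calc Φ f i = L f := rfl
      _ = a + c i := by rw [h4, h2, h3]
  have hfsum : f = ∑ i, Φ f i • e i := by
    have h1 := bW.sum_equivFun ⟨f, hfW⟩
    have h2 := congrArg (fun y : W => (y : S → K)) h1
    simp only [Submodule.coe_sum, Submodule.coe_smul, hbWe] at h2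
    rw [← hΦW ⟨f, hfW⟩] at h2
    exact h2.symm
  choose a ha hΦa using hcoord
  rw [hfsum]
  refine Submodule.sum_mem _ fun i _ => ?_
  have : Φ f i • e i = (⟨a i, ha i⟩ : A) • e i := by rw [hΦa i]; rfl
  rw [this]
  exact B.smul_mem _ (heB i)

/-! ## Integrality, finite generation, inverses of units -/

/-- the polynomial `∏ (X - x s)` kills the `A`-valued function `x`. -/
theorem h43c_aeval_prod [Fintype S] (x : S → K) (hx : ∀ s, x s ∈ A) :
    aeval x (∏ s : S, (X - C (⟨x s, hx s⟩ : A))) = 0 := by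
  classical
  funext s
  have h1 : (aeval x (∏ s : S, (X - C (⟨x s, hx s⟩ : A)))) s
      = aeval (x s) (∏ s : S, (X - C (⟨x s, hx s⟩ : A))) := by
    have := Polynomial.aeval_algHom_apply (Pi.evalAlgHom A (fun _ : S => K) s) x
      (∏ s : S, (X - C (⟨x s, hx s⟩ : A)))
    simp
  rw [h1, Pi.zero_apply, map_prod]
  refine Finset.prod_eq_zero (Finset.mem_univ s) ?_
  simp only [map_sub, aeval_X, aeval_C]
  exact sub_eq_zero.mpr rfl

/-- an `A`-valued function on a finite set is integral over `A`. -/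
theorem h43c_isIntegral [Finite S] (x : S → K) (hx : ∀ s, x s ∈ A) : IsIntegral A x := by
  classical
  cases nonempty_fintype S
  refine ⟨∏ s : S, (X - C (⟨x s, hx s⟩ : A)), ?_, ?_⟩
  · exact monic_prod_of_monic _ _ fun s _ => monic_X_sub_C _
  · exact h43c_aeval_prod x hx

/-- the elements of the subalgebra generated by `A`-valued functions are `A`-valued. -/
theorem h43c_adjoin_int (G : Set (S → K)) (hGA : ∀ x ∈ G, ∀ s, x s ∈ A) :
    ∀ g ∈ Algebra.adjoin A G, ∀ s, g s ∈ A := by
  intro g hg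
  induction hg using Algebra.adjoin_induction with
  | mem x hx => exact hGA x hx
  | algebraMap r => intro s; exact r.2
  | add x y _ _ hx hy => intro s; exact A.add_mem _ _ (hx s) (hy s)
  | mul x y _ _ hx hy => intro s; exact A.mul_mem _ _ (hx s) (hy s)

/-- the subalgebra generated by finitely many `A`-valued functions is a finitely generated
`A`-module. -/
theorem h43c_adjoin_fg [Finite S] (G : Set (S → K)) (hG : G.Finite)
    (hGA : ∀ x ∈ G, ∀ s, x s ∈ A) : (Subalgebra.toSubmodule (Algebra.adjoin A G)).FG :=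
  fg_adjoin_of_finite hG fun x hx => h43c_isIntegral x (hGA x hx)

/-- **the subalgebra generated by finitely many `A`-valued functions is closed.** -/
theorem h43c_adjoin_closed [Finite S] (hA : A ≠ ⊤) (G : Set (S → K)) (hG : G.Finite)
    (hGA : ∀ x ∈ G, ∀ s, x s ∈ A) (f : S → K)
    (hf : ∀ c : K, c ≠ 0 → ∃ g ∈ Algebra.adjoin A G, h43c_Small A c (f - g)) :
    f ∈ Algebra.adjoin A G :=
  h43c_closed hA (Subalgebra.toSubmodule (Algebra.adjoin A G)) (h43c_adjoin_fg G hG hGA) f hf

/-- **inverse of a unit-valued element** of a subalgebra of `S → K`. -/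
theorem h43c_unit_inv [Finite S] (B : Subalgebra A (S → K)) (u : S → K) (hu : u ∈ B)
    (hval : ∀ s, u s ∈ A) (hinv : ∀ s, (u s)⁻¹ ∈ A) (hne : ∀ s, u s ≠ 0) : u⁻¹ ∈ B := by
  classical
  cases nonempty_fintype S
  set P : A[X] := ∏ s : S, (X - C (⟨u s, hval s⟩ : A)) with hP
  have hPu : aeval u P = 0 := h43c_aeval_prod u hval
  have hsplit : P.divX * X + C (P.coeff 0) = P := Polynomial.divX_mul_X_add P
  have hc0 : P.coeff 0 = ∏ s : S, (-(⟨u s, hval s⟩ : A)) := by
    rw [Polynomial.coeff_zero_eq_eval_zero, hP, Polynomial.eval_prod]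
    refine Finset.prod_congr rfl fun s _ => ?_
    simp
  set c' : A := ∏ s : S, (-(⟨(u s)⁻¹, hinv s⟩ : A)) with hc'
  have hcc : P.coeff 0 * c' = 1 := by
    rw [hc0, hc', ← Finset.prod_mul_distrib]
    refine Finset.prod_eq_one fun s _ => ?_
    apply Subtype.ext
    simp only [neg_mul_neg]
    change u s * (u s)⁻¹ = 1
    exact mul_inv_cancel₀ (hne s)
  have hQ : aeval u P.divX ∈ B := by
    have := Polynomial.aeval_subalgebra_coe P.divX B ⟨u, hu⟩
    rw [← this]
    exact (aeval (⟨u, hu⟩ : B) P.divX).2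
  have h1 : aeval u P.divX * u + algebraMap A (S → K) (P.coeff 0) = 0 := by
    have := congrArg (aeval u) hsplit
    rw [hPu] at this
    simpa using this
  have h2 : u * (-(c' • aeval u P.divX)) = 1 := by
    have h3 : aeval u P.divX * u = -algebraMap A (S → K) (P.coeff 0) :=
      eq_neg_of_add_eq_zero_left h1
    have h4 : algebraMap A (S → K) (P.coeff 0) * algebraMap A (S → K) c' = 1 := by
      rw [← map_mul, hcc, map_one]
    calc u * (-(c' • aeval u P.divX))
        = -(algebraMap A (S → K) c' * (aeval u P.divX * u)) := by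
          rw [Algebra.smul_def]; ring
      _ = 1 := by rw [h3, mul_neg, neg_neg, mul_comm, h4]
  have h5 : u⁻¹ = -(c' • aeval u P.divX) := by
    funext s
    have h6 := congrFun h2 s
    simp only [Pi.mul_apply, Pi.one_apply] at h6
    rw [Pi.inv_apply]
    exact inv_eq_of_mul_eq_one_right h6
  rw [h5]
  exact B.neg_mem (B.smul_mem hQ c')

/-! ## Approximate roots: the Newton iteration inside a closed algebra -/

theorem h43c_small_one_iff {f : S → K} : h43c_Small A 1 f ↔ ∀ s, f s ∈ A := by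
  constructor
  · intro h s
    obtain ⟨a, ha, h1⟩ := h s
    rw [h1, one_mul]; exact ha
  · intro h s
    exact ⟨f s, h s, (one_mul _).symm⟩

theorem h43c_small_mul {c d : K} {f g : S → K} (hf : h43c_Small A c f)
    (hg : h43c_Small A d g) : h43c_Small A (c * d) (f * g) := by
  intro s
  obtain ⟨a, ha, h1⟩ := hf s
  obtain ⟨b, hb, h2⟩ := hg s
  exact ⟨a * b, A.mul_mem _ _ ha hb, by rw [Pi.mul_apply, h1, h2]; ring⟩

theorem h43c_small_mul_int {c : K} {f g : S → K} (hf : h43c_Small A c f)
    (hg : ∀ s, g s ∈ A) : h43c_Small A c (f * g) := by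
  have := h43c_small_mul hf (h43c_small_one_iff.mpr hg)
  rwa [mul_one] at this

theorem h43c_small_int_mul {c : K} {f g : S → K} (hg : ∀ s, g s ∈ A)
    (hf : h43c_Small A c f) : h43c_Small A c (g * f) := by
  rw [mul_comm]; exact h43c_small_mul_int hf hg

theorem h43c_small_of_le {c d : K} {f : S → K} (hf : h43c_Small A (c * d) f) (hd : d ∈ A) :
    h43c_Small A c f := h43c_small_of_mul hf hd

theorem h43c_small_pow_le {ρ : K} (hρ : ρ ∈ A) {m n : ℕ} (hmn : n ≤ m) {f : S → K}
    (hf : h43c_Small A (ρ ^ m) f) : h43c_Small A (ρ ^ n) f := by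
  obtain ⟨k, rfl⟩ := Nat.exists_eq_add_of_le hmn
  rw [pow_add] at hf
  exact h43c_small_of_mul hf (A.pow_mem hρ k)

theorem h43c_small_sum {ι : Type*} (T : Finset ι) {c : K} (f : ι → S → K)
    (hf : ∀ i ∈ T, h43c_Small A c (f i)) : h43c_Small A c (∑ i ∈ T, f i) := by
  classical
  induction T using Finset.induction_on with
  | empty => simpa using h43c_small_zero (A := A) (S := S) c
  | insert i T hi ih =>
    rw [Finset.sum_insert hi]
    exact h43c_small_add (hf i (Finset.mem_insert_self i T))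
      (ih fun j hj => hf j (Finset.mem_insert_of_mem hj))

theorem h43c_int_pow {f : S → K} (hf : ∀ s, f s ∈ A) (n : ℕ) : ∀ s, (f ^ n) s ∈ A := by
  intro s
  rw [Pi.pow_apply]
  exact A.pow_mem (hf s) n

theorem h43c_int_of_small {ρ : K} (hρ : ρ ∈ A) {f : S → K} (hf : h43c_Small A ρ f) :
    ∀ s, f s ∈ A := by
  intro s
  obtain ⟨a, ha, h1⟩ := hf s
  rw [h1]; exact A.mul_mem _ _ hρ ha

/-- the geometric sums `∑_{i<k} y^i g^(k-1-i)`, `k ≠ 1`, are `ρ`-small when `y`, `g` are. -/
theorem h43c_geom_small {ρ : K} (hρ : ρ ∈ A) {y g : S → K} (hy : h43c_Small A ρ y)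
    (hg : h43c_Small A ρ g) (k : ℕ) (hk : k ≠ 1) :
    h43c_Small A ρ (∑ i ∈ Finset.range k, y ^ i * g ^ (k - 1 - i)) := by
  have hyA := h43c_int_of_small hρ hy
  have hgA := h43c_int_of_small hρ hg
  refine h43c_small_sum _ _ fun i hi => ?_
  have hik : i < k := Finset.mem_range.mp hi
  by_cases hi0 : i = 0
  · subst hi0
    have hk2 : k - 1 - 0 = (k - 2) + 1 := by omega
    rw [pow_zero, one_mul, hk2, pow_succ]
    exact h43c_small_int_mul (h43c_int_pow hgA _) hg
  · obtain ⟨j, rfl⟩ : ∃ j, i = j + 1 := ⟨i - 1, by omega⟩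
    rw [pow_succ, mul_assoc]
    refine h43c_small_int_mul (h43c_int_pow hyA _) ?_
    exact h43c_small_mul_int hy (h43c_int_pow hgA _)

/-- **first order expansion with small remainder**: `F(y) - F(g) = (y - g) (a₁ + H)` with
`H` `ρ`-small. -/
theorem h43c_expand {ρ : K} (hρ : ρ ∈ A) (F : Polynomial (S → K))
    (hF : ∀ k s, F.coeff k s ∈ A) {y g : S → K} (hy : h43c_Small A ρ y)
    (hg : h43c_Small A ρ g) :
    ∃ H : S → K, h43c_Small A ρ H ∧
      F.eval y - F.eval g = (y - g) * (F.coeff 1 + H) := by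
  classical
  set n := F.natDegree + 2 with hn
  have hlt : F.natDegree < n := by omega
  set G : ℕ → S → K := fun k => ∑ i ∈ Finset.range k, y ^ i * g ^ (k - 1 - i) with hG
  refine ⟨∑ k ∈ Finset.range n, (if k = 1 then 0 else F.coeff k * G k), ?_, ?_⟩
  · refine h43c_small_sum _ _ fun k _ => ?_
    by_cases hk : k = 1
    · rw [if_pos hk]; exact h43c_small_zero ρ
    · rw [if_neg hk]
      exact h43c_small_int_mul (hF k) (h43c_geom_small hρ hy hg k hk)
  · have h1 : F.eval y - F.eval g = ∑ k ∈ Finset.range n, F.coeff k * (G k * (y - g)) := by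
      rw [Polynomial.eval_eq_sum_range' hlt, Polynomial.eval_eq_sum_range' hlt,
        ← Finset.sum_sub_distrib]
      refine Finset.sum_congr rfl fun k _ => ?_
      rw [hG]
      simp only
      rw [(Commute.all y g).geom_sum₂_mul, mul_sub]
    have h2 : ∑ k ∈ Finset.range n, F.coeff k * G k
        = F.coeff 1 + ∑ k ∈ Finset.range n, (if k = 1 then 0 else F.coeff k * G k) := by
      have h1n : 1 ∈ Finset.range n := Finset.mem_range.mpr (by omega)
      rw [← Finset.add_sum_erase _ _ h1n, ← Finset.add_sum_erase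
        (f := fun k => if k = 1 then 0 else F.coeff k * G k) _ h1n]
      have hG1 : G 1 = 1 := by simp [hG]
      rw [hG1, mul_one, if_pos rfl, zero_add]
      congr 1
      refine Finset.sum_congr rfl fun k hk => ?_
      rw [if_neg (Finset.ne_of_mem_erase hk)]
    rw [h1, ← h2, Finset.mul_sum]
    refine Finset.sum_congr rfl fun k _ => ?_
    ring

/-- one step of the simplified Newton iteration `g ↦ g - a₁⁻¹ F(g)`. -/
theorem h43c_step {ρ : K} (hρ : ρ ∈ A) (F : Polynomial (S → K))
    (hF : ∀ k s, F.coeff k s ∈ A) (w : S → K) (hw : ∀ s, w s ∈ A)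
    (hwa : w * F.coeff 1 = 1) {y g : S → K} (hy : h43c_Small A ρ y)
    (hg : h43c_Small A ρ g) {n : ℕ} (hyg : h43c_Small A (ρ ^ n) (y - g))
    (hFy : h43c_Small A (ρ ^ (n + 1)) (F.eval y)) :
    h43c_Small A (ρ ^ (n + 1)) (y - (g - w * F.eval g)) := by
  obtain ⟨H, hH, hexp⟩ := h43c_expand hρ F hF hy hg
  have key : y - (g - w * F.eval g) = w * F.eval y - w * ((y - g) * H) := by
    have h0 : F.eval g = F.eval y - (y - g) * (F.coeff 1 + H) := by rw [← hexp]; ring
    have h1 : w * ((y - g) * (F.coeff 1 + H))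
        = (y - g) * (w * F.coeff 1) + w * ((y - g) * H) := by ring
    rw [h0, mul_sub, h1, hwa]
    ring
  rw [key]
  refine h43c_small_sub (h43c_small_int_mul hw hFy) (h43c_small_int_mul hw ?_)
  have := h43c_small_mul hyg hH
  rwa [← pow_succ] at this

theorem h43c_eval_mem (B : Subalgebra A (S → K)) (F : Polynomial (S → K))
    (hF : ∀ k, F.coeff k ∈ B) {g : S → K} (hg : g ∈ B) : F.eval g ∈ B := by
  rw [Polynomial.eval_eq_sum_range]
  exact B.sum_mem fun k _ => B.mul_mem (hF k) (B.pow_mem hg k)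

/-- **approximate simple roots lie in a closed algebra.**  `B` a subalgebra of `S → K`, finitely
generated as a module, `A`-valued; `y` a `ρ`-small function, `ρ` a nonzero non-unit of `A`, `A` of
rank one.  If for every `m` some polynomial `F` over `B` with unit-valued linear coefficient has
`F(y)` `ρ ^ m`-small, then `y ∈ B`. -/
theorem h43c_root_mem [Finite S]
    (harch : ∀ c ∈ IsLocalRing.maximalIdeal A, c ≠ 0 → ∀ a : A, a ≠ 0 → ∃ k : ℕ, a ∣ c ^ k)
    (B : Subalgebra A (S → K)) (hBfg : (Subalgebra.toSubmodule B).FG)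
    (hBint : ∀ g ∈ B, ∀ s, g s ∈ A)
    (ρ : K) (hρ0 : ρ ≠ 0) (hρA : ρ ∈ A) (hρ : ρ⁻¹ ∉ A)
    (y : S → K) (hy : h43c_Small A ρ y)
    (hF : ∀ m : ℕ, ∃ F : Polynomial (S → K), (∀ k, F.coeff k ∈ B) ∧
      (∀ s, (F.coeff 1 s)⁻¹ ∈ A) ∧ (∀ s, F.coeff 1 s ≠ 0) ∧
      h43c_Small A (ρ ^ m) (F.eval y)) :
    y ∈ B := by
  classical
  have hA : A ≠ ⊤ := by
    intro h
    exact hρ (h ▸ (Set.mem_univ _ : ρ⁻¹ ∈ (⊤ : ValuationSubring K)))
  -- approximations
  have happ : ∀ m : ℕ, ∃ g ∈ B, h43c_Small A (ρ ^ (m + 1)) (y - g) := by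
    intro m
    obtain ⟨F, hFB, hFinv, hFne, hFy⟩ := hF (m + 1)
    have hFA : ∀ k s, F.coeff k s ∈ A := fun k => hBint _ (hFB k)
    have hwB : (F.coeff 1)⁻¹ ∈ B :=
      h43c_unit_inv B (F.coeff 1) (hFB 1) (hFA 1) hFinv hFne
    have hwa : (F.coeff 1)⁻¹ * F.coeff 1 = 1 := by
      funext s
      rw [Pi.mul_apply, Pi.inv_apply, Pi.one_apply]
      exact inv_mul_cancel₀ (hFne s)
    have hind : ∀ n : ℕ, n ≤ m → ∃ g ∈ B, h43c_Small A (ρ ^ (n + 1)) (y - g) := by
      intro n
      induction n with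
      | zero =>
        intro _
        refine ⟨0, B.zero_mem, ?_⟩
        rw [sub_zero, zero_add, pow_one]
        exact hy
      | succ n ih =>
        intro hn
        obtain ⟨g, hgB, hyg⟩ := ih (by omega)
        have hg : h43c_Small A ρ g := by
          have h1 : h43c_Small A ρ (y - g) := by
            have := h43c_small_pow_le (n := 1) hρA (by omega) hyg
            rwa [pow_one] at this
          have h2 : g = y - (y - g) := by ring
          rw [h2]
          exact h43c_small_sub hy h1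
        refine ⟨g - (F.coeff 1)⁻¹ * F.eval g,
          B.sub_mem hgB (B.mul_mem hwB (h43c_eval_mem B F hFB hgB)), ?_⟩
        exact h43c_step hρA F hFA _ (hBint _ hwB) hwa hy hg hyg
          (h43c_small_pow_le hρA (by omega) hFy)
    exact hind m le_rfl
  -- closedness
  refine h43c_closed hA (Subalgebra.toSubmodule B) hBfg y ?_
  intro c hc
  by_cases hcA : c ∈ A
  · have hρmax : (⟨ρ, hρA⟩ : A) ∈ IsLocalRing.maximalIdeal A := by
      rw [IsLocalRing.mem_maximalIdeal, mem_nonunits_iff]
      rintro ⟨u, hu⟩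
      apply hρ
      have h1 : ((u⁻¹ : Aˣ) : A) * (⟨ρ, hρA⟩ : A) = 1 := by rw [← hu]; exact u.inv_mul
      have h2 : (((u⁻¹ : Aˣ) : A) : K) * ρ = 1 := by
        have := congrArg (fun z : A => (z : K)) h1
        simpa using this
      have h3 : ρ⁻¹ = (((u⁻¹ : Aˣ) : A) : K) := by
        rw [inv_eq_iff_eq_inv]
        exact (inv_eq_of_mul_eq_one_right h2).symm ▸ rfl
      rw [h3]
      exact ((u⁻¹ : Aˣ) : A).2
    obtain ⟨k, a, hka⟩ := harch ⟨ρ, hρA⟩ hρmax (fun h => hρ0 (congrArg Subtype.val h))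
      ⟨c, hcA⟩ (fun h => hc (congrArg Subtype.val h))
    have hk : ρ ^ k = c * (a : K) := by
      have := congrArg (fun z : A => (z : K)) hka
      simpa using this
    obtain ⟨g, hgB, hsm⟩ := happ k
    refine ⟨g, hgB, ?_⟩
    have h1 := h43c_small_pow_le (n := k) hρA (by omega) hsm
    rw [hk] at h1
    exact h43c_small_of_mul h1 a.2
  · have hcinv : c⁻¹ ∈ A := (A.mem_or_inv_mem c).resolve_left hcA
    obtain ⟨g, hgB, hsm⟩ := happ 0
    refine ⟨g, hgB, ?_⟩
    have h1 := h43c_small_pow_le (n := 0) hρA (by omega) hsm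
    rw [pow_zero] at h1
    have h2 : (1 : K) = c * c⁻¹ := (mul_inv_cancel₀ hc).symm
    rw [h2] at h1
    exact h43c_small_of_mul h1 hcinv

end Fermat.Agent.P5
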