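import Fermat.Agent.P5.H44LinkTools
import Fermat.Agent.P5.H38LinkIface
import Fermat.Agent.P5.H37DiscChar
import Fermat.Agent.Red.GV.BarGalois

/-!
# P5 (wave 5, S19), block GEO-LINK (helper44): the unit jet determinant and the unit derivative

`M` a good level, `A` over `ℓ`, `r` the reduction map of places (`H13sIsRed A M r`), discs
`H37DiscAt A Q t O` with `O ⊆ gaussV A M` (`H37DiscChar.O_gauss`).

* `h44l_disc_red_factor` : `f - a = t h` in `O`, `a ∈ 𝔪_A` `⟹ f̃ = t̃ h̃`.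
* `h44l_disc_ord_two` : `f(Q) ∈ 𝔪_A`, `f - f(Q) = t h`, `h(Q) ∈ 𝔪_A`, `f̃ ≠ 0`
  `⟹ 2 ≤ ord_{r Q} f̃` ("`t² h` has two zeros in the disc").
* `h44l_bsder` : **(L3)** the last component of `H4sLinkRaw` (unit derivative of `bs` at a centre
  of `c'`), per centre.
* `h44l_red_mem_L` : the reduction of a Gauss-integral element of `L(E)` lies in `L(r_* E)`.
* `h44l_N0_unit` : **(L2)** the jet matrix has unit determinant.
-/

set_option autoImplicit false

open AlgebraicCurve ModularCurve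

noncomputable section

namespace Fermat.Agent.P5

open Fermat.Agent.S37 Fermat.Agent.Red.GV Fermat.Agent.Red.Match Fermat.Agent.Red.Nz

variable {M : ℕ} {A : ValuationSubring Kbar} {ℓ : ℕ}

/-! ### Small facts -/

theorem h44l_cst_zero : cst M (0 : Kbar) = 0 := map_zero _

theorem h44l_red_congr {z z' : FF M} (h : z ∈ gaussV A M) (h' : z' ∈ gaussV A M) (e : z = z') :
    h13sRed A M ⟨z, h⟩ = h13sRed A M ⟨z', h'⟩ := by
  subst e; rfl

/-- the reduction of a constant of `𝔪_A` is zero. -/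
theorem h44l_red_cst_small (hA : A.LiesOverPrime ℓ) (a : Kbar) (ha : a ∈ A.nonunits)
    (h : cst M a ∈ gaussV A M) : h13sRed A M ⟨cst M a, h⟩ = 0 :=
  (h44l_red_eq_zero_iff _).mpr (gaussR_cst_of_nonunit A M hA a ha h)

/-- an element of `A` which is not in `𝔪_A` is a unit. -/
theorem h44l_unit_of_not_nonunit (d : Kbar) (hd : d ∉ A.nonunits) : d ≠ 0 ∧ d⁻¹ ∈ A := by
  rw [ValuationSubring.mem_nonunits_iff, not_lt] at hd
  constructor
  · rintro rfl
    rw [map_zero] at hd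
    exact absurd hd (not_le.mpr zero_lt_one)
  · rw [← A.valuation_le_one_iff, map_inv₀]
    exact inv_le_one_of_one_le₀ hd

variable [NeZero M]

/-! ### The disc calculus modulo `𝔪_A` -/

section Disc

variable {Q : Place Kbar (FF M)} {t : FF M} {O : Subring (FF M)}

omit [NeZero M] in
/-- `f - a = t h`, `a ∈ 𝔪_A` `⟹ f̃ = t̃ h̃`. -/
theorem h44l_disc_red_factor (hA : A.LiesOverPrime ℓ)
    (hOV : ∀ f ∈ O, f ∈ gaussV A M) (ht : t ∈ O)
    (f : FF M) (hf : f ∈ O) (a : Kbar) (ha : a ∈ A.nonunits)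
    (h : FF M) (hh : h ∈ O) (hfh : f - cst M a = t * h) :
    h13sRed A M ⟨f, hOV f hf⟩ =
      h13sRed A M ⟨t, hOV t ht⟩ * h13sRed A M ⟨h, hOV h hh⟩ := by
  have haA : a ∈ A := ValuationSubring.nonunits_subset ha
  have hc : cst M a ∈ gaussV A M := h89_cst_mem_gaussV (⟨a, haA⟩ : A)
  have e : f = cst M a + t * h := by rw [← hfh]; ring
  have h1 : h13sRed A M ⟨f, hOV f hf⟩ =
      h13sRed A M ((⟨cst M a, hc⟩ : gaussV A M) + ⟨t, hOV t ht⟩ * ⟨h, hOV h hh⟩) :=
    h44l_red_congr _ _ e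
  rw [h1, h44l_red_add, h44l_red_mul, h44l_red_cst_small hA a ha hc, zero_add]

/-- **"`t² h` has two zeros in the disc".** -/
theorem h44l_disc_ord_two (hℓ : ℓ.Prime) (hM : ¬ ℓ ∣ M) (hA : A.LiesOverPrime ℓ)
    (r : Place Kbar (FF M) → Place (h13sK A) (h13sFt A M)) (hr : H13sIsRed A M r)
    (hd : H37DiscAt A Q t O) (hOV : ∀ f ∈ O, f ∈ gaussV A M)
    (f : FF M) (hf : f ∈ O) (a : Kbar) (ha : a ∈ A.nonunits)
    (h : FF M) (hh : h ∈ O) (hfh : f - cst M a = t * h)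
    (a' : Kbar) (ha' : a' ∈ A.nonunits) (hha' : ValueAt Q h a')
    (hne : h13sRed A M ⟨f, hOV f hf⟩ ≠ 0) :
    2 ≤ (r Q).ord (h13sRed A M ⟨f, hOV f hf⟩) := by
  obtain ⟨h', hh', e'⟩ := hd.O_div h hh Q hd.refl a' 0 hha' hd.t_zero
  have e'' : h - cst M a' = t * h' := by
    rw [e', h44l_cst_zero, sub_zero]
  have h1 := h44l_disc_red_factor hA hOV hd.O_t f hf a ha h hh hfh
  have h2 := h44l_disc_red_factor hA hOV hd.O_t h hh a' ha' h' hh' e''
  rw [h1] at hne ⊢
  have ht0 : h13sRed A M ⟨t, hOV t hd.O_t⟩ ≠ 0 := left_ne_zero_of_mul hne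
  have hh0 : h13sRed A M ⟨h, hOV h hh⟩ ≠ 0 := right_ne_zero_of_mul hne
  rw [h2] at hh0 ⊢
  have hh'0 : h13sRed A M ⟨h', hOV h' hh'⟩ ≠ 0 := right_ne_zero_of_mul hh0
  rw [Place.ord_mul _ ht0 hh0, Place.ord_mul _ ht0 hh'0]
  have k1 := h44l_disc_ord_t hℓ hM hA r hr hd (hOV t hd.O_t) ht0
  have k2 := h44l_disc_ord_nonneg hℓ hM hA r hr hd h' hh' (hOV h' hh')
  omega

omit [NeZero M] in
/-- a function with positive order at `Q` takes the value `0` at `Q`. -/
theorem h44l_valueAt_zero_of_ord_pos (P : Place Kbar (FF M)) (f : FF M) (h : 0 < P.ord f) :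
    ValueAt P f 0 := by
  unfold ValueAt
  rw [h44l_cst_zero, sub_zero]
  have hmem : f ∈ P.toValuationSubring :=
    Fermat.Agent.S24.DiffPlace.mem_of_ord_nonneg P h.le
  rw [P.toValuationSubring.mem_nonunits_iff_exists_mem_maximalIdeal]
  exact ⟨hmem, Fermat.Agent.S24.DiffPlace.mem_maximalIdeal_of_ord_pos P (z := ⟨f, hmem⟩) h⟩

/-- **(L3)** the unit derivative of `bs` at a centre: `bs` a Gauss unit of `O` with a simple
zero at `Q` and no other zero in the disc of `Q`. -/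
theorem h44l_bsder (hℓ : ℓ.Prime) (hM : ¬ ℓ ∣ M) (hA : A.LiesOverPrime ℓ)
    (r : Place Kbar (FF M) → Place (h13sK A) (h13sFt A M)) (hr : H13sIsRed A M r)
    (hd : H37DiscAt A Q t O) (hOV : ∀ f ∈ O, f ∈ gaussV A M)
    (bs : FF M) (hbs : bs ∈ O) (hbsi : bs⁻¹ ∈ gaussV A M) (hbs0 : bs ≠ 0)
    (hordQ : Q.ord bs = 1)
    (hord : ∀ P : Place Kbar (FF M), SameRed A P Q → P ≠ Q → P.ord bs = 0) :
    ∃ h ∈ O, ∃ d : Kbar, bs = t * h ∧ ValueAt Q h d ∧ d ≠ 0 ∧ d⁻¹ ∈ A := by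
  classical
  have hv0 : ValueAt Q bs 0 := h44l_valueAt_zero_of_ord_pos Q bs (by omega)
  obtain ⟨h, hh, e⟩ := hd.O_div bs hbs Q hd.refl 0 0 hv0 hd.t_zero
  have e' : bs - cst M 0 = t * h := by rw [e, h44l_cst_zero, sub_zero]
  have e'' : bs = t * h := by rw [← e', h44l_cst_zero, sub_zero]
  obtain ⟨d, hdA, hval⟩ := hd.O_val h hh Q hd.refl
  refine ⟨h, hh, d, e'', hval, ?_⟩
  by_contra hcon
  have hdn : d ∈ A.nonunits := by
    by_contra hdn
    exact hcon (h44l_unit_of_not_nonunit d hdn)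
  have h0n : (0 : Kbar) ∈ A.nonunits := by
    rw [ValuationSubring.mem_nonunits_iff, map_zero]; exact zero_lt_one
  have hne : h13sRed A M ⟨bs, hOV bs hbs⟩ ≠ 0 := by
    rw [Ne, h44l_red_eq_zero_iff, gaussR_eq_zero_iff A M hℓ hM hA, not_or, not_not]
    exact ⟨hbs0, hbsi⟩
  have h2 := h44l_disc_ord_two hℓ hM hA r hr hd hOV bs hbs 0 h0n h hh e' d hdn hval hne
  have h1 := h44l_ord_red r hr bs (hOV bs hbs) hbsi hbs0 Q {Q}
    (fun P hP => by rw [Finset.mem_singleton] at hP; rw [hP]; exact hd.refl)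
    (fun P hP hne => by
      rw [Finset.mem_singleton]
      by_contra hPQ
      exact hne (hord P hP hPQ))
  rw [Finset.sum_singleton, hordQ] at h1
  omega

end Disc

/-! ### Push-forward of divisors -/

section Push

open Classical in
omit [NeZero M] in
theorem h44l_push_apply (r : Place Kbar (FF M) → Place (h13sK A) (h13sFt A M))
    (D : Divisor Kbar (FF M)) (w : Place (h13sK A) (h13sFt A M)) :
    h13sPush r D w = ∑ v ∈ D.support, if r v = w then D v else 0 := by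
  unfold h13sPush
  rw [Finsupp.mapDomain, Finsupp.sum_apply, Finsupp.sum]
  simp only [Finsupp.single_apply]

omit [NeZero M] in
theorem h44l_push_nonneg (r : Place Kbar (FF M) → Place (h13sK A) (h13sFt A M))
    (D : Divisor Kbar (FF M)) (hD : 0 ≤ D) (w : Place (h13sK A) (h13sFt A M)) :
    0 ≤ h13sPush r D w := by
  classical
  rw [h44l_push_apply]
  refine Finset.sum_nonneg fun v _ => ?_
  split_ifs
  · exact hD v
  · exact le_rfl

omit [NeZero M] in
theorem h44l_push_add (r : Place Kbar (FF M) → Place (h13sK A) (h13sFt A M))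
    (D D' : Divisor Kbar (FF M)) : h13sPush r (D + D') = h13sPush r D + h13sPush r D' :=
  Finsupp.mapDomain_add

open Classical in
omit [NeZero M] in
theorem h44l_push_sum {g : ℕ} (r : Place Kbar (FF M) → Place (h13sK A) (h13sFt A M))
    (Q : Fin g → Place Kbar (FF M)) (w : Place (h13sK A) (h13sFt A M)) :
    h13sPush r (h38lSum Q) w = ∑ i, if r (Q i) = w then (1 : ℤ) else 0 := by
  unfold h13sPush h38lSum
  rw [← Finsupp.mapDomain.addMonoidHom_apply, map_sum, Finsupp.finsetSum_apply]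
  refine Finset.sum_congr rfl fun i _ => ?_
  rw [Finsupp.mapDomain.addMonoidHom_apply, Finsupp.mapDomain_single, Finsupp.single_apply]

/-- the reduction of a Gauss-integral element of `L(E)` lies in `L(r_* E)`. -/
theorem h44l_red_mem_L (hℓ : ℓ.Prime) (hM : ¬ ℓ ∣ M) (hA : A.LiesOverPrime ℓ)
    (r : Place Kbar (FF M) → Place (h13sK A) (h13sFt A M)) (hr : H13sIsRed A M r)
    (E : Divisor Kbar (FF M)) (f : FF M) (hf : f ∈ gaussV A M)
    (hfE : f ∈ riemannRochSpace E) :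
    h13sRed A M ⟨f, hf⟩ ∈ riemannRochSpace (h13sPush r E) := by
  rw [mem_riemannRochSpace_iff]
  intro w
  by_cases hne : h13sRed A M ⟨f, hf⟩ = 0
  · exact Or.inl hne
  right
  obtain ⟨hf0, hfi⟩ := h44l_unit_of_red_ne_zero hℓ hM hA f hf hne
  obtain ⟨D, hD, -⟩ := (h13g_gBase M).pd f hf0
  have h1 := hr.2.2 f hf hfi D hD w
  rw [← h1]
  have h0 : 0 ≤ D + E := by
    intro v
    rw [Finsupp.add_apply, hD v]
    have := (mem_riemannRochSpace_iff.mp hfE v).resolve_left hf0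
    simp only [Finsupp.coe_zero, Pi.zero_apply]
    omega
  have h2 := h44l_push_nonneg r (D + E) h0 w
  rw [h44l_push_add, Finsupp.add_apply] at h2
  omega

end Push

/-! ### The jet matrix -/

section Jets

variable {g : ℕ}

omit [NeZero M] in
theorem h44l_valueAt_sum {ι : Type} (s : Finset ι) (P : Place Kbar (FF M)) (F : ι → FF M)
    (a : ι → Kbar) (h : ∀ j ∈ s, ValueAt P (F j) (a j)) :
    ValueAt P (∑ j ∈ s, F j) (∑ j ∈ s, a j) := by
  classical
  induction s using Finset.induction_on with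
  | empty =>
    rw [Finset.sum_empty, Finset.sum_empty]
    exact Fermat.Agent.Red.Match.valueAt_zero P
  | insert j s hj ih =>
    rw [Finset.sum_insert hj, Finset.sum_insert hj]
    exact Fermat.Agent.Red.Match.valueAt_add (h j (Finset.mem_insert_self _ _))
      (ih fun k hk => h k (Finset.mem_insert_of_mem hk))

omit [NeZero M] in
theorem h44l_red_sum {ι : Type} (s : Finset ι) (F : ι → gaussV A M) :
    h13sRed A M (∑ j ∈ s, F j) = ∑ j ∈ s, h13sRed A M (F j) := by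
  classical
  induction s using Finset.induction_on with
  | empty =>
    rw [Finset.sum_empty, Finset.sum_empty]
    exact h44l_red_zero
  | insert j s hj ih =>
    rw [Finset.sum_insert hj, Finset.sum_insert hj, h44l_red_add, ih]

/-- **(L2), the special-fibre step**: a Gauss-integral element `f` of `L(E₀)` whose value and
first jet at every centre of `c` lie in `𝔪_A` has reduction in `k · b̃s`. -/
theorem h44l_red_mem_line (hℓ : ℓ.Prime) (hM : ¬ ℓ ∣ M) (hA : A.LiesOverPrime ℓ)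
    (r : Place Kbar (FF M) → Place (h13sK A) (h13sFt A M)) (hr : H13sIsRed A M r)
    (c c' : H96Chart M g)
    (hd : ∀ i, H37DiscAt A (c.Q i) (c.t i) (c.O i))
    (hOV : ∀ i, ∀ f ∈ c.O i, f ∈ gaussV A M)
    (hQ : ∀ i j, SameRed A (c.Q i) (c.Q j) → i = j)
    {E₀ : Divisor Kbar (FF M)} {bs : FF M}
    (hE₀ : 0 ≤ E₀) (hbs0 : bs ≠ 0)
    (hbs_ord : ∀ v : Place Kbar (FF M), v.ord bs = h38lD c c' v - E₀ v)
    (hbsV : bs ∈ gaussV A M) (hbsi : bs⁻¹ ∈ gaussV A M)
    (hdim1 : h13rL (h13sK A) (h13sFt A M) (h13sPush r (h38lSum c'.Q)) = 1)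
    (f : FF M) (hfV : f ∈ gaussV A M) (hfL : f ∈ riemannRochSpace E₀)
    (hjet : ∀ i, ∃ _ : f ∈ c.O i, ∃ a ∈ A.nonunits, ∃ h ∈ c.O i, f - cst M a = c.t i * h ∧
      ∃ a' ∈ A.nonunits, ValueAt (c.Q i) h a') :
    ∃ κ : h13sK A, h13sRed A M ⟨f, hfV⟩ =
      algebraMap (h13sK A) (h13sFt A M) κ * h13sRed A M ⟨bs, hbsV⟩ := by
  classical
  by_cases hfne : h13sRed A M ⟨f, hfV⟩ = 0
  · exact ⟨0, by rw [hfne, map_zero, zero_mul]⟩
  have hbt0 : h13sRed A M ⟨bs, hbsV⟩ ≠ 0 := by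
    rw [Ne, h44l_red_eq_zero_iff, gaussR_eq_zero_iff A M hℓ hM hA, not_or, not_not]
    exact ⟨hbs0, hbsi⟩
  -- the divisor of `b̃s`
  have hbt_ord : ∀ w : Place (h13sK A) (h13sFt A M),
      w.ord (h13sRed A M ⟨bs, hbsV⟩) =
        2 * h13sPush r (h38lSum c.Q) w + h13sPush r (h38lSum c'.Q) w - h13sPush r E₀ w := by
    intro w
    have h1 := hr.2.2 bs hbsV hbsi (h38lD c c' - E₀)
      (fun v => by rw [Finsupp.sub_apply]; exact (hbs_ord v).symm) w
    have h2 : h13sPush r (h38lD c c' - E₀) w + h13sPush r E₀ w = h13sPush r (h38lD c c') w := by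
      rw [← Finsupp.add_apply, ← h44l_push_add, sub_add_cancel]
    have h3 : h13sPush r (h38lD c c') w =
        h13sPush r (h38lSum c.Q) w + h13sPush r (h38lSum c.Q) w + h13sPush r (h38lSum c'.Q) w := by
      unfold h38lD
      rw [h44l_push_add, h44l_push_add, Finsupp.add_apply, Finsupp.add_apply]
    omega
  -- the quotient lies in `L(r_* D₁)`
  have hy : h13sRed A M ⟨f, hfV⟩ * (h13sRed A M ⟨bs, hbsV⟩)⁻¹ ∈
      riemannRochSpace (h13sPush r (h38lSum c'.Q)) := by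
    rw [mem_riemannRochSpace_iff]
    intro w
    right
    rw [Place.ord_mul _ hfne (inv_ne_zero hbt0), Place.ord_inv, hbt_ord w]
    have hE := h44l_push_nonneg r E₀ hE₀ w
    obtain ⟨v0, rfl⟩ := hr.1 w
    by_cases hcase : ∃ i, SameRed A v0 (c.Q i)
    · obtain ⟨i, hi⟩ := hcase
      have hw : r v0 = r (c.Q i) := (hr.2.1 _ _).mpr hi
      rw [hw] at hE ⊢
      obtain ⟨hfO, a, ha, h, hh, hfh, a', ha', hha'⟩ := hjet i
      have h2 := h44l_disc_ord_two hℓ hM hA r hr (hd i) (hOV i) f hfO a ha h hh hfh a' ha' hha'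
        hfne
      have h3 : h13sPush r (h38lSum c.Q) (r (c.Q i)) = 1 := by
        rw [h44l_push_sum, Finset.sum_eq_single i]
        · rw [if_pos rfl]
        · intro j _ hji
          rw [if_neg]
          intro hj
          exact hji (hQ j i ((hr.2.1 _ _).mp hj))
        · intro hi'
          exact absurd (Finset.mem_univ i) hi'
      omega
    · have h3 : h13sPush r (h38lSum c.Q) (r v0) = 0 := by
        rw [h44l_push_sum]
        refine Finset.sum_eq_zero fun j _ => ?_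
        rw [if_neg]
        intro hj
        exact hcase ⟨j, (hr.2.1 _ _).mp hj.symm⟩
      have h4 := (mem_riemannRochSpace_iff.mp (h44l_red_mem_L hℓ hM hA r hr E₀ f hfV hfL)
        (r v0)).resolve_left hfne
      omega
  -- `1 ∈ L(r_* D₁)`
  have hone : (1 : h13sFt A M) ∈ riemannRochSpace (h13sPush r (h38lSum c'.Q)) := by
    rw [mem_riemannRochSpace_iff]
    intro w
    right
    rw [Place.ord_one]
    have h1 : 0 ≤ h13sPush r (h38lSum c'.Q) w := by
      rw [h44l_push_sum]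
      refine Finset.sum_nonneg fun j _ => ?_
      split_ifs
      · exact zero_le_one
      · exact le_rfl
    omega
  have hone0 : (⟨1, hone⟩ : riemannRochSpace (h13sPush r (h38lSum c'.Q))) ≠ 0 := by
    intro h
    have := congrArg Subtype.val h
    exact one_ne_zero this
  obtain ⟨κ, hκ⟩ := (finrank_eq_one_iff_of_nonzero' _ hone0).mp hdim1 ⟨_, hy⟩
  refine ⟨κ, ?_⟩
  have h5 : κ • (1 : h13sFt A M) =
      h13sRed A M ⟨f, hfV⟩ * (h13sRed A M ⟨bs, hbsV⟩)⁻¹ := congrArg Subtype.val hκ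
  have h6 : algebraMap (h13sK A) (h13sFt A M) κ =
      h13sRed A M ⟨f, hfV⟩ * (h13sRed A M ⟨bs, hbsV⟩)⁻¹ := by
    rw [← h5, Algebra.smul_def, mul_one]
  rw [h6, mul_assoc, inv_mul_cancel₀ hbt0, mul_one]

omit [NeZero M] in
theorem h44l_comb_mem {ι : Type} (s : Finset ι) (v : ι → A) (b : ι → FF M)
    (hb : ∀ j, b j ∈ gaussV A M) : ∑ j ∈ s, cst M (v j : Kbar) * b j ∈ gaussV A M :=
  Subring.sum_mem _ fun j _ => Subring.mul_mem _ (h89_cst_mem_gaussV (v j)) (hb j)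

omit [NeZero M] in
/-- the reduction of an `A`-combination of Gauss-integral functions. -/
theorem h44l_comb_red {ι : Type} (s : Finset ι) (v : ι → A) (b : ι → FF M)
    (hb : ∀ j, b j ∈ gaussV A M) :
    h13sRed A M ⟨∑ j ∈ s, cst M (v j : Kbar) * b j, h44l_comb_mem s v b hb⟩ =
      ∑ j ∈ s, algebraMap (h13sK A) (h13sFt A M) (h13sPi A (v j)) *
        h13sRed A M ⟨b j, hb j⟩ := by
  classical
  induction s using Finset.induction_on with
  | empty =>
    refine (h44l_red_congr _ (Subring.zero_mem _) Finset.sum_empty).trans ?_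
    rw [Finset.sum_empty]
    exact h44l_red_zero
  | insert j s hj ih =>
    have e : ∑ x ∈ insert j s, cst M (v x : Kbar) * b x =
        cst M (v j : Kbar) * b j + ∑ x ∈ s, cst M (v x : Kbar) * b x := Finset.sum_insert hj
    have hm : cst M (v j : Kbar) * b j + ∑ x ∈ s, cst M (v x : Kbar) * b x ∈ gaussV A M :=
      Subring.add_mem _ (Subring.mul_mem _ (h89_cst_mem_gaussV (v j)) (hb j))
        (h44l_comb_mem s v b hb)
    refine (h44l_red_congr _ hm e).trans ?_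
    rw [Finset.sum_insert hj, ← ih]
    have h1 := h44l_red_add (⟨cst M (v j : Kbar) * b j,
      Subring.mul_mem _ (h89_cst_mem_gaussV (v j)) (hb j)⟩ : gaussV A M)
      ⟨∑ x ∈ s, cst M (v x : Kbar) * b x, h44l_comb_mem s v b hb⟩
    have h2 := h44l_red_mul (⟨cst M (v j : Kbar), h89_cst_mem_gaussV (v j)⟩ : gaussV A M)
      ⟨b j, hb j⟩
    rw [h44l_red_cst] at h2
    rw [← h2]
    exact h1

/-- a matrix with entries in `A` and determinant in `𝔪_A` kills, modulo `𝔪_A`, a vector of `A`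
with non-zero reduction. -/
theorem h44l_exists_vec {n : Type} [Fintype n] [DecidableEq n] (N0 : Matrix n n Kbar)
    (hent : ∀ p j, N0 p j ∈ A) (hdet : N0.det ∈ A.nonunits) :
    ∃ v : n → A, (fun j => h13sPi A (v j)) ≠ 0 ∧
      ∀ p, (∑ j, (v j : Kbar) * N0 p j) ∈ A.nonunits := by
  classical
  let N0A : Matrix n n A := fun p j => ⟨N0 p j, hent p j⟩
  have hmap : N0 = A.subtype.mapMatrix N0A := by
    ext p j
    rfl
  have hdetA : N0.det = ((N0A.det : A) : Kbar) := by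
    rw [hmap, ← RingHom.map_det]
    rfl
  have hres : ((h13sPi A).mapMatrix N0A).det = 0 := by
    rw [← RingHom.map_det]
    show IsLocalRing.residue A _ = 0
    rw [IsLocalRing.residue_eq_zero_iff, ← ValuationSubring.coe_mem_nonunits_iff, ← hdetA]
    exact hdet
  obtain ⟨vt, hvt0, hvt⟩ := Matrix.exists_mulVec_eq_zero_iff.mpr hres
  have hsurj : ∀ x : h13sK A, ∃ a : A, h13sPi A a = x := IsLocalRing.residue_surjective
  choose v hv using fun j => hsurj (vt j)
  refine ⟨v, ?_, ?_⟩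
  · have : (fun j => h13sPi A (v j)) = vt := funext hv
    rw [this]
    exact hvt0
  · intro p
    have h1 : ∑ j, h13sPi A (N0A p j) * vt j = 0 := congrFun hvt p
    have h2 : h13sPi A (∑ j, v j * N0A p j) = 0 := by
      rw [map_sum, ← h1]
      refine Finset.sum_congr rfl fun j _ => ?_
      rw [map_mul, hv j, mul_comm]
    have h3 : (∑ j, v j * N0A p j) ∈ IsLocalRing.maximalIdeal A :=
      (IsLocalRing.residue_eq_zero_iff _).mp h2
    have h4 := ValuationSubring.coe_mem_nonunits_iff.mpr h3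
    have h5 : ((∑ j, v j * N0A p j : A) : Kbar) = ∑ j, (v j : Kbar) * N0 p j :=
      map_sum A.subtype _ _
    rw [← h5]
    exact h4

/-- **(L2)** the jet matrix of the link has unit determinant.  Inputs: the disc calculus at the
centres of `c` (with `O ⊆ gaussV`), distinct reductions of the centres of `c`, the global shape
`E₀ ≥ 0`, `div bs = 2 D₀ + D₁ - E₀`, `b j ∈ L(E₀)`, `bs` a Gauss unit, `b j` Gauss-integral, the
reductions `b̃ j` linearly independent modulo `k · b̃s`, and `ℓ~(r_* D₁) = 1`. -/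
theorem h44l_N0_unit (hℓ : ℓ.Prime) (hM : ¬ ℓ ∣ M) (hA : A.LiesOverPrime ℓ)
    (r : Place Kbar (FF M) → Place (h13sK A) (h13sFt A M)) (hr : H13sIsRed A M r)
    (c c' : H96Chart M g)
    (hd : ∀ i, H37DiscAt A (c.Q i) (c.t i) (c.O i))
    (hOV : ∀ i, ∀ f ∈ c.O i, f ∈ gaussV A M)
    (hQ : ∀ i j, SameRed A (c.Q i) (c.Q j) → i = j)
    {E₀ : Divisor Kbar (FF M)} {bs : FF M} {b : Fin g ⊕ Fin g → FF M}
    (hE₀ : 0 ≤ E₀) (hbs0 : bs ≠ 0)
    (hbs_ord : ∀ v : Place Kbar (FF M), v.ord bs = h38lD c c' v - E₀ v)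
    (hbL : ∀ j, b j ∈ riemannRochSpace E₀)
    (hbsV : bs ∈ gaussV A M) (hbsi : bs⁻¹ ∈ gaussV A M)
    (hbV : ∀ j, b j ∈ gaussV A M)
    (hb_mem : ∀ j i, b j ∈ c.O i)
    (hind : ∀ (e : h13sK A) (co : Fin g ⊕ Fin g → h13sK A),
      algebraMap (h13sK A) (h13sFt A M) e * h13sRed A M ⟨bs, hbsV⟩ +
        ∑ j, algebraMap (h13sK A) (h13sFt A M) (co j) * h13sRed A M ⟨b j, hbV j⟩ = 0 →
      ∀ j, co j = 0)
    (hdim1 : h13rL (h13sK A) (h13sFt A M) (h13sPush r (h38lSum c'.Q)) = 1)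
    (N0 : Matrix (Fin g ⊕ Fin g) (Fin g ⊕ Fin g) Kbar)
    (hval : ∀ i j, ValueAt (c.Q i) (b j) (N0 (Sum.inl i) j))
    (hder : ∀ i j, ∃ h ∈ c.O i, b j - cst M (N0 (Sum.inl i) j) = c.t i * h ∧
      ValueAt (c.Q i) h (N0 (Sum.inr i) j)) :
    N0.det ≠ 0 ∧ (N0.det)⁻¹ ∈ A := by
  classical
  -- the entries are in `A`
  have hent : ∀ p j, N0 p j ∈ A := by
    rintro (i | i) j
    · obtain ⟨a, haA, ha⟩ := (hd i).O_val (b j) (hb_mem j i) (c.Q i) (hd i).refl
      rw [Fermat.Agent.Red.Match.valueAt_unique (hval i j) ha]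
      exact haA
    · obtain ⟨h, hh, -, hv⟩ := hder i j
      obtain ⟨a, haA, ha⟩ := (hd i).O_val h hh (c.Q i) (hd i).refl
      rw [Fermat.Agent.Red.Match.valueAt_unique hv ha]
      exact haA
  by_contra hcon
  have hdet : N0.det ∈ A.nonunits := by
    by_contra hdn
    exact hcon (h44l_unit_of_not_nonunit _ hdn)
  obtain ⟨v, hv0, hrow⟩ := h44l_exists_vec N0 hent hdet
  -- the function `f`
  have hfV := h44l_comb_mem Finset.univ v b hbV
  have hfred := h44l_comb_red Finset.univ v b hbV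
  have hfL : ∑ j, cst M (v j : Kbar) * b j ∈ riemannRochSpace E₀ := by
    refine (riemannRochSpace E₀).sum_mem fun j _ => ?_
    have : cst M (v j : Kbar) * b j = (v j : Kbar) • b j := (Algebra.smul_def _ _).symm
    rw [this]
    exact (riemannRochSpace E₀).smul_mem _ (hbL j)
  -- the jets of `f` at the centres
  have hjet : ∀ i, ∃ _ : ∑ j, cst M (v j : Kbar) * b j ∈ c.O i, ∃ a ∈ A.nonunits, ∃ h ∈ c.O i,
      ∑ j, cst M (v j : Kbar) * b j - cst M a = c.t i * h ∧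
        ∃ a' ∈ A.nonunits, ValueAt (c.Q i) h a' := by
    intro i
    choose H hH hHe hHv using hder i
    refine ⟨Subring.sum_mem _ fun j _ => Subring.mul_mem _ ((hd i).O_cst _ (v j).2)
      (hb_mem j i), ∑ j, (v j : Kbar) * N0 (Sum.inl i) j, hrow (Sum.inl i),
      ∑ j, cst M (v j : Kbar) * H j,
      Subring.sum_mem _ fun j _ => Subring.mul_mem _ ((hd i).O_cst _ (v j).2) (hH j), ?_,
      ∑ j, (v j : Kbar) * N0 (Sum.inr i) j, hrow (Sum.inr i), ?_⟩
    · rw [Finset.mul_sum]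
      have e1 : cst M (∑ j, (v j : Kbar) * N0 (Sum.inl i) j) =
          ∑ j, cst M (v j : Kbar) * cst M (N0 (Sum.inl i) j) := by
        unfold cst
        rw [map_sum]
        exact Finset.sum_congr rfl fun j _ => map_mul _ _ _
      rw [e1, ← Finset.sum_sub_distrib]
      refine Finset.sum_congr rfl fun j _ => ?_
      rw [← mul_sub, hHe j]
      ring
    · exact h44l_valueAt_sum _ _ _ _ fun j _ =>
        Fermat.Agent.Red.Match.valueAt_mul (Fermat.Agent.Red.Match.valueAt_cst _ _) (hHv j)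
  obtain ⟨κ, hκ⟩ := h44l_red_mem_line hℓ hM hA r hr c c' hd hOV hQ hE₀ hbs0 hbs_ord hbsV hbsi
    hdim1 _ hfV hfL hjet
  have hzero := hind (-κ) (fun j => h13sPi A (v j)) (by
    rw [map_neg, neg_mul, ← hκ, hfred]
    exact neg_add_cancel _)
  exact hv0 (funext hzero)

/-- **(L2)** in the vocabulary of `H38lBase`. -/
theorem h44l_N0_unit_of_base (hℓ : ℓ.Prime) (hM : ¬ ℓ ∣ M) (hA : A.LiesOverPrime ℓ)
    (r : Place Kbar (FF M) → Place (h13sK A) (h13sFt A M)) (hr : H13sIsRed A M r)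
    (c c' : H96Chart M g)
    (hd : ∀ i, H37DiscAt A (c.Q i) (c.t i) (c.O i))
    (hOV : ∀ i, ∀ f ∈ c.O i, f ∈ gaussV A M)
    (hQ : ∀ i j, SameRed A (c.Q i) (c.Q j) → i = j)
    {E₀ : Divisor Kbar (FF M)} {bs : FF M} {b : Fin g ⊕ Fin g → FF M}
    (hB : H38lBase A c c' E₀ bs b)
    (hbsV : bs ∈ gaussV A M) (hbsi : bs⁻¹ ∈ gaussV A M)
    (hbV : ∀ j, b j ∈ gaussV A M)
    (hb_mem : ∀ j i, b j ∈ c.O i)
    (hind : ∀ (e : h13sK A) (co : Fin g ⊕ Fin g → h13sK A),
      algebraMap (h13sK A) (h13sFt A M) e * h13sRed A M ⟨bs, hbsV⟩ +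
        ∑ j, algebraMap (h13sK A) (h13sFt A M) (co j) * h13sRed A M ⟨b j, hbV j⟩ = 0 →
      ∀ j, co j = 0)
    (hdim1 : h13rL (h13sK A) (h13sFt A M) (h13sPush r (h38lSum c'.Q)) = 1)
    (N0 : Matrix (Fin g ⊕ Fin g) (Fin g ⊕ Fin g) Kbar)
    (hval : ∀ i j, ValueAt (c.Q i) (b j) (N0 (Sum.inl i) j))
    (hder : ∀ i j, ∃ h ∈ c.O i, b j - cst M (N0 (Sum.inl i) j) = c.t i * h ∧
      ValueAt (c.Q i) h (N0 (Sum.inr i) j)) :
    N0.det ≠ 0 ∧ (N0.det)⁻¹ ∈ A :=
  h44l_N0_unit hℓ hM hA r hr c c' hd hOV hQ hB.E0_nonneg hB.bs_ne hB.bs_ord hB.b_L hbsV hbsi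
    hbV hb_mem hind hdim1 N0 hval hder

open Classical in
omit [NeZero M] in
theorem h44l_sum_apply (Q : Fin g → Place Kbar (FF M)) (P : Place Kbar (FF M)) :
    h38lSum Q P = ∑ j, if Q j = P then (1 : ℤ) else 0 := by
  unfold h38lSum
  rw [Finsupp.finsetSum_apply]
  exact Finset.sum_congr rfl fun j _ => Finsupp.single_apply

omit [NeZero M] in
theorem h44l_sum_nonneg (Q : Fin g → Place Kbar (FF M)) (P : Place Kbar (FF M)) :
    0 ≤ h38lSum Q P := by
  classical
  rw [h44l_sum_apply]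
  refine Finset.sum_nonneg fun j _ => ?_
  split_ifs
  · exact zero_le_one
  · exact le_rfl

/-- the divisor `∑ Q j` on the disc of a centre `Q i` (distinct reductions). -/
theorem h44l_sum_disc_self (Q : Fin g → Place Kbar (FF M))
    (hQ : ∀ i j, SameRed A (Q i) (Q j) → i = j) (i : Fin g) (P : Place Kbar (FF M))
    (hP : SameRed A P (Q i)) (hrefl : SameRed A (Q i) (Q i)) :
    (P = Q i → h38lSum Q P = 1) ∧ (P ≠ Q i → h38lSum Q P = 0) := by
  classical
  constructor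
  · rintro rfl
    rw [h44l_sum_apply, Finset.sum_eq_single i]
    · rw [if_pos rfl]
    · intro j _ hji
      rw [if_neg]
      intro hj
      exact hji (hQ j i (by rw [hj]; exact hrefl))
    · intro hi
      exact absurd (Finset.mem_univ i) hi
  · intro hne
    rw [h44l_sum_apply]
    refine Finset.sum_eq_zero fun j _ => ?_
    rw [if_neg]
    intro hj
    have h1 : SameRed A (Q j) (Q i) := by rw [hj]; exact hP
    have h2 := hQ j i h1
    rw [h2] at hj
    exact hne hj.symm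

omit [NeZero M] in
/-- the divisor `∑ Q j` vanishes at the places different from all the `Q j`. -/
theorem h44l_sum_disc_out (Q : Fin g → Place Kbar (FF M)) (P : Place Kbar (FF M))
    (hP : ∀ j, Q j ≠ P) : h38lSum Q P = 0 := by
  classical
  rw [h44l_sum_apply]
  refine Finset.sum_eq_zero fun j _ => ?_
  rw [if_neg (hP j)]

/-- **(L3)** in the vocabulary of `H38lBase`: the last component of `H4sLinkRaw`. -/
theorem h44l_bsder_of_base (hℓ : ℓ.Prime) (hM : ¬ ℓ ∣ M) (hA : A.LiesOverPrime ℓ)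
    (r : Place Kbar (FF M) → Place (h13sK A) (h13sFt A M)) (hr : H13sIsRed A M r)
    (c c' : H96Chart M g)
    (hd' : ∀ i, H37DiscAt A (c'.Q i) (c'.t i) (c'.O i))
    (hOV' : ∀ i, ∀ f ∈ c'.O i, f ∈ gaussV A M)
    (hQ' : ∀ i j, SameRed A (c'.Q i) (c'.Q j) → i = j)
    (hQQ' : ∀ i j, ¬ SameRed A (c.Q i) (c'.Q j))
    {E₀ : Divisor Kbar (FF M)} {bs : FF M} {b : Fin g ⊕ Fin g → FF M}
    (hB : H38lBase A c c' E₀ bs b)
    (hbs_mem : ∀ i, bs ∈ c'.O i) (hbsi : bs⁻¹ ∈ gaussV A M) :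
    ∀ i, ∃ h ∈ c'.O i, ∃ d : Kbar, bs = c'.t i * h ∧ ValueAt (c'.Q i) h d ∧ d ≠ 0 ∧
      d⁻¹ ∈ A := by
  intro i
  have key : ∀ P : Place Kbar (FF M), SameRed A P (c'.Q i) →
      P.ord bs = h38lSum c'.Q P := by
    intro P hP
    rw [hB.bs_ord P, hB.E0_out' i P hP]
    unfold h38lD
    rw [Finsupp.add_apply, Finsupp.add_apply, h44l_sum_disc_out c.Q P, add_zero, zero_add,
      sub_zero]
    intro j hj
    exact hQQ' j i (by rw [hj]; exact hP)
  refine h44l_bsder hℓ hM hA r hr (hd' i) (hOV' i) bs (hbs_mem i) hbsi hB.bs_ne ?_ ?_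
  · rw [key _ (hd' i).refl]
    exact (h44l_sum_disc_self c'.Q hQ' i _ (hd' i).refl (hd' i).refl).1 rfl
  · intro P hP hne
    rw [key P hP]
    exact (h44l_sum_disc_self c'.Q hQ' i P hP (hd' i).refl).2 hne

/-- the jets of the `b j` at the centres of `c` exist (fields `N0_val`, `N0_der`). -/
theorem h44l_exists_jets (c : H96Chart M g)
    (hd : ∀ i, H37DiscAt A (c.Q i) (c.t i) (c.O i))
    (b : Fin g ⊕ Fin g → FF M) (hb_mem : ∀ j i, b j ∈ c.O i) :
    ∃ N0 : Matrix (Fin g ⊕ Fin g) (Fin g ⊕ Fin g) Kbar,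
      (∀ i j, ValueAt (c.Q i) (b j) (N0 (Sum.inl i) j)) ∧
      (∀ i j, ∃ h ∈ c.O i, b j - cst M (N0 (Sum.inl i) j) = c.t i * h ∧
        ValueAt (c.Q i) h (N0 (Sum.inr i) j)) := by
  classical
  have h1 : ∀ i j, ∃ a : Kbar, ∃ a' : Kbar, ValueAt (c.Q i) (b j) a ∧
      ∃ h ∈ c.O i, b j - cst M a = c.t i * h ∧ ValueAt (c.Q i) h a' := by
    intro i j
    obtain ⟨a, -, ha⟩ := (hd i).O_val (b j) (hb_mem j i) (c.Q i) (hd i).refl
    obtain ⟨h, hh, e⟩ := (hd i).O_div (b j) (hb_mem j i) (c.Q i) (hd i).refl a 0 ha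
      (hd i).t_zero
    obtain ⟨a', -, ha'⟩ := (hd i).O_val h hh (c.Q i) (hd i).refl
    exact ⟨a, a', ha, h, hh, by rw [e, h44l_cst_zero, sub_zero], ha'⟩
  choose a a' ha hrest using h1
  refine ⟨fun p j => Sum.elim (fun i => a i j) (fun i => a' i j) p, fun i j => ha i j,
    fun i j => hrest i j⟩

end Jets

end Fermat.Agent.P5
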