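import Fermat.Agent.P5.H13SFIface
import Fermat.Agent.P5.H13GBase
import Fermat.Agent.P5.H37DiscIface
import Fermat.Agent.Red.Nz.Main
import Fermat.Agent.Red.SM.DictPlace
import Fermat.Agent.S24.DiffPlace

/-!
# P5 (wave 5, S19), block GEO-LINK (helper44): reduction calculus for the link

`M` a good level, `A` over `ℓ`, `r` the reduction map of places (`H13sIsRed A M r`).

* `h44l_red_*` : the reduction `h13sRed` is a ring homomorphism (pointwise lemmas).
* `h44l_ord_red` : **RED-DIV at a place**: for a Gauss unit `f`,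
  `ord_{r Q} f̃ = ∑_{P ∈ T} ord_P f`, `T` any finite set of places of the disc of `Q` containing
  the support of `div f` in the disc.
* `h44l_ord_red_nonneg`, `h44l_ord_red_pos` : the reduction of a function regular on the disc is
  regular at the closed point; it vanishes there if the function vanishes at one point of the
  disc.
-/

set_option autoImplicit false

open AlgebraicCurve ModularCurve

noncomputable section

namespace Fermat.Agent.P5

open Fermat.Agent.S37 Fermat.Agent.Red.GV Fermat.Agent.Red.Match Fermat.Agent.Red.Nz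

variable {M : ℕ} {A : ValuationSubring Kbar}

/-! ### `h13sRed` is a ring homomorphism -/

theorem h44l_incl_injective : Function.Injective (h13sIncl A M) :=
  (h13sIncl A M).toRingHom.injective

theorem h44l_red_mul (x y : gaussV A M) :
    h13sRed A M (x * y) = h13sRed A M x * h13sRed A M y := by
  apply h44l_incl_injective
  rw [map_mul, h13sIncl_red, h13sIncl_red, h13sIncl_red, map_mul]
  rfl

theorem h44l_red_add (x y : gaussV A M) :
    h13sRed A M (x + y) = h13sRed A M x + h13sRed A M y := by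
  apply h44l_incl_injective
  rw [map_add, h13sIncl_red, h13sIncl_red, h13sIncl_red, map_add]
  rfl

theorem h44l_red_sub (x y : gaussV A M) :
    h13sRed A M (x - y) = h13sRed A M x - h13sRed A M y := by
  apply h44l_incl_injective
  rw [map_sub, h13sIncl_red, h13sIncl_red, h13sIncl_red, map_sub]
  rfl

theorem h44l_red_one : h13sRed A M 1 = 1 := by
  apply h44l_incl_injective
  rw [map_one, h13sIncl_red, map_one]
  rfl

theorem h44l_red_zero : h13sRed A M 0 = 0 := by
  apply h44l_incl_injective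
  rw [map_zero, h13sIncl_red, map_zero]
  rfl

theorem h44l_red_pow (x : gaussV A M) (n : ℕ) :
    h13sRed A M (x ^ n) = h13sRed A M x ^ n := by
  apply h44l_incl_injective
  rw [map_pow, h13sIncl_red, h13sIncl_red, map_pow]
  rfl

theorem h44l_red_eq_zero_iff (x : gaussV A M) :
    h13sRed A M x = 0 ↔ gaussR A M x = 0 := by
  constructor
  · intro h
    have := congrArg (h13sIncl A M) h
    rwa [h13sIncl_red, map_zero] at this
  · intro h
    apply h44l_incl_injective
    rw [h13sIncl_red, map_zero, h]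
    rfl

theorem h44l_red_eq_zero_iff_small (x : FF M) (hx : x ∈ gaussV A M) :
    h13sRed A M ⟨x, hx⟩ = 0 ↔ GaussSmall A M x := by
  rw [h44l_red_eq_zero_iff]
  exact ⟨fun h => ⟨hx, h⟩, fun ⟨_, h⟩ => h⟩

/-- the reduction of a constant. -/
theorem h44l_red_cst (a : A) (h : cst M (a : Kbar) ∈ gaussV A M) :
    h13sRed A M ⟨cst M (a : Kbar), h⟩ = algebraMap (h13sK A) (h13sFt A M) (h13sPi A a) := by
  apply h44l_incl_injective
  rw [h13sIncl_red, h89_gaussR_cst, AlgHom.commutes]
  exact (h89_algebraMap_eq_C _ _).symm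

/-! ### RED-DIV at a place -/

variable [NeZero M]

/-- **RED-DIV at a place.** -/
theorem h44l_ord_red (r : Place Kbar (FF M) → Place (h13sK A) (h13sFt A M))
    (hr : H13sIsRed A M r) (f : FF M) (hf : f ∈ gaussV A M) (hfi : f⁻¹ ∈ gaussV A M)
    (hf0 : f ≠ 0) (Q : Place Kbar (FF M)) (T : Finset (Place Kbar (FF M)))
    (hT : ∀ P ∈ T, SameRed A P Q)
    (hT' : ∀ P : Place Kbar (FF M), SameRed A P Q → P.ord f ≠ 0 → P ∈ T) :
    (r Q).ord (h13sRed A M ⟨f, hf⟩) = ∑ P ∈ T, P.ord f := by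
  classical
  obtain ⟨D, hD, -⟩ := (h13g_gBase M).pd f hf0
  have h1 := hr.2.2 f hf hfi D hD (r Q)
  rw [← h1]
  unfold h13sPush
  rw [Finsupp.mapDomain, Finsupp.sum_apply]
  simp only [Finsupp.single_apply]
  rw [Finsupp.sum, ← Finset.sum_filter, ← Finset.sum_filter_ne_zero (s := T)]
  refine Finset.sum_congr ?_ (fun P _ => hD P)
  ext P
  simp only [Finset.mem_filter, Finsupp.mem_support_iff]
  rw [hr.2.1 P Q, hD P]
  constructor
  · rintro ⟨h2, h3⟩
    exact ⟨hT' P h3 h2, h2⟩
  · rintro ⟨h2, h3⟩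
    exact ⟨h3, hT P h2⟩

/-- the reduction of a function regular on the disc of `Q` is regular at `r Q`. -/
theorem h44l_ord_red_nonneg (r : Place Kbar (FF M) → Place (h13sK A) (h13sFt A M))
    (hr : H13sIsRed A M r) (f : FF M) (hf : f ∈ gaussV A M) (hfi : f⁻¹ ∈ gaussV A M)
    (hf0 : f ≠ 0) (Q : Place Kbar (FF M))
    (hreg : ∀ P : Place Kbar (FF M), SameRed A P Q → 0 ≤ P.ord f) :
    0 ≤ (r Q).ord (h13sRed A M ⟨f, hf⟩) := by
  classical
  obtain ⟨D, hD, -⟩ := (h13g_gBase M).pd f hf0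
  rw [h44l_ord_red r hr f hf hfi hf0 Q (D.support.filter (fun P => SameRed A P Q))
    (fun P hP => (Finset.mem_filter.mp hP).2)
    (fun P hP hne => Finset.mem_filter.mpr
      ⟨Finsupp.mem_support_iff.mpr (by rw [hD P]; exact hne), hP⟩)]
  exact Finset.sum_nonneg fun P hP => hreg P (Finset.mem_filter.mp hP).2

/-- the reduction of a function regular on the disc of `Q`, with a zero in the disc, vanishes
at `r Q`. -/
theorem h44l_ord_red_pos (r : Place Kbar (FF M) → Place (h13sK A) (h13sFt A M))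
    (hr : H13sIsRed A M r) (f : FF M) (hf : f ∈ gaussV A M) (hfi : f⁻¹ ∈ gaussV A M)
    (hf0 : f ≠ 0) (Q : Place Kbar (FF M))
    (hreg : ∀ P : Place Kbar (FF M), SameRed A P Q → 0 ≤ P.ord f)
    (P₁ : Place Kbar (FF M)) (hP₁ : SameRed A P₁ Q) (hpos : 0 < P₁.ord f) :
    0 < (r Q).ord (h13sRed A M ⟨f, hf⟩) := by
  classical
  obtain ⟨D, hD, -⟩ := (h13g_gBase M).pd f hf0
  rw [h44l_ord_red r hr f hf hfi hf0 Q (D.support.filter (fun P => SameRed A P Q))
    (fun P hP => (Finset.mem_filter.mp hP).2)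
    (fun P hP hne => Finset.mem_filter.mpr
      ⟨Finsupp.mem_support_iff.mpr (by rw [hD P]; exact hne), hP⟩)]
  have hmem : P₁ ∈ D.support.filter (fun P => SameRed A P Q) :=
    Finset.mem_filter.mpr ⟨Finsupp.mem_support_iff.mpr (by rw [hD P₁]; exact hpos.ne'), hP₁⟩
  exact lt_of_lt_of_le hpos (Finset.single_le_sum (f := fun P => P.ord f)
    (fun P hP => hreg P (Finset.mem_filter.mp hP).2) hmem)

/-! ### The disc calculus and the reduction -/

section Disc

variable {ℓ : ℕ} {Q : Place Kbar (FF M)} {t : FF M} {O : Subring (FF M)}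

/-- a Gauss-integral function with non-zero reduction is a Gauss unit. -/
theorem h44l_unit_of_red_ne_zero (hℓ : ℓ.Prime) (hM : ¬ ℓ ∣ M) (hA : A.LiesOverPrime ℓ)
    (f : FF M) (hf : f ∈ gaussV A M) (hne : h13sRed A M ⟨f, hf⟩ ≠ 0) :
    f ≠ 0 ∧ f⁻¹ ∈ gaussV A M := by
  have h1 : gaussR A M ⟨f, hf⟩ ≠ 0 := fun h => hne ((h44l_red_eq_zero_iff _).mpr h)
  rw [Ne, gaussR_eq_zero_iff A M hℓ hM hA, not_or, not_not] at h1
  exact h1

/-- functions of `O` are regular on the disc. -/
theorem h44l_disc_regular (hd : H37DiscAt A Q t O) (f : FF M) (hf : f ∈ O)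
    (P : Place Kbar (FF M)) (hP : SameRed A P Q) : 0 ≤ P.ord f := by
  obtain ⟨a, -, ha⟩ := hd.O_val f hf P hP
  exact Fermat.Agent.S24.DiffPlace.ord_nonneg_of_mem P (valueAt_mem ha)

/-- the reduction of a function of `O` is regular at the centre. -/
theorem h44l_disc_ord_nonneg (hℓ : ℓ.Prime) (hM : ¬ ℓ ∣ M) (hA : A.LiesOverPrime ℓ)
    (r : Place Kbar (FF M) → Place (h13sK A) (h13sFt A M)) (hr : H13sIsRed A M r)
    (hd : H37DiscAt A Q t O) (f : FF M) (hf : f ∈ O) (hfV : f ∈ gaussV A M) :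
    0 ≤ (r Q).ord (h13sRed A M ⟨f, hfV⟩) := by
  by_cases hne : h13sRed A M ⟨f, hfV⟩ = 0
  · rw [hne]; simp
  obtain ⟨hf0, hfi⟩ := h44l_unit_of_red_ne_zero hℓ hM hA f hfV hne
  exact h44l_ord_red_nonneg r hr f hfV hfi hf0 Q (fun P hP => h44l_disc_regular hd f hf P hP)

/-- the reduction of the parameter vanishes at the centre. -/
theorem h44l_disc_ord_t (hℓ : ℓ.Prime) (hM : ¬ ℓ ∣ M) (hA : A.LiesOverPrime ℓ)
    (r : Place Kbar (FF M) → Place (h13sK A) (h13sFt A M)) (hr : H13sIsRed A M r)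
    (hd : H37DiscAt A Q t O) (htV : t ∈ gaussV A M) (hne : h13sRed A M ⟨t, htV⟩ ≠ 0) :
    0 < (r Q).ord (h13sRed A M ⟨t, htV⟩) := by
  obtain ⟨ht0, hti⟩ := h44l_unit_of_red_ne_zero hℓ hM hA t htV hne
  refine h44l_ord_red_pos r hr t htV hti ht0 Q
    (fun P hP => h44l_disc_regular hd t hd.O_t P hP) Q hd.refl ?_
  refine Fermat.Agent.Red.SM.h25d_ord_pos_of_mem_nonunits Q ?_ ht0
  have h := hd.t_zero
  unfold ValueAt at h
  simpa using h

end Disc

end Fermat.Agent.P5
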