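import Mathlib

/-!
# P5 (wave 5, pillar (P)), block ALG-CLOS (helper45): closed function algebras on finite sets

`A` a valuation subring of a field `K` (only the subring structure is used), `S` a finite set,
`B` an `A`-subalgebra of the functions `S → K`.

* `h45c_inv_mem`      (C1): `B` is stable under the pointwise inverse of the functions whose
                        values are units of `A`;
* `h45c_conductor`    (C2): if `B` is integral valued and separates the points of `S`, there is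
                        `d ≠ 0` in `A` with `d • f ∈ B` for every integral valued `f`;
* `h45c_closed`       (C2'): hence a function congruent modulo `d` to an element of `B` lies in
                        `B` (`B` is closed for the `v`-adic topology);
* `h45c_second_order` : `f(Y) - f(y) - c₁ (Y - y) ∈ (Y - y) r A` for `Y, y ∈ r A`;
* `h45c_newton_approx` (C3): an approximate root `Y ∈ r A` (modulo `r ^ m`) of a polynomial with
                        coefficients in `B` and unit linear coefficient is congruent modulo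
                        `r ^ m` to an element of `B`;
* `h45c_newton`       (C3'): an exact pointwise root which is an approximate root of
                        polynomials over `B` to every order lies in `B`.

Mathlib only.
-/

set_option autoImplicit false
set_option linter.unusedSectionVars false

open Polynomial

namespace Fermat.Agent.P5

variable {K : Type*} [Field K] (A : ValuationSubring K) {S : Type*} [Fintype S]

/-- the characteristic polynomial of a function on a finite set with values in `A`. -/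
noncomputable def h45c_charPoly (u : S → A) : A[X] := ∏ s : S, (X - C (u s))

lemma h45c_aeval_apply (f : S → K) (P : A[X]) (s : S) :
    (aeval f P) s = aeval (f s) P :=
  (Polynomial.aeval_algHom_apply (Pi.evalAlgHom A (fun _ : S => K) s) f P).symm

lemma h45c_aeval_charPoly (u : S → A) :
    aeval (fun s => ((u s : A) : K)) (h45c_charPoly A u) = (0 : S → K) := by
  funext s
  rw [h45c_aeval_apply]
  simp only [h45c_charPoly, map_prod, map_sub, aeval_X, aeval_C, Pi.zero_apply]
  apply Finset.prod_eq_zero (Finset.mem_univ s)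
  exact sub_self _

lemma h45c_charPoly_coeff_zero (u : S → A) :
    (h45c_charPoly A u).coeff 0 = ∏ s : S, (- u s) := by
  rw [h45c_charPoly, Polynomial.coeff_zero_eq_eval_zero, Polynomial.eval_prod]
  simp

lemma h45c_aeval_mem (B : Subalgebra A (S → K)) {u : S → K} (hu : u ∈ B) (P : A[X]) :
    aeval u P ∈ B :=
  (Algebra.adjoin_le (Set.singleton_subset_iff.2 hu)) (Polynomial.aeval_mem_adjoin_singleton A u)

/-- **(C1) unit inverse.**  A subalgebra of functions on a finite set is stable under the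
pointwise inverse of the functions whose values are units of `A`. -/
theorem h45c_inv_mem (B : Subalgebra A (S → K)) (u : S → K) (hu : u ∈ B)
    (hA : ∀ s, u s ∈ A) (hA' : ∀ s, (u s)⁻¹ ∈ A) (h0 : ∀ s, u s ≠ 0) : u⁻¹ ∈ B := by
  classical
  let v : S → A := fun s => ⟨u s, hA s⟩
  have huv : (fun s => ((v s : A) : K)) = u := rfl
  set P := h45c_charPoly A v with hP
  have hP0 : aeval u P = 0 := by
    rw [← huv]; exact h45c_aeval_charPoly A v
  -- the constant term
  set c : A := P.coeff 0 with hc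
  have hcK : (c : K) = ∏ s : S, (- u s) := by
    rw [hc, hP, h45c_charPoly_coeff_zero]
    simp [v]
  have hcinv : (c : K)⁻¹ ∈ A := by
    rw [hcK, ← Finset.prod_inv_distrib]
    refine Subring.prod_mem A.toSubring (fun s _ => ?_)
    rw [inv_neg]
    exact A.neg_mem _ (hA' s)
  have hc0 : (c : K) ≠ 0 := by
    rw [hcK]
    exact Finset.prod_ne_zero_iff.2 (fun s _ => neg_ne_zero.2 (h0 s))
  set Q := P.divX with hQ
  have hdec : Q * X + C c = P := Polynomial.divX_mul_X_add P
  have hQu : aeval u Q * u + algebraMap A (S → K) c = 0 := by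
    rw [← hP0, ← hdec, map_add, map_mul, aeval_X, aeval_C]
  have hinv : u⁻¹ = (-(⟨(c : K)⁻¹, hcinv⟩ : A)) • aeval u Q := by
    funext s
    have h1 := congrFun hQu s
    simp only [Pi.add_apply, Pi.mul_apply, Pi.zero_apply] at h1
    have h2 : (algebraMap A (S → K) c) s = (c : K) := rfl
    rw [h2] at h1
    have h3 : (aeval u Q) s * u s = -(c : K) := eq_neg_of_add_eq_zero_left h1
    have h4 : ((-(⟨(c : K)⁻¹, hcinv⟩ : A)) • aeval u Q) s = -(c : K)⁻¹ * (aeval u Q) s := rfl
    rw [h4, Pi.inv_apply]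
    have hus := h0 s
    have h5 : (aeval u Q) s = -(c : K) * (u s)⁻¹ := by
      rw [← h3, mul_assoc, mul_inv_cancel₀ hus, mul_one]
    rw [h5, neg_mul, neg_mul, mul_neg, neg_neg, ← mul_assoc, inv_mul_cancel₀ hc0, one_mul]
  rw [hinv]
  exact B.smul_mem (h45c_aeval_mem A B hu Q) _


lemma h45c_smul_apply (c : A) (f : S → K) (s : S) : (c • f) s = (c : K) * f s := rfl

lemma h45c_algebraMap_apply (c : A) (s : S) : (algebraMap A (S → K) c) s = (c : K) := rfl

/-- **(C2) conductor.**  An integral-valued subalgebra which separates the points of a finite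
set contains `d • f` for all integral valued `f`, for some `d ≠ 0` in `A`. -/
theorem h45c_conductor (B : Subalgebra A (S → K)) (hint : ∀ x ∈ B, ∀ s, x s ∈ A)
    (hsep : ∀ s s' : S, s ≠ s' → ∃ x ∈ B, x s ≠ x s') :
    ∃ d : A, (d : K) ≠ 0 ∧ ∀ f : S → K, (∀ s, f s ∈ A) → d • f ∈ B := by
  classical
  -- separating functions
  let x : S → S → (S → K) := fun s s' =>
    if h : s = s' then 0 else Classical.choose (hsep s s' h)
  have hxB : ∀ s s', x s s' ∈ B := by
    intro s s'
    by_cases h : s = s'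
    · simp only [x, dif_pos h]; exact B.zero_mem
    · simp only [x, dif_neg h]; exact (Classical.choose_spec (hsep s s' h)).1
  have hxne : ∀ s s', s ≠ s' → x s s' s ≠ x s s' s' := by
    intro s s' h
    simp only [x, dif_neg h]
    exact (Classical.choose_spec (hsep s s' h)).2
  have hxA : ∀ s s' t, x s s' t ∈ A := fun s s' t => hint _ (hxB s s') t
  -- the functions `e s = d s • 1_s`
  let e : S → (S → K) := fun s =>
    ∏ s' ∈ Finset.univ.erase s, (x s s' - algebraMap A (S → K) ⟨x s s' s', hxA s s' s'⟩)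
  have heB : ∀ s, e s ∈ B := fun s =>
    Subalgebra.prod_mem B (fun s' _ => B.sub_mem (hxB s s') (B.algebraMap_mem _))
  let dK : S → K := fun s => ∏ s' ∈ Finset.univ.erase s, (x s s' s - x s s' s')
  have hdA : ∀ s, dK s ∈ A := fun s =>
    Subring.prod_mem A.toSubring (fun s' _ => sub_mem (hxA s s' s) (hxA s s' s'))
  have hd0 : ∀ s, dK s ≠ 0 := fun s =>
    Finset.prod_ne_zero_iff.2 (fun s' hs' =>
      sub_ne_zero.2 (hxne s s' (Ne.symm (Finset.ne_of_mem_erase hs'))))
  have he : ∀ s t, e s t = if t = s then dK s else 0 := by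
    intro s t
    simp only [e, Finset.prod_apply, Pi.sub_apply, h45c_algebraMap_apply]
    by_cases h : t = s
    · subst h
      simp only [if_true, dK]
    · rw [if_neg h]
      apply Finset.prod_eq_zero (Finset.mem_erase.2 ⟨h, Finset.mem_univ t⟩)
      exact sub_self _
  -- the conductor
  have hdmem : (∏ s : S, dK s) ∈ A := Subring.prod_mem A.toSubring (fun s _ => hdA s)
  refine ⟨⟨∏ s : S, dK s, hdmem⟩, Finset.prod_ne_zero_iff.2 (fun s _ => hd0 s), ?_⟩
  intro f hf
  have hcA : ∀ s, f s * ∏ t ∈ Finset.univ.erase s, dK t ∈ A := fun s =>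
    mul_mem (hf s) (Subring.prod_mem A.toSubring (fun t _ => hdA t))
  have hsum : (⟨∏ s : S, dK s, hdmem⟩ : A) • f =
      ∑ s : S, (⟨f s * ∏ t ∈ Finset.univ.erase s, dK t, hcA s⟩ : A) • e s := by
    funext t
    rw [h45c_smul_apply, Finset.sum_apply]
    simp only [h45c_smul_apply, he]
    rw [Finset.sum_eq_single t]
    · rw [if_pos rfl]
      have := Finset.mul_prod_erase Finset.univ dK (Finset.mem_univ t)
      rw [← this]
      ring
    · intro s _ hs
      rw [if_neg (Ne.symm hs), mul_zero]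
    · intro h
      exact absurd (Finset.mem_univ t) h
  rw [hsum]
  exact B.sum_mem (fun s _ => B.smul_mem (heB s) _)

/-- **(C2') closedness.**  With the conductor `d` of `h45c_conductor`: a function which is
congruent modulo `d` to an element of `B` lies in `B`. -/
theorem h45c_closed (B : Subalgebra A (S → K)) (hint : ∀ x ∈ B, ∀ s, x s ∈ A)
    (hsep : ∀ s s' : S, s ≠ s' → ∃ x ∈ B, x s ≠ x s') :
    ∃ d : A, (d : K) ≠ 0 ∧ ∀ f g : S → K, g ∈ B →
      (∀ s, ∃ a ∈ A, f s - g s = (d : K) * a) → f ∈ B := by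
  obtain ⟨d, hd0, hd⟩ := h45c_conductor A B hint hsep
  refine ⟨d, hd0, fun f g hg h => ?_⟩
  choose a haA ha using h
  have h1 : f = g + d • a := by
    funext s
    rw [Pi.add_apply, h45c_smul_apply, ← ha s]
    ring
  rw [h1]
  exact B.add_mem hg (hd a haA)


/-- `x ∈ c A`. -/
def h45c_Dvd (c x : K) : Prop := ∃ a ∈ A, x = c * a

variable {A}

lemma h45c_dvd_zero (c : K) : h45c_Dvd A c 0 := ⟨0, A.zero_mem, by rw [mul_zero]⟩

lemma h45c_dvd_self (c : K) : h45c_Dvd A c c := ⟨1, A.one_mem, by rw [mul_one]⟩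

lemma h45c_Dvd.add {c x y : K} (hx : h45c_Dvd A c x) (hy : h45c_Dvd A c y) :
    h45c_Dvd A c (x + y) := by
  obtain ⟨a, ha, rfl⟩ := hx
  obtain ⟨b, hb, rfl⟩ := hy
  exact ⟨a + b, add_mem ha hb, by ring⟩

lemma h45c_Dvd.neg {c x : K} (hx : h45c_Dvd A c x) : h45c_Dvd A c (-x) := by
  obtain ⟨a, ha, rfl⟩ := hx
  exact ⟨-a, neg_mem ha, by ring⟩

lemma h45c_Dvd.sub {c x y : K} (hx : h45c_Dvd A c x) (hy : h45c_Dvd A c y) :
    h45c_Dvd A c (x - y) := by
  rw [sub_eq_add_neg]
  exact hx.add hy.neg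

lemma h45c_Dvd.mul {c c' x y : K} (hx : h45c_Dvd A c x) (hy : h45c_Dvd A c' y) :
    h45c_Dvd A (c * c') (x * y) := by
  obtain ⟨a, ha, rfl⟩ := hx
  obtain ⟨b, hb, rfl⟩ := hy
  exact ⟨a * b, mul_mem ha hb, by ring⟩

lemma h45c_Dvd.mul_left {c x : K} (hx : h45c_Dvd A c x) {a : K} (ha : a ∈ A) :
    h45c_Dvd A c (a * x) := by
  obtain ⟨b, hb, rfl⟩ := hx
  exact ⟨a * b, mul_mem ha hb, by ring⟩

lemma h45c_Dvd.mul_right {c x : K} (hx : h45c_Dvd A c x) {a : K} (ha : a ∈ A) :
    h45c_Dvd A c (x * a) := by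
  rw [mul_comm]
  exact hx.mul_left ha

lemma h45c_Dvd.mem {c x : K} (hx : h45c_Dvd A c x) (hc : c ∈ A) : x ∈ A := by
  obtain ⟨a, ha, rfl⟩ := hx
  exact mul_mem hc ha

lemma h45c_dvd_one_iff {x : K} : h45c_Dvd A 1 x ↔ x ∈ A :=
  ⟨fun h => h.mem A.one_mem, fun h => ⟨x, h, by rw [one_mul]⟩⟩

lemma h45c_Dvd.trans {c c' x : K} (hx : h45c_Dvd A c' x) (hc : h45c_Dvd A c c') :
    h45c_Dvd A c x := by
  obtain ⟨a, ha, rfl⟩ := hx
  obtain ⟨b, hb, rfl⟩ := hc
  exact ⟨b * a, mul_mem hb ha, by ring⟩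

lemma h45c_dvd_pow_of_le {r : K} (hr : r ∈ A) {m n : ℕ} (h : m ≤ n) :
    h45c_Dvd A (r ^ m) (r ^ n) :=
  ⟨r ^ (n - m), pow_mem hr _, by rw [← pow_add, Nat.add_sub_cancel' h]⟩

lemma h45c_Dvd.pow {c x : K} (hx : h45c_Dvd A c x) (n : ℕ) : h45c_Dvd A (c ^ n) (x ^ n) := by
  obtain ⟨a, ha, rfl⟩ := hx
  exact ⟨a ^ n, pow_mem ha n, by rw [mul_pow]⟩

lemma h45c_dvd_sum {ι : Type*} (s : Finset ι) {c : K} {f : ι → K}
    (h : ∀ i ∈ s, h45c_Dvd A c (f i)) : h45c_Dvd A c (∑ i ∈ s, f i) := by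
  classical
  induction s using Finset.induction_on with
  | empty => simpa using h45c_dvd_zero c
  | insert i s hi ih =>
    rw [Finset.sum_insert hi]
    exact (h i (Finset.mem_insert_self i s)).add
      (ih (fun j hj => h j (Finset.mem_insert_of_mem hj)))

/-- The second order term of a polynomial with integral coefficients: for `Y, y ∈ r A`,
`f(Y) - f(y) - c₁ (Y - y) ∈ (Y - y) r A`. -/
theorem h45c_second_order (N : ℕ) (c : ℕ → K) (hc : ∀ k, c k ∈ A) {r Y y : K} (hr : r ∈ A)
    (hY : h45c_Dvd A r Y) (hy : h45c_Dvd A r y) :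
    h45c_Dvd A ((Y - y) * r)
      (∑ k ∈ Finset.range (N + 2), c k * Y ^ k - ∑ k ∈ Finset.range (N + 2), c k * y ^ k
        - c 1 * (Y - y)) := by
  have hYA : Y ∈ A := hY.mem hr
  have hyA : y ∈ A := hy.mem hr
  -- termwise
  have hterm : ∀ k, h45c_Dvd A ((Y - y) * r)
      (c k * Y ^ k - c k * y ^ k - (if k = 1 then c 1 * (Y - y) else 0)) := by
    intro k
    rcases k with _ | _ | k
    · simp only [pow_zero, sub_self, zero_ne_one, if_false]
      exact h45c_dvd_zero _
    · simp only [zero_add, pow_one, if_true]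
      have : c 1 * Y - c 1 * y - c 1 * (Y - y) = 0 := by ring
      rw [this]
      exact h45c_dvd_zero _
    · have hk : k + 1 + 1 ≠ 1 := by omega
      rw [if_neg hk, sub_zero, ← mul_sub]
      have hgeom := Commute.geom_sum₂_mul (Commute.all Y y) (k + 2)
      rw [← hgeom]
      -- the geometric sum lies in `r A`
      have hsum : h45c_Dvd A r (∑ i ∈ Finset.range (k + 2), Y ^ i * y ^ (k + 2 - 1 - i)) := by
        refine h45c_dvd_sum _ (fun i hi => ?_)
        have hi' : i < k + 2 := Finset.mem_range.1 hi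
        rcases Nat.eq_zero_or_pos i with h0 | hpos
        · subst h0
          rw [pow_zero, one_mul]
          have : k + 2 - 1 - 0 = k + 1 := by omega
          rw [this, pow_succ]
          exact hy.mul_left (pow_mem hyA k)
        · obtain ⟨j, rfl⟩ : ∃ j, i = j + 1 := ⟨i - 1, by omega⟩
          rw [pow_succ, mul_assoc]
          refine (h45c_Dvd.mul_left ?_ (pow_mem hYA j))
          exact hY.mul_right (pow_mem hyA _)
      obtain ⟨a, ha, hsa⟩ := hsum
      refine ⟨c (k + 2) * a, mul_mem (hc _) ha, ?_⟩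
      rw [hsa]
      ring
  have hsumterm := h45c_dvd_sum (A := A) (Finset.range (N + 2)) (c := (Y - y) * r)
    (f := fun k => c k * Y ^ k - c k * y ^ k - (if k = 1 then c 1 * (Y - y) else 0))
    (fun k _ => hterm k)
  have heq : ∑ k ∈ Finset.range (N + 2),
      (c k * Y ^ k - c k * y ^ k - (if k = 1 then c 1 * (Y - y) else 0)) =
      ∑ k ∈ Finset.range (N + 2), c k * Y ^ k - ∑ k ∈ Finset.range (N + 2), c k * y ^ k
        - c 1 * (Y - y) := by
    rw [Finset.sum_sub_distrib, Finset.sum_sub_distrib]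
    congr 1
    rw [Finset.sum_ite_eq' (Finset.range (N + 2)) 1 (fun _ => c 1 * (Y - y))]
    rw [if_pos (Finset.mem_range.2 (by omega))]
  rw [← heq]
  exact hsumterm


/-- One Newton step, pointwise: if `Y ∈ r A` is a root modulo `r ^ m` of
`f = ∑ c k T ^ k` (integral coefficients, `c 1` a unit) and `y ∈ r A` is congruent to `Y` modulo
`r ^ n`, `n + 1 ≤ m`, then `y' = - (c 1)⁻¹ (f(y) - c 1 y)` is congruent to `Y` modulo
`r ^ (n + 1)`. -/
theorem h45c_newton_step (N : ℕ) (c : ℕ → K) (hc : ∀ k, c k ∈ A) (hu : (c 1)⁻¹ ∈ A)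
    (hu0 : c 1 ≠ 0) {r Y y : K} (hr : r ∈ A) (hY : h45c_Dvd A r Y) (hy : h45c_Dvd A r y)
    {m n : ℕ} (hnm : n + 1 ≤ m)
    (hfY : h45c_Dvd A (r ^ m) (∑ k ∈ Finset.range (N + 2), c k * Y ^ k))
    (hYy : h45c_Dvd A (r ^ n) (Y - y)) :
    h45c_Dvd A (r ^ (n + 1))
      (Y - (-(c 1)⁻¹ * (∑ k ∈ Finset.range (N + 2), c k * y ^ k - c 1 * y))) := by
  have hE := h45c_second_order N c hc hr hY hy
  set fY := ∑ k ∈ Finset.range (N + 2), c k * Y ^ k with hfYdef
  set fy := ∑ k ∈ Finset.range (N + 2), c k * y ^ k with hfydef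
  have hrew : Y - (-(c 1)⁻¹ * (fy - c 1 * y)) =
      (c 1)⁻¹ * (fY - (fY - fy - c 1 * (Y - y))) := by
    field_simp
    ring
  rw [hrew]
  refine h45c_Dvd.mul_left ?_ hu
  refine h45c_Dvd.sub (hfY.trans (h45c_dvd_pow_of_le hr hnm)) ?_
  refine hE.trans ?_
  have h1 : h45c_Dvd A (r ^ n * r) ((Y - y) * r) := hYy.mul (h45c_dvd_self r)
  rwa [← pow_succ] at h1

section Functions

variable {S : Type*} [Fintype S]

/-- **(C3) approximate Newton.**  `B` an integral valued `A`-algebra of functions on `S`,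
`F = ∑ φ k T ^ k` with coefficients in `B` and pointwise unit linear coefficient, `Y ∈ r A`
(pointwise) with `F(Y) ∈ r ^ m A`.  Then `Y` is congruent modulo `r ^ m` to an element of `B`. -/
theorem h45c_newton_approx (B : Subalgebra A (S → K)) (hint : ∀ x ∈ B, ∀ s, x s ∈ A)
    (N : ℕ) (φ : ℕ → S → K) (hφ : ∀ k, φ k ∈ B)
    (hu : ∀ s, (φ 1 s)⁻¹ ∈ A) (hu0 : ∀ s, φ 1 s ≠ 0)
    {r : K} (hr : r ∈ A) (Y : S → K) (hY : ∀ s, h45c_Dvd A r (Y s)) (m : ℕ)
    (hFY : ∀ s, h45c_Dvd A (r ^ m) (∑ k ∈ Finset.range (N + 2), φ k s * Y s ^ k)) :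
    ∃ y ∈ B, ∀ s, h45c_Dvd A (r ^ m) (Y s - y s) := by
  have hinv : (φ 1)⁻¹ ∈ B :=
    h45c_inv_mem A B (φ 1) (hφ 1) (fun s => hint _ (hφ 1) s) hu hu0
  have key : ∀ n, n + 1 ≤ m → ∃ y ∈ B, (∀ s, h45c_Dvd A r (y s)) ∧
      ∀ s, h45c_Dvd A (r ^ (n + 1)) (Y s - y s) := by
    intro n
    induction n with
    | zero =>
      intro _
      refine ⟨0, B.zero_mem, fun s => h45c_dvd_zero r, fun s => ?_⟩
      rw [Pi.zero_apply, sub_zero, zero_add, pow_one]
      exact hY s
    | succ n ih =>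
      intro hn
      obtain ⟨y, hyB, hyr, hYy⟩ := ih (by omega)
      refine ⟨-(φ 1)⁻¹ * (∑ k ∈ Finset.range (N + 2), φ k * y ^ k - φ 1 * y), ?_, ?_⟩
      · refine B.mul_mem (B.neg_mem hinv) (B.sub_mem ?_ (B.mul_mem (hφ 1) hyB))
        exact B.sum_mem (fun k _ => B.mul_mem (hφ k) (B.pow_mem hyB k))
      · have hval : ∀ s, (-(φ 1)⁻¹ * (∑ k ∈ Finset.range (N + 2), φ k * y ^ k - φ 1 * y)) s =
            -(φ 1 s)⁻¹ * (∑ k ∈ Finset.range (N + 2), φ k s * y s ^ k - φ 1 s * y s) := by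
          intro s
          simp only [Pi.mul_apply, Pi.neg_apply, Pi.inv_apply, Pi.sub_apply, Finset.sum_apply,
            Pi.pow_apply]
        have hstep : ∀ s, h45c_Dvd A (r ^ (n + 1 + 1))
            (Y s - (-(φ 1)⁻¹ * (∑ k ∈ Finset.range (N + 2), φ k * y ^ k - φ 1 * y)) s) := by
          intro s
          rw [hval s]
          exact h45c_newton_step N (fun k => φ k s) (fun k => hint _ (hφ k) s) (hu s) (hu0 s)
            hr (hY s) (hyr s) hn (hFY s) (hYy s)
        refine ⟨fun s => ?_, hstep⟩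
        have h1 : h45c_Dvd A r
            (Y s - (-(φ 1)⁻¹ * (∑ k ∈ Finset.range (N + 2), φ k * y ^ k - φ 1 * y)) s) := by
          refine (hstep s).trans ?_
          have := h45c_dvd_pow_of_le (A := A) hr (show 1 ≤ n + 1 + 1 by omega)
          rwa [pow_one] at this
        have h2 := (hY s).sub h1
        rwa [sub_sub_cancel] at h2
  rcases m with _ | m
  · refine ⟨0, B.zero_mem, fun s => ?_⟩
    rw [pow_zero, Pi.zero_apply, sub_zero, h45c_dvd_one_iff]
    exact (hY s).mem hr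
  · obtain ⟨y, hyB, -, hYy⟩ := key m le_rfl
    exact ⟨y, hyB, hYy⟩

/-- **(C3') Newton.**  `B` integral valued and separating the points of `S`; `r ∈ A` is
topologically nilpotent (every `d ≠ 0` of `A` divides a power of `r`); `Y ∈ r A` pointwise is,
for every `m`, a root modulo `r ^ m` of a polynomial with coefficients in `B` and pointwise unit
linear coefficient.  Then `Y ∈ B`. -/
theorem h45c_newton (B : Subalgebra A (S → K)) (hint : ∀ x ∈ B, ∀ s, x s ∈ A)
    (hsep : ∀ s s' : S, s ≠ s' → ∃ x ∈ B, x s ≠ x s')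
    {r : K} (hr : r ∈ A) (harch : ∀ d : K, d ∈ A → d ≠ 0 → ∃ m : ℕ, h45c_Dvd A d (r ^ m))
    (Y : S → K) (hY : ∀ s, h45c_Dvd A r (Y s))
    (hF : ∀ m : ℕ, ∃ (N : ℕ) (φ : ℕ → S → K), (∀ k, φ k ∈ B) ∧ (∀ s, (φ 1 s)⁻¹ ∈ A) ∧
      (∀ s, φ 1 s ≠ 0) ∧
      ∀ s, h45c_Dvd A (r ^ m) (∑ k ∈ Finset.range (N + 2), φ k s * Y s ^ k)) :
    Y ∈ B := by
  obtain ⟨d, hd0, hd⟩ := h45c_closed A B hint hsep
  obtain ⟨m, hm⟩ := harch (d : K) d.2 hd0
  obtain ⟨N, φ, hφ, hu, hu0, hFY⟩ := hF m
  obtain ⟨y, hyB, hYy⟩ := h45c_newton_approx B hint N φ hφ hu hu0 hr Y hY m hFY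
  exact hd Y y hyB (fun s => (hYy s).trans hm)

/-- **(C2'') limits.**  `B` integral valued and separating the points of `S`, `r`
topologically nilpotent: a function which is congruent to elements of `B` modulo every power of
`r` lies in `B`. -/
theorem h45c_closed_pow (B : Subalgebra A (S → K)) (hint : ∀ x ∈ B, ∀ s, x s ∈ A)
    (hsep : ∀ s s' : S, s ≠ s' → ∃ x ∈ B, x s ≠ x s')
    {r : K} (harch : ∀ d : K, d ∈ A → d ≠ 0 → ∃ m : ℕ, h45c_Dvd A d (r ^ m))
    (f : S → K) (hf : ∀ m : ℕ, ∃ g ∈ B, ∀ s, h45c_Dvd A (r ^ m) (f s - g s)) : f ∈ B := by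
  obtain ⟨d, hd0, hd⟩ := h45c_closed A B hint hsep
  obtain ⟨m, hm⟩ := harch (d : K) d.2 hd0
  obtain ⟨g, hgB, hfg⟩ := hf m
  exact hd f g hgB (fun s => (hfg s).trans hm)

end Functions

end Fermat.Agent.P5
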