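import Mathlib
import Fermat.Prelude.Def_GaloisRep_Flat

/-!
# Wave 5, pillar (P): Galois descent for function orders (helper98)

Mathlib-only linear algebra behind the adapter "function order ⟹ Prelude `Flat`".

* `h98p_descent_indep` : Artin–Dedekind descent. Equivariant functions `M → K` that are linearly
  independent over the fixed field `F` are linearly independent over `K`.
* `h98p_sep_top` : a `K`-subalgebra of `M → K` (`M` finite) separating the points is everything.
* `H98pGood φ` : `φ : A →ₗ[R] (X → K)` maps some finite `R`-basis of `A` to a `K`-linearly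
  independent family; `h98p_good_injective`, `h98p_good_prod` (tensor products).
-/

set_option autoImplicit false
set_option linter.style.haveILetI false

open scoped TensorProduct

namespace Fermat.Agent.P5

/-- **Artin–Dedekind descent.** -/
theorem h98p_descent_indep {F K M ι : Type*} [Field F] [Field K] [Algebra F K]
    (hfix : ∀ c : K, (∀ σ : K ≃ₐ[F] K, σ c = c) → c ∈ Set.range (algebraMap F K))
    (act : (K ≃ₐ[F] K) → M → M) (hsurj : ∀ σ, Function.Surjective (act σ))
    (f : ι → M → K) (heq : ∀ i σ x, f i (act σ x) = σ (f i x))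
    (hf : LinearIndependent F f) : LinearIndependent K f := by
  classical
  rw [linearIndependent_iff'']
  -- strong induction on the size of the support
  suffices H : ∀ n : ℕ, ∀ s : Finset ι, s.card = n → ∀ g : ι → K, (∀ i ∉ s, g i = 0) →
      ∑ i ∈ s, g i • f i = 0 → ∀ i, g i = 0 from fun s g hg hs => H _ s rfl g hg hs
  intro n
  induction n using Nat.strong_induction_on with
  | _ n ih =>
    intro s hcard g hg hsum
    by_contra hne
    obtain ⟨i₀, hi₀⟩ := not_forall.mp hne
    have hi₀s : i₀ ∈ s := by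
      by_contra h
      exact hi₀ (hg i₀ h)
    -- normalise
    set d : ι → K := fun i => g i / g i₀ with hd
    have hd0 : d i₀ = 1 := by simp [hd, hi₀]
    have hdout : ∀ i ∉ s, d i = 0 := fun i hi => by simp [hd, hg i hi]
    have hdsum : ∑ i ∈ s, d i • f i = 0 := by
      have : ∑ i ∈ s, d i • f i = (g i₀)⁻¹ • ∑ i ∈ s, g i • f i := by
        rw [Finset.smul_sum]
        refine Finset.sum_congr rfl fun i _ => ?_
        rw [smul_smul]
        congr 1
        simp [hd, div_eq_inv_mul]
      rw [this, hsum, smul_zero]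
    -- every coefficient is fixed
    have hfixed : ∀ σ : K ≃ₐ[F] K, ∀ i, σ (d i) = d i := by
      intro σ
      have hrel : ∑ i ∈ s.erase i₀, (σ (d i) - d i) • f i = 0 := by
        have h1 : ∑ i ∈ s, σ (d i) • f i = 0 := by
          funext y
          obtain ⟨x, rfl⟩ := hsurj σ y
          have h2 := congrFun hdsum x
          simp only [Finset.sum_apply, Pi.smul_apply, smul_eq_mul, Pi.zero_apply] at h2 ⊢
          have h3 := congrArg σ h2
          rw [map_sum, map_zero] at h3
          rw [← h3]
          refine Finset.sum_congr rfl fun i _ => ?_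
          rw [map_mul, heq]
        have h4 : ∑ i ∈ s, (σ (d i) - d i) • f i = 0 := by
          simp only [sub_smul, Finset.sum_sub_distrib, h1, hdsum, sub_zero]
        rw [← h4]
        refine (Finset.sum_erase _ ?_)
        simp [hd0]
      have hlt : (s.erase i₀).card < n := by
        rw [← hcard]
        exact Finset.card_erase_lt_of_mem hi₀s
      have := ih _ hlt (s.erase i₀) rfl (fun i => σ (d i) - d i) (fun i hi => by
        by_cases h : i = i₀
        · subst h
          simp [hd0]
        · have : i ∉ s := fun hs => hi (Finset.mem_erase.mpr ⟨h, hs⟩)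
          simp [hdout i this]) hrel
      intro i
      exact sub_eq_zero.mp (this i)
    -- hence rational
    have hrat : ∀ i, ∃ q : F, algebraMap F K q = d i := fun i =>
      hfix (d i) (fun σ => hfixed σ i)
    choose q hq using hrat
    have hqsum : ∑ i ∈ s, q i • f i = 0 := by
      rw [← hdsum]
      refine Finset.sum_congr rfl fun i _ => ?_
      funext x
      simp only [Pi.smul_apply, smul_eq_mul, Algebra.smul_def, hq]
    have hqout : ∀ i ∉ s, q i = 0 := fun i hi => by
      have : algebraMap F K (q i) = 0 := by rw [hq, hdout i hi]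
      exact (map_eq_zero _).mp this
    have hq0 := (linearIndependent_iff''.mp hf) s q hqout hqsum i₀
    have : d i₀ = 0 := by rw [← hq, hq0, map_zero]
    rw [hd0] at this
    exact one_ne_zero this

/-- A subalgebra of `M → K` (`M` finite, `K` a field) separating the points is everything. -/
theorem h98p_sep_top {K M : Type*} [Field K] [Finite M] (S : Subalgebra K (M → K))
    (hsep : ∀ x y : M, x ≠ y → ∃ f ∈ S, f x ≠ f y) : S = ⊤ := by
  classical
  haveI := Fintype.ofFinite M
  -- separating functions with values 1, 0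
  have hg : ∀ x y : M, x ≠ y → ∃ g ∈ S, g x = 1 ∧ g y = 0 := by
    intro x y hxy
    obtain ⟨f, hf, hne⟩ := hsep x y hxy
    refine ⟨(f x - f y)⁻¹ • (f - algebraMap K (M → K) (f y)), ?_, ?_, ?_⟩
    · exact S.smul_mem (S.sub_mem hf (S.algebraMap_mem _)) _
    · simp only [Pi.smul_apply, Pi.sub_apply, Pi.algebraMap_apply, Algebra.algebraMap_self,
        RingHom.id_apply, smul_eq_mul]
      exact inv_mul_cancel₀ (sub_ne_zero.mpr hne)
    · simp
  -- indicator functions
  have hδ : ∀ x : M, Pi.single x (1 : K) ∈ S := by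
    intro x
    choose! g hgS hg1 hg0 using hg x
    have : Pi.single x (1 : K) = ∏ y ∈ Finset.univ.erase x, g y := by
      funext z
      rw [Finset.prod_apply]
      by_cases hz : z = x
      · subst hz
        rw [Pi.single_eq_same]
        symm
        refine Finset.prod_eq_one fun y hy => ?_
        exact hg1 y (Finset.ne_of_mem_erase hy).symm
      · rw [Pi.single_eq_of_ne hz]
        symm
        refine Finset.prod_eq_zero (i := z) (Finset.mem_erase.mpr ⟨hz, Finset.mem_univ _⟩) ?_
        exact hg0 z (Ne.symm hz)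
    rw [this]
    exact S.prod_mem fun y hy => hgS y (Finset.ne_of_mem_erase hy).symm
  rw [eq_top_iff]
  intro f _
  have : f = ∑ x, f x • Pi.single x (1 : K) := by
    funext z
    simp [Finset.sum_apply, Pi.single_apply]
  rw [this]
  exact S.sum_mem fun x _ => S.smul_mem (hδ x) _

/-! ## Good maps: a finite basis with linearly independent image -/

/-- `φ : A →ₗ[R] (X → K)` maps some finite `R`-basis of `A` to a `K`-linearly independent
family of functions. -/
def H98pGood (R K : Type*) [CommRing R] [Field K] [Algebra R K] {A X : Type*} [AddCommGroup A]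
    [Module R A] (φ : A →ₗ[R] (X → K)) : Prop :=
  ∃ (n : ℕ) (b : Module.Basis (Fin n) R A), LinearIndependent K (fun i => φ (b i))

theorem h98p_good_injective {R K : Type*} [CommRing R] [Field K] [Algebra R K]
    (hinj : Function.Injective (algebraMap R K)) {A X : Type*} [AddCommGroup A]
    [Module R A] (φ : A →ₗ[R] (X → K)) (h : H98pGood R K φ) : Function.Injective φ := by
  obtain ⟨n, b, hb⟩ := h
  have hR : LinearIndependent R (fun i => φ (b i)) := by
    refine hb.restrict_scalars ?_
    intro r s hrs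
    apply hinj
    simpa [Algebra.smul_def] using hrs
  rw [injective_iff_map_eq_zero]
  intro a ha
  have h1 : φ a = ∑ i, b.repr a i • φ (b i) := by
    conv_lhs => rw [← b.sum_repr a]
    rw [map_sum]
    simp
  rw [h1] at ha
  have h2 := (Fintype.linearIndependent_iff.mp hR) (fun i => b.repr a i) ha
  apply b.repr.injective
  ext i
  simpa using h2 i

/-- Products of linearly independent families of functions are linearly independent. -/
theorem h98p_indep_prod {K X Y : Type*} [Field K] {m n : ℕ} (u : Fin m → X → K)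
    (v : Fin n → Y → K) (hu : LinearIndependent K u) (hv : LinearIndependent K v) :
    LinearIndependent K (fun ij : Fin m × Fin n => fun p : X × Y => u ij.1 p.1 * v ij.2 p.2) := by
  rw [Fintype.linearIndependent_iff]
  intro g hg
  have key : ∀ y : Y, ∀ i, ∑ j, g (i, j) * v j y = 0 := by
    intro y
    refine Fintype.linearIndependent_iff.mp hu (fun i => ∑ j, g (i, j) * v j y) ?_
    funext x
    have := congrFun hg (x, y)
    simp only [Finset.sum_apply, Pi.smul_apply, smul_eq_mul, Pi.zero_apply] at this ⊢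
    rw [← this, Fintype.sum_prod_type]
    refine Finset.sum_congr rfl fun i _ => ?_
    rw [Finset.sum_mul]
    refine Finset.sum_congr rfl fun j _ => ?_
    ring
  rintro ⟨i, j⟩
  refine Fintype.linearIndependent_iff.mp hv (fun j => g (i, j)) ?_ j
  funext y
  simpa using key y i

/-- The external product `A ⊗ B → (X × Y → K)` of two maps to function spaces. -/
noncomputable def h98p_prodMap {R K : Type*} [CommRing R] [Field K] [Algebra R K]
    {A B X Y : Type*} [AddCommGroup A] [Module R A] [AddCommGroup B] [Module R B]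
    (φ : A →ₗ[R] (X → K)) (ψ : B →ₗ[R] (Y → K)) : A ⊗[R] B →ₗ[R] (X × Y → K) :=
  TensorProduct.lift
    (LinearMap.mk₂ R (fun a b => fun p : X × Y => φ a p.1 * ψ b p.2)
      (fun a a' b => by funext p; simp [add_mul])
      (fun r a b => by funext p; simp [Algebra.smul_def, mul_assoc])
      (fun a b b' => by funext p; simp [mul_add])
      (fun r a b => by funext p; simp [Algebra.smul_def, mul_left_comm]))

@[simp] theorem h98p_prodMap_tmul {R K : Type*} [CommRing R] [Field K] [Algebra R K]
    {A B X Y : Type*} [AddCommGroup A] [Module R A] [AddCommGroup B] [Module R B]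
    (φ : A →ₗ[R] (X → K)) (ψ : B →ₗ[R] (Y → K)) (a : A) (b : B) (p : X × Y) :
    h98p_prodMap φ ψ (a ⊗ₜ[R] b) p = φ a p.1 * ψ b p.2 := by
  simp [h98p_prodMap]

theorem h98p_good_prod {R K : Type*} [CommRing R] [Field K] [Algebra R K]
    {A B X Y : Type*} [AddCommGroup A] [Module R A] [AddCommGroup B] [Module R B]
    (φ : A →ₗ[R] (X → K)) (ψ : B →ₗ[R] (Y → K)) (hφ : H98pGood R K φ) (hψ : H98pGood R K ψ) :
    H98pGood R K (h98p_prodMap φ ψ) := by
  obtain ⟨m, b, hb⟩ := hφ
  obtain ⟨n, c, hc⟩ := hψ
  have hbc := h98p_indep_prod _ _ hb hc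
  let e : Fin m × Fin n ≃ Fin (m * n) := finProdFinEquiv
  refine ⟨m * n, (b.tensorProduct c).reindex e, ?_⟩
  have : (fun i => h98p_prodMap φ ψ (((b.tensorProduct c).reindex e) i)) =
      (fun ij : Fin m × Fin n => fun p : X × Y => φ (b ij.1) p.1 * ψ (c ij.2) p.2) ∘ e.symm := by
    funext i p
    obtain ⟨i1, i2, hi⟩ : ∃ i1 i2, e.symm i = (i1, i2) := ⟨_, _, rfl⟩
    simp only [Module.Basis.reindex_apply, Function.comp_apply]
    rw [hi, Module.Basis.tensorProduct_apply, h98p_prodMap_tmul]
  rw [this]
  exact hbc.comp _ e.symm.injective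

/-! ## Function orders -/

section order

variable {R F K M : Type*} [CommRing R] [IsDomain R] [IsPrincipalIdealRing R] [Field F] [Field K]
  [Algebra R F] [IsFractionRing R F] [Algebra F K] [Algebra R K] [IsScalarTower R F K] [Finite M]

omit [IsDomain R] [IsPrincipalIdealRing R] [Finite M] in
theorem h98p_algebraMap_injective (F : Type*) [Field F] [Algebra R F] [IsFractionRing R F]
    [Algebra F K] [IsScalarTower R F K] : Function.Injective (algebraMap R K) := by
  rw [IsScalarTower.algebraMap_eq R F K]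
  exact (algebraMap F K).injective.comp (IsFractionRing.injective R F)

omit [IsDomain R] [IsPrincipalIdealRing R] [IsFractionRing R F] [Algebra R F]
  [IsScalarTower R F K] in
/-- The Galois action on the points is bijective as soon as equivariant functions separate. -/
theorem h98p_act_surjective (act : (K ≃ₐ[F] K) → M → M)
    (𝓗 : Subalgebra R (M → K))
    (heq : ∀ f ∈ 𝓗, ∀ σ x, f (act σ x) = σ (f x))
    (hsep : ∀ x y, (∀ f ∈ 𝓗, f x = f y) → x = y) (σ : K ≃ₐ[F] K) :
    Function.Surjective (act σ) := by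
  refine Finite.surjective_of_injective fun x y hxy => hsep x y fun f hf => ?_
  have h1 := heq f hf σ x
  rw [hxy, heq f hf σ y] at h1
  exact (σ.injective h1).symm

theorem h98p_order_good
    (hfix : ∀ c : K, (∀ σ : K ≃ₐ[F] K, σ c = c) → c ∈ Set.range (algebraMap F K))
    (act : (K ≃ₐ[F] K) → M → M)
    (𝓗 : Subalgebra R (M → K)) (hfg : (Subalgebra.toSubmodule 𝓗).FG)
    (heq : ∀ f ∈ 𝓗, ∀ σ x, f (act σ x) = σ (f x))
    (hsep : ∀ x y, (∀ f ∈ 𝓗, f x = f y) → x = y) :
    H98pGood R K 𝓗.val.toLinearMap := by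
  have hinj : Function.Injective (algebraMap R K) := h98p_algebraMap_injective F
  haveI : Module.Finite R 𝓗 :=
    (Module.Finite.iff_fg (N := Subalgebra.toSubmodule 𝓗)).mpr hfg
  haveI : Module.IsTorsionFree R (M → K) := by
    refine ⟨fun r hr f g hfg => ?_⟩
    have hr0 : algebraMap R K r ≠ 0 := by
      rw [Ne, ← map_zero (algebraMap R K)]
      exact fun h => hr.ne_zero (hinj h)
    funext x
    have := congrFun hfg x
    simp only [Pi.smul_apply, Algebra.smul_def] at this
    exact mul_left_cancel₀ hr0 this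
  haveI : Module.IsTorsionFree R 𝓗 :=
    Function.Injective.moduleIsTorsionFree (fun f : 𝓗 => (f : M → K)) Subtype.val_injective
      (fun _ _ => rfl)
  obtain ⟨n, b⟩ := Module.basisOfFiniteTypeTorsionFree' (R := R) (M := 𝓗)
  refine ⟨n, b, ?_⟩
  have hR : LinearIndependent R (fun i => 𝓗.val.toLinearMap (b i)) :=
    b.linearIndependent.map' _ (LinearMap.ker_eq_bot.mpr Subtype.val_injective)
  have hF : LinearIndependent F (fun i => 𝓗.val.toLinearMap (b i)) :=
    (LinearIndependent.iff_fractionRing R F).mp hR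
  exact h98p_descent_indep hfix act (h98p_act_surjective act 𝓗 heq hsep) _
    (fun i σ x => heq _ (b i).2 σ x) hF

omit [IsDomain R] [IsPrincipalIdealRing R] [IsFractionRing R F] [Algebra R F]
  [IsScalarTower R F K] [Algebra F K] [Field F] in
/-- The `K`-span of a separating `R`-subalgebra of `M → K` is everything. -/
theorem h98p_order_span (𝓗 : Subalgebra R (M → K))
    (hsep : ∀ x y, (∀ f ∈ 𝓗, f x = f y) → x = y) :
    Submodule.span K (𝓗 : Set (M → K)) = ⊤ := by
  have h1 : Algebra.adjoin K (𝓗 : Set (M → K)) = ⊤ := by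
    refine h98p_sep_top _ fun x y hxy => ?_
    by_contra hcon
    refine hxy (hsep x y fun f hf => ?_)
    by_contra hne
    exact hcon ⟨f, Algebra.subset_adjoin hf, hne⟩
  have h2 := congrArg Subalgebra.toSubmodule h1
  rw [Algebra.adjoin_eq_span, Algebra.top_toSubmodule] at h2
  rw [← h2]
  congr 1
  exact congrArg (fun S : Submonoid (M → K) => (S : Set (M → K)))
    (Submonoid.closure_eq 𝓗.toSubmonoid).symm

/-- For a good basis `b` of a separating order, `b` is a `K`-basis of all functions. -/
theorem h98p_order_basis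
    (hfix : ∀ c : K, (∀ σ : K ≃ₐ[F] K, σ c = c) → c ∈ Set.range (algebraMap F K))
    (act : (K ≃ₐ[F] K) → M → M)
    (𝓗 : Subalgebra R (M → K)) (hfg : (Subalgebra.toSubmodule 𝓗).FG)
    (heq : ∀ f ∈ 𝓗, ∀ σ x, f (act σ x) = σ (f x))
    (hsep : ∀ x y, (∀ f ∈ 𝓗, f x = f y) → x = y) :
    ∃ (n : ℕ) (b : Module.Basis (Fin n) R 𝓗),
      LinearIndependent K (fun i => ((b i : 𝓗) : M → K)) ∧
      Submodule.span K (Set.range fun i => ((b i : 𝓗) : M → K)) = ⊤ ∧ n = Nat.card M := by
  obtain ⟨n, b, hb⟩ := h98p_order_good hfix act 𝓗 hfg heq hsep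
  have hspan : Submodule.span K (Set.range fun i => ((b i : 𝓗) : M → K)) = ⊤ := by
    rw [eq_top_iff, ← h98p_order_span 𝓗 hsep, Submodule.span_le]
    intro f hf
    have h1 : (⟨f, hf⟩ : 𝓗) = ∑ i, b.repr ⟨f, hf⟩ i • b i := (b.sum_repr _).symm
    have h2 : f = ∑ i, b.repr ⟨f, hf⟩ i • ((b i : 𝓗) : M → K) := by
      have := congrArg (fun g : 𝓗 => 𝓗.val.toLinearMap g) h1
      simp only [map_sum, map_smul] at this
      exact this
    rw [SetLike.mem_coe, h2]
    refine Submodule.sum_mem _ fun i _ => ?_
    have h3 : b.repr ⟨f, hf⟩ i • ((b i : 𝓗) : M → K) =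
        algebraMap R K (b.repr ⟨f, hf⟩ i) • ((b i : 𝓗) : M → K) := by
      funext x
      simp [Algebra.smul_def]
    rw [h3]
    exact Submodule.smul_mem _ _ (Submodule.subset_span ⟨i, rfl⟩)
  refine ⟨n, b, hb, hspan, ?_⟩
  haveI := Fintype.ofFinite M
  let B : Module.Basis (Fin n) K (M → K) := Module.Basis.mk hb hspan.ge
  have h4 := Module.finrank_eq_card_basis B
  rw [Module.finrank_pi, Fintype.card_fin] at h4
  rw [Nat.card_eq_fintype_card, h4]

omit [IsDomain R] [IsPrincipalIdealRing R] [IsFractionRing R F] [Algebra R F]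
  [IsScalarTower R F K] [Finite M] in
/-- Sweedler closure forces the Galois action to be additive. -/
theorem h98p_act_add [Add M] (act : (K ≃ₐ[F] K) → M → M)
    (𝓗 : Subalgebra R (M → K))
    (heq : ∀ f ∈ 𝓗, ∀ σ x, f (act σ x) = σ (f x))
    (hsep : ∀ x y, (∀ f ∈ 𝓗, f x = f y) → x = y)
    (hcomul : ∀ f ∈ 𝓗, ∃ (n : ℕ) (a b : Fin n → M → K), (∀ i, a i ∈ 𝓗) ∧ (∀ i, b i ∈ 𝓗) ∧
      ∀ x y, f (x + y) = ∑ i, a i x * b i y)
    (σ : K ≃ₐ[F] K) (x y : M) : act σ (x + y) = act σ x + act σ y := by
  refine hsep _ _ fun f hf => ?_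
  obtain ⟨n, a, b, ha, hb, hab⟩ := hcomul f hf
  rw [heq f hf, hab, hab, map_sum]
  refine Finset.sum_congr rfl fun i _ => ?_
  rw [map_mul, heq _ (ha i), heq _ (hb i)]

omit [Finite M] in
/-- Values at a Galois-fixed point of functions in an order lie in `R`. -/
theorem h98p_eval_fixed_mem
    (hfix : ∀ c : K, (∀ σ : K ≃ₐ[F] K, σ c = c) → c ∈ Set.range (algebraMap F K))
    (act : (K ≃ₐ[F] K) → M → M)
    (𝓗 : Subalgebra R (M → K)) (hfg : (Subalgebra.toSubmodule 𝓗).FG)
    (heq : ∀ f ∈ 𝓗, ∀ σ x, f (act σ x) = σ (f x))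
    (x₀ : M) (hx₀ : ∀ σ, act σ x₀ = x₀) (f : M → K) (hf : f ∈ 𝓗) :
    f x₀ ∈ Set.range (algebraMap R K) := by
  obtain ⟨q, hq⟩ := hfix (f x₀) fun σ => by rw [← heq f hf σ x₀, hx₀]
  haveI : Module.Finite R 𝓗 :=
    (Module.Finite.iff_fg (N := Subalgebra.toSubmodule 𝓗)).mpr hfg
  have hint : IsIntegral R (⟨f, hf⟩ : 𝓗) := IsIntegral.of_finite R _
  have hint2 : IsIntegral R (f x₀) := by
    have := hint.map ((Pi.evalAlgHom R (fun _ : M => K) x₀).comp 𝓗.val)
    simpa using this
  rw [← hq] at hint2
  have hint3 : IsIntegral R q :=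
    (isIntegral_algebraMap_iff (algebraMap F K).injective).mp hint2
  obtain ⟨r, hr⟩ := IsIntegrallyClosed.isIntegral_iff.mp hint3
  refine ⟨r, ?_⟩
  rw [IsScalarTower.algebraMap_apply R F K, hr, hq]

end order

end Fermat.Agent.P5
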