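import Fermat.Agent.P5.H45DescSep
import Fermat.Agent.P5.H47DescIface
import Fermat.Agent.P5.H98Descent

/-!
# Wave 5, pillar (P), block TOP-DESC, leaf D-GLOB (helper45)

* `h45t_span_eq_top` : on a finite set with a continuous `G_ℚ`-action the equivariant functions
  span all functions over `ℚ̄` (`h45t_sep` + `h98p_sep_top`);
* `h45t_globBasis : H47dGlobBasis` : the exact frozen Prop of `P5/H47DescIface.lean`.
-/

set_option linter.style.haveILetI false

set_option autoImplicit false

noncomputable section

namespace Fermat.Agent.P5

section Glob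

variable {M : Type} [AddCommGroup M] (act : H98pGQ → M → M)

/-- the set of equivariant functions. -/
def h45tEq : Set (M → H98pQb) := {f | ∀ σ x, f (act σ x) = σ (f x)}

/-- the equivariant functions span all functions. -/
theorem h45t_span_eq_top [Finite M] (h : H98pIsGalAct act) :
    Submodule.span H98pQb (h45tEq act) = ⊤ := by
  classical
  -- the span is the underlying module of the adjoin
  have hmon : ((Submonoid.closure (h45tEq act) : Submonoid (M → H98pQb)) : Set (M → H98pQb))
      = h45tEq act := by
    let S : Submonoid (M → H98pQb) :=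
      { carrier := h45tEq act
        mul_mem' := fun {a b} ha hb σ x => by
          show a (act σ x) * b (act σ x) = σ (a x * b x)
          rw [ha σ x, hb σ x, map_mul]
        one_mem' := fun σ x => by
          show (1 : H98pQb) = σ 1
          rw [map_one] }
    have : Submonoid.closure (h45tEq act) = S := Submonoid.closure_eq S
    rw [this]
    rfl
  have h1 : Submodule.span H98pQb (h45tEq act)
      = Subalgebra.toSubmodule (Algebra.adjoin H98pQb (h45tEq act)) := by
    rw [Algebra.adjoin_eq_span, hmon]
  have h2 : Algebra.adjoin H98pQb (h45tEq act) = ⊤ := by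
    refine h98p_sep_top _ (fun x y hxy => ?_)
    obtain ⟨f, hf, -, hfxy⟩ := h45t_sep act h x y hxy
    exact ⟨f, Algebra.subset_adjoin hf, hfxy⟩
  rw [h1, h2]
  simp

/-- **D-GLOB.** -/
theorem h45t_globBasis : H47dGlobBasis := by
  classical
  intro M _ _ act h
  haveI := Fintype.ofFinite M
  obtain ⟨b, hbE, hbspan, hbli⟩ := exists_linearIndependent H98pQb (h45tEq act)
  rw [h45t_span_eq_top act h] at hbspan
  have hbfin : b.Finite := hbli.setFinite
  haveI : Fintype b := hbfin.fintype
  let eqv : Fin (Fintype.card b) ≃ b := (Fintype.equivFin b).symm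
  refine ⟨Fintype.card b, fun i => (eqv i : M → H98pQb), ?_, ?_, ?_⟩
  · intro i σ x
    exact hbE (eqv i).2 σ x
  · exact hbli.comp eqv eqv.injective
  · have : Set.range (fun i => (eqv i : M → H98pQb)) = b := by
      ext f
      constructor
      · rintro ⟨i, rfl⟩
        exact (eqv i).2
      · intro hf
        exact ⟨eqv.symm ⟨f, hf⟩, by simp⟩
    rw [this, hbspan]

end Glob

end Fermat.Agent.P5
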