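import Fermat.Agent.P5.Skeleton

/-!
# Wave 5, pillar (P), block TOP-DESC, leaf DESC-SEP (helper45)

`M` a set with a continuous action `act` of `G_ℚ` (`H98pIsGalAct`: an action, trivial on the
fixing group of a number field).

* `h45tStab` : the stabiliser of a point (an open subgroup, `h45t_stab_isOpen`);
* `h45t_exists_moved` : if `σ₀` moves `x`, some integral `α ∈ ℚ̄` is fixed by the stabiliser of
  `x` and moved by `σ₀` (Galois correspondence for closed subgroups);
* `h45t_sep` : **equivariant integral functions separate the points of `M`**: for `x ≠ y` there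
  is `f : M → ℚ̄` with `f (act σ z) = σ (f z)`, all values integral over `ℤ`, and `f x ≠ f y`.

Consequence (for the assembly of `H98pDescent`): the maximal order
`{f equivariant, values in A}` separates points, so `h98p_zp_basis` applies to it.
-/

set_option autoImplicit false

noncomputable section

namespace Fermat.Agent.P5

section Sep

variable {M : Type} [AddCommGroup M] (act : H98pGQ → M → M)

/-- the stabiliser of a point. -/
def h45tStab (h : H98pIsGalAct act) (x : M) : Subgroup H98pGQ where
  carrier := {τ | act τ x = x}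
  one_mem' := h.one x
  mul_mem' := by
    intro a b ha hb
    show act (a * b) x = x
    rw [h.mul, show act b x = x from hb, show act a x = x from ha]
  inv_mem' := by
    intro a ha
    show act a⁻¹ x = x
    have h1 : act a⁻¹ (act a x) = x := by rw [← h.mul, inv_mul_cancel, h.one]
    rw [show act a x = x from ha] at h1
    exact h1

theorem h45t_mem_stab (h : H98pIsGalAct act) (x : M) (τ : H98pGQ) :
    τ ∈ h45tStab act h x ↔ act τ x = x := Iff.rfl

theorem h45t_stab_isOpen (h : H98pIsGalAct act) (x : M) :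
    IsOpen ((h45tStab act h x : Subgroup H98pGQ) : Set H98pGQ) := by
  obtain ⟨L, hL, hfix⟩ := h.cont
  have hL' : FiniteDimensional ℚ L := hL
  have h1 : L.fixingSubgroup ≤ h45tStab act h x := by
    intro σ hσ
    refine hfix σ (fun y hy => ?_) x
    exact hσ ⟨y, hy⟩
  exact Subgroup.isOpen_mono h1 (IntermediateField.fixingSubgroup_isOpen L)

/-- an element fixed by the stabiliser and moved by `σ₀ ∉ Stab`. -/
theorem h45t_exists_moved (h : H98pIsGalAct act) (x : M) (σ₀ : H98pGQ)
    (hσ₀ : act σ₀ x ≠ x) :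
    ∃ α : H98pQb, (∀ τ, act τ x = x → τ α = α) ∧ σ₀ α ≠ α ∧ IsIntegral ℤ α := by
  classical
  have hAC : IsAlgClosure ℚ H98pQb := ⟨inferInstance, AlgebraicClosure.isAlgebraic ℚ⟩
  have hGal : IsGalois ℚ H98pQb := IsAlgClosure.isGalois ℚ H98pQb
  have hopen := h45t_stab_isOpen act h x
  have hclosed : IsClosed ((h45tStab act h x : Subgroup H98pGQ) : Set H98pGQ) :=
    Subgroup.isClosed_of_isOpen _ hopen
  let H : ClosedSubgroup H98pGQ := ⟨h45tStab act h x, hclosed⟩
  have hgal := InfiniteGalois.fixingSubgroup_fixedField H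
  -- `σ₀` does not fix the fixed field
  have hnot : σ₀ ∉ (IntermediateField.fixedField (H : Subgroup H98pGQ)).fixingSubgroup := by
    rw [hgal]
    exact hσ₀
  have hex : ∃ β : H98pQb, (∀ τ, act τ x = x → τ β = β) ∧ σ₀ β ≠ β := by
    by_contra hcon
    apply hnot
    intro ⟨β, hβ⟩
    by_contra hne
    refine hcon ⟨β, fun τ hτ => ?_, hne⟩
    exact hβ ⟨τ, hτ⟩
  obtain ⟨β, hβ, hβ'⟩ := hex
  -- make it integral
  have halg : IsAlgebraic ℤ β := by
    have h1 : IsAlgebraic ℚ β := (AlgebraicClosure.isAlgebraic ℚ).isAlgebraic β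
    exact (IsFractionRing.isAlgebraic_iff ℤ ℚ H98pQb).mpr h1
  obtain ⟨n, hn, hnγ⟩ := halg.exists_integral_multiple
  refine ⟨n • β, fun τ hτ => ?_, ?_, hnγ⟩
  · rw [map_zsmul, hβ τ hτ]
  · rw [map_zsmul]
    intro hh
    have hn' : ((n : ℤ) : H98pQb) ≠ 0 := by
      exact_mod_cast hn
    rw [zsmul_eq_mul, zsmul_eq_mul] at hh
    exact hβ' (mul_left_cancel₀ hn' hh)

/-- **DESC-SEP.** Equivariant integral functions separate the points of a module with a
continuous Galois action. -/
theorem h45t_sep (h : H98pIsGalAct act) (x y : M) (hxy : x ≠ y) :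
    ∃ f : M → H98pQb, (∀ σ z, f (act σ z) = σ (f z)) ∧ (∀ z, IsIntegral ℤ (f z)) ∧
      f x ≠ f y := by
  classical
  have hinv : ∀ σ z, act σ⁻¹ (act σ z) = z := fun σ z => by
    rw [← h.mul, inv_mul_cancel, h.one]
  have hinv' : ∀ σ z, act σ (act σ⁻¹ z) = z := fun σ z => by
    rw [← h.mul, mul_inv_cancel, h.one]
  -- membership in the orbit of `x` is invariant
  have horb : ∀ σ z, (∃ τ, act τ x = act σ z) ↔ ∃ τ, act τ x = z := by
    intro σ z
    constructor
    · rintro ⟨τ, hτ⟩
      refine ⟨σ⁻¹ * τ, ?_⟩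
      rw [h.mul, hτ, hinv]
    · rintro ⟨τ, hτ⟩
      refine ⟨σ * τ, ?_⟩
      rw [h.mul, hτ]
  by_cases hy : ∃ σ₀, act σ₀ x = y
  · obtain ⟨σ₀, hσ₀⟩ := hy
    have hne : act σ₀ x ≠ x := by
      rw [hσ₀]
      exact fun hh => hxy hh.symm
    obtain ⟨α, hα, hα', hαint⟩ := h45t_exists_moved act h x σ₀ hne
    -- well-definedness
    have hwd : ∀ τ τ', act τ x = act τ' x → τ α = τ' α := by
      intro τ τ' hττ'
      have h1 : act (τ'⁻¹ * τ) x = x := by
        rw [h.mul, hττ', hinv]
      have h2 := hα _ h1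
      have h3 : τ' ((τ'⁻¹ * τ) α) = τ α := by
        show (τ' * (τ'⁻¹ * τ)) α = τ α
        rw [mul_inv_cancel_left]
      rw [← h3, h2]
    let f : M → H98pQb := fun z => if hz : ∃ τ, act τ x = z then hz.choose α else 0
    have hf : ∀ τ, f (act τ x) = τ α := by
      intro τ
      have hz : ∃ τ', act τ' x = act τ x := ⟨τ, rfl⟩
      show (if hz : ∃ τ', act τ' x = act τ x then hz.choose α else 0) = τ α
      rw [dif_pos hz]
      exact hwd _ _ hz.choose_spec
    have hf0 : ∀ z, (¬ ∃ τ, act τ x = z) → f z = 0 := by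
      intro z hz
      show (if hz : ∃ τ', act τ' x = z then hz.choose α else 0) = 0
      rw [dif_neg hz]
    refine ⟨f, ?_, ?_, ?_⟩
    · intro σ z
      by_cases hz : ∃ τ, act τ x = z
      · obtain ⟨τ, rfl⟩ := hz
        rw [← h.mul, hf, hf]
        rfl
      · rw [hf0 z hz, hf0 _ (fun hh => hz ((horb σ z).mp hh)), map_zero]
    · intro z
      by_cases hz : ∃ τ, act τ x = z
      · obtain ⟨τ, rfl⟩ := hz
        rw [hf]
        exact map_isIntegral_int τ hαint
      · rw [hf0 z hz]
        exact isIntegral_zero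
    · have h1 : f x = α := by
        have := hf 1
        rw [h.one] at this
        rw [this]
        rfl
      have h2 : f y = σ₀ α := by
        rw [← hσ₀, hf]
      rw [h1, h2]
      exact fun hh => hα' hh.symm
  · -- `y` is not in the orbit of `x`: orbit indicator
    let f : M → H98pQb := fun z => if ∃ τ, act τ x = z then 1 else 0
    refine ⟨f, ?_, ?_, ?_⟩
    · intro σ z
      show (if ∃ τ, act τ x = act σ z then (1 : H98pQb) else 0)
        = σ (if ∃ τ, act τ x = z then (1 : H98pQb) else 0)
      by_cases hz : ∃ τ, act τ x = z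
      · rw [if_pos hz, if_pos ((horb σ z).mpr hz), map_one]
      · rw [if_neg hz, if_neg (fun hh => hz ((horb σ z).mp hh)), map_zero]
    · intro z
      show IsIntegral ℤ (if ∃ τ, act τ x = z then (1 : H98pQb) else 0)
      split_ifs
      · exact isIntegral_one
      · exact isIntegral_zero
    · have h1 : f x = 1 := by
        show (if ∃ τ, act τ x = x then (1 : H98pQb) else 0) = 1
        rw [if_pos ⟨1, h.one x⟩]
      have h2 : f y = 0 := by
        show (if ∃ τ, act τ x = y then (1 : H98pQb) else 0) = 0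
        rw [if_neg hy]
      rw [h1, h2]
      exact one_ne_zero

end Sep

end Fermat.Agent.P5

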