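import Fermat.Agent.P5.H47DescIface
import Fermat.Agent.P5.H47DescCore
import Fermat.Agent.Bridge.Frobenius
import Fermat.Agent.Bridge.Dict
import Fermat.Agent.Bridge.H47Inertia
import Fermat.Agent.PT.Glob.H55InertVal

/-!
# Wave 5, pillar (P), block ALG-DESC, leaf D-COORD (helper47)

`h47d_coord : H47dCoord` : Frobenius descent of lattices over the inertia ring
`O^ur = A ∩ ℚ̄ ^ I`, in coordinates.

Inputs: `h55v_kInertVal` (`p` is a uniformiser of `O^ur`), existence of Frobenius elements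
(`Bridge.existsFrob`), Artin--Schreier (roots of `X ^ p - X - s` are fixed by inertia), and the
abstract core `h47d_lattice`.
-/

set_option autoImplicit false
set_option linter.style.haveILetI false
set_option linter.unusedSectionVars false

open scoped Pointwise

noncomputable section

namespace Fermat.Agent.P5

open Fermat.Agent.Bridge

variable {A : ValuationSubring H98pQb}

/-! ## The decomposition group acts on `A`, on its non-units and on the inertia ring -/

theorem h47d_decomp_mem {τ : H98pGQ} (hτ : τ ∈ A.decompositionSubgroup ℚ) {x : H98pQb}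
    (hx : x ∈ A) : τ x ∈ A := by
  have h1 : τ • A = A := MulAction.mem_stabilizer_iff.mp hτ
  have h2 : τ x ∈ τ • A := by
    rw [Fermat.Agent.Bridge.mem_smul_iff]
    show (τ⁻¹ : H98pGQ) (τ x) ∈ A
    have : (τ⁻¹ : H98pGQ) (τ x) = x := τ.symm_apply_apply x
    rw [this]
    exact hx
  rwa [h1] at h2

theorem h47d_decomp_nonunits {τ : H98pGQ} (hτ : τ ∈ A.decompositionSubgroup ℚ) {x : H98pQb}
    (hx : x ∈ A.nonunits) : τ x ∈ A.nonunits := by
  have h1 : τ • A = A := MulAction.mem_stabilizer_iff.mp hτ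
  have h2 : τ x ∈ (τ • A).nonunits := by
    rw [Fermat.Agent.Bridge.mem_nonunits_smul_iff]
    have : (τ⁻¹ : H98pGQ) (τ x) = x := τ.symm_apply_apply x
    rw [this]
    exact hx
  rwa [h1] at h2

/-- the inertia group is normalised by the decomposition group. -/
theorem h47d_conj_mem_inertia {τ σ : H98pGQ} (hτ : τ ∈ A.decompositionSubgroup ℚ)
    (hσ : σ ∈ A.inertiaSubgroupIn ℚ) : τ⁻¹ * σ * τ ∈ A.inertiaSubgroupIn ℚ := by
  rw [Fermat.Agent.Bridge.H47.mem_inertiaSubgroupIn_iff] at hσ ⊢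
  obtain ⟨hσD, hσ1⟩ := hσ
  have hτi : τ⁻¹ ∈ A.decompositionSubgroup ℚ := inv_mem hτ
  refine ⟨mul_mem (mul_mem hτi hσD) hτ, fun z hz => ?_⟩
  have h1 := hσ1 (τ z) (h47d_decomp_mem hτ hz)
  have h2 := h47d_decomp_nonunits hτi h1
  have e : (τ⁻¹ * σ * τ) z - z = (τ⁻¹ : H98pGQ) (σ (τ z) - τ z) := by
    rw [map_sub]
    have : (τ⁻¹ : H98pGQ) (τ z) = z := τ.symm_apply_apply z
    rw [this]
    rfl
  rw [e]
  exact h2

theorem h47d_decomp_our {τ : H98pGQ} (hτ : τ ∈ A.decompositionSubgroup ℚ) {x : H98pQb}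
    (hx : x ∈ h47dOur A) : τ x ∈ h47dOur A := by
  refine ⟨h47d_decomp_mem hτ hx.1, fun σ hσ => ?_⟩
  have h1 := hx.2 _ (h47d_conj_mem_inertia hτ hσ)
  have h2 : (τ⁻¹ * σ * τ) x = (τ⁻¹ : H98pGQ) (σ (τ x)) := rfl
  rw [h2] at h1
  have h3 := congrArg τ h1
  have h4 : τ ((τ⁻¹ : H98pGQ) (σ (τ x))) = σ (τ x) := τ.apply_symm_apply _
  rw [h4] at h3
  exact h3

/-! ## `p` is a uniformiser of the inertia ring -/

theorem h47d_natCast_mem_our (A : ValuationSubring H98pQb) (n : ℕ) :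
    (n : H98pQb) ∈ h47dOur A :=
  natCast_mem _ n

theorem h47d_rat_fixed (σ : H98pGQ) (r : ℚ) : σ (algebraMap ℚ H98pQb r) = algebraMap ℚ H98pQb r :=
  σ.commutes r

/-- An element of the inertia ring which is a non-unit of `A` is divisible by `p` in the
inertia ring. -/
theorem h47d_our_dvd {p : ℕ} (hp : p.Prime) (hA : A.LiesOverPrime p) {y : H98pQb}
    (hy : y ∈ h47dOur A) (hyn : y ∈ A.nonunits) :
    ∃ w ∈ h47dOur A, y = (p : H98pQb) * w := by
  by_cases hy0 : y = 0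
  · exact ⟨0, (h47dOur A).zero_mem, by rw [hy0, mul_zero]⟩
  obtain ⟨j, u, hu, hui, hyu⟩ := Fermat.Agent.PT.Glob.h55v_kInertVal p hp A hA y hy0 hy.2
  have hp0 : (p : H98pQb) ≠ 0 := by exact_mod_cast hp.ne_zero
  have hu0 : u ≠ 0 := by
    rintro rfl
    rw [mul_zero] at hyu
    exact hy0 hyu
  -- `j ≥ 1`
  have hj : 1 ≤ j := by
    by_contra hcon
    have hj0 : j ≤ 0 := by omega
    -- `y⁻¹ = p ^ (-j) * u⁻¹ ∈ A`
    have h1 : y⁻¹ = (p : H98pQb) ^ (-j) * u⁻¹ := by
      rw [hyu, mul_inv, zpow_neg]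
    have h2 : (p : H98pQb) ^ (-j) ∈ A := by
      obtain ⟨k, hk⟩ := Int.eq_ofNat_of_zero_le (by omega : 0 ≤ -j)
      rw [hk, zpow_natCast]
      exact pow_mem (natCast_mem A p) k
    have h3 : y⁻¹ ∈ A := by
      rw [h1]
      exact A.mul_mem _ _ h2 hui
    rcases (Fermat.Agent.Bridge.mem_nonunits_iff_inv A y).mp hyn with h | h
    · exact hy0 h
    · exact h h3
  -- `w = p ^ (j - 1) * u`
  refine ⟨(p : H98pQb) ^ (j - 1) * u, ⟨?_, fun σ hσ => ?_⟩, ?_⟩
  · obtain ⟨k, hk⟩ := Int.eq_ofNat_of_zero_le (by omega : 0 ≤ j - 1)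
    rw [hk, zpow_natCast]
    exact A.mul_mem _ _ (pow_mem (natCast_mem A p) k) hu
  · -- fixed by inertia: `w = y / p`
    have e : (p : H98pQb) ^ (j - 1) * u = y * (p : H98pQb)⁻¹ := by
      rw [hyu, zpow_sub_one₀ hp0]
      ring
    rw [e, map_mul, map_inv₀, map_natCast, hy.2 σ hσ]
  · rw [hyu, ← mul_assoc, ← zpow_one_add₀ hp0]
    congr 2
    ring


/-! ## Frobenius fixed points in characteristic `p` -/

open Polynomial in
/-- In a field of characteristic `p`, a fixed point of Frobenius is the image of a natural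
number. -/
theorem h47d_frob_fixed {k : Type*} [Field k] (p : ℕ) (hp : p.Prime) (hpk : (p : k) = 0)
    (r : k) (hr : r ^ p = r) : ∃ a : ℕ, r = (a : k) := by
  haveI : Fact p.Prime := ⟨hp⟩
  haveI : CharP k p := (CharP.charP_iff_prime_eq_zero hp).mpr hpk
  letI : Algebra (ZMod p) k := ZMod.algebra k p
  have h1 : (X ^ p - X : (ZMod p)[X]) = ∏ a : ZMod p, (X - C a) := by
    have hroots : (X ^ p - X : (ZMod p)[X]).roots = Finset.univ.val := by
      have := FiniteField.roots_X_pow_card_sub_X (ZMod p)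
      rwa [ZMod.card] at this
    have hdeg : (X ^ p - X : (ZMod p)[X]).natDegree = p :=
      FiniteField.X_pow_card_sub_X_natDegree_eq (ZMod p) hp.one_lt
    have hmonic : (X ^ p - X : (ZMod p)[X]).Monic := by
      apply Polynomial.monic_X_pow_sub
      rw [degree_X]
      exact_mod_cast hp.one_lt
    have hcard : Multiset.card (X ^ p - X : (ZMod p)[X]).roots =
        (X ^ p - X : (ZMod p)[X]).natDegree := by
      rw [hroots, hdeg]
      simp
    have := Polynomial.prod_multiset_X_sub_C_of_monic_of_roots_card_eq hmonic hcard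
    rw [hroots] at this
    rw [← this]
    rfl
  have h2 := congrArg (fun f : (ZMod p)[X] => (f.map (algebraMap (ZMod p) k)).eval r) h1
  simp only [Polynomial.map_sub, Polynomial.map_pow, Polynomial.map_X, eval_sub, eval_pow, eval_X,
    Polynomial.map_prod, Polynomial.map_C, eval_prod, eval_C] at h2
  rw [hr, sub_self] at h2
  obtain ⟨a, -, ha⟩ := Finset.prod_eq_zero_iff.mp h2.symm
  refine ⟨a.val, ?_⟩
  have h3 : r = algebraMap (ZMod p) k a := sub_eq_zero.mp ha
  rw [h3, ZMod.natCast_val]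
  rfl

/-! ## The residue field of `A` -/

theorem h47d_residue_eq_zero_iff (a : A) :
    IsLocalRing.residue A a = 0 ↔ (a : H98pQb) ∈ A.nonunits := by
  rw [IsLocalRing.residue_eq_zero_iff, ← ValuationSubring.coe_mem_nonunits_iff]

theorem h47d_residue_p {p : ℕ} (hA : A.LiesOverPrime p) :
    ((p : ℕ) : IsLocalRing.ResidueField A) = 0 := by
  have h : IsLocalRing.residue A ((p : ℕ) : A) = 0 := by
    rw [h47d_residue_eq_zero_iff]
    have e : (((p : ℕ) : A) : H98pQb) = (p : H98pQb) := by simp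
    rw [e]
    exact hA
  simpa using h

/-- A fixed point of Frobenius modulo the maximal ideal is congruent to a natural number. -/
theorem h47d_fixed_mod {p : ℕ} (hp : p.Prime) (hA : A.LiesOverPrime p) {s : H98pQb}
    (hs : s ∈ A) (h : s ^ p - s ∈ A.nonunits) : ∃ a : ℕ, s - (a : H98pQb) ∈ A.nonunits := by
  set sA : A := ⟨s, hs⟩ with hsA
  have h1 : IsLocalRing.residue A (sA ^ p - sA) = 0 := by
    rw [h47d_residue_eq_zero_iff]
    simpa [hsA] using h
  rw [map_sub, map_pow, sub_eq_zero] at h1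
  obtain ⟨a, ha⟩ := h47d_frob_fixed p hp (h47d_residue_p hA) _ h1
  refine ⟨a, ?_⟩
  have h2 : IsLocalRing.residue A (sA - (a : A)) = 0 := by
    rw [map_sub, map_natCast, ha, sub_self]
  rw [h47d_residue_eq_zero_iff] at h2
  simpa [hsA] using h2

/-- Roots of `X ^ p - X - s`, `s ∈ A`, lie in `A`. -/
theorem h47d_AS_root_mem {p : ℕ} (hp : p.Prime) {s t : H98pQb} (hs : s ∈ A)
    (ht : t ^ p - t - s = 0) : t ∈ A := by
  by_contra hcon
  have hv : 1 < A.valuation t := by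
    rw [← not_le, A.valuation_le_one_iff]
    exact hcon
  have hvs : A.valuation s ≤ 1 := (A.valuation_le_one_iff s).mpr hs
  have h1 : t ^ p = t + s := by linear_combination ht
  have h2 : A.valuation (t ^ p) = A.valuation t ^ p := map_pow _ _ _
  have h3 : A.valuation (t + s) ≤ A.valuation t := by
    refine (Valuation.map_add _ _ _).trans ?_
    exact max_le le_rfl (hvs.trans hv.le)
  have h4 : A.valuation t < A.valuation t ^ p := lt_self_pow₀ hv hp.one_lt
  rw [← h2, h1] at h4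
  exact absurd h3 (not_le.mpr h4)

/-- Two roots of `X ^ p - X - s` in `A` which are congruent modulo the maximal ideal are
equal. -/
theorem h47d_AS_root_unique {p : ℕ} (hA : A.LiesOverPrime p) {s t t' : H98pQb}
    (ht : t ∈ A) (ht' : t' ∈ A) (h1 : t ^ p - t - s = 0) (h2 : t' ^ p - t' - s = 0)
    (hd : t' - t ∈ A.nonunits) : t' = t := by
  by_contra hne
  set tA : A := ⟨t, ht⟩ with htA
  set tA' : A := ⟨t', ht'⟩ with htA'
  set g : A := ∑ i ∈ Finset.range p, tA' ^ i * tA ^ (p - 1 - i) with hg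
  have hgeom : g * (tA' - tA) = tA' ^ p - tA ^ p := geom_sum₂_mul tA' tA p
  have hpow : tA' ^ p - tA ^ p = tA' - tA := by
    apply Subtype.ext
    simp only [htA, htA']
    push_cast
    linear_combination h2 - h1
  have hne' : tA' - tA ≠ 0 := by
    intro h0
    apply hne
    have := congrArg (fun x : A => (x : H98pQb)) h0
    simp only [htA, htA'] at this
    push_cast at this
    linear_combination this
  have hg1 : g = 1 := by
    have h3 : (g - 1) * (tA' - tA) = 0 := by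
      rw [sub_mul, hgeom, hpow, one_mul, sub_self]
    rcases mul_eq_zero.mp h3 with h | h
    · exact sub_eq_zero.mp h
    · exact absurd h hne'
  -- reduce modulo the maximal ideal
  have hres : IsLocalRing.residue A tA' = IsLocalRing.residue A tA := by
    rw [← sub_eq_zero, ← map_sub, h47d_residue_eq_zero_iff]
    simpa [htA, htA'] using hd
  have h4 : IsLocalRing.residue A g = 0 := by
    rw [hg, map_sum]
    have h5 : ∀ i ∈ Finset.range p,
        IsLocalRing.residue A (tA' ^ i * tA ^ (p - 1 - i)) = IsLocalRing.residue A tA ^ (p - 1) := by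
      intro i hi
      rw [map_mul, map_pow, map_pow, hres, ← pow_add]
      congr 1
      have := Finset.mem_range.mp hi
      omega
    rw [Finset.sum_congr rfl h5, Finset.sum_const, Finset.card_range, nsmul_eq_mul,
      h47d_residue_p hA, zero_mul]
  rw [hg1, map_one] at h4
  exact one_ne_zero h4

/-! ## The inertia ring as a ring with Frobenius -/

/-- the restriction of an element of the decomposition group to the inertia ring. -/
def h47dFrob {τ : H98pGQ} (hτ : τ ∈ A.decompositionSubgroup ℚ) :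
    ↥(h47dOur A) →+* ↥(h47dOur A) where
  toFun x := ⟨τ x, h47d_decomp_our hτ x.2⟩
  map_one' := Subtype.ext (map_one τ)
  map_mul' x y := Subtype.ext (map_mul τ (x : H98pQb) (y : H98pQb))
  map_zero' := Subtype.ext (map_zero τ)
  map_add' x y := Subtype.ext (map_add τ (x : H98pQb) (y : H98pQb))

@[simp]
theorem h47dFrob_coe {τ : H98pGQ} (hτ : τ ∈ A.decompositionSubgroup ℚ) (x : ↥(h47dOur A)) :
    ((h47dFrob hτ x : ↥(h47dOur A)) : H98pQb) = τ (x : H98pQb) :=
  rfl

/-- `p` as an element of the inertia ring. -/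
def h47dP (A : ValuationSubring H98pQb) (p : ℕ) : ↥(h47dOur A) :=
  ⟨(p : H98pQb), h47d_natCast_mem_our A p⟩

@[simp]
theorem h47dP_coe (A : ValuationSubring H98pQb) (p : ℕ) :
    ((h47dP A p : ↥(h47dOur A)) : H98pQb) = (p : H98pQb) :=
  rfl

theorem h47dP_dvd_iff {p : ℕ} (x : ↥(h47dOur A)) :
    h47dP A p ∣ x ↔ ∃ w ∈ h47dOur A, (x : H98pQb) = (p : H98pQb) * w := by
  constructor
  · rintro ⟨w, rfl⟩
    exact ⟨w, w.2, rfl⟩
  · rintro ⟨w, hw, hxw⟩
    exact ⟨⟨w, hw⟩, Subtype.ext hxw⟩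

theorem h47d_mem_nonunits_of_dvd {p : ℕ} (hA : A.LiesOverPrime p) {x : ↥(h47dOur A)}
    (h : h47dP A p ∣ x) : (x : H98pQb) ∈ A.nonunits := by
  obtain ⟨w, hw, hxw⟩ := (h47dP_dvd_iff x).mp h
  rw [hxw]
  exact Fermat.Agent.Bridge.mul_mem_nonunits_left A hA hw.1

/-- every nonzero element of the inertia ring is `p ^ c` times a unit. -/
theorem h47d_dvr {p : ℕ} (hp : p.Prime) (hA : A.LiesOverPrime p) (s : ↥(h47dOur A))
    (hs : s ≠ 0) : ∃ c : ℕ, ∃ u : ↥(h47dOur A), IsUnit u ∧ s = h47dP A p ^ c * u := by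
  have hs0 : (s : H98pQb) ≠ 0 := fun h => hs (Subtype.ext h)
  obtain ⟨j, u, hu, hui, hsu⟩ :=
    Fermat.Agent.PT.Glob.h55v_kInertVal p hp A hA (s : H98pQb) hs0 s.2.2
  have hp0 : (p : H98pQb) ≠ 0 := by exact_mod_cast hp.ne_zero
  have hu0 : u ≠ 0 := by
    rintro rfl
    rw [mul_zero] at hsu
    exact hs0 hsu
  have hj : 0 ≤ j := by
    by_contra hcon
    have hj1 : 1 ≤ -j := by omega
    obtain ⟨k, hk⟩ := Int.eq_ofNat_of_zero_le (by omega : 0 ≤ -j)
    have hk0 : k ≠ 0 := by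
      rintro rfl
      simp at hk
      omega
    have h1 : (p : H98pQb) ^ k ∈ A.nonunits := Fermat.Agent.Bridge.pow_mem_nonunits A hk0 hA
    have h2 : ((p : H98pQb) ^ k)⁻¹ = (s : H98pQb) * u⁻¹ := by
      rw [hsu, mul_assoc, mul_inv_cancel₀ hu0, mul_one, ← zpow_natCast, ← hk, zpow_neg, inv_inv]
    have h3 : ((p : H98pQb) ^ k)⁻¹ ∈ A := by
      rw [h2]
      exact A.mul_mem _ _ s.2.1 hui
    rcases (Fermat.Agent.Bridge.mem_nonunits_iff_inv A _).mp h1 with h | h
    · exact pow_ne_zero k hp0 h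
    · exact h h3
  obtain ⟨c, hc⟩ := Int.eq_ofNat_of_zero_le hj
  have hsu' : (s : H98pQb) = (p : H98pQb) ^ c * u := by
    rw [hsu, hc, zpow_natCast]
  have hu_eq : u = (s : H98pQb) * ((p : H98pQb) ^ c)⁻¹ := by
    rw [hsu', mul_comm ((p : H98pQb) ^ c) u, mul_assoc, mul_inv_cancel₀ (pow_ne_zero c hp0),
      mul_one]
  have hufix : ∀ σ ∈ A.inertiaSubgroupIn ℚ, σ u = u := by
    intro σ hσ
    rw [hu_eq, map_mul, map_inv₀, map_pow, map_natCast, s.2.2 σ hσ]
  have huifix : ∀ σ ∈ A.inertiaSubgroupIn ℚ, σ u⁻¹ = u⁻¹ := by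
    intro σ hσ
    rw [map_inv₀, hufix σ hσ]
  refine ⟨c, ⟨u, hu, hufix⟩, ?_, ?_⟩
  · refine IsUnit.of_mul_eq_one (⟨u⁻¹, hui, huifix⟩ : ↥(h47dOur A)) ?_
    exact Subtype.ext (mul_inv_cancel₀ hu0)
  · apply Subtype.ext
    push_cast
    simpa using hsu'


/-! ## Artin--Schreier and fixed points on the inertia ring -/

open Polynomial in
/-- Artin--Schreier modulo `p` on the inertia ring. -/
theorem h47d_AS {p : ℕ} (hp : p.Prime) (hA : A.LiesOverPrime p) {τ : H98pGQ}
    (hτ : A.IsFrobeniusAt τ p) (s : ↥(h47dOur A)) :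
    ∃ t : ↥(h47dOur A), h47dP A p ∣ h47dFrob hτ.mem_decompositionSubgroup t - t - s := by
  obtain ⟨t, ht⟩ : ∃ t : H98pQb, t ^ p - t - (s : H98pQb) = 0 := by
    set f : Polynomial H98pQb := X ^ p - (X + C (s : H98pQb)) with hf
    have h1 : (X + C (s : H98pQb)).degree < (X ^ p : Polynomial H98pQb).degree := by
      rw [degree_X_add_C, degree_X_pow]
      exact_mod_cast hp.one_lt
    have hdeg : f.degree ≠ 0 := by
      rw [hf, degree_sub_eq_left_of_degree_lt h1, degree_X_pow]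
      exact_mod_cast hp.ne_zero
    obtain ⟨t, ht⟩ := IsAlgClosed.exists_root f hdeg
    refine ⟨t, ?_⟩
    have h2 : f.eval t = 0 := ht
    rw [hf] at h2
    simp only [eval_sub, eval_pow, eval_X, eval_add, eval_C] at h2
    linear_combination h2
  have htA : t ∈ A := h47d_AS_root_mem hp s.2.1 ht
  have htfix : ∀ σ ∈ A.inertiaSubgroupIn ℚ, σ t = t := by
    intro σ hσ
    have hσ' := (Fermat.Agent.Bridge.H47.mem_inertiaSubgroupIn_iff A).mp hσ
    have hσt : σ t ∈ A := h47d_decomp_mem hσ'.1 htA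
    have h2 : (σ t) ^ p - σ t - (s : H98pQb) = 0 := by
      have := congrArg σ ht
      rw [map_sub, map_sub, map_pow, s.2.2 σ hσ, map_zero] at this
      exact this
    exact h47d_AS_root_unique hA htA hσt ht h2 (hσ'.2 t htA)
  set tS : ↥(h47dOur A) := ⟨t, htA, htfix⟩ with htS
  refine ⟨tS, ?_⟩
  rw [h47dP_dvd_iff]
  have hy_non : ((h47dFrob hτ.mem_decompositionSubgroup tS - tS - s : ↥(h47dOur A)) : H98pQb)
      ∈ A.nonunits := by
    have h1 := Fermat.Agent.Bridge.frob_sub_pow_mem_nonunits hτ htA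
    have e : ((h47dFrob hτ.mem_decompositionSubgroup tS - tS - s : ↥(h47dOur A)) : H98pQb) =
        τ t - t ^ p := by
      push_cast
      rw [h47dFrob_coe]
      simp only [htS]
      linear_combination ht
    rw [e]
    exact h1
  exact h47d_our_dvd hp hA (SetLike.coe_mem _) hy_non

/-- Fixed points of Frobenius modulo `p` on the inertia ring are integers modulo `p`. -/
theorem h47d_fix {p : ℕ} (hp : p.Prime) (hA : A.LiesOverPrime p) {τ : H98pGQ}
    (hτ : A.IsFrobeniusAt τ p) (s : ↥(h47dOur A))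
    (h : h47dP A p ∣ h47dFrob hτ.mem_decompositionSubgroup s - s) :
    ∃ a : ℕ, h47dP A p ∣ s - (a : ↥(h47dOur A)) := by
  have h1 : τ (s : H98pQb) - (s : H98pQb) ∈ A.nonunits := by
    have := h47d_mem_nonunits_of_dvd hA h
    simpa using this
  have h2 := Fermat.Agent.Bridge.frob_sub_pow_mem_nonunits hτ s.2.1
  have h3 : (s : H98pQb) ^ p - (s : H98pQb) ∈ A.nonunits := by
    have e : (s : H98pQb) ^ p - (s : H98pQb) =
        (τ (s : H98pQb) - (s : H98pQb)) - (τ (s : H98pQb) - (s : H98pQb) ^ p) := by ring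
    rw [e]
    exact Fermat.Agent.Bridge.sub_mem_nonunits A h1 h2
  obtain ⟨a, ha⟩ := h47d_fixed_mod hp hA s.2.1 h3
  refine ⟨a, ?_⟩
  rw [h47dP_dvd_iff]
  have hy_non : ((s - (a : ↥(h47dOur A)) : ↥(h47dOur A)) : H98pQb) ∈ A.nonunits := by
    have e : ((s - (a : ↥(h47dOur A)) : ↥(h47dOur A)) : H98pQb) = (s : H98pQb) - (a : H98pQb) := by
      push_cast
      rfl
    rw [e]
    exact ha
  exact h47d_our_dvd hp hA (SetLike.coe_mem _) hy_non

/-! ## D-COORD -/

/-- **D-COORD.** -/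
theorem h47d_coord : H47dCoord := by
  intro p hp A hA n N a hadd hsmul hupper hlower hD v₀ hv₀
  classical
  obtain ⟨τ, hτF⟩ := Fermat.Agent.Bridge.existsFrob A p hp hA
  have hτD : τ ∈ A.decompositionSubgroup ℚ := hτF.mem_decompositionSubgroup
  have hp0 : (p : H98pQb) ≠ 0 := by exact_mod_cast hp.ne_zero
  have hpa0 : (p : H98pQb) ^ a ≠ 0 := pow_ne_zero a hp0
  set ℓS : ↥(h47dOur A) := h47dP A p with hℓS
  set φ : ↥(h47dOur A) →+* ↥(h47dOur A) := h47dFrob hτD with hφ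
  set R₀ : Subring ↥(h47dOur A) :=
    ((algebraMap ℚ H98pQb).range).comap (h47dOur A).subtype with hR₀
  have hmemR : ∀ s : ↥(h47dOur A), s ∈ R₀ ↔ (s : H98pQb) ∈ Set.range (algebraMap ℚ H98pQb) := by
    intro s
    rw [hR₀, Subring.mem_comap, RingHom.mem_range]
    rfl
  have hℓR : ℓS ∈ R₀ := by
    rw [hmemR]
    exact ⟨(p : ℚ), by simp [hℓS]⟩
  have hφℓ : φ ℓS = ℓS := Subtype.ext (map_natCast τ p)
  have hφR : ∀ r ∈ R₀, φ r = r := by
    intro r hr
    obtain ⟨q, hq⟩ := (hmemR r).mp hr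
    apply Subtype.ext
    rw [hφ, h47dFrob_coe, ← hq]
    exact h47d_rat_fixed τ q
  have hℓ0 : ℓS ≠ 0 := by
    intro h
    apply hp0
    have := congrArg (fun x : ↥(h47dOur A) => (x : H98pQb)) h
    simpa [hℓS] using this
  have hreg : IsLeftRegular ℓS := fun x y hxy => mul_left_cancel₀ hℓ0 hxy
  have hdvr : ∀ s : ↥(h47dOur A), s ≠ 0 → ∃ c : ℕ, ∃ u : ↥(h47dOur A), IsUnit u ∧
      s = ℓS ^ c * u := fun s hs => h47d_dvr hp hA s hs
  have hAS1 : ∀ s : ↥(h47dOur A), ∃ t : ↥(h47dOur A), ℓS ∣ φ t - t - s :=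
    fun s => h47d_AS hp hA hτF s
  have hfix1 : ∀ s : ↥(h47dOur A), ℓS ∣ φ s - s → ∃ r ∈ R₀, ℓS ∣ s - r := by
    intro s hs
    obtain ⟨b, hb⟩ := h47d_fix hp hA hτF s hs
    refine ⟨(b : ↥(h47dOur A)), ?_, hb⟩
    rw [hmemR]
    exact ⟨(b : ℚ), by simp⟩
  have hAS := h47d_AS_pow ℓS φ hφℓ hAS1 (2 * a)
  have hfix := h47d_fix_pow R₀ ℓS hℓR hreg φ hφℓ hφR hfix1 (2 * a)
  -- zero lies in `N`
  have h0N : (0 : Fin n → H98pQb) ∈ N :=
    hlower 0 fun i => ⟨0, (h47dOur A).zero_mem, by simp⟩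
  -- the scaled lattice
  let NS : Submodule ↥(h47dOur A) (Fin n → ↥(h47dOur A)) :=
    { carrier := {v | ∃ x ∈ N, ∀ i, ((v i : ↥(h47dOur A)) : H98pQb) = (p : H98pQb) ^ a * x i}
      add_mem' := by
        rintro v w ⟨x, hx, hvx⟩ ⟨y, hy, hwy⟩
        refine ⟨x + y, hadd x y hx hy, fun i => ?_⟩
        simp only [Pi.add_apply, Subring.coe_add, hvx i, hwy i]
        ring
      zero_mem' := ⟨0, h0N, fun i => by simp⟩
      smul_mem' := by
        rintro c v ⟨x, hx, hvx⟩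
        refine ⟨fun i => (c : H98pQb) * x i, hsmul c c.2 x hx, fun i => ?_⟩
        simp only [Pi.smul_apply, smul_eq_mul, Subring.coe_mul, hvx i]
        ring }
  have hNS : ∀ v : Fin n → ↥(h47dOur A), v ∈ NS ↔
      ∃ x ∈ N, ∀ i, ((v i : ↥(h47dOur A)) : H98pQb) = (p : H98pQb) ^ a * x i := fun v => Iff.rfl
  have hbig : ∀ v : Fin n → ↥(h47dOur A), (∀ i, ℓS ^ (2 * a) ∣ v i) → v ∈ NS := by
    intro v hv
    choose w hw using hv
    rw [hNS]
    refine ⟨fun i => (p : H98pQb) ^ a * (w i : H98pQb),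
      hlower _ fun i => ⟨(w i : H98pQb), (w i).2, rfl⟩, fun i => ?_⟩
    rw [hw i]
    simp only [hℓS, Subring.coe_mul, Subring.coe_pow, h47dP_coe]
    ring
  have hN : ∀ v ∈ NS, (fun i => φ (v i)) ∈ NS := by
    intro v hv
    obtain ⟨x, hx, hvx⟩ := (hNS v).mp hv
    rw [hNS]
    refine ⟨fun i => τ (x i), hD τ hτD x hx, fun i => ?_⟩
    rw [hφ, h47dFrob_coe, hvx i, map_mul, map_pow, map_natCast]
  have hspan := h47d_lattice R₀ ℓS hℓR φ (2 * a) hdvr hφℓ hAS hfix n NS hbig hN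
  -- the scaled vector of `v₀`
  set vS : Fin n → ↥(h47dOur A) := fun i => ⟨(p : H98pQb) ^ a * v₀ i, hupper v₀ hv₀ i⟩ with hvS
  have hvSN : vS ∈ NS := (hNS vS).mpr ⟨v₀, hv₀, fun i => rfl⟩
  obtain ⟨k, c, g, hsum⟩ := Submodule.mem_span_set'.mp (hspan hvSN)
  -- the rational vectors
  have hg : ∀ j : Fin k, ∃ x ∈ N,
      (∀ i, (((g j : Fin n → ↥(h47dOur A)) i : ↥(h47dOur A)) : H98pQb) = (p : H98pQb) ^ a * x i) ∧
      ∀ i, x i ∈ Set.range (algebraMap ℚ H98pQb) := by
    intro j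
    obtain ⟨hgN, hgR⟩ := (g j).2
    obtain ⟨x, hx, hgx⟩ := (hNS _).mp hgN
    refine ⟨x, hx, hgx, fun i => ?_⟩
    obtain ⟨q, hq⟩ := (hmemR _).mp (hgR i)
    refine ⟨q / (p : ℚ) ^ a, ?_⟩
    have h1 : x i = (((g j : Fin n → ↥(h47dOur A)) i : ↥(h47dOur A)) : H98pQb) /
        (p : H98pQb) ^ a := by
      rw [hgx i, mul_div_assoc, mul_comm, div_mul_cancel₀ _ hpa0]
    rw [h1, ← hq, map_div₀, map_pow, map_natCast]
  choose x hxN hxg hxR using hg
  refine ⟨k, fun j => (c j : H98pQb), x, fun j => (c j).2, hxN, hxR, fun i => ?_⟩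
  have h1 := congrArg (fun v : Fin n → ↥(h47dOur A) => (h47dOur A).subtype (v i)) hsum
  simp only [Finset.sum_apply, Pi.smul_apply, smul_eq_mul, map_sum, map_mul,
    Subring.subtype_apply, hvS] at h1
  have h2 : (p : H98pQb) ^ a * v₀ i = (p : H98pQb) ^ a * ∑ j, (c j : H98pQb) * x j i := by
    rw [← h1, Finset.mul_sum]
    refine Finset.sum_congr rfl fun j _ => ?_
    rw [hxg j i]
    ring
  exact mul_left_cancel₀ hpa0 h2

end Fermat.Agent.P5
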