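import Fermat.Agent.P5.H40SFConst
import Fermat.Agent.P5.H48SFAbs
import Fermat.Agent.P5.H42SFpd
import Fermat.Agent.P5.H43Riemann

/-!
# Wave 5, pillar (P), block GEO-RR-SF: SF-BASE, final wiring (helper48)

`M` a good level, `A` over `ℓ`, `k = h13sK A`, `F~ = h13sFt A M`, `j~ = h40fJ A M = red j`.

* `h48s_sf_rest`     : the RED-DIV-free fields of `H13rBase k F~`, the fundamental identity
  `H13rZeros k F~ j~` and the finiteness of `F~ / k(j~)` (unconditional).
* `h48s_sf_zeros`, `h48s_sf_transcendental`, `h48s_sf_finiteDimensional`.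
* `h48s_sf_place_chart` : every place of `F~` contains the image of one of the two charts.
* `h48s_base_of_redDiv` : `H13sRedDiv → H13sBase` (EXACT frozen Props; `pd` is helper42's
  `h42p_base_of`, `H13sField` is helper40's `h40f_field`).
* `h48s_sf_genus_of_redDiv` : `H13sRedDiv →` the special fibre has a weak genus
  (helper43's unconditional `h43r_riemann_final`).
-/

set_option autoImplicit false
set_option linter.style.haveILetI false

open AlgebraicCurve ModularCurve IntermediateField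

noncomputable section

namespace Fermat.Agent.P5

open Fermat.Agent.S37 Fermat.Agent.Red.GV

variable (A : ValuationSubring Kbar) (M : ℕ) [NeZero M] {ℓ : ℕ}

/-- the reduction of `j` in the frozen vocabulary. -/
theorem h48s_J_eq : h40fJ A M = h13sRed A M ⟨jB M, jB_mem_gaussV A M⟩ := rfl

/-- **SF-BASE without `pd`, the fundamental identity and finiteness** at a good level. -/
theorem h48s_sf_rest (hℓ : ℓ.Prime) (hM : ¬ ℓ ∣ M) (haux : auxLevel ℓ ∣ M)
    (hA : A.LiesOverPrime ℓ) :
    ((∀ v : Place (h13sK A) (h13sFt A M), v.deg = 1) ∧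
      (∀ f : h13sFt A M, (∀ v : Place (h13sK A) (h13sFt A M), 0 ≤ v.ord f) →
        f ∈ Set.range (algebraMap (h13sK A) (h13sFt A M))) ∧
      Function.Injective (algebraMap (h13sK A) (h13sFt A M)) ∧
      Infinite (Place (h13sK A) (h13sFt A M))) ∧
    H13rZeros (h13sK A) (h13sFt A M) (h40fJ A M) ∧
    FiniteDimensional (h13sK A)⟮h40fJ A M⟯ (h13sFt A M) := by
  have d := h40f_data A M hℓ hM haux hA
  haveI := d.ded
  haveI := d.dedInf
  exact h48s_rest (h40fJ A M) d.transc _ _ d.x_mem d.xinv_mem d.frac d.fracInf d.fin d.finInf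

/-- the fundamental identity for the reduction of `j`. -/
theorem h48s_sf_zeros (hℓ : ℓ.Prime) (hM : ¬ ℓ ∣ M) (haux : auxLevel ℓ ∣ M)
    (hA : A.LiesOverPrime ℓ) : H13rZeros (h13sK A) (h13sFt A M) (h40fJ A M) :=
  (h48s_sf_rest A M hℓ hM haux hA).2.1

/-- the reduction of `j` is transcendental. -/
theorem h48s_sf_transcendental : Transcendental (h13sK A) (h40fJ A M) :=
  h40f_J_transcendental A M

/-- the special fibre field is finite over `k(j~)`. -/
theorem h48s_sf_finiteDimensional (hℓ : ℓ.Prime) (hM : ¬ ℓ ∣ M) (haux : auxLevel ℓ ∣ M)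
    (hA : A.LiesOverPrime ℓ) : FiniteDimensional (h13sK A)⟮h40fJ A M⟯ (h13sFt A M) :=
  (h48s_sf_rest A M hℓ hM haux hA).2.2

/-- every place of the special fibre contains the image of one of the two charts. -/
theorem h48s_sf_place_chart (hℓ : ℓ.Prime) (hM : ¬ ℓ ∣ M) (haux : auxLevel ℓ ∣ M)
    (hA : A.LiesOverPrime ℓ) (v : Place (h13sK A) (h13sFt A M)) :
    (h40fJ A M ∈ v.toValuationSubring ∧
        ∀ b ∈ h40fBfin A M hℓ hM hA, b ∈ v.toValuationSubring) ∨
      ((h40fJ A M)⁻¹ ∈ v.toValuationSubring ∧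
        ∀ b ∈ h40fBinf A M hℓ hM hA, b ∈ v.toValuationSubring) := by
  have d := h40f_data A M hℓ hM haux hA
  exact h48s_place_chart (h40fJ A M) _ _ d.x_mem d.xinv_mem d.fin d.finInf v

/-- **SF-BASE** (exact frozen Prop) from RED-DIV. -/
theorem h48s_base_of_redDiv (hRD : H13sRedDiv) : H13sBase :=
  h42p_base_of hRD h40f_field
    (fun _ hℓ M _ hM haux A hA => (h48s_sf_rest A M hℓ hM haux hA).1)

/-- the special fibre has a weak genus, from RED-DIV. -/
theorem h48s_sf_genus_of_redDiv (hRD : H13sRedDiv) (hℓ : ℓ.Prime) (hM : ¬ ℓ ∣ M)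
    (haux : auxLevel ℓ ∣ M) (hA : A.LiesOverPrime ℓ) :
    ∃ g : ℕ, H13rIsGenus (h13sK A) (h13sFt A M) g :=
  h43r_riemann_final (h48s_base_of_redDiv hRD ℓ hℓ M hM haux A hA) (h40fJ A M)
    (h48s_sf_transcendental A M) (h48s_sf_finiteDimensional A M hℓ hM haux hA)
    (h48s_sf_zeros A M hℓ hM haux hA)

end Fermat.Agent.P5
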