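import Fermat.Agent.P5.H96LawIface
import Fermat.Agent.Red.MatchLoc
import Fermat.Agent.Red.SM.Ram
import Fermat.Prelude.Def_AlgebraicCurve_Repartitions

/-!
# P5 (wave 5, S19), bridge GEO-REP (helper4): `Valid.rep` and `Valid.rep_unique`

`M` a level, `A` a valuation subring of `ℚ̄`, `Q : Fin g → Place` the centres of a chart.

* `h4r_red A w D` : the sum of the divisor `D` over the residue disc of the place `w`
  (the multiplicity at the closed point `w̃` of the reduction of `D`).
* `h4r_sum Q` : the reduced divisor `∑ Q i`.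
* `H4rNonSpec A Q` : THE reduction input of the chart: for a principal divisor `D`, if the
  reduction of `D + ∑ Q i` is effective then the reduction of `D` is zero
  (`= ` reduction of principal divisors `ρ_* div f = div f̃` + `ℓ̃(∑ Q̃ i) = 1`).
* `h4r_shape` : an effective divisor with the same reduction as `∑ Q i` is `∑ P i`, `P i ∼ Q i`.
* `h4r_rep` : `Valid.rep` from `H4rNonSpec` and generic Riemann (`g ≤ deg D → L(D) ≠ ⊥`).
* `h4r_rep_unique` : `Valid.rep_unique` from `H4rNonSpec` and one place outside the `g` discs.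
-/

set_option autoImplicit false
set_option linter.unusedSectionVars false

open AlgebraicCurve ModularCurve

noncomputable section

namespace Fermat.Agent.P5

open Fermat.Agent.S37

variable {M : ℕ} [NeZero M]

open Classical in
/-- the sum of the divisor `D` over the residue disc of `w` ("the reduction of `D` at the closed
point `w̃`"). -/
def h4r_red (A : ValuationSubring Kbar) (w : Place Kbar (FF M)) : Divisor Kbar (FF M) →+ ℤ :=
  Finsupp.liftAddHom fun v => if SameRed A v w then AddMonoidHom.id ℤ else 0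

/-- the reduced divisor `∑ Q i`. -/
def h4r_sum {g : ℕ} (Q : Fin g → Place Kbar (FF M)) : Divisor Kbar (FF M) :=
  ∑ i, Finsupp.single (Q i) (1 : ℤ)

/-- **the reduction input of a chart**: the reduction of `∑ Q i` is non-special. -/
def H4rNonSpec (A : ValuationSubring Kbar) {g : ℕ} (Q : Fin g → Place Kbar (FF M)) : Prop :=
  ∀ D ∈ Divisor.principal (K := Kbar) (F := FF M),
    (∀ w, 0 ≤ h4r_red A w (D + h4r_sum Q)) → ∀ w, h4r_red A w D = 0

open Classical in
theorem h4r_red_single (A : ValuationSubring Kbar) (w v : Place Kbar (FF M)) (n : ℤ) :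
    h4r_red A w (Finsupp.single v n) = if SameRed A v w then n else 0 := by
  unfold h4r_red
  rw [Finsupp.liftAddHom_apply_single]
  split_ifs <;> simp

open Classical in
theorem h4r_red_apply (A : ValuationSubring Kbar) (w : Place Kbar (FF M))
    (D : Divisor Kbar (FF M)) :
    h4r_red A w D = ∑ v ∈ D.support, if SameRed A v w then D v else 0 := by
  unfold h4r_red
  rw [Finsupp.liftAddHom_apply, Finsupp.sum]
  refine Finset.sum_congr rfl fun v _ => ?_
  split_ifs <;> simp

theorem h4r_red_nonneg (A : ValuationSubring Kbar) (w : Place Kbar (FF M))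
    {D : Divisor Kbar (FF M)} (hD : 0 ≤ D) : 0 ≤ h4r_red A w D := by
  classical
  rw [h4r_red_apply]
  refine Finset.sum_nonneg fun v _ => ?_
  split_ifs
  · exact hD v
  · exact le_rfl

theorem h4r_le_red (A : ValuationSubring Kbar) {w v : Place Kbar (FF M)}
    {D : Divisor Kbar (FF M)} (hD : 0 ≤ D) (hvw : SameRed A v w) : D v ≤ h4r_red A w D := by
  classical
  rw [h4r_red_apply]
  by_cases hv : v ∈ D.support
  · have h := Finset.single_le_sum (f := fun v => if SameRed A v w then D v else 0)
      (s := D.support) (fun u _ => by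
        show 0 ≤ if SameRed A u w then D u else 0
        split_ifs
        · exact hD u
        · exact le_rfl) hv
    simpa [hvw] using h
  · rw [Finsupp.notMem_support_iff.mp hv]
    refine Finset.sum_nonneg fun u _ => ?_
    split_ifs
    · exact hD u
    · exact le_rfl

theorem h4r_add_le_red (A : ValuationSubring Kbar) {w v v' : Place Kbar (FF M)}
    {D : Divisor Kbar (FF M)} (hD : 0 ≤ D) (hvw : SameRed A v w) (hvw' : SameRed A v' w)
    (hne : v ≠ v') : D v + D v' ≤ h4r_red A w D := by
  classical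
  have h1 : D = (D - Finsupp.single v (D v)) + Finsupp.single v (D v) := by
    rw [sub_add_cancel]
  have h2 : 0 ≤ D - Finsupp.single v (D v) := by
    intro u
    rw [Finsupp.sub_apply, Finsupp.single_apply]
    split_ifs with h
    · subst h; simp
    · simpa using hD u
  have h3 := h4r_le_red A h2 hvw'
  rw [Finsupp.sub_apply, Finsupp.single_apply, if_neg hne, sub_zero] at h3
  have h4 : h4r_red A w D = h4r_red A w (D - Finsupp.single v (D v)) + D v := by
    conv_lhs => rw [h1]
    rw [map_add, h4r_red_single, if_pos hvw]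
  rw [h4]
  omega

theorem h4r_red_congr (A : ValuationSubring Kbar) {w w' : Place Kbar (FF M)}
    (h : SameRed A w w') (D : Divisor Kbar (FF M)) : h4r_red A w D = h4r_red A w' D := by
  classical
  rw [h4r_red_apply, h4r_red_apply]
  refine Finset.sum_congr rfl fun v _ => ?_
  have : SameRed A v w ↔ SameRed A v w' :=
    ⟨fun h1 => Fermat.Agent.Red.Match.sameRed_trans h1 h,
     fun h1 => Fermat.Agent.Red.Match.sameRed_trans h1 (Fermat.Agent.Red.Match.sameRed_symm h)⟩
  simp only [this]

theorem h4r_red_of_mem_redKer (A : ValuationSubring Kbar) (w : Place Kbar (FF M))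
    {D : Divisor Kbar (FF M)} (hD : D ∈ redKer M A) : h4r_red A w D = 0 := by
  classical
  unfold redKer at hD
  induction hD using AddSubgroup.closure_induction with
  | mem x hx =>
    obtain ⟨v, u, hvu, rfl⟩ := hx
    rw [map_sub, h4r_red_single, h4r_red_single]
    have : SameRed A v w ↔ SameRed A u w :=
      ⟨fun h1 => Fermat.Agent.Red.Match.sameRed_trans (Fermat.Agent.Red.Match.sameRed_symm hvu) h1,
       fun h1 => Fermat.Agent.Red.Match.sameRed_trans hvu h1⟩
    simp only [this, sub_self]
  | zero => exact map_zero _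
  | add x y _ _ hx hy => rw [map_add, hx, hy, add_zero]
  | neg x _ hx => rw [map_neg, hx, neg_zero]

open Classical in
theorem h4r_red_sum (A : ValuationSubring Kbar) (w : Place Kbar (FF M)) {g : ℕ}
    (Q : Fin g → Place Kbar (FF M)) :
    h4r_red A w (h4r_sum Q) = ∑ i, if SameRed A (Q i) w then (1 : ℤ) else 0 := by
  unfold h4r_sum
  rw [map_sum]
  exact Finset.sum_congr rfl fun i _ => h4r_red_single A w (Q i) 1

theorem h4r_red_sum_congr (A : ValuationSubring Kbar) (w : Place Kbar (FF M)) {g : ℕ}
    {P Q : Fin g → Place Kbar (FF M)} (h : ∀ i, SameRed A (P i) (Q i)) :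
    h4r_red A w (h4r_sum P) = h4r_red A w (h4r_sum Q) := by
  classical
  rw [h4r_red_sum, h4r_red_sum]
  refine Finset.sum_congr rfl fun i _ => ?_
  have : SameRed A (P i) w ↔ SameRed A (Q i) w :=
    ⟨fun h1 => Fermat.Agent.Red.Match.sameRed_trans (Fermat.Agent.Red.Match.sameRed_symm (h i)) h1,
     fun h1 => Fermat.Agent.Red.Match.sameRed_trans (h i) h1⟩
  simp only [this]

/-- the reduction of `∑ Q i` at the class of `Q i` is `1` when the classes are distinct. -/
theorem h4r_red_sum_self (A : ValuationSubring Kbar) {g : ℕ}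
    (Q : Fin g → Place Kbar (FF M)) (hQ : ∀ i j, SameRed A (Q i) (Q j) → i = j) (i : Fin g) :
    h4r_red A (Q i) (h4r_sum Q) = 1 := by
  classical
  rw [h4r_red_sum, Finset.sum_eq_single i]
  · rw [if_pos (Fermat.Agent.Red.Match.sameRed_refl A _)]
  · intro j _ hji
    rw [if_neg fun h => hji (hQ j i h)]
  · intro h; exact absurd (Finset.mem_univ i) h

/-- the reduction of `∑ Q i` vanishes outside the discs. -/
theorem h4r_red_sum_out (A : ValuationSubring Kbar) {g : ℕ}
    (Q : Fin g → Place Kbar (FF M)) {w : Place Kbar (FF M)} (hw : ∀ i, ¬ SameRed A w (Q i)) :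
    h4r_red A w (h4r_sum Q) = 0 := by
  classical
  rw [h4r_red_sum]
  refine Finset.sum_eq_zero fun i _ => ?_
  rw [if_neg fun h => hw i (Fermat.Agent.Red.Match.sameRed_symm h)]

open Classical in
theorem h4r_sum_apply {g : ℕ} (Q : Fin g → Place Kbar (FF M)) (v : Place Kbar (FF M)) :
    h4r_sum Q v = ∑ i, if Q i = v then (1 : ℤ) else 0 := by
  unfold h4r_sum
  rw [Finsupp.finsetSum_apply]
  exact Finset.sum_congr rfl fun i _ => Finsupp.single_apply

theorem h4r_sum_nonneg {g : ℕ} (Q : Fin g → Place Kbar (FF M)) : 0 ≤ h4r_sum Q := by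
  classical
  intro v
  rw [h4r_sum_apply]
  exact Finset.sum_nonneg fun i _ => by split_ifs <;> simp


/-- an effective divisor whose reduction is the reduction of the reduced divisor `∑ Q i`
(with pairwise distinct reductions) is `∑ P i` with `P i` in the disc of `Q i`. -/
theorem h4r_shape (A : ValuationSubring Kbar) {g : ℕ} (Q : Fin g → Place Kbar (FF M))
    (hQ : ∀ i j, SameRed A (Q i) (Q j) → i = j) {E : Divisor Kbar (FF M)} (hE : 0 ≤ E)
    (hred : ∀ w, h4r_red A w E = h4r_red A w (h4r_sum Q)) :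
    ∃ P : Fin g → Place Kbar (FF M), (∀ i, SameRed A (P i) (Q i)) ∧ E = h4r_sum P := by
  classical
  have h1 : ∀ i, h4r_red A (Q i) E = 1 := fun i => by rw [hred, h4r_red_sum_self A Q hQ i]
  have h2 : ∀ i, ∃ v, SameRed A v (Q i) ∧ 0 < E v := by
    intro i
    by_contra hcon
    push Not at hcon
    have h3 : h4r_red A (Q i) E = 0 := by
      rw [h4r_red_apply]
      refine Finset.sum_eq_zero fun v _ => ?_
      split_ifs with hv
      · exact le_antisymm (hcon v hv) (hE v)
      · rfl
    rw [h1 i] at h3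
    exact one_ne_zero h3
  choose P hP hPpos using h2
  have hP1 : ∀ i, E (P i) = 1 := by
    intro i
    have h3 := h4r_le_red A hE (hP i)
    rw [h1 i] at h3
    have := hPpos i
    omega
  have hother : ∀ i v, SameRed A v (Q i) → v ≠ P i → E v = 0 := by
    intro i v hv hne
    have h3 := h4r_add_le_red A hE (hP i) hv (Ne.symm hne)
    rw [h1 i, hP1 i] at h3
    have := hE v
    simp only [Finsupp.coe_zero, Pi.zero_apply] at this
    omega
  have hout : ∀ v, (∀ i, ¬ SameRed A v (Q i)) → E v = 0 := by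
    intro v hv
    have h3 := h4r_le_red A hE (Fermat.Agent.Red.Match.sameRed_refl A v)
    rw [hred, h4r_red_sum_out A Q hv] at h3
    have := hE v
    simp only [Finsupp.coe_zero, Pi.zero_apply] at this
    omega
  have hPinj : ∀ i j, P i = P j → i = j := by
    intro i j hij
    refine hQ i j ?_
    have := hP j
    rw [← hij] at this
    exact Fermat.Agent.Red.Match.sameRed_trans (Fermat.Agent.Red.Match.sameRed_symm (hP i)) this
  refine ⟨P, hP, ?_⟩
  ext v
  rw [h4r_sum_apply]
  by_cases hv : ∃ i, P i = v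
  · obtain ⟨i, rfl⟩ := hv
    rw [hP1 i, Finset.sum_eq_single i]
    · rw [if_pos rfl]
    · intro j _ hji
      rw [if_neg fun h => hji (hPinj j i h)]
    · intro h; exact absurd (Finset.mem_univ i) h
  · push Not at hv
    rw [Finset.sum_eq_zero fun i _ => if_neg (hv i)]
    by_cases hv' : ∃ i, SameRed A v (Q i)
    · obtain ⟨i, hi⟩ := hv'
      exact hother i v hi (Ne.symm (hv i))
    · push Not at hv'
      exact hout v hv'

theorem h4r_degree_sum {g : ℕ} (Q : Fin g → Place Kbar (FF M))
    (hdeg : ∀ v : Place Kbar (FF M), v.deg = 1) : Divisor.degree (h4r_sum Q) = g := by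
  unfold h4r_sum
  rw [map_sum]
  simp [Divisor.degree_single, hdeg]

theorem h4r_sum_sub {g : ℕ} (P Q : Fin g → Place Kbar (FF M)) :
    ∑ i, (Finsupp.single (P i) (1 : ℤ) - Finsupp.single (Q i) (1 : ℤ)) =
      h4r_sum P - h4r_sum Q := by
  unfold h4r_sum
  rw [Finset.sum_sub_distrib]

/-- two degree-zero divisors differing by a principal divisor have the same class. -/
theorem h4r_mk_eq {D D' : Divisor.degZero (K := Kbar) (F := FF M)}
    (h : (D' : Divisor Kbar (FF M)) - (D : Divisor Kbar (FF M)) ∈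
      Divisor.principal (K := Kbar) (F := FF M)) : Pic0.mk D = Pic0.mk D' := by
  unfold Pic0.mk
  rw [QuotientAddGroup.eq, AddSubgroup.mem_addSubgroupOf]
  have : ((-D + D' : Divisor.degZero (K := Kbar) (F := FF M)) : Divisor Kbar (FF M)) =
      (D' : Divisor Kbar (FF M)) - (D : Divisor Kbar (FF M)) := by
    push_cast
    abel
  rw [this]
  exact h

theorem h4r_mk_eq_iff {D D' : Divisor.degZero (K := Kbar) (F := FF M)} :
    Pic0.mk D = Pic0.mk D' ↔ (D' : Divisor Kbar (FF M)) - (D : Divisor Kbar (FF M)) ∈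
      Divisor.principal (K := Kbar) (F := FF M) := by
  unfold Pic0.mk
  rw [QuotientAddGroup.eq, AddSubgroup.mem_addSubgroupOf]
  have : ((-D + D' : Divisor.degZero (K := Kbar) (F := FF M)) : Divisor Kbar (FF M)) =
      (D' : Divisor Kbar (FF M)) - (D : Divisor Kbar (FF M)) := by
    push_cast
    abel
  rw [this]

/-- **`Valid.rep`** from the non-speciality of the reduction and generic Riemann–Roch. -/
theorem h4r_rep (A : ValuationSubring Kbar) {g : ℕ} (Q : Fin g → Place Kbar (FF M))
    [HasPrincipalDivisors Kbar (FF M)]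
    (hdeg : ∀ v : Place Kbar (FF M), v.deg = 1)
    (hRR : ∀ D : Divisor Kbar (FF M), (g : ℤ) ≤ Divisor.degree D → riemannRochSpace D ≠ ⊥)
    (hQ : ∀ i j, SameRed A (Q i) (Q j) → i = j) (hNS : H4rNonSpec A Q) :
    ∀ x ∈ redKerPic M A, ∃ P : Fin g → Place Kbar (FF M),
      (∀ i, SameRed A (P i) (Q i)) ∧ h96m_IsCls x P Q := by
  intro x hx
  obtain ⟨D, hDker, rfl⟩ := hx
  have hdegQ := h4r_degree_sum Q hdeg
  have hdegD : Divisor.degree (D : Divisor Kbar (FF M)) = 0 := D.2
  obtain ⟨f, hfL, hf0⟩ := (Submodule.ne_bot_iff _).1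
    (hRR ((D : Divisor Kbar (FF M)) + h4r_sum Q) (by rw [map_add, hdegD, hdegQ, zero_add]))
  obtain ⟨Df, hDf, hDfdeg⟩ := HasPrincipalDivisors.exists_divisor (K := Kbar) f hf0
  have hDfp : Df ∈ Divisor.principal (K := Kbar) (F := FF M) := ⟨f, hf0, hDf⟩
  have hE : 0 ≤ (D : Divisor Kbar (FF M)) + h4r_sum Q + Df := by
    intro v
    have h1 := (mem_riemannRochSpace_iff.1 hfL v).resolve_left hf0
    rw [Finsupp.add_apply] at h1
    simp only [Finsupp.coe_zero, Pi.zero_apply, Finsupp.add_apply, hDf v]
    omega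
  have hred : ∀ w, h4r_red A w Df = 0 := hNS Df hDfp (fun w => by
    have h1 := h4r_red_nonneg A w hE
    rw [map_add, map_add, h4r_red_of_mem_redKer A w hDker, zero_add] at h1
    rw [map_add]
    omega)
  obtain ⟨P, hP, hEP⟩ := h4r_shape A Q hQ hE (fun w => by
    rw [map_add, map_add, h4r_red_of_mem_redKer A w hDker, hred w, zero_add, add_zero])
  refine ⟨P, hP, ?_⟩
  have hdeg' : Divisor.degree
      (∑ i, (Finsupp.single (P i) (1 : ℤ) - Finsupp.single (Q i) (1 : ℤ))) = 0 := by
    rw [h4r_sum_sub, map_sub, h4r_degree_sum P hdeg, h4r_degree_sum Q hdeg, sub_self]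
  refine ⟨⟨_, hdeg'⟩, rfl, ?_⟩
  refine h4r_mk_eq ?_
  have : (∑ i, (Finsupp.single (P i) (1 : ℤ) - Finsupp.single (Q i) (1 : ℤ))) -
      (D : Divisor Kbar (FF M)) = Df := by
    rw [h4r_sum_sub, ← hEP]
    abel
  show (∑ i, (Finsupp.single (P i) (1 : ℤ) - Finsupp.single (Q i) (1 : ℤ))) -
      (D : Divisor Kbar (FF M)) ∈ Divisor.principal (K := Kbar) (F := FF M)
  rw [this]
  exact hDfp


theorem h4r_sum_eq_zero_out (A : ValuationSubring Kbar) {g : ℕ}
    {P Q : Fin g → Place Kbar (FF M)} (hP : ∀ i, SameRed A (P i) (Q i))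
    {v : Place Kbar (FF M)} (hv : ∀ i, ¬ SameRed A v (Q i)) : h4r_sum P v = 0 := by
  classical
  rw [h4r_sum_apply]
  refine Finset.sum_eq_zero fun i _ => if_neg fun h => hv i ?_
  rw [← h]
  exact hP i

theorem h4r_eq_of_sum_eq (A : ValuationSubring Kbar) {g : ℕ}
    {P P' Q : Fin g → Place Kbar (FF M)} (hQ : ∀ i j, SameRed A (Q i) (Q j) → i = j)
    (hP : ∀ i, SameRed A (P i) (Q i)) (hP' : ∀ i, SameRed A (P' i) (Q i))
    (h : h4r_sum P = h4r_sum P') : P = P' := by
  classical
  funext i
  have h1 : h4r_sum P (P i) ≠ 0 := by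
    rw [h4r_sum_apply]
    have h2 : (1 : ℤ) ≤ ∑ j, if P j = P i then (1 : ℤ) else 0 := by
      have := Finset.single_le_sum (f := fun j => if P j = P i then (1 : ℤ) else 0)
        (s := Finset.univ) (fun j _ => by
          show (0 : ℤ) ≤ if P j = P i then (1 : ℤ) else 0
          split_ifs <;> simp) (Finset.mem_univ i)
      simpa using this
    omega
  rw [h, h4r_sum_apply] at h1
  obtain ⟨j, -, hj⟩ := Finset.exists_ne_zero_of_sum_ne_zero h1
  have hj' : P' j = P i := by
    by_contra hne
    exact hj (if_neg hne)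
  have hij : j = i := hQ j i (by
    have h3 := hP' j
    rw [hj'] at h3
    exact Fermat.Agent.Red.Match.sameRed_trans (Fermat.Agent.Red.Match.sameRed_symm h3) (hP i))
  rw [← hj', hij]

/-- **`Valid.rep_unique`** from the non-speciality of the reduction: no semicontinuity is
needed, only one place outside the `g` discs. -/
theorem h4r_rep_unique (A : ValuationSubring Kbar) {g : ℕ} (Q : Fin g → Place Kbar (FF M))
    [HasPrincipalDivisors Kbar (FF M)]
    (hQ : ∀ i j, SameRed A (Q i) (Q j) → i = j) (hNS : H4rNonSpec A Q)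
    (hout : ∃ v : Place Kbar (FF M), ∀ i, ¬ SameRed A v (Q i)) :
    ∀ (x : JZero M) (P P' : Fin g → Place Kbar (FF M)),
      (∀ i, SameRed A (P i) (Q i)) → (∀ i, SameRed A (P' i) (Q i)) →
      h96m_IsCls x P Q → h96m_IsCls x P' Q → P = P' := by
  classical
  intro x P P' hP hP' hx hx'
  obtain ⟨D1, hD1, hx1⟩ := hx
  obtain ⟨D2, hD2, hx2⟩ := hx'
  have h12 : Pic0.mk D2 = Pic0.mk D1 := by rw [← hx1, ← hx2]
  obtain ⟨f, hf0, hf⟩ := h4r_mk_eq_iff.1 h12
  rw [hD1, hD2, h4r_sum_sub, h4r_sum_sub] at hf
  have hf' : ∀ v, v.ord f = h4r_sum P v - h4r_sum P' v := by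
    intro v
    have := hf v
    simp only [Finsupp.sub_apply] at this
    omega
  refine h4r_eq_of_sum_eq A hQ hP hP' ?_
  obtain ⟨v0, hv0⟩ := hout
  have hP0 := h4r_sum_eq_zero_out A hP hv0
  have hP0' := h4r_sum_eq_zero_out A hP' hv0
  have hord0 : v0.ord f = 0 := by rw [hf', hP0, hP0', sub_zero]
  have hfmem : f ∈ v0.toValuationSubring :=
    Fermat.Agent.S24.DiffPlace.mem_of_ord_nonneg v0 hord0.ge
  obtain ⟨a, ha⟩ := Fermat.Agent.Red.Match.exists_valueAt v0 hfmem
  by_cases hg : f - cst M a = 0
  · -- `f` is constant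
    ext v
    have h1 : v.ord f = 0 := by
      rw [sub_eq_zero.1 hg]
      exact Fermat.Agent.S24.DiffPlace.ord_algebraMap v a
    have := hf' v
    omega
  · exfalso
    obtain ⟨Dg, hDg, -⟩ := HasPrincipalDivisors.exists_divisor (K := Kbar) (f - cst M a) hg
    have hDgp : Dg ∈ Divisor.principal (K := Kbar) (F := FF M) := ⟨_, hg, hDg⟩
    have hfL : f ∈ riemannRochSpace (h4r_sum P') := by
      rw [mem_riemannRochSpace_iff]
      intro v
      right
      have h1 := h4r_sum_nonneg P v
      simp only [Finsupp.coe_zero, Pi.zero_apply] at h1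
      rw [hf' v]
      omega
    have haL : cst M a ∈ riemannRochSpace (h4r_sum P') := by
      rw [mem_riemannRochSpace_iff]
      intro v
      right
      have h1 := h4r_sum_nonneg P' v
      simp only [Finsupp.coe_zero, Pi.zero_apply] at h1
      rw [Fermat.Agent.S24.DiffPlace.ord_algebraMap v a]
      omega
    have hgL := (riemannRochSpace (h4r_sum P')).sub_mem hfL haL
    have hE : 0 ≤ Dg + h4r_sum P' := by
      intro v
      have h1 := (mem_riemannRochSpace_iff.1 hgL v).resolve_left hg
      simp only [Finsupp.coe_zero, Pi.zero_apply, Finsupp.add_apply, hDg v]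
      omega
    have hred := hNS Dg hDgp (fun w => by
      have h1 := h4r_red_nonneg A w hE
      rw [map_add, h4r_red_sum_congr A w hP'] at h1
      rw [map_add]
      exact h1)
    have h2 := h4r_le_red A hE (Fermat.Agent.Red.Match.sameRed_refl A v0)
    rw [map_add, hred v0, h4r_red_sum_out A P' (fun i h => hv0 i
      (Fermat.Agent.Red.Match.sameRed_trans h (hP' i))), Finsupp.add_apply, hP0', hDg v0] at h2
    have h3 := Fermat.Agent.Red.SM.h31_ord_pos_of_mem_nonunits v0 ha hg
    omega

end Fermat.Agent.P5
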