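import Fermat.Agent.P5.H4Rep

/-!
# P5 (wave 5, S19), bridge GEO-REP (helper4), part 2: `Link.step`, `Link.der_unit`

* `h4r_const` : a function with poles at most `∑ P i` (`P i` in the discs of the `Q i`) is
  constant (from `H4rNonSpec A Q` and one place outside the discs; no semicontinuity).
* `H4rLinkData A c c' b bs` : the divisorial raw data of a link: `E₀ ≥ 0` without points in the
  discs of `c`, `c'`; `b j, bs ∈ L(E₀)`; `div bs = 2 D₀ + D₁ - E₀`; `bs ∉ span (b j)`.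
* `h4r_step` : the field `step` of `H96Link`.
* `h4r_eq_bs`, `h4r_der_unit` : the field `der_unit` of `H96Link` from the same property of `bs`.
* `h4r_link` : the link from the raw data.
* `h4r_valid` : `H96Chart.Valid` from the disc fields, `H4rNonSpec` and generic Riemann.
-/

set_option autoImplicit false
set_option linter.unusedSectionVars false

open AlgebraicCurve ModularCurve

noncomputable section

namespace Fermat.Agent.P5

open Fermat.Agent.S37

variable {M : ℕ} [NeZero M] {g : ℕ}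

/-- a function with a value at `P` is regular at `P`. -/
theorem h4r_mem_of_valueAt {P : Place Kbar (FF M)} {f : FF M} {a : Kbar}
    (h : ValueAt P f a) : f ∈ P.toValuationSubring := by
  have h1 : f - cst M a ∈ P.toValuationSubring :=
    (ValuationSubring.mem_nonunits_iff_exists_mem_maximalIdeal.1 h).1
  have h2 : cst M a ∈ P.toValuationSubring := P.algebraMap_mem' a
  have := P.toValuationSubring.add_mem _ _ h1 h2
  rwa [sub_add_cancel] at this

open Classical in
/-- for `v` in the disc of `Q i` and `P k ∼ Q k` (distinct classes): `(∑ P k)(v) = [P i = v]`. -/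
theorem h4r_sum_apply_disc (A : ValuationSubring Kbar) {P Q : Fin g → Place Kbar (FF M)}
    (hQ : ∀ i j, SameRed A (Q i) (Q j) → i = j) (hP : ∀ i, SameRed A (P i) (Q i))
    {v : Place Kbar (FF M)} {i : Fin g} (hv : SameRed A v (Q i)) :
    h4r_sum P v = if P i = v then 1 else 0 := by
  rw [h4r_sum_apply, Finset.sum_eq_single i]
  · intro j _ hji
    refine if_neg fun h => hji (hQ j i ?_)
    have h1 := hP j
    rw [h] at h1
    exact Fermat.Agent.Red.Match.sameRed_trans (Fermat.Agent.Red.Match.sameRed_symm h1) hv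
  · intro h; exact absurd (Finset.mem_univ i) h

/-- **constancy**: a function with poles at most `∑ P i` (`P i` in the discs of the `Q i`) is
constant, as soon as the reduction of `∑ Q i` is non-special. -/
theorem h4r_const (A : ValuationSubring Kbar) (Q : Fin g → Place Kbar (FF M))
    [HasPrincipalDivisors Kbar (FF M)] (hNS : H4rNonSpec A Q)
    (hout : ∃ v : Place Kbar (FF M), ∀ i, ¬ SameRed A v (Q i))
    {P : Fin g → Place Kbar (FF M)} (hP : ∀ i, SameRed A (P i) (Q i))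
    {f : FF M} (hf : f ∈ riemannRochSpace (h4r_sum P)) : ∃ a : Kbar, f = cst M a := by
  classical
  obtain ⟨v0, hv0⟩ := hout
  have hP0 := h4r_sum_eq_zero_out A hP hv0
  have hfmem : f ∈ v0.toValuationSubring := by
    rcases eq_or_ne f 0 with rfl | hf0
    · exact v0.toValuationSubring.zero_mem
    · have h1 := (mem_riemannRochSpace_iff.1 hf v0).resolve_left hf0
      rw [hP0] at h1
      exact Fermat.Agent.S24.DiffPlace.mem_of_ord_nonneg v0 (by omega)
  obtain ⟨a, ha⟩ := Fermat.Agent.Red.Match.exists_valueAt v0 hfmem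
  refine ⟨a, ?_⟩
  by_contra hne
  have hg : f - cst M a ≠ 0 := fun h => hne (sub_eq_zero.1 h)
  obtain ⟨Dg, hDg, -⟩ := HasPrincipalDivisors.exists_divisor (K := Kbar) (f - cst M a) hg
  have hDgp : Dg ∈ Divisor.principal (K := Kbar) (F := FF M) := ⟨_, hg, hDg⟩
  have haL : cst M a ∈ riemannRochSpace (h4r_sum P) := by
    rw [mem_riemannRochSpace_iff]
    intro v
    right
    have h1 := h4r_sum_nonneg P v
    simp only [Finsupp.coe_zero, Pi.zero_apply] at h1
    rw [Fermat.Agent.S24.DiffPlace.ord_algebraMap v a]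
    omega
  have hgL := (riemannRochSpace (h4r_sum P)).sub_mem hf haL
  have hE : 0 ≤ Dg + h4r_sum P := by
    intro v
    have h1 := (mem_riemannRochSpace_iff.1 hgL v).resolve_left hg
    simp only [Finsupp.coe_zero, Pi.zero_apply, Finsupp.add_apply, hDg v]
    omega
  have hred := hNS Dg hDgp (fun w => by
    have h1 := h4r_red_nonneg A w hE
    rw [map_add, h4r_red_sum_congr A w hP] at h1
    rw [map_add]
    exact h1)
  have h2 := h4r_le_red A hE (Fermat.Agent.Red.Match.sameRed_refl A v0)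
  rw [map_add, hred v0, h4r_red_sum_out A P (fun i h => hv0 i
    (Fermat.Agent.Red.Match.sameRed_trans h (hP i))), Finsupp.add_apply, hP0, hDg v0] at h2
  have h3 := Fermat.Agent.Red.SM.h31_ord_pos_of_mem_nonunits v0 ha hg
  omega

/-- the raw data of a link: the divisor `E₀`, the functions and their divisorial properties. -/
structure H4rLinkData (A : ValuationSubring Kbar) (c c' : H96Chart M g)
    (b : Fin g ⊕ Fin g → FF M) (bs : FF M) : Prop where
  /-- the polar divisor -/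
  exE0 : ∃ E0 : Divisor Kbar (FF M), 0 ≤ E0 ∧
    (∀ i v, SameRed A v (c.Q i) → E0 v = 0) ∧
    (∀ i v, SameRed A v (c'.Q i) → E0 v = 0) ∧
    (∀ j, b j ∈ riemannRochSpace E0) ∧ bs ∈ riemannRochSpace E0 ∧
    ∀ v : Place Kbar (FF M), v.ord bs = 2 * h4r_sum c.Q v + h4r_sum c'.Q v - E0 v
  bs_ne : bs ≠ 0
  indep : ∀ (e : Kbar) (co : Fin g ⊕ Fin g → Kbar),
    cst M e * bs + ∑ j, cst M (co j) * b j = 0 → e = 0

theorem h4r_step (A : ValuationSubring Kbar) (c c' : H96Chart M g)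
    [HasPrincipalDivisors Kbar (FF M)]
    (hdeg : ∀ v : Place Kbar (FF M), v.deg = 1)
    (hOval : ∀ i, ∀ f ∈ c.O i, ∀ P, SameRed A P (c.Q i) → ∃ a ∈ A, ValueAt P f a)
    (hOt : ∀ i, c.t i ∈ c.O i)
    (hQ : ∀ i j, SameRed A (c.Q i) (c.Q j) → i = j)
    (hQ' : ∀ i j, SameRed A (c'.Q i) (c'.Q j) → i = j)
    (hNS' : H4rNonSpec A c'.Q)
    {b : Fin g ⊕ Fin g → FF M} {bs : FF M} (hL : H4rLinkData A c c' b bs) :
    ∀ (P P' : Fin g → Place Kbar (FF M)), (∀ i, SameRed A (P i) (c.Q i)) →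
    (∀ i, SameRed A (P' i) (c.Q i)) → ∀ co : Fin g ⊕ Fin g → Kbar,
    (∀ i, ∃ h ∈ c.O i, ∃ a a', ValueAt (P i) (c.t i) a ∧ ValueAt (P' i) (c.t i) a' ∧
      bs + ∑ j, cst M (co j) * b j = (c.t i - cst M a) * (c.t i - cst M a') * h) →
    ∃ E : Fin g → Place Kbar (FF M), (∀ i, SameRed A (E i) (c'.Q i)) ∧
      (∀ i, ValueAt (E i) (bs + ∑ j, cst M (co j) * b j) 0) ∧
      ∀ x y : JZero M, h96m_IsCls x P c.Q → h96m_IsCls y P' c.Q →
        h96m_IsCls (-(x + y)) E c'.Q := by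
  classical
  intro P P' hP hP' co hfac
  obtain ⟨E0, hE0, hE0c, hE0c', hbL, hbsL, hbsdiv⟩ := hL.exE0
  set u : FF M := bs + ∑ j, cst M (co j) * b j with hu
  have hu0 : u ≠ 0 := by
    intro h
    have h1 := hL.indep 1 co (by
      have h2 : cst M 1 = 1 := map_one _
      rw [h2, one_mul]; exact h)
    exact one_ne_zero h1
  have huL : u ∈ riemannRochSpace E0 := by
    refine (riemannRochSpace E0).add_mem hbsL ((riemannRochSpace E0).sum_mem fun j _ => ?_)
    have : cst M (co j) * b j = co j • b j := (Algebra.smul_def _ _).symm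
    rw [this]
    exact (riemannRochSpace E0).smul_mem _ (hbL j)
  obtain ⟨Du, hDu, -⟩ := HasPrincipalDivisors.exists_divisor (K := Kbar) u hu0
  have hDup : Du ∈ Divisor.principal (K := Kbar) (F := FF M) := ⟨u, hu0, hDu⟩
  -- the divisor of `bs`
  have hDbsp : 2 • h4r_sum c.Q + h4r_sum c'.Q - E0 ∈
      Divisor.principal (K := Kbar) (F := FF M) := by
    refine ⟨bs, hL.bs_ne, fun v => ?_⟩
    rw [hbsdiv v]
    simp only [Finsupp.sub_apply, Finsupp.add_apply, Finsupp.smul_apply]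
    ring
  -- orders of `u` on the discs of `c`
  have hord : ∀ i v, SameRed A v (c.Q i) →
      (if P i = v then (1 : ℤ) else 0) + (if P' i = v then (1 : ℤ) else 0) ≤ v.ord u := by
    intro i v hv
    obtain ⟨h, hh, a, a', ha, ha', hfact⟩ := hfac i
    have hf1 : c.t i - cst M a ≠ 0 := by
      intro h0; rw [h0, zero_mul, zero_mul] at hfact; exact hu0 hfact
    have hf2 : c.t i - cst M a' ≠ 0 := by
      intro h0; rw [h0, mul_zero, zero_mul] at hfact; exact hu0 hfact
    have hf3 : h ≠ 0 := by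
      intro h0; rw [h0, mul_zero] at hfact; exact hu0 hfact
    have htv : c.t i ∈ v.toValuationSubring := by
      obtain ⟨a0, -, ha0⟩ := hOval i _ (hOt i) v hv
      exact h4r_mem_of_valueAt ha0
    have hhv : h ∈ v.toValuationSubring := by
      obtain ⟨a0, -, ha0⟩ := hOval i _ hh v hv
      exact h4r_mem_of_valueAt ha0
    have h1 : 0 ≤ v.ord (c.t i - cst M a) :=
      Fermat.Agent.S24.DiffPlace.ord_nonneg_of_mem v
        (v.toValuationSubring.sub_mem htv (v.algebraMap_mem' a))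
    have h2 : 0 ≤ v.ord (c.t i - cst M a') :=
      Fermat.Agent.S24.DiffPlace.ord_nonneg_of_mem v
        (v.toValuationSubring.sub_mem htv (v.algebraMap_mem' a'))
    have h3 : 0 ≤ v.ord h := Fermat.Agent.S24.DiffPlace.ord_nonneg_of_mem v hhv
    have h4 : P i = v → 0 < v.ord (c.t i - cst M a) := by
      rintro rfl
      exact Fermat.Agent.Red.SM.h31_ord_pos_of_mem_nonunits _ ha hf1
    have h5 : P' i = v → 0 < v.ord (c.t i - cst M a') := by
      rintro rfl
      exact Fermat.Agent.Red.SM.h31_ord_pos_of_mem_nonunits _ ha' hf2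
    rw [hfact, v.ord_mul (mul_ne_zero hf1 hf2) hf3, v.ord_mul hf1 hf2]
    split_ifs with h6 h7 h7
    · have := h4 h6; have := h5 h7; omega
    · have := h4 h6; omega
    · have := h5 h7; omega
    · omega
  -- the residual divisor
  have hE : 0 ≤ Du + E0 - h4r_sum P - h4r_sum P' := by
    intro v
    simp only [Finsupp.coe_zero, Pi.zero_apply, Finsupp.sub_apply, Finsupp.add_apply, hDu v]
    by_cases hv : ∃ i, SameRed A v (c.Q i)
    · obtain ⟨i, hi⟩ := hv
      rw [hE0c i v hi, h4r_sum_apply_disc A hQ hP hi, h4r_sum_apply_disc A hQ hP' hi]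
      have := hord i v hi
      omega
    · push Not at hv
      rw [h4r_sum_eq_zero_out A hP hv, h4r_sum_eq_zero_out A hP' hv]
      have h1 := (mem_riemannRochSpace_iff.1 huL v).resolve_left hu0
      omega
  have hDhp : Du - (2 • h4r_sum c.Q + h4r_sum c'.Q - E0) ∈
      Divisor.principal (K := Kbar) (F := FF M) :=
    (Divisor.principal (K := Kbar) (F := FF M)).sub_mem hDup hDbsp
  have hredE : ∀ w, h4r_red A w (Du + E0 - h4r_sum P - h4r_sum P') =
      h4r_red A w (Du - (2 • h4r_sum c.Q + h4r_sum c'.Q - E0)) + h4r_red A w (h4r_sum c'.Q) := by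
    intro w
    simp only [map_add, map_sub, map_nsmul, h4r_red_sum_congr A w hP, h4r_red_sum_congr A w hP']
    simp only [nsmul_eq_mul]
    push_cast
    ring
  have hredh := hNS' _ hDhp (fun w => by
    have h1 := h4r_red_nonneg A w hE
    rw [hredE w] at h1
    rw [map_add]
    exact h1)
  obtain ⟨E, hEc, hEsum⟩ := h4r_shape A c'.Q hQ' hE (fun w => by
    rw [hredE w, hredh w, zero_add])
  refine ⟨E, hEc, fun i => ?_, ?_⟩
  · -- `u` vanishes at `E i`
    have h1 : 1 ≤ (Du + E0 - h4r_sum P - h4r_sum P') (E i) := by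
      rw [hEsum, h4r_sum_apply_disc A hQ' hEc (hEc i), if_pos rfl]
    simp only [Finsupp.sub_apply, Finsupp.add_apply, hDu, hE0c' i (E i) (hEc i)] at h1
    have h2 := h4r_sum_nonneg P (E i)
    have h3 := h4r_sum_nonneg P' (E i)
    simp only [Finsupp.coe_zero, Pi.zero_apply] at h2 h3
    have h4 : 0 < (E i).ord u := by omega
    unfold ValueAt
    have h5 : cst M 0 = 0 := map_zero _
    rw [h5, sub_zero]
    exact Fermat.Agent.Red.SM.h31_mem_nonunits_of_ord_pos (E i) h4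
  · -- the class
    rintro x y ⟨Dx, hDx, rfl⟩ ⟨Dy, hDy, rfl⟩
    have hdeg' : Divisor.degree
        (∑ i, (Finsupp.single (E i) (1 : ℤ) - Finsupp.single (c'.Q i) (1 : ℤ))) = 0 := by
      rw [h4r_sum_sub, map_sub, h4r_degree_sum E hdeg, h4r_degree_sum c'.Q hdeg, sub_self]
    refine ⟨⟨_, hdeg'⟩, rfl, ?_⟩
    have h1 : -(Pic0.mk Dx + Pic0.mk Dy) = Pic0.mk (-(Dx + Dy)) := rfl
    rw [h1]
    refine h4r_mk_eq ?_
    have h2 : (∑ i, (Finsupp.single (E i) (1 : ℤ) - Finsupp.single (c'.Q i) (1 : ℤ))) -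
        ((-(Dx + Dy) : Divisor.degZero (K := Kbar) (F := FF M)) : Divisor Kbar (FF M)) =
        Du - (2 • h4r_sum c.Q + h4r_sum c'.Q - E0) := by
      push_cast
      rw [hDx, hDy, h4r_sum_sub, h4r_sum_sub, h4r_sum_sub, ← hEsum]
      abel
    show (∑ i, (Finsupp.single (E i) (1 : ℤ) - Finsupp.single (c'.Q i) (1 : ℤ))) -
        ((-(Dx + Dy) : Divisor.degZero (K := Kbar) (F := FF M)) : Divisor Kbar (FF M)) ∈
        Divisor.principal (K := Kbar) (F := FF M)
    rw [h2]
    exact hDhp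


/-- **`Link.der_unit`**: a combination vanishing to order two at the centres of `c` is `bs`. -/
theorem h4r_eq_bs (A : ValuationSubring Kbar) (c c' : H96Chart M g)
    [HasPrincipalDivisors Kbar (FF M)]
    (hOval : ∀ i, ∀ f ∈ c.O i, ∀ P, SameRed A P (c.Q i) → ∃ a ∈ A, ValueAt P f a)
    (hOt : ∀ i, c.t i ∈ c.O i) (htz : ∀ i, ValueAt (c.Q i) (c.t i) 0)
    (hQ : ∀ i j, SameRed A (c.Q i) (c.Q j) → i = j)
    (hNS' : H4rNonSpec A c'.Q)
    (hout' : ∃ v : Place Kbar (FF M), ∀ i, ¬ SameRed A v (c'.Q i))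
    {b : Fin g ⊕ Fin g → FF M} {bs : FF M} (hL : H4rLinkData A c c' b bs)
    (co : Fin g ⊕ Fin g → Kbar)
    (hfac : ∀ i, ∃ h ∈ c.O i, bs + ∑ j, cst M (co j) * b j = c.t i * c.t i * h) :
    bs + ∑ j, cst M (co j) * b j = bs := by
  classical
  obtain ⟨E0, hE0, hE0c, hE0c', hbL, hbsL, hbsdiv⟩ := hL.exE0
  set u : FF M := bs + ∑ j, cst M (co j) * b j with hu
  have hu0 : u ≠ 0 := by
    intro h
    have h1 := hL.indep 1 co (by
      have h2 : cst M 1 = 1 := map_one _
      rw [h2, one_mul]; exact h)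
    exact one_ne_zero h1
  have huL : u ∈ riemannRochSpace E0 := by
    refine (riemannRochSpace E0).add_mem hbsL ((riemannRochSpace E0).sum_mem fun j _ => ?_)
    have : cst M (co j) * b j = co j • b j := (Algebra.smul_def _ _).symm
    rw [this]
    exact (riemannRochSpace E0).smul_mem _ (hbL j)
  have hrefl : ∀ i, SameRed A (c.Q i) (c.Q i) := fun i => Fermat.Agent.Red.Match.sameRed_refl A _
  have hord : ∀ i v, SameRed A v (c.Q i) →
      2 * (if c.Q i = v then (1 : ℤ) else 0) ≤ v.ord u := by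
    intro i v hv
    obtain ⟨h, hh, hfact⟩ := hfac i
    have hf1 : c.t i ≠ 0 := by
      intro h0; rw [h0, zero_mul, zero_mul] at hfact; exact hu0 hfact
    have hf3 : h ≠ 0 := by
      intro h0; rw [h0, mul_zero] at hfact; exact hu0 hfact
    have htv : c.t i ∈ v.toValuationSubring := by
      obtain ⟨a0, -, ha0⟩ := hOval i _ (hOt i) v hv
      exact h4r_mem_of_valueAt ha0
    have hhv : h ∈ v.toValuationSubring := by
      obtain ⟨a0, -, ha0⟩ := hOval i _ hh v hv
      exact h4r_mem_of_valueAt ha0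
    have h1 : 0 ≤ v.ord (c.t i) := Fermat.Agent.S24.DiffPlace.ord_nonneg_of_mem v htv
    have h3 : 0 ≤ v.ord h := Fermat.Agent.S24.DiffPlace.ord_nonneg_of_mem v hhv
    have h4 : c.Q i = v → 0 < v.ord (c.t i) := by
      rintro rfl
      have h5 := htz i
      unfold ValueAt at h5
      have h6 : cst M 0 = 0 := map_zero _
      rw [h6, sub_zero] at h5
      exact Fermat.Agent.Red.SM.h31_ord_pos_of_mem_nonunits _ h5 hf1
    rw [hfact, v.ord_mul (mul_ne_zero hf1 hf1) hf3, v.ord_mul hf1 hf1]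
    split_ifs with h6
    · have := h4 h6; omega
    · omega
  -- `φ = u / bs` has poles at most `∑ Q' i`
  have hφ0 : u * bs⁻¹ ≠ 0 := mul_ne_zero hu0 (inv_ne_zero hL.bs_ne)
  have hφL : u * bs⁻¹ ∈ riemannRochSpace (h4r_sum c'.Q) := by
    rw [mem_riemannRochSpace_iff]
    intro v
    right
    rw [v.ord_mul hu0 (inv_ne_zero hL.bs_ne), v.ord_inv, hbsdiv v]
    by_cases hv : ∃ i, SameRed A v (c.Q i)
    · obtain ⟨i, hi⟩ := hv
      rw [hE0c i v hi, h4r_sum_apply_disc A hQ hrefl hi]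
      have := hord i v hi
      omega
    · push Not at hv
      rw [h4r_sum_eq_zero_out A hrefl hv]
      have h1 := (mem_riemannRochSpace_iff.1 huL v).resolve_left hu0
      omega
  obtain ⟨a, ha⟩ := h4r_const A c'.Q hNS' hout'
    (fun i => Fermat.Agent.Red.Match.sameRed_refl A _) hφL
  have hua : u = cst M a * bs := by
    have h1 : u = u * bs⁻¹ * bs := by
      rw [mul_assoc, inv_mul_cancel₀ hL.bs_ne, mul_one]
    rw [h1, ha]
  have h1 : cst M (1 - a) * bs + ∑ j, cst M (co j) * b j = 0 := by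
    have h2 : cst M (1 - a) = 1 - cst M a := by
      show algebraMap Kbar (FF M) (1 - a) = 1 - algebraMap Kbar (FF M) a
      rw [map_sub, map_one]
    rw [h2, sub_mul, one_mul, sub_add_eq_add_sub, ← hu, hua, sub_self]
  have h2 := hL.indep _ co h1
  have h3 : a = 1 := (sub_eq_zero.1 h2).symm
  rw [hua, h3]
  have h4 : cst M 1 = 1 := map_one _
  rw [h4, one_mul]

/-- **`Link.der_unit`** from the corresponding property of `bs`. -/
theorem h4r_der_unit (A : ValuationSubring Kbar) (c c' : H96Chart M g)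
    [HasPrincipalDivisors Kbar (FF M)]
    (hOval : ∀ i, ∀ f ∈ c.O i, ∀ P, SameRed A P (c.Q i) → ∃ a ∈ A, ValueAt P f a)
    (hOt : ∀ i, c.t i ∈ c.O i) (htz : ∀ i, ValueAt (c.Q i) (c.t i) 0)
    (hQ : ∀ i j, SameRed A (c.Q i) (c.Q j) → i = j)
    (hNS' : H4rNonSpec A c'.Q)
    (hout' : ∃ v : Place Kbar (FF M), ∀ i, ¬ SameRed A v (c'.Q i))
    {b : Fin g ⊕ Fin g → FF M} {bs : FF M} (hL : H4rLinkData A c c' b bs)
    (hbsder : ∀ i, ∃ h ∈ c'.O i, ∃ d : Kbar, bs = c'.t i * h ∧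
      ValueAt (c'.Q i) h d ∧ d ≠ 0 ∧ d⁻¹ ∈ A) :
    ∀ co : Fin g ⊕ Fin g → Kbar,
    (∀ i, ∃ h ∈ c.O i, bs + ∑ j, cst M (co j) * b j = c.t i * c.t i * h) →
    ∀ i, ∃ h ∈ c'.O i, ∃ d : Kbar, bs + ∑ j, cst M (co j) * b j = c'.t i * h ∧
      ValueAt (c'.Q i) h d ∧ d ≠ 0 ∧ d⁻¹ ∈ A := by
  intro co hfac i
  rw [h4r_eq_bs A c c' hOval hOt htz hQ hNS' hout' hL co hfac]
  exact hbsder i

/-- **the link** from the raw data. -/
def h4r_link (A : ValuationSubring Kbar) (c c' : H96Chart M g)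
    [HasPrincipalDivisors Kbar (FF M)]
    (hdeg : ∀ v : Place Kbar (FF M), v.deg = 1)
    (hOval : ∀ i, ∀ f ∈ c.O i, ∀ P, SameRed A P (c.Q i) → ∃ a ∈ A, ValueAt P f a)
    (hOt : ∀ i, c.t i ∈ c.O i) (htz : ∀ i, ValueAt (c.Q i) (c.t i) 0)
    (hQ : ∀ i j, SameRed A (c.Q i) (c.Q j) → i = j)
    (hQ' : ∀ i j, SameRed A (c'.Q i) (c'.Q j) → i = j)
    (hNS' : H4rNonSpec A c'.Q)
    (hout' : ∃ v : Place Kbar (FF M), ∀ i, ¬ SameRed A v (c'.Q i))
    (b : Fin g ⊕ Fin g → FF M) (bs : FF M) (hL : H4rLinkData A c c' b bs)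
    (b_mem : ∀ j i, b j ∈ c.O i ∧ b j ∈ c'.O i) (bs_mem : ∀ i, bs ∈ c.O i ∧ bs ∈ c'.O i)
    (N0 : Matrix (Fin g ⊕ Fin g) (Fin g ⊕ Fin g) Kbar)
    (N0_val : ∀ i j, ValueAt (c.Q i) (b j) (N0 (Sum.inl i) j))
    (N0_der : ∀ i j, ∃ h ∈ c.O i, b j - cst M (N0 (Sum.inl i) j) = c.t i * h ∧
      ValueAt (c.Q i) h (N0 (Sum.inr i) j))
    (N0_unit : N0.det ≠ 0 ∧ (N0.det)⁻¹ ∈ A)
    (hbsder : ∀ i, ∃ h ∈ c'.O i, ∃ d : Kbar, bs = c'.t i * h ∧
      ValueAt (c'.Q i) h d ∧ d ≠ 0 ∧ d⁻¹ ∈ A) : H96Link A c c' where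
  b := b
  bs := bs
  b_mem := b_mem
  bs_mem := bs_mem
  N0 := N0
  N0_val := N0_val
  N0_der := N0_der
  N0_unit := N0_unit
  step := h4r_step A c c' hdeg hOval hOt hQ hQ' hNS' hL
  der_unit := h4r_der_unit A c c' hOval hOt htz hQ hNS' hout' hL hbsder

/-- **a valid chart** from the disc calculus, the reduction input and generic Riemann. -/
theorem h4r_valid (A : ValuationSubring Kbar) (c : H96Chart M g)
    [HasPrincipalDivisors Kbar (FF M)]
    (hdeg : ∀ v : Place Kbar (FF M), v.deg = 1)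
    (hRR : ∀ D : Divisor Kbar (FF M), (g : ℤ) ≤ Divisor.degree D → riemannRochSpace D ≠ ⊥)
    (hQ : ∀ i j, SameRed A (c.Q i) (c.Q j) → i = j) (hNS : H4rNonSpec A c.Q)
    (hout : ∃ v : Place Kbar (FF M), ∀ i, ¬ SameRed A v (c.Q i))
    (t_zero : ∀ i, ValueAt (c.Q i) (c.t i) 0)
    (t_small : ∀ i P, SameRed A P (c.Q i) → ∃ a ∈ A.nonunits, ValueAt P (c.t i) a)
    (t_inj : ∀ i P P' a, SameRed A P (c.Q i) → SameRed A P' (c.Q i) →
      ValueAt P (c.t i) a → ValueAt P' (c.t i) a → P = P')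
    (O_cst : ∀ i a, a ∈ A → cst M a ∈ c.O i)
    (O_t : ∀ i, c.t i ∈ c.O i)
    (O_val : ∀ i, ∀ f ∈ c.O i, ∀ P, SameRed A P (c.Q i) → ∃ a ∈ A, ValueAt P f a)
    (O_div : ∀ i, ∀ f ∈ c.O i, ∀ P, SameRed A P (c.Q i) → ∀ a a', ValueAt P f a →
      ValueAt P (c.t i) a' → ∃ h ∈ c.O i, f - cst M a = (c.t i - cst M a') * h)
    (inert : ∀ σ ∈ A.inertiaSubgroupIn ℚ, ∀ (x : JZero M) (i : Fin g) (a : Kbar),
      c.IsCoord A x i a → c.IsCoord A (σ • x) i (σ a)) : c.Valid A where
  t_zero := t_zero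
  t_small := t_small
  t_inj := t_inj
  refl := fun _ => Fermat.Agent.Red.Match.sameRed_refl A _
  O_cst := O_cst
  O_t := O_t
  O_val := O_val
  O_div := O_div
  rep := h4r_rep A c.Q hdeg hRR hQ hNS
  rep_unique := h4r_rep_unique A c.Q hQ hNS hout
  inert := inert

end Fermat.Agent.P5
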