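import Fermat.Agent.P5.H88RedDivA

/-!
# Wave 5, pillar (P), leaf S4 (RED-DIV in place form): the assembly (helper88)

`h88r_redDiv_of : H88rPlace → H88rSurj → H13sRedDiv` (exact frozen Props of
`P5/H88RedDivIface.lean`, `P5/H13SFIface.lean`).

The reduction map of places is `r v := ` the place of the special fibre at the centre of `v`
(on the finite chart if `v` is finite, on the chart at infinity otherwise).
-/

set_option autoImplicit false
set_option linter.unusedSectionVars false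

open AlgebraicCurve ModularCurve IsLocalRing

noncomputable section

namespace Fermat.Agent.P5

open Fermat.Agent.S37 Fermat.Agent.Red.GV Fermat.Agent.Red.Match Fermat.Agent.Red
  Fermat.Agent.Red.Nz

variable {M : ℕ} [NeZero M] {A : ValuationSubring Kbar} {ℓ : ℕ}

/-! ### The reduction as a multiplicative map -/

theorem h88r_red_mul (x y : gaussV A M) :
    h13sRed A M (x * y) = h13sRed A M x * h13sRed A M y :=
  Subtype.ext (map_mul (gaussR A M) x y)

theorem h88r_red_one : h13sRed A M (1 : gaussV A M) = 1 :=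
  Subtype.ext (map_one (gaussR A M))

theorem h88r_red_zero : h13sRed A M (0 : gaussV A M) = 0 :=
  Subtype.ext (map_zero (gaussR A M))

theorem h88r_red_sub (x y : gaussV A M) :
    h13sRed A M (x - y) = h13sRed A M x - h13sRed A M y :=
  Subtype.ext (map_sub (gaussR A M) x y)

theorem h88r_red_eq_zero_iff (x : gaussV A M) :
    h13sRed A M x = 0 ↔ gaussR A M x = 0 := by
  constructor
  · intro h
    exact congrArg Subtype.val h
  · intro h
    exact Subtype.ext h

/-! ### The place at a closed point is unique and determines the point -/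

/-- the place at a closed point is unique. -/
theorem h88r_at_unique {R : Subring (FF M)} {n : Ideal R}
    {Q Q' : Place (h13sK A) (h13sFt A M)} (h : H88rAt A M R n Q) (h' : H88rAt A M R n Q') :
    Q = Q' := by
  apply Place.ext
  ext y
  rw [h y, h' y]

/-- the place at a closed point determines the point. -/
theorem h88r_at_le {R : Subring (FF M)} (hRV : R ≤ gaussV A M)
    (hker : ∀ z : R, GaussSmall A M (z : FF M) → z ∈ maxExt A R)
    {n n' : Ideal R} (hmax : maxExt A R ≤ n) (hmax' : maxExt A R ≤ n')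
    {Q : Place (h13sK A) (h13sFt A M)} (h : H88rAt A M R n Q) (h' : H88rAt A M R n' Q) :
    n ≤ n' := by
  intro a ha
  by_contra han'
  have haV : (a : FF M) ∈ gaussV A M := hRV a.2
  have hra : h13sRed A M ⟨(a : FF M), haV⟩ ≠ 0 := by
    intro h0
    rw [h88r_red_eq_zero_iff] at h0
    exact han' (hmax' (hker a ⟨haV, h0⟩))
  have h1 : (h13sRed A M ⟨(a : FF M), haV⟩)⁻¹ ∈ Q.toValuationSubring := by
    rw [h' _]
    refine ⟨1, a, hRV (1 : R).2, haV, han', ?_⟩
    rw [inv_mul_cancel₀ hra]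
    exact h88r_red_one.symm
  rw [h _] at h1
  obtain ⟨a₁, b₁, ha₁, hb₁, hb₁n, he⟩ := h1
  have h2 : h13sRed A M ⟨(b₁ : FF M), hb₁⟩ =
      h13sRed A M ⟨(a : FF M), haV⟩ * h13sRed A M ⟨(a₁ : FF M), ha₁⟩ := by
    rw [← he, ← mul_assoc, mul_inv_cancel₀ hra, one_mul]
  have h3 : GaussSmall A M (((b₁ - a * a₁ : R) : R) : FF M) := by
    have hV : (((b₁ - a * a₁ : R) : R) : FF M) ∈ gaussV A M := hRV (b₁ - a * a₁ : R).2
    refine ⟨hV, ?_⟩
    have h4 : (⟨(((b₁ - a * a₁ : R) : R) : FF M), hV⟩ : gaussV A M) =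
        ⟨(b₁ : FF M), hb₁⟩ - ⟨(a : FF M), haV⟩ * ⟨(a₁ : FF M), ha₁⟩ := rfl
    rw [h4, ← h88r_red_eq_zero_iff, h88r_red_sub, h88r_red_mul, h2, sub_self]
  have h5 := hmax (hker _ h3)
  have h6 : b₁ = (b₁ - a * a₁) + a * a₁ := by ring
  apply hb₁n
  rw [h6]
  exact n.add_mem h5 (n.mul_mem_right _ ha)

/-- a place of the special fibre is not at a closed point of the finite chart and at a closed
point with `1/j = 0` of the chart at infinity. -/
theorem h88r_at_mixed (hℓ : ℓ.Prime) (hM : ¬ ℓ ∣ M) (hA : A.LiesOverPrime ℓ)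
    {n : Ideal (modelFin M A)} {n' : Ideal (modelInf M A)}
    (hn1 : (1 : modelFin M A) ∉ n)
    (hmax' : maxExt A (modelInf M A) ≤ n')
    (hj : (⟨(jB M)⁻¹, h89_jB_inv_mem_modelInf M A⟩ : modelInf M A) ∈ n')
    {Q : Place (h13sK A) (h13sFt A M)} (h : H88rAt A M (modelFin M A) n Q)
    (h' : H88rAt A M (modelInf M A) n' Q) : False := by
  have hRV := modelFin_le_gaussV A M hℓ hM hA
  have hRV' := modelInf_le_gaussV A M hℓ hM hA
  have hjV : jB M ∈ gaussV A M := hRV (h89_jB_mem_modelFin M A)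
  have hjiV : (jB M)⁻¹ ∈ gaussV A M := hRV' (h89_jB_inv_mem_modelInf M A)
  have h1 : h13sRed A M ⟨jB M, hjV⟩ ∈ Q.toValuationSubring := by
    rw [h _]
    refine ⟨⟨jB M, h89_jB_mem_modelFin M A⟩, 1, hjV, hRV (1 : modelFin M A).2, hn1, ?_⟩
    have h2 : h13sRed A M ⟨((1 : modelFin M A) : FF M), hRV (1 : modelFin M A).2⟩ = 1 :=
      h88r_red_one
    rw [h2, mul_one]
  rw [h' _] at h1
  obtain ⟨a₁, b₁, ha₁, hb₁, hb₁n, he⟩ := h1
  have hjj : (⟨(jB M)⁻¹, hjiV⟩ : gaussV A M) * ⟨jB M, hjV⟩ = 1 :=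
    Subtype.ext (inv_mul_cancel₀ (h89_jB_ne_zero M))
  have h2 : h13sRed A M ⟨(b₁ : FF M), hb₁⟩ =
      h13sRed A M ⟨(jB M)⁻¹, hjiV⟩ * h13sRed A M ⟨(a₁ : FF M), ha₁⟩ := by
    rw [← he, ← mul_assoc, ← h88r_red_mul, hjj, h88r_red_one, one_mul]
  set ji : modelInf M A := ⟨(jB M)⁻¹, h89_jB_inv_mem_modelInf M A⟩ with hji
  have h3 : GaussSmall A M (((b₁ - ji * a₁ : modelInf M A) : modelInf M A) : FF M) := by
    have hV : (((b₁ - ji * a₁ : modelInf M A) : modelInf M A) : FF M) ∈ gaussV A M :=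
      hRV' (b₁ - ji * a₁ : modelInf M A).2
    refine ⟨hV, ?_⟩
    have h4 : (⟨(((b₁ - ji * a₁ : modelInf M A) : modelInf M A) : FF M), hV⟩ : gaussV A M) =
        ⟨(b₁ : FF M), hb₁⟩ - ⟨(jB M)⁻¹, hjiV⟩ * ⟨(a₁ : FF M), ha₁⟩ := rfl
    rw [h4, ← h88r_red_eq_zero_iff, h88r_red_sub, h88r_red_mul, h2, sub_self]
  have h5 := hmax' (h60p_mem_of_gaussSmall_inf hℓ hM hA _ h3)
  have h6 : b₁ = (b₁ - ji * a₁) + ji * a₁ := by ring
  apply hb₁n
  rw [h6]
  exact n'.add_mem h5 (n'.mul_mem_right _ hj)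

/-! ### Centres of the places of the generic fibre -/

theorem h88r_cst_fin (a : Kbar) (ha : a ∈ A) : cst M a ∈ modelFin M A :=
  cst_mem_modelAt M A _ ha

theorem h88r_cst_inf (a : Kbar) (ha : a ∈ A) : cst M a ∈ modelInf M A :=
  cst_mem_modelAt M A _ ha

/-- a finite place has a centre on the finite chart. -/
theorem h88r_cen_fin {v : Place Kbar (FF M)} (hv : IsFinAt A v) :
    ∃ n : Ideal (modelFin M A), n.IsMaximal ∧ maxExt A (modelFin M A) ≤ n ∧
      CenteredAt A (modelFin M A) n v :=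
  ⟨_, h88r_centre (modelFin M A) h88r_cst_fin v (exists_valueAt_modelFin hv)⟩

/-- a non-finite place has a centre with `1/j = 0` on the chart at infinity. -/
theorem h88r_cen_inf {v : Place Kbar (FF M)} (hv : ¬ IsFinAt A v) :
    ∃ n : Ideal (modelInf M A), n.IsMaximal ∧ maxExt A (modelInf M A) ≤ n ∧
      (⟨(jB M)⁻¹, h89_jB_inv_mem_modelInf M A⟩ : modelInf M A) ∈ n ∧
      CenteredAt A (modelInf M A) n v := by
  obtain ⟨h1, h2, h3⟩ :=
    h88r_centre (modelInf M A) h88r_cst_inf v (exists_valueAt_modelInf hv)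
  refine ⟨_, h1, h2, ?_, h3⟩
  rw [h88r_mem_ker_iff]
  obtain ⟨a, ha, hja⟩ := exists_valueAt_inv_of_not_isFinAt hv
  rw [valHom_eq A (modelInf M A) v (exists_valueAt_modelInf hv)
    (⟨(jB M)⁻¹, h89_jB_inv_mem_modelInf M A⟩ : modelInf M A) hja]
  exact ha

/-- two closed points of the finite chart at which the same place is centred are equal. -/
theorem h88r_cen_eq_fin {v : Place Kbar (FF M)} {n n' : Ideal (modelFin M A)}
    (hn : n.IsMaximal) (hn' : n'.IsMaximal) (hc : CenteredAt A (modelFin M A) n v)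
    (hc' : CenteredAt A (modelFin M A) n' v) : n = n' := by
  have hv := h89_isFinAt_of_centeredAt hc
  rw [h88r_centre_unique (modelFin M A) h88r_cst_fin v (exists_valueAt_modelFin hv) n hn hc,
    h88r_centre_unique (modelFin M A) h88r_cst_fin v (exists_valueAt_modelFin hv) n' hn' hc']

/-- two closed points of the chart at infinity at which the same non-finite place is centred
are equal. -/
theorem h88r_cen_eq_inf {v : Place Kbar (FF M)} (hv : ¬ IsFinAt A v)
    {n n' : Ideal (modelInf M A)}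
    (hn : n.IsMaximal) (hn' : n'.IsMaximal) (hc : CenteredAt A (modelInf M A) n v)
    (hc' : CenteredAt A (modelInf M A) n' v) : n = n' := by
  rw [h88r_centre_unique (modelInf M A) h88r_cst_inf v (exists_valueAt_modelInf hv) n hn hc,
    h88r_centre_unique (modelInf M A) h88r_cst_inf v (exists_valueAt_modelInf hv) n' hn' hc']

/-- places centred at the same closed point of the finite chart have the same reduction. -/
theorem h88r_sameRed_fin {n : Ideal (modelFin M A)} (hn : n.IsMaximal)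
    {v w : Place Kbar (FF M)} (hv : CenteredAt A (modelFin M A) n v)
    (hw : CenteredAt A (modelFin M A) n w) : SameRed A v w := by
  have hvf := h89_isFinAt_of_centeredAt hv
  have hwf := h89_isFinAt_of_centeredAt hw
  rw [sameRed_iff_fin hvf hwf]
  have e1 := h88r_centre_unique (modelFin M A) h88r_cst_fin v (exists_valueAt_modelFin hvf)
    n hn hv
  have e2 := h88r_centre_unique (modelFin M A) h88r_cst_fin w (exists_valueAt_modelFin hwf)
    n hn hw
  exact h88r_redHom_eq (modelFin M A) h88r_cst_fin v w _ _ (e1.symm.trans e2)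

/-- places centred at the same closed point with `1/j = 0` of the chart at infinity have the
same reduction. -/
theorem h88r_sameRed_inf {n : Ideal (modelInf M A)} (hn : n.IsMaximal)
    (hj : (⟨(jB M)⁻¹, h89_jB_inv_mem_modelInf M A⟩ : modelInf M A) ∈ n)
    {v w : Place Kbar (FF M)} (hv : CenteredAt A (modelInf M A) n v)
    (hw : CenteredAt A (modelInf M A) n w) : SameRed A v w := by
  have hvf := h89_not_isFinAt_of_centeredAt hj hv
  have hwf := h89_not_isFinAt_of_centeredAt hj hw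
  rw [sameRed_iff_inf hvf hwf]
  have e1 := h88r_centre_unique (modelInf M A) h88r_cst_inf v (exists_valueAt_modelInf hvf)
    n hn hv
  have e2 := h88r_centre_unique (modelInf M A) h88r_cst_inf w (exists_valueAt_modelInf hwf)
    n hn hw
  exact h88r_redHom_eq (modelInf M A) h88r_cst_inf v w _ _ (e1.symm.trans e2)

/-! ### The reduction map of places -/

/-- the specification of the reduction map of places on the finite chart. -/
def H88rSpecFin (A : ValuationSubring Kbar) (M : ℕ) [NeZero M]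
    (r : Place Kbar (FF M) → Place (h13sK A) (h13sFt A M)) : Prop :=
  ∀ (v : Place Kbar (FF M)) (n : Ideal (modelFin M A)), n.IsMaximal →
    maxExt A (modelFin M A) ≤ n → CenteredAt A (modelFin M A) n v →
      H88rAt A M (modelFin M A) n (r v) ∧ H88rOrdAt A M (modelFin M A) n (r v)

/-- the specification of the reduction map of places on the chart at infinity. -/
def H88rSpecInf (A : ValuationSubring Kbar) (M : ℕ) [NeZero M]
    (r : Place Kbar (FF M) → Place (h13sK A) (h13sFt A M)) : Prop :=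
  ∀ (v : Place Kbar (FF M)) (n : Ideal (modelInf M A)), n.IsMaximal →
    maxExt A (modelInf M A) ≤ n →
    (⟨(jB M)⁻¹, h89_jB_inv_mem_modelInf M A⟩ : modelInf M A) ∈ n →
    CenteredAt A (modelInf M A) n v →
      H88rAt A M (modelInf M A) n (r v) ∧ H88rOrdAt A M (modelInf M A) n (r v)

/-- **the reduction map of places exists.** -/
theorem h88r_exists_r (hℓ : ℓ.Prime) (hM : ¬ ℓ ∣ M) (haux : auxLevel ℓ ∣ M)
    (hA : A.LiesOverPrime ℓ) (hP : H88rPlace) :
    ∃ r : Place Kbar (FF M) → Place (h13sK A) (h13sFt A M),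
      H88rSpecFin A M r ∧ H88rSpecInf A M r := by
  obtain ⟨hPf, hPi⟩ := hP ℓ hℓ M hM haux A hA
  have hex : ∀ v : Place Kbar (FF M), ∃ Q : Place (h13sK A) (h13sFt A M),
      (∀ n : Ideal (modelFin M A), n.IsMaximal →
        maxExt A (modelFin M A) ≤ n → CenteredAt A (modelFin M A) n v →
          H88rAt A M (modelFin M A) n Q ∧ H88rOrdAt A M (modelFin M A) n Q) ∧
      (∀ n : Ideal (modelInf M A), n.IsMaximal →
        maxExt A (modelInf M A) ≤ n →
        (⟨(jB M)⁻¹, h89_jB_inv_mem_modelInf M A⟩ : modelInf M A) ∈ n →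
        CenteredAt A (modelInf M A) n v →
          H88rAt A M (modelInf M A) n Q ∧ H88rOrdAt A M (modelInf M A) n Q) := by
    intro v
    by_cases hv : IsFinAt A v
    · obtain ⟨n₀, hn₀, hmax₀, hc₀⟩ := h88r_cen_fin hv
      obtain ⟨Q, hQ⟩ := hPf n₀ hn₀ hmax₀
      refine ⟨Q, fun n hn _ hc => ?_, fun n _ _ hj hc => ?_⟩
      · rw [h88r_cen_eq_fin hn hn₀ hc hc₀]
        exact hQ
      · exact (h89_not_isFinAt_of_centeredAt hj hc hv).elim
    · obtain ⟨n₀, hn₀, hmax₀, -, hc₀⟩ := h88r_cen_inf hv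
      obtain ⟨Q, hQ⟩ := hPi n₀ hn₀ hmax₀
      refine ⟨Q, fun n _ _ hc => ?_, fun n hn _ _ hc => ?_⟩
      · exact (hv (h89_isFinAt_of_centeredAt hc)).elim
      · rw [h88r_cen_eq_inf hv hn hn₀ hc hc₀]
        exact hQ
  choose r hr using hex
  exact ⟨r, fun v n hn hmax hc => (hr v).1 n hn hmax hc,
    fun v n hn hmax hj hc => (hr v).2 n hn hmax hj hc⟩

/-- the fibre of `r` over the place at a closed point of the finite chart. -/
theorem h88r_fibre_fin (hℓ : ℓ.Prime) (hM : ¬ ℓ ∣ M) (hA : A.LiesOverPrime ℓ)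
    {r : Place Kbar (FF M) → Place (h13sK A) (h13sFt A M)}
    (hrf : H88rSpecFin A M r) (hri : H88rSpecInf A M r)
    {Q : Place (h13sK A) (h13sFt A M)} {n : Ideal (modelFin M A)} (hn : n.IsMaximal)
    (hmax : maxExt A (modelFin M A) ≤ n) (hQ : H88rAt A M (modelFin M A) n Q)
    (v : Place Kbar (FF M)) : r v = Q ↔ CenteredAt A (modelFin M A) n v := by
  have hRV := modelFin_le_gaussV A M hℓ hM hA
  constructor
  · intro hrv
    by_cases hv : IsFinAt A v
    · obtain ⟨n₀, hn₀, hmax₀, hc₀⟩ := h88r_cen_fin hv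
      have h1 := (hrf v n₀ hn₀ hmax₀ hc₀).1
      rw [hrv] at h1
      have hle := h88r_at_le hRV (fun z hz => h60p_mem_of_gaussSmall_fin hℓ hM hA z hz)
        hmax₀ hmax h1 hQ
      rw [← hn₀.eq_of_le hn.ne_top hle]
      exact hc₀
    · obtain ⟨n₀, hn₀, hmax₀, hj₀, hc₀⟩ := h88r_cen_inf hv
      have h1 := (hri v n₀ hn₀ hmax₀ hj₀ hc₀).1
      rw [hrv] at h1
      exact (h88r_at_mixed hℓ hM hA
        (fun h => hn.ne_top ((Ideal.eq_top_iff_one _).mpr h)) hmax₀ hj₀ hQ h1).elim
  · intro hc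
    exact h88r_at_unique (hrf v n hn hmax hc).1 hQ

/-- the fibre of `r` over the place at a closed point with `1/j = 0` of the chart at
infinity. -/
theorem h88r_fibre_inf (hℓ : ℓ.Prime) (hM : ¬ ℓ ∣ M) (hA : A.LiesOverPrime ℓ)
    {r : Place Kbar (FF M) → Place (h13sK A) (h13sFt A M)}
    (hrf : H88rSpecFin A M r) (hri : H88rSpecInf A M r)
    {Q : Place (h13sK A) (h13sFt A M)} {n : Ideal (modelInf M A)} (hn : n.IsMaximal)
    (hmax : maxExt A (modelInf M A) ≤ n)
    (hj : (⟨(jB M)⁻¹, h89_jB_inv_mem_modelInf M A⟩ : modelInf M A) ∈ n)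
    (hQ : H88rAt A M (modelInf M A) n Q)
    (v : Place Kbar (FF M)) : r v = Q ↔ CenteredAt A (modelInf M A) n v := by
  have hRV := modelInf_le_gaussV A M hℓ hM hA
  constructor
  · intro hrv
    by_cases hv : IsFinAt A v
    · obtain ⟨n₀, hn₀, hmax₀, hc₀⟩ := h88r_cen_fin hv
      have h1 := (hrf v n₀ hn₀ hmax₀ hc₀).1
      rw [hrv] at h1
      exact (h88r_at_mixed hℓ hM hA
        (fun h => hn₀.ne_top ((Ideal.eq_top_iff_one _).mpr h)) hmax hj h1 hQ).elim
    · obtain ⟨n₀, hn₀, hmax₀, hj₀, hc₀⟩ := h88r_cen_inf hv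
      have h1 := (hri v n₀ hn₀ hmax₀ hj₀ hc₀).1
      rw [hrv] at h1
      have hle := h88r_at_le hRV (fun z hz => h60p_mem_of_gaussSmall_inf hℓ hM hA z hz)
        hmax₀ hmax h1 hQ
      rw [← hn₀.eq_of_le hn.ne_top hle]
      exact hc₀
  · intro hc
    exact h88r_at_unique (hri v n hn hmax hj hc).1 hQ

open Classical in
/-- evaluation of a push-forward of divisors. -/
theorem h88r_mapDomain_apply {α β : Type*} (r : α → β) (D : α →₀ ℤ) (Q : β) :
    Finsupp.mapDomain r D Q =
      ∑ v ∈ D.support with r v = Q, D v := by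
  classical
  rw [Finsupp.mapDomain, Finsupp.sum_apply, Finsupp.sum, Finset.sum_filter]
  refine Finset.sum_congr rfl fun v _ => ?_
  rw [Finsupp.single_apply]

/-- **S4 = RED-DIV in place form**, from the two leaves PLACE and SURJ. -/
theorem h88r_redDiv_of (hP : H88rPlace) (hS : H88rSurj) : H13sRedDiv := by
  classical
  intro ℓ hℓ M _ hM haux A hA
  obtain ⟨r, hrf, hri⟩ := h88r_exists_r hℓ hM haux hA hP
  refine ⟨r, ?_, ?_, ?_⟩
  · -- surjectivity
    intro Q
    rcases hS ℓ hℓ M hM haux A hA Q with ⟨n, hn, hmax, hQ⟩ | ⟨n, hn, hmax, hj, hQ⟩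
    · obtain ⟨v, hv⟩ := h88r_lift_fin hℓ hM haux hA n hn hmax
      exact ⟨v, (h88r_fibre_fin hℓ hM hA hrf hri hn hmax hQ v).mpr hv⟩
    · obtain ⟨v, hv⟩ := h88r_lift_inf hℓ hM haux hA n hn hmax
      exact ⟨v, (h88r_fibre_inf hℓ hM hA hrf hri hn hmax
        (hj (h89_jB_inv_mem_modelInf M A)) hQ v).mpr hv⟩
  · -- fibres
    intro v w
    constructor
    · intro hvw
      by_cases hw : IsFinAt A w
      · obtain ⟨n, hn, hmax, hc⟩ := h88r_cen_fin hw
        have hQ := (hrf w n hn hmax hc).1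
        have hcv := (h88r_fibre_fin hℓ hM hA hrf hri hn hmax hQ v).mp hvw
        exact h88r_sameRed_fin hn hcv hc
      · obtain ⟨n, hn, hmax, hj, hc⟩ := h88r_cen_inf hw
        have hQ := (hri w n hn hmax hj hc).1
        have hcv := (h88r_fibre_inf hℓ hM hA hrf hri hn hmax hj hQ v).mp hvw
        exact h88r_sameRed_inf hn hj hcv hc
    · intro hvw
      by_cases hv : IsFinAt A v
      · obtain ⟨n, hn, hmax, hc⟩ := h88r_cen_fin hv
        have hcw := centeredAt_fin_of_sameRed hvw hc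
        exact h88r_at_unique (hrf v n hn hmax hc).1 (hrf w n hn hmax hcw).1
      · obtain ⟨n, hn, hmax, hj, hc⟩ := h88r_cen_inf hv
        have hcw := centeredAt_inf_of_sameRed hj hvw hc
        exact h88r_at_unique (hri v n hn hmax hj hc).1 (hri w n hn hmax hj hcw).1
  · -- the formula
    intro f hf hfi D hD Q
    unfold h13sPush
    rw [h88r_mapDomain_apply]
    rcases eq_or_ne f 0 with rfl | hf0
    · have h1 : h13sRed A M ⟨(0 : FF M), hf⟩ = 0 := h88r_red_zero
      rw [h1, Place.ord_zero]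
      refine Finset.sum_eq_zero fun v _ => ?_
      rw [hD, Place.ord_zero]
    rcases hS ℓ hℓ M hM haux A hA Q with ⟨n, hn, hmax, hQ⟩ | ⟨n, hn, hmax, hj, hQ⟩
    · obtain ⟨w, hw⟩ := h88r_lift_fin hℓ hM haux hA n hn hmax
      have hfib := h88r_fibre_fin hℓ hM hA hrf hri hn hmax hQ
      have hord := (hrf w n hn hmax hw).2
      rw [(hfib w).mpr hw] at hord
      rw [hord f hf hf0 hfi (D.support.filter (fun v => r v = Q))
        (fun v hv => (hfib v).mp (Finset.mem_filter.mp hv).2)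
        (fun v hc h0 => Finset.mem_filter.mpr
          ⟨Finsupp.mem_support_iff.mpr (by rw [hD]; exact h0), (hfib v).mpr hc⟩)]
      exact Finset.sum_congr rfl fun v _ => hD v
    · have hj' := hj (h89_jB_inv_mem_modelInf M A)
      obtain ⟨w, hw⟩ := h88r_lift_inf hℓ hM haux hA n hn hmax
      have hfib := h88r_fibre_inf hℓ hM hA hrf hri hn hmax hj' hQ
      have hord := (hri w n hn hmax hj' hw).2
      rw [(hfib w).mpr hw] at hord
      rw [hord f hf hf0 hfi (D.support.filter (fun v => r v = Q))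
        (fun v hv => (hfib v).mp (Finset.mem_filter.mp hv).2)
        (fun v hc h0 => Finset.mem_filter.mpr
          ⟨Finsupp.mem_support_iff.mpr (by rw [hD]; exact h0), (hfib v).mpr hc⟩)]
      exact Finset.sum_congr rfl fun v _ => hD v

end Fermat.Agent.P5
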