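import Fermat.Agent.P5.H60Place
import Fermat.Agent.P5.H88RedDiv
import Fermat.Agent.P5.H94Surj

/-!
# P5 (wave 5, S19), block GEO-RR, leaf S4 = RED-DIV: the frozen Prop `H13sRedDiv` (helper60)

`h60q_redDiv : H13sRedDiv` (exact frozen Prop of `P5/H13SFIface.lean`, helper13), UNCONDITIONAL:
the reduction map of places `r : Place ℚ̄ (FF M) → Place k F~` at a good level (surjective,
fibres = classes of `SameRed`, `r_* div f = div f~` for Gauss units).

Wiring of the three landed pieces:
* PLACE    `h60q_place : H88rPlace` (helper60, `P5/H60Place.lean`),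
* SURJ     `h94s_surj_of_place : H88rPlace → H88rSurj` (helper94, `P5/H94Surj.lean`),
* ASSEMBLY `h88r_redDiv_of : H88rPlace → H88rSurj → H13sRedDiv` (helper88, `P5/H88RedDiv.lean`).
-/

set_option autoImplicit false

namespace Fermat.Agent.P5

/-- **SURJ**, unconditional. -/
theorem h60q_surj : H88rSurj := h94s_surj_of_place h60q_place

/-- **RED-DIV** (exact frozen Prop `H13sRedDiv`), unconditional. -/
theorem h60q_redDiv : H13sRedDiv := h88r_redDiv_of h60q_place h60q_surj

end Fermat.Agent.P5
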