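import Fermat.Agent.P5.H62DiscPt
import Fermat.Agent.S37.Smooth37
import Fermat.Agent.S36.H25RedIsoInst

/-!
# P5 (wave 5, S19), block GEO-DISC, assembly (helper62), part 4: `H37DiscExists`

* `h62q_exists_param` : at a good level, the centre of every finite place has an
  INERTIA-FIXED local parameter which is a Gauss unit (the local uniformiser of
  `GG.IfaceLocalUnif`, corrected modulo `𝔪_A B` by R-REDISO part 1).
* `h62q_discAt` : the disc calculus `H37DiscAt` at the zero `Q` of the parameter.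
* **`h62q_discExists : H37DiscExists`**, unconditionally.
-/

set_option autoImplicit false
set_option linter.unusedSectionVars false
set_option linter.unusedVariables false
set_option linter.style.longLine false

open AlgebraicCurve ModularCurve IsLocalRing

noncomputable section

namespace Fermat.Agent.P5

open Fermat.Agent.S37 Fermat.Agent.Red Fermat.Agent.Red.GG Fermat.Agent.Red.Match
  Fermat.Agent.Red.GV Fermat.Agent.S36

variable {M : ℕ} [NeZero M] (A : ValuationSubring Kbar) {ℓ : ℕ}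

/-- the reduction of the finite chart modulo `𝔪_A` (Gauss reduction). -/
def h62qRho (hℓ : ℓ.Prime) (hM : ¬ ℓ ∣ M) (hA : A.LiesOverPrime ℓ) :
    chart M A (jB M) →+* LaurentSeries (IsLocalRing.ResidueField A) :=
  (gaussR A M).comp ((Subring.inclusion (modelFin_le_gaussV A M hℓ hM hA)).comp
    (chartToModel M A (jB M)))

theorem h62q_rho_apply (hℓ : ℓ.Prime) (hM : ¬ ℓ ∣ M) (hA : A.LiesOverPrime ℓ)
    (b : chart M A (jB M)) :
    h62qRho A hℓ hM hA b = gaussR A M ⟨(b : FF M), modelFin_le_gaussV A M hℓ hM hA b.2⟩ :=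
  rfl

theorem h62q_rho_map_le (hℓ : ℓ.Prime) (hM : ¬ ℓ ∣ M) (hA : A.LiesOverPrime ℓ) :
    (maximalIdeal A).map (algebraMap A (chart M A (jB M))) ≤
      RingHom.ker (h62qRho A hℓ hM hA) := by
  rw [Ideal.map_le_iff_le_comap]
  intro a ha
  rw [Ideal.mem_comap, RingHom.mem_ker, h62q_rho_apply]
  exact gaussR_cst_of_nonunit A M hA (a : Kbar) (ValuationSubring.coe_mem_nonunits_iff.mpr ha) _

theorem h62q_rho_ne_zero_iff (hℓ : ℓ.Prime) (hM : ¬ ℓ ∣ M) (hA : A.LiesOverPrime ℓ)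
    (b : chart M A (jB M)) :
    h62qRho A hℓ hM hA b ≠ 0 ↔ (b : FF M) ≠ 0 ∧ (b : FF M)⁻¹ ∈ gaussV A M := by
  rw [h62q_rho_apply, ne_eq, gaussR_eq_zero_iff A M hℓ hM hA, not_or, not_not]

/-- **the inertia-fixed local parameter** at the centre of a finite place. -/
theorem h62q_exists_param (hℓ : ℓ.Prime) (hM : ¬ ℓ ∣ M) (haux : auxLevel ℓ ∣ M)
    (hA : A.LiesOverPrime ℓ) {v : Place Kbar (FF M)} (hv : IsFinAt A v) :
    ∃ u : chart M A (jB M), H62qParam A hv u ∧ (u : FF M)⁻¹ ∈ gaussV A M ∧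
      ∀ σ ∈ A.inertiaSubgroupIn ℚ, gal M σ • (u : FF M) = (u : FF M) := by
  have hLU : IfaceLocalUnif M A (jB M) :=
    h67_ifaceLocalUnif_fin M A h37_ifaceSmooth hℓ hM haux hA
  obtain ⟨t', ht', ht'0, ht'V, hprin⟩ := hLU (h62qCen A hv) (h62q_cen_isMaximal A hv)
    (h62q_map_le_cen A hv)
  obtain ⟨b₀, hb₀⟩ := (h25i_redIso_M_fin (A := A) (M := M) hℓ hM hA).1 t'
  set u : chart M A (jB M) := h62rIncl A M (jB M) b₀ with hu
  have hJ : t' - u ∈ (maximalIdeal A).map (algebraMap A (chart M A (jB M))) := hb₀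
  have hu𝔫 : u ∈ h62qCen A hv := by
    have h1 := (h62qCen A hv).sub_mem ht' (h62q_map_le_cen A hv hJ)
    rwa [sub_sub_cancel] at h1
  refine ⟨u, ⟨hu𝔫, fun y hy => ?_⟩, ?_, ?_⟩
  · obtain ⟨s, hs, hsy⟩ := hprin y hy
    refine ⟨s, hs, ?_⟩
    have hle : Ideal.span {t'} ⊔ (maximalIdeal A).map (algebraMap A (chart M A (jB M))) ≤
        Ideal.span {u} ⊔ (maximalIdeal A).map (algebraMap A (chart M A (jB M))) := by
      refine sup_le ?_ le_sup_right
      rw [Ideal.span_le, Set.singleton_subset_iff]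
      have e : t' = u + (t' - u) := by ring
      rw [e]
      exact Ideal.add_mem _ (Ideal.mem_sup_left (Ideal.mem_span_singleton_self u))
        (Ideal.mem_sup_right hJ)
    exact hle hsy
  · have h1 : h62qRho A hℓ hM hA t' ≠ 0 :=
      (h62q_rho_ne_zero_iff A hℓ hM hA t').mpr ⟨ht'0, ht'V⟩
    have h2 : h62qRho A hℓ hM hA (t' - u) = 0 := h62q_rho_map_le A hℓ hM hA hJ
    have h3 : h62qRho A hℓ hM hA u ≠ 0 := by
      rw [map_sub, sub_eq_zero] at h2
      rwa [← h2]
    exact ((h62q_rho_ne_zero_iff A hℓ hM hA u).mp h3).2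
  · intro σ hσ
    exact (h62r_mem_chart.mp b₀.2).2 σ hσ

/-- **the disc calculus at the zero of the parameter.** -/
theorem h62q_discAt (hℓ : ℓ.Prime) (hM : ¬ ℓ ∣ M) (hA : A.LiesOverPrime ℓ)
    {Q : Place Kbar (FF M)} (hQ : IsFinAt A Q)
    [h𝔫 : (h62qCen A hQ).IsPrime]
    (t : chart M A (jB M)) (ht : H62qParam A hQ t) (ht0 : ValueAt Q (t : FF M) 0)
    (hfix : ∀ σ ∈ A.inertiaSubgroupIn ℚ, gal M σ • (t : FF M) = (t : FF M)) :
    H37DiscAt A Q (t : FF M) (h62qO A (h62qCen A hQ)) := by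
  have hfin : IfaceFinite M A (jB M) := Fermat.Agent.Red.ModelO.h85_modelFin_fg hℓ hM hA
  refine
    { Q_fixed := h62q_fixed A hℓ hM hA hQ hfin t ht ht0 hfix
      t_fixed := hfix
      Q_fin := hQ
      t_zero := ht0
      t_small := ?_
      t_inj := h62q_t_inj A hℓ hM hA hQ hfin t ht
      refl := sameRed_refl A Q
      O_cst := h62q_O_cst A _
      O_t := h62q_chart_le_O A _ t
      O_model := h62q_O_model A _
      O_unit := h62q_O_unit A hQ
      O_val := h62q_O_val A hQ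
      O_div := h62q_O_div A hQ hfin t ht }
  intro P hPQ
  have hP : IsFinAt A P := (sameRed_isFinAt_iff hPQ).mpr hQ
  have hcen := h62q_cen_eq_of_sameRed A hP hQ hPQ
  have h1 : t ∈ h62qCen A hP := by rw [hcen]; exact ht.1
  exact ⟨_, (h62q_mem_cen_iff A hP t).mp h1, h62q_ev_spec A hP t⟩

/-- **GEO-DISC**: `H37DiscExists`. -/
theorem h62q_discExists : H37DiscExists := by
  intro ℓ hℓ M _ hM haux A hA v hv
  obtain ⟨u, hu, huV, hfix⟩ := h62q_exists_param A hℓ hM haux hA hv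
  obtain ⟨Q, hQv, hQ0⟩ := h62q_exists_zero A hℓ hM hA hv u hu.1 huV
  have hQ : IsFinAt A Q := (sameRed_isFinAt_iff hQv).mpr hv
  have hcen : h62qCen A hQ = h62qCen A hv := h62q_cen_eq_of_sameRed A hQ hv hQv
  have hmax : (h62qCen A hQ).IsMaximal := h62q_cen_isMaximal A hQ
  have hprime : (h62qCen A hQ).IsPrime := hmax.isPrime
  have hu' : H62qParam A hQ u := by
    unfold H62qParam
    rw [hcen]
    exact hu
  exact ⟨Q, (u : FF M), h62qO A (h62qCen A hQ), sameRed_symm hQv,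
    h62q_discAt A hℓ hM hA hQ u hu' hQ0 hfix⟩

end Fermat.Agent.P5
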