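import Fermat.Agent.P5.H56GeoAsm
import Fermat.Agent.P5.H91Unr

/-!
# P5 (wave 5, S19), row GEO-ASM: leaf adapter (helper69, prefix `h69g_`)

* `h69g_lift : H56gLift` (exact frozen leaf Prop of `P5/H56GeoAsm.lean`, unconditional;
  from `h91n_geo_tail`, helper91).
-/

set_option autoImplicit false

open AlgebraicCurve ModularCurve

noncomputable section

namespace Fermat.Agent.P5

open Fermat.Agent.S37

/-- **LIFT** (conjunct 5 of `H96GeoInputs`), unconditional. -/
theorem h69g_lift : H56gLift := fun _ hℓ _ _ hM haux _ hA =>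
  (h91n_geo_tail hℓ hM haux hA).1

end Fermat.Agent.P5
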