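import Fermat.Agent.P5.H56GeoAsm
import Fermat.Agent.P5.H71Rep
import Fermat.Agent.P5.H40RRInst
import Fermat.Agent.Red.GV.BarGalois
import Fermat.Agent.Red.Nz.Dict

/-!
# P5 (wave 5, S19), block GEO, leaf INF-FIN of GEO-ASM (helper80)

`h80f_infFin : H56gInfFin` (the frozen Prop of `P5/H56GeoAsm.lean`), unconditionally: for a
reduction map of places `r` (`H13sIsRed A M r`) the reductions of the places which are not finite
at `A` lie in a finite set, namely the support of `r_* div (1/j)`.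

Proof.  `x = 1/j` is a Gauss unit.  For a non-finite place `v` put `a = x(v) ∈ 𝔪_A` and
`f = x - a`: again a Gauss unit, with the same reduction as `x`.  On the residue disc of `v`
the function `f` takes values in `𝔪_A`, so `ord_w f ≥ 0` there, and `ord_v f > 0`.  Hence
`(r_* div x)(r v) = ord_{r v} x~ = ord_{r v} f~ = (r_* div f)(r v) ≥ ord_v f > 0`.
-/

set_option autoImplicit false
set_option linter.unusedSectionVars false
set_option linter.style.longLine false

open AlgebraicCurve ModularCurve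

noncomputable section

namespace Fermat.Agent.P5

open Fermat.Agent.S37 Fermat.Agent.Red Fermat.Agent.Red.GV

/-- the per-place form: the reduction of a non-finite place lies in the support of
`r_* div (1/j)`. -/
theorem h80f_mem_support {ℓ : ℕ} (hℓ : ℓ.Prime) {M : ℕ} [NeZero M] (hM : ¬ ℓ ∣ M)
    {A : ValuationSubring Kbar} (hA : A.LiesOverPrime ℓ)
    {r : Place Kbar (FF M) → Place (h13sK A) (h13sFt A M)} (hr : H13sIsRed A M r)
    (D : Divisor Kbar (FF M)) (hD : ∀ v : Place Kbar (FF M), D v = v.ord (jB M)⁻¹)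
    (v : Place Kbar (FF M)) (hv : ¬ IsFinAt A v) :
    r v ∈ (Finsupp.mapDomain r D).support := by
  classical
  have hx0 : (jB M)⁻¹ ≠ 0 := inv_ne_zero (Nz.h89_jB_ne_zero M)
  have hxV : (jB M)⁻¹ ∈ gaussV A M := jB_inv_mem_gaussV A M hℓ hM hA
  have hxV' : ((jB M)⁻¹)⁻¹ ∈ gaussV A M := by
    rw [inv_inv]
    exact jB_mem_gaussV A M
  rw [Finsupp.mem_support_iff]
  obtain ⟨a, ha, hva⟩ := Match.exists_valueAt_inv_of_not_isFinAt hv
  have haA : a ∈ A := A.nonunits_subset ha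
  have hcV : cst M a ∈ gaussV A M := (cst_mem_gaussV_iff A M hA a).mpr haA
  have hfV : (jB M)⁻¹ - cst M a ∈ gaussV A M := Subring.sub_mem _ hxV hcV
  have hred : gaussR A M ⟨(jB M)⁻¹ - cst M a, hfV⟩ = gaussR A M ⟨(jB M)⁻¹, hxV⟩ := by
    have e : (⟨(jB M)⁻¹ - cst M a, hfV⟩ : gaussV A M) = ⟨(jB M)⁻¹, hxV⟩ - ⟨cst M a, hcV⟩ := rfl
    rw [e, map_sub, gaussR_cst_of_nonunit A M hA a ha hcV, sub_zero]
  have hxne : gaussR A M ⟨(jB M)⁻¹, hxV⟩ ≠ 0 := by
    intro h0
    rcases (gaussR_eq_zero_iff A M hℓ hM hA _).mp h0 with h | h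
    · exact hx0 h
    · exact h hxV'
  have hf0 : (jB M)⁻¹ - cst M a ≠ 0 := by
    intro h0
    apply hxne
    rw [← hred]
    have e : (⟨(jB M)⁻¹ - cst M a, hfV⟩ : gaussV A M) = 0 := Subtype.ext h0
    rw [e, map_zero]
  have hfV' : ((jB M)⁻¹ - cst M a)⁻¹ ∈ gaussV A M := by
    by_contra h
    exact hxne (by rw [← hred]; exact (gaussR_eq_zero_iff A M hℓ hM hA _).mpr (Or.inr h))
  obtain ⟨Df, hDf, -⟩ := (h40r_base_FF (N := M)).pd _ hf0
  have h1 := hr.2.2 _ hxV hxV' D hD (r v)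
  have h2 := hr.2.2 _ hfV hfV' Df hDf (r v)
  have hredeq : h13sRed A M ⟨(jB M)⁻¹ - cst M a, hfV⟩ = h13sRed A M ⟨(jB M)⁻¹, hxV⟩ :=
    Subtype.ext hred
  unfold h13sPush at h1 h2
  rw [h1, ← hredeq, ← h2]
  have hpos : 0 < Df v := by
    rw [hDf]
    exact h71r_ord_pos_of_mem_nonunits v hf0 hva
  have hge : Df v ≤ Finsupp.mapDomain r Df (r v) := by
    refine h71r_push_ge r Df (r v) (fun w hw => ?_) v rfl
    have hsr : SameRed A w v := (hr.2.1 w v).mp hw
    rcases hsr with ⟨-, hfin, -⟩ | ⟨-, -, hcong⟩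
    · exact absurd hfin hv
    · obtain ⟨a', b', -, -, hwa, -, -⟩ := hcong _ (Nz.h89_jB_inv_mem_modelInf M A)
      rw [hDf]
      refine (Fermat.Agent.S24.DiffPlace.ord_nonneg_iff_mem w).mpr ?_
      exact Subring.sub_mem _ (Match.valueAt_mem hwa) (Match.cst_mem w a)
  omega

/-- **INF-FIN** (the frozen leaf `H56gInfFin` of `P5/H56GeoAsm.lean`), unconditional. -/
theorem h80f_infFin : H56gInfFin := by
  intro ℓ hℓ M _ hM _ A hA r hr
  obtain ⟨D, hD, -⟩ := (h40r_base_FF (N := M)).pd _ (inv_ne_zero (Nz.h89_jB_ne_zero M))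
  exact ⟨(Finsupp.mapDomain r D).support, fun v hv => h80f_mem_support hℓ hM hA hr D hD v hv⟩

end Fermat.Agent.P5
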