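import Fermat.Agent.P5.H87FlatOrder
import Fermat.Agent.P5.Skeleton

/-!
# Wave 5, pillar (P): block ADAPT (A1), exact frozen Prop (helper87)

`h87x_adapter : H98pAdapter` (the frozen Prop of `P5/Skeleton.lean`): a function order over
`ℤ_(p)` on a finite abelian group gives the finite flat cocommutative Hopf algebra of the Prelude.
-/

set_option autoImplicit false

namespace Fermat.Agent.P5

/-- **ADAPT (A1).** -/
theorem h87x_adapter : H98pAdapter :=
  fun p _ _ _ _ act h => h87x_flat_of_hasOrder p act h

end Fermat.Agent.P5
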