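import Fermat.Agent.P5.H75AlgClosK

/-!
# Wave 5, pillar (P), LAW-A1 (helper75): abstract core of the Cramer step

Mathlib only.

* `h75w_nu_*` : the non-units of a valuation subring form an ideal.
* `h75w_cramer_core` : a square linear system over a function algebra `R ⊆ Map(T, K)` (integral
  valued, `T` finite) whose matrix is congruent modulo the maximal ideal to a constant matrix
  `N0` with unit determinant has a solution in `R`, congruent to the solution of the constant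
  system.
-/

set_option autoImplicit false

open Matrix

namespace Fermat.Agent.P5

section nonunits

variable {K : Type*} [Field K] (A : ValuationSubring K)

theorem h75w_nu_zero : (0 : K) ∈ A.nonunits := by
  rw [A.mem_nonunits_iff, map_zero]
  exact zero_lt_one

theorem h75w_nu_mem {x : K} (hx : x ∈ A.nonunits) : x ∈ A :=
  A.mem_of_valuation_le_one _ (A.mem_nonunits_iff.mp hx).le

theorem h75w_nu_add {x y : K} (hx : x ∈ A.nonunits) (hy : y ∈ A.nonunits) :
    x + y ∈ A.nonunits := by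
  rw [A.mem_nonunits_iff] at *
  exact Valuation.map_add_lt _ hx hy

theorem h75w_nu_neg {x : K} (hx : x ∈ A.nonunits) : -x ∈ A.nonunits := by
  rw [A.mem_nonunits_iff] at *
  rwa [Valuation.map_neg]

theorem h75w_nu_sub {x y : K} (hx : x ∈ A.nonunits) (hy : y ∈ A.nonunits) :
    x - y ∈ A.nonunits := by
  rw [sub_eq_add_neg]
  exact h75w_nu_add A hx (h75w_nu_neg A hy)

theorem h75w_nu_mul_left {x y : K} (hx : x ∈ A) (hy : y ∈ A.nonunits) :
    x * y ∈ A.nonunits := by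
  rw [A.mem_nonunits_iff] at *
  rw [map_mul]
  exact lt_of_le_of_lt (mul_le_of_le_one_left' ((A.valuation_le_one_iff _).mpr hx)) hy

theorem h75w_nu_mul_right {x y : K} (hx : x ∈ A.nonunits) (hy : y ∈ A) :
    x * y ∈ A.nonunits := by
  rw [mul_comm]
  exact h75w_nu_mul_left A hy hx

theorem h75w_nu_iff_maximal (x : A) :
    x ∈ IsLocalRing.maximalIdeal A ↔ (x : K) ∈ A.nonunits := by
  rw [A.valuation_lt_one_iff, A.mem_nonunits_iff]

end nonunits

section core

variable {K : Type*} [Field K] (A : ValuationSubring K) {T : Type*} [Finite T]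
  {ι : Type*} [Fintype ι] [DecidableEq ι]

theorem h75w_cramer_core (R : Subalgebra A (T → K)) (hint : ∀ f ∈ R, ∀ τ, f τ ∈ A)
    (N : ι → ι → T → K) (hN : ∀ r j, N r j ∈ R)
    (N0 : Matrix ι ι K) (hN0 : ∀ r j, N0 r j ∈ A)
    (hNc : ∀ r j τ, N r j τ - N0 r j ∈ A.nonunits)
    (hdet : N0.det ≠ 0 ∧ (N0.det)⁻¹ ∈ A)
    (J : ι → T → K) (hJ : ∀ r, J r ∈ R) (J0 : ι → K) (hJ0 : ∀ r, J0 r ∈ A)
    (hJc : ∀ r τ, J r τ - J0 r ∈ A.nonunits) :
    ∃ (co : ι → T → K) (co0 : ι → K), (∀ j, co j ∈ R) ∧ (∀ j, co0 j ∈ A) ∧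
      (∀ j τ, co j τ - co0 j ∈ A.nonunits) ∧
      (∀ r, J0 r + ∑ j, co0 j * N0 r j = 0) ∧
      (∀ r τ, J r τ + ∑ j, co j τ * N r j τ = 0) := by
  classical
  -- lifts to `A`
  set N0A : Matrix ι ι A := fun r j => ⟨N0 r j, hN0 r j⟩ with hN0A
  set J0A : ι → A := fun r => ⟨J0 r, hJ0 r⟩ with hJ0A
  have hmap0 : A.subtype.mapMatrix N0A = N0 := by
    ext r j
    rfl
  have hdet0 : ((N0A.det : A) : K) = N0.det := by
    have h1 := RingHom.map_det A.subtype N0A
    rw [hmap0] at h1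
    exact h1
  have hunit0 : IsUnit N0A.det := by
    refine IsUnit.of_mul_eq_one ⟨(N0.det)⁻¹, hdet.2⟩ (Subtype.ext ?_)
    change ((N0A.det : A) : K) * (N0.det)⁻¹ = 1
    rw [hdet0]
    exact mul_inv_cancel₀ hdet.1
  -- the residue field
  set ρ : A →+* IsLocalRing.ResidueField A := IsLocalRing.residue A with hρ
  have hρeq : ∀ x y : A, ((x : K) - y ∈ A.nonunits) → ρ x = ρ y := by
    intro x y hxy
    rw [← sub_eq_zero, ← map_sub, hρ, IsLocalRing.residue_eq_zero_iff, h75w_nu_iff_maximal]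
    exact hxy
  have hρeq' : ∀ x y : A, ρ x = ρ y → ((x : K) - y ∈ A.nonunits) := by
    intro x y hxy
    rw [← sub_eq_zero, ← map_sub, hρ, IsLocalRing.residue_eq_zero_iff, h75w_nu_iff_maximal] at hxy
    exact hxy
  -- matrices over `R`
  set 𝒩 : Matrix ι ι R := fun r j => ⟨N r j, hN r j⟩ with h𝒩
  set 𝒥 : ι → R := fun r => ⟨J r, hJ r⟩ with h𝒥
  -- evaluation
  set evK : T → (R →+* K) := fun τ =>
    (Pi.evalRingHom (fun _ : T => K) τ).comp R.val.toRingHom with hevK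
  have hev : ∀ τ (f : R), evK τ f ∈ A := fun τ f => hint f f.2 τ
  set evA : T → (R →+* A) := fun τ => (evK τ).codRestrict A (hev τ) with hevA
  have hevA_coe : ∀ τ (f : R), ((evA τ f : A) : K) = (f : T → K) τ := fun τ f => rfl
  have hmapτ : ∀ τ, (ρ.comp (evA τ)).mapMatrix 𝒩 = ρ.mapMatrix N0A := by
    intro τ
    ext r j
    exact hρeq _ _ (hNc r j τ)
  have hdetτ : ∀ τ, IsUnit (evA τ 𝒩.det) := by
    intro τ
    have h1 : ρ (evA τ 𝒩.det) = ρ N0A.det := by
      have h2 := RingHom.map_det (ρ.comp (evA τ)) 𝒩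
      rw [hmapτ τ, ← RingHom.map_det] at h2
      exact h2
    have h3 : IsUnit (ρ (evA τ 𝒩.det)) := by
      rw [h1]
      exact hunit0.map ρ
    exact (IsLocalRing.residue_ne_zero_iff_isUnit _).mp h3.ne_zero
  have hunit : IsUnit 𝒩.det := by
    choose w hw using fun τ => (hdetτ τ).exists_right_inv
    have hwR : (fun τ => ((w τ : A) : K)) ∈ R := by
      refine h75c_inv_closed_K A R (𝒩.det).2 (fun τ => hint _ (𝒩.det).2 τ) _
        (fun τ => (w τ).2) (fun τ => ?_)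
      have h1 := congrArg (Subtype.val) (hw τ)
      exact h1
    refine IsUnit.of_mul_eq_one ⟨_, hwR⟩ (Subtype.ext (funext fun τ => ?_))
    have h1 := congrArg (Subtype.val) (hw τ)
    exact h1
  -- the solutions
  set co' : ι → R := -(𝒩⁻¹ *ᵥ 𝒥) with hco'
  set co0A : ι → A := -(N0A⁻¹ *ᵥ J0A) with hco0A
  have hsol : 𝒩 *ᵥ co' = -𝒥 := by
    rw [hco', Matrix.mulVec_neg, Matrix.mulVec_mulVec, Matrix.mul_nonsing_inv _ hunit,
      Matrix.one_mulVec]
  have hsol0 : N0A *ᵥ co0A = -J0A := by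
    rw [hco0A, Matrix.mulVec_neg, Matrix.mulVec_mulVec, Matrix.mul_nonsing_inv _ hunit0,
      Matrix.one_mulVec]
  refine ⟨fun j => (co' j : T → K), fun j => (co0A j : K), fun j => (co' j).2,
    fun j => (co0A j).2, ?_, ?_, ?_⟩
  · -- congruence
    intro j τ
    have h1 : (ρ.mapMatrix N0A) *ᵥ (fun j => ρ (evA τ (co' j)) - ρ (co0A j)) = 0 := by
      have ha : (ρ.mapMatrix N0A) *ᵥ (fun j => ρ (evA τ (co' j))) =
          fun r => ρ (evA τ ((-𝒥) r)) := by
        rw [← hmapτ τ, ← hsol]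
        funext r
        exact (RingHom.map_mulVec (ρ.comp (evA τ)) 𝒩 co' r).symm
      have hb : (ρ.mapMatrix N0A) *ᵥ (fun j => ρ (co0A j)) = fun r => ρ ((-J0A) r) := by
        rw [← hsol0]
        funext r
        exact (RingHom.map_mulVec ρ N0A co0A r).symm
      have hc : (fun j => ρ (evA τ (co' j)) - ρ (co0A j)) =
          (fun j => ρ (evA τ (co' j))) - fun j => ρ (co0A j) := rfl
      rw [hc, Matrix.mulVec_sub, ha, hb]
      funext r
      rw [Pi.sub_apply, Pi.zero_apply, sub_eq_zero]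
      refine hρeq _ _ ?_
      have h2 := hJc r τ
      have h3 : ((evA τ ((-𝒥) r) : A) : K) - (((-J0A) r : A) : K) = -(J r τ - J0 r) := by
        change -(J r τ) - -(J0 r) = _
        ring
      rw [h3]
      exact h75w_nu_neg A h2
    have hdetρ : (ρ.mapMatrix N0A).det ≠ 0 := by
      rw [← RingHom.map_det]
      exact (hunit0.map ρ).ne_zero
    have h4 := congrFun (Matrix.eq_zero_of_mulVec_eq_zero hdetρ h1) j
    rw [Pi.zero_apply, sub_eq_zero] at h4
    exact hρeq' _ _ h4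
  · intro r
    have h1 := congrArg (fun x : A => (x : K)) (congrFun hsol0 r)
    simp only [Matrix.mulVec, dotProduct, Pi.neg_apply] at h1
    have h2 : ((∑ j, N0A r j * co0A j : A) : K) = ∑ j, co0A j * N0 r j := by
      rw [AddSubmonoidClass.coe_finsetSum]
      refine Finset.sum_congr rfl fun j _ => ?_
      change N0 r j * (co0A j : K) = _
      ring
    rw [h2] at h1
    rw [h1]
    change J0 r + -(J0 r) = 0
    ring
  · intro r τ
    have h1 := congrArg (fun x : R => (x : T → K) τ) (congrFun hsol r)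
    simp only [Matrix.mulVec, dotProduct, Pi.neg_apply] at h1
    have h2 : ((∑ j, 𝒩 r j * co' j : R) : T → K) τ = ∑ j, (co' j : T → K) τ * N r j τ := by
      rw [AddSubmonoidClass.coe_finsetSum, Finset.sum_apply]
      refine Finset.sum_congr rfl fun j _ => ?_
      change N r j τ * (co' j : T → K) τ = _
      ring
    rw [h2] at h1
    rw [h1]
    change J r τ + -(J r τ) = 0
    ring

end core

section exp

variable {K : Type*} [Field K] (A : ValuationSubring K) {𝔽 : Type*} [CommRing 𝔽]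
  (cst : K →+* 𝔽) (O : Subring 𝔽) (t : 𝔽) {T : Type*} (R : Subalgebra A (T → K))
  (aa aa' : T → K)

/-- `g` has, for every `τ`, a second order expansion
`g = V τ + E τ (t - aa τ) + (t - aa τ) (t - aa' τ) H` with `H ∈ O`, where `V`, `E` are functions
of `τ` in the algebra `R`, congruent to `v`, `e` modulo the maximal ideal. -/
def h75wExp (g : 𝔽) (v e : K) : Prop :=
  ∃ V E : T → K, V ∈ R ∧ E ∈ R ∧ (∀ τ, V τ - v ∈ A.nonunits) ∧ (∀ τ, E τ - e ∈ A.nonunits) ∧
    ∀ τ, ∃ H ∈ O, g = cst (V τ) + cst (E τ) * (t - cst (aa τ)) +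
      (t - cst (aa τ)) * (t - cst (aa' τ)) * H

theorem h75w_exp_cst {a : K} (ha : a ∈ A) : h75wExp A cst O t R aa aa' (cst a) a 0 := by
  refine ⟨fun _ => a, 0, R.algebraMap_mem ⟨a, ha⟩, R.zero_mem, fun τ => ?_, fun τ => ?_,
    fun τ => ⟨0, O.zero_mem, ?_⟩⟩
  · rw [sub_self]; exact h75w_nu_zero A
  · rw [Pi.zero_apply, sub_self]; exact h75w_nu_zero A
  · rw [Pi.zero_apply, map_zero, zero_mul, mul_zero, add_zero, add_zero]

theorem h75w_exp_t (haa : aa ∈ R) (haan : ∀ τ, aa τ ∈ A.nonunits) :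
    h75wExp A cst O t R aa aa' t 0 1 := by
  refine ⟨aa, 1, haa, R.one_mem, fun τ => ?_, fun τ => ?_, fun τ => ⟨0, O.zero_mem, ?_⟩⟩
  · rw [sub_zero]; exact haan τ
  · rw [Pi.one_apply, sub_self]; exact h75w_nu_zero A
  · rw [Pi.one_apply, map_one, mul_zero, add_zero]
    ring

theorem h75w_exp_rem {g : 𝔽}
    (h : ∀ τ, ∃ H ∈ O, g = (t - cst (aa τ)) * (t - cst (aa' τ)) * H) :
    h75wExp A cst O t R aa aa' g 0 0 := by
  refine ⟨0, 0, R.zero_mem, R.zero_mem, fun τ => ?_, fun τ => ?_, fun τ => ?_⟩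
  · rw [Pi.zero_apply, sub_self]; exact h75w_nu_zero A
  · rw [Pi.zero_apply, sub_self]; exact h75w_nu_zero A
  · obtain ⟨H, hH, hg⟩ := h τ
    refine ⟨H, hH, ?_⟩
    rw [Pi.zero_apply, map_zero, zero_mul, zero_add, zero_add]
    exact hg

variable {A cst O t R aa aa'}

theorem h75w_exp_add {g g' : 𝔽} {v e v' e' : K} (h : h75wExp A cst O t R aa aa' g v e)
    (h' : h75wExp A cst O t R aa aa' g' v' e') :
    h75wExp A cst O t R aa aa' (g + g') (v + v') (e + e') := by
  obtain ⟨V, E, hV, hE, hVc, hEc, hexp⟩ := h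
  obtain ⟨V', E', hV', hE', hVc', hEc', hexp'⟩ := h'
  refine ⟨V + V', E + E', R.add_mem hV hV', R.add_mem hE hE', fun τ => ?_, fun τ => ?_,
    fun τ => ?_⟩
  · have h1 : (V + V') τ - (v + v') = (V τ - v) + (V' τ - v') := by
      rw [Pi.add_apply]; ring
    rw [h1]
    exact h75w_nu_add A (hVc τ) (hVc' τ)
  · have h1 : (E + E') τ - (e + e') = (E τ - e) + (E' τ - e') := by
      rw [Pi.add_apply]; ring
    rw [h1]
    exact h75w_nu_add A (hEc τ) (hEc' τ)
  · obtain ⟨H, hH, hg⟩ := hexp τ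
    obtain ⟨H', hH', hg'⟩ := hexp' τ
    refine ⟨H + H', O.add_mem hH hH', ?_⟩
    rw [hg, hg', Pi.add_apply, Pi.add_apply, map_add, map_add]
    ring

theorem h75w_exp_neg {g : 𝔽} {v e : K} (h : h75wExp A cst O t R aa aa' g v e) :
    h75wExp A cst O t R aa aa' (-g) (-v) (-e) := by
  obtain ⟨V, E, hV, hE, hVc, hEc, hexp⟩ := h
  refine ⟨-V, -E, R.neg_mem hV, R.neg_mem hE, fun τ => ?_, fun τ => ?_, fun τ => ?_⟩
  · have h1 : (-V) τ - (-v) = -(V τ - v) := by
      rw [Pi.neg_apply]; ring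
    rw [h1]
    exact h75w_nu_neg A (hVc τ)
  · have h1 : (-E) τ - (-e) = -(E τ - e) := by
      rw [Pi.neg_apply]; ring
    rw [h1]
    exact h75w_nu_neg A (hEc τ)
  · obtain ⟨H, hH, hg⟩ := hexp τ
    refine ⟨-H, O.neg_mem hH, ?_⟩
    rw [hg, Pi.neg_apply, Pi.neg_apply, map_neg, map_neg]
    ring

theorem h75w_exp_mul (hint : ∀ f ∈ R, ∀ τ, f τ ∈ A) (hO : ∀ a ∈ A, cst a ∈ O) (ht : t ∈ O)
    (haa : aa ∈ R) (haa' : aa' ∈ R) (haan : ∀ τ, aa τ ∈ A.nonunits) (haan' : ∀ τ, aa' τ ∈ A.nonunits)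
    {g g' : 𝔽} {v e v' e' : K} (hv' : v' ∈ A) (he' : e' ∈ A)
    (h : h75wExp A cst O t R aa aa' g v e) (h' : h75wExp A cst O t R aa aa' g' v' e') :
    h75wExp A cst O t R aa aa' (g * g') (v * v') (v * e' + e * v') := by
  obtain ⟨V, E, hV, hE, hVc, hEc, hexp⟩ := h
  obtain ⟨V', E', hV', hE', hVc', hEc', hexp'⟩ := h'
  refine ⟨V * V', V * E' + E * V' + E * E' * (aa' - aa), R.mul_mem hV hV',
    R.add_mem (R.add_mem (R.mul_mem hV hE') (R.mul_mem hE hV'))
      (R.mul_mem (R.mul_mem hE hE') (R.sub_mem haa' haa)), fun τ => ?_, fun τ => ?_, fun τ => ?_⟩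
  · have h1 : (V * V') τ - v * v' = V τ * (V' τ - v') + (V τ - v) * v' := by
      rw [Pi.mul_apply]; ring
    rw [h1]
    exact h75w_nu_add A (h75w_nu_mul_left A (hint V hV τ) (hVc' τ))
      (h75w_nu_mul_right A (hVc τ) hv')
  · have h1 : (V * E' + E * V' + E * E' * (aa' - aa)) τ - (v * e' + e * v') =
        (V τ * (E' τ - e') + (V τ - v) * e') + (E τ * (V' τ - v') + (E τ - e) * v') +
          E τ * E' τ * (aa' τ - aa τ) := by
      simp only [Pi.add_apply, Pi.mul_apply, Pi.sub_apply]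
      ring
    rw [h1]
    refine h75w_nu_add A (h75w_nu_add A (h75w_nu_add A ?_ ?_) (h75w_nu_add A ?_ ?_)) ?_
    · exact h75w_nu_mul_left A (hint V hV τ) (hEc' τ)
    · exact h75w_nu_mul_right A (hVc τ) he'
    · exact h75w_nu_mul_left A (hint E hE τ) (hVc' τ)
    · exact h75w_nu_mul_right A (hEc τ) hv'
    · exact h75w_nu_mul_left A (A.mul_mem _ _ (hint E hE τ) (hint E' hE' τ))
        (h75w_nu_sub A (haan' τ) (haan τ))
  · obtain ⟨H, hH, hg⟩ := hexp τ
    obtain ⟨H', hH', hg'⟩ := hexp' τ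
    have hcO : ∀ f ∈ R, cst (f τ) ∈ O := fun f hf => hO _ (hint f hf τ)
    have hε : t - cst (aa τ) ∈ O := O.sub_mem ht (hcO aa haa)
    have hε' : t - cst (aa' τ) ∈ O := O.sub_mem ht (hcO aa' haa')
    refine ⟨cst (E τ) * cst (E' τ) + cst (V τ) * H' + cst (V' τ) * H +
      cst (E τ) * (t - cst (aa τ)) * H' + cst (E' τ) * (t - cst (aa τ)) * H +
      (t - cst (aa τ)) * (t - cst (aa' τ)) * H * H', ?_, ?_⟩
    · refine O.add_mem (O.add_mem (O.add_mem (O.add_mem (O.add_mem ?_ ?_) ?_) ?_) ?_) ?_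
      · exact O.mul_mem (hcO E hE) (hcO E' hE')
      · exact O.mul_mem (hcO V hV) hH'
      · exact O.mul_mem (hcO V' hV') hH
      · exact O.mul_mem (O.mul_mem (hcO E hE) hε) hH'
      · exact O.mul_mem (O.mul_mem (hcO E' hE') hε) hH
      · exact O.mul_mem (O.mul_mem (O.mul_mem hε hε') hH) hH'
    · rw [hg, hg']
      simp only [Pi.add_apply, Pi.mul_apply, Pi.sub_apply, map_add, map_mul, map_sub]
      ring

/-- every element of the ring generated by the constants of `A` and `t` has an expansion. -/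
theorem h75w_exp_closure (hint : ∀ f ∈ R, ∀ τ, f τ ∈ A) (hO : ∀ a ∈ A, cst a ∈ O) (ht : t ∈ O)
    (haa : aa ∈ R) (haa' : aa' ∈ R) (haan : ∀ τ, aa τ ∈ A.nonunits) (haan' : ∀ τ, aa' τ ∈ A.nonunits)
    {g : 𝔽} (hg : g ∈ Subring.closure ((fun a : K => cst a) '' (A : Set K) ∪ {t})) :
    ∃ v ∈ A, ∃ e ∈ A, h75wExp A cst O t R aa aa' g v e := by
  induction hg using Subring.closure_induction with
  | mem x hx =>
    rcases hx with ⟨a, ha, rfl⟩ | hx
    · exact ⟨a, ha, 0, A.zero_mem, h75w_exp_cst A cst O t R aa aa' ha⟩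
    · rw [Set.mem_singleton_iff] at hx
      rw [hx]
      exact ⟨0, A.zero_mem, 1, A.one_mem, h75w_exp_t A cst O t R aa aa' haa haan⟩
  | zero =>
    have h1 := h75w_exp_cst A cst O t R aa aa' A.zero_mem
    rw [map_zero] at h1
    exact ⟨0, A.zero_mem, 0, A.zero_mem, h1⟩
  | one =>
    have h1 := h75w_exp_cst A cst O t R aa aa' A.one_mem
    rw [map_one] at h1
    exact ⟨1, A.one_mem, 0, A.zero_mem, h1⟩
  | add x y _ _ hx hy =>
    obtain ⟨v, hv, e, he, h⟩ := hx
    obtain ⟨v', hv', e', he', h'⟩ := hy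
    exact ⟨v + v', A.add_mem _ _ hv hv', e + e', A.add_mem _ _ he he', h75w_exp_add h h'⟩
  | neg x _ hx =>
    obtain ⟨v, hv, e, he, h⟩ := hx
    exact ⟨-v, A.neg_mem _ hv, -e, A.neg_mem _ he, h75w_exp_neg h⟩
  | mul x y _ _ hx hy =>
    obtain ⟨v, hv, e, he, h⟩ := hx
    obtain ⟨v', hv', e', he', h'⟩ := hy
    exact ⟨v * v', A.mul_mem _ _ hv hv', v * e' + e * v',
      A.add_mem _ _ (A.mul_mem _ _ hv he') (A.mul_mem _ _ he hv'),
      h75w_exp_mul hint hO ht haa haa' haan haan' hv' he' h h'⟩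


theorem h75w_exp_congr {g g' : 𝔽} {v e v' e' : K} (h : h75wExp A cst O t R aa aa' g v e)
    (hg : g = g') (hv : v = v') (he : e = e') : h75wExp A cst O t R aa aa' g' v' e' := by
  subst hg hv he
  exact h

end exp

section lincomb

variable {K : Type*} [Field K] {𝔽 : Type*} [CommRing 𝔽] (cst : K →+* 𝔽)
  {ι : Type*} [Fintype ι]

/-- a linear combination of second order expansions whose two leading coefficients vanish. -/
theorem h75w_lincomb (ε ε' : 𝔽) (fs : 𝔽) (f : ι → 𝔽) (Vs Es : K) (V E : ι → K)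
    (Hs : 𝔽) (H : ι → 𝔽) (co : ι → K)
    (hfs : fs = cst Vs + cst Es * ε + ε * ε' * Hs)
    (hf : ∀ j, f j = cst (V j) + cst (E j) * ε + ε * ε' * H j)
    (hV : Vs + ∑ j, co j * V j = 0) (hE : Es + ∑ j, co j * E j = 0) :
    fs + ∑ j, cst (co j) * f j = ε * ε' * (Hs + ∑ j, cst (co j) * H j) := by
  have h1 : ∑ j, cst (co j) * f j =
      cst (∑ j, co j * V j) + cst (∑ j, co j * E j) * ε + ε * ε' * ∑ j, cst (co j) * H j := by
    rw [map_sum, map_sum, Finset.sum_mul, Finset.mul_sum, ← Finset.sum_add_distrib,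
      ← Finset.sum_add_distrib]
    refine Finset.sum_congr rfl fun j _ => ?_
    rw [hf j, map_mul, map_mul]
    ring
  have h2 : cst (Vs + ∑ j, co j * V j) = 0 := by rw [hV, map_zero]
  have h3 : cst (Es + ∑ j, co j * E j) = 0 := by rw [hE, map_zero]
  rw [map_add] at h2 h3
  rw [h1, hfs]
  linear_combination h2 + ε * h3

end lincomb

end Fermat.Agent.P5
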