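import Fermat.Agent.P5.H96LawLeaves
import Fermat.Agent.P5.H75CramerAbs

/-!
# Wave 5, pillar (P), LAW-A1 (helper75): the Cramer step `H96wCramer`

`h75w_cramer : H96wCramer` (exact frozen Prop of `P5/H96LawLeaves.lean`).

The proof is exact (no limit, no conductor, no archimedean property): for `f ∈ O i` with
2-jet `(v0, e0)` at the centre, Newton interpolation at the finitely many points of the discs
belonging to `S` and `S'` (iterated `O_div`) writes `f = v0 + e0 t + t² (g₁ + ∏ (t - a_m) h)`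
with `g₁` in the ring generated by `A` and `t`; hence for every `τ = (x, y)`
`f = V τ + E τ (t - a) + (t - a) (t - a') H` with `V, E` polynomials in the coordinates
(`h75w_exp_closure`).  The linear system `V = E = 0` for `bs + ∑ co_j b_j` is solved by
`h75w_cramer_core`.
-/

set_option autoImplicit false
set_option linter.style.haveILetI false

open AlgebraicCurve ModularCurve

noncomputable section

namespace Fermat.Agent.P5

open Fermat.Agent.S37

variable {M : ℕ} [NeZero M] {g : ℕ}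

omit [NeZero M] in
theorem h75w_cst_not_nonunits (v : Place Kbar (FF M)) {a : Kbar} (ha : a ≠ 0) :
    cst M a ∉ v.toValuationSubring.nonunits := by
  intro h
  have h1 : cst M a * cst M a⁻¹ ∈ v.toValuationSubring.nonunits :=
    h75w_nu_mul_right _ h (v.algebraMap_mem' _)
  rw [← map_mul, mul_inv_cancel₀ ha, map_one, ValuationSubring.mem_nonunits_iff, map_one] at h1
  exact lt_irrefl _ h1

omit [NeZero M] in
theorem h75w_valueAt_unique {v : Place Kbar (FF M)} {f : FF M} {a b : Kbar}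
    (ha : ValueAt v f a) (hb : ValueAt v f b) : a = b := by
  by_contra hab
  have h1 : cst M (b - a) ∈ v.toValuationSubring.nonunits := by
    have e0 : cst M (b - a) = cst M b - cst M a := map_sub (algebraMap Kbar (FF M)) b a
    have e : cst M (b - a) = (f - cst M a) - (f - cst M b) := by
      rw [e0]; ring
    rw [e]
    exact h75w_nu_sub _ ha hb
  exact h75w_cst_not_nonunits v (sub_ne_zero.mpr (Ne.symm hab)) h1

/-- the coordinate `h96w_X` is the value of the parameter, and it is a non-unit. -/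
theorem h75w_coord (A : ValuationSubring Kbar) (c : H96Chart M g) (hc : c.Valid A)
    {x : JZero M} (hx : x ∈ redKerPic M A) (i : Fin g) :
    h96w_X A c i x ∈ A.nonunits ∧
    ∀ P : Fin g → Place Kbar (FF M), (∀ i, SameRed A (P i) (c.Q i)) → h96m_IsCls x P c.Q →
      ValueAt (P i) (c.t i) (h96w_X A c i x) := by
  obtain ⟨P₀, hP₀, hcls₀⟩ := hc.rep x hx
  obtain ⟨a₀, ha₀, hval₀⟩ := hc.t_small i (P₀ i) (hP₀ i)
  have hex : ∃ a, c.IsCoord A x i a := ⟨a₀, P₀, hP₀, hcls₀, hval₀⟩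
  have hX : h96w_X A c i x = hex.choose := by
    unfold h96w_X
    rw [dif_pos hex]
  obtain ⟨P₁, hP₁, hcls₁, hval₁⟩ := hex.choose_spec
  constructor
  · have h01 : P₁ = P₀ := hc.rep_unique x P₁ P₀ hP₁ hP₀ hcls₁ hcls₀
    rw [hX]
    rw [h01] at hval₁
    rw [h75w_valueAt_unique hval₁ hval₀]
    exact ha₀
  · intro P hP hcls
    rw [hX]
    have h01 : P₁ = P := hc.rep_unique x P₁ P hP₁ hP hcls₁ hcls
    rw [← h01]
    exact hval₁

theorem h75w_adjoin_int {K : Type*} [Field K] (A : ValuationSubring K) {T : Type*}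
    (G : Set (T → K)) (hG : ∀ f ∈ G, ∀ τ, f τ ∈ A) :
    ∀ f ∈ Algebra.adjoin A G, ∀ τ, f τ ∈ A := by
  intro f hf τ
  induction hf using Algebra.adjoin_induction with
  | mem x hx => exact hG x hx τ
  | algebraMap r => exact r.2
  | add x y _ _ hx hy => exact A.add_mem _ _ hx hy
  | mul x y _ _ hx hy => exact A.mul_mem _ _ hx hy

theorem h75w_R_int (A : ValuationSubring Kbar) (c : H96Chart M g) (hc : c.Valid A)
    (S : Set (JZero M)) (hS : S ⊆ redKerPic M A) :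
    ∀ f ∈ h96w_R A c S, ∀ x, f x ∈ A := by
  refine h75w_adjoin_int A _ ?_
  rintro f ⟨j, rfl⟩ x
  exact h75w_nu_mem A (h75w_coord A c hc (hS x.2) j).1

theorem h75w_prod_int {K : Type} [Field K] (A : ValuationSubring K) {S S' : Type}
    (R : Subalgebra A (S → K)) (R' : Subalgebra A (S' → K))
    (hR : ∀ f ∈ R, ∀ s, f s ∈ A) (hR' : ∀ f ∈ R', ∀ s, f s ∈ A) :
    ∀ f ∈ h96c_prod A R R', ∀ τ, f τ ∈ A := by
  refine h75w_adjoin_int A _ ?_
  rintro F (⟨f, hf, rfl⟩ | ⟨f, hf, rfl⟩) τ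
  · exact hR f hf τ.1
  · exact hR' f hf τ.2

/-- Newton interpolation in `O i` at finitely many points of the disc. -/
theorem h75w_newton (A : ValuationSubring Kbar) (c : H96Chart M g) (hc : c.Valid A) (i : Fin g)
    {ι' : Type*} (𝔓 : ι' → Place Kbar (FF M)) (h𝔓 : ∀ m, SameRed A (𝔓 m) (c.Q i))
    (𝔞 : ι' → Kbar) (h𝔞A : ∀ m, 𝔞 m ∈ A) (h𝔞 : ∀ m, ValueAt (𝔓 m) (c.t i) (𝔞 m))
    (s : Finset ι') :
    ∀ f ∈ c.O i, ∃ g₁ ∈ Subring.closure
        ((fun a : Kbar => algebraMap Kbar (FF M) a) '' (A : Set Kbar) ∪ {c.t i}),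
      ∃ h ∈ c.O i, f = g₁ + (∏ m ∈ s, (c.t i - cst M (𝔞 m))) * h := by
  classical
  induction s using Finset.induction_on with
  | empty =>
    intro f hf
    exact ⟨0, Subring.zero_mem _, f, hf, by rw [Finset.prod_empty, one_mul, zero_add]⟩
  | insert m₀ s hm₀ ih =>
    intro f hf
    obtain ⟨g₁, hg₁, h, hh, hfg⟩ := ih f hf
    obtain ⟨b, hbA, hb⟩ := hc.O_val i h hh (𝔓 m₀) (h𝔓 m₀)
    obtain ⟨h', hh', hdiv⟩ := hc.O_div i h hh (𝔓 m₀) (h𝔓 m₀) b (𝔞 m₀) hb (h𝔞 m₀)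
    refine ⟨g₁ + cst M b * ∏ m ∈ s, (c.t i - cst M (𝔞 m)), ?_, h', hh', ?_⟩
    · refine Subring.add_mem _ hg₁ (Subring.mul_mem _
        (Subring.subset_closure (Or.inl ⟨b, hbA, rfl⟩)) (Subring.prod_mem _ fun m _ => ?_))
      exact Subring.sub_mem _ (Subring.subset_closure (Or.inr rfl))
        (Subring.subset_closure (Or.inl ⟨𝔞 m, h𝔞A m, rfl⟩))
    · rw [Finset.prod_insert hm₀]
      linear_combination hfg + (∏ m ∈ s, (c.t i - cst M (𝔞 m))) * hdiv

/-- the 2-jet at the centre of an element of `O i`. -/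
theorem h75w_jet (A : ValuationSubring Kbar) (c : H96Chart M g) (hc : c.Valid A) (i : Fin g)
    (f : FF M) (hf : f ∈ c.O i) :
    ∃ v0 ∈ A, ∃ e0 ∈ A, ∃ h₂ ∈ c.O i,
      f = cst M v0 + cst M e0 * c.t i + c.t i * c.t i * h₂ := by
  obtain ⟨v0, hv0, hval⟩ := hc.O_val i f hf (c.Q i) (hc.refl i)
  obtain ⟨h₁, hh₁, hdiv₁⟩ := hc.O_div i f hf (c.Q i) (hc.refl i) v0 0 hval (hc.t_zero i)
  obtain ⟨e0, he0, hval₁⟩ := hc.O_val i h₁ hh₁ (c.Q i) (hc.refl i)
  obtain ⟨h₂, hh₂, hdiv₂⟩ := hc.O_div i h₁ hh₁ (c.Q i) (hc.refl i) e0 0 hval₁ (hc.t_zero i)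
  refine ⟨v0, hv0, e0, he0, h₂, hh₂, ?_⟩
  have h0 : cst M (0 : Kbar) = 0 := map_zero _
  rw [h0, sub_zero] at hdiv₁ hdiv₂
  linear_combination hdiv₁ + c.t i * hdiv₂

/-- the 2-jets of the basis functions of a link are given by `N0`. -/
theorem h75w_jet_b (A : ValuationSubring Kbar) (c c' : H96Chart M g) (hc : c.Valid A)
    (L : H96Link A c c') (i : Fin g) (j : Fin g ⊕ Fin g) :
    L.N0 (Sum.inl i) j ∈ A ∧ L.N0 (Sum.inr i) j ∈ A ∧ ∃ h₂ ∈ c.O i,
      L.b j = cst M (L.N0 (Sum.inl i) j) + cst M (L.N0 (Sum.inr i) j) * c.t i +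
        c.t i * c.t i * h₂ := by
  obtain ⟨h₁, hh₁, hdiv₁, hval₁⟩ := L.N0_der i j
  obtain ⟨v, hv, hval⟩ := hc.O_val i (L.b j) (L.b_mem j i).1 (c.Q i) (hc.refl i)
  obtain ⟨e, he, hvale⟩ := hc.O_val i h₁ hh₁ (c.Q i) (hc.refl i)
  obtain ⟨h₂, hh₂, hdiv₂⟩ := hc.O_div i h₁ hh₁ (c.Q i) (hc.refl i) _ 0 hval₁ (hc.t_zero i)
  refine ⟨?_, ?_, h₂, hh₂, ?_⟩
  · rw [h75w_valueAt_unique (L.N0_val i j) hval]
    exact hv
  · rw [h75w_valueAt_unique hval₁ hvale]
    exact he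
  · have h0 : cst M (0 : Kbar) = 0 := map_zero _
    rw [h0, sub_zero] at hdiv₂
    linear_combination hdiv₁ + c.t i * hdiv₂

/-- the second order expansion of an element of `O i` with given 2-jet at the centre. -/
theorem h75w_fullExp (A : ValuationSubring Kbar) (c : H96Chart M g) (hc : c.Valid A)
    (S S' : Set (JZero M)) (hSf : S.Finite) (hSf' : S'.Finite)
    (hS : S ⊆ redKerPic M A) (hS' : S' ⊆ redKerPic M A)
    (i : Fin g) (f : FF M) (v0 e0 : Kbar) (hv0 : v0 ∈ A) (he0 : e0 ∈ A)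
    (h₂ : FF M) (hh₂ : h₂ ∈ c.O i)
    (hf : f = cst M v0 + cst M e0 * c.t i + c.t i * c.t i * h₂) :
    h75wExp A (algebraMap Kbar (FF M)) (c.O i) (c.t i)
      (h96c_prod A (h96w_R A c S) (h96w_R A c S'))
      (fun τ : ↥S × ↥S' => h96w_X A c i (τ.1 : JZero M))
      (fun τ : ↥S × ↥S' => h96w_X A c i (τ.2 : JZero M)) f v0 e0 := by
  classical
  haveI : Fintype ↥S := hSf.fintype
  haveI : Fintype ↥S' := hSf'.fintype
  set R2 := h96c_prod A (h96w_R A c S) (h96w_R A c S') with hR2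
  set aa : ↥S × ↥S' → Kbar := fun τ => h96w_X A c i (τ.1 : JZero M) with haa
  set aa' : ↥S × ↥S' → Kbar := fun τ => h96w_X A c i (τ.2 : JZero M) with haa'
  have hint : ∀ f ∈ R2, ∀ τ, f τ ∈ A :=
    h75w_prod_int A _ _ (h75w_R_int A c hc S hS) (h75w_R_int A c hc S' hS')
  have hO : ∀ a ∈ A, algebraMap Kbar (FF M) a ∈ c.O i := fun a ha => hc.O_cst i a ha
  have ht : c.t i ∈ c.O i := hc.O_t i
  have haaR : aa ∈ R2 :=
    Algebra.subset_adjoin (Or.inl ⟨fun x : ↥S => h96w_X A c i (x : JZero M),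
      Algebra.subset_adjoin ⟨i, rfl⟩, rfl⟩)
  have haaR' : aa' ∈ R2 :=
    Algebra.subset_adjoin (Or.inr ⟨fun x : ↥S' => h96w_X A c i (x : JZero M),
      Algebra.subset_adjoin ⟨i, rfl⟩, rfl⟩)
  have haan : ∀ τ, aa τ ∈ A.nonunits := fun τ => (h75w_coord A c hc (hS τ.1.2) i).1
  have haan' : ∀ τ, aa' τ ∈ A.nonunits := fun τ => (h75w_coord A c hc (hS' τ.2.2) i).1
  -- the points
  choose PS hPS hclsS using fun x : ↥S => hc.rep (x : JZero M) (hS x.2)
  choose PS' hPS' hclsS' using fun x : ↥S' => hc.rep (x : JZero M) (hS' x.2)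
  set 𝔓 : ↥S ⊕ ↥S' → Place Kbar (FF M) := Sum.elim (fun x => PS x i) (fun y => PS' y i) with h𝔓
  set 𝔞 : ↥S ⊕ ↥S' → Kbar := Sum.elim (fun x => h96w_X A c i (x : JZero M))
    (fun y => h96w_X A c i (y : JZero M)) with h𝔞
  have h1 : ∀ m, SameRed A (𝔓 m) (c.Q i) := by
    rintro (x | y)
    · exact hPS x i
    · exact hPS' y i
  have h2 : ∀ m, 𝔞 m ∈ A := by
    rintro (x | y)
    · exact h75w_nu_mem A (h75w_coord A c hc (hS x.2) i).1
    · exact h75w_nu_mem A (h75w_coord A c hc (hS' y.2) i).1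
  have h3 : ∀ m, ValueAt (𝔓 m) (c.t i) (𝔞 m) := by
    rintro (x | y)
    · exact (h75w_coord A c hc (hS x.2) i).2 (PS x) (hPS x) (hclsS x)
    · exact (h75w_coord A c hc (hS' y.2) i).2 (PS' y) (hPS' y) (hclsS' y)
  obtain ⟨g₁, hg₁, hr, hhr, hh₂eq⟩ := h75w_newton A c hc i 𝔓 h1 𝔞 h2 h3 Finset.univ h₂ hh₂
  obtain ⟨v₁, hv₁, e₁, he₁, hexp₁⟩ :=
    h75w_exp_closure (R := R2) (aa := aa) (aa' := aa') hint hO ht haaR haaR' haan haan' hg₁
  have hE1 := h75w_exp_cst A (algebraMap Kbar (FF M)) (c.O i) (c.t i) R2 aa aa' hv0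
  have hE2 := h75w_exp_cst A (algebraMap Kbar (FF M)) (c.O i) (c.t i) R2 aa aa' he0
  have hEt := h75w_exp_t A (algebraMap Kbar (FF M)) (c.O i) (c.t i) R2 aa aa' haaR haan
  have hE3 := h75w_exp_mul hint hO ht haaR haaR' haan haan' A.zero_mem A.one_mem hE2 hEt
  have hE4 := h75w_exp_mul hint hO ht haaR haaR' haan haan' A.zero_mem A.one_mem hEt hEt
  have hE5 := h75w_exp_mul hint hO ht haaR haaR' haan haan' hv₁ he₁ hE4 hexp₁
  have hE6 : h75wExp A (algebraMap Kbar (FF M)) (c.O i) (c.t i) R2 aa aa'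
      (c.t i * c.t i * ((∏ m, (c.t i - cst M (𝔞 m))) * hr)) 0 0 := by
    refine h75w_exp_rem A (algebraMap Kbar (FF M)) (c.O i) (c.t i) R2 aa aa' fun τ => ?_
    have hfac : ∀ m, c.t i - cst M (𝔞 m) ∈ c.O i := fun m =>
      (c.O i).sub_mem ht (hO _ (h2 m))
    refine ⟨c.t i * c.t i * ((∏ x ∈ Finset.univ.erase τ.1, (c.t i - cst M (𝔞 (Sum.inl x)))) *
      (∏ y ∈ Finset.univ.erase τ.2, (c.t i - cst M (𝔞 (Sum.inr y)))) * hr), ?_, ?_⟩
    · exact (c.O i).mul_mem ((c.O i).mul_mem ht ht) ((c.O i).mul_mem ((c.O i).mul_mem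
        (Subring.prod_mem _ fun x _ => hfac _) (Subring.prod_mem _ fun y _ => hfac _)) hhr)
    · rw [Fintype.prod_sum_type,
        ← Finset.mul_prod_erase Finset.univ (fun x => c.t i - cst M (𝔞 (Sum.inl x)))
          (Finset.mem_univ τ.1),
        ← Finset.mul_prod_erase Finset.univ (fun y => c.t i - cst M (𝔞 (Sum.inr y)))
          (Finset.mem_univ τ.2)]
      change _ = (c.t i - cst M (𝔞 (Sum.inl τ.1))) * (c.t i - cst M (𝔞 (Sum.inr τ.2))) * _
      ring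
  have hall := h75w_exp_add (h75w_exp_add (h75w_exp_add hE1 hE3) hE5) hE6
  refine h75w_exp_congr hall ?_ (by ring) (by ring)
  rw [hf, hh₂eq]
  ring

/-- **LEAF A1 (Cramer).** -/
theorem h75w_cramer : H96wCramer := by
  intro M _ A ℓ _ _ g c c' hc _ L S S' hSf hSf' hS hS'
  classical
  haveI : Finite ↥S := hSf.to_subtype
  haveI : Finite ↥S' := hSf'.to_subtype
  set R2 := h96c_prod A (h96w_R A c S) (h96w_R A c S') with hR2
  have hint : ∀ f ∈ R2, ∀ τ, f τ ∈ A :=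
    h75w_prod_int A _ _ (h75w_R_int A c hc S hS) (h75w_R_int A c hc S' hS')
  -- the jets
  have hN0l : ∀ i j, L.N0 (Sum.inl i) j ∈ A := fun i j => (h75w_jet_b A c c' hc L i j).1
  have hN0r : ∀ i j, L.N0 (Sum.inr i) j ∈ A := fun i j => (h75w_jet_b A c c' hc L i j).2.1
  choose kb hkb hbeq using fun i j => (h75w_jet_b A c c' hc L i j).2.2
  choose vs hvs es hes ks hks hseq using fun i => h75w_jet A c hc i L.bs (L.bs_mem i).1
  -- the expansions
  choose Vb Eb hVb hEb hVbc hEbc hbexp using fun i j =>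
    h75w_fullExp A c hc S S' hSf hSf' hS hS' i (L.b j) _ _ (hN0l i j) (hN0r i j) (kb i j)
      (hkb i j) (hbeq i j)
  choose Vs Es hVs hEs hVsc hEsc hsexp using fun i =>
    h75w_fullExp A c hc S S' hSf hSf' hS hS' i L.bs _ _ (hvs i) (hes i) (ks i)
      (hks i) (hseq i)
  obtain ⟨co, co0, hco, hco0, hcoc, hsol0, hsol⟩ := h75w_cramer_core A R2 hint
    (fun r j => Sum.elim (fun i => Vb i j) (fun i => Eb i j) r)
    (by rintro (i | i) j; exacts [hVb i j, hEb i j]) L.N0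
    (by rintro (i | i) j; exacts [hN0l i j, hN0r i j])
    (by rintro (i | i) j τ; exacts [hVbc i j τ, hEbc i j τ]) L.N0_unit
    (fun r => Sum.elim Vs Es r)
    (by rintro (i | i); exacts [hVs i, hEs i])
    (fun r => Sum.elim vs es r)
    (by rintro (i | i); exacts [hvs i, hes i])
    (by rintro (i | i) τ; exacts [hVsc i τ, hEsc i τ])
  refine ⟨co, co0, hco, hco0, hcoc, ?_, ?_⟩
  · intro i
    refine ⟨ks i + ∑ j, cst M (co0 j) * kb i j, ?_, ?_⟩
    · exact (c.O i).add_mem (hks i) (Subring.sum_mem _ fun j _ =>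
        (c.O i).mul_mem (hc.O_cst i _ (hco0 j)) (hkb i j))
    · exact h75w_lincomb (algebraMap Kbar (FF M)) (c.t i) (c.t i) L.bs L.b (vs i) (es i)
        (fun j => L.N0 (Sum.inl i) j) (fun j => L.N0 (Sum.inr i) j) (ks i) (kb i) co0
        (hseq i) (fun j => hbeq i j) (hsol0 (Sum.inl i)) (hsol0 (Sum.inr i))
  · intro p P P' hP hP' hcls hcls' i
    choose Hb hHb hHbeq using fun j => hbexp i j p
    obtain ⟨Hs, hHs, hHseq⟩ := hsexp i p
    refine ⟨Hs + ∑ j, cst M (co j p) * Hb j, ?_, h96w_X A c i (p.1 : JZero M),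
      h96w_X A c i (p.2 : JZero M), (h75w_coord A c hc (hS p.1.2) i).2 P hP hcls,
      (h75w_coord A c hc (hS' p.2.2) i).2 P' hP' hcls', ?_⟩
    · exact (c.O i).add_mem hHs (Subring.sum_mem _ fun j _ =>
        (c.O i).mul_mem (hc.O_cst i _ (hint _ (hco j) p)) (hHb j))
    · exact h75w_lincomb (algebraMap Kbar (FF M)) (c.t i - cst M (h96w_X A c i (p.1 : JZero M)))
        (c.t i - cst M (h96w_X A c i (p.2 : JZero M))) L.bs L.b (Vs i p) (Es i p)
        (fun j => Vb i j p) (fun j => Eb i j p) Hs Hb (fun j => co j p)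
        hHseq hHbeq (hsol (Sum.inl i) p) (hsol (Sum.inr i) p)

end Fermat.Agent.P5
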