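import Fermat.Agent.P5.H96LawTop
import Fermat.Agent.P5.H75LawCramer

/-!
# P5 / GEO-LAW: the block is CLOSED (helper96)

`h96o_law : H96LawStatement`, unconditional: from the geometric inputs `H96GeoInputs M A`, a
local order `H96LocOrder` on every finite torsion level of `J₀(M)`.

Leaves: A1 Cramer (`h75w_cramer`, helper75), A2 Newton (`h74n_newtonStep`, helper74),
B order bookkeeping (`h96o_orderStep`, helper96).
-/

set_option autoImplicit false

namespace Fermat.Agent.P5

/-- **GEO-LAW.** -/
theorem h96o_law : H96LawStatement :=
  h96o_law_of_cramer h75w_cramer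

end Fermat.Agent.P5
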