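import Fermat.Agent.P5.H47DescIface
import Fermat.Agent.P5.H45DescSep
import Fermat.Agent.P5.H98Descent

/-!
# Wave 5, pillar (P), block TOP-DESC, leaf D-GLOB (helper94)

`h94g_globBasis : H47dGlobBasis` (exact frozen Prop of `P5/H47DescIface.lean`): on a finite set
`M` with a continuous action of `G_ℚ` the functions `M → ℚ̄` have a `ℚ̄`-basis consisting of
`G_ℚ`-equivariant functions.

Proof: the equivariant functions form a submonoid `E` of `M → ℚ̄` which separates the points
(`h45t_sep`, helper45); so `Algebra.adjoin ℚ̄ E = ⊤` (`h98p_sep_top`, helper98), and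
`adjoin = span` for a submonoid; a basis is extracted from the spanning set.
-/

set_option autoImplicit false
set_option linter.unusedSectionVars false
set_option linter.unusedVariables false
set_option linter.style.haveILetI false
set_option linter.style.longLine false

noncomputable section

namespace Fermat.Agent.P5

section Glob

variable {M : Type} [AddCommGroup M] (act : H98pGQ → M → M)

/-- the submonoid of equivariant functions. -/
def h94gEq : Submonoid (M → H98pQb) where
  carrier := {f | ∀ σ x, f (act σ x) = σ (f x)}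
  mul_mem' := fun {f g} hf hg σ x => by
    show f (act σ x) * g (act σ x) = σ (f x * g x)
    rw [hf σ x, hg σ x, map_mul]
  one_mem' := fun σ x => by
    show (1 : H98pQb) = σ 1
    rw [map_one]

theorem h94g_mem_eq {f : M → H98pQb} :
    f ∈ h94gEq act ↔ ∀ σ x, f (act σ x) = σ (f x) := Iff.rfl

/-- the equivariant functions span all functions. -/
theorem h94g_span_eq_top [Finite M] (hact : H98pIsGalAct act) :
    Submodule.span H98pQb ((h94gEq act : Submonoid (M → H98pQb)) : Set (M → H98pQb)) = ⊤ := by
  have h1 : Algebra.adjoin H98pQb ((h94gEq act : Submonoid (M → H98pQb)) : Set (M → H98pQb))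
      = ⊤ := by
    apply h98p_sep_top
    intro x y hxy
    obtain ⟨f, hf, -, hfxy⟩ := h45t_sep act hact x y hxy
    exact ⟨f, Algebra.subset_adjoin hf, hfxy⟩
  have h2 := Algebra.adjoin_eq_span H98pQb
    ((h94gEq act : Submonoid (M → H98pQb)) : Set (M → H98pQb))
  rw [h1, Submonoid.closure_eq] at h2
  rw [← h2]
  rfl

end Glob

/-- **D-GLOB.** -/
theorem h94g_globBasis : H47dGlobBasis := by
  intro M _ _ act hact
  obtain ⟨b, hbE, hbspan, hbli⟩ := exists_linearIndependent H98pQb
    ((h94gEq act : Submonoid (M → H98pQb)) : Set (M → H98pQb))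
  rw [h94g_span_eq_top act hact] at hbspan
  haveI : Finite b := hbli.finite
  obtain ⟨n, ⟨eqv⟩⟩ := Finite.exists_equiv_fin b
  refine ⟨n, fun i => ((eqv.symm i : b) : M → H98pQb), fun i σ x => ?_, ?_, ?_⟩
  · exact hbE (eqv.symm i).2 σ x
  · exact hbli.comp eqv.symm eqv.symm.injective
  · have h1 : Set.range (fun i => ((eqv.symm i : b) : M → H98pQb)) = b := by
      ext f
      constructor
      · rintro ⟨i, rfl⟩
        exact (eqv.symm i).2
      · intro hf
        exact ⟨eqv ⟨f, hf⟩, by simp⟩
    rw [h1]
    exact hbspan

end Fermat.Agent.P5
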