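import Fermat.Agent.P5.H98DescSpan
import Fermat.Agent.P5.H19DescFG
import Fermat.Agent.P5.H1DescCoef
import Fermat.Agent.P5.H94Glob
import Fermat.Agent.P5.H47DescCoord

/-!
# Wave 5, pillar (P), row DESC-FIN / TOP-DESC: `H98pDescent` (helper98)

Final assembly of ALG-DESC.  For a local order `G` at ONE valuation subring `A` of `ℚ̄` over `p`,
the order over `ℤ_(p)` is `𝓗 = {f ∈ A[G] | f is G_ℚ-equivariant}` (`h19fOrd`, helper19):

* finitely generated over `ℤ_(p)` : `h19f_ord_fg` (helper19);
* its `A`-span contains `G` : `h98e_span` (SPAN, helper98) from `h94g_globBasis` (helper94) and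
  `h47d_coord` (helper47);
* separation and Sweedler forms over `ℤ_(p)` : `h1d_isOrder_of_span` (helper1).

`h98f_descent : H98pDescent` is the exact frozen Prop of `P5/Skeleton.lean`, unconditional.
-/

set_option autoImplicit false

noncomputable section

namespace Fermat.Agent.P5

/-- **DESC-FIN.** SPAN implies ALG-DESC. -/
theorem h98f_descent_of_span (hSpan : H98dSpan) : H98pDescent := by
  intro p hp M _ _ act hact A hA G hG
  refine ⟨h19fOrd p act A hA G,
    h1d_isOrder_of_span act A hA G hG.sep hG.comul hact.add (h19fOrd p act A hA G)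
      (h19f_ord_fg p M act hact A hA G hG.int)
      (h19f_ord_equivariant p act A hA G)
      (fun f hf => hf.1) ?_⟩
  intro g hg
  exact hSpan p M act hact A hA G hG g (Algebra.subset_adjoin hg)

/-- **ALG-DESC (TOP-DESC), unconditional.** -/
theorem h98f_descent : H98pDescent :=
  h98f_descent_of_span (h98e_span h94g_globBasis h47d_coord)

end Fermat.Agent.P5
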