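import Fermat.Agent.P5.Top
import Fermat.Agent.P5.H87Adapter
import Fermat.Agent.P5.H98DescFin
import Fermat.Agent.P5.H96Law
import Fermat.Agent.P5.H56GeoAsm
import Fermat.Agent.P5.H62DiscFinal
import Fermat.Agent.P5.H26GenusFinal
import Fermat.Agent.P5.H60RedDivTop
import Fermat.Agent.P5.H80InfFin
import Fermat.Agent.P5.H4LinkLeaf
import Fermat.Agent.P5.H69GeoAdapt

/-!
# P5 (wave 5, S19), integration (helper4): S19 from the single open leaf

* `h4t_level_of_link : H56gLink → H98pLevel` (all other leaves of `P5/H56GeoAsm.lean` are landed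
  theorems);
* `h4t_s19_of_link : H56gLink → S19`;
* `h4t_s19_of_raw : H4sLinkRawLeaf → S19`.
-/

set_option autoImplicit false

open ModularCurve

noncomputable section

namespace Fermat.Agent.P5

/-- `H98pLevel` from the single open leaf. -/
theorem h4t_level_of_link (hLink : H56gLink) : H98pLevel :=
  h56g_level h62q_discExists h26s_base h60q_redDiv h26s_genus h80f_infFin h4r_repLeaf hLink
    h69g_lift

/-- S19 from the single open leaf. -/
theorem h4t_s19_of_link (hLink : H56gLink)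
    (p : ℕ) [NeZero p] (ℓ : ℕ) [Fact ℓ.Prime] (hℓp : ¬ ℓ ∣ p) (k : ℕ) :
    ∃ (H : Type) (_ : CommRing H) (_ : HopfAlgebra (GaloisRep.ratLocalizedAt ℓ) H),
      Module.Finite (GaloisRep.ratLocalizedAt ℓ) H ∧ Module.Flat (GaloisRep.ratLocalizedAt ℓ) H ∧
      Coalgebra.IsCocomm (GaloisRep.ratLocalizedAt ℓ) H ∧
      ∃ e : WithConv (H →ₐ[GaloisRep.ratLocalizedAt ℓ] AlgebraicClosure ℚ) ≃
          ↥(Submodule.torsionBy ℤ (JZero p) ((ℓ : ℤ) ^ k)),
        (∀ f g, e (f * g) = e f + e g) ∧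
        ∀ (σ : AlgebraicClosure ℚ ≃ₐ[ℚ] AlgebraicClosure ℚ)
          (f g : WithConv (H →ₐ[GaloisRep.ratLocalizedAt ℓ] AlgebraicClosure ℚ)),
          (∀ h : H, g h = σ (f h)) → ((e g : JZero p)) = σ • (e f : JZero p) :=
  h98p_s19_of h87x_adapter h98f_descent h96o_law (h4t_level_of_link hLink) p ℓ hℓp k

/-- S19 from the raw link data. -/
theorem h4t_s19_of_raw (hraw : H4sLinkRawLeaf)
    (p : ℕ) [NeZero p] (ℓ : ℕ) [Fact ℓ.Prime] (hℓp : ¬ ℓ ∣ p) (k : ℕ) :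
    ∃ (H : Type) (_ : CommRing H) (_ : HopfAlgebra (GaloisRep.ratLocalizedAt ℓ) H),
      Module.Finite (GaloisRep.ratLocalizedAt ℓ) H ∧ Module.Flat (GaloisRep.ratLocalizedAt ℓ) H ∧
      Coalgebra.IsCocomm (GaloisRep.ratLocalizedAt ℓ) H ∧
      ∃ e : WithConv (H →ₐ[GaloisRep.ratLocalizedAt ℓ] AlgebraicClosure ℚ) ≃
          ↥(Submodule.torsionBy ℤ (JZero p) ((ℓ : ℤ) ^ k)),
        (∀ f g, e (f * g) = e f + e g) ∧
        ∀ (σ : AlgebraicClosure ℚ ≃ₐ[ℚ] AlgebraicClosure ℚ)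
          (f g : WithConv (H →ₐ[GaloisRep.ratLocalizedAt ℓ] AlgebraicClosure ℚ)),
          (∀ h : H, g h = σ (f h)) → ((e g : JZero p)) = σ • (e f : JZero p) :=
  h4t_s19_of_link (h4s_linkLeaf hraw) p ℓ hℓp k

end Fermat.Agent.P5
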