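import Fermat.Agent.P5.H51SF
import Fermat.Agent.P5.H36SFField
import Fermat.Agent.P5.H60RedDivTop
import Fermat.Agent.P5.H13GBase
import Fermat.Agent.P5.H40SFConst
import Fermat.Agent.Red.ModelO.ValCrit
import Fermat.Agent.Red.SM.Ram

/-!
# P5 (wave 5, S19), row GEO-RR-SF (helper4): the frozen leaf `H13sBase`, unconditional

* `h4b_exists_value` : `j` takes every value of `ℚ̄` at some place of the generic fibre.
* `h4b_infinite_sf` : the special fibre of a good level has infinitely many places (the
  reductions of places with pairwise incongruent `j`-values in `A` are pairwise distinct, by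
  `H13sIsRed`, and the residue field of `A` is infinite).
* `h4b_sBase : H13sBase` (exact frozen Prop of `P5/H13SFIface.lean`), from `h51f_sBase`
  (helper51), `h36v_field` (helper36), `h60q_redDiv` (helper60/88/94), `h13g_gBase` (helper13),
  `h40c_deg_one_sf`, `h40c_const_sf` (helper40).
-/

set_option autoImplicit false
set_option linter.unusedSectionVars false

open AlgebraicCurve ModularCurve

noncomputable section

namespace Fermat.Agent.P5

open Fermat.Agent.S37 Fermat.Agent.Red.GV

variable {M : ℕ} [NeZero M]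

/-- `j` takes every value at some place of the generic fibre. -/
theorem h4b_exists_value (M : ℕ) [NeZero M] (a : Kbar) :
    ∃ v : Place Kbar (FF M), ValueAt v (jB M) a := by
  have hfd := Fermat.Agent.Jac.K1.finiteDimensional_FF M
  obtain ⟨s, hs, hsum⟩ := h13g_zeros_FF M (jB M - cst M a) (Or.inl ⟨a, rfl⟩)
  have hpos : 0 < Module.finrank (IntermediateField.adjoin Kbar {jB M}) (FF M) :=
    Module.finrank_pos
  have hne : s.Nonempty := by
    by_contra h
    rw [Finset.not_nonempty_iff_eq_empty] at h
    rw [h, Finset.sum_empty] at hsum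
    have : (0 : ℤ) < (Module.finrank (IntermediateField.adjoin Kbar {jB M}) (FF M) : ℤ) := by
      exact_mod_cast hpos
    omega
  obtain ⟨v, hv⟩ := hne
  exact ⟨v, Fermat.Agent.Red.SM.h31_mem_nonunits_of_ord_pos v ((hs v).1 hv)⟩

/-- the special fibre of a good level has infinitely many places. -/
theorem h4b_infinite_sf {ℓ : ℕ} (hℓ : ℓ.Prime) (hM : ¬ ℓ ∣ M) (haux : auxLevel ℓ ∣ M)
    (A : ValuationSubring Kbar) (hA : A.LiesOverPrime ℓ) :
    Infinite (Place (h13sK A) (h13sFt A M)) := by
  obtain ⟨r, hr⟩ := h60q_redDiv ℓ hℓ M hM haux A hA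
  have hk : Infinite (IsLocalRing.ResidueField A) := by
    have : IsAlgClosed (IsLocalRing.ResidueField A) :=
      Fermat.Agent.S18.h72_residueField_isAlgClosed A
    infer_instance
  have hlift : ∀ c : IsLocalRing.ResidueField A, ∃ a : A, IsLocalRing.residue A a = c :=
    IsLocalRing.residue_surjective
  choose a ha using hlift
  have hv : ∀ c : IsLocalRing.ResidueField A, ∃ v : Place Kbar (FF M),
      ValueAt v (jB M) ((a c : A) : Kbar) := fun c => h4b_exists_value M _
  choose v hv using hv
  refine Infinite.of_injective (fun c : IsLocalRing.ResidueField A => r (v c)) ?_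
  intro c c' h
  have hsr : SameRed A (v c) (v c') := (hr.2.1 _ _).1 h
  have hfin : IsFinAt A (v c) := ⟨(a c : Kbar), (a c).2, hv c⟩
  rcases hsr with ⟨-, -, hcong⟩ | ⟨hnf, -, -⟩
  · obtain ⟨x, y, -, -, hvx, hvy, hxy⟩ :=
      hcong (jB M) (Fermat.Agent.Red.ModelO.h85_jB_mem_modelFin M A)
    have e1 : x = ((a c : A) : Kbar) := Fermat.Agent.Red.Match.valueAt_unique hvx (hv c)
    have e2 : y = ((a c' : A) : Kbar) := Fermat.Agent.Red.Match.valueAt_unique hvy (hv c')
    rw [e1, e2] at hxy
    have h1 : (a c - a c' : A) ∈ IsLocalRing.maximalIdeal A := by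
      rw [← ValuationSubring.coe_mem_nonunits_iff]
      exact hxy
    rw [← ha c, ← ha c']
    exact (Ideal.Quotient.eq).2 h1
  · exact absurd hfin hnf

/-- **SF-BASE**: the frozen leaf `H13sBase`, unconditionally. -/
theorem h4b_sBase : H13sBase :=
  h51f_sBase h36v_field h60q_redDiv h13g_gBase
    (fun _ hℓ M _ hM haux A hA =>
      ⟨fun Q => h40c_deg_one_sf A M hℓ hM haux hA Q,
       fun f hf => h40c_const_sf A M hℓ hM haux hA f hf,
       h4b_infinite_sf hℓ hM haux A hA⟩)

end Fermat.Agent.P5
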