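import Fermat.Agent.P5.H50LinkE0
import Fermat.Agent.S24.DiffPlace

/-!
# P5 (wave 5, S19), row GEO-LINK (helper50): orders of reductions

Consequences of the RED-DIV clause of `H13sIsRed A M r` (`r_* div f = div f~` for Gauss units):

* `h50b_ord_red_ge` : if `ord_v f ≥ -E v` on the fibre of `w` then `ord_w f~ ≥ -(r_* E) w`.
* `h50b_ord_red_nonneg`, `h50b_ord_red_pos` : a Gauss unit regular on the fibre of `w`
  (vanishing at one of its places) has a reduction regular (vanishing) at `w`.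
* `h50b_red_mem_L` : the reduction of a Gauss-integral element of `L(E)` lies in `L(r_* E)`.
* `h50b_valueAt_ord`, `h50b_mem_of_L` : values and orders.
-/

set_option autoImplicit false
set_option linter.unusedSectionVars false
set_option linter.unusedVariables false

open AlgebraicCurve ModularCurve

noncomputable section

namespace Fermat.Agent.P5

open Fermat.Agent.S37 Fermat.Agent.Red.GV

/-! ### Push-forwards -/

theorem h50b_mapDomain_nonneg {α β : Type*} (f : α → β) (X : α →₀ ℤ) (n : β)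
    (h : ∀ a, f a = n → 0 ≤ X a) : 0 ≤ Finsupp.mapDomain f X n := by
  classical
  rw [h50l_mapDomain_apply]
  refine Finset.sum_nonneg fun a _ => ?_
  split_ifs with ha
  · exact h a ha
  · exact le_refl _

theorem h50b_mapDomain_ge {α β : Type*} (f : α → β) (X : α →₀ ℤ) (n : β)
    (h : ∀ a, f a = n → 0 ≤ X a) (a₀ : α) (ha₀ : f a₀ = n) :
    X a₀ ≤ Finsupp.mapDomain f X n := by
  classical
  rw [h50l_mapDomain_apply]
  by_cases hmem : a₀ ∈ X.support
  · have h1 : (if f a₀ = n then X a₀ else 0) ≤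
        ∑ a ∈ X.support, if f a = n then X a else 0 :=
      Finset.single_le_sum (f := fun a => if f a = n then X a else 0)
        (fun a _ => by
          show 0 ≤ if f a = n then X a else 0
          split_ifs with ha
          · exact h a ha
          · exact le_refl _) hmem
    rwa [if_pos ha₀] at h1
  · rw [Finsupp.notMem_support_iff.1 hmem]
    refine Finset.sum_nonneg fun a _ => ?_
    split_ifs with ha
    · exact h a ha
    · exact le_refl _

/-! ### Orders of reductions -/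

section Ord

variable {M : ℕ} [NeZero M] {A : ValuationSubring Kbar} {ℓ : ℕ}
variable (r : Place Kbar (FF M) → Place (h13sK A) (h13sFt A M))

/-- the RED-DIV clause. -/
theorem h50b_ord_red (hr : H13sIsRed A M r) (hBg : H13rBase Kbar (FF M)) (f : FF M)
    (hf0 : f ≠ 0) (hfV : f ∈ gaussV A M) (hfi : f⁻¹ ∈ gaussV A M) :
    ∃ D : Divisor Kbar (FF M), (∀ v, D v = v.ord f) ∧
      ∀ w : Place (h13sK A) (h13sFt A M),
        w.ord (h13sRed A M ⟨f, hfV⟩) = Finsupp.mapDomain r D w := by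
  obtain ⟨D, hD, -⟩ := hBg.pd f hf0
  exact ⟨D, hD, fun w => (hr.2.2 f hfV hfi D hD w).symm⟩

theorem h50b_ord_red_ge (hr : H13sIsRed A M r) (hBg : H13rBase Kbar (FF M)) (f : FF M)
    (hf0 : f ≠ 0) (hfV : f ∈ gaussV A M) (hfi : f⁻¹ ∈ gaussV A M)
    (E : Divisor Kbar (FF M)) (w : Place (h13sK A) (h13sFt A M))
    (h : ∀ v, r v = w → -E v ≤ v.ord f) :
    -(h13sPush r E) w ≤ w.ord (h13sRed A M ⟨f, hfV⟩) := by
  obtain ⟨D, hD, hw⟩ := h50b_ord_red r hr hBg f hf0 hfV hfi
  rw [hw w]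
  have h1 : 0 ≤ Finsupp.mapDomain r (D + E) w := by
    refine h50b_mapDomain_nonneg r (D + E) w fun v hv => ?_
    rw [Finsupp.add_apply, hD v]
    have := h v hv
    omega
  rw [Finsupp.mapDomain_add, Finsupp.add_apply] at h1
  unfold h13sPush
  omega

theorem h50b_ord_red_nonneg (hr : H13sIsRed A M r) (hBg : H13rBase Kbar (FF M)) (f : FF M)
    (hf0 : f ≠ 0) (hfV : f ∈ gaussV A M) (hfi : f⁻¹ ∈ gaussV A M)
    (w : Place (h13sK A) (h13sFt A M)) (h : ∀ v, r v = w → 0 ≤ v.ord f) :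
    0 ≤ w.ord (h13sRed A M ⟨f, hfV⟩) := by
  obtain ⟨D, hD, hw⟩ := h50b_ord_red r hr hBg f hf0 hfV hfi
  rw [hw w]
  exact h50b_mapDomain_nonneg r D w fun v hv => by rw [hD v]; exact h v hv

theorem h50b_ord_red_pos (hr : H13sIsRed A M r) (hBg : H13rBase Kbar (FF M)) (f : FF M)
    (hf0 : f ≠ 0) (hfV : f ∈ gaussV A M) (hfi : f⁻¹ ∈ gaussV A M)
    (w : Place (h13sK A) (h13sFt A M)) (h : ∀ v, r v = w → 0 ≤ v.ord f)
    (v₀ : Place Kbar (FF M)) (hv₀ : r v₀ = w) (hpos : 1 ≤ v₀.ord f) :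
    1 ≤ w.ord (h13sRed A M ⟨f, hfV⟩) := by
  obtain ⟨D, hD, hw⟩ := h50b_ord_red r hr hBg f hf0 hfV hfi
  rw [hw w]
  have h1 := h50b_mapDomain_ge r D w (fun v hv => by rw [hD v]; exact h v hv) v₀ hv₀
  rw [hD v₀] at h1
  omega

/-- the exact order of the reduction at a point where the divisor is concentrated on one
place of the fibre. -/
theorem h50b_ord_red_eq (hr : H13sIsRed A M r) (hBg : H13rBase Kbar (FF M)) (f : FF M)
    (hf0 : f ≠ 0) (hfV : f ∈ gaussV A M) (hfi : f⁻¹ ∈ gaussV A M)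
    (w : Place (h13sK A) (h13sFt A M)) (X : Divisor Kbar (FF M))
    (h : ∀ v, r v = w → v.ord f = X v) :
    w.ord (h13sRed A M ⟨f, hfV⟩) = h13sPush r X w := by
  obtain ⟨D, hD, hw⟩ := h50b_ord_red r hr hBg f hf0 hfV hfi
  rw [hw w]
  have h1 : 0 ≤ Finsupp.mapDomain r (D - X) w :=
    h50b_mapDomain_nonneg r (D - X) w fun v hv => by
      rw [Finsupp.sub_apply, hD v, h v hv, sub_self]
  have h2 : 0 ≤ Finsupp.mapDomain r (X - D) w :=
    h50b_mapDomain_nonneg r (X - D) w fun v hv => by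
      rw [Finsupp.sub_apply, hD v, h v hv, sub_self]
  have e1 : Finsupp.mapDomain r (D - X) = Finsupp.mapDomain r D - Finsupp.mapDomain r X :=
    map_sub (Finsupp.mapDomain.addMonoidHom r) D X
  have e2 : Finsupp.mapDomain r (X - D) = Finsupp.mapDomain r X - Finsupp.mapDomain r D :=
    map_sub (Finsupp.mapDomain.addMonoidHom r) X D
  rw [e1, Finsupp.sub_apply] at h1
  rw [e2, Finsupp.sub_apply] at h2
  unfold h13sPush
  omega

/-- the reduction of a Gauss-integral element of `L(E)` lies in `L(r_* E)`. -/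
theorem h50b_red_mem_L (hℓ : ℓ.Prime) (hM : ¬ ℓ ∣ M) (hA : A.LiesOverPrime ℓ)
    (hr : H13sIsRed A M r) (hBg : H13rBase Kbar (FF M)) (E : Divisor Kbar (FF M)) (f : FF M)
    (hfV : f ∈ gaussV A M) (hfL : f ∈ riemannRochSpace E) :
    h13sRed A M ⟨f, hfV⟩ ∈ riemannRochSpace (h13sPush r E) := by
  rw [mem_riemannRochSpace_iff]
  intro w
  by_cases h0 : h13sRed A M ⟨f, hfV⟩ = 0
  · exact Or.inl h0
  · right
    have hu : ¬ ((f : FF M) = 0 ∨ (f : FF M)⁻¹ ∉ gaussV A M) := fun h =>
      h0 ((h50l_red_eq_zero_iff hℓ hM hA ⟨f, hfV⟩).2 h)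
    rw [not_or, not_not] at hu
    refine h50b_ord_red_ge r hr hBg f hu.1 hfV hu.2 E w fun v _ => ?_
    exact ((mem_riemannRochSpace_iff).1 hfL v).resolve_left hu.1

end Ord

/-! ### Values and orders -/

section Val

variable {M : ℕ} [NeZero M]

theorem h50b_ord_pos_of_valueAt_zero (v : Place Kbar (FF M)) {f : FF M} (hf0 : f ≠ 0)
    (h : ValueAt v f 0) : 1 ≤ v.ord f := by
  have h1 : f ∈ v.toValuationSubring.nonunits := by
    have : f - cst M 0 = f := by simp
    rw [← this]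
    exact h
  obtain ⟨hm, hmax⟩ := ValuationSubring.mem_nonunits_iff_exists_mem_maximalIdeal.mp h1
  have := Fermat.Agent.S24.DiffPlace.ord_pos_of_mem_maximalIdeal v
    (z := ⟨f, hm⟩) hmax (fun h' => hf0 (congrArg Subtype.val h'))
  exact this

theorem h50b_valueAt_zero_of_ord_pos (v : Place Kbar (FF M)) {f : FF M} (h : 1 ≤ v.ord f) :
    ValueAt v f 0 := by
  have hm : f ∈ v.toValuationSubring :=
    Fermat.Agent.S24.DiffPlace.mem_of_ord_nonneg v (by omega)
  have h1 := Fermat.Agent.S24.DiffPlace.mem_maximalIdeal_of_ord_pos v (z := ⟨f, hm⟩)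
    (by show 0 < v.ord f; omega)
  show f - cst M 0 ∈ v.toValuationSubring.nonunits
  have : f - cst M 0 = f := by simp
  rw [this]
  exact ValuationSubring.mem_nonunits_iff_exists_mem_maximalIdeal.mpr ⟨hm, h1⟩

/-- a function with a value at `v` is regular at `v`. -/
theorem h50b_mem_of_valueAt (v : Place Kbar (FF M)) {f : FF M} {a : Kbar}
    (h : ValueAt v f a) : f ∈ v.toValuationSubring := by
  have h2 : f - cst M a ∈ v.toValuationSubring :=
    (ValuationSubring.mem_nonunits_iff_exists_mem_maximalIdeal.mp h).choose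
  have h3 : cst M a ∈ v.toValuationSubring := v.algebraMap_mem' a
  have := v.toValuationSubring.add_mem _ _ h2 h3
  simpa using this

theorem h50b_ord_nonneg_of_valueAt (v : Place Kbar (FF M)) {f : FF M} {a : Kbar}
    (h : ValueAt v f a) : 0 ≤ v.ord f :=
  Fermat.Agent.S24.DiffPlace.ord_nonneg_of_mem v (h50b_mem_of_valueAt v h)

end Val

end Fermat.Agent.P5
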