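import Fermat.Agent.P5.H75CramerAbs

/-!
# Wave 5, pillar (P), GEO-LINK (helper75): the abstract "unit determinant" lemma

Mathlib only.  `A` a valuation subring of a field `K`, `N0` a square matrix with entries in `A`.

* `h75j_det_unit` : if every vector `c` with entries in `A` such that `N0 c ≡ 0` modulo the
  maximal ideal is itself `≡ 0`, then `det N0` is a unit of `A`.
* `h75j_det_unit'` : the same with the vector on the other side (`c N0 ≡ 0`).

Use for the jet matrix `N0` of a link (`N0 (inl i) j = b j (Q i)`, `N0 (inr i) j` = derivative):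
`∑ j, N0 r j * c j` are the jets of `f = ∑ c j b j`; if they are all in `𝔪_A` then `f~` vanishes
twice at every `Q i~`, hence (independence on the special fibre) `c ≡ 0`.
-/

set_option autoImplicit false

open Matrix

namespace Fermat.Agent.P5

section

variable {K : Type*} [Field K] (A : ValuationSubring K) {ι : Type*} [Fintype ι] [DecidableEq ι]

theorem h75j_det_unit (N0 : Matrix ι ι K) (hN0 : ∀ r j, N0 r j ∈ A)
    (h : ∀ c : ι → K, (∀ j, c j ∈ A) → (∀ r, ∑ j, N0 r j * c j ∈ A.nonunits) →
      ∀ j, c j ∈ A.nonunits) :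
    N0.det ≠ 0 ∧ (N0.det)⁻¹ ∈ A := by
  classical
  set N0A : Matrix ι ι A := fun r j => ⟨N0 r j, hN0 r j⟩ with hN0A
  have hmap0 : A.subtype.mapMatrix N0A = N0 := by
    ext r j
    rfl
  have hdet0 : ((N0A.det : A) : K) = N0.det := by
    have h1 := RingHom.map_det A.subtype N0A
    rw [hmap0] at h1
    exact h1
  set ρ : A →+* IsLocalRing.ResidueField A := IsLocalRing.residue A with hρ
  have hρ0 : ∀ x : A, ρ x = 0 ↔ (x : K) ∈ A.nonunits := by
    intro x
    rw [hρ, IsLocalRing.residue_eq_zero_iff, h75w_nu_iff_maximal]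
  have hdetρ : (ρ.mapMatrix N0A).det ≠ 0 := by
    intro hzero
    obtain ⟨v, hv0, hv⟩ := (Matrix.exists_mulVec_eq_zero_iff).mpr hzero
    -- lift `v`
    choose c hc using fun j => IsLocalRing.residue_surjective (R := A) (v j)
    have h1 : ∀ r, ∑ j, N0 r j * (c j : K) ∈ A.nonunits := by
      intro r
      have h2 : ρ (∑ j, N0A r j * c j) = 0 := by
        have h3 := congrFun hv r
        rw [Pi.zero_apply] at h3
        rw [← h3, map_sum]
        simp only [Matrix.mulVec, dotProduct, map_mul]
        refine Finset.sum_congr rfl fun j _ => ?_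
        rw [← hc j]
        rfl
      have h4 := (hρ0 _).mp h2
      have h5 : ((∑ j, N0A r j * c j : A) : K) = ∑ j, N0 r j * (c j : K) := by
        rw [AddSubmonoidClass.coe_finsetSum]
        rfl
      rw [h5] at h4
      exact h4
    have h6 := h (fun j => (c j : K)) (fun j => (c j).2) h1
    apply hv0
    funext j
    rw [Pi.zero_apply, ← hc j]
    exact (hρ0 _).mpr (h6 j)
  have hunit0 : IsUnit N0A.det := by
    rw [← RingHom.map_det] at hdetρ
    exact (IsLocalRing.residue_ne_zero_iff_isUnit _).mp hdetρ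
  obtain ⟨w, hw⟩ := hunit0.exists_right_inv
  have hw' : N0.det * (w : K) = 1 := by
    have h1 := congrArg (Subtype.val) hw
    rw [← hdet0]
    exact h1
  have hne : N0.det ≠ 0 := by
    intro h0
    rw [h0, zero_mul] at hw'
    exact zero_ne_one hw'
  refine ⟨hne, ?_⟩
  have h2 : (N0.det)⁻¹ = (w : K) := by
    rw [inv_eq_iff_eq_inv]
    exact eq_inv_of_mul_eq_one_left hw'
  rw [h2]
  exact w.2

theorem h75j_det_unit' (N0 : Matrix ι ι K) (hN0 : ∀ r j, N0 r j ∈ A)
    (h : ∀ c : ι → K, (∀ r, c r ∈ A) → (∀ j, ∑ r, c r * N0 r j ∈ A.nonunits) →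
      ∀ r, c r ∈ A.nonunits) :
    N0.det ≠ 0 ∧ (N0.det)⁻¹ ∈ A := by
  have h1 := h75j_det_unit A N0ᵀ (fun r j => hN0 j r) (fun c hc hsum => h c hc fun j => by
    have h2 := hsum j
    simp only [Matrix.transpose_apply] at h2
    have h3 : ∑ r, c r * N0 r j = ∑ r, N0 r j * c r :=
      Finset.sum_congr rfl fun r _ => mul_comm _ _
    rw [h3]
    exact h2)
  rw [Matrix.det_transpose] at h1
  exact h1

end

end Fermat.Agent.P5
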