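import Fermat.Agent.P5.H71Rep
import Fermat.Agent.P5.H37DiscIface
import Fermat.Agent.P5.H75Jet
import Fermat.Agent.P5.H75LawCramer

/-!
# Wave 5, pillar (P), GEO-LINK (helper75): jets and the order of the reduction

`M` a level prime to `ℓ`, `A` over `ℓ`, `r` the reduction map of places (`H13sIsRed`), `Q` the
centre of a disc calculus `H37DiscAt A Q t O` with `t` Gauss-integral.

* `h75j_red_cst_small` : the reduction of a constant of `𝔪_A` is `0`.
* `h75j_ord_ge` : a Gauss unit `f' = t ^ k * h` (`h ∈ O`) has `k ≤ ord_{r Q} f'~`.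
* `h75j_ord_two` : if `f` is Gauss-integral with non-zero reduction and 2-jet in `𝔪_A` at `Q`
  (`f = v + e t + t² h`, `v, e ∈ 𝔪_A`, `h ∈ O` Gauss-integral), then `2 ≤ ord_{r Q} f~`.
* `h75j_ord_one` : the same at first order (`f = v + t h`, `v ∈ 𝔪_A`): `1 ≤ ord_{r Q} f~`.
* `h75j_N0_unit` : the field `N0_unit` of `H96Link` from the independence of the reductions
  modulo double vanishing at the centres.
* `h75j_bsder` : the hypothesis `hbsder` of `h4r_der_unit` (unit derivative of `bs` at the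
  centres of the target chart) from `ord_{r Q'} bs~ ≤ 1`.
-/

set_option autoImplicit false

open AlgebraicCurve ModularCurve

noncomputable section

namespace Fermat.Agent.P5

open Fermat.Agent.S37 Fermat.Agent.Red.GV

variable {ℓ : ℕ} {M : ℕ} [NeZero M] {A : ValuationSubring Kbar}
  {r : Place Kbar (FF M) → Place (h13sK A) (h13sFt A M)}

/-- the reduction of a constant of the maximal ideal vanishes. -/
theorem h75j_red_cst_small (hℓ : ℓ.Prime) (hM : ¬ ℓ ∣ M) (hA : A.LiesOverPrime ℓ)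
    {v : Kbar} (hv : v ∈ A.nonunits) (hc : cst M v ∈ gaussV A M) :
    gaussR A M ⟨cst M v, hc⟩ = 0 := by
  rw [gaussR_eq_zero_iff A M hℓ hM hA]
  by_cases hv0 : v = 0
  · left
    subst hv0
    exact map_zero (algebraMap Kbar (FF M))
  · right
    intro hinv
    have h1 : (cst M v)⁻¹ = cst M v⁻¹ := (map_inv₀ (algebraMap Kbar (FF M)) v).symm
    change (cst M v)⁻¹ ∈ gaussV A M at hinv
    rw [h1, cst_mem_gaussV_iff A M hA] at hinv
    rcases (A.mem_nonunits_iff_or).mp hv with h2 | h2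
    · exact hv0 h2
    · exact h2 hinv

omit [NeZero M] in
/-- a function with a value at `P` is regular at `P`. -/
theorem h75j_ord_nonneg_of_valueAt {P : Place Kbar (FF M)} {f : FF M} {a : Kbar}
    (h : ValueAt P f a) : 0 ≤ P.ord f := by
  refine (Fermat.Agent.S24.DiffPlace.ord_nonneg_iff_mem P).mpr ?_
  have h1 : f = (f - cst M a) + cst M a := by ring
  rw [h1]
  exact add_mem (h75w_nu_mem _ h) (P.algebraMap_mem' a)

/-- a Gauss unit of the form `t ^ k * h`, `h ∈ O`: its reduction vanishes to order `≥ k` at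
the reduction of the centre. -/
theorem h75j_ord_ge (hr : H13sIsRed A M r) (hB : H13rBase Kbar (FF M))
    {Q : Place Kbar (FF M)} {t : FF M} {O : Subring (FF M)} (hd : H37DiscAt A Q t O)
    (k : ℕ) (h : FF M) (hh : h ∈ O) (f' : FF M) (hf' : f' ∈ gaussV A M)
    (hf'inv : f'⁻¹ ∈ gaussV A M) (hne : f' ≠ 0) (hfe : f' = t ^ k * h) :
    (k : ℤ) ≤ (r Q).ord (h13sRed A M ⟨f', hf'⟩) := by
  obtain ⟨D, hD, -⟩ := hB.pd f' hne
  have hred := hr.2.2 f' hf' hf'inv D hD (r Q)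
  rw [← hred]
  have ht0 : t ^ k ≠ 0 := by
    intro h0
    apply hne
    rw [hfe, h0, zero_mul]
  have hh0 : h ≠ 0 := by
    intro h0
    apply hne
    rw [hfe, h0, mul_zero]
  have hordf : ∀ a : Place Kbar (FF M), a.ord f' = (k : ℤ) * a.ord t + a.ord h := by
    intro a
    rw [hfe, a.ord_mul ht0 hh0, ← zpow_natCast, a.ord_zpow]
  have hfib : ∀ a, r a = r Q → 0 ≤ D a := by
    intro a ha
    have hs : SameRed A a Q := (hr.2.1 a Q).mp ha
    rw [hD a, hordf a]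
    obtain ⟨x, -, hvx⟩ := hd.t_small a hs
    obtain ⟨y, -, hvy⟩ := hd.O_val h hh a hs
    exact add_nonneg (mul_nonneg (Int.natCast_nonneg k) (h75j_ord_nonneg_of_valueAt hvx))
      (h75j_ord_nonneg_of_valueAt hvy)
  have hQ : (k : ℤ) ≤ D Q := by
    rw [hD Q, hordf Q]
    obtain ⟨y, -, hvy⟩ := hd.O_val h hh Q hd.refl
    have h2 := h75j_ord_nonneg_of_valueAt hvy
    by_cases hk : k = 0
    · subst hk
      rw [Nat.cast_zero, zero_mul, zero_add]
      exact h2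
    · have htne : t ≠ 0 := by
        intro h0
        apply ht0
        rw [h0, zero_pow hk]
      have htnu : t ∈ Q.toValuationSubring.nonunits := by
        have h3 := hd.t_zero
        unfold ValueAt at h3
        have h4 : cst M (0 : Kbar) = 0 := map_zero _
        rw [h4, sub_zero] at h3
        exact h3
      have h1 : 0 < Q.ord t := h71r_ord_pos_of_mem_nonunits Q htne htnu
      nlinarith [Int.natCast_nonneg k]
  exact le_trans hQ (h71r_push_ge r D (r Q) hfib Q rfl)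

/-- the reductions of two Gauss-integral functions which differ by an element of `𝔪_A · V`
of the form `v + e t`. -/
theorem h75j_red_eq (hℓ : ℓ.Prime) (hM : ¬ ℓ ∣ M) (hA : A.LiesOverPrime ℓ)
    {t : FF M} (ht : t ∈ gaussV A M) (f f' : FF M) (hf : f ∈ gaussV A M)
    (hf' : f' ∈ gaussV A M) (v e : Kbar) (hv : v ∈ A.nonunits) (he : e ∈ A.nonunits)
    (hfe : f = cst M v + cst M e * t + f') :
    h13sRed A M ⟨f, hf⟩ = h13sRed A M ⟨f', hf'⟩ := by
  have hcv : cst M v ∈ gaussV A M := (cst_mem_gaussV_iff A M hA v).mpr (h75w_nu_mem A hv)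
  have hce : cst M e ∈ gaussV A M := (cst_mem_gaussV_iff A M hA e).mpr (h75w_nu_mem A he)
  have h1 : (⟨f, hf⟩ : gaussV A M) = ⟨cst M v, hcv⟩ + ⟨cst M e, hce⟩ * ⟨t, ht⟩ + ⟨f', hf'⟩ :=
    Subtype.ext hfe
  have h2 : gaussR A M ⟨f, hf⟩ = gaussR A M ⟨f', hf'⟩ := by
    rw [h1, map_add, map_add, map_mul, h75j_red_cst_small hℓ hM hA hv hcv,
      h75j_red_cst_small hℓ hM hA he hce, zero_mul, zero_add, zero_add]
  exact Subtype.ext h2

/-- **jets and reduction, second order.** -/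
theorem h75j_ord_two (hℓ : ℓ.Prime) (hM : ¬ ℓ ∣ M) (hA : A.LiesOverPrime ℓ)
    (hr : H13sIsRed A M r) (hB : H13rBase Kbar (FF M))
    {Q : Place Kbar (FF M)} {t : FF M} {O : Subring (FF M)} (hd : H37DiscAt A Q t O)
    (ht : t ∈ gaussV A M) (f : FF M) (hf : f ∈ gaussV A M) (h : FF M) (hh : h ∈ O)
    (hhV : h ∈ gaussV A M) (v e : Kbar) (hv : v ∈ A.nonunits) (he : e ∈ A.nonunits)
    (hfe : f = cst M v + cst M e * t + t * t * h)
    (hne : h13sRed A M ⟨f, hf⟩ ≠ 0) :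
    2 ≤ (r Q).ord (h13sRed A M ⟨f, hf⟩) := by
  have hf' : t ^ 2 * h ∈ gaussV A M :=
    (gaussV A M).mul_mem ((gaussV A M).pow_mem ht 2) hhV
  have hfe' : f = cst M v + cst M e * t + t ^ 2 * h := by
    rw [hfe]
    ring
  have hred := h75j_red_eq hℓ hM hA ht f (t ^ 2 * h) hf hf' v e hv he hfe'
  rw [hred] at hne ⊢
  have hR : gaussR A M ⟨t ^ 2 * h, hf'⟩ ≠ 0 := by
    intro h0
    apply hne
    exact Subtype.ext h0
  have h3 := (not_congr (gaussR_eq_zero_iff A M hℓ hM hA ⟨t ^ 2 * h, hf'⟩)).mp hR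
  push Not at h3
  exact_mod_cast h75j_ord_ge hr hB hd 2 h hh (t ^ 2 * h) hf' h3.2 h3.1 rfl

/-- **jets and reduction, first order.** -/
theorem h75j_ord_one (hℓ : ℓ.Prime) (hM : ¬ ℓ ∣ M) (hA : A.LiesOverPrime ℓ)
    (hr : H13sIsRed A M r) (hB : H13rBase Kbar (FF M))
    {Q : Place Kbar (FF M)} {t : FF M} {O : Subring (FF M)} (hd : H37DiscAt A Q t O)
    (ht : t ∈ gaussV A M) (f : FF M) (hf : f ∈ gaussV A M) (h : FF M) (hh : h ∈ O)
    (hhV : h ∈ gaussV A M) (v : Kbar) (hv : v ∈ A.nonunits)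
    (hfe : f = cst M v + t * h)
    (hne : h13sRed A M ⟨f, hf⟩ ≠ 0) :
    1 ≤ (r Q).ord (h13sRed A M ⟨f, hf⟩) := by
  have hf' : t ^ 1 * h ∈ gaussV A M :=
    (gaussV A M).mul_mem ((gaussV A M).pow_mem ht 1) hhV
  have hfe' : f = cst M v + cst M 0 * t + t ^ 1 * h := by
    have h0 : cst M (0 : Kbar) = 0 := map_zero _
    rw [hfe, h0]
    ring
  have hred := h75j_red_eq hℓ hM hA ht f (t ^ 1 * h) hf hf' v 0 hv (h75w_nu_zero A) hfe'
  rw [hred] at hne ⊢
  have hR : gaussR A M ⟨t ^ 1 * h, hf'⟩ ≠ 0 := by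
    intro h0
    apply hne
    exact Subtype.ext h0
  have h3 := (not_congr (gaussR_eq_zero_iff A M hℓ hM hA ⟨t ^ 1 * h, hf'⟩)).mp hR
  push Not at h3
  exact_mod_cast h75j_ord_ge hr hB hd 1 h hh (t ^ 1 * h) hf' h3.2 h3.1 rfl

omit [NeZero M] in
/-- a linear combination of second order expansions. -/
theorem h75j_lincomb {ι : Type*} [Fintype ι] (ε ε' : FF M) (f : ι → FF M) (V E : ι → Kbar)
    (H : ι → FF M) (co : ι → Kbar)
    (hf : ∀ j, f j = cst M (V j) + cst M (E j) * ε + ε * ε' * H j) :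
    ∑ j, cst M (co j) * f j =
      cst M (∑ j, V j * co j) + cst M (∑ j, E j * co j) * ε + ε * ε' * ∑ j, cst M (co j) * H j := by
  have e1 : cst M (∑ j, V j * co j) = ∑ j, cst M (V j * co j) :=
    map_sum (algebraMap Kbar (FF M)) _ _
  have e2 : cst M (∑ j, E j * co j) = ∑ j, cst M (E j * co j) :=
    map_sum (algebraMap Kbar (FF M)) _ _
  rw [e1, e2, Finset.sum_mul, Finset.mul_sum, ← Finset.sum_add_distrib,
    ← Finset.sum_add_distrib]
  refine Finset.sum_congr rfl fun j _ => ?_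
  have e3 : cst M (V j * co j) = cst M (V j) * cst M (co j) :=
    map_mul (algebraMap Kbar (FF M)) _ _
  have e4 : cst M (E j * co j) = cst M (E j) * cst M (co j) :=
    map_mul (algebraMap Kbar (FF M)) _ _
  rw [hf j, e3, e4]
  ring

/-- the 2-jet of a function of `O` with given value and derivative at the centre. -/
theorem h75j_jet {Q : Place Kbar (FF M)} {t : FF M} {O : Subring (FF M)}
    (hd : H37DiscAt A Q t O) (f : FF M) (hf : f ∈ O) (v0 e0 : Kbar)
    (hval : ValueAt Q f v0)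
    (hder : ∃ h ∈ O, f - cst M v0 = t * h ∧ ValueAt Q h e0) :
    v0 ∈ A ∧ e0 ∈ A ∧ ∃ h₂ ∈ O, f = cst M v0 + cst M e0 * t + t * t * h₂ := by
  obtain ⟨h₁, hh₁, hdiv₁, hval₁⟩ := hder
  obtain ⟨v, hv, hvalv⟩ := hd.O_val f hf Q hd.refl
  obtain ⟨e, he, hvale⟩ := hd.O_val h₁ hh₁ Q hd.refl
  obtain ⟨h₂, hh₂, hdiv₂⟩ := hd.O_div h₁ hh₁ Q hd.refl _ 0 hval₁ hd.t_zero
  refine ⟨?_, ?_, h₂, hh₂, ?_⟩
  · rw [h75w_valueAt_unique hval hvalv]
    exact hv
  · rw [h75w_valueAt_unique hval₁ hvale]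
    exact he
  · have h0 : cst M (0 : Kbar) = 0 := map_zero _
    rw [h0, sub_zero] at hdiv₂
    linear_combination hdiv₁ + t * hdiv₂

/-- **N0_unit**: the jet matrix of a family `b j` of functions of the rings `O i` has unit
determinant as soon as the reductions are "independent modulo double vanishing at the
centres": an `A`-combination whose reduction is `0` or vanishes twice at every `r (Q i)` has
all its coefficients in `𝔪_A`. -/
theorem h75j_N0_unit (hℓ : ℓ.Prime) (hM : ¬ ℓ ∣ M) (hA : A.LiesOverPrime ℓ)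
    (hr : H13sIsRed A M r) (hB : H13rBase Kbar (FF M))
    {g : ℕ} (c : H96Chart M g) (hd : ∀ i, H37DiscAt A (c.Q i) (c.t i) (c.O i))
    (ht : ∀ i, c.t i ∈ gaussV A M) (hOV : ∀ i, ∀ f ∈ c.O i, f ∈ gaussV A M)
    (b : Fin g ⊕ Fin g → FF M) (hb : ∀ j i, b j ∈ c.O i)
    (N0 : Matrix (Fin g ⊕ Fin g) (Fin g ⊕ Fin g) Kbar)
    (hval : ∀ i j, ValueAt (c.Q i) (b j) (N0 (Sum.inl i) j))
    (hder : ∀ i j, ∃ h ∈ c.O i, b j - cst M (N0 (Sum.inl i) j) = c.t i * h ∧
      ValueAt (c.Q i) h (N0 (Sum.inr i) j))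
    (hind : ∀ co : Fin g ⊕ Fin g → Kbar, (∀ j, co j ∈ A) →
      ∀ hf : (∑ j, cst M (co j) * b j) ∈ gaussV A M,
        (h13sRed A M ⟨_, hf⟩ = 0 ∨ ∀ i, 2 ≤ (r (c.Q i)).ord (h13sRed A M ⟨_, hf⟩)) →
        ∀ j, co j ∈ A.nonunits) :
    N0.det ≠ 0 ∧ (N0.det)⁻¹ ∈ A := by
  classical
  have hjet := fun i j => h75j_jet (hd i) (b j) (hb j i) _ _ (hval i j) (hder i j)
  have hN0 : ∀ r' j, N0 r' j ∈ A := by
    rintro (i | i) j
    · exact (hjet i j).1
    · exact (hjet i j).2.1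
  choose kb hkb hbeq using fun i j => (hjet i j).2.2
  refine h75j_det_unit A N0 hN0 fun co hco hsum => ?_
  have hf : (∑ j, cst M (co j) * b j) ∈ gaussV A M := by
    refine Subring.sum_mem _ fun j _ => ?_
    have i : Fin g := Sum.elim id id j
    exact (gaussV A M).mul_mem ((cst_mem_gaussV_iff A M hA _).mpr (hco j)) (hOV i _ (hb j i))
  refine hind co hco hf ?_
  by_cases hzero : h13sRed A M ⟨_, hf⟩ = 0
  · exact Or.inl hzero
  · right
    intro i
    have hexp := h75j_lincomb (c.t i) (c.t i) b (fun j => N0 (Sum.inl i) j)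
      (fun j => N0 (Sum.inr i) j) (kb i) co (fun j => hbeq i j)
    have hH : (∑ j, cst M (co j) * kb i j) ∈ c.O i :=
      Subring.sum_mem _ fun j _ => (c.O i).mul_mem ((hd i).O_cst _ (hco j)) (hkb i j)
    exact h75j_ord_two hℓ hM hA hr hB (hd i) (ht i) _ hf _ hH (hOV i _ hH) _ _
      (hsum (Sum.inl i)) (hsum (Sum.inr i)) hexp hzero

/-- **unit derivative**: a function of `O` vanishing at the centre whose reduction has order
`≤ 1` at the reduction of the centre is `t * h` with `h (Q)` a unit of `A`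
(the hypothesis `hbsder` of `h4r_der_unit`). -/
theorem h75j_bsder (hℓ : ℓ.Prime) (hM : ¬ ℓ ∣ M) (hA : A.LiesOverPrime ℓ)
    (hr : H13sIsRed A M r) (hB : H13rBase Kbar (FF M))
    {Q : Place Kbar (FF M)} {t : FF M} {O : Subring (FF M)} (hd : H37DiscAt A Q t O)
    (ht : t ∈ gaussV A M) (hOV : ∀ f ∈ O, f ∈ gaussV A M)
    (bs : FF M) (hbs : bs ∈ O) (hbsV : bs ∈ gaussV A M) (hval0 : ValueAt Q bs 0)
    (hne : h13sRed A M ⟨bs, hbsV⟩ ≠ 0)
    (hord : (r Q).ord (h13sRed A M ⟨bs, hbsV⟩) ≤ 1) :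
    ∃ h ∈ O, ∃ d : Kbar, bs = t * h ∧ ValueAt Q h d ∧ d ≠ 0 ∧ d⁻¹ ∈ A := by
  have h0 : cst M (0 : Kbar) = 0 := map_zero _
  obtain ⟨h, hh, hdiv⟩ := hd.O_div bs hbs Q hd.refl 0 0 hval0 hd.t_zero
  rw [h0, sub_zero, sub_zero] at hdiv
  obtain ⟨d, hdA, hvald⟩ := hd.O_val h hh Q hd.refl
  refine ⟨h, hh, d, hdiv, hvald, ?_⟩
  have hnu : d ∉ A.nonunits := by
    intro hdnu
    obtain ⟨h₂, hh₂, hdiv₂⟩ := hd.O_div h hh Q hd.refl d 0 hvald hd.t_zero
    rw [h0, sub_zero] at hdiv₂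
    have hexp : bs = cst M 0 + cst M d * t + t * t * h₂ := by
      rw [h0]
      linear_combination hdiv + t * hdiv₂
    have h2 := h75j_ord_two hℓ hM hA hr hB hd ht bs hbsV h₂ hh₂ (hOV _ hh₂) 0 d
      (h75w_nu_zero A) hdnu hexp hne
    omega
  rw [A.mem_nonunits_iff_or] at hnu
  push Not at hnu
  exact hnu

end Fermat.Agent.P5
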