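import Fermat.Agent.P5.H81LinkMem
import Fermat.Agent.P5.H37DiscChar
import Fermat.Agent.P5.H4RepLink

/-!
# Wave 5, pillar (P), block GEO-LINK (helper81): the parameter of a disc and the derivative of `bs`

`M` a good level, `A` over `ℓ`, `(Q, t, O)` a disc calculus (`H37DiscAt`) with the bridge
(`H37DiscChar`).

* `h81n_ord_pos_iff`, `h81n_ord_eq_zero_of_valueAt` : dictionary `ord` / `ValueAt`.
* `h81n_t_ne_zero`, `h81n_t_ord_centre` (`ord_Q t = 1`), `h81n_t_ord_disc` (`ord_P t = 0` at the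
  other places of the disc), `h81n_t_gauss_inv` (`t⁻¹` is Gauss-integral: `t` is a Gauss unit).
* `h81n_jet` : the jet (value, derivative) of a function of `O` at the centre
  (shape of the fields `N0_val`, `N0_der` of `H96Link`).
* `h81n_hbsder` : a Gauss unit `bs` whose divisor on the disc of `Q` is exactly `Q` is `t * h`
  with `h ∈ O` and `h(Q)` a unit of `A` (the last field of `H4sLinkRaw`, `P5/H4Seed.lean`).
-/

set_option autoImplicit false
set_option linter.unusedSectionVars false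
set_option linter.unusedVariables false

open AlgebraicCurve ModularCurve WithZero IsLocalRing

noncomputable section

namespace Fermat.Agent.P5

open Fermat.Agent.S37 Fermat.Agent.Red.GV Fermat.Agent.Red.Match Fermat.Agent.Red
  Fermat.Agent.Red.Nz

variable {M : ℕ} [NeZero M] {A : ValuationSubring Kbar} {ℓ : ℕ}

/-! ### `ord` and `ValueAt` -/

theorem h81n_ord_pos_iff (P : Place Kbar (FF M)) {f : FF M} (hf : f ≠ 0) :
    0 < P.ord f ↔ f ∈ P.toValuationSubring.nonunits := by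
  rw [← h89_adic_lt_one_iff, P.adicValuation_eq_exp_neg_ord hf, ← WithZero.exp_zero,
    WithZero.exp_lt_exp]
  omega

theorem h81n_valueAt_zero_iff (P : Place Kbar (FF M)) (f : FF M) :
    ValueAt P f 0 ↔ f ∈ P.toValuationSubring.nonunits := by
  unfold ValueAt
  simp only [cst, map_zero, sub_zero]

theorem h81n_ord_pos_of_valueAt_zero {P : Place Kbar (FF M)} {f : FF M} (hf : f ≠ 0)
    (h : ValueAt P f 0) : 0 < P.ord f :=
  (h81n_ord_pos_iff P hf).mpr ((h81n_valueAt_zero_iff P f).mp h)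

theorem h81n_valueAt_zero_of_ord_pos {P : Place Kbar (FF M)} {f : FF M} (hf : f ≠ 0)
    (h : 0 < P.ord f) : ValueAt P f 0 :=
  (h81n_valueAt_zero_iff P f).mpr ((h81n_ord_pos_iff P hf).mp h)

theorem h81n_ord_nonneg_of_valueAt {P : Place Kbar (FF M)} {f : FF M} {a : Kbar}
    (h : ValueAt P f a) : 0 ≤ P.ord f :=
  Fermat.Agent.S24.DiffPlace.ord_nonneg_of_mem P (valueAt_mem h)

theorem h81n_ord_eq_zero_of_valueAt {P : Place Kbar (FF M)} {f : FF M} {a : Kbar}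
    (h : ValueAt P f a) (ha : a ≠ 0) : P.ord f = 0 := by
  have hf0 : f ≠ 0 := by
    rintro rfl
    exact ha (valueAt_unique h (valueAt_zero P))
  have h1 : 0 ≤ P.ord f := h81n_ord_nonneg_of_valueAt h
  have h2 : ¬ 0 < P.ord f := fun hpos =>
    valueAt_ne_zero_not_mem_nonunits h ha ((h81n_ord_pos_iff P hf0).mp hpos)
  omega

/-! ### The parameter of a disc -/

/-- a function of the finite chart with a simple zero at the finite place `Q`. -/
theorem h81n_exists_unif (hℓ : ℓ.Prime) (hM : ¬ ℓ ∣ M) (haux : auxLevel ℓ ∣ M)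
    (hA : A.LiesOverPrime ℓ) {Q : Place Kbar (FF M)} (hQ : IsFinAt A Q) :
    ∃ b : FF M, b ∈ modelFin M A ∧ b ≠ 0 ∧ Q.ord b = 1 := by
  obtain ⟨⟨hC, -⟩, -, -, -, -⟩ := GG.gatePieces ℓ hℓ M hM haux A hA
  obtain ⟨a, -, hja⟩ := hQ
  have hj : jB M ∈ Q.toValuationSubring := valueAt_mem hja
  obtain ⟨b, hb⟩ := hC.hunif ⟨Q, hj⟩
  have hb0 : (b : FF M) ≠ 0 := by
    intro h0
    have h1 : GG.chartVal M (jB M) ⟨Q, hj⟩ (b : FF M) = 0 := by rw [h0, map_zero]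
    rw [h1] at hb
    exact WithZero.zero_ne_coe hb
  refine ⟨(b : FF M), b.2, hb0, ?_⟩
  have h2 : GG.chartVal M (jB M) ⟨Q, hj⟩ (b : FF M) = exp (-(Q.ord (b : FF M))) :=
    Q.adicValuation_eq_exp_neg_ord hb0
  rw [h2] at hb
  have h3 := WithZero.exp_injective hb
  omega

theorem h81n_t_ne_zero (hℓ : ℓ.Prime) (hM : ¬ ℓ ∣ M) (haux : auxLevel ℓ ∣ M)
    (hA : A.LiesOverPrime ℓ) {Q : Place Kbar (FF M)} {t : FF M} {O : Subring (FF M)}
    (hd : H37DiscAt A Q t O) : t ≠ 0 := by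
  obtain ⟨b, hb, hb0, hbo⟩ := h81n_exists_unif hℓ hM haux hA hd.Q_fin
  have hbQ : ValueAt Q b 0 := h81n_valueAt_zero_of_ord_pos hb0 (by omega)
  obtain ⟨h, -, e⟩ := h81m_div hd (hd.O_model b hb) hbQ
  rintro rfl
  rw [zero_mul] at e
  exact hb0 e

/-- **the parameter is a uniformiser at the centre.** -/
theorem h81n_t_ord_centre (hℓ : ℓ.Prime) (hM : ¬ ℓ ∣ M) (haux : auxLevel ℓ ∣ M)
    (hA : A.LiesOverPrime ℓ) {Q : Place Kbar (FF M)} {t : FF M} {O : Subring (FF M)}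
    (hd : H37DiscAt A Q t O) : Q.ord t = 1 := by
  have ht0 := h81n_t_ne_zero hℓ hM haux hA hd
  obtain ⟨b, hb, hb0, hbo⟩ := h81n_exists_unif hℓ hM haux hA hd.Q_fin
  have hbQ : ValueAt Q b 0 := h81n_valueAt_zero_of_ord_pos hb0 (by omega)
  obtain ⟨h, hh, e⟩ := h81m_div hd (hd.O_model b hb) hbQ
  have hh0 : h ≠ 0 := by
    rintro rfl
    rw [mul_zero] at e
    exact hb0 e
  obtain ⟨a, -, hha⟩ := hd.O_val h hh Q hd.refl
  have h1 : 0 ≤ Q.ord h := h81n_ord_nonneg_of_valueAt hha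
  have h2 : 0 < Q.ord t := h81n_ord_pos_of_valueAt_zero ht0 hd.t_zero
  have h3 : Q.ord b = Q.ord t + Q.ord h := by rw [e, Q.ord_mul ht0 hh0]
  omega

/-- **the parameter does not vanish at the other places of the disc.** -/
theorem h81n_t_ord_disc {Q : Place Kbar (FF M)} {t : FF M} {O : Subring (FF M)}
    (hd : H37DiscAt A Q t O) {P : Place Kbar (FF M)} (hP : SameRed A P Q) (hPQ : P ≠ Q) :
    P.ord t = 0 := by
  obtain ⟨a, -, hta⟩ := hd.t_small P hP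
  refine h81n_ord_eq_zero_of_valueAt hta ?_
  rintro rfl
  exact hPQ (hd.t_inj P Q 0 hP hd.refl hta hd.t_zero)

/-- **the parameter is a Gauss unit.** -/
theorem h81n_t_gauss_inv (hℓ : ℓ.Prime) (hM : ¬ ℓ ∣ M) (haux : auxLevel ℓ ∣ M)
    (hA : A.LiesOverPrime ℓ) {Q : Place Kbar (FF M)} {t : FF M} {O : Subring (FF M)}
    (hd : H37DiscAt A Q t O) (hc : H37DiscChar A Q O) : t⁻¹ ∈ gaussV A M := by
  have ht0 := h81n_t_ne_zero hℓ hM haux hA hd
  obtain ⟨c, hc0, hxV, hxiV⟩ := exists_cst_mul_unit A M hℓ hM hA t ht0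
  have hcc : cst M c ≠ 0 := by
    simpa only [cst, ne_eq, map_eq_zero] using hc0
  -- `t₁ = c t` is a Gauss unit, regular on the disc, vanishing at `Q`
  have ht₁O : cst M c * t ∈ O := by
    refine hc.O_char _ hxV (fun P hP => ?_)
    obtain ⟨a, -, hta⟩ := hd.t_small P hP
    exact mul_mem (cst_mem P c) (valueAt_mem hta)
  have ht₁Q : ValueAt Q (cst M c * t) 0 := by
    have := valueAt_mul (valueAt_cst Q c) hd.t_zero
    rwa [mul_zero] at this
  obtain ⟨h, hh, e⟩ := h81m_div hd ht₁O ht₁Q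
  have hh' : h = cst M c := by
    have h1 : t * h = t * cst M c := by rw [← e, mul_comm]
    exact mul_left_cancel₀ ht0 h1
  rw [hh'] at hh
  have hcA : c ∈ A := (cst_mem_gaussV_iff A M hA c).mp (hc.O_gauss _ hh)
  have h2 : t⁻¹ = cst M c * (cst M c * t)⁻¹ := by
    rw [mul_inv]
    field_simp
  rw [h2]
  exact mul_mem ((cst_mem_gaussV_iff A M hA c).mpr hcA) hxiV

/-! ### Jets -/

/-- **the jet of a function of `O` at the centre** (fields `N0_val`, `N0_der` of `H96Link`). -/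
theorem h81n_jet {Q : Place Kbar (FF M)} {t : FF M} {O : Subring (FF M)}
    (hd : H37DiscAt A Q t O) {f : FF M} (hf : f ∈ O) :
    ∃ a ∈ A, ∃ d ∈ A, ValueAt Q f a ∧
      ∃ h ∈ O, f - cst M a = t * h ∧ ValueAt Q h d := by
  obtain ⟨a, haA, hfa⟩ := hd.O_val f hf Q hd.refl
  obtain ⟨h, hh, e⟩ := hd.O_div f hf Q hd.refl a 0 hfa hd.t_zero
  obtain ⟨d, hdA, hhd⟩ := hd.O_val h hh Q hd.refl
  refine ⟨a, haA, d, hdA, hfa, h, hh, ?_, hhd⟩
  simpa only [cst, map_zero, sub_zero] using e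

/-! ### The derivative of `bs` -/

/-- **`hbsder`**: a Gauss unit whose divisor on the residue disc of `Q` is exactly `Q` is
`t * h` with `h ∈ O` and `h(Q)` a unit of `A`. -/
theorem h81n_hbsder (hℓ : ℓ.Prime) (hM : ¬ ℓ ∣ M) (haux : auxLevel ℓ ∣ M)
    (hA : A.LiesOverPrime ℓ) {Q : Place Kbar (FF M)} {t : FF M} {O : Subring (FF M)}
    (hd : H37DiscAt A Q t O) (hc : H37DiscChar A Q O) {bs : FF M} (hbs0 : bs ≠ 0)
    (hbsV : bs ∈ gaussV A M) (hbsiV : bs⁻¹ ∈ gaussV A M)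
    (hordQ : Q.ord bs = 1) (hord : ∀ P, SameRed A P Q → P ≠ Q → P.ord bs = 0) :
    ∃ h ∈ O, ∃ d : Kbar, bs = t * h ∧ ValueAt Q h d ∧ d ≠ 0 ∧ d⁻¹ ∈ A := by
  have ht0 := h81n_t_ne_zero hℓ hM haux hA hd
  have htV : t ∈ gaussV A M := hc.O_gauss t hd.O_t
  have htiV := h81n_t_gauss_inv hℓ hM haux hA hd hc
  have hh0 : bs * t⁻¹ ≠ 0 := mul_ne_zero hbs0 (inv_ne_zero ht0)
  have hreg : ∀ P, SameRed A P Q → P.ord (bs * t⁻¹) = 0 := by
    intro P hP
    rw [P.ord_mul hbs0 (inv_ne_zero ht0), P.ord_inv]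
    by_cases hPQ : P = Q
    · rw [hPQ, hordQ, h81n_t_ord_centre hℓ hM haux hA hd]
      omega
    · rw [hord P hP hPQ, h81n_t_ord_disc hd hP hPQ]
      omega
  obtain ⟨h1, -, d, hd1, -, hd0, hdinv⟩ := h81m_unit hℓ hM haux hA hd hh0
    (mul_mem hbsV htiV) (by rw [mul_inv, inv_inv]; exact mul_mem hbsiV htV) hreg
  refine ⟨bs * t⁻¹, h1, d, ?_, hd1, hd0, hdinv⟩
  field_simp

/-! ### Wrappers in the shape of `H4sLinkRaw` (`P5/H4Seed.lean`) -/

variable {g : ℕ}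

/-- **`b_mem`, `bs_mem`** from the link data: Gauss-integral elements of `L(E₀)` lie in the rings
of the discs of both charts. -/
theorem h81n_mem_link (hℓ : ℓ.Prime) (hM : ¬ ℓ ∣ M) (haux : auxLevel ℓ ∣ M)
    (hA : A.LiesOverPrime ℓ) {c c' : H96Chart M g}
    (hd : ∀ i, H37DiscAt A (c.Q i) (c.t i) (c.O i))
    (hd' : ∀ i, H37DiscAt A (c'.Q i) (c'.t i) (c'.O i))
    {E0 : Divisor Kbar (FF M)} (hE : ∀ i v, SameRed A v (c.Q i) → E0 v = 0)
    (hE' : ∀ i v, SameRed A v (c'.Q i) → E0 v = 0)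
    {f : FF M} (hf : f ∈ gaussV A M) (hfE : f ∈ riemannRochSpace E0) :
    ∀ i, f ∈ c.O i ∧ f ∈ c'.O i := fun i =>
  ⟨h81m_mem_of_L hℓ hM haux hA (hd i) (hE i) hf hfE,
    h81m_mem_of_L hℓ hM haux hA (hd' i) (hE' i) hf hfE⟩

/-- **`N0_val`, `N0_der`**: the jet matrix of functions of the rings of the discs. -/
theorem h81n_exists_jets {c : H96Chart M g}
    (hd : ∀ i, H37DiscAt A (c.Q i) (c.t i) (c.O i))
    (b : Fin g ⊕ Fin g → FF M) (hb : ∀ j i, b j ∈ c.O i) :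
    ∃ N0 : Matrix (Fin g ⊕ Fin g) (Fin g ⊕ Fin g) Kbar,
      (∀ i j, N0 i j ∈ A) ∧
      (∀ i j, ValueAt (c.Q i) (b j) (N0 (Sum.inl i) j)) ∧
      (∀ i j, ∃ h ∈ c.O i, b j - cst M (N0 (Sum.inl i) j) = c.t i * h ∧
        ValueAt (c.Q i) h (N0 (Sum.inr i) j)) := by
  classical
  have key : ∀ (i : Fin g) (j : Fin g ⊕ Fin g), ∃ p : Kbar × Kbar, p.1 ∈ A ∧ p.2 ∈ A ∧
      ValueAt (c.Q i) (b j) p.1 ∧
      ∃ h ∈ c.O i, b j - cst M p.1 = c.t i * h ∧ ValueAt (c.Q i) h p.2 := by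
    intro i j
    obtain ⟨a, haA, d, hdA, hva, h, hh, e, hhd⟩ := h81n_jet (hd i) (hb j i)
    exact ⟨(a, d), haA, hdA, hva, h, hh, e, hhd⟩
  choose p hp1 hp2 hp3 hp4 using key
  refine ⟨fun r j => Sum.elim (fun i => (p i j).1) (fun i => (p i j).2) r, ?_, ?_, ?_⟩
  · rintro (i | i) j
    · exact hp1 i j
    · exact hp2 i j
  · intro i j
    exact hp3 i j
  · intro i j
    exact hp4 i j

/-- the order of `bs` on the discs of the target chart, from the link data. -/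
theorem h81n_ord_bs_target {c c' : H96Chart M g} {b : Fin g ⊕ Fin g → FF M} {bs : FF M}
    (hL : H4rLinkData A c c' b bs)
    (hQ' : ∀ i j, SameRed A (c'.Q i) (c'.Q j) → i = j)
    (hQQ' : ∀ i j, ¬ SameRed A (c.Q i) (c'.Q j)) (i : Fin g) :
    (c'.Q i).ord bs = 1 ∧
      ∀ P, SameRed A P (c'.Q i) → P ≠ c'.Q i → P.ord bs = 0 := by
  classical
  obtain ⟨E0, -, -, hE', -, -, hord⟩ := hL.exE0
  have hsum : ∀ P, SameRed A P (c'.Q i) → h4r_sum c.Q P = 0 := by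
    intro P hP
    rw [h4r_sum_apply]
    refine Finset.sum_eq_zero (fun j _ => ?_)
    rw [if_neg]
    intro hj
    exact hQQ' j i (hj ▸ hP)
  have hsum' : ∀ P, SameRed A P (c'.Q i) →
      h4r_sum c'.Q P = if c'.Q i = P then 1 else 0 := by
    intro P hP
    rw [h4r_sum_apply]
    rw [Finset.sum_eq_single i]
    · intro j _ hji
      rw [if_neg]
      intro hj
      exact hji (hQ' j i (hj ▸ hP))
    · intro hi
      exact absurd (Finset.mem_univ i) hi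
  have hrefl : SameRed A (c'.Q i) (c'.Q i) := sameRed_refl A _
  constructor
  · rw [hord, hsum _ hrefl, hsum' _ hrefl, hE' i _ hrefl, if_pos rfl]
    norm_num
  · intro P hP hPQ
    rw [hord, hsum _ hP, hsum' _ hP, hE' i _ hP, if_neg (fun h => hPQ h.symm)]
    norm_num

/-- **`hbsder` in the shape of `H4sLinkRaw`.** -/
theorem h81n_hbsder_link (hℓ : ℓ.Prime) (hM : ¬ ℓ ∣ M) (haux : auxLevel ℓ ∣ M)
    (hA : A.LiesOverPrime ℓ) {c c' : H96Chart M g}
    (hd' : ∀ i, H37DiscAt A (c'.Q i) (c'.t i) (c'.O i))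
    (hc' : ∀ i, H37DiscChar A (c'.Q i) (c'.O i))
    {b : Fin g ⊕ Fin g → FF M} {bs : FF M} (hL : H4rLinkData A c c' b bs)
    (hQ' : ∀ i j, SameRed A (c'.Q i) (c'.Q j) → i = j)
    (hQQ' : ∀ i j, ¬ SameRed A (c.Q i) (c'.Q j))
    (hbsV : bs ∈ gaussV A M) (hbsiV : bs⁻¹ ∈ gaussV A M) :
    ∀ i, ∃ h ∈ c'.O i, ∃ d : Kbar, bs = c'.t i * h ∧
      ValueAt (c'.Q i) h d ∧ d ≠ 0 ∧ d⁻¹ ∈ A := by
  intro i
  obtain ⟨h1, h2⟩ := h81n_ord_bs_target hL hQ' hQQ' i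
  exact h81n_hbsder hℓ hM haux hA (hd' i) (hc' i) hL.bs_ne hbsV hbsiV h1 h2

end Fermat.Agent.P5
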