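import Fermat.Agent.P5.H50LinkDims
import Fermat.Agent.P5.H50LinkBridge
import Fermat.Agent.P5.H81LinkDer
import Fermat.Agent.P5.H75JetRed
import Fermat.Agent.P5.H89DiscGauss
import Fermat.Agent.P5.H26GenusFinal
import Fermat.Agent.P5.H4LinkLeaf
import Fermat.Agent.P5.H13GBase
import Fermat.Agent.P5.H78RRLeaves

/-!
# P5 (wave 5, S19), row GEO-LINK, integration twin (helper50): the link

`h50c_linkRawLeaf : H4sLinkRawLeaf` and `h50c_link : H56gLink` (exact frozen Props of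
`P5/H4LinkLeaf.lean`, `P5/H56GeoAsm.lean`), from the landed pieces.

`Δ = 2 D₀ + D₁`, `φ ∈ L(Δ)` the Gauss unit of `h50l_exists_E0`, `E₀ = div φ + Δ`;
`(1, y j)` linearly independent in `L~(r_* Δ)` (`2g + 1`-dimensional), `f j ∈ L(Δ)` Gauss-integral
lifts of the `y j`; `bs = φ⁻¹`, `b j = φ⁻¹ f j`.

* `h50c_exists_max` : scaling of a finite family of constants.
* `h50c_red_sum` : the reduction of an `A`-combination.
* `h50c_indep_of_red` : independent reductions ⟹ independent over `ℚ̄`.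
* `h50c_const_of_dim_one` : `ℓ(D) = 1`, `D ≥ 0` ⟹ `L(D)` = constants.
* `h50c_exists_basis` : a family `y j` independent modulo constants in `L(D)`, `ℓ(D) = 2g + 1`.
* `h50c_hind` : the hypothesis `hind` of `h75j_N0_unit`.
-/

set_option autoImplicit false
set_option linter.unusedSectionVars false
set_option linter.unusedVariables false

open AlgebraicCurve ModularCurve

noncomputable section

namespace Fermat.Agent.P5

open Fermat.Agent.S37 Fermat.Agent.Red.GV

/-! ### A. Scaling -/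

/-- a finite family of constants, not all zero, has a member of maximal valuation. -/
theorem h50c_exists_max (A : ValuationSubring Kbar) {ι : Type*} [Fintype ι] (c : ι → Kbar)
    (hc : ∃ i, c i ≠ 0) : ∃ i₀, c i₀ ≠ 0 ∧ ∀ i, c i * (c i₀)⁻¹ ∈ A := by
  classical
  obtain ⟨i₁, hi₁⟩ := hc
  obtain ⟨i₀, -, hmax⟩ := Finset.exists_max_image Finset.univ (fun i => A.valuation (c i))
    ⟨i₁, Finset.mem_univ _⟩
  have h0 : c i₀ ≠ 0 := by
    intro h
    have h1 := hmax i₁ (Finset.mem_univ _)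
    rw [h, map_zero] at h1
    exact hi₁ ((map_eq_zero _).1 (le_antisymm h1 zero_le))
  refine ⟨i₀, h0, fun i => ?_⟩
  rw [← A.valuation_le_one_iff, map_mul, map_inv₀]
  have hv0 : A.valuation (c i₀) ≠ 0 := (map_ne_zero _).2 h0
  rw [mul_inv_le_iff₀ (zero_lt_iff.2 hv0), one_mul]
  exact hmax i (Finset.mem_univ _)

section Red

variable {M : ℕ} [NeZero M] {A : ValuationSubring Kbar} {ℓ : ℕ}

/-- the reduction of an `A`-linear combination of Gauss-integral functions. -/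
theorem h50c_red_sum (hA : A.LiesOverPrime ℓ) {ι : Type*} [Fintype ι] (c : ι → Kbar)
    (hc : ∀ i, c i ∈ A) (f : ι → FF M) (hf : ∀ i, f i ∈ gaussV A M)
    (hs : (∑ i, cst M (c i) * f i) ∈ gaussV A M) :
    h13sRed A M ⟨_, hs⟩ = ∑ i, h13sPi A ⟨c i, hc i⟩ • h13sRed A M ⟨f i, hf i⟩ := by
  classical
  have hcV : ∀ i, cst M (c i) ∈ gaussV A M := fun i => h50l_cst_mem hA (hc i)
  have hfe : (⟨_, hs⟩ : gaussV A M) =
      ∑ i, (⟨cst M (c i), hcV i⟩ : gaussV A M) * ⟨f i, hf i⟩ := by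
    apply Subtype.ext
    rw [AddSubmonoidClass.coe_finsetSum]
    rfl
  rw [← h50lRed_apply, hfe, map_sum]
  refine Finset.sum_congr rfl fun i _ => ?_
  rw [map_mul, h50lRed_apply, h50lRed_apply, h50l_red_cst hA _ (hc i), Algebra.smul_def]

/-- **independent reductions ⟹ independent over `ℚ̄`.** -/
theorem h50c_indep_of_red (hA : A.LiesOverPrime ℓ) {ι : Type*} [Fintype ι] (f : ι → FF M)
    (hf : ∀ i, f i ∈ gaussV A M)
    (hind : ∀ γ : ι → h13sK A, ∑ i, γ i • h13sRed A M ⟨f i, hf i⟩ = 0 → ∀ i, γ i = 0)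
    (c : ι → Kbar) (hc : ∑ i, cst M (c i) * f i = 0) : ∀ i, c i = 0 := by
  classical
  by_contra hne
  rw [not_forall] at hne
  obtain ⟨i₀, h0, hmem⟩ := h50c_exists_max A c hne
  have hs : ∑ i, cst M (c i * (c i₀)⁻¹) * f i = 0 := by
    have h1 : ∑ i, cst M (c i * (c i₀)⁻¹) * f i =
        cst M (c i₀)⁻¹ * ∑ i, cst M (c i) * f i := by
      rw [Finset.mul_sum]
      refine Finset.sum_congr rfl fun i _ => ?_
      rw [show cst M (c i * (c i₀)⁻¹) = cst M (c i) * cst M (c i₀)⁻¹ from map_mul _ _ _]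
      ring
    rw [h1, hc, mul_zero]
  have hsV : (∑ i, cst M (c i * (c i₀)⁻¹) * f i) ∈ gaussV A M := by
    rw [hs]
    exact zero_mem _
  have hred := h50c_red_sum hA (fun i => c i * (c i₀)⁻¹) hmem f hf hsV
  have hz : h13sRed A M ⟨_, hsV⟩ = 0 := by
    have h2 : (⟨_, hsV⟩ : gaussV A M) = 0 := Subtype.ext hs
    rw [h2, ← h50lRed_apply, map_zero]
  rw [hz] at hred
  have h3 := hind _ hred.symm i₀
  have h4 : (⟨c i₀ * (c i₀)⁻¹, hmem i₀⟩ : A) = 1 := Subtype.ext (mul_inv_cancel₀ h0)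
  rw [h4, map_one] at h3
  exact one_ne_zero h3

/-- **independent reductions modulo constants ⟹ independent from `1` over `ℚ̄`.** -/
theorem h50c_indep_one (hA : A.LiesOverPrime ℓ) {ι : Type*} [Fintype ι] (f : ι → FF M)
    (hf : ∀ i, f i ∈ gaussV A M)
    (hind : ∀ (γ₀ : h13sK A) (γ : ι → h13sK A),
      algebraMap (h13sK A) (h13sFt A M) γ₀ + ∑ i, γ i • h13sRed A M ⟨f i, hf i⟩ = 0 →
        ∀ i, γ i = 0)
    (e : Kbar) (c : ι → Kbar) (hc : cst M e + ∑ i, cst M (c i) * f i = 0) :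
    e = 0 ∧ ∀ i, c i = 0 := by
  classical
  have hFV : ∀ o : Option ι, (Option.elim o (1 : FF M) f) ∈ gaussV A M := by
    rintro (_ | i)
    · exact one_mem _
    · exact hf i
  have hind' : ∀ γ : Option ι → h13sK A,
      ∑ o, γ o • h13sRed A M ⟨Option.elim o (1 : FF M) f, hFV o⟩ = 0 → ∀ o, γ o = 0 := by
    intro γ hγ
    rw [Fintype.sum_option] at hγ
    have h1 : h13sRed A M ⟨Option.elim none (1 : FF M) f, hFV none⟩ = 1 :=
      map_one (h50lRed A M)
    have h2 : ∀ i, h13sRed A M ⟨Option.elim (some i) (1 : FF M) f, hFV (some i)⟩ =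
        h13sRed A M ⟨f i, hf i⟩ := fun i => rfl
    rw [h1] at hγ
    simp only [h2] at hγ
    have h3 := hind (γ none) (fun i => γ (some i)) (by
      rw [Algebra.algebraMap_eq_smul_one]
      exact hγ)
    rintro (_ | i)
    · rw [Finset.sum_eq_zero (fun i _ => by rw [h3 i, zero_smul]), add_zero] at hγ
      exact (smul_eq_zero.1 hγ).resolve_right one_ne_zero
    · exact h3 i
  have h := h50c_indep_of_red hA (fun o => Option.elim o (1 : FF M) f) hFV hind'
    (fun o => Option.elim o e c) (by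
      rw [Fintype.sum_option]
      simpa using hc)
  exact ⟨h none, fun i => h (some i)⟩

end Red

/-! ### B. Constants and bases -/

section General

variable {K F : Type*} [Field K] [Field F] [Algebra K F]

theorem h50c_one_mem {D : Divisor K F} (hD : 0 ≤ D) : (1 : F) ∈ riemannRochSpace D := by
  rw [mem_riemannRochSpace_iff]
  intro v
  right
  rw [Place.ord_one]
  have := hD v
  simp only [Finsupp.coe_zero, Pi.zero_apply] at this
  omega

/-- `ℓ(D) = 1` and `D ≥ 0`: the elements of `L(D)` are constants. -/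
theorem h50c_const_of_dim_one (D : Divisor K F) (hD : 0 ≤ D) (h1 : h13rL K F D = 1) (y : F)
    (hy : y ∈ riemannRochSpace D) : ∃ γ : K, y = algebraMap K F γ := by
  have hne : (⟨1, h50c_one_mem hD⟩ : ↥(riemannRochSpace D)) ≠ 0 := fun h =>
    one_ne_zero (congrArg Subtype.val h)
  obtain ⟨γ, hγ⟩ := (finrank_eq_one_iff_of_nonzero' _ hne).1 h1 ⟨y, hy⟩
  refine ⟨γ, ?_⟩
  have h2 : γ • (1 : F) = y := by
    have h3 := congrArg Subtype.val hγ
    rwa [Submodule.coe_smul] at h3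
  rw [← h2, Algebra.smul_def, mul_one]

/-- a family of `2g` elements of `L(D)`, independent modulo the constants, when
`ℓ(D) = 2g + 1`. -/
theorem h50c_exists_basis (hB : H13rBase K F) (D : Divisor K F) (hD : 0 ≤ D) (g : ℕ)
    (hdim : h13rL K F D = 2 * g + 1) :
    ∃ y : Fin g ⊕ Fin g → F, (∀ j, y j ∈ riemannRochSpace D) ∧
      ∀ (γ₀ : K) (γ : Fin g ⊕ Fin g → K),
        algebraMap K F γ₀ + ∑ j, γ j • y j = 0 → ∀ j, γ j = 0 := by
  classical
  have : Module.Finite K ↥(riemannRochSpace D) := h78q_finite hB D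
  set e₀ : ↥(riemannRochSpace D) := ⟨1, h50c_one_mem hD⟩ with he₀
  have hne : e₀ ≠ 0 := fun h => one_ne_zero (congrArg Subtype.val h)
  set N : Submodule K ↥(riemannRochSpace D) := K ∙ e₀ with hN
  have hNr : Module.finrank K ↥N = 1 := finrank_span_singleton hne
  have hq : Module.finrank K (↥(riemannRochSpace D) ⧸ N) = g + g := by
    have h1 := Submodule.finrank_quotient_add_finrank N
    unfold h13rL at hdim
    omega
  let β := Module.finBasisOfFinrankEq K (↥(riemannRochSpace D) ⧸ N) hq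
  have hli : LinearIndependent K (fun j : Fin g ⊕ Fin g => β (finSumFinEquiv j)) :=
    β.linearIndependent.comp _ finSumFinEquiv.injective
  choose x hx using fun j : Fin g ⊕ Fin g => N.mkQ_surjective (β (finSumFinEquiv j))
  refine ⟨fun j => (x j : F), fun j => (x j).2, fun γ₀ γ h => ?_⟩
  have h1 : γ₀ • e₀ + ∑ j, γ j • x j = 0 := by
    apply Subtype.ext
    rw [Submodule.coe_add, Submodule.coe_smul, Submodule.coe_sum, Submodule.coe_zero, ← h]
    congr 1
    rw [he₀, Algebra.smul_def, mul_one]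
  have h2 := congrArg N.mkQ h1
  rw [map_add, map_smul, map_sum, map_zero] at h2
  have h3 : N.mkQ e₀ = 0 := by
    rw [Submodule.mkQ_apply, Submodule.Quotient.mk_eq_zero]
    exact Submodule.mem_span_singleton_self e₀
  rw [h3, smul_zero, zero_add] at h2
  have h4 : ∑ j, γ j • β (finSumFinEquiv j) = 0 := by
    rw [← h2]
    refine Finset.sum_congr rfl fun j _ => ?_
    rw [map_smul, hx j]
  exact Fintype.linearIndependent_iff.1 hli γ h4

end General

/-! ### C. The hypothesis `hind` of `h75j_N0_unit` -/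

section Hind

theorem h50c_sum_apply_inj {K F : Type*} [Field K] [Field F] [Algebra K F] {g : ℕ}
    (Q : Fin g → Place K F) (hQ : Function.Injective Q) (i : Fin g) :
    h50lSum Q (Q i) = 1 := by
  classical
  unfold h50lSum
  rw [Finsupp.finsetSum_apply, Finset.sum_eq_single i]
  · rw [Finsupp.single_eq_same]
  · intro j _ hji
    rw [Finsupp.single_apply, if_neg (fun h => hji (hQ h))]
  · intro h
    exact absurd (Finset.mem_univ i) h

variable {M : ℕ} [NeZero M] {A : ValuationSubring Kbar} {ℓ : ℕ}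

/-- **independence modulo double vanishing**: `φ` a Gauss unit whose reduction lies in
`L~(2 D₀~ + D₁~)`, `f j` Gauss-integral with reductions in `L~(2 D₀~ + D₁~)` independent modulo
the constants, `ℓ~(D₁~) = 1`: an `A`-combination of the `φ⁻¹ f j` whose reduction is `0` or
vanishes twice at every point of `D₀~` has all its coefficients in `𝔪_A`. -/
theorem h50c_hind (hℓ : ℓ.Prime) (hM : ¬ ℓ ∣ M) (hA : A.LiesOverPrime ℓ) {g : ℕ}
    (Qs Qs' : Fin g → Place (h13sK A) (h13sFt A M))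
    (hQinj : Function.Injective Qs) (hne : ∀ i j, Qs i ≠ Qs' j)
    (hQ'1 : h13rL (h13sK A) (h13sFt A M) (h50lSum Qs') = 1)
    (φ : FF M) (hφ0 : φ ≠ 0) (hφV : φ ∈ gaussV A M) (hφi : φ⁻¹ ∈ gaussV A M)
    (hφL : h13sRed A M ⟨φ, hφV⟩ ∈ riemannRochSpace (h50lDelta Qs Qs'))
    (f : Fin g ⊕ Fin g → FF M) (hfV : ∀ j, f j ∈ gaussV A M)
    (hfL : ∀ j, h13sRed A M ⟨f j, hfV j⟩ ∈ riemannRochSpace (h50lDelta Qs Qs'))
    (hfind : ∀ (γ₀ : h13sK A) (γ : Fin g ⊕ Fin g → h13sK A),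
      algebraMap (h13sK A) (h13sFt A M) γ₀ + ∑ j, γ j • h13sRed A M ⟨f j, hfV j⟩ = 0 →
        ∀ j, γ j = 0)
    (co : Fin g ⊕ Fin g → Kbar) (hco : ∀ j, co j ∈ A)
    (hF : (∑ j, cst M (co j) * (φ⁻¹ * f j)) ∈ gaussV A M)
    (h : h13sRed A M ⟨_, hF⟩ = 0 ∨ ∀ i, 2 ≤ (Qs i).ord (h13sRed A M ⟨_, hF⟩)) :
    ∀ j, co j ∈ A.nonunits := by
  classical
  have hG0V : (∑ j, cst M (co j) * f j) ∈ gaussV A M :=
    sum_mem fun j _ => mul_mem (h50l_cst_mem hA (hco j)) (hfV j)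
  have hFe : (⟨_, hF⟩ : gaussV A M) = ⟨φ⁻¹, hφi⟩ * ⟨_, hG0V⟩ := by
    apply Subtype.ext
    show ∑ j, cst M (co j) * (φ⁻¹ * f j) = φ⁻¹ * ∑ j, cst M (co j) * f j
    rw [Finset.mul_sum]
    refine Finset.sum_congr rfl fun j _ => ?_
    ring
  have hredF : h13sRed A M ⟨_, hF⟩ =
      h13sRed A M ⟨φ⁻¹, hφi⟩ * h13sRed A M ⟨_, hG0V⟩ := by
    rw [← h50lRed_apply, hFe, map_mul]
    rfl
  have hredG := h50c_red_sum hA co hco f hfV hG0V
  have hφφ : h13sRed A M ⟨φ⁻¹, hφi⟩ * h13sRed A M ⟨φ, hφV⟩ = 1 := by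
    have h1 : (⟨φ⁻¹, hφi⟩ : gaussV A M) * ⟨φ, hφV⟩ = 1 := Subtype.ext (inv_mul_cancel₀ hφ0)
    rw [← h50lRed_apply, ← h50lRed_apply, ← map_mul, h1, map_one]
  have hbs0 : h13sRed A M ⟨φ⁻¹, hφi⟩ ≠ 0 := left_ne_zero_of_mul_eq_one hφφ
  have hφ0' : h13sRed A M ⟨φ, hφV⟩ ≠ 0 := right_ne_zero_of_mul_eq_one hφφ
  have hGL : h13sRed A M ⟨_, hG0V⟩ ∈ riemannRochSpace (h50lDelta Qs Qs') := by
    rw [hredG]
    exact Submodule.sum_mem _ fun j _ => Submodule.smul_mem _ _ (hfL j)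
  have hclaim : ∃ γ₀ : h13sK A,
      h13sRed A M ⟨_, hG0V⟩ = algebraMap (h13sK A) (h13sFt A M) γ₀ := by
    by_cases hG0 : h13sRed A M ⟨_, hG0V⟩ = 0
    · exact ⟨0, by rw [hG0, map_zero]⟩
    rcases h with h | h
    · exfalso
      rw [hredF] at h
      rcases mul_eq_zero.1 h with h | h
      · exact hbs0 h
      · exact hG0 h
    · refine h50c_const_of_dim_one _ (h50l_sum_nonneg Qs') hQ'1 _ ?_
      rw [mem_riemannRochSpace_iff]
      intro w
      right
      have hGw := ((mem_riemannRochSpace_iff).1 hGL w).resolve_left hG0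
      rw [h50l_delta_apply] at hGw
      by_cases hw : ∃ i, Qs i = w
      · obtain ⟨i, rfl⟩ := hw
        have h2 := h i
        rw [hredF, Place.ord_mul _ hbs0 hG0] at h2
        have h3 := ((mem_riemannRochSpace_iff).1 hφL (Qs i)).resolve_left hφ0'
        rw [h50l_delta_apply] at h3
        have h4 : (Qs i).ord (h13sRed A M ⟨φ⁻¹, hφi⟩) +
            (Qs i).ord (h13sRed A M ⟨φ, hφV⟩) = 0 := by
          rw [← Place.ord_mul _ hbs0 hφ0', hφφ, Place.ord_one]
        have h5 : h50lSum Qs (Qs i) = 1 := h50c_sum_apply_inj Qs hQinj i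
        have h6 : h50lSum Qs' (Qs i) = 0 :=
          h50l_sum_apply_of_ne Qs' _ (fun j hj => hne i j hj.symm)
        rw [h5, h6] at h3
        rw [h6]
        omega
      · rw [not_exists] at hw
        have h5 : h50lSum Qs w = 0 := h50l_sum_apply_of_ne Qs w hw
        rw [h5] at hGw
        omega
  obtain ⟨γ₀, hγ₀⟩ := hclaim
  have hfin := hfind (-γ₀) (fun j => h13sPi A ⟨co j, hco j⟩) (by
    rw [map_neg, ← hγ₀, hredG]
    exact neg_add_cancel _)
  intro j
  exact (ValuationSubring.mem_nonunits_iff_exists_mem_maximalIdeal).2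
    ⟨hco j, (IsLocalRing.residue_eq_zero_iff _).1 (hfin j)⟩

end Hind

/-! ### D. Assembly -/

section Asm

variable {M : ℕ} [NeZero M] {A : ValuationSubring Kbar} {ℓ : ℕ}

/-- **the raw link data** at `(A, M, r)`. -/
theorem h50c_linkRaw (hℓ : ℓ.Prime) (hM : ¬ ℓ ∣ M) (haux : auxLevel ℓ ∣ M)
    (hA : A.LiesOverPrime ℓ)
    (r : Place Kbar (FF M) → Place (h13sK A) (h13sFt A M)) (hr : H13sIsRed A M r)
    {g : ℕ} (hgG : H13rIsGenus Kbar (FF M) g) (hgS : H13rIsGenus (h13sK A) (h13sFt A M) g)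
    (c c' : H96Chart M g) (hd : ∀ i, H37DiscAt A (c.Q i) (c.t i) (c.O i))
    (hd' : ∀ i, H37DiscAt A (c'.Q i) (c'.t i) (c'.O i))
    (hns : H56gNonSpec r c.Q) (hns' : H56gNonSpec r c'.Q)
    (hne : ∀ i j, r (c.Q i) ≠ r (c'.Q j)) : H4sLinkRaw A c c' := by
  classical
  have hBg : H13rBase Kbar (FF M) := h13g_gBase M
  have hBs : H13rBase (h13sK A) (h13sFt A M) := h26s_base ℓ hℓ M hM haux A hA
  have hS : H50lSemiAt A M r := h50l_semiAt_of h26s_semi hℓ hM haux hA r hr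
  have hQ1 : h13rL (h13sK A) (h13sFt A M) (h50lSum (fun i => r (c.Q i))) = 1 := hns.2
  have hQ'1 : h13rL (h13sK A) (h13sFt A M) (h50lSum (fun i => r (c'.Q i))) = 1 := hns'.2
  have hQd : ∀ i j, SameRed A (c.Q i) (c.Q j) → i = j := fun i j h =>
    hns.1 ((hr.2.1 _ _).2 h)
  have hQd' : ∀ i j, SameRed A (c'.Q i) (c'.Q j) → i = j := fun i j h =>
    hns'.1 ((hr.2.1 _ _).2 h)
  have hQQ' : ∀ i j, ¬ SameRed A (c.Q i) (c'.Q j) := fun i j h =>
    hne i j ((hr.2.1 _ _).2 h)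
  -- the dimensions
  have hdims : H38lDims A r c c' :=
    h50l_dimsLeaf h26s_semi ℓ hℓ M hM haux A hA r hr hBg hBs h78q_fin h78q_fin h78q_mono
      h78q_mono g hgG hgS c c' hQd hQd' hQQ'
      (by rw [h50l_sum_eq, h50l_push_sum]; exact hQ1)
      (by rw [h50l_sum_eq, h50l_push_sum]; exact hQ'1)
  have hpush : h13sPush r (h38lD c c') =
      h50lDelta (fun i => r (c.Q i)) (fun i => r (c'.Q i)) := by
    rw [h50l_D_eq]
    exact h50l_push_delta r c.Q c'.Q
  -- the divisor `E₀`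
  obtain ⟨φ, E₀, hφ0, hφV, hφi, hφL, hE₀, hE₀pos, hE₀c, hE₀c'⟩ :=
    h50l_exists_E0 hℓ hM hA r hr hBg hBs hS hgG hgS c.Q c'.Q hQ1
  have hΔ0 : (0 : Divisor Kbar (FF M)) ≤ h50lDelta c.Q c'.Q :=
    (h50l_sum_nonneg _).trans (h50l_sum_le_delta _ _)
  have hΔs0 : (0 : Divisor (h13sK A) (h13sFt A M)) ≤
      h50lDelta (fun i => r (c.Q i)) (fun i => r (c'.Q i)) :=
    (h50l_sum_nonneg _).trans (h50l_sum_le_delta _ _)
  have hdimS : h13rL (h13sK A) (h13sFt A M)
      (h50lDelta (fun i => r (c.Q i)) (fun i => r (c'.Q i))) = 2 * g + 1 := by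
    rw [← hpush]
    exact hdims.dimS
  -- the basis and its lifts
  obtain ⟨y, hyL, hyind⟩ := h50c_exists_basis hBs _ hΔs0 g hdimS
  have hlift : ∀ j, ∃ (f : FF M) (hf : f ∈ gaussV A M),
      f ∈ riemannRochSpace (h50lDelta c.Q c'.Q) ∧ h13sRed A M ⟨f, hf⟩ = y j := by
    intro j
    have h1 := hdims.lift (y j) (by rw [hpush]; exact hyL j)
    rwa [h50l_D_eq] at h1
  choose f hfV hfL hfred using hlift
  have hφL' : h13sRed A M ⟨φ, hφV⟩ ∈
      riemannRochSpace (h50lDelta (fun i => r (c.Q i)) (fun i => r (c'.Q i))) := by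
    have h1 := h50b_red_mem_L r hℓ hM hA hr hBg _ φ hφV hφL
    rwa [h50l_push_delta] at h1
  have hfL' : ∀ j, h13sRed A M ⟨f j, hfV j⟩ ∈
      riemannRochSpace (h50lDelta (fun i => r (c.Q i)) (fun i => r (c'.Q i))) := fun j => by
    rw [hfred j]
    exact hyL j
  have hfind : ∀ (γ₀ : h13sK A) (γ : Fin g ⊕ Fin g → h13sK A),
      algebraMap (h13sK A) (h13sFt A M) γ₀ + ∑ j, γ j • h13sRed A M ⟨f j, hfV j⟩ = 0 →
        ∀ j, γ j = 0 := by
    intro γ₀ γ h
    refine hyind γ₀ γ ?_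
    simpa only [hfred] using h
  -- the link data
  have hE : ∀ i v, SameRed A v (c.Q i) → E₀ v = 0 := fun i v hv =>
    hE₀c v i ((hr.2.1 _ _).2 hv)
  have hE' : ∀ i v, SameRed A v (c'.Q i) → E₀ v = 0 := fun i v hv =>
    hE₀c' v i ((hr.2.1 _ _).2 hv)
  have hbL : ∀ j, φ⁻¹ * f j ∈ riemannRochSpace E₀ := by
    intro j
    rw [mem_riemannRochSpace_iff]
    intro v
    by_cases hfj : f j = 0
    · left
      rw [hfj, mul_zero]
    · right
      rw [Place.ord_mul _ (inv_ne_zero hφ0) hfj, Place.ord_inv, hE₀ v]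
      have h1 := ((mem_riemannRochSpace_iff).1 (hfL j) v).resolve_left hfj
      omega
  have hbsL : φ⁻¹ ∈ riemannRochSpace E₀ := by
    rw [mem_riemannRochSpace_iff]
    intro v
    right
    rw [Place.ord_inv, hE₀ v]
    have h1 := hΔ0 v
    simp only [Finsupp.coe_zero, Pi.zero_apply] at h1
    omega
  have hLD : H4rLinkData A c c' (fun j => φ⁻¹ * f j) φ⁻¹ := by
    refine ⟨⟨E₀, hE₀pos, hE, hE', hbL, hbsL, ?_⟩, inv_ne_zero hφ0, ?_⟩
    · intro v
      have h1 := h50l_delta_apply c.Q c'.Q v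
      have h2 := hE₀ v
      have h3 : v.ord φ⁻¹ = -v.ord φ := Place.ord_inv _ _
      show v.ord φ⁻¹ = 2 * h50lSum c.Q v + h50lSum c'.Q v - E₀ v
      omega
    · intro e co h
      have h1 : φ⁻¹ * (cst M e + ∑ j, cst M (co j) * f j) = 0 := by
        rw [← h, mul_add, Finset.mul_sum]
        congr 1
        · ring
        · refine Finset.sum_congr rfl fun j _ => ?_
          ring
      have h2 := (mul_eq_zero.1 h1).resolve_left (inv_ne_zero hφ0)
      exact (h50c_indep_one hA f hfV hfind e co h2).1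
  have hbV : ∀ j, φ⁻¹ * f j ∈ gaussV A M := fun j => mul_mem hφi (hfV j)
  have hbmem : ∀ j i, (φ⁻¹ * f j) ∈ c.O i ∧ (φ⁻¹ * f j) ∈ c'.O i := fun j =>
    h81n_mem_link hℓ hM haux hA hd hd' hE hE' (hbV j) (hbL j)
  have hbsmem : ∀ i, φ⁻¹ ∈ c.O i ∧ φ⁻¹ ∈ c'.O i :=
    h81n_mem_link hℓ hM haux hA hd hd' hE hE' hφi hbsL
  obtain ⟨N0, hN0A, hval, hder⟩ :=
    h81n_exists_jets hd (fun j => φ⁻¹ * f j) (fun j i => (hbmem j i).1)
  have hunit : N0.det ≠ 0 ∧ (N0.det)⁻¹ ∈ A :=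
    h75j_N0_unit hℓ hM hA hr hBg c hd (fun i => h89g_param_gauss hℓ hM hA hr (hd i))
      (fun i => h89g_O_gauss hℓ hM hA hr (hd i)) (fun j => φ⁻¹ * f j)
      (fun j i => (hbmem j i).1) N0 hval hder
      (fun co hco hF h => h50c_hind hℓ hM hA (fun i => r (c.Q i)) (fun i => r (c'.Q i))
        hns.1 hne hQ'1 φ hφ0 hφV hφi hφL' f hfV hfL' hfind co hco hF h)
  have hbsder := h81n_hbsder_link hℓ hM haux hA hd'
    (fun i => h89g_discChar hℓ hM haux hA hr (hd' i)) hLD hQd' hQQ' hφi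
    (by rw [inv_inv]; exact hφV)
  exact ⟨⟨fun j => φ⁻¹ * f j, φ⁻¹, N0, hLD, hbmem, hbsmem, hval, hder, hunit, hbsder⟩⟩

/-- **GEO-LINK, the raw leaf** (exact frozen Prop of `P5/H4LinkLeaf.lean`). -/
theorem h50c_linkRawLeaf : H4sLinkRawLeaf := by
  intro ℓ hℓ M _ hM haux A hA r hr g hgG hgS c c' hd hd' hns hns' hne
  exact h50c_linkRaw hℓ hM haux hA r hr hgG hgS c c' hd hd' hns hns' hne

/-- **GEO-LINK** (exact frozen Prop of `P5/H56GeoAsm.lean`). -/
theorem h50c_link : H56gLink := h4s_linkLeaf h50c_linkRawLeaf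

end Asm

end Fermat.Agent.P5
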