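import Fermat.Agent.P5.H13SFIface
import Fermat.Agent.P5.H78RRLeaves
import Fermat.Agent.S18.ResAlgClosed

/-!
# P5 (wave 5, S19), block GEO-LINK, second seat (helper50): the divisor `E₀`

Everything is stated in the FROZEN vocabulary of helper13 (`P5/H13RRIface.lean`,
`P5/H13SFIface.lean`): `r` a reduction map of places (`H13sIsRed A M r`), `H13rBase` and
`H13rIsGenus g` on both fibres, the instance of `H13sSemi` at `(A, M, r)`.

* `h50lSum Q` : the divisor `∑ Q i`.
* `H50lSemiAt A M r` : the body of `H13sSemi` at `(A, M, r)`.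
* `h50l_red_indep`, `h50l_semi_le` : semicontinuity `ℓ(E) ≤ ℓ~(r_* E)`.
* `h50l_generic_nonspecial` : `ℓ~(r_* D₀) = 1`, `D₀ ≥ 0` of degree `g` ⟹ `ℓ(D₀) + g = deg D₀ + 1`.
* `h50l_exists_E0` : for centres `Q`, `Q'` with pairwise distinct reductions and non-special
  reduced divisors `r_* ∑ Q i`, `r_* ∑ Q' i`, there is a Gauss unit `φ ∈ L(2 D₀ + D₁)` such that
  `E₀ = div φ + 2 D₀ + D₁` is effective and has no point in the residue discs of the centres.
-/

set_option autoImplicit false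
set_option linter.unusedSectionVars false
set_option linter.unusedVariables false

open AlgebraicCurve ModularCurve

noncomputable section

namespace Fermat.Agent.P5

open Fermat.Agent.S37 Fermat.Agent.Red.GV

/-- the divisor `∑ Q i`. -/
def h50lSum {K F : Type*} [Field K] [Field F] [Algebra K F] {g : ℕ} (Q : Fin g → Place K F) :
    Divisor K F :=
  ∑ i, Finsupp.single (Q i) (1 : ℤ)

section General

variable {K F : Type*} [Field K] [Field F] [Algebra K F] {g : ℕ}

theorem h50l_sum_nonneg (Q : Fin g → Place K F) : 0 ≤ h50lSum Q := by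
  classical
  unfold h50lSum
  refine Finset.sum_nonneg fun i _ => ?_
  intro v
  rw [Finsupp.single_apply]
  split_ifs <;> simp

theorem h50l_sum_apply_pos (Q : Fin g → Place K F) (i : Fin g) : 1 ≤ h50lSum Q (Q i) := by
  classical
  unfold h50lSum
  rw [Finsupp.finsetSum_apply]
  have h1 : (Finsupp.single (Q i) (1 : ℤ)) (Q i) ≤
      ∑ j, (Finsupp.single (Q j) (1 : ℤ)) (Q i) :=
    Finset.single_le_sum (f := fun j => (Finsupp.single (Q j) (1 : ℤ)) (Q i))
      (fun j _ => by rw [Finsupp.single_apply]; split_ifs <;> simp) (Finset.mem_univ i)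
  simpa using h1

theorem h50l_sum_apply_of_ne (Q : Fin g → Place K F) (v : Place K F) (h : ∀ i, Q i ≠ v) :
    h50lSum Q v = 0 := by
  classical
  unfold h50lSum
  rw [Finsupp.finsetSum_apply]
  refine Finset.sum_eq_zero fun i _ => ?_
  rw [Finsupp.single_apply, if_neg (h i)]

theorem h50l_degree_sum (hdeg : ∀ v : Place K F, v.deg = 1) (Q : Fin g → Place K F) :
    Divisor.degree (h50lSum Q) = g := by
  unfold h50lSum
  rw [map_sum]
  simp [Divisor.degree_single, hdeg]

theorem h50l_mapDomain_sum {K' F' : Type*} [Field K'] [Field F'] [Algebra K' F']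
    (r : Place K F → Place K' F') (Q : Fin g → Place K F) :
    Finsupp.mapDomain r (h50lSum Q) = h50lSum (fun i => r (Q i)) := by
  unfold h50lSum
  rw [Finsupp.mapDomain_finsetSum]
  simp [Finsupp.mapDomain_single]

open Classical in
/-- the value of a push-forward at a point. -/
theorem h50l_mapDomain_apply {α β : Type*} (f : α → β) (D : α →₀ ℤ) (n : β) :
    Finsupp.mapDomain f D n = ∑ a ∈ D.support, if f a = n then D a else 0 := by
  classical
  unfold Finsupp.mapDomain
  rw [Finsupp.sum_apply]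
  unfold Finsupp.sum
  refine Finset.sum_congr rfl fun a _ => ?_
  show (Finsupp.single (f a) (D a)) n = _
  rw [Finsupp.single_apply]

/-- an effective divisor whose push-forward vanishes at `n` vanishes on the fibre of `n`. -/
theorem h50l_eq_zero_of_mapDomain {α β : Type*} (f : α → β) (D : α →₀ ℤ) (hD : 0 ≤ D) (n : β)
    (h : Finsupp.mapDomain f D n = 0) (a : α) (ha : f a = n) : D a = 0 := by
  classical
  rw [h50l_mapDomain_apply] at h
  by_contra hne
  have hmem : a ∈ D.support := Finsupp.mem_support_iff.2 hne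
  have h1 : ∀ b ∈ D.support, 0 ≤ (if f b = n then D b else 0) := by
    intro b _
    split_ifs
    · exact hD b
    · exact le_refl _
  have h2 := (Finset.sum_eq_zero_iff_of_nonneg h1).1 h a hmem
  rw [if_pos ha] at h2
  exact hne h2

end General

/-! ### The reduction as a ring homomorphism -/

section Red

variable {M : ℕ} [NeZero M] {A : ValuationSubring Kbar} {ℓ : ℕ}

theorem h50l_incl_injective (A : ValuationSubring Kbar) (M : ℕ) :
    Function.Injective (h13sIncl A M) :=
  (h13sIncl A M).toRingHom.injective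

/-- the reduction `V → F~` as a ring homomorphism. -/
def h50lRed (A : ValuationSubring Kbar) (M : ℕ) : gaussV A M →+* h13sFt A M where
  toFun := h13sRed A M
  map_one' := h50l_incl_injective A M (by rw [h13sIncl_red, map_one, map_one]; rfl)
  map_mul' x y := h50l_incl_injective A M (by
    rw [h13sIncl_red, map_mul, map_mul, h13sIncl_red, h13sIncl_red]; rfl)
  map_zero' := h50l_incl_injective A M (by rw [h13sIncl_red, map_zero, map_zero]; rfl)
  map_add' x y := h50l_incl_injective A M (by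
    rw [h13sIncl_red, map_add, map_add, h13sIncl_red, h13sIncl_red]; rfl)

@[simp]
theorem h50lRed_apply (x : gaussV A M) : h50lRed A M x = h13sRed A M x := rfl

theorem h50l_cst_mem {c : Kbar} (hA : A.LiesOverPrime ℓ) (hc : c ∈ A) : cst M c ∈ gaussV A M :=
  (cst_mem_gaussV_iff A M hA c).2 hc

/-- the reduction of a constant. -/
theorem h50l_red_cst (hA : A.LiesOverPrime ℓ) (c : Kbar) (hc : c ∈ A) :
    h13sRed A M ⟨cst M c, h50l_cst_mem hA hc⟩ =
      algebraMap (h13sK A) (h13sFt A M) (h13sPi A ⟨c, hc⟩) := by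
  apply h50l_incl_injective A M
  rw [h13sIncl_red]
  have h1 := gaussRed_algebraMap A (IsLocalRing.residue A) M ⟨c, hc⟩
  rw [AlgHom.commutes]
  exact h1.trans (by
    rw [algebraMap_laurentSeries_eq_single]
    rfl)

theorem h50l_red_eq_zero_iff (hℓ : ℓ.Prime) (hM : ¬ ℓ ∣ M) (hA : A.LiesOverPrime ℓ)
    (x : gaussV A M) :
    h13sRed A M x = 0 ↔ (x : FF M) = 0 ∨ (x : FF M)⁻¹ ∉ gaussV A M := by
  rw [← gaussR_eq_zero_iff A M hℓ hM hA x]
  constructor
  · intro h
    have := congrArg (h13sIncl A M) h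
    rwa [h13sIncl_red, map_zero] at this
  · intro h
    apply h50l_incl_injective A M
    rw [h13sIncl_red, map_zero]
    exact h

/-- an element outside `A` has its inverse in `𝔪_A`. -/
theorem h50l_inv_mem_nonunits {c : Kbar} (hc : c ∉ A) : c⁻¹ ∈ A.nonunits := by
  rw [ValuationSubring.mem_nonunits_iff_exists_mem_maximalIdeal]
  have hci : c⁻¹ ∈ A := (A.mem_or_inv_mem c).resolve_left hc
  refine ⟨hci, ?_⟩
  rw [IsLocalRing.mem_maximalIdeal, mem_nonunits_iff]
  intro hu
  obtain ⟨w, hw⟩ := hu.exists_right_inv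
  have h1 : c⁻¹ * (w : Kbar) = 1 := by
    have := congrArg Subtype.val hw
    simpa using this
  have hc0 : c ≠ 0 := fun h0 => hc (h0 ▸ A.zero_mem)
  have h2 : (w : Kbar) = c := by
    field_simp at h1
    exact h1
  exact hc (h2 ▸ w.2)

/-- product of a non-unit and an integer is a non-unit. -/
theorem h50l_mul_mem_nonunits {a b : Kbar} (ha : a ∈ A.nonunits) (hb : b ∈ A) :
    a * b ∈ A.nonunits := by
  rw [ValuationSubring.mem_nonunits_iff_exists_mem_maximalIdeal] at ha ⊢
  obtain ⟨haA, ham⟩ := ha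
  refine ⟨A.mul_mem _ _ haA hb, ?_⟩
  exact Ideal.mul_mem_right (⟨b, hb⟩ : A) _ ham

/-- **Scaling**: a Gauss-integral function with zero reduction is a constant of `𝔪_A` times a
Gauss-integral function. -/
theorem h50l_exists_scale (hℓ : ℓ.Prime) (hM : ¬ ℓ ∣ M) (hA : A.LiesOverPrime ℓ)
    (f : FF M) (hf : f ∈ gaussV A M) (hred : h13sRed A M ⟨f, hf⟩ = 0) :
    ∃ c₀ : Kbar, c₀ ≠ 0 ∧ c₀⁻¹ ∈ A.nonunits ∧ cst M c₀ * f ∈ gaussV A M := by
  rcases (h50l_red_eq_zero_iff hℓ hM hA ⟨f, hf⟩).1 hred with h0 | hinv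
  · have h0' : f = 0 := h0
    have hℓ0 : (ℓ : Kbar) ≠ 0 := by exact_mod_cast hℓ.ne_zero
    refine ⟨(ℓ : Kbar)⁻¹, inv_ne_zero hℓ0, by rw [inv_inv]; exact hA, ?_⟩
    rw [h0', mul_zero]
    exact zero_mem _
  · have hinv' : f⁻¹ ∉ gaussV A M := hinv
    have hf0 : f ≠ 0 := by
      rintro rfl
      exact hinv' (by rw [inv_zero]; exact zero_mem _)
    obtain ⟨c, hc0, hcV, hcV'⟩ := exists_cst_mul_unit A M hℓ hM hA f hf0
    refine ⟨c, hc0, h50l_inv_mem_nonunits ?_, hcV⟩
    intro hcA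
    apply hinv'
    have h1 : f⁻¹ = cst M c * (cst M c * f)⁻¹ := by
      have hcc : cst M c ≠ 0 := by
        intro h
        exact hc0 ((map_eq_zero (algebraMap Kbar (FF M))).1 h)
      field_simp
    rw [h1]
    exact mul_mem (h50l_cst_mem hA hcA) hcV'

/-- **Independence of the reductions** of an orthonormal family. -/
theorem h50l_red_indep (hℓ : ℓ.Prime) (hM : ¬ ℓ ∣ M) (hA : A.LiesOverPrime ℓ) {n : ℕ}
    (b : Fin n → FF M) (hbV : ∀ i, b i ∈ gaussV A M)
    (hbA : ∀ c : Fin n → Kbar, (∑ i, cst M (c i) * b i) ∈ gaussV A M → ∀ i, c i ∈ A) :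
    LinearIndependent (h13sK A) (fun i => h13sRed A M ⟨b i, hbV i⟩) := by
  classical
  rw [Fintype.linearIndependent_iff]
  intro γ hγ
  have hsurj : Function.Surjective (h13sPi A) := IsLocalRing.residue_surjective
  choose c hc using fun i => hsurj (γ i)
  set f : FF M := ∑ i, cst M ((c i : A) : Kbar) * b i with hf
  have hcV : ∀ i, cst M ((c i : A) : Kbar) ∈ gaussV A M := fun i => h50l_cst_mem hA (c i).2
  have hfV : f ∈ gaussV A M := sum_mem fun i _ => mul_mem (hcV i) (hbV i)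
  have hfe : (⟨f, hfV⟩ : gaussV A M) =
      ∑ i, (⟨cst M ((c i : A) : Kbar), hcV i⟩ : gaussV A M) * ⟨b i, hbV i⟩ := by
    apply Subtype.ext
    rw [AddSubmonoidClass.coe_finsetSum]
    rfl
  have hred : h13sRed A M ⟨f, hfV⟩ = 0 := by
    rw [← h50lRed_apply, hfe, map_sum, ← hγ]
    refine Finset.sum_congr rfl fun i _ => ?_
    rw [map_mul, h50lRed_apply, h50lRed_apply, h50l_red_cst hA _ (c i).2, Algebra.smul_def]
    congr 2
    exact hc i
  obtain ⟨c₀, hc₀, hc₀m, hc₀V⟩ := h50l_exists_scale hℓ hM hA f hfV hred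
  have h2 : cst M c₀ * f = ∑ i, cst M (c₀ * ((c i : A) : Kbar)) * b i := by
    rw [hf, Finset.mul_sum]
    refine Finset.sum_congr rfl fun i _ => ?_
    rw [show cst M (c₀ * ((c i : A) : Kbar)) = cst M c₀ * cst M ((c i : A) : Kbar) from
      map_mul _ _ _, mul_assoc]
  rw [h2] at hc₀V
  have h3 := hbA _ hc₀V
  intro i
  have h4 : ((c i : A) : Kbar) ∈ A.nonunits := by
    have h5 := h50l_mul_mem_nonunits hc₀m (h3 i)
    rwa [← mul_assoc, inv_mul_cancel₀ hc₀, one_mul] at h5
  rw [← hc i]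
  exact (IsLocalRing.residue_eq_zero_iff _).2
    ((ValuationSubring.mem_nonunits_iff_exists_mem_maximalIdeal).1 h4).2

end Red

/-! ### Semicontinuity -/

section Semi

variable {M : ℕ} [NeZero M] {A : ValuationSubring Kbar} {ℓ : ℕ}

/-- the body of `H13sSemi` at `(A, M, r)`. -/
def H50lSemiAt (A : ValuationSubring Kbar) (M : ℕ) [NeZero M]
    (r : Place Kbar (FF M) → Place (h13sK A) (h13sFt A M)) : Prop :=
  ∀ E : Divisor Kbar (FF M),
    ∃ b : Fin (h13rL Kbar (FF M) E) → FF M,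
      (∀ i, b i ∈ riemannRochSpace E) ∧
      (∀ i, b i ∈ gaussV A M) ∧
      (∀ (i : Fin (h13rL Kbar (FF M) E)) (hi : b i ∈ gaussV A M),
        h13sRed A M ⟨b i, hi⟩ ∈ riemannRochSpace (h13sPush r E)) ∧
      (∀ c : Fin (h13rL Kbar (FF M) E) → Kbar,
        (∑ i, cst M (c i) * b i) ∈ gaussV A M → ∀ i, c i ∈ A) ∧
      (∀ f ∈ riemannRochSpace E, ∃ c : Fin (h13rL Kbar (FF M) E) → Kbar,
        f = ∑ i, cst M (c i) * b i) ∧
      (h13rL Kbar (FF M) E = h13rL (h13sK A) (h13sFt A M) (h13sPush r E) →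
        ∀ y ∈ riemannRochSpace (h13sPush r E),
          ∃ (f : FF M) (hf : f ∈ gaussV A M), f ∈ riemannRochSpace E ∧
            h13sRed A M ⟨f, hf⟩ = y)

theorem h50l_semiAt_of (hSemi : H13sSemi) (hℓ : ℓ.Prime) (hM : ¬ ℓ ∣ M) (haux : auxLevel ℓ ∣ M)
    (hA : A.LiesOverPrime ℓ) (r : Place Kbar (FF M) → Place (h13sK A) (h13sFt A M))
    (hr : H13sIsRed A M r) : H50lSemiAt A M r :=
  hSemi ℓ hℓ M hM haux A hA r hr

variable (r : Place Kbar (FF M) → Place (h13sK A) (h13sFt A M))

/-- **Semicontinuity**: `ℓ(E) ≤ ℓ~(r_* E)`. -/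
theorem h50l_semi_le (hℓ : ℓ.Prime) (hM : ¬ ℓ ∣ M) (hA : A.LiesOverPrime ℓ)
    (hBs : H13rBase (h13sK A) (h13sFt A M)) (hS : H50lSemiAt A M r) (E : Divisor Kbar (FF M)) :
    h13rL Kbar (FF M) E ≤ h13rL (h13sK A) (h13sFt A M) (h13sPush r E) := by
  obtain ⟨b, -, hbV, hbR, hbA, -, -⟩ := hS E
  have hind := h50l_red_indep hℓ hM hA b hbV hbA
  have : Module.Finite (h13sK A) ↥(riemannRochSpace (h13sPush r E)) :=
    h78q_finite hBs _
  have hind' : LinearIndependent (h13sK A)
      (fun i => (⟨h13sRed A M ⟨b i, hbV i⟩, hbR i (hbV i)⟩ :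
        ↥(riemannRochSpace (h13sPush r E)))) := by
    refine LinearIndependent.of_comp (riemannRochSpace (h13sPush r E)).subtype ?_
    exact hind
  have := hind'.fintype_card_le_finrank
  rw [Fintype.card_fin] at this
  exact this

/-- the push-forward of `∑ Q i`. -/
theorem h50l_push_sum {g : ℕ} (Q : Fin g → Place Kbar (FF M)) :
    h13sPush r (h50lSum Q) = h50lSum (fun i => r (Q i)) :=
  h50l_mapDomain_sum r Q

theorem h50l_push_add (D E : Divisor Kbar (FF M)) :
    h13sPush r (D + E) = h13sPush r D + h13sPush r E :=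
  Finsupp.mapDomain_add

theorem h50l_push_nsmul (n : ℕ) (D : Divisor Kbar (FF M)) :
    h13sPush r (n • D) = n • h13sPush r D := by
  induction n with
  | zero => simp [h13sPush]
  | succ n ih => rw [succ_nsmul, succ_nsmul, h50l_push_add, ih]

/-- `1 ≤ ℓ(D)` for an effective divisor. -/
theorem h50l_one_le_of_nonneg {K F : Type*} [Field K] [Field F] [Algebra K F]
    (hB : H13rBase K F) {D : Divisor K F} (hD : 0 ≤ D) : 1 ≤ h13rL K F D := by
  have : Module.Finite K ↥(riemannRochSpace D) := h78q_finite hB D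
  have h1 := Submodule.finrank_mono (h78p_L_mono (K := K) (F := F) hD)
  have h2 : h13rL K F 0 = 1 := h78q_finrank_zero hB
  unfold h13rL at h2 ⊢
  omega

/-- **The generic fibre is non-special where the special fibre is**: if `D₀ = ∑ Q i` has
`ℓ~(r_* D₀) = 1` then `ℓ(D₀) = 1`. -/
theorem h50l_generic_nonspecial (hℓ : ℓ.Prime) (hM : ¬ ℓ ∣ M) (hA : A.LiesOverPrime ℓ)
    (hBg : H13rBase Kbar (FF M)) (hBs : H13rBase (h13sK A) (h13sFt A M))
    (hS : H50lSemiAt A M r) {g : ℕ} (Q : Fin g → Place Kbar (FF M))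
    (hQ : h13rL (h13sK A) (h13sFt A M) (h50lSum (fun i => r (Q i))) = 1) :
    h13rL Kbar (FF M) (h50lSum Q) = 1 := by
  have h1 := h50l_semi_le r hℓ hM hA hBs hS (h50lSum Q)
  rw [h50l_push_sum, hQ] at h1
  exact le_antisymm h1 (h50l_one_le_of_nonneg hBg (h50l_sum_nonneg Q))

end Semi

/-! ### The divisor `E₀` -/

section E0

variable {M : ℕ} [NeZero M] {A : ValuationSubring Kbar} {ℓ : ℕ}

/-- the residue field of `A` is infinite. -/
theorem h50l_infinite_k (A : ValuationSubring Kbar) : Infinite (h13sK A) := by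
  have : IsAlgClosed (IsLocalRing.ResidueField A) :=
    Fermat.Agent.S18.h72_residueField_isAlgClosed A
  exact (inferInstance : Infinite (IsLocalRing.ResidueField A))

/-- RR equality above a reduced non-special divisor of degree `g`. -/
theorem h50l_rr_above {K F : Type*} [Field K] [Field F] [Algebra K F] (hB : H13rBase K F)
    {g : ℕ} (hG : H13rIsGenus K F g) (Q : Fin g → Place K F)
    (hQ : h13rL K F (h50lSum Q) = 1) {E : Divisor K F} (hE : h50lSum Q ≤ E) :
    (h13rL K F E : ℤ) + g = Divisor.degree E + 1 := by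
  refine h78q_mono hB g hG (h50lSum Q) E hE ?_
  rw [hQ, h50l_degree_sum hB.deg_one]
  push_cast
  ring

/-- the divisor `2 D₀ + D₁`. -/
def h50lDelta {K F : Type*} [Field K] [Field F] [Algebra K F] {g : ℕ}
    (Q Q' : Fin g → Place K F) : Divisor K F :=
  2 • h50lSum Q + h50lSum Q'

theorem h50l_delta_apply {K F : Type*} [Field K] [Field F] [Algebra K F] {g : ℕ}
    (Q Q' : Fin g → Place K F) (v : Place K F) :
    h50lDelta Q Q' v = 2 * h50lSum Q v + h50lSum Q' v := by
  unfold h50lDelta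
  rw [Finsupp.add_apply, Finsupp.smul_apply]
  simp

theorem h50l_sum_le_delta {K F : Type*} [Field K] [Field F] [Algebra K F] {g : ℕ}
    (Q Q' : Fin g → Place K F) : h50lSum Q ≤ h50lDelta Q Q' := by
  intro v
  rw [h50l_delta_apply]
  have h1 := h50l_sum_nonneg Q v
  have h2 := h50l_sum_nonneg Q' v
  simp only [Finsupp.coe_zero, Pi.zero_apply] at h1 h2
  omega

/-- removing one of the `2g` centres from `2 D₀ + D₁` keeps it above `D₀`. -/
theorem h50l_sum_le_delta_sub {K F : Type*} [Field K] [Field F] [Algebra K F] {g : ℕ}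
    (Q Q' : Fin g → Place K F) (n : Place K F) (hn : (∃ i, Q i = n) ∨ ∃ i, Q' i = n) :
    h50lSum Q ≤ h50lDelta Q Q' - Finsupp.single n (1 : ℤ) := by
  classical
  intro v
  rw [Finsupp.sub_apply, h50l_delta_apply, Finsupp.single_apply]
  have h1 := h50l_sum_nonneg Q v
  have h2 := h50l_sum_nonneg Q' v
  simp only [Finsupp.coe_zero, Pi.zero_apply] at h1 h2
  split_ifs with h
  · subst h
    rcases hn with ⟨i, rfl⟩ | ⟨i, rfl⟩
    · have := h50l_sum_apply_pos Q i
      omega
    · have := h50l_sum_apply_pos Q' i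
      omega
  · omega

theorem h50l_degree_delta {K F : Type*} [Field K] [Field F] [Algebra K F] {g : ℕ}
    (hdeg : ∀ v : Place K F, v.deg = 1) (Q Q' : Fin g → Place K F) :
    Divisor.degree (h50lDelta Q Q') = 3 * g := by
  unfold h50lDelta
  rw [map_add, map_nsmul, h50l_degree_sum hdeg, h50l_degree_sum hdeg]
  simp
  ring

/-- on a curve with a non-special reduced `D₀`, the space `L(2 D₀ + D₁ - n)` is a proper
subspace of `L(2 D₀ + D₁)` for each of the `2g` centres `n`. -/
theorem h50l_lt_delta {K F : Type*} [Field K] [Field F] [Algebra K F] (hB : H13rBase K F)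
    {g : ℕ} (hG : H13rIsGenus K F g) (Q Q' : Fin g → Place K F)
    (hQ : h13rL K F (h50lSum Q) = 1) (n : Place K F)
    (hn : (∃ i, Q i = n) ∨ ∃ i, Q' i = n) :
    ¬ riemannRochSpace (h50lDelta Q Q') ≤
      riemannRochSpace (h50lDelta Q Q' - Finsupp.single n (1 : ℤ)) := by
  intro hle
  have h1 := h50l_rr_above hB hG Q hQ (h50l_sum_le_delta Q Q')
  have h2 := h50l_rr_above hB hG Q hQ (h50l_sum_le_delta_sub Q Q' n hn)
  rw [map_sub, Divisor.degree_single, hB.deg_one] at h2
  have : Module.Finite K ↥(riemannRochSpace (h50lDelta Q Q' - Finsupp.single n (1 : ℤ))) :=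
    h78q_finite hB _
  have h3 := Submodule.finrank_mono hle
  unfold h13rL at h1 h2
  push_cast at h2
  omega

theorem h50l_push_delta (r : Place Kbar (FF M) → Place (h13sK A) (h13sFt A M)) {g : ℕ}
    (Q Q' : Fin g → Place Kbar (FF M)) :
    h13sPush r (h50lDelta Q Q') = h50lDelta (fun i => r (Q i)) (fun i => r (Q' i)) := by
  unfold h50lDelta
  rw [h50l_push_add, h50l_push_nsmul, h50l_push_sum, h50l_push_sum]

/-- an element of `L(Δ)` outside `L(Δ - n)` has order exactly `-Δ(n)` at `n`. -/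
theorem h50l_ord_eq_of_notMem {K F : Type*} [Field K] [Field F] [Algebra K F]
    (Δ : Divisor K F) (n : Place K F) (y : F) (hy : y ∈ riemannRochSpace Δ)
    (hyn : y ∉ riemannRochSpace (Δ - Finsupp.single n (1 : ℤ))) :
    y ≠ 0 ∧ n.ord y = -Δ n := by
  classical
  rw [mem_riemannRochSpace_iff] at hy hyn
  rw [not_forall] at hyn
  obtain ⟨w, hw'⟩ := hyn
  rw [not_or, not_le] at hw'
  obtain ⟨hw0, hw⟩ := hw'
  refine ⟨hw0, ?_⟩
  rw [Finsupp.sub_apply, Finsupp.single_apply] at hw
  have h1 := (hy w).resolve_left hw0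
  split_ifs at hw with h
  · subst h
    omega
  · omega

/-- **The divisor `E₀`.**  For centres `Q`, `Q'` such that the reduction of `D₀ = ∑ Q i` is
non-special, there is a Gauss unit `φ ∈ L(2 D₀ + D₁)` such that the effective divisor
`E₀ = div φ + 2 D₀ + D₁` has no point in the residue discs of the centres. -/
theorem h50l_exists_E0 (hℓ : ℓ.Prime) (hM : ¬ ℓ ∣ M) (hA : A.LiesOverPrime ℓ)
    (r : Place Kbar (FF M) → Place (h13sK A) (h13sFt A M)) (hr : H13sIsRed A M r)
    (hBg : H13rBase Kbar (FF M)) (hBs : H13rBase (h13sK A) (h13sFt A M))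
    (hS : H50lSemiAt A M r) {g : ℕ}
    (hGg : H13rIsGenus Kbar (FF M) g) (hGs : H13rIsGenus (h13sK A) (h13sFt A M) g)
    (Q Q' : Fin g → Place Kbar (FF M))
    (hQ : h13rL (h13sK A) (h13sFt A M) (h50lSum (fun i => r (Q i))) = 1) :
    ∃ (φ : FF M) (E₀ : Divisor Kbar (FF M)), φ ≠ 0 ∧ φ ∈ gaussV A M ∧ φ⁻¹ ∈ gaussV A M ∧
      φ ∈ riemannRochSpace (h50lDelta Q Q') ∧
      (∀ v, E₀ v = v.ord φ + h50lDelta Q Q' v) ∧ 0 ≤ E₀ ∧
      (∀ v i, r v = r (Q i) → E₀ v = 0) ∧ (∀ v i, r v = r (Q' i) → E₀ v = 0) := by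
  classical
  have := h50l_infinite_k A
  set Qs : Fin g → Place (h13sK A) (h13sFt A M) := fun i => r (Q i) with hQs
  set Qs' : Fin g → Place (h13sK A) (h13sFt A M) := fun i => r (Q' i) with hQs'
  set Δs : Divisor (h13sK A) (h13sFt A M) := h50lDelta Qs Qs' with hΔs
  have hpush : h13sPush r (h50lDelta Q Q') = Δs := h50l_push_delta r Q Q'
  -- the points
  let pt : Fin g ⊕ Fin g → Place (h13sK A) (h13sFt A M) := Sum.elim Qs Qs'
  have hpt : ∀ j, (∃ i, Qs i = pt j) ∨ ∃ i, Qs' i = pt j := by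
    rintro (i | i)
    · exact Or.inl ⟨i, rfl⟩
    · exact Or.inr ⟨i, rfl⟩
  -- the proper subspaces
  let p : Option (Fin g ⊕ Fin g) → Submodule (h13sK A) ↥(riemannRochSpace Δs) := fun j =>
    match j with
    | none => ⊥
    | some j => (riemannRochSpace (Δs - Finsupp.single (pt j) (1 : ℤ))).comap
        (riemannRochSpace Δs).subtype
  have hΔ0 : (0 : Divisor (h13sK A) (h13sFt A M)) ≤ Δs :=
    (h50l_sum_nonneg Qs).trans (h50l_sum_le_delta Qs Qs')
  have hone : (1 : h13sFt A M) ∈ riemannRochSpace Δs := by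
    rw [mem_riemannRochSpace_iff]
    intro v
    right
    rw [Place.ord_one]
    have := hΔ0 v
    simp only [Finsupp.coe_zero, Pi.zero_apply] at this
    omega
  have hp : ∀ j, p j ≠ ⊤ := by
    rintro (_ | j) htop
    · have h1 : (⟨1, hone⟩ : ↥(riemannRochSpace Δs)) ∈ (⊥ : Submodule (h13sK A) _) := by
        have h2 : p none = ⊥ := rfl
        rw [← h2, htop]
        exact Submodule.mem_top
      rw [Submodule.mem_bot] at h1
      have h3 := congrArg Subtype.val h1
      exact one_ne_zero h3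
    · refine h50l_lt_delta hBs hGs Qs Qs' hQ (pt j) (hpt j) ?_
      intro x hx
      have h1 : (⟨x, hx⟩ : ↥(riemannRochSpace Δs)) ∈ p (some j) := by
        rw [htop]
        exact Submodule.mem_top
      exact h1
  obtain ⟨x, hx⟩ := Submodule.exists_forall_notMem_of_forall_ne_top p hp
  have hy : (x : h13sFt A M) ∈ riemannRochSpace Δs := x.2
  have hyn : ∀ j, (x : h13sFt A M) ∉
      riemannRochSpace (Δs - Finsupp.single (pt j) (1 : ℤ)) := fun j h => hx (some j) h
  have hy0 : (x : h13sFt A M) ≠ 0 := by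
    intro h0
    apply hx none
    show x ∈ (⊥ : Submodule (h13sK A) _)
    rw [Submodule.mem_bot]
    exact Subtype.ext h0
  -- dimensions
  have hQg : h13rL Kbar (FF M) (h50lSum Q) = 1 :=
    h50l_generic_nonspecial r hℓ hM hA hBg hBs hS Q hQ
  have hdg := h50l_rr_above hBg hGg Q hQg (h50l_sum_le_delta Q Q')
  have hds : (h13rL (h13sK A) (h13sFt A M) Δs : ℤ) + g = Divisor.degree Δs + 1 :=
    h50l_rr_above hBs hGs Qs hQ (h50l_sum_le_delta Qs Qs')
  rw [h50l_degree_delta hBg.deg_one] at hdg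
  rw [show Divisor.degree Δs = 3 * (g : ℤ) from h50l_degree_delta hBs.deg_one Qs Qs'] at hds
  have hdim : h13rL Kbar (FF M) (h50lDelta Q Q') =
      h13rL (h13sK A) (h13sFt A M) (h13sPush r (h50lDelta Q Q')) := by
    rw [hpush]
    have : (h13rL Kbar (FF M) (h50lDelta Q Q') : ℤ) =
        h13rL (h13sK A) (h13sFt A M) Δs := by omega
    exact_mod_cast this
  -- the lift
  obtain ⟨b, -, -, -, -, -, hlift⟩ := hS (h50lDelta Q Q')
  obtain ⟨f, hfV, hfL, hfred⟩ := hlift hdim (x : h13sFt A M) (by rw [hpush]; exact hy)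
  have hfu : ¬ ((f : FF M) = 0 ∨ (f : FF M)⁻¹ ∉ gaussV A M) := by
    intro h
    have := (h50l_red_eq_zero_iff hℓ hM hA ⟨f, hfV⟩).2 h
    rw [hfred] at this
    exact hy0 this
  rw [not_or, not_not] at hfu
  obtain ⟨hf0, hfi⟩ := hfu
  obtain ⟨D, hD, -⟩ := hBg.pd f hf0
  have hE₀ : ∀ v, (D + h50lDelta Q Q') v = v.ord f + h50lDelta Q Q' v := fun v => by
    rw [Finsupp.add_apply, hD v]
  have hE₀pos : 0 ≤ D + h50lDelta Q Q' := by
    intro v
    rw [hE₀ v]
    have := ((mem_riemannRochSpace_iff).1 hfL v).resolve_left hf0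
    simp only [Finsupp.coe_zero, Pi.zero_apply]
    omega
  have hzero : ∀ j, Finsupp.mapDomain r (D + h50lDelta Q Q') (pt j) = 0 := by
    intro j
    have h1 : h13sPush r D (pt j) = (pt j).ord (h13sRed A M ⟨f, hfV⟩) :=
      hr.2.2 f hfV hfi D hD (pt j)
    have h2 := (h50l_ord_eq_of_notMem Δs (pt j) (x : h13sFt A M) hy (hyn j)).2
    have h3 : Finsupp.mapDomain r (D + h50lDelta Q Q') =
        h13sPush r D + h13sPush r (h50lDelta Q Q') := Finsupp.mapDomain_add
    rw [h3, Finsupp.add_apply, h1, hfred, hpush, h2]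
    ring
  refine ⟨f, D + h50lDelta Q Q', hf0, hfV, hfi, hfL, hE₀, hE₀pos, ?_, ?_⟩
  · intro v i hv
    exact h50l_eq_zero_of_mapDomain r _ hE₀pos (pt (Sum.inl i)) (hzero (Sum.inl i)) v hv
  · intro v i hv
    exact h50l_eq_zero_of_mapDomain r _ hE₀pos (pt (Sum.inr i)) (hzero (Sum.inr i)) v hv

end E0

end Fermat.Agent.P5
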