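import Mathlib

/-!
# P5 (S32, lattice comparison): the annihilator lemma (helper51), Mathlib only

`G` a group acting additively on the finite abelian groups `M` and `W`.  If every element of
`ℤ[G]` (a formal combination `a : G →₀ ℤ`, acting by `h51a_op`) which kills `M` kills `W`, then
`W` is the image of a `G`-stable subgroup `X` of a finite power `M ^ r` under an additive
equivariant map: `h51a_annSubq` (exactly the shape of the hypotheses of `H98pSubquot`).

Proof: `ℤ[G]/Ann M ↪ M ^ M`, `W` is a quotient of `(ℤ[G]/Ann M) ^ W`, `r = |W| * |M|`.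
-/

set_option autoImplicit false
set_option linter.style.haveILetI false
set_option linter.unusedSectionVars false

noncomputable section

namespace Fermat.Agent.P5

variable {G : Type*} [Group G] {M W : Type*} [AddCommGroup M] [AddCommGroup W]

/-- the operator of a formal integer combination of group elements. -/
def h51a_op (act : G → M → M) (a : G →₀ ℤ) (m : M) : M :=
  a.sum (fun σ k => k • act σ m)

theorem h51a_op_zero (act : G → M → M) (m : M) : h51a_op act 0 m = 0 := by
  simp [h51a_op]

theorem h51a_op_add (act : G → M → M) (a b : G →₀ ℤ) (m : M) :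
    h51a_op act (a + b) m = h51a_op act a m + h51a_op act b m := by
  unfold h51a_op
  exact Finsupp.sum_add_index' (fun σ => zero_smul ℤ _) (fun σ k₁ k₂ => add_smul k₁ k₂ _)

theorem h51a_op_single (act : G → M → M) (σ : G) (k : ℤ) (m : M) :
    h51a_op act (Finsupp.single σ k) m = k • act σ m := by
  unfold h51a_op
  exact Finsupp.sum_single_index (zero_smul ℤ _)

/-- left translation. -/
theorem h51a_op_translate (act : G → M → M) (hmul : ∀ σ τ x, act (σ * τ) x = act σ (act τ x))
    (hadd : ∀ σ x y, act σ (x + y) = act σ x + act σ y) (σ : G) (a : G →₀ ℤ) (m : M) :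
    h51a_op act (a.mapDomain (fun τ => σ * τ)) m = act σ (h51a_op act a m) := by
  unfold h51a_op
  rw [Finsupp.sum_mapDomain_index (h := fun τ k => k • act τ m) (fun τ => zero_smul ℤ _)
    (fun τ k₁ k₂ => add_smul k₁ k₂ _)]
  have h := map_finsuppSum (AddMonoidHom.mk' (act σ) (hadd σ)) a (fun τ k => k • act τ m)
  rw [AddMonoidHom.mk'_apply] at h
  rw [h]
  refine Finsupp.sum_congr (fun τ _ => ?_)
  have h2 := map_zsmul (AddMonoidHom.mk' (act σ) (hadd σ)) (a τ) (act τ m)
  rw [AddMonoidHom.mk'_apply] at h2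
  rw [h2, hmul]

/-- **Annihilator lemma.** -/
theorem h51a_annSubq [Finite M] [Finite W] (actM : G → M → M) (actW : G → W → W)
    (hMmul : ∀ σ τ x, actM (σ * τ) x = actM σ (actM τ x))
    (hMadd : ∀ σ x y, actM σ (x + y) = actM σ x + actM σ y)
    (hWone : ∀ x, actW 1 x = x)
    (hWmul : ∀ σ τ x, actW (σ * τ) x = actW σ (actW τ x))
    (hWadd : ∀ σ x y, actW σ (x + y) = actW σ x + actW σ y)
    (hann : ∀ a : G →₀ ℤ, (∀ m, h51a_op actM a m = 0) → ∀ w, h51a_op actW a w = 0) :
    ∃ (r : ℕ) (X : AddSubgroup (Fin r → M)) (φ : X →+ W),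
      (∀ σ, ∀ x ∈ X, (fun i => actM σ (x i)) ∈ X) ∧
      (∀ σ (x y : X), (∀ i, (y : Fin r → M) i = actM σ ((x : Fin r → M) i)) →
        φ y = actW σ (φ x)) ∧
      Function.Surjective φ := by
  classical
  haveI : Fintype M := Fintype.ofFinite M
  haveI : Fintype W := Fintype.ofFinite W
  set r := Fintype.card (W × M) with hr
  set e : Fin r ≃ W × M := (Fintype.equivFin (W × M)).symm with he
  -- the two maps
  let Ψ : (W → (G →₀ ℤ)) →+ (Fin r → M) :=
    { toFun := fun a i => h51a_op actM (a (e i).1) (e i).2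
      map_zero' := by
        funext i
        simp [h51a_op_zero]
      map_add' := fun a b => by
        funext i
        simp [h51a_op_add] }
  let Φ : (W → (G →₀ ℤ)) →+ W :=
    { toFun := fun a => ∑ w, h51a_op actW (a w) w
      map_zero' := by simp [h51a_op_zero]
      map_add' := fun a b => by simp [h51a_op_add, Finset.sum_add_distrib] }
  have hΨ : ∀ a i, Ψ a i = h51a_op actM (a (e i).1) (e i).2 := fun a i => rfl
  have hΦ : ∀ a, Φ a = ∑ w, h51a_op actW (a w) w := fun a => rfl
  have hker : Ψ.ker ≤ Φ.ker := by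
    intro a ha
    rw [AddMonoidHom.mem_ker] at ha ⊢
    have h1 : ∀ w m, h51a_op actM (a w) m = 0 := by
      intro w m
      have h2 := congrFun ha (e.symm (w, m))
      rw [hΨ] at h2
      simpa using h2
    rw [hΦ]
    exact Finset.sum_eq_zero (fun w _ => hann (a w) (h1 w) w)
  -- translation
  let tr : G → (W → (G →₀ ℤ)) → (W → (G →₀ ℤ)) :=
    fun σ a w => (a w).mapDomain (fun τ => σ * τ)
  have hΨtr : ∀ σ a i, Ψ (tr σ a) i = actM σ (Ψ a i) := fun σ a i => by
    rw [hΨ, hΨ]
    exact h51a_op_translate actM hMmul hMadd σ _ _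
  have hΦtr : ∀ σ a, Φ (tr σ a) = actW σ (Φ a) := fun σ a => by
    rw [hΦ, hΦ]
    have h := map_sum (AddMonoidHom.mk' (actW σ) (hWadd σ)) (fun w => h51a_op actW (a w) w)
      Finset.univ
    rw [AddMonoidHom.mk'_apply] at h
    rw [h]
    refine Finset.sum_congr rfl (fun w _ => ?_)
    exact h51a_op_translate actW hWmul hWadd σ _ _
  -- the lift
  have hsurj : Function.Surjective Ψ.rangeRestrict := Ψ.rangeRestrict_surjective
  have hker' : Ψ.rangeRestrict.ker ≤ Φ.ker := by
    rw [AddMonoidHom.ker_rangeRestrict]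
    exact hker
  let φ : Ψ.range →+ W :=
    Ψ.rangeRestrict.liftOfRightInverse (Function.surjInv hsurj)
      (Function.rightInverse_surjInv hsurj) ⟨Φ, hker'⟩
  have hφ : ∀ a, φ (Ψ.rangeRestrict a) = Φ a := fun a =>
    AddMonoidHom.liftOfRightInverse_comp_apply _ _ (Function.rightInverse_surjInv hsurj)
      ⟨Φ, hker'⟩ a
  refine ⟨r, Ψ.range, φ, ?_, ?_, ?_⟩
  · rintro σ x ⟨a, rfl⟩
    refine ⟨tr σ a, ?_⟩
    funext i
    exact hΨtr σ a i
  · intro σ x y hxy
    obtain ⟨a, ha⟩ := hsurj x
    have hy : y = Ψ.rangeRestrict (tr σ a) := by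
      apply Subtype.ext
      funext i
      rw [hxy i, ← ha]
      exact (hΨtr σ a i).symm
    rw [hy, hφ, hΦtr, ← ha, hφ]
  · intro w₀
    refine ⟨Ψ.rangeRestrict (Pi.single w₀ (Finsupp.single 1 1)), ?_⟩
    rw [hφ, hΦ, Finset.sum_eq_single w₀]
    · rw [Pi.single_eq_same, h51a_op_single, one_smul, hWone]
    · intro w _ hne
      rw [Pi.single_eq_of_ne hne]
      exact h51a_op_zero actW w
    · intro h
      exact absurd (Finset.mem_univ w₀) h

end Fermat.Agent.P5
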