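import Fermat.Agent.P5.H51Ann
import Fermat.Agent.P5.H30LatIface

/-!
# P5 (S32, lattice comparison): `h51a_annSubqFinal : H30xAnnSubq` (helper51)

The frozen leaf LC-ANN of `P5/H30LatIface.lean`, from `h51a_annSubq` (`P5/H51Ann.lean`).
-/

set_option autoImplicit false
set_option linter.style.haveILetI false
set_option linter.unusedSectionVars false

noncomputable section

namespace Fermat.Agent.P5

/-- the operator of a formal combination as a sum over its support, enumerated by `Fin`. -/
theorem h51a_op_fin {G : Type*} [Group G] {M : Type*} [AddCommGroup M] (act : G → M → M)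
    (a : G →₀ ℤ) (x : M) :
    h51a_op act a x = ∑ i : Fin a.support.card,
      a (a.support.equivFin.symm i : G) • act (a.support.equivFin.symm i : G) x := by
  classical
  unfold h51a_op Finsupp.sum
  rw [← Finset.sum_coe_sort a.support (fun σ => a σ • act σ x)]
  exact (Equiv.sum_comp a.support.equivFin.symm (fun σ => a (σ : G) • act (σ : G) x)).symm

theorem h51a_annSubqFinal : H30xAnnSubq := by
  intro G _ W V _ _ _ _ ρW ρV h
  obtain ⟨r, X, φ, hstab, hequiv, hsurj⟩ :=
    h51a_annSubq (G := G) (M := W) (W := V) (fun σ x => ρW σ x) (fun σ x => ρV σ x)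
      (fun σ τ x => by simp [map_mul])
      (fun σ x y => map_add _ x y)
      (fun x => by simp [map_one])
      (fun σ τ x => by simp [map_mul])
      (fun σ x y => map_add _ x y)
      (fun a ha v => by
        rw [h51a_op_fin]
        refine h a.support.card (fun i => a (a.support.equivFin.symm i : G))
          (fun i => (a.support.equivFin.symm i : G)) (fun w => ?_) v
        rw [← h51a_op_fin (fun σ (x : W) => ρW σ x) a w]
        exact ha w)
  refine ⟨r, X, φ, hsurj, fun g x => ?_⟩
  refine ⟨⟨fun i => ρW g ((x : Fin r → W) i), hstab g x x.2⟩, fun i => rfl, ?_⟩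
  exact hequiv g x _ (fun i => rfl)

end Fermat.Agent.P5
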