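import Mathlib

/-!
# P5 (pillar (P), S19) -- block ALG-CLOS (helper51): function rings on finite sets

Frame: `K` a field with a valuation `v` (any value group), `S` a finite set,
`A : Subring (S → K)` a ring of functions with

* `const` : the integral constants lie in `A`;
* `int`   : every element of `A` has integral values;
* `sep`   : `A` separates the points of `S`.

(Think of `A = O_v[X_1, …, X_g | S]`, the functions on a finite set `S` of points of the
kernel of reduction that are polynomials with integral coefficients in the coordinates `X_i`.)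

Results (all Mathlib-only):

* `h51c_indicator`   : a non-zero multiple of every indicator function lies in `A`;
* `h51c_conductor`   : `∃ d ≠ 0`, every function with values of valuation `≤ v d` lies in `A`
                        (`A` is OPEN in the integral functions);
* `h51c_mem_of_close`, `h51c_closed` : `A` is CLOSED (a function that is approximated by elements
                        of `A` lies in `A`);
* `h51c_unit_inv`    : a function of `A` whose values are units has its inverse in `A`;
* `h51c_newton`      : Newton/Hensel: a pointwise root `y` of a polynomial `F` over `A`,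
                        `y ≡ y₀ ∈ A` modulo the maximal ideal and `F'(y₀)` a pointwise unit, lies in
                        `A` (rank one value group, hypothesis `harch`);
* `h51c_cramer`      : the signed maximal minors of an `n × (n+1)` matrix are a kernel vector;
* `h51c_prod`        : the product ring on `S × S'` (functions `∑ aᵢ(x) bᵢ(y)`), Sweedler form
                        `h51c_mem_prod_iff`, and its frame `h51c_prod_frame`.
-/

set_option autoImplicit false
set_option linter.style.haveILetI false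
set_option linter.unusedSectionVars false

open Polynomial

noncomputable section

namespace Fermat.Agent.P5

variable {K : Type*} [Field K] {Γ₀ : Type*} [LinearOrderedCommGroupWithZero Γ₀]
  {S : Type*}

/-- The frame: a ring of integral-valued functions on `S` containing the integral constants and
separating the points. -/
structure H51cFrame (v : Valuation K Γ₀) (A : Subring (S → K)) : Prop where
  const : ∀ c : K, v c ≤ 1 → (fun _ : S => c) ∈ A
  int : ∀ f ∈ A, ∀ s, v (f s) ≤ 1
  sep : ∀ s s' : S, s ≠ s' → ∃ f ∈ A, f s ≠ f s'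

variable {v : Valuation K Γ₀} {A : Subring (S → K)}

/-- integral multiples of elements of `A` lie in `A`. -/
theorem h51c_smul_mem (hA : H51cFrame v A) {c : K} (hc : v c ≤ 1) {f : S → K} (hf : f ∈ A) :
    (fun s => c * f s) ∈ A :=
  A.mul_mem (hA.const c hc) hf

/-- a non-zero multiple of the indicator function of a point lies in `A`. -/
theorem h51c_indicator [Finite S] [DecidableEq S] (hA : H51cFrame v A) (s₀ : S) :
    ∃ d : K, d ≠ 0 ∧ v d ≤ 1 ∧ (fun s => if s = s₀ then d else 0) ∈ A := by
  classical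
  haveI : Fintype S := Fintype.ofFinite S
  -- for every `s' ≠ s₀` a function of `A` vanishing at `s'` and not at `s₀`
  have h1 : ∀ s' : S, ∃ g ∈ A, g s₀ ≠ 0 ∧ (s' ≠ s₀ → g s' = 0) := by
    intro s'
    by_cases h : s' = s₀
    · exact ⟨1, A.one_mem, one_ne_zero, fun h' => absurd h h'⟩
    · obtain ⟨f, hf, hne⟩ := hA.sep s₀ s' (Ne.symm h)
      refine ⟨f - fun _ => f s', A.sub_mem hf (hA.const _ (hA.int f hf s')), ?_, fun _ => ?_⟩
      · simpa [sub_eq_zero] using hne
      · simp
  choose g hg hg0 hgs using h1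
  refine ⟨∏ s', g s' s₀, Finset.prod_ne_zero_iff.mpr (fun s' _ => hg0 s'), ?_, ?_⟩
  · have hmem : (∏ s', g s') ∈ A := A.prod_mem (fun s' _ => hg s')
    have := hA.int _ hmem s₀
    simpa [Finset.prod_apply] using this
  · have hmem : (∏ s', g s') ∈ A := A.prod_mem (fun s' _ => hg s')
    have e : (fun s => if s = s₀ then ∏ s', g s' s₀ else 0) = ∏ s', g s' := by
      funext s
      rw [Finset.prod_apply]
      by_cases h : s = s₀
      · rw [if_pos h, h]
      · rw [if_neg h]
        exact (Finset.prod_eq_zero (f := fun s' => g s' s) (Finset.mem_univ s) (hgs s h)).symm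
    rw [e]
    exact hmem

/-- **Conductor**: `A` contains every function with sufficiently small values. -/
theorem h51c_conductor [Finite S] (hA : H51cFrame v A) :
    ∃ d : K, d ≠ 0 ∧ v d ≤ 1 ∧ ∀ f : S → K, (∀ s, v (f s) ≤ v d) → f ∈ A := by
  classical
  haveI : Fintype S := Fintype.ofFinite S
  choose d hd0 hd1 hdA using fun s₀ => h51c_indicator hA s₀
  have hprod_le : ∀ (T : Finset S), v (∏ s ∈ T, d s) ≤ 1 := by
    intro T
    rw [map_prod]
    exact Finset.prod_le_one' (fun s _ => hd1 s)
  refine ⟨∏ s, d s, Finset.prod_ne_zero_iff.mpr (fun s _ => hd0 s), hprod_le _, ?_⟩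
  intro f hf
  have e : f = ∑ s₀, (fun s => (f s₀ / d s₀) * (if s = s₀ then d s₀ else 0)) := by
    funext s
    rw [Finset.sum_apply, Finset.sum_eq_single s]
    · rw [if_pos rfl, div_mul_cancel₀ _ (hd0 s)]
    · intro s₀ _ hne
      rw [if_neg (Ne.symm hne), mul_zero]
    · intro h
      exact absurd (Finset.mem_univ s) h
  rw [e]
  refine A.sum_mem (fun s₀ _ => h51c_smul_mem hA ?_ (hdA s₀))
  -- `v (f s₀ / d s₀) ≤ 1`
  have h1 : v (f s₀) ≤ v (d s₀) := by
    refine (hf s₀).trans ?_
    rw [← Finset.mul_prod_erase Finset.univ d (Finset.mem_univ s₀), map_mul]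
    exact mul_le_of_le_one_right' (hprod_le _)
  rw [map_div₀]
  exact div_le_one_of_le₀ h1 zero_le

/-- `A` is closed, effective form. -/
theorem h51c_mem_of_close {d : K} (hd : ∀ f : S → K, (∀ s, v (f s) ≤ v d) → f ∈ A)
    {f g : S → K} (hg : g ∈ A) (h : ∀ s, v (f s - g s) ≤ v d) : f ∈ A := by
  have h1 : f - g ∈ A := hd (f - g) h
  have h2 := A.add_mem h1 hg
  simpa using h2

/-- **Closedness**: a function that can be approximated arbitrarily well by elements of `A`
lies in `A`. -/
theorem h51c_closed [Finite S] (hA : H51cFrame v A) {f : S → K}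
    (h : ∀ c : K, c ≠ 0 → ∃ g ∈ A, ∀ s, v (f s - g s) ≤ v c) : f ∈ A := by
  obtain ⟨d, hd0, -, hd⟩ := h51c_conductor hA
  obtain ⟨g, hg, hfg⟩ := h d hd0
  exact h51c_mem_of_close hd hg hfg

/-- **Unit inverse**: a function of `A` whose values are units of the valuation ring has its
inverse in `A`. -/
theorem h51c_unit_inv [Finite S] (hA : H51cFrame v A) {u : S → K} (hu : u ∈ A)
    (h1 : ∀ s, v (u s) = 1) : (fun s => (u s)⁻¹) ∈ A := by
  classical
  haveI : Fintype S := Fintype.ofFinite S
  have hu0 : ∀ s, u s ≠ 0 := fun s h0 => by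
    have := h1 s
    rw [h0, map_zero] at this
    exact zero_ne_one this
  -- `∏_{t ∈ T} (u - u t) = u q + c`, `q ∈ A`, `c` a unit constant
  have key : ∀ T : Finset S, ∃ q ∈ A, ∃ c : K, v c = 1 ∧
      ∀ s, (∏ t ∈ T, (u s - u t)) = u s * q s + c := by
    intro T
    induction T using Finset.induction_on with
    | empty =>
      exact ⟨0, A.zero_mem, 1, map_one v, fun s => by simp⟩
    | insert t T ht ih =>
      obtain ⟨q, hq, c, hc, h⟩ := ih
      refine ⟨q * (u - fun _ => u t) + fun _ => c, ?_, c * (- u t), ?_, ?_⟩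
      · exact A.add_mem (A.mul_mem hq (A.sub_mem hu (hA.const _ (h1 t).le))) (hA.const _ hc.le)
      · rw [map_mul, Valuation.map_neg, hc, h1 t, one_mul]
      · intro s
        rw [Finset.prod_insert ht, h s]
        simp only [Pi.add_apply, Pi.mul_apply, Pi.sub_apply]
        ring
  obtain ⟨q, hq, c, hc, h⟩ := key Finset.univ
  have hc0 : c ≠ 0 := fun h0 => by
    rw [h0, map_zero] at hc
    exact zero_ne_one hc
  have e : (fun s => (u s)⁻¹) = fun s => (-c⁻¹) * q s := by
    funext s
    have h2 : (∏ t ∈ Finset.univ, (u s - u t)) = 0 :=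
      Finset.prod_eq_zero (Finset.mem_univ s) (sub_self _)
    rw [h s] at h2
    have h3 : u s * q s = -c := by linear_combination h2
    have hus := hu0 s
    have h4 : q s = -c / u s := by
      rw [eq_div_iff hus]
      linear_combination h3
    rw [h4]
    field_simp
  rw [e]
  refine h51c_smul_mem hA ?_ hq
  rw [Valuation.map_neg, map_inv₀, hc, inv_one]

/-! ## Taylor expansions with integral remainder -/

/-- second order Taylor expansion of a polynomial with coefficients in a subring `O`. -/
theorem h51c_taylor2 (O : Subring K) (N : ℕ) (a : ℕ → K) (ha : ∀ j, a j ∈ O) {x h : K}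
    (hx : x ∈ O) (hh : h ∈ O) :
    ∃ k ∈ O, ∑ j ∈ Finset.range (N + 1), a j * (x + h) ^ j =
      ∑ j ∈ Finset.range (N + 1), a j * x ^ j +
        (∑ j ∈ Finset.range (N + 1), a j * (j : K) * x ^ (j - 1)) * h + k * h ^ 2 := by
  set F : O[X] := ∑ j ∈ Finset.range (N + 1), C (⟨a j, ha j⟩ : O) * X ^ j with hF
  obtain ⟨k, hk⟩ := F.binomExpansion ⟨x, hx⟩ ⟨h, hh⟩
  refine ⟨k, k.2, ?_⟩
  have h1 := congrArg (fun z : O => (z : K)) hk
  simp only [hF, eval_finsetSum, derivative_sum, derivative_C_mul_X_pow, eval_mul, eval_C,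
    eval_pow, eval_X] at h1
  push_cast at h1
  exact h1

/-- first order expansion of the derivative. -/
theorem h51c_taylor1 (O : Subring K) (N : ℕ) (a : ℕ → K) (ha : ∀ j, a j ∈ O) {x x' : K}
    (hx : x ∈ O) (hx' : x' ∈ O) :
    ∃ m ∈ O, ∑ j ∈ Finset.range (N + 1), a j * (j : K) * x ^ (j - 1) -
      ∑ j ∈ Finset.range (N + 1), a j * (j : K) * x' ^ (j - 1) = m * (x - x') := by
  set F : O[X] := ∑ j ∈ Finset.range (N + 1), C (⟨a j, ha j⟩ : O) * X ^ j with hF
  obtain ⟨m, hm⟩ := (derivative F).evalSubFactor ⟨x, hx⟩ ⟨x', hx'⟩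
  refine ⟨m, m.2, ?_⟩
  have h1 := congrArg (fun z : O => (z : K)) hm
  simp only [hF, eval_finsetSum, derivative_sum, derivative_C_mul_X_pow, eval_mul, eval_C,
    eval_pow, eval_X] at h1
  push_cast at h1
  exact h1

/-! ## Newton -/

/-- polynomials in elements of `A` with coefficients in `A` lie in `A`. -/
theorem h51c_poly_mem (N : ℕ) {c : ℕ → S → K} (hc : ∀ j, c j ∈ A) {g : S → K} (hg : g ∈ A) :
    (fun s => ∑ j ∈ Finset.range (N + 1), c j s * g s ^ j) ∈ A := by
  have e : (fun s => ∑ j ∈ Finset.range (N + 1), c j s * g s ^ j) =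
      ∑ j ∈ Finset.range (N + 1), c j * g ^ j := by
    funext s
    simp [Finset.sum_apply]
  rw [e]
  exact A.sum_mem (fun j _ => A.mul_mem (hc j) (A.pow_mem hg j))

theorem h51c_dpoly_mem (N : ℕ) {c : ℕ → S → K} (hc : ∀ j, c j ∈ A) {g : S → K} (hg : g ∈ A) :
    (fun s => ∑ j ∈ Finset.range (N + 1), c j s * (j : K) * g s ^ (j - 1)) ∈ A := by
  have e : (fun s => ∑ j ∈ Finset.range (N + 1), c j s * (j : K) * g s ^ (j - 1)) =
      ∑ j ∈ Finset.range (N + 1), c j * (j : S → K) * g ^ (j - 1) := by
    funext s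
    simp [Finset.sum_apply]
  rw [e]
  exact A.sum_mem (fun j _ => A.mul_mem (A.mul_mem (hc j) (natCast_mem A j)) (A.pow_mem hg _))

/-- **Newton / Hensel in `A`**: let `F = ∑_{j ≤ N} c_j Y^j` with `c_j ∈ A`, `y₀ ∈ A` with
`F'(y₀)` a pointwise unit, and `y` a pointwise root of `F` with `y ≡ y₀` modulo the maximal
ideal.  Then `y ∈ A`.  (`harch`: the value group has rank one.) -/
theorem h51c_newton [Finite S] (hA : H51cFrame v A)
    (harch : ∀ x : K, v x < 1 → ∀ d : K, d ≠ 0 → ∃ n : ℕ, v x ^ n ≤ v d)
    (N : ℕ) {c : ℕ → S → K} (hc : ∀ j, c j ∈ A) {y₀ : S → K} (hy₀ : y₀ ∈ A) (y : S → K)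
    (hroot : ∀ s, ∑ j ∈ Finset.range (N + 1), c j s * y s ^ j = 0)
    (hclose : ∀ s, v (y s - y₀ s) < 1)
    (hder : ∀ s, v (∑ j ∈ Finset.range (N + 1), c j s * (j : K) * y₀ s ^ (j - 1)) = 1) :
    y ∈ A := by
  classical
  haveI : Fintype S := Fintype.ofFinite S
  set P : (S → K) → S → K := fun g s => ∑ j ∈ Finset.range (N + 1), c j s * g s ^ j with hP
  set D : (S → K) → S → K :=
    fun g s => ∑ j ∈ Finset.range (N + 1), c j s * (j : K) * g s ^ (j - 1) with hD
  have hPA : ∀ g ∈ A, P g ∈ A := fun g hg => h51c_poly_mem N hc hg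
  have hDA : ∀ g ∈ A, D g ∈ A := fun g hg => h51c_dpoly_mem N hc hg
  obtain ⟨w, hw⟩ : ∃ w : S → K, w = fun s => (D y₀ s)⁻¹ := ⟨_, rfl⟩
  have hwA : w ∈ A := by
    rw [hw]
    exact h51c_unit_inv hA (hDA y₀ hy₀) hder
  have hD0 : ∀ s, D y₀ s ≠ 0 := fun s h0 => by
    have := hder s
    change v (D y₀ s) = 1 at this
    rw [h0, map_zero] at this
    exact zero_ne_one this
  -- the iteration
  let g : ℕ → S → K := fun n => Nat.rec y₀ (fun _ gn => gn - P gn * w) n
  have hg0 : g 0 = y₀ := rfl
  have hgs : ∀ n, g (n + 1) = g n - P (g n) * w := fun n => rfl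
  have hgA : ∀ n, g n ∈ A := by
    intro n
    induction n with
    | zero => exact hy₀
    | succ n ih => rw [hgs]; exact A.sub_mem ih (A.mul_mem (hPA _ ih) hwA)
  have hyint : ∀ s, v (y s) ≤ 1 := by
    intro s
    have e : y s = (y s - y₀ s) + y₀ s := by ring
    rw [e]
    exact (v.map_add _ _).trans (max_le (hclose s).le (hA.int y₀ hy₀ s))
  -- the error estimate
  have hbound : ∀ n s, v (y s - g n s) ≤ v (y s - y₀ s) ^ (n + 1) := by
    intro n
    induction n with
    | zero =>
      intro s
      rw [hg0, zero_add, pow_one]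
    | succ n ih =>
      intro s
      set ρ := v (y s - y₀ s) with hρ
      set e := y s - g n s with he
      have hρ1 : ρ ≤ 1 := (hclose s).le
      have hve : v e ≤ ρ ^ (n + 1) := ih s
      have hveρ : v e ≤ ρ := hve.trans (pow_le_of_le_one zero_le hρ1 (Nat.succ_ne_zero n))
      have hve1 : v e ≤ 1 := hveρ.trans hρ1
      have hgint : v (g n s) ≤ 1 := hA.int _ (hgA n) s
      have hcint : ∀ j, c j s ∈ v.integer := fun j => hA.int _ (hc j) s
      obtain ⟨k, hk, hT2⟩ := h51c_taylor2 v.integer N (fun j => c j s) hcint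
        (x := g n s) (h := e) hgint hve1
      obtain ⟨m, hm, hT1⟩ := h51c_taylor1 v.integer N (fun j => c j s) hcint
        (x := g n s) (x' := y₀ s) hgint (hA.int y₀ hy₀ s)
      have hxe : g n s + e = y s := by rw [he]; ring
      rw [hxe, hroot s] at hT2
      -- `P (g n) s = - D (g n) s * e - k e²`
      have hPg : P (g n) s = -(D (g n) s * e) - k * e ^ 2 := by
        change ∑ j ∈ Finset.range (N + 1), c j s * g n s ^ j = _
        change (0 : K) = ∑ j ∈ Finset.range (N + 1), c j s * g n s ^ j +
          (D (g n) s) * e + k * e ^ 2 at hT2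
        linear_combination -hT2
      have hDg : D (g n) s - D y₀ s = m * (g n s - y₀ s) := hT1
      have hws : w s * D y₀ s = 1 := by
        rw [hw]
        exact inv_mul_cancel₀ (hD0 s)
      have hvw : v (w s) = 1 := by
        rw [hw]
        change v ((D y₀ s)⁻¹) = 1
        rw [map_inv₀]
        have := hder s
        change v (D y₀ s) = 1 at this
        rw [this, inv_one]
      have herr : y s - g (n + 1) s =
          e * (-(m * (g n s - y₀ s) * w s)) - k * e ^ 2 * w s := by
        rw [hgs]
        change y s - (g n s - P (g n) s * w s) = _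
        rw [hPg]
        have h3 : D (g n) s = D y₀ s + m * (g n s - y₀ s) := by linear_combination hDg
        rw [h3]
        linear_combination (-e) * hws
      have hvdiff : v (g n s - y₀ s) ≤ ρ := by
        have e2 : g n s - y₀ s = (y s - y₀ s) - e := by rw [he]; ring
        rw [e2]
        exact (v.map_sub _ _).trans (max_le le_rfl hveρ)
      have hA1 : v (e * (-(m * (g n s - y₀ s) * w s))) ≤ v e * ρ := by
        rw [map_mul, Valuation.map_neg, map_mul, map_mul, hvw, mul_one]
        refine mul_le_mul_right ?_ _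
        calc v m * v (g n s - y₀ s) ≤ 1 * ρ := mul_le_mul' hm hvdiff
          _ = ρ := one_mul _
      have hA2 : v (k * e ^ 2 * w s) ≤ v e * ρ := by
        rw [map_mul, map_mul, hvw, mul_one, map_pow, pow_two]
        calc v k * (v e * v e) ≤ 1 * (v e * ρ) :=
              mul_le_mul' hk (mul_le_mul_right hveρ _)
          _ = v e * ρ := one_mul _
      rw [herr]
      refine ((v.map_sub _ _).trans (max_le hA1 hA2)).trans ?_
      rw [pow_succ]
      exact mul_le_mul_left hve _
  -- conclusion
  obtain ⟨d, hd0, -, hd⟩ := h51c_conductor hA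
  have hn : ∀ s, ∃ n : ℕ, v (y s - y₀ s) ^ n ≤ v d := fun s => harch _ (hclose s) d hd0
  choose n hn using hn
  set M := ∑ s, n s with hM
  refine h51c_mem_of_close hd (hgA M) (fun s => ?_)
  refine (hbound M s).trans (le_trans ?_ (hn s))
  refine pow_le_pow_right_of_le_one' (hclose s).le ?_
  have : n s ≤ M := Finset.single_le_sum (f := n) (fun _ _ => Nat.zero_le _) (Finset.mem_univ s)
  omega

/-! ## Cramer -/

/-- **Cramer**: the signed maximal minors of an `n × (n + 1)` matrix form a kernel vector. -/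
theorem h51c_cramer {R : Type*} [CommRing R] {n : ℕ} (M : Matrix (Fin n) (Fin (n + 1)) R)
    (i : Fin n) :
    ∑ j : Fin (n + 1), M i j * ((-1) ^ (j : ℕ) * (M.submatrix id (Fin.succAbove j)).det) = 0 := by
  set M' : Matrix (Fin (n + 1)) (Fin (n + 1)) R :=
    Matrix.of (fun a b => (Fin.cases (M i b) (fun a' => M a' b) a : R)) with hM'
  have h0 : M'.det = 0 := by
    refine Matrix.det_zero_of_row_eq (i := 0) (j := i.succ) (Fin.succ_ne_zero i).symm ?_
    funext j
    simp [hM']
  rw [Matrix.det_succ_row_zero] at h0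
  rw [← h0]
  refine Finset.sum_congr rfl (fun j _ => ?_)
  have e : M'.submatrix Fin.succ (Fin.succAbove j) = M.submatrix id (Fin.succAbove j) := by
    ext a b
    simp [hM']
  rw [e]
  have e0 : M' 0 j = M i j := by simp [hM']
  rw [e0]
  ring

/-! ## The ring of integral functions and the product ring on `S × S'` -/

/-- all functions with integral values. -/
def h51c_intRing (v : Valuation K Γ₀) (T : Type*) : Subring (T → K) where
  carrier := {f | ∀ t, v (f t) ≤ 1}
  mul_mem' {f g} hf hg t := by
    change v (f t * g t) ≤ 1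
    rw [map_mul]
    exact mul_le_one' (hf t) (hg t)
  one_mem' t := by
    change v (1 : K) ≤ 1
    rw [map_one]
  add_mem' {f g} hf hg t := (v.map_add _ _).trans (max_le (hf t) (hg t))
  zero_mem' t := by
    change v (0 : K) ≤ 1
    rw [map_zero]
    exact zero_le
  neg_mem' {f} hf t := by
    change v (- f t) ≤ 1
    rw [Valuation.map_neg]
    exact hf t

theorem h51c_mem_intRing {T : Type*} {f : T → K} :
    f ∈ h51c_intRing v T ↔ ∀ t, v (f t) ≤ 1 := Iff.rfl

/-- the frame of all integral functions. -/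
theorem h51c_intRing_frame (T : Type*) [DecidableEq T] : H51cFrame v (h51c_intRing v T) where
  const c hc _ := hc
  int f hf := hf
  sep s s' hne := by
    refine ⟨fun t => if t = s then 1 else 0, fun t => ?_, ?_⟩
    · by_cases h : t = s
      · simp [h]
      · simp [h]
    · simp [hne.symm]

theorem h51c_le_intRing (hA : H51cFrame v A) : A ≤ h51c_intRing v S :=
  fun f hf => hA.int f hf

variable {S' : Type*}

/-- the ring of functions on `S × S'` generated by `A` (in the first variable) and `A'`
(in the second variable): "`A ⊗ A'`". -/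
def h51c_prod (A : Subring (S → K)) (A' : Subring (S' → K)) : Subring (S × S' → K) :=
  Subring.closure ({f | ∃ a ∈ A, f = fun p => a p.1} ∪ {f | ∃ b ∈ A', f = fun p => b p.2})

variable {A' : Subring (S' → K)}

theorem h51c_fst_mem {a : S → K} (ha : a ∈ A) :
    (fun p : S × S' => a p.1) ∈ h51c_prod A A' :=
  Subring.subset_closure (Or.inl ⟨a, ha, rfl⟩)

theorem h51c_snd_mem {b : S' → K} (hb : b ∈ A') :
    (fun p : S × S' => b p.2) ∈ h51c_prod A A' :=
  Subring.subset_closure (Or.inr ⟨b, hb, rfl⟩)

/-- Sweedler form, indexed by a finite type. -/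
theorem h51c_sweedler_of_mem {f : S × S' → K} (hf : f ∈ h51c_prod A A') :
    ∃ (ι : Type) (_ : Fintype ι) (a : ι → S → K) (b : ι → S' → K),
      (∀ i, a i ∈ A) ∧ (∀ i, b i ∈ A') ∧ ∀ x y, f (x, y) = ∑ i, a i x * b i y := by
  induction hf using Subring.closure_induction with
  | mem f hf =>
    rcases hf with ⟨a, ha, rfl⟩ | ⟨b, hb, rfl⟩
    · exact ⟨Unit, inferInstance, fun _ => a, fun _ => 1, fun _ => ha, fun _ => A'.one_mem,
        fun x y => by simp⟩
    · exact ⟨Unit, inferInstance, fun _ => 1, fun _ => b, fun _ => A.one_mem, fun _ => hb,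
        fun x y => by simp⟩
  | zero =>
    exact ⟨Empty, inferInstance, fun i => i.elim, fun i => i.elim, fun i => i.elim,
      fun i => i.elim, fun x y => by simp⟩
  | one =>
    exact ⟨Unit, inferInstance, fun _ => 1, fun _ => 1, fun _ => A.one_mem, fun _ => A'.one_mem,
      fun x y => by simp⟩
  | add f g _ _ hf hg =>
    obtain ⟨ι, _, a, b, ha, hb, h⟩ := hf
    obtain ⟨ι', _, a', b', ha', hb', h'⟩ := hg
    refine ⟨ι ⊕ ι', inferInstance, Sum.elim a a', Sum.elim b b', ?_, ?_, fun x y => ?_⟩
    · rintro (i | i)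
      · exact ha i
      · exact ha' i
    · rintro (i | i)
      · exact hb i
      · exact hb' i
    · rw [Fintype.sum_sum_type, Pi.add_apply, h, h']
      simp
  | neg f _ hf =>
    obtain ⟨ι, _, a, b, ha, hb, h⟩ := hf
    refine ⟨ι, inferInstance, fun i => - a i, b, fun i => A.neg_mem (ha i), hb, fun x y => ?_⟩
    rw [Pi.neg_apply, h]
    simp
  | mul f g _ _ hf hg =>
    obtain ⟨ι, _, a, b, ha, hb, h⟩ := hf
    obtain ⟨ι', _, a', b', ha', hb', h'⟩ := hg
    refine ⟨ι × ι', inferInstance, fun i => a i.1 * a' i.2, fun i => b i.1 * b' i.2,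
      fun i => A.mul_mem (ha _) (ha' _), fun i => A'.mul_mem (hb _) (hb' _), fun x y => ?_⟩
    rw [Pi.mul_apply, h, h', Finset.sum_mul_sum, Fintype.sum_prod_type]
    refine Finset.sum_congr rfl (fun i _ => Finset.sum_congr rfl (fun j _ => ?_))
    simp only [Pi.mul_apply]
    ring

/-- **Sweedler form** of the elements of the product ring (`Fin n`-indexed, the shape used by
`FHO.comul` and by the adapter to the Prelude's `Flat`). -/
theorem h51c_mem_prod_iff {f : S × S' → K} :
    f ∈ h51c_prod A A' ↔ ∃ (n : ℕ) (a : Fin n → S → K) (b : Fin n → S' → K),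
      (∀ i, a i ∈ A) ∧ (∀ i, b i ∈ A') ∧ ∀ x y, f (x, y) = ∑ i, a i x * b i y := by
  constructor
  · intro hf
    obtain ⟨ι, _, a, b, ha, hb, h⟩ := h51c_sweedler_of_mem hf
    refine ⟨Fintype.card ι, fun i => a ((Fintype.equivFin ι).symm i),
      fun i => b ((Fintype.equivFin ι).symm i), fun i => ha _, fun i => hb _, fun x y => ?_⟩
    rw [h]
    exact (Equiv.sum_comp (Fintype.equivFin ι).symm (fun i => a i x * b i y)).symm
  · rintro ⟨n, a, b, ha, hb, h⟩
    have e : f = ∑ i, (fun p : S × S' => a i p.1) * (fun p : S × S' => b i p.2) := by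
      funext ⟨x, y⟩
      rw [h, Finset.sum_apply]
      rfl
    rw [e]
    exact Subring.sum_mem _ (fun i _ => Subring.mul_mem _ (h51c_fst_mem (ha i)) (h51c_snd_mem (hb i)))

/-- the frame of the product ring. -/
theorem h51c_prod_frame (hA : H51cFrame v A) (hA' : H51cFrame v A') :
    H51cFrame v (h51c_prod A A') where
  const c hc := h51c_fst_mem (hA.const c hc)
  int := by
    have h : h51c_prod A A' ≤ h51c_intRing v (S × S') := by
      refine Subring.closure_le.mpr ?_
      rintro f (⟨a, ha, rfl⟩ | ⟨b, hb, rfl⟩)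
      · exact fun p => hA.int a ha p.1
      · exact fun p => hA'.int b hb p.2
    exact fun f hf => h hf
  sep := by
    rintro ⟨x, y⟩ ⟨x', y'⟩ hne
    by_cases hx : x = x'
    · have hy : y ≠ y' := fun hy => hne (by rw [hx, hy])
      obtain ⟨b, hb, hb'⟩ := hA'.sep y y' hy
      exact ⟨_, h51c_snd_mem hb, hb'⟩
    · obtain ⟨a, ha, ha'⟩ := hA.sep x x' hx
      exact ⟨_, h51c_fst_mem ha, ha'⟩

/-- **Group-law shape**: a function `Z` on `S × S'` which is a pointwise root of a polynomial with
coefficients in the product ring, close to an element `Z₀` of the product ring at which the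
derivative is a pointwise unit, is in Sweedler form over `A`, `A'`. -/
theorem h51c_newton_sweedler [Finite S] [Finite S'] (hA : H51cFrame v A)
    (hA' : H51cFrame v A')
    (harch : ∀ x : K, v x < 1 → ∀ d : K, d ≠ 0 → ∃ n : ℕ, v x ^ n ≤ v d)
    (N : ℕ) {c : ℕ → S × S' → K} (hc : ∀ j, c j ∈ h51c_prod A A') {Z₀ : S × S' → K}
    (hZ₀ : Z₀ ∈ h51c_prod A A') (Z : S × S' → K)
    (hroot : ∀ p, ∑ j ∈ Finset.range (N + 1), c j p * Z p ^ j = 0)
    (hclose : ∀ p, v (Z p - Z₀ p) < 1)
    (hder : ∀ p, v (∑ j ∈ Finset.range (N + 1), c j p * (j : K) * Z₀ p ^ (j - 1)) = 1) :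
    ∃ (n : ℕ) (a : Fin n → S → K) (b : Fin n → S' → K),
      (∀ i, a i ∈ A) ∧ (∀ i, b i ∈ A') ∧ ∀ x y, Z (x, y) = ∑ i, a i x * b i y :=
  h51c_mem_prod_iff.mp
    (h51c_newton (h51c_prod_frame hA hA') harch N hc hZ₀ Z hroot hclose hder)

end Fermat.Agent.P5
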