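import Mathlib

/-!
# P5 (wave 5, S19): block ALG-CLOS, frozen interface (sub-architect helper96)

Pure algebra, Mathlib only.  `K` a field, `A` a valuation subring of `K`, `S` a finite type,
`R` an `A`-subalgebra of the ring of functions `S → K`.

* `H96cApprox`  : CONDUCTOR.  If `R` is integral-valued and separates the points of `S`, there is
  `c ≠ 0` in `A` such that every function congruent modulo `c` to an element of `R` lies in `R`
  (Lagrange interpolation; replaces every limit argument).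
* `H96cInv`     : a pointwise unit of `R` is invertible in `R`.
* `H96cNewton`  : approximate Newton.  `Y` with values in the maximal ideal which, for every `n`,
  is a root up to `O(Y ^ n)` of a polynomial over `R` with pointwise unit linear coefficient,
  lies in `R`.
* `H96cSweedler`: elements of the algebra generated by the two pull-backs on `S × S'` are finite
  sums of products.
* `H96cArchQbar`: the valuation subrings of `ℚ̄` over a prime are archimedean (rank one).
-/

set_option autoImplicit false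

namespace Fermat.Agent.P5

/-- **C-APPROX (conductor).** -/
def H96cApprox : Prop :=
  ∀ (K : Type) [Field K] (A : ValuationSubring K) (S : Type) [Finite S]
    (R : Subalgebra A (S → K)),
    (∀ f ∈ R, ∀ s, f s ∈ A) → (∀ s s' : S, (∀ f ∈ R, f s = f s') → s = s') →
    ∃ c : K, c ∈ A ∧ c ≠ 0 ∧
      ∀ f : S → K, (∃ g ∈ R, ∀ s, ∃ a ∈ A, f s - g s = c * a) → f ∈ R

/-- **C-INV.**  A pointwise unit is a unit. -/
def H96cInv : Prop :=
  ∀ (K : Type) [Field K] (A : ValuationSubring K) (S : Type) [Finite S]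
    (R : Subalgebra A (S → K)),
    (∀ f ∈ R, ∀ s, f s ∈ A) →
    ∀ u ∈ R, (∀ s, u s ≠ 0 ∧ (u s)⁻¹ ∈ A) → (fun s => (u s)⁻¹) ∈ R

/-- `A` is archimedean: powers of a non-unit become divisible by any nonzero element. -/
def H96Arch {K : Type} [Field K] (A : ValuationSubring K) : Prop :=
  ∀ y c : K, y ∈ A.nonunits → c ∈ A → c ≠ 0 → ∃ n : ℕ, ∃ a ∈ A, y ^ n = c * a

/-- **C-NEWTON (approximate).** -/
def H96cNewton : Prop :=
  ∀ (K : Type) [Field K] (A : ValuationSubring K), H96Arch A →
  ∀ (S : Type) [Finite S] (R : Subalgebra A (S → K)),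
    (∀ f ∈ R, ∀ s, f s ∈ A) → (∀ s s' : S, (∀ f ∈ R, f s = f s') → s = s') →
    ∀ Y : S → K, (∀ s, Y s ∈ A.nonunits) →
      (∀ n : ℕ, ∃ (d : ℕ) (c : ℕ → S → K), (∀ k, c k ∈ R) ∧
        (∀ s, c 1 s ≠ 0 ∧ (c 1 s)⁻¹ ∈ A) ∧
        ∀ s, ∃ ρ ∈ A, ∑ k ∈ Finset.range (d + 1), c k s * Y s ^ k = ρ * Y s ^ n) →
      Y ∈ R

/-- the subalgebra of functions on `S × S'` generated by the pull-backs of `R` and `R'`. -/
def h96c_prod {K : Type} [Field K] (A : ValuationSubring K) {S S' : Type}
    (R : Subalgebra A (S → K)) (R' : Subalgebra A (S' → K)) : Subalgebra A (S × S' → K) :=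
  Algebra.adjoin A ({F | ∃ f ∈ R, F = fun p => f p.1} ∪ {F | ∃ f ∈ R', F = fun p => f p.2})

/-- **C-SWEEDLER.** -/
def H96cSweedler : Prop :=
  ∀ (K : Type) [Field K] (A : ValuationSubring K) (S S' : Type)
    (R : Subalgebra A (S → K)) (R' : Subalgebra A (S' → K)) (F : S × S' → K),
    F ∈ h96c_prod A R R' →
    ∃ (n : ℕ) (a : Fin n → S → K) (b : Fin n → S' → K),
      (∀ i, a i ∈ R) ∧ (∀ i, b i ∈ R') ∧ ∀ p, F p = ∑ i, a i p.1 * b i p.2

/-- **C-ARCH.**  Valuation subrings of `ℚ̄` over a prime number are archimedean. -/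
def H96cArchQbar : Prop :=
  ∀ (A : ValuationSubring (AlgebraicClosure ℚ)) (ℓ : ℕ), ℓ.Prime →
    (ℓ : AlgebraicClosure ℚ) ∈ A.nonunits → H96Arch A

end Fermat.Agent.P5
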