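import Fermat.Agent.P5.H51Clos
import Fermat.Agent.P5.H96ClosIface

/-!
# P5 (S19), block ALG-CLOS: the frozen Props of `H96ClosIface` (helper51)

* `h51c_approx   : H96cApprox`   (conductor)
* `h51c_inv      : H96cInv`      (pointwise unit => unit)
* `h51c_newtonApprox : H96cNewton`   (approximate Newton)
* `h51c_sweedler : H96cSweedler` (Sweedler form in the product algebra)

All from `P5/H51Clos.lean` (frame `v := A.valuation`, `R.toSubring`).
-/

set_option autoImplicit false
set_option linter.style.haveILetI false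
set_option linter.unusedSectionVars false

noncomputable section

namespace Fermat.Agent.P5

variable {K : Type} [Field K]

/-- constants of `A` lie in every `A`-subalgebra of functions. -/
theorem h51c_const_mem (A : ValuationSubring K) {S : Type} (R : Subalgebra A (S → K)) {c : K}
    (hc : c ∈ A) : (fun _ : S => c) ∈ R :=
  R.algebraMap_mem ⟨c, hc⟩

/-- the frame of an integral-valued, separating subalgebra. -/
theorem h51c_frame_of (A : ValuationSubring K) {S : Type} (R : Subalgebra A (S → K))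
    (hint : ∀ f ∈ R, ∀ s, f s ∈ A) (hsep : ∀ s s' : S, (∀ f ∈ R, f s = f s') → s = s') :
    H51cFrame A.valuation R.toSubring where
  const c hc := h51c_const_mem A R ((A.valuation_le_one_iff c).mp hc)
  int f hf s := (A.valuation_le_one_iff _).mpr (hint f hf s)
  sep s s' hne := by
    by_contra h
    push Not at h
    exact hne (hsep s s' h)

theorem h51c_approx : H96cApprox := by
  intro K _ A S _ R hint hsep
  obtain ⟨d, hd0, hd1, hd⟩ := h51c_conductor (h51c_frame_of A R hint hsep)
  refine ⟨d, (A.valuation_le_one_iff d).mp hd1, hd0, ?_⟩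
  rintro f ⟨g, hg, h⟩
  refine h51c_mem_of_close (A := R.toSubring) hd hg (fun s => ?_)
  obtain ⟨a, ha, e⟩ := h s
  rw [e, map_mul]
  exact mul_le_of_le_one_right' ((A.valuation_le_one_iff a).mpr ha)

/-- unit inverse, only the constants are needed. -/
theorem h51c_unit_inv_of_const {Γ₀ : Type*} [LinearOrderedCommGroupWithZero Γ₀]
    {v : Valuation K Γ₀} {S : Type*} [Finite S] {A : Subring (S → K)}
    (hconst : ∀ c : K, v c ≤ 1 → (fun _ : S => c) ∈ A) {u : S → K} (hu : u ∈ A)
    (h1 : ∀ s, v (u s) = 1) : (fun s => (u s)⁻¹) ∈ A := by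
  classical
  haveI : Fintype S := Fintype.ofFinite S
  have hu0 : ∀ s, u s ≠ 0 := fun s h0 => by
    have := h1 s
    rw [h0, map_zero] at this
    exact zero_ne_one this
  have key : ∀ T : Finset S, ∃ q ∈ A, ∃ c : K, v c = 1 ∧
      ∀ s, (∏ t ∈ T, (u s - u t)) = u s * q s + c := by
    intro T
    induction T using Finset.induction_on with
    | empty =>
      exact ⟨0, A.zero_mem, 1, map_one v, fun s => by simp⟩
    | insert t T ht ih =>
      obtain ⟨q, hq, c, hc, h⟩ := ih
      refine ⟨q * (u - fun _ => u t) + fun _ => c, ?_, c * (- u t), ?_, ?_⟩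
      · exact A.add_mem (A.mul_mem hq (A.sub_mem hu (hconst _ (h1 t).le))) (hconst _ hc.le)
      · rw [map_mul, Valuation.map_neg, hc, h1 t, one_mul]
      · intro s
        rw [Finset.prod_insert ht, h s]
        simp only [Pi.add_apply, Pi.mul_apply, Pi.sub_apply]
        ring
  obtain ⟨q, hq, c, hc, h⟩ := key Finset.univ
  have hc0 : c ≠ 0 := fun h0 => by
    rw [h0, map_zero] at hc
    exact zero_ne_one hc
  have e : (fun s => (u s)⁻¹) = fun s => (-c⁻¹) * q s := by
    funext s
    have h2 : (∏ t ∈ Finset.univ, (u s - u t)) = 0 :=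
      Finset.prod_eq_zero (Finset.mem_univ s) (sub_self _)
    rw [h s] at h2
    have h3 : u s * q s = -c := by linear_combination h2
    have hus := hu0 s
    have h4 : q s = -c / u s := by
      rw [eq_div_iff hus]
      linear_combination h3
    rw [h4]
    field_simp
  rw [e]
  refine A.mul_mem (hconst _ ?_) hq
  rw [Valuation.map_neg, map_inv₀, hc, inv_one]

theorem h51c_inv : H96cInv := by
  intro K _ A S _ R hint u hu h
  refine h51c_unit_inv_of_const (v := A.valuation) (A := R.toSubring)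
    (fun c hc => h51c_const_mem A R ((A.valuation_le_one_iff c).mp hc)) hu (fun s => ?_)
  have h1 : A.valuation (u s) ≤ 1 := (A.valuation_le_one_iff _).mpr (hint u hu s)
  have h2 : A.valuation ((u s)⁻¹) ≤ 1 := (A.valuation_le_one_iff _).mpr (h s).2
  rw [map_inv₀] at h2
  have h3 : A.valuation (u s) ≠ 0 := (Valuation.ne_zero_iff _).mpr (h s).1
  have h4 : 1 ≤ A.valuation (u s) := by
    have := (inv_le_one₀ (zero_lt_iff.mpr h3)).mp h2
    exact this
  exact le_antisymm h1 h4

/-- the archimedean property in valuation form. -/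
theorem h51c_arch_of {A : ValuationSubring K} (hA : H96Arch A) :
    ∀ x : K, A.valuation x < 1 → ∀ d : K, d ≠ 0 → ∃ n : ℕ, A.valuation x ^ n ≤ A.valuation d := by
  intro x hx d hd
  by_cases h : A.valuation d ≤ 1
  · obtain ⟨n, a, ha, e⟩ := hA x d (A.mem_nonunits_iff.mpr hx)
      ((A.valuation_le_one_iff d).mp h) hd
    refine ⟨n, ?_⟩
    rw [← map_pow, e, map_mul]
    exact mul_le_of_le_one_right' ((A.valuation_le_one_iff a).mpr ha)
  · exact ⟨0, by rw [pow_zero]; exact (not_le.mp h).le⟩

/-- **C-NEWTON, corrected**: `H96cNewton` with `1 ≤ d` (for `d = 0` the linear coefficient is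
not in the sum and the frozen `H96cNewton` is false). -/
def H51cNewtonFix : Prop :=
  ∀ (K : Type) [Field K] (A : ValuationSubring K), H96Arch A →
  ∀ (S : Type) [Finite S] (R : Subalgebra A (S → K)),
    (∀ f ∈ R, ∀ s, f s ∈ A) → (∀ s s' : S, (∀ f ∈ R, f s = f s') → s = s') →
    ∀ Y : S → K, (∀ s, Y s ∈ A.nonunits) →
      (∀ n : ℕ, ∃ (d : ℕ) (c : ℕ → S → K), 1 ≤ d ∧ (∀ k, c k ∈ R) ∧
        (∀ s, c 1 s ≠ 0 ∧ (c 1 s)⁻¹ ∈ A) ∧
        ∀ s, ∃ ρ ∈ A, ∑ k ∈ Finset.range (d + 1), c k s * Y s ^ k = ρ * Y s ^ n) →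
      Y ∈ R

theorem h51c_newtonFix : H51cNewtonFix := by
  intro K _ A hArch S _ R hint hsep Y hY happ
  classical
  haveI : Fintype S := Fintype.ofFinite S
  have hF := h51c_frame_of A R hint hsep
  have harch := h51c_arch_of hArch
  obtain ⟨d, hd0, hd1, hd⟩ := h51c_conductor hF
  have hYv : ∀ s, A.valuation (Y s) < 1 := fun s => A.mem_nonunits_iff.mp (hY s)
  -- `n` with `v (Y s) ^ n ≤ v d` for all `s`
  have hn : ∀ s, ∃ n : ℕ, A.valuation (Y s) ^ n ≤ A.valuation d := fun s => harch _ (hYv s) d hd0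
  choose n hn using hn
  set M := ∑ s, n s with hM
  have hMn : ∀ s, A.valuation (Y s) ^ M ≤ A.valuation d := fun s => by
    refine le_trans ?_ (hn s)
    exact pow_le_pow_right_of_le_one' (hYv s).le
      (Finset.single_le_sum (f := n) (fun _ _ => Nat.zero_le _) (Finset.mem_univ s))
  obtain ⟨N, c, hN, hc, hc1, hroot⟩ := happ M
  choose ρ hρ hρe using hroot
  -- the error term lies in `R`
  have hε : (fun s => ρ s * Y s ^ M) ∈ R.toSubring := by
    refine hd _ (fun s => ?_)
    rw [map_mul, map_pow]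
    calc A.valuation (ρ s) * A.valuation (Y s) ^ M ≤ 1 * A.valuation d :=
          mul_le_mul' ((A.valuation_le_one_iff _).mpr (hρ s)) (hMn s)
      _ = A.valuation d := one_mul _
  -- corrected coefficients
  obtain ⟨c', hc'0, hc'j⟩ : ∃ c' : ℕ → S → K, (∀ s, c' 0 s = c 0 s - ρ s * Y s ^ M) ∧
      ∀ j, c' (j + 1) = c (j + 1) :=
    ⟨fun j => if j = 0 then c 0 - (fun s => ρ s * Y s ^ M) else c j, fun s => by simp,
      fun j => by simp⟩
  have hc'R : ∀ j, c' j ∈ R.toSubring := by
    intro j
    rcases Nat.eq_zero_or_pos j with rfl | hj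
    · have e : c' 0 = c 0 - (fun s => ρ s * Y s ^ M) := funext (fun s => by rw [hc'0]; rfl)
      rw [e]
      exact Subring.sub_mem _ (hc 0) hε
    · obtain ⟨j', rfl⟩ : ∃ j', j = j' + 1 := ⟨j - 1, by omega⟩
      rw [hc'j]
      exact hc _
  have h0R : (0 : S → K) ∈ R.toSubring := Subring.zero_mem _
  refine h51c_newton hF harch N hc'R h0R Y ?_ ?_ ?_
  · intro s
    have e := hρe s
    rw [Finset.sum_range_succ'] at e ⊢
    have e1 : ∀ j ∈ Finset.range N, c' (j + 1) s * Y s ^ (j + 1) = c (j + 1) s * Y s ^ (j + 1) :=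
      fun j _ => by rw [hc'j]
    rw [Finset.sum_congr rfl e1, hc'0]
    linear_combination e
  · intro s
    simpa using hYv s
  · intro s
    -- the derivative at `0` is `c 1`
    have e : ∑ j ∈ Finset.range (N + 1), c' j s * (j : K) * (0 : S → K) s ^ (j - 1) = c 1 s := by
      rw [Finset.sum_eq_single 1]
      · rw [hc'j 0]
        simp
      · intro j _ hj
        rcases Nat.eq_zero_or_pos j with rfl | hj0
        · simp
        · have h2 : j - 1 ≠ 0 := by omega
          simp [h2]
      · intro h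
        exact absurd (Finset.mem_range.mpr (by omega)) h
    rw [e]
    have h1 : A.valuation (c 1 s) ≤ 1 := (A.valuation_le_one_iff _).mpr (hint _ (hc 1) s)
    have h2 : A.valuation ((c 1 s)⁻¹) ≤ 1 := (A.valuation_le_one_iff _).mpr (hc1 s).2
    rw [map_inv₀] at h2
    have h3 : A.valuation (c 1 s) ≠ 0 := (Valuation.ne_zero_iff _).mpr (hc1 s).1
    exact le_antisymm h1 ((inv_le_one₀ (zero_lt_iff.mpr h3)).mp h2)

/-! ## Sweedler -/

theorem h51c_sweedler : H96cSweedler := by
  intro K _ A S S' R R' F hF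
  suffices h : ∃ (ι : Type) (_ : Fintype ι) (a : ι → S → K) (b : ι → S' → K),
      (∀ i, a i ∈ R) ∧ (∀ i, b i ∈ R') ∧ ∀ p, F p = ∑ i, a i p.1 * b i p.2 by
    obtain ⟨ι, _, a, b, ha, hb, h⟩ := h
    refine ⟨Fintype.card ι, fun i => a ((Fintype.equivFin ι).symm i),
      fun i => b ((Fintype.equivFin ι).symm i), fun i => ha _, fun i => hb _, fun p => ?_⟩
    rw [h]
    exact (Equiv.sum_comp (Fintype.equivFin ι).symm (fun i => a i p.1 * b i p.2)).symm
  unfold h96c_prod at hF
  induction hF using Algebra.adjoin_induction with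
  | mem f hf =>
    rcases hf with ⟨a, ha, rfl⟩ | ⟨b, hb, rfl⟩
    · exact ⟨Unit, inferInstance, fun _ => a, fun _ => 1, fun _ => ha, fun _ => R'.one_mem,
        fun p => by simp⟩
    · exact ⟨Unit, inferInstance, fun _ => 1, fun _ => b, fun _ => R.one_mem, fun _ => hb,
        fun p => by simp⟩
  | algebraMap r =>
    exact ⟨Unit, inferInstance, fun _ => algebraMap A (S → K) r, fun _ => 1,
      fun _ => R.algebraMap_mem r, fun _ => R'.one_mem, fun p => by simp [Algebra.algebraMap_eq_smul_one]⟩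
  | add f g _ _ hf hg =>
    obtain ⟨ι, _, a, b, ha, hb, h⟩ := hf
    obtain ⟨ι', _, a', b', ha', hb', h'⟩ := hg
    refine ⟨ι ⊕ ι', inferInstance, Sum.elim a a', Sum.elim b b', ?_, ?_, fun p => ?_⟩
    · rintro (i | i)
      · exact ha i
      · exact ha' i
    · rintro (i | i)
      · exact hb i
      · exact hb' i
    · rw [Fintype.sum_sum_type, Pi.add_apply, h, h']
      simp
  | mul f g _ _ hf hg =>
    obtain ⟨ι, _, a, b, ha, hb, h⟩ := hf
    obtain ⟨ι', _, a', b', ha', hb', h'⟩ := hg
    refine ⟨ι × ι', inferInstance, fun i => a i.1 * a' i.2, fun i => b i.1 * b' i.2,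
      fun i => R.mul_mem (ha _) (ha' _), fun i => R'.mul_mem (hb _) (hb' _), fun p => ?_⟩
    rw [Pi.mul_apply, h, h', Finset.sum_mul_sum, Fintype.sum_prod_type]
    refine Finset.sum_congr rfl (fun i _ => Finset.sum_congr rfl (fun j _ => ?_))
    simp only [Pi.mul_apply]
    ring

end Fermat.Agent.P5
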