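import Fermat.Agent.P5.H51SF
import Fermat.Agent.P5.H56GeoAsm
import Fermat.Agent.Red.GV.BarGalois

/-!
# Wave 5, pillar (P), row GEO-RR-SF (helper51): the leaf `H56gInfFin`

`h51i_infFin : H56gInfFin` (exact frozen Prop of `P5/H56GeoAsm.lean`): the reductions of the
places which are not finite at `A` lie in a finite set of places of the special fibre, namely
the zeros of the reduction of `1/j`.

Proof.  `1/j` is a Gauss unit.  If `v` is not finite at `A`, then `1/j` takes at `v` a value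
`a ∈ 𝔪_A`; the function `f = 1/j - a` is a Gauss unit with the same reduction as `1/j`, it
vanishes at `v` and it is regular at every place with the same reduction as `v` (such a place
is not finite at `A` either).  By RED-DIV, `ord_{r v} (red (1/j)) = ∑_{v' ∼ v} ord_{v'} f > 0`.
-/

set_option autoImplicit false
set_option linter.unusedSectionVars false

open AlgebraicCurve ModularCurve

noncomputable section

namespace Fermat.Agent.P5

open Fermat.Agent.S37 Fermat.Agent.Red.GV Fermat.Agent.Red.Match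

variable {A : ValuationSubring Kbar} {M : ℕ} [NeZero M] {ℓ : ℕ}

/-- at a place which is not finite at `A`, the function `1/j - a` is regular. -/
theorem h51i_regular {v : Place Kbar (FF M)} (hv : ¬ IsFinAt A v) (a : Kbar) :
    (jB M)⁻¹ - cst M a ∈ v.toValuationSubring := by
  obtain ⟨b, -, hvb⟩ := exists_valueAt_inv_of_not_isFinAt hv
  have h1 : (jB M)⁻¹ - cst M b ∈ v.toValuationSubring :=
    ValuationSubring.nonunits_subset hvb
  have h2 : cst M (b - a) ∈ v.toValuationSubring := v.algebraMap_mem' _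
  have h3 : (jB M)⁻¹ - cst M a = ((jB M)⁻¹ - cst M b) + cst M (b - a) := by
    simp only [cst, map_sub]
    ring
  rw [h3]
  exact add_mem h1 h2

/-- **INF-FIN.** -/
theorem h51i_infFin_at (hℓ : ℓ.Prime) (hM : ¬ ℓ ∣ M) (hA : A.LiesOverPrime ℓ)
    (r : Place Kbar (FF M) → Place (h13sK A) (h13sFt A M)) (hr : H13sIsRed A M r) :
    ∃ S : Finset (Place (h13sK A) (h13sFt A M)),
      ∀ v : Place Kbar (FF M), ¬ IsFinAt A v → r v ∈ S := by
  classical
  have hg : H13rBase Kbar (FF M) := h40r_base_FF M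
  have hji : (jB M)⁻¹ ∈ gaussV A M := jB_inv_mem_gaussV A M hℓ hM hA
  have hj : jB M ∈ gaussV A M := jB_mem_gaussV A M
  have hj0 : jB M ≠ 0 := fun h => (h40r_transcendental_FF M) (h ▸ isAlgebraic_zero)
  have hjii : ((jB M)⁻¹)⁻¹ ∈ gaussV A M := by rw [inv_inv]; exact hj
  have hred0 : gaussR A M ⟨(jB M)⁻¹, hji⟩ ≠ 0 := by
    intro h
    rcases (gaussR_eq_zero_iff A M hℓ hM hA _).1 h with h1 | h1
    · exact inv_ne_zero hj0 h1
    · exact h1 hjii
  obtain ⟨D₀, hD₀, -⟩ := hg.pd (jB M)⁻¹ (inv_ne_zero hj0)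
  refine ⟨(h13sPush r D₀).support, fun v hv => ?_⟩
  rw [Finsupp.mem_support_iff, hr.2.2 (jB M)⁻¹ hji hjii D₀ hD₀]
  obtain ⟨a, ha, hva⟩ := exists_valueAt_inv_of_not_isFinAt hv
  have hcst : cst M a ∈ gaussV A M :=
    (cst_mem_gaussV_iff A M hA a).2 (ValuationSubring.nonunits_subset ha)
  have hf : (jB M)⁻¹ - cst M a ∈ gaussV A M := sub_mem hji hcst
  have hfred : gaussR A M ⟨(jB M)⁻¹ - cst M a, hf⟩ = gaussR A M ⟨(jB M)⁻¹, hji⟩ := by
    have h1 : (⟨(jB M)⁻¹ - cst M a, hf⟩ : gaussV A M) =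
        ⟨(jB M)⁻¹, hji⟩ - ⟨cst M a, hcst⟩ := rfl
    rw [h1, map_sub, gaussR_cst_of_nonunit A M hA a ha hcst, sub_zero]
  have hf0 : (jB M)⁻¹ - cst M a ≠ 0 := by
    intro h
    apply hred0
    rw [← hfred]
    have h1 : (⟨(jB M)⁻¹ - cst M a, hf⟩ : gaussV A M) = 0 := Subtype.ext h
    rw [h1, map_zero]
  have hfi : ((jB M)⁻¹ - cst M a)⁻¹ ∈ gaussV A M := by
    by_contra h
    exact hred0 (hfred ▸ (gaussR_eq_zero_iff A M hℓ hM hA ⟨_, hf⟩).2 (Or.inr h))
  obtain ⟨D, hD, -⟩ := hg.pd _ hf0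
  have hpush := hr.2.2 _ hf hfi D hD (r v)
  have hredeq : h13sRed A M ⟨(jB M)⁻¹ - cst M a, hf⟩ = h13sRed A M ⟨(jB M)⁻¹, hji⟩ :=
    Subtype.ext hfred
  rw [← hredeq, ← hpush, h51f_push_apply r hr.2.1, h4r_red_apply]
  -- the sum over the residue disc of `v` is positive
  apply ne_of_gt
  have hDv : 0 < D v := by
    rw [hD v]
    exact Fermat.Agent.Red.SM.h31_ord_pos_of_mem_nonunits v hva hf0
  have hvs : v ∈ D.support := Finsupp.mem_support_iff.2 hDv.ne'
  have hnn : ∀ v' ∈ D.support, 0 ≤ (if SameRed A v' v then D v' else 0) := by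
    intro v' _
    split_ifs with h
    · rw [hD v']
      exact Fermat.Agent.S24.DiffPlace.ord_nonneg_of_mem v'
        (h51i_regular (fun h' => hv ((sameRed_isFinAt_iff h).1 h')) a)
    · exact le_rfl
  have hle := Finset.single_le_sum hnn hvs
  rw [if_pos (sameRed_refl A v)] at hle
  exact lt_of_lt_of_le hDv hle

/-- **INF-FIN**, the frozen leaf. -/
theorem h51i_infFin : H56gInfFin :=
  fun _ hℓ _ _ hM _ _ hA r hr => h51i_infFin_at hℓ hM hA r hr

end Fermat.Agent.P5
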