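import Fermat.Agent.P5.H13SFIface
import Fermat.Agent.P5.H40RRInst
import Fermat.Agent.P5.H40SFField
import Fermat.Agent.P5.H78RRMoving
import Fermat.Agent.P5.H4Rep

/-!
# Wave 5, pillar (P), row GEO-RR-SF (helper51): the special fibre, consequences of RED-DIV

`M` a good level, `A` a valuation subring of `ℚ̄` over `ℓ`, `k = h13sK A`, `F~ = h13sFt A M`,
`r` a reduction map of places (`H13sIsRed A M r`, leaf `H13sRedDiv`).

* `h51f_degree_push` : the push-forward of divisors along `r` preserves the degree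
  (all places of both fibres have degree one).
* `h51f_push_apply` : the multiplicity of `r_* D` at `r w` is the sum of `D` over the residue
  disc of `w` (`= h4r_red A w D` of `P5/H4Rep.lean`).
* `h51f_pd` : **principal divisors of the special fibre have degree `0`** (the field `pd` of
  `H13rBase k F~`), from RED-DIV, `H13sField` and the generic fibre: NO separability, NO norms.
* `h51f_base_of` : conditional assembly of `H13rBase k F~`.
* `h51f_nonSpec` : **the statement for GEO-NONSPEC**: if the reductions of the centres `Q i`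
  are pairwise distinct and `ℓ~(∑ r (Q i)) = 1`, then `H4rNonSpec A Q`.
* `h51f_exists_centres` : outside every finite set of residue discs there are `g` centres with
  `H4rNonSpec A Q` (from `H13rMoving` on the special fibre).
-/

set_option autoImplicit false
set_option linter.unusedSectionVars false

open AlgebraicCurve ModularCurve

noncomputable section

namespace Fermat.Agent.P5

open Fermat.Agent.S37 Fermat.Agent.Red.GV

variable {A : ValuationSubring Kbar} {M : ℕ} [NeZero M]

/-! ### Push-forward of divisors -/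

theorem h51f_push_single (r : Place Kbar (FF M) → Place (h13sK A) (h13sFt A M))
    (v : Place Kbar (FF M)) (n : ℤ) :
    h13sPush r (Finsupp.single v n) = Finsupp.single (r v) n := by
  unfold h13sPush
  exact Finsupp.mapDomain_single

theorem h51f_push_add (r : Place Kbar (FF M) → Place (h13sK A) (h13sFt A M))
    (D E : Divisor Kbar (FF M)) :
    h13sPush r (D + E) = h13sPush r D + h13sPush r E := by
  unfold h13sPush
  exact Finsupp.mapDomain_add

/-- the push-forward as an additive map. -/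
def h51fPushHom (r : Place Kbar (FF M) → Place (h13sK A) (h13sFt A M)) :
    Divisor Kbar (FF M) →+ Divisor (h13sK A) (h13sFt A M) :=
  Finsupp.mapDomain.addMonoidHom r

theorem h51fPushHom_apply (r : Place Kbar (FF M) → Place (h13sK A) (h13sFt A M))
    (D : Divisor Kbar (FF M)) : h51fPushHom r D = h13sPush r D := rfl

/-- the push-forward preserves the degree. -/
theorem h51f_degree_push (r : Place Kbar (FF M) → Place (h13sK A) (h13sFt A M))
    (hdeg : ∀ v : Place Kbar (FF M), v.deg = 1)
    (hdeg' : ∀ Q : Place (h13sK A) (h13sFt A M), Q.deg = 1) (D : Divisor Kbar (FF M)) :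
    Divisor.degree (h13sPush r D) = Divisor.degree D := by
  have h : (Divisor.degree (K := h13sK A) (F := h13sFt A M)).comp (h51fPushHom r) =
      Divisor.degree (K := Kbar) (F := FF M) := by
    refine Finsupp.addHom_ext fun v n => ?_
    rw [AddMonoidHom.comp_apply, h51fPushHom_apply, h51f_push_single, Divisor.degree_single,
      Divisor.degree_single, hdeg, hdeg']
  exact DFunLike.congr_fun h D

open Classical in
/-- the multiplicity of the push-forward at `r w` is the sum over the residue disc of `w`. -/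
theorem h51f_push_apply (r : Place Kbar (FF M) → Place (h13sK A) (h13sFt A M))
    (hr : ∀ v w : Place Kbar (FF M), r v = r w ↔ SameRed A v w)
    (w : Place Kbar (FF M)) (D : Divisor Kbar (FF M)) :
    h13sPush r D (r w) = h4r_red A w D := by
  have h : (Finsupp.applyAddHom (r w)).comp (h51fPushHom r) = h4r_red A w := by
    refine Finsupp.addHom_ext fun v n => ?_
    rw [AddMonoidHom.comp_apply, h51fPushHom_apply, h51f_push_single, h4r_red_single]
    show (Finsupp.single (r v) n) (r w) = _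
    rw [Finsupp.single_apply]
    by_cases hvw : SameRed A v w
    · rw [if_pos hvw, if_pos ((hr v w).2 hvw)]
    · rw [if_neg hvw, if_neg fun h => hvw ((hr v w).1 h)]
  exact DFunLike.congr_fun h D

/-! ### Principal divisors of the special fibre -/

variable {ℓ : ℕ}

/-- a nonzero element of the special fibre field is the reduction of a Gauss unit. -/
theorem h51f_exists_unit (hℓ : ℓ.Prime) (hM : ¬ ℓ ∣ M) (hA : A.LiesOverPrime ℓ)
    (hF : ∀ y : h13sFt A M, ∃ x : gaussV A M, h13sRed A M x = y)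
    (y : h13sFt A M) (hy : y ≠ 0) :
    ∃ (x : FF M) (hx : x ∈ gaussV A M), x ≠ 0 ∧ x⁻¹ ∈ gaussV A M ∧
      h13sRed A M ⟨x, hx⟩ = y := by
  obtain ⟨x, rfl⟩ := hF y
  have h0 : gaussR A M x ≠ 0 := by
    intro h
    apply hy
    have hinj : Function.Injective (h13sIncl A M) := (h13sIncl A M).injective
    apply hinj
    rw [h13sIncl_red, h, map_zero]
    rfl
  have h1 := (gaussR_eq_zero_iff A M hℓ hM hA x).not.1 h0
  push Not at h1
  exact ⟨x.1, x.2, h1.1, h1.2, rfl⟩

/-- **SF-BASE, field `pd`**: principal divisors of the special fibre have degree `0`. -/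
theorem h51f_pd (hℓ : ℓ.Prime) (hM : ¬ ℓ ∣ M) (hA : A.LiesOverPrime ℓ)
    (hF : ∀ y : h13sFt A M, ∃ x : gaussV A M, h13sRed A M x = y)
    (r : Place Kbar (FF M) → Place (h13sK A) (h13sFt A M)) (hr : H13sIsRed A M r)
    (hg : H13rBase Kbar (FF M))
    (hdeg' : ∀ Q : Place (h13sK A) (h13sFt A M), Q.deg = 1)
    (y : h13sFt A M) (hy : y ≠ 0) :
    ∃ D : Divisor (h13sK A) (h13sFt A M),
      (∀ Q : Place (h13sK A) (h13sFt A M), D Q = Q.ord y) ∧ Divisor.degree D = 0 := by
  obtain ⟨x, hx, hx0, hxi, rfl⟩ := h51f_exists_unit hℓ hM hA hF y hy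
  obtain ⟨D, hD, hD0⟩ := hg.pd x hx0
  refine ⟨h13sPush r D, fun Q => hr.2.2 x hx hxi D hD Q, ?_⟩
  rw [h51f_degree_push r hg.deg_one hdeg', hD0]

/-- **SF-BASE, conditional assembly**: `H13rBase k F~` from RED-DIV, the field leaf and the
RED-DIV-free half (degree one, constants, injectivity, infinitely many places). -/
theorem h51f_base_of (hℓ : ℓ.Prime) (hM : ¬ ℓ ∣ M) (hA : A.LiesOverPrime ℓ)
    (hF : ∀ y : h13sFt A M, ∃ x : gaussV A M, h13sRed A M x = y)
    (r : Place Kbar (FF M) → Place (h13sK A) (h13sFt A M)) (hr : H13sIsRed A M r)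
    (hg : H13rBase Kbar (FF M))
    (hdeg' : ∀ Q : Place (h13sK A) (h13sFt A M), Q.deg = 1)
    (hconst : ∀ f : h13sFt A M, (∀ Q : Place (h13sK A) (h13sFt A M), 0 ≤ Q.ord f) →
      f ∈ Set.range (algebraMap (h13sK A) (h13sFt A M)))
    (hinf : Infinite (Place (h13sK A) (h13sFt A M))) :
    H13rBase (h13sK A) (h13sFt A M) where
  deg_one := hdeg'
  pd := h51f_pd hℓ hM hA hF r hr hg hdeg'
  const := hconst
  inj := (algebraMap (h13sK A) (h13sFt A M)).injective
  infinite := hinf

/-- **SF-BASE from the leaves**: the frozen `H13sBase` from `H13sField`, `H13sRedDiv`,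
`H13gBase` and the RED-DIV-free half. -/
theorem h51f_sBase (hField : H13sField) (hRed : H13sRedDiv) (hG : H13gBase)
    (hhalf : ∀ (ℓ : ℕ), ℓ.Prime → ∀ (M : ℕ) [NeZero M], ¬ ℓ ∣ M → auxLevel ℓ ∣ M →
      ∀ A : ValuationSubring Kbar, A.LiesOverPrime ℓ →
        (∀ Q : Place (h13sK A) (h13sFt A M), Q.deg = 1) ∧
        (∀ f : h13sFt A M, (∀ Q : Place (h13sK A) (h13sFt A M), 0 ≤ Q.ord f) →
          f ∈ Set.range (algebraMap (h13sK A) (h13sFt A M))) ∧
        Infinite (Place (h13sK A) (h13sFt A M))) :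
    H13sBase := by
  intro ℓ hℓ M _ hM haux A hA
  obtain ⟨r, hr⟩ := hRed ℓ hℓ M hM haux A hA
  obtain ⟨h1, h2, h3⟩ := hhalf ℓ hℓ M hM haux A hA
  exact h51f_base_of hℓ hM hA (hField ℓ hℓ M hM haux A hA) r hr (hG M) h1 h2 h3

/-! ### The statement for GEO-NONSPEC -/

/-- the push-forward of `∑ Q i` is the reduced divisor of the reductions, if they are distinct. -/
theorem h51f_push_sum (r : Place Kbar (FF M) → Place (h13sK A) (h13sFt A M)) {g : ℕ}
    (Q : Fin g → Place Kbar (FF M)) (hinj : Function.Injective (r ∘ Q))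
    (T : Finset (Place (h13sK A) (h13sFt A M)))
    (hT : ∀ Q' : Place (h13sK A) (h13sFt A M), Q' ∈ T ↔ ∃ i, r (Q i) = Q') :
    h13sPush r (h4r_sum Q) = h13rSum (h13sK A) (h13sFt A M) T := by
  classical
  have hTe : T = Finset.univ.image (r ∘ Q) := by
    ext t
    rw [hT t]
    simp only [Finset.mem_image, Finset.mem_univ, true_and, Function.comp_apply]
  rw [hTe, ← h51fPushHom_apply]
  unfold h4r_sum h13rSum
  rw [map_sum, Finset.sum_image fun i _ j _ h => hinj h]
  refine Finset.sum_congr rfl fun i _ => ?_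
  rw [h51fPushHom_apply, h51f_push_single]
  rfl

/-- **GEO-NONSPEC, the special-fibre statement**: if the reductions of the centres are pairwise
distinct and `ℓ~(∑ r (Q i)) = 1`, then the chart input `H4rNonSpec A Q` holds. -/
theorem h51f_nonSpec (hℓ : ℓ.Prime) (hM : ¬ ℓ ∣ M) (hA : A.LiesOverPrime ℓ)
    (r : Place Kbar (FF M) → Place (h13sK A) (h13sFt A M)) (hr : H13sIsRed A M r)
    {g : ℕ} (Q : Fin g → Place Kbar (FF M))
    (hQ : ∀ i j, SameRed A (Q i) (Q j) → i = j)
    (T : Finset (Place (h13sK A) (h13sFt A M)))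
    (hT : ∀ Q' : Place (h13sK A) (h13sFt A M), Q' ∈ T ↔ ∃ i, r (Q i) = Q')
    (hL : h13rL (h13sK A) (h13sFt A M) (h13rSum (h13sK A) (h13sFt A M) T) = 1) :
    H4rNonSpec A Q := by
  classical
  have hinj : Function.Injective (r ∘ Q) := fun i j h => hQ i j ((hr.2.1 _ _).1 h)
  intro D hD hw w
  obtain ⟨f, hf0, hDf⟩ := hD
  obtain ⟨c, hc, hu, hui⟩ := exists_cst_mul_unit A M hℓ hM hA f hf0
  have hc0 : cst M c ≠ 0 := fun h =>
    hc ((algebraMap Kbar (FF M)).injective (h.trans (map_zero _).symm))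
  have hDu : ∀ v : Place Kbar (FF M), D v = v.ord (cst M c * f) := fun v => by
    rw [hDf v, v.ord_mul hc0 hf0, Fermat.Agent.S24.DiffPlace.ord_algebraMap v c, zero_add]
  have key : ∀ Q' : Place (h13sK A) (h13sFt A M),
      h13sPush r D Q' = Q'.ord (h13sRed A M ⟨cst M c * f, hu⟩) :=
    hr.2.2 (cst M c * f) hu hui D hDu
  -- the reduction lies in `L(∑ T)`
  have hmem : h13sRed A M ⟨cst M c * f, hu⟩ ∈
      riemannRochSpace (h13rSum (h13sK A) (h13sFt A M) T) := by
    rw [mem_riemannRochSpace_iff]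
    intro Q'
    right
    obtain ⟨w', rfl⟩ := hr.1 Q'
    have h1 := hw w'
    rw [map_add, ← h51f_push_apply r hr.2.1, ← h51f_push_apply r hr.2.1,
      h51f_push_sum r Q hinj T hT, key] at h1
    linarith
  -- the constant `1` lies in `L(∑ T)`
  have hone : (1 : h13sFt A M) ∈ riemannRochSpace (h13rSum (h13sK A) (h13sFt A M) T) := by
    rw [mem_riemannRochSpace_iff]
    intro Q'
    right
    rw [Place.ord_one, neg_nonpos]
    by_cases hQ' : Q' ∈ T
    · rw [h78m_sum_mem hQ']; exact zero_le_one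
    · rw [h78m_sum_notMem hQ']
  have hne : (⟨1, hone⟩ : riemannRochSpace (h13rSum (h13sK A) (h13sFt A M) T)) ≠ 0 := by
    intro h
    exact one_ne_zero (congrArg Subtype.val h)
  obtain ⟨a, ha⟩ := (finrank_eq_one_iff_of_nonzero' _ hne).1 hL ⟨_, hmem⟩
  have h2 : a • (1 : h13sFt A M) = h13sRed A M ⟨cst M c * f, hu⟩ := congrArg Subtype.val ha
  have ha' : h13sRed A M ⟨cst M c * f, hu⟩ = algebraMap (h13sK A) (h13sFt A M) a := by
    rw [← h2, Algebra.smul_def, mul_one]
  rw [← h51f_push_apply r hr.2.1, key, ha', Fermat.Agent.S24.DiffPlace.ord_algebraMap]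

/-- **GEO-NONSPEC, existence of the centres**: outside every finite set of residue discs there
are `g` centres with pairwise distinct reductions and `H4rNonSpec A Q`. -/
theorem h51f_exists_centres (hℓ : ℓ.Prime) (hM : ¬ ℓ ∣ M) (hA : A.LiesOverPrime ℓ)
    (r : Place Kbar (FF M) → Place (h13sK A) (h13sFt A M)) (hr : H13sIsRed A M r)
    (hB : H13rBase (h13sK A) (h13sFt A M)) (g : ℕ)
    (hg : H13rIsGenus (h13sK A) (h13sFt A M) g) (S : Finset (Place Kbar (FF M))) :
    ∃ Q : Fin g → Place Kbar (FF M), (∀ i j, SameRed A (Q i) (Q j) → i = j) ∧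
      (∀ i, ∀ s ∈ S, ¬ SameRed A (Q i) s) ∧ H4rNonSpec A Q := by
  classical
  obtain ⟨T, hTS, hTc, hTL⟩ := h78m_moving hB g hg (S.image r)
  let e : Fin g ≃ T := (T.equivFinOfCardEq hTc).symm
  choose Q hQ using fun i : Fin g => hr.1 (e i : Place (h13sK A) (h13sFt A M))
  have hrQ : r ∘ Q = fun i => (e i : Place (h13sK A) (h13sFt A M)) := funext hQ
  have hinj : Function.Injective (r ∘ Q) := by
    rw [hrQ]
    exact Subtype.val_injective.comp e.injective
  have himg : ∀ Q' : Place (h13sK A) (h13sFt A M), Q' ∈ T ↔ ∃ i, r (Q i) = Q' := by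
    intro t
    constructor
    · intro ht
      exact ⟨e.symm ⟨t, ht⟩, by rw [hQ, Equiv.apply_symm_apply]⟩
    · rintro ⟨i, rfl⟩
      rw [hQ]
      exact (e i).2
  have hQd : ∀ i j, SameRed A (Q i) (Q j) → i = j := fun i j h => hinj ((hr.2.1 _ _).2 h)
  refine ⟨Q, hQd, fun i s hs h => ?_, h51f_nonSpec hℓ hM hA r hr Q hQd T himg hTL⟩
  have h1 : r (Q i) ∈ T := by rw [hQ i]; exact (e i).2
  have h2 : r (Q i) ∈ S.image r := by
    rw [(hr.2.1 _ _).2 h]
    exact Finset.mem_image_of_mem r hs
  exact Finset.disjoint_left.1 hTS h1 h2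

/-- **GEO-NONSPEC from the frozen leaves**: at a good level the generic fibre has a weak genus
`g` such that outside every finite set of residue discs there are `g` centres with pairwise
distinct reductions and `H4rNonSpec A Q`. -/
theorem h51f_centres_final (hBase : H13sBase) (hRed : H13sRedDiv) (hGen : H13sGenus)
    (ℓ : ℕ) (hℓ : ℓ.Prime) (M : ℕ) [NeZero M] (hM : ¬ ℓ ∣ M) (haux : auxLevel ℓ ∣ M)
    (A : ValuationSubring Kbar) (hA : A.LiesOverPrime ℓ) :
    ∃ g : ℕ, H13rIsGenus Kbar (FF M) g ∧ ∀ S : Finset (Place Kbar (FF M)),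
      ∃ Q : Fin g → Place Kbar (FF M), (∀ i j, SameRed A (Q i) (Q j) → i = j) ∧
        (∀ i, ∀ s ∈ S, ¬ SameRed A (Q i) s) ∧ H4rNonSpec A Q := by
  obtain ⟨r, hr⟩ := hRed ℓ hℓ M hM haux A hA
  obtain ⟨g, hg, hg'⟩ := hGen ℓ hℓ M hM haux A hA
  exact ⟨g, hg, fun S =>
    h51f_exists_centres hℓ hM hA r hr (hBase ℓ hℓ M hM haux A hA) g hg' S⟩

end Fermat.Agent.P5
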