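import Fermat.Agent.P5.Skeleton
import Fermat.Agent.P5.H98Zp

/-!
# Wave 5, pillar (P), block ALG-DESC, leaf (i) (helper54): finiteness of function orders

`R = ℤ_(p) = GaloisRep.ratLocalizedAt p`, `M` a finite set with a continuous action `act` of
`G_ℚ` (`H98pIsGalAct`), `A` a valuation subring of `ℚ̄` over `p`.

* `h54d_val_int`, `h54d_mem_iff` : integers prime to `p` are units of `A`; `A ∩ ℚ = ℤ_(p)`.
* `h54d_mem_field` : the values of an equivariant function lie in the number field `L` of
  `H98pIsGalAct.cont`.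
* `h54d_isIntegral` : the values of an equivariant function with values in `A` are integral
  over `ℤ_(p)`.
* `h54d_fg` : a `ℤ_(p)`-submodule of `M → ℚ̄` consisting of equivariant functions with values in
  `A` is finitely generated; `h54d_fg_subalgebra` : the same for subalgebras (the field `fg` of
  `h97c_IsOrder`).
* `h54d_adjoin_int` : the functions of `Algebra.adjoin A G` have values in `A` if those of `G`
  have; `h54d_fg_order` : the form used by the descent.

Every declaration is a definition or a proved theorem; nothing is assumed.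
-/

set_option autoImplicit false
set_option linter.style.haveILetI false
set_option linter.unusedSectionVars false

open Polynomial GaloisRep

noncomputable section

namespace Fermat.Agent.P5


/-- integers prime to `p` have valuation one in a valuation subring over `p`. -/
theorem h54d_val_int {p : ℕ} (hp : p.Prime) (A : ValuationSubring H98pQb)
    (hA : A.LiesOverPrime p) (n : ℤ) (hn : ¬ (p : ℤ) ∣ n) :
    A.valuation ((n : ℤ) : H98pQb) = 1 := by
  have hle : A.valuation ((n : ℤ) : H98pQb) ≤ 1 :=
    (A.valuation_le_one_iff _).2 (intCast_mem _ n)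
  refine le_antisymm hle (not_lt.1 fun hlt => ?_)
  have hcop : IsCoprime (p : ℤ) n := by
    rw [Int.isCoprime_iff_gcd_eq_one]
    have h1 : Nat.Coprime p n.natAbs := by
      rw [Nat.Prime.coprime_iff_not_dvd hp]
      intro h
      exact hn (Int.natCast_dvd.2 h)
    simpa [Int.gcd] using h1
  obtain ⟨a, b, hab⟩ := hcop
  have hpv : A.valuation ((p : ℤ) : H98pQb) < 1 := by
    have h0 : ((p : ℤ) : H98pQb) = ((p : ℕ) : H98pQb) := by push_cast; rfl
    rw [h0]
    exact (A.mem_nonunits_iff).1 hA
  have h1 : A.valuation (((a : ℤ) : H98pQb) * ((p : ℤ) : H98pQb)) < 1 := by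
    rw [map_mul]
    calc A.valuation ((a : ℤ) : H98pQb) * A.valuation ((p : ℤ) : H98pQb)
        ≤ 1 * A.valuation ((p : ℤ) : H98pQb) :=
          mul_le_mul' ((A.valuation_le_one_iff _).2 (intCast_mem _ a)) le_rfl
      _ < 1 := by rw [one_mul]; exact hpv
  have h2 : A.valuation (((b : ℤ) : H98pQb) * ((n : ℤ) : H98pQb)) < 1 := by
    rw [map_mul]
    calc A.valuation ((b : ℤ) : H98pQb) * A.valuation ((n : ℤ) : H98pQb)
        ≤ 1 * A.valuation ((n : ℤ) : H98pQb) :=
          mul_le_mul' ((A.valuation_le_one_iff _).2 (intCast_mem _ b)) le_rfl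
      _ < 1 := by rw [one_mul]; exact hlt
  have h3 := Valuation.map_add_lt _ h1 h2
  have h4 : ((a : ℤ) : H98pQb) * ((p : ℤ) : H98pQb) + ((b : ℤ) : H98pQb) * ((n : ℤ) : H98pQb)
      = 1 := by
    have := congrArg (Int.cast : ℤ → H98pQb) hab
    push_cast at this
    exact this
  rw [h4, map_one] at h3
  exact lt_irrefl _ h3

/-- `A ∩ ℚ = ℤ_(p)`. -/
theorem h54d_mem_iff {p : ℕ} (hp : p.Prime) (A : ValuationSubring H98pQb)
    (hA : A.LiesOverPrime p) (q : ℚ) :
    algebraMap ℚ H98pQb q ∈ A ↔ q ∈ ratLocalizedAt p := by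
  have hq : algebraMap ℚ H98pQb q = ((q.num : ℤ) : H98pQb) / ((q.den : ℤ) : H98pQb) := by
    conv_lhs => rw [← Rat.num_div_den q]
    simp
  have hden0 : ((q.den : ℤ) : H98pQb) ≠ 0 := by
    simp [q.den_nz]
  constructor
  · intro h
    show q.den.Coprime p
    by_contra hnc
    have hpd : p ∣ q.den := by
      by_contra h1
      exact hnc ((Nat.Prime.coprime_iff_not_dvd hp).2 h1).symm
    have hnum : ¬ (p : ℤ) ∣ q.num := by
      intro h1
      have h2 : p ∣ q.num.natAbs := Int.natCast_dvd.1 h1
      have h3 := Nat.dvd_gcd h2 hpd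
      rw [q.reduced] at h3
      exact hp.one_lt.ne' (Nat.dvd_one.1 h3)
    have hv1 := h54d_val_int hp A hA q.num hnum
    have hv2 : A.valuation ((q.den : ℤ) : H98pQb) < 1 := by
      obtain ⟨d, hd⟩ := hpd
      have h0 : ((q.den : ℤ) : H98pQb) = ((p : ℕ) : H98pQb) * ((d : ℤ) : H98pQb) := by
        rw [hd]; push_cast; rfl
      rw [h0, map_mul]
      calc A.valuation ((p : ℕ) : H98pQb) * A.valuation ((d : ℤ) : H98pQb)
          ≤ A.valuation ((p : ℕ) : H98pQb) * 1 :=
            mul_le_mul' le_rfl ((A.valuation_le_one_iff _).2 (intCast_mem _ d))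
        _ < 1 := by rw [mul_one]; exact (A.mem_nonunits_iff).1 hA
    have hv3 : A.valuation (algebraMap ℚ H98pQb q) ≤ 1 := (A.valuation_le_one_iff _).2 h
    rw [hq, map_div₀, hv1] at hv3
    have hv4 : A.valuation ((q.den : ℤ) : H98pQb) ≠ 0 := by
      rw [ne_eq, map_eq_zero]; exact hden0
    have hv5 : (1 : A.ValueGroup) ≤ A.valuation ((q.den : ℤ) : H98pQb) := by
      rwa [div_le_iff₀ (zero_lt_iff.2 hv4), one_mul] at hv3
    exact absurd hv2 (not_lt.2 hv5)
  · intro h
    have hcop : q.den.Coprime p := h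
    have hnd : ¬ (p : ℤ) ∣ (q.den : ℤ) := by
      intro h1
      have h2 : p ∣ q.den := Int.natCast_dvd_natCast.1 h1
      exact ((Nat.Prime.coprime_iff_not_dvd hp).1 hcop.symm) h2
    have hv1 := h54d_val_int hp A hA (q.den : ℤ) hnd
    rw [← A.valuation_le_one_iff, hq, map_div₀, hv1, div_one]
    exact (A.valuation_le_one_iff _).2 (intCast_mem _ q.num)

/-- the values of an equivariant function lie in the number field of the action. -/
theorem h54d_mem_field {M : Type} (act : H98pGQ → M → M) (L : IntermediateField ℚ H98pQb)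
    (hL : ∀ σ : H98pGQ, (∀ y ∈ L, σ y = y) → ∀ x, act σ x = x)
    (f : M → H98pQb) (hf : ∀ σ x, f (act σ x) = σ (f x)) (x : M) : f x ∈ L := by
  haveI : IsAlgClosure ℚ H98pQb := ⟨inferInstance, AlgebraicClosure.isAlgebraic ℚ⟩
  haveI : IsGalois ℚ H98pQb := IsAlgClosure.isGalois ℚ H98pQb
  rw [← InfiniteGalois.fixedField_fixingSubgroup L, IntermediateField.mem_fixedField_iff]
  intro σ hσ
  rw [← hf σ x, hL σ (fun y hy => (IntermediateField.mem_fixingSubgroup_iff L σ).1 hσ y hy)]

/-- the values of an equivariant function with values in `A` are integral over `ℤ_(p)`. -/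
theorem h54d_isIntegral {p : ℕ} (hp : p.Prime) {M : Type} [Finite M] (act : H98pGQ → M → M)
    (A : ValuationSubring H98pQb) (hA : A.LiesOverPrime p)
    (f : M → H98pQb) (hf : ∀ σ x, f (act σ x) = σ (f x)) (hfA : ∀ x, f x ∈ A) (x : M) :
    IsIntegral (ratLocalizedAt p) (f x) := by
  classical
  haveI : Fintype M := Fintype.ofFinite M
  set T : Finset H98pQb := Finset.univ.image f with hT
  set P : H98pQb[X] := ∏ z ∈ T, (X - C z) with hP
  have hPmonic : P.Monic := monic_prod_of_monic _ _ fun z _ => monic_X_sub_C z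
  -- `σ` permutes `T`
  have hperm : ∀ σ : H98pGQ, T.image σ = T := by
    intro σ
    apply Finset.eq_of_subset_of_card_le
    · intro z hz
      obtain ⟨w, hw, rfl⟩ := Finset.mem_image.1 hz
      obtain ⟨y, -, rfl⟩ := Finset.mem_image.1 hw
      rw [← hf σ y]
      exact Finset.mem_image_of_mem f (Finset.mem_univ _)
    · rw [Finset.card_image_of_injective _ σ.injective]
  -- the coefficients are fixed
  have hfix : ∀ (σ : H98pGQ) (k : ℕ), σ (P.coeff k) = P.coeff k := by
    intro σ k
    have h1 : P.map (σ : H98pQb →+* H98pQb) = P := by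
      rw [hP, Polynomial.map_prod]
      have h2 : ∀ z ∈ T, (X - C z : H98pQb[X]).map (σ : H98pQb →+* H98pQb) = X - C (σ z) := by
        intro z _
        simp
      rw [Finset.prod_congr rfl h2]
      conv_rhs => rw [← hperm σ]
      rw [Finset.prod_image (fun a _ b _ hab => σ.injective hab)]
    have h3 := congrArg (fun Q : H98pQb[X] => Q.coeff k) h1
    simpa [Polynomial.coeff_map] using h3
  -- the coefficients are in `A`
  have hTA : ∀ z ∈ T, z ∈ A := by
    intro z hz
    obtain ⟨y, -, rfl⟩ := Finset.mem_image.1 hz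
    exact hfA y
  have hcA : ∀ k : ℕ, P.coeff k ∈ A := by
    intro k
    set g : H98pQb → A := fun z => if h : z ∈ A then ⟨z, h⟩ else 0 with hg
    have h1 : (∏ z ∈ T, (X - C (g z)) : (A : Type)[X]).map A.subtype = P := by
      rw [hP, Polynomial.map_prod]
      refine Finset.prod_congr rfl fun z hz => ?_
      have h2 : ((g z : A) : H98pQb) = z := by
        rw [hg]
        simp only [dif_pos (hTA z hz)]
      simp [h2]
    rw [← h1, Polynomial.coeff_map]
    exact Subtype.coe_prop _
  -- the coefficients are in `ℤ_(p)`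
  have hcR : ∀ k : ℕ, P.coeff k ∈ Set.range (algebraMap (ratLocalizedAt p) H98pQb) := by
    intro k
    obtain ⟨q, hq⟩ := h98p_fix (P.coeff k) (fun σ => hfix σ k)
    have h1 : algebraMap ℚ H98pQb q ∈ A := by rw [hq]; exact hcA k
    exact ⟨⟨q, (h54d_mem_iff hp A hA q).1 h1⟩, hq⟩
  have hlift : P ∈ Polynomial.lifts (algebraMap (ratLocalizedAt p) H98pQb) :=
    (Polynomial.lifts_iff_coeff_lifts P).2 hcR
  obtain ⟨Q, hQmap, -, hQmonic⟩ := Polynomial.lifts_and_natDegree_eq_and_monic hlift hPmonic
  refine ⟨Q, hQmonic, ?_⟩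
  rw [← Polynomial.eval_map, hQmap, hP, Polynomial.eval_prod]
  refine Finset.prod_eq_zero (Finset.mem_image_of_mem f (Finset.mem_univ x)) ?_
  simp

/-- **leaf (i) of ALG-DESC**: a `ℤ_(p)`-module of equivariant functions with values in `A` is
finitely generated. -/
theorem h54d_fg {p : ℕ} [hp : Fact p.Prime] {M : Type} [AddCommGroup M] [Finite M]
    (act : H98pGQ → M → M)
    (hact : H98pIsGalAct act) (A : ValuationSubring H98pQb) (hA : A.LiesOverPrime p)
    (N : Submodule (ratLocalizedAt p) (M → H98pQb))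
    (hequiv : ∀ f ∈ N, ∀ σ x, f (act σ x) = σ (f x))
    (hint : ∀ f ∈ N, ∀ x, f x ∈ A) : N.FG := by
  classical
  obtain ⟨L, hLfin, hL⟩ := hact.cont
  haveI := hLfin
  haveI : IsPrincipalIdealRing (ratLocalizedAt p) := h98p_isPID p
  haveI : IsFractionRing (ratLocalizedAt p) ℚ := h98p_isFractionRing p
  haveI : IsNoetherian (ratLocalizedAt p) (integralClosure (ratLocalizedAt p) L) :=
    IsIntegralClosure.isNoetherian (ratLocalizedAt p) ℚ L (integralClosure (ratLocalizedAt p) L)
  haveI : IsScalarTower (ratLocalizedAt p) L H98pQb :=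
    IsScalarTower.of_algebraMap_eq (fun _ => rfl)
  have hmemL : ∀ (f : N) (x : M), (f : M → H98pQb) x ∈ L := fun f x =>
    h54d_mem_field act L hL f (hequiv f f.2) x
  have hintL : ∀ (f : N) (x : M),
      (⟨(f : M → H98pQb) x, hmemL f x⟩ : L) ∈ integralClosure (ratLocalizedAt p) L := by
    intro f x
    have h1 := h54d_isIntegral hp.out act A hA f (hequiv f f.2) (hint f f.2) x
    have h2 : IsIntegral (ratLocalizedAt p)
        (algebraMap L H98pQb ⟨(f : M → H98pQb) x, hmemL f x⟩) := h1
    exact (isIntegral_algebraMap_iff (algebraMap L H98pQb).injective).1 h2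
  let Φ : N →ₗ[ratLocalizedAt p] (M → integralClosure (ratLocalizedAt p) L) :=
    { toFun := fun f x => ⟨⟨(f : M → H98pQb) x, hmemL f x⟩, hintL f x⟩
      map_add' := fun f g => by
        funext x
        apply Subtype.ext
        apply Subtype.ext
        rfl
      map_smul' := fun r f => by
        funext x
        apply Subtype.ext
        apply Subtype.ext
        rfl }
  have hinj : Function.Injective Φ := by
    intro f g hfg
    apply Subtype.ext
    funext x
    have h1 := congrFun hfg x
    have h2 := congrArg (fun c : integralClosure (ratLocalizedAt p) L => ((c : L) : H98pQb)) h1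
    exact h2
  haveI : Module.Finite (ratLocalizedAt p) N := Module.Finite.of_injective Φ hinj
  exact (Submodule.fg_top N).1 (Module.finite_def.1 inferInstance)

/-- the subalgebra form: the field `fg` of `h97c_IsOrder`. -/
theorem h54d_fg_subalgebra {p : ℕ} [Fact p.Prime] {M : Type} [AddCommGroup M] [Finite M]
    (act : H98pGQ → M → M) (hact : H98pIsGalAct act) (A : ValuationSubring H98pQb)
    (hA : A.LiesOverPrime p) (𝓗 : Subalgebra (ratLocalizedAt p) (M → H98pQb))
    (hequiv : ∀ f ∈ 𝓗, ∀ σ x, f (act σ x) = σ (f x))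
    (hint : ∀ f ∈ 𝓗, ∀ x, f x ∈ A) : (Subalgebra.toSubmodule 𝓗).FG :=
  h54d_fg act hact A hA (Subalgebra.toSubmodule 𝓗) hequiv hint

/-- the functions of `Algebra.adjoin A G` have values in `A` if those of `G` have. -/
theorem h54d_adjoin_int {M : Type} (A : ValuationSubring H98pQb) (G : Set (M → H98pQb))
    (hG : ∀ f ∈ G, ∀ x, f x ∈ A) : ∀ f ∈ Algebra.adjoin A G, ∀ x, f x ∈ A := by
  intro f hf
  induction hf using Algebra.adjoin_induction with
  | mem f hf => exact hG f hf
  | algebraMap r => intro x; exact r.2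
  | add f g _ _ hf hg => intro x; exact A.add_mem _ _ (hf x) (hg x)
  | mul f g _ _ hf hg => intro x; exact A.mul_mem _ _ (hf x) (hg x)

/-- the form used by the descent: equivariant functions of `A[G]`. -/
theorem h54d_fg_order {p : ℕ} [Fact p.Prime] {M : Type} [AddCommGroup M] [Finite M]
    (act : H98pGQ → M → M) (hact : H98pIsGalAct act) (A : ValuationSubring H98pQb)
    (hA : A.LiesOverPrime p) (G : Set (M → H98pQb)) (hG : ∀ f ∈ G, ∀ x, f x ∈ A)
    (𝓗 : Subalgebra (ratLocalizedAt p) (M → H98pQb))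
    (hequiv : ∀ f ∈ 𝓗, ∀ σ x, f (act σ x) = σ (f x))
    (hsub : ∀ f ∈ 𝓗, f ∈ Algebra.adjoin A G) : (Subalgebra.toSubmodule 𝓗).FG :=
  h54d_fg_subalgebra act hact A hA 𝓗 hequiv
    (fun f hf => h54d_adjoin_int A G hG f (hsub f hf))

end Fermat.Agent.P5
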