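import Fermat.Agent.P5.H4RepLink
import Fermat.Agent.P5.H36ChartGal
import Fermat.Agent.P5.H37DiscInert
import Fermat.Agent.P5.H94UnramLift
import Fermat.Agent.P5.H94RedGal
import Fermat.Agent.P5.H13RRIface
import Fermat.Agent.Red.HKMod
import Fermat.Agent.P5.H43Riemann
import Fermat.Agent.P5.H40RRInst
import Fermat.Agent.P5.H78RRLeaves
import Fermat.Agent.P5.H69LevelTop

/-!
# P5 (wave 5, S19), rows GEO-SEED + GEO-ASM: the conditional assembly (helper54, prefix `h54e_`)

`M` a level, `A` a valuation subring of `ℚ̄` over `ℓ ∤ M`, `g` a weak genus of the generic fibre.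

Frozen inputs (every one a `Prop`; nothing is assumed):

* `H54eCentres M A g` : outside the residue discs of any finite set of places there are `g`
  centres `Q i` with a disc calculus (`H37DiscAt`), pairwise distinct reductions and
  non-special reduction (`H4rNonSpec A Q`).  Producers: GEO-DISC (`H37DiscExists`), GEO-RR-SF
  (moving lemma on the special fibre, reduction map of places), GEO-NONSPEC.
* `H54eLinks M A g` : two such charts with `2g` pairwise distinct reductions carry the raw data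
  of a link, i.e. the arguments of `h4r_link` (helper4): `b`, `bs`, `N0`, `H4rLinkData`,
  `b_mem`, `bs_mem`, `N0_val`, `N0_der`, `N0_unit`, `hbsder`.  Producer: GEO-LINK.
* `H54eLift M A` : every residue disc contains an inertia-fixed place (finite and non-finite
  discs).  Producer: GEO-DISC-PT (UNR-PLACE).

Proved here:

* `h54e_valid`, `h54e_link` : a valid chart / a link from these inputs (`h4r_rep`,
  `h4r_rep_unique`, `h37j_valid_of_disc`, `h4r_link`);
* `h54e_geoInputs`, `h54e_geoInputs_of_genus` : `H96GeoInputs M A` (two charts `c`, `c'` linked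
  in both directions, then `h36q_geoInputs_of_seed`, `h94q_unram_lift_of`, `h94q_inertia_mod`);
* `h54e_geoGood : H54eSeedInputs → H69vGeoGood` : the open atom of TOP-LEVEL.
-/

set_option autoImplicit false
set_option linter.style.haveILetI false
set_option linter.unusedSectionVars false

open AlgebraicCurve ModularCurve

noncomputable section

namespace Fermat.Agent.P5

open Fermat.Agent.S37

variable {M : ℕ} [NeZero M]

/-- **CENTRES** (input of the seed; producers GEO-DISC + GEO-RR-SF + GEO-NONSPEC): outside the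
residue discs of any finite set of places there are `g` centres with pairwise distinct
reductions, each with a disc calculus, whose sum has non-special reduction. -/
def H54eCentres (M : ℕ) [NeZero M] (A : ValuationSubring Kbar) (g : ℕ) : Prop :=
  ∀ S : Finset (Place Kbar (FF M)), ∃ Q : Fin g → Place Kbar (FF M),
    (∀ i, ∃ (t : FF M) (O : Subring (FF M)), H37DiscAt A (Q i) t O) ∧
    (∀ i j, SameRed A (Q i) (Q j) → i = j) ∧
    H4rNonSpec A Q ∧
    ∀ i, ∀ v ∈ S, ¬ SameRed A v (Q i)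

/-- **LINKS** (input of the seed; producer GEO-LINK): two charts with disc calculus at all
centres, `2g` pairwise distinct reductions and non-special reductions carry the raw data of a
link (the arguments of `h4r_link`). -/
def H54eLinks (M : ℕ) [NeZero M] (A : ValuationSubring Kbar) (g : ℕ) : Prop :=
  ∀ c c' : H96Chart M g,
    (∀ i, H37DiscAt A (c.Q i) (c.t i) (c.O i)) →
    (∀ i, H37DiscAt A (c'.Q i) (c'.t i) (c'.O i)) →
    (∀ i j, SameRed A (c.Q i) (c.Q j) → i = j) →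
    (∀ i j, SameRed A (c'.Q i) (c'.Q j) → i = j) →
    (∀ i j, ¬ SameRed A (c.Q i) (c'.Q j)) →
    H4rNonSpec A c.Q → H4rNonSpec A c'.Q →
    ∃ (b : Fin g ⊕ Fin g → FF M) (bs : FF M)
      (N0 : Matrix (Fin g ⊕ Fin g) (Fin g ⊕ Fin g) Kbar),
      H4rLinkData A c c' b bs ∧
      (∀ j i, b j ∈ c.O i ∧ b j ∈ c'.O i) ∧ (∀ i, bs ∈ c.O i ∧ bs ∈ c'.O i) ∧
      (∀ i j, ValueAt (c.Q i) (b j) (N0 (Sum.inl i) j)) ∧
      (∀ i j, ∃ h ∈ c.O i, b j - cst M (N0 (Sum.inl i) j) = c.t i * h ∧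
        ValueAt (c.Q i) h (N0 (Sum.inr i) j)) ∧
      (N0.det ≠ 0 ∧ (N0.det)⁻¹ ∈ A) ∧
      (∀ i, ∃ h ∈ c'.O i, ∃ d : Kbar, bs = c'.t i * h ∧
        ValueAt (c'.Q i) h d ∧ d ≠ 0 ∧ d⁻¹ ∈ A)

/-- **UNR-PLACE** (input of conjunct 5; producer GEO-DISC-PT): every residue disc contains an
inertia-fixed place. -/
def H54eLift (M : ℕ) [NeZero M] (A : ValuationSubring Kbar) : Prop :=
  ∀ v : Place Kbar (FF M), ∃ v₀ : Place Kbar (FF M),
    (∀ σ ∈ A.inertiaSubgroupIn ℚ, gal M σ • v₀ = v₀) ∧ SameRed A v v₀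

/-- a chart from centres with a disc calculus. -/
def h54eChart {g : ℕ} {A : ValuationSubring Kbar} (Q : Fin g → Place Kbar (FF M))
    (hd : ∀ i, ∃ (t : FF M) (O : Subring (FF M)), H37DiscAt A (Q i) t O) : H96Chart M g where
  Q := Q
  t := fun i => (hd i).choose
  O := fun i => (hd i).choose_spec.choose

theorem h54eChart_disc {g : ℕ} {A : ValuationSubring Kbar} (Q : Fin g → Place Kbar (FF M))
    (hd : ∀ i, ∃ (t : FF M) (O : Subring (FF M)), H37DiscAt A (Q i) t O) (i : Fin g) :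
    H37DiscAt A ((h54eChart Q hd).Q i) ((h54eChart Q hd).t i) ((h54eChart Q hd).O i) :=
  (hd i).choose_spec.choose_spec

/-- a chart with disc calculus, distinct reductions and non-special reduction is valid. -/
theorem h54e_valid {g : ℕ} (A : ValuationSubring Kbar) (c : H96Chart M g)
    (hbase : H13rBase Kbar (FF M))
    (hRR : ∀ D : Divisor Kbar (FF M), (g : ℤ) ≤ Divisor.degree D → riemannRochSpace D ≠ ⊥)
    (hd : ∀ i, H37DiscAt A (c.Q i) (c.t i) (c.O i))
    (hQ : ∀ i j, SameRed A (c.Q i) (c.Q j) → i = j) (hNS : H4rNonSpec A c.Q)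
    (hout : ∃ v : Place Kbar (FF M), ∀ i, ¬ SameRed A v (c.Q i)) : c.Valid A := by
  haveI : HasPrincipalDivisors Kbar (FF M) := Fermat.Agent.Red.HKMod.hasPrincipalDivisors_FF M
  exact h37j_valid_of_disc A c hd (h4r_rep A c.Q hbase.deg_one hRR hQ hNS)
    (h4r_rep_unique A c.Q hQ hNS hout)

/-- the link between two charts of the seed. -/
theorem h54e_link {g : ℕ} (A : ValuationSubring Kbar) (c c' : H96Chart M g)
    (hbase : H13rBase Kbar (FF M)) (hlk : H54eLinks M A g)
    (hd : ∀ i, H37DiscAt A (c.Q i) (c.t i) (c.O i))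
    (hd' : ∀ i, H37DiscAt A (c'.Q i) (c'.t i) (c'.O i))
    (hQ : ∀ i j, SameRed A (c.Q i) (c.Q j) → i = j)
    (hQ' : ∀ i j, SameRed A (c'.Q i) (c'.Q j) → i = j)
    (hQQ' : ∀ i j, ¬ SameRed A (c.Q i) (c'.Q j))
    (hNS : H4rNonSpec A c.Q) (hNS' : H4rNonSpec A c'.Q)
    (hout' : ∃ v : Place Kbar (FF M), ∀ i, ¬ SameRed A v (c'.Q i)) :
    Nonempty (H96Link A c c') := by
  haveI : HasPrincipalDivisors Kbar (FF M) := Fermat.Agent.Red.HKMod.hasPrincipalDivisors_FF M
  obtain ⟨b, bs, N0, hL, hb, hbs, hv, hder, hun, hbsd⟩ := hlk c c' hd hd' hQ hQ' hQQ' hNS hNS'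
  exact ⟨h4r_link A c c' hbase.deg_one (fun i => (hd i).O_val) (fun i => (hd i).O_t)
    (fun i => (hd i).t_zero) hQ hQ' hNS' hout' b bs hL hb hbs N0 hv hder hun hbsd⟩

/-- **GEO-SEED + GEO-ASM (conditional)**: the geometric inputs from the centres, the links and the
unramified lifts of places. -/
theorem h54e_geoInputs {g : ℕ} (A : ValuationSubring Kbar) (ℓ : ℕ) (hℓ : ℓ.Prime)
    (hℓM : ¬ ℓ ∣ M) (hA : A.LiesOverPrime ℓ) (hbase : H13rBase Kbar (FF M))
    (hRR : ∀ D : Divisor Kbar (FF M), (g : ℤ) ≤ Divisor.degree D → riemannRochSpace D ≠ ⊥)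
    (hcen : H54eCentres M A g) (hlk : H54eLinks M A g) (hlift : H54eLift M A) :
    H96GeoInputs M A := by
  classical
  obtain ⟨Q, hdQ, hQ, hNS, -⟩ := hcen ∅
  obtain ⟨Q', hdQ', hQ', hNS', hQQ'⟩ := hcen (Finset.univ.image Q)
  have hsep : ∀ i j, ¬ SameRed A (Q i) (Q' j) := fun i j =>
    hQQ' j (Q i) (Finset.mem_image_of_mem Q (Finset.mem_univ i))
  have hsep' : ∀ i j, ¬ SameRed A (Q' i) (Q j) := fun i j h =>
    hsep j i (Fermat.Agent.Red.Match.sameRed_symm h)
  haveI := hbase.infinite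
  obtain ⟨v₀⟩ : Nonempty (Place Kbar (FF M)) := inferInstance
  have hout : ∃ v : Place Kbar (FF M), ∀ i, ¬ SameRed A v (Q i) := by
    rcases Nat.eq_zero_or_pos g with h0 | hpos
    · exact ⟨v₀, fun i => absurd (h0 ▸ i.2 : (i : ℕ) < 0) (Nat.not_lt_zero _)⟩
    · exact ⟨Q' ⟨0, hpos⟩, fun i => hsep' ⟨0, hpos⟩ i⟩
  have hout' : ∃ v : Place Kbar (FF M), ∀ i, ¬ SameRed A v (Q' i) := by
    rcases Nat.eq_zero_or_pos g with h0 | hpos
    · exact ⟨v₀, fun i => absurd (h0 ▸ i.2 : (i : ℕ) < 0) (Nat.not_lt_zero _)⟩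
    · exact ⟨Q ⟨0, hpos⟩, fun i => hsep ⟨0, hpos⟩ i⟩
  set c : H96Chart M g := h54eChart Q hdQ with hc
  set c' : H96Chart M g := h54eChart Q' hdQ' with hc'
  have hd : ∀ i, H37DiscAt A (c.Q i) (c.t i) (c.O i) := h54eChart_disc Q hdQ
  have hd' : ∀ i, H37DiscAt A (c'.Q i) (c'.t i) (c'.O i) := h54eChart_disc Q' hdQ'
  have hv : c.Valid A := h54e_valid A c hbase hRR hd hQ hNS hout
  have hv' : c'.Valid A := h54e_valid A c' hbase hRR hd' hQ' hNS' hout'
  have hl : Nonempty (H96Link A c c') :=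
    h54e_link A c c' hbase hlk hd hd' hQ hQ' hsep hNS hNS' hout'
  have hl' : Nonempty (H96Link A c' c) :=
    h54e_link A c' c hbase hlk hd' hd hQ' hQ hsep' hNS' hNS hout
  refine h36q_geoInputs_of_seed (A := A) ({c, c'} : Set (H96Chart M g)) ⟨c, Or.inl rfl⟩ ?_ ?_
    (h94q_unram_lift_of M A hlift) (h94q_inertia_mod M A ℓ hℓ hℓM hA)
  · rintro x (rfl | rfl)
    · exact hv
    · exact hv'
  · rintro x (rfl | rfl)
    · exact ⟨c', Or.inr rfl, hl'⟩
    · exact ⟨c, Or.inl rfl, hl⟩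

/-- the same with `g` any weak genus of the generic fibre. -/
theorem h54e_geoInputs_of_genus {g : ℕ} (A : ValuationSubring Kbar) (ℓ : ℕ) (hℓ : ℓ.Prime)
    (hℓM : ¬ ℓ ∣ M) (hA : A.LiesOverPrime ℓ) (hg : H13rIsGenus Kbar (FF M) g)
    (hcen : H54eCentres M A g) (hlk : H54eLinks M A g) (hlift : H54eLift M A) :
    H96GeoInputs M A :=
  h54e_geoInputs A ℓ hℓ hℓM hA (h40r_base_FF M)
    ((h78q_large (K := Kbar) (F := FF M) (h40r_base_FF M) g hg).2) hcen hlk hlift

/-- **the three open inputs of TOP-GEO**, at good levels, for the weak genus `g` of the generic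
fibre: centres, links, unramified lifts of places. -/
def H54eSeedInputs : Prop :=
  ∀ (ℓ : ℕ), ℓ.Prime → ∀ (M : ℕ) [NeZero M], ¬ ℓ ∣ M → auxLevel ℓ ∣ M →
    ∃ A : ValuationSubring Kbar, A.LiesOverPrime ℓ ∧
      ∀ g : ℕ, H13rIsGenus Kbar (FF M) g →
        H54eCentres M A g ∧ H54eLinks M A g ∧ H54eLift M A

/-- **TOP-GEO (conditional)**: the open atom `H69vGeoGood` of TOP-LEVEL from the seed inputs. -/
theorem h54e_geoGood (h : H54eSeedInputs) : H69vGeoGood := by
  intro ℓ hℓ M _ haux hℓM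
  obtain ⟨A, hA, hAll⟩ := h ℓ hℓ.out M hℓM haux
  obtain ⟨g, hg⟩ := h40r_riemann_FF M (h43r_riemann_final (K := Kbar) (F := FF M))
  obtain ⟨hcen, hlk, hlift⟩ := hAll g hg
  exact ⟨A, hA, h54e_geoInputs_of_genus A ℓ hℓ.out hℓM hA hg hcen hlk hlift⟩

end Fermat.Agent.P5
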