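import Fermat.Agent.Red.Nz.Final
import Fermat.Agent.Red.GateGoodMain
import Fermat.Agent.Red.HKMod
import Fermat.Agent.Red.SM.Ram
import Fermat.Agent.S18.H18Places

/-!
# P5 (wave 5, S19), GEO: ORTHO — orthonormal bases for the Gauss valuation (helper55)

`M` a good level (`ℓ ∤ M`, `auxLevel ℓ ∣ M`), `A` a valuation subring of `ℚ̄` over `ℓ`
(NOT discrete), `V = gaussV A M` the Gauss valuation ring of `F = FF M`, `gaussR A M : V → k((q))`
its reduction map.

`h55o_ortho`: every finitely generated `ℚ̄`-subspace `W` of `F` has a basis `w i ∈ V` whose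
reductions are linearly independent over `k = A / 𝔪_A`, and `W ∩ V = ⊕ A · w i`.

Proof: no descent to a discrete valuation ring.  One constructs by induction a basis `w i` of `W`
together with places `P j` such that `w i (P j) = δ i j` and such that every Gauss-integral
function with poles in the (finite) set `T` of poles of `W` has a value in `A` at `P j`
(`h55oReg`).  Such places exist on the fibres `j = a`, where the residue class of `a` avoids the
`j`-values of `T`: `h26_stepC` + `hQEP` of the landed chart package `gatePieces`.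
-/

set_option autoImplicit false

open AlgebraicCurve ModularCurve WithZero IsLocalRing IntermediateField

noncomputable section

namespace Fermat.Agent.P5

open Fermat.Agent.S37 Fermat.Agent.Red.GV Fermat.Agent.Red.Match Fermat.Agent.Red
  Fermat.Agent.Red.Nz

/-! ### Places on the fibres of `j` -/

/-- every value of `j` is taken at some place. -/
theorem h55o_exists_place_j (M : ℕ) [NeZero M] (a : Kbar) :
    ∃ P : Place Kbar (FF M), ValueAt P (jB M) a := by
  have hj : Transcendental Kbar (jB M) := Fermat.Agent.S24.transcendental_jBar M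
  have htr : Transcendental Kbar (jB M - cst M a) := by
    have h1 := hj.aeval (Polynomial.X - Polynomial.C a) (by
      rw [Polynomial.natDegree_X_sub_C]; exact one_ne_zero)
    simpa using h1
  have hfd : FiniteDimensional Kbar⟮jB M⟯ (FF M) := Fermat.Agent.Red.HKMod.finiteDimensional_jBar M
  obtain ⟨Q, hQ⟩ := Fermat.Agent.S18.placeExists Kbar (FF M)
    (fun x hx => by
      obtain ⟨c, hc⟩ := h89_exists_algebraMap_eq_of_isAlgebraic hx
      exact ⟨c, hc⟩)
    (fun x hx => Fermat.Agent.S24.pd_finiteDimensional_adjoin_of_transcendental (jB M) x hx)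
    (jB M - cst M a) htr
  exact ⟨Q, Fermat.Agent.Red.SM.h31_mem_nonunits_of_ord_pos Q hQ⟩

/-- the residue field is infinite. -/
theorem h55o_exists_residue_notMem (A : ValuationSubring Kbar)
    (S : Finset (ResidueField A)) : ∃ a : A, residue A a ∉ S := by
  haveI : IsAlgClosed (ResidueField A) := Fermat.Agent.S18.h72_residueField_isAlgClosed A
  obtain ⟨x, hx⟩ := Infinite.exists_notMem_finset S
  obtain ⟨a, rfl⟩ := residue_surjective x
  exact ⟨a, hx⟩

/-! ### Good points -/

section Reg

variable {M : ℕ} [NeZero M] {A : ValuationSubring Kbar} {ℓ : ℕ}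

/-- `P` is a good point for the set `T`: every Gauss-integral function whose poles lie in `T`
takes a value in `A` at `P`. -/
def h55oReg (A : ValuationSubring Kbar) (T : Set (Place Kbar (FF M)))
    (P : Place Kbar (FF M)) : Prop :=
  ∀ w ∈ gaussV A M, (∀ v : Place Kbar (FF M), v ∉ T → w ∈ v.toValuationSubring) →
    ∃ c ∈ A, ValueAt P w c

omit [NeZero M] in
theorem h55oReg.mono {T T' : Set (Place Kbar (FF M))} {P : Place Kbar (FF M)}
    (h : h55oReg A T' P) (hTT : T ⊆ T') : h55oReg A T P :=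
  fun w hw hreg => h w hw (fun v hv => hreg v (fun hvT => hv (hTT hvT)))

/-- **existence of good points**: outside the residue discs of a finite set of places. -/
theorem h55o_exists_reg (hℓ : ℓ.Prime) (hM : ¬ ℓ ∣ M) (haux : auxLevel ℓ ∣ M)
    (hA : A.LiesOverPrime ℓ) (T : Finset (Place Kbar (FF M))) :
    ∃ P : Place Kbar (FF M), h55oReg A (T : Set (Place Kbar (FF M))) P := by
  classical
  obtain ⟨⟨hC, -⟩, -, -, -, -⟩ := GG.gatePieces ℓ hℓ M hM haux A hA
  -- the residues to avoid
  let val : Place Kbar (FF M) → Kbar := fun v =>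
    if h : jB M ∈ v.toValuationSubring then (exists_valueAt v h).choose else 0
  have hval : ∀ v c, ValueAt v (jB M) c → val v = c := by
    intro v c hc
    have h : jB M ∈ v.toValuationSubring := valueAt_mem hc
    simp only [val, dif_pos h]
    exact valueAt_unique (exists_valueAt v h).choose_spec hc
  let S : Finset (ResidueField A) := T.image (fun v =>
    if h : val v ∈ A then residue A ⟨val v, h⟩ else 0)
  obtain ⟨a, ha⟩ := h55o_exists_residue_notMem A S
  obtain ⟨P, hP⟩ := h55o_exists_place_j M (a : Kbar)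
  have hfin : IsFinAt A P := ⟨a, a.2, hP⟩
  refine ⟨P, ?_⟩
  intro w hw hreg
  have hcm : ∀ c : A, cst M (c : Kbar) ∈ modelFin M A := fun c =>
    cst_mem_modelAt M A (jB M) c.2
  have hjm : jB M ∈ modelFin M A := h89_jB_mem_modelFin M A
  -- the centre of `P`
  set n : Ideal (modelFin M A) := RingHom.ker (rdFin hfin) with hn
  have hrd_cst : ∀ c : A, rdFin hfin ⟨cst M (c : Kbar), hcm c⟩ = residue A c := fun c =>
    redHom_cst A (modelFin M A) P _ c (hcm c)
  have hsurj : Function.Surjective (rdFin hfin) := by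
    intro x
    obtain ⟨c, rfl⟩ := residue_surjective x
    exact ⟨⟨cst M (c : Kbar), hcm c⟩, hrd_cst c⟩
  have hnmax : n.IsMaximal := RingHom.ker_isMaximal_of_surjective _ hsurj
  have hmax : maxExt A (modelFin M A) ≤ n := by
    unfold maxExt
    rw [Ideal.span_le]
    rintro x ⟨c, hc, hxc⟩
    rw [SetLike.mem_coe, hn, RingHom.mem_ker]
    have hcA : c ∈ A := ValuationSubring.nonunits_subset hc
    have hx : x = ⟨cst M ((⟨c, hcA⟩ : A) : Kbar), hcm ⟨c, hcA⟩⟩ := Subtype.ext hxc
    rw [hx, hrd_cst, residue_eq_zero_iff]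
    exact ValuationSubring.coe_mem_nonunits_iff.mp hc
  -- `j - a` lies in the centre
  have hja : (⟨jB M, hjm⟩ - ⟨cst M (a : Kbar), hcm a⟩ : modelFin M A) ∈ n := by
    rw [hn, RingHom.mem_ker, map_sub, hrd_cst, rdFin_apply, sub_eq_zero]
    congr 1
    exact Subtype.ext (valueAt_unique (evFin_spec hfin ⟨jB M, hjm⟩) hP)
  obtain ⟨a', ha', s, hs, hsw⟩ := h26_stepC (B := GG.chart M A (jB M))
    (v := GG.chartVal M (jB M)) hC.hfin hC.hint hC.hB (n : Ideal (GG.chart M A (jB M)))
    (h𝔫 := hnmax.isPrime) w (by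
      intro i hi
      have hc := h89_centeredAt_of_h26Centered (jB M) n hnmax hmax i hi
      have hiT : i.1 ∉ (T : Set (Place Kbar (FF M))) := by
        intro hiT
        obtain ⟨c, hc1⟩ := hc.1 ⟨jB M, hjm⟩
        have hv := hval i.1 (c : Kbar) hc1
        obtain ⟨d, hd, hd1⟩ := hc.2 _ hja
        have hd2 : ValueAt i.1 (jB M - cst M (a : Kbar)) ((c : Kbar) - (a : Kbar)) :=
          valueAt_sub hc1 (valueAt_cst i.1 _)
        have hd3 : d = (c : Kbar) - (a : Kbar) := valueAt_unique hd1 hd2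
        have hres : residue A a = residue A c := by
          rw [eq_comm, ← sub_eq_zero, ← map_sub, residue_eq_zero_iff]
          refine ValuationSubring.coe_mem_nonunits_iff.mp ?_
          rw [hd3] at hd
          exact hd
        apply ha
        rw [hres]
        refine Finset.mem_image.mpr ⟨i.1, hiT, ?_⟩
        have hvA : val i.1 ∈ A := by rw [hv]; exact c.2
        rw [dif_pos hvA]
        congr 1
        exact Subtype.ext hv
      exact i.1.adicValuation_le_one_of_mem (hreg i.1 hiT))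
  -- `s w` lies in the chart
  have hsV : ((s : GG.chart M A (jB M)) : FF M) ∈ gaussV A M := hC.hBV _ s.2
  have hswB : ((s : GG.chart M A (jB M)) : FF M) * w ∈ GG.chart M A (jB M) :=
    hC.hQEP a' ha' _ (mul_mem hsV hw) hsw
  -- the values
  let s' : modelFin M A := ⟨(s : FF M), s.2⟩
  let sw' : modelFin M A := ⟨(s : FF M) * w, hswB⟩
  have hs' : rdFin hfin s' ≠ 0 := fun h0 => hs ((RingHom.mem_ker).mpr h0)
  have hse : ((evFin hfin s' : A) : Kbar) ∉ A.nonunits := by
    intro hmem
    apply hs'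
    rw [rdFin_apply, residue_eq_zero_iff]
    exact ValuationSubring.coe_mem_nonunits_iff.mp hmem
  rw [ValuationSubring.mem_nonunits_iff_or, not_or, not_not] at hse
  obtain ⟨he0, heinv⟩ := hse
  have h1 : ValueAt P (s : FF M) ((evFin hfin s' : A) : Kbar) := evFin_spec hfin s'
  have h2 : ValueAt P ((s : FF M) * w) ((evFin hfin sw' : A) : Kbar) := evFin_spec hfin sw'
  have h3 := valueAt_mul (valueAt_inv h1 he0) h2
  have hs0 : (s : FF M) ≠ 0 := by
    intro h0
    rw [h0] at h1
    exact he0 (valueAt_unique h1 (valueAt_zero P))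
  rw [inv_mul_cancel_left₀ hs0] at h3
  exact ⟨_, A.mul_mem _ _ heinv (evFin hfin sw').2, h3⟩

omit [NeZero M] in
/-- the value of a finite sum. -/
theorem h55o_valueAt_sum {ι : Type*} (P : Place Kbar (FF M)) (s : Finset ι) (g : ι → FF M)
    (c : ι → Kbar) (h : ∀ i ∈ s, ValueAt P (g i) (c i)) :
    ValueAt P (∑ i ∈ s, g i) (∑ i ∈ s, c i) := by
  classical
  induction s using Finset.induction_on with
  | empty => simpa using valueAt_zero P
  | insert a s ha ih =>
    rw [Finset.sum_insert ha, Finset.sum_insert ha]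
    exact valueAt_add (h a (Finset.mem_insert_self a s))
      (ih (fun i hi => h i (Finset.mem_insert_of_mem hi)))

/-- a Gauss-small function is a constant of `𝔪_A` times a Gauss-integral function. -/
theorem h55o_gaussSmall_factor (hℓ : ℓ.Prime) (hM : ¬ ℓ ∣ M) (hA : A.LiesOverPrime ℓ)
    {e : FF M} (he : GaussSmall A M e) :
    ∃ (π : Kbar) (e' : FF M), π ∈ A.nonunits ∧ e' ∈ gaussV A M ∧ e = cst M π * e' ∧
      ∀ v : Place Kbar (FF M), e ∈ v.toValuationSubring → e' ∈ v.toValuationSubring := by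
  obtain ⟨hz, hz0⟩ := he
  rcases (gaussR_eq_zero_iff A M hℓ hM hA ⟨e, hz⟩).mp hz0 with h | h
  · have h0 : e = 0 := h
    refine ⟨0, 0, zero_mem _, zero_mem _, ?_, fun v _ => zero_mem _⟩
    rw [h0, mul_zero]
  · have he0 : e ≠ 0 := by
      rintro rfl
      apply h
      show (0 : FF M)⁻¹ ∈ gaussV A M
      rw [inv_zero]
      exact zero_mem _
    obtain ⟨c, hc, hcV, hcV'⟩ := exists_cst_mul_unit A M hℓ hM hA e he0
    have hc0 : cst M c ≠ 0 := by
      simpa only [cst, ne_eq, map_eq_zero] using hc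
    refine ⟨c⁻¹, cst M c * e, ?_, hcV, ?_, fun v hv => mul_mem (cst_mem v c) hv⟩
    · rw [ValuationSubring.mem_nonunits_iff_or]
      right
      rw [inv_inv]
      intro hcA
      apply h
      have h1 : e⁻¹ = cst M c * (cst M c * e)⁻¹ := by
        rw [mul_inv, ← mul_assoc, mul_inv_cancel₀ hc0, one_mul]
      show e⁻¹ ∈ gaussV A M
      rw [h1]
      exact mul_mem ((cst_mem_gaussV_iff A M hA c).mpr hcA) hcV'
    · rw [← mul_assoc, ← map_mul, inv_mul_cancel₀ hc, map_one, one_mul]

omit [NeZero M] in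
/-- values of Gauss units at a good point are units of `A`. -/
theorem h55oReg.unit {T : Set (Place Kbar (FF M))} {P : Place Kbar (FF M)}
    (hP : h55oReg A T P) {w : FF M} (hw0 : w ≠ 0) (hw : w ∈ gaussV A M)
    (hw' : w⁻¹ ∈ gaussV A M)
    (hreg : ∀ v : Place Kbar (FF M), v ∉ T → w ∈ v.toValuationSubring)
    (hreg' : ∀ v : Place Kbar (FF M), v ∉ T → w⁻¹ ∈ v.toValuationSubring) :
    ∃ c : Kbar, c ≠ 0 ∧ c ∈ A ∧ c⁻¹ ∈ A ∧ ValueAt P w c := by
  obtain ⟨c, hc, hcv⟩ := hP w hw hreg
  obtain ⟨c', hc', hcv'⟩ := hP w⁻¹ hw' hreg'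
  have h1 := valueAt_mul hcv hcv'
  rw [mul_inv_cancel₀ hw0] at h1
  have h2 : c * c' = 1 := valueAt_unique h1 (valueAt_one P)
  have hc0 : c ≠ 0 := left_ne_zero_of_mul_eq_one h2
  refine ⟨c, hc0, hc, ?_, hcv⟩
  rw [← eq_inv_of_mul_eq_one_right h2]
  exact hc'

/-- values of Gauss-small functions at a good point lie in `𝔪_A`. -/
theorem h55oReg.small (hℓ : ℓ.Prime) (hM : ¬ ℓ ∣ M) (hA : A.LiesOverPrime ℓ)
    {T : Set (Place Kbar (FF M))} {P : Place Kbar (FF M)}
    (hP : h55oReg A T P) {e : FF M} (he : GaussSmall A M e)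
    (hreg : ∀ v : Place Kbar (FF M), v ∉ T → e ∈ v.toValuationSubring) :
    ∃ c ∈ A.nonunits, ValueAt P e c := by
  obtain ⟨π, e', hπ, he', hee', hv⟩ := h55o_gaussSmall_factor hℓ hM hA he
  obtain ⟨c, hc, hcv⟩ := hP e' he' (fun v hvT => hv v (hreg v hvT))
  refine ⟨π * c, h71_mul_mem_nonunits A hπ hc, ?_⟩
  rw [hee']
  exact valueAt_mul (valueAt_cst P π) hcv

/-- every function with poles in `T` has a value at a good point. -/
theorem h55oReg.exists_value (hℓ : ℓ.Prime) (hM : ¬ ℓ ∣ M) (hA : A.LiesOverPrime ℓ)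
    {T : Set (Place Kbar (FF M))} {P : Place Kbar (FF M)}
    (hP : h55oReg A T P) {f : FF M}
    (hreg : ∀ v : Place Kbar (FF M), v ∉ T → f ∈ v.toValuationSubring) :
    ∃ d : Kbar, ValueAt P f d := by
  rcases eq_or_ne f 0 with rfl | hf0
  · exact ⟨0, valueAt_zero P⟩
  · obtain ⟨c, hc, hcV, -⟩ := exists_cst_mul_unit A M hℓ hM hA f hf0
    obtain ⟨d, -, hd⟩ := hP _ hcV (fun v hv => mul_mem (cst_mem v c) (hreg v hv))
    refine ⟨c⁻¹ * d, ?_⟩
    have h1 := valueAt_mul (valueAt_cst P c⁻¹) hd
    rwa [← mul_assoc, ← map_mul, inv_mul_cancel₀ hc, map_one, one_mul] at h1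

/-- the zeros and poles of a nonzero function form a finite set. -/
theorem h55o_exists_finset_poles (f : FF M) (hf : f ≠ 0) :
    ∃ T : Finset (Place Kbar (FF M)), ∀ v : Place Kbar (FF M), v ∉ T →
      f ∈ v.toValuationSubring ∧ f⁻¹ ∈ v.toValuationSubring := by
  haveI := Fermat.Agent.Red.HKMod.hasPrincipalDivisors_FF M
  obtain ⟨D, hD, -⟩ := HasPrincipalDivisors.exists_divisor (K := Kbar) f hf
  refine ⟨D.support, fun v hv => ?_⟩
  have h0 : v.ord f = 0 := by
    rw [← hD v]
    exact Finsupp.notMem_support_iff.mp hv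
  constructor
  · exact Fermat.Agent.S24.DiffPlace.mem_of_ord_nonneg v h0.ge
  · apply Fermat.Agent.S24.DiffPlace.mem_of_ord_nonneg
    rw [v.ord_inv, h0, neg_zero]

end Reg

/-! ### Dual pairs -/

section Dual

variable {M : ℕ} [NeZero M] {A : ValuationSubring Kbar} {ℓ : ℕ}

/-- a dual pair: functions `w i ∈ W ∩ V` and good points `P j` with `w i (P j) = δ i j`. -/
structure H55oDual (A : ValuationSubring Kbar) (T : Set (Place Kbar (FF M)))
    (W : Submodule Kbar (FF M)) {ι : Type} [DecidableEq ι] (w : ι → FF M)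
    (P : ι → Place Kbar (FF M)) : Prop where
  mem : ∀ i, w i ∈ W
  int : ∀ i, w i ∈ gaussV A M
  reg : ∀ j, h55oReg A T (P j)
  val : ∀ i j, ValueAt (P j) (w i) (if i = j then 1 else 0)

omit [NeZero M] in
theorem h55o_cst_mul_eq_smul (c : Kbar) (x : FF M) : cst M c * x = c • x :=
  (Algebra.smul_def c x).symm

omit [NeZero M] in
/-- the value of a linear combination of a dual family. -/
theorem H55oDual.value_sum {T : Set (Place Kbar (FF M))} {W : Submodule Kbar (FF M)}
    {ι : Type} [Fintype ι] [DecidableEq ι] {w : ι → FF M} {P : ι → Place Kbar (FF M)}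
    (hD : H55oDual A T W w P) (c : ι → Kbar) (j : ι) :
    ValueAt (P j) (∑ i, cst M (c i) * w i) (c j) := by
  have h1 := h55o_valueAt_sum (P j) Finset.univ (fun i => cst M (c i) * w i)
    (fun i => c i * (if i = j then 1 else 0))
    (fun i _ => valueAt_mul (valueAt_cst (P j) (c i)) (hD.val i j))
  have h2 : ∑ i, c i * (if i = j then (1 : Kbar) else 0) = c j := by
    simp
  rwa [h2] at h1

/-- **extension of a dual pair** by a function outside its span. -/
theorem h55o_extend (hℓ : ℓ.Prime) (hM : ¬ ℓ ∣ M) (haux : auxLevel ℓ ∣ M)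
    (hA : A.LiesOverPrime ℓ) (T : Finset (Place Kbar (FF M))) (W : Submodule Kbar (FF M))
    (hW : ∀ f ∈ W, ∀ v : Place Kbar (FF M), v ∉ (T : Set (Place Kbar (FF M))) →
      f ∈ v.toValuationSubring)
    {ι : Type} [Fintype ι] [DecidableEq ι] (w : ι → FF M) (P : ι → Place Kbar (FF M))
    (hD : H55oDual A (T : Set (Place Kbar (FF M))) W w P)
    (f : FF M) (hf : f ∈ W) (hfw : f ∉ Submodule.span Kbar (Set.range w)) :
    ∃ (w' : Option ι → FF M) (P' : Option ι → Place Kbar (FF M)),
      H55oDual A (T : Set (Place Kbar (FF M))) W w' P' ∧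
      Submodule.span Kbar (Set.range w') =
        Submodule.span Kbar (Set.range w) ⊔ Submodule.span Kbar {f} := by
  classical
  -- the values of `f` at the points
  have hd : ∀ j, ∃ d : Kbar, ValueAt (P j) f d := fun j =>
    (hD.reg j).exists_value hℓ hM hA (hW f hf)
  choose d hd using hd
  set f' : FF M := f - ∑ i, cst M (d i) * w i with hf'
  have hsumW : ∀ c : ι → Kbar, ∑ i, cst M (c i) * w i ∈ Submodule.span Kbar (Set.range w) :=
    fun c => Submodule.sum_mem _ (fun i _ => by
      rw [h55o_cst_mul_eq_smul]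
      exact Submodule.smul_mem _ _ (Submodule.subset_span ⟨i, rfl⟩))
  have hspanW : Submodule.span Kbar (Set.range w) ≤ W :=
    Submodule.span_le.mpr (by rintro _ ⟨i, rfl⟩; exact hD.mem i)
  have hf'W : f' ∈ W := W.sub_mem hf (hspanW (hsumW d))
  have hf'0 : f' ≠ 0 := by
    intro h0
    apply hfw
    have h1 : f = ∑ i, cst M (d i) * w i := sub_eq_zero.mp h0
    rw [h1]
    exact hsumW d
  have hf'val : ∀ j, ValueAt (P j) f' 0 := by
    intro j
    have h1 := valueAt_sub (hd j) (hD.value_sum d j)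
    rwa [sub_self] at h1
  -- normalisation
  obtain ⟨c, hc, hgV, hgV'⟩ := exists_cst_mul_unit A M hℓ hM hA f' hf'0
  have hc0 : cst M c ≠ 0 := by
    simpa only [cst, ne_eq, map_eq_zero] using hc
  set g : FF M := cst M c * f' with hg
  have hg0 : g ≠ 0 := mul_ne_zero hc0 hf'0
  have hgW : g ∈ W := by
    rw [hg, h55o_cst_mul_eq_smul]
    exact W.smul_mem _ hf'W
  have hgval : ∀ j, ValueAt (P j) g 0 := by
    intro j
    have h1 := valueAt_mul (valueAt_cst (P j) c) (hf'val j)
    rwa [mul_zero] at h1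
  -- the new point
  obtain ⟨Tz, hTz⟩ := h55o_exists_finset_poles g hg0
  obtain ⟨Pn, hPn⟩ := h55o_exists_reg hℓ hM haux hA (T ∪ Tz)
  have hPnT : h55oReg A (T : Set (Place Kbar (FF M))) Pn :=
    hPn.mono (by
      intro v hv
      exact Finset.mem_coe.mpr (Finset.mem_union_left _ (Finset.mem_coe.mp hv)))
  have hnz : ∀ v : Place Kbar (FF M), v ∉ ((T ∪ Tz : Finset (Place Kbar (FF M))) :
      Set (Place Kbar (FF M))) → v ∉ Tz := fun v hv hvz =>
    hv (Finset.mem_coe.mpr (Finset.mem_union_right _ hvz))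
  obtain ⟨u, hu0, huA, huA', huv⟩ := hPn.unit hg0 hgV hgV'
    (fun v hv => (hTz v (hnz v hv)).1) (fun v hv => (hTz v (hnz v hv)).2)
  have he : ∀ i, ∃ e ∈ A, ValueAt Pn (w i) e := fun i =>
    hPnT (w i) (hD.int i) (hW _ (hD.mem i))
  choose e heA he using he
  set wn : FF M := cst M u⁻¹ * g with hwn
  have hwnW : wn ∈ W := by
    rw [hwn, h55o_cst_mul_eq_smul]
    exact W.smul_mem _ hgW
  have hwnV : wn ∈ gaussV A M := mul_mem ((cst_mem_gaussV_iff A M hA _).mpr huA') hgV
  have hwn_n : ValueAt Pn wn 1 := by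
    have h1 := valueAt_mul (valueAt_cst Pn u⁻¹) huv
    rwa [inv_mul_cancel₀ hu0] at h1
  have hwn_j : ∀ j, ValueAt (P j) wn 0 := by
    intro j
    have h1 := valueAt_mul (valueAt_cst (P j) u⁻¹) (hgval j)
    rwa [mul_zero] at h1
  refine ⟨fun o => Option.elim o wn (fun i => w i - cst M (e i) * wn),
    fun o => Option.elim o Pn P, ⟨?_, ?_, ?_, ?_⟩, ?_⟩
  · rintro (_ | i)
    · exact hwnW
    · show w i - cst M (e i) * wn ∈ W
      rw [h55o_cst_mul_eq_smul]
      exact W.sub_mem (hD.mem i) (W.smul_mem _ hwnW)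
  · rintro (_ | i)
    · exact hwnV
    · exact sub_mem (hD.int i) (mul_mem ((cst_mem_gaussV_iff A M hA _).mpr (heA i)) hwnV)
  · rintro (_ | j)
    · exact hPnT
    · exact hD.reg j
  · rintro (_ | i) (_ | j)
    · simpa using hwn_n
    · simpa using hwn_j j
    · show ValueAt Pn (w i - cst M (e i) * wn) _
      have h1 := valueAt_sub (he i) (valueAt_mul (valueAt_cst Pn (e i)) hwn_n)
      simpa using h1
    · show ValueAt (P j) (w i - cst M (e i) * wn) _
      have h1 := valueAt_sub (hD.val i j) (valueAt_mul (valueAt_cst (P j) (e i)) (hwn_j j))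
      simpa using h1
  · -- the spans
    have hwn_eq : wn = (u⁻¹ * c) • f' := by
      rw [hwn, hg, ← mul_assoc, ← map_mul, h55o_cst_mul_eq_smul]
    have huc : u⁻¹ * c ≠ 0 := mul_ne_zero (inv_ne_zero hu0) hc
    apply le_antisymm
    · rw [Submodule.span_le]
      have hf'R : f' ∈ Submodule.span Kbar (Set.range w) ⊔ Submodule.span Kbar {f} :=
        Submodule.sub_mem _
          (Submodule.mem_sup_right (Submodule.subset_span (Set.mem_singleton f)))
          (Submodule.mem_sup_left (hsumW d))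
      have hwnR : wn ∈ Submodule.span Kbar (Set.range w) ⊔ Submodule.span Kbar {f} := by
        rw [hwn_eq]
        exact Submodule.smul_mem _ _ hf'R
      rintro _ ⟨o, rfl⟩
      rcases o with _ | i
      · exact hwnR
      · show w i - cst M (e i) * wn ∈ _
        rw [h55o_cst_mul_eq_smul]
        exact Submodule.sub_mem _ (Submodule.mem_sup_left (Submodule.subset_span ⟨i, rfl⟩))
          (Submodule.smul_mem _ _ hwnR)
    · set L := Submodule.span Kbar (Set.range fun o : Option ι =>
        Option.elim o wn (fun i => w i - cst M (e i) * wn)) with hL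
      have hwnL : wn ∈ L := Submodule.subset_span ⟨none, rfl⟩
      have hwL : ∀ i, w i ∈ L := by
        intro i
        have h1 : w i - cst M (e i) * wn ∈ L := Submodule.subset_span ⟨some i, rfl⟩
        have h2 : cst M (e i) * wn ∈ L := by
          rw [h55o_cst_mul_eq_smul]
          exact Submodule.smul_mem _ _ hwnL
        have h3 := L.add_mem h1 h2
        rwa [sub_add_cancel] at h3
      have hf'L : f' ∈ L := by
        have hK : ((u⁻¹ * c)⁻¹ * u⁻¹) * c = 1 := by
          rw [mul_assoc]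
          exact inv_mul_cancel₀ huc
        have h1 : f' = cst M (u⁻¹ * c)⁻¹ * wn := by
          rw [hwn, hg, ← mul_assoc, ← mul_assoc, ← map_mul, ← map_mul, hK, map_one, one_mul]
        rw [h1, h55o_cst_mul_eq_smul]
        exact Submodule.smul_mem _ _ hwnL
      rw [sup_le_iff]
      constructor
      · rw [Submodule.span_le]
        rintro _ ⟨i, rfl⟩
        exact hwL i
      · rw [Submodule.span_le, Set.singleton_subset_iff]
        have h1 : f = f' + ∑ i, cst M (d i) * w i := by
          rw [hf', sub_add_cancel]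
        rw [SetLike.mem_coe, h1]
        refine L.add_mem hf'L (Submodule.sum_mem _ (fun i _ => ?_))
        rw [h55o_cst_mul_eq_smul]
        exact Submodule.smul_mem _ _ (hwL i)

/-- **dual pairs exist** for the span of every finite set of functions of `W`. -/
theorem h55o_dual_of_finset (hℓ : ℓ.Prime) (hM : ¬ ℓ ∣ M) (haux : auxLevel ℓ ∣ M)
    (hA : A.LiesOverPrime ℓ) (T : Finset (Place Kbar (FF M))) (W : Submodule Kbar (FF M))
    (hW : ∀ f ∈ W, ∀ v : Place Kbar (FF M), v ∉ (T : Set (Place Kbar (FF M))) →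
      f ∈ v.toValuationSubring)
    (s : Finset (FF M)) (hs : ∀ f ∈ s, f ∈ W) :
    ∃ (ι : Type) (_ : Fintype ι) (_ : DecidableEq ι) (w : ι → FF M)
      (P : ι → Place Kbar (FF M)),
      H55oDual A (T : Set (Place Kbar (FF M))) W w P ∧
      Submodule.span Kbar (Set.range w) = Submodule.span Kbar (s : Set (FF M)) := by
  classical
  induction s using Finset.induction_on with
  | empty =>
    refine ⟨PEmpty, inferInstance, inferInstance, fun i => i.elim, fun i => i.elim,
      ⟨fun i => i.elim, fun i => i.elim, fun i => i.elim, fun i => i.elim⟩, ?_⟩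
    rw [Finset.coe_empty, Submodule.span_empty, Submodule.span_eq_bot]
    rintro _ ⟨i, -⟩
    exact i.elim
  | insert f s hfs ih =>
    obtain ⟨ι, hF, hDec, w, P, hD, hspan⟩ :=
      ih (fun g hg => hs g (Finset.mem_insert_of_mem hg))
    by_cases hfw : f ∈ Submodule.span Kbar (Set.range w)
    · refine ⟨ι, hF, hDec, w, P, hD, ?_⟩
      rw [Finset.coe_insert, Submodule.span_insert, ← hspan, eq_comm, sup_eq_right,
        Submodule.span_le, Set.singleton_subset_iff]
      exact hfw
    · obtain ⟨w', P', hD', hspan'⟩ := h55o_extend hℓ hM haux hA T W hW w P hD f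
        (hs f (Finset.mem_insert_self f s)) hfw
      refine ⟨Option ι, inferInstance, _, w', P', hD', ?_⟩
      rw [hspan', Finset.coe_insert, Submodule.span_insert, hspan, sup_comm]

omit [NeZero M] in
/-- reindexing a dual pair. -/
theorem H55oDual.reindex {T : Set (Place Kbar (FF M))} {W : Submodule Kbar (FF M)}
    {ι κ : Type} [DecidableEq ι] [DecidableEq κ] {w : ι → FF M} {P : ι → Place Kbar (FF M)}
    (hD : H55oDual A T W w P) (e : κ ≃ ι) : H55oDual A T W (w ∘ e) (P ∘ e) where
  mem i := hD.mem (e i)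
  int i := hD.int (e i)
  reg j := hD.reg (e j)
  val i j := by
    have h1 := hD.val (e i) (e j)
    have h2 : (if e i = e j then (1 : Kbar) else 0) = if i = j then 1 else 0 := by
      by_cases h : i = j
      · rw [if_pos h, if_pos (congrArg e h)]
      · rw [if_neg h, if_neg (fun h' => h (e.injective h'))]
    rw [h2] at h1
    exact h1

omit [NeZero M] in
/-- a dual family is linearly independent. -/
theorem H55oDual.linearIndependent {T : Set (Place Kbar (FF M))} {W : Submodule Kbar (FF M)}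
    {ι : Type} [Fintype ι] [DecidableEq ι] {w : ι → FF M} {P : ι → Place Kbar (FF M)}
    (hD : H55oDual A T W w P) : LinearIndependent Kbar w := by
  rw [Fintype.linearIndependent_iff]
  intro c hc j
  have h1 := hD.value_sum c j
  have h2 : ∑ i, cst M (c i) * w i = 0 := by
    rw [← hc]
    exact Finset.sum_congr rfl (fun i _ => h55o_cst_mul_eq_smul (c i) (w i))
  rw [h2] at h1
  exact valueAt_unique h1 (valueAt_zero (P j))

/-- **orthonormality**: a Gauss-small `A`-combination has all its coefficients in `𝔪_A`. -/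
theorem H55oDual.small (hℓ : ℓ.Prime) (hM : ¬ ℓ ∣ M) (hA : A.LiesOverPrime ℓ)
    {T : Set (Place Kbar (FF M))} {W : Submodule Kbar (FF M)}
    (hW : ∀ f ∈ W, ∀ v : Place Kbar (FF M), v ∉ T → f ∈ v.toValuationSubring)
    {ι : Type} [Fintype ι] [DecidableEq ι] {w : ι → FF M} {P : ι → Place Kbar (FF M)}
    (hD : H55oDual A T W w P) (c : ι → Kbar)
    (hsmall : GaussSmall A M (∑ i, cst M (c i) * w i)) (j : ι) : c j ∈ A.nonunits := by
  have hmem : ∑ i, cst M (c i) * w i ∈ W := W.sum_mem (fun i _ => by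
    rw [h55o_cst_mul_eq_smul]
    exact W.smul_mem _ (hD.mem i))
  obtain ⟨c', hc', hv⟩ := (hD.reg j).small hℓ hM hA hsmall (hW _ hmem)
  rw [valueAt_unique (hD.value_sum c j) hv]
  exact hc'

omit [NeZero M] in
/-- the coefficients of a Gauss-integral element of the span lie in `A`. -/
theorem H55oDual.coeff_mem
    {T : Set (Place Kbar (FF M))} {W : Submodule Kbar (FF M)}
    (hW : ∀ f ∈ W, ∀ v : Place Kbar (FF M), v ∉ T → f ∈ v.toValuationSubring)
    {ι : Type} [Fintype ι] [DecidableEq ι] {w : ι → FF M} {P : ι → Place Kbar (FF M)}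
    (hD : H55oDual A T W w P) (c : ι → Kbar)
    (hint : ∑ i, cst M (c i) * w i ∈ gaussV A M) (j : ι) : c j ∈ A := by
  have hmem : ∑ i, cst M (c i) * w i ∈ W := W.sum_mem (fun i _ => by
    rw [h55o_cst_mul_eq_smul]
    exact W.smul_mem _ (hD.mem i))
  obtain ⟨c', hc', hv⟩ := hD.reg j _ hint (hW _ hmem)
  rw [valueAt_unique (hD.value_sum c j) hv]
  exact hc'

/-- the reductions of a dual family are linearly independent over the residue field. -/
theorem H55oDual.red_linearIndependent (hℓ : ℓ.Prime) (hM : ¬ ℓ ∣ M) (hA : A.LiesOverPrime ℓ)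
    {T : Set (Place Kbar (FF M))} {W : Submodule Kbar (FF M)}
    (hW : ∀ f ∈ W, ∀ v : Place Kbar (FF M), v ∉ T → f ∈ v.toValuationSubring)
    {ι : Type} [Fintype ι] [DecidableEq ι] {w : ι → FF M} {P : ι → Place Kbar (FF M)}
    (hD : H55oDual A T W w P) :
    LinearIndependent (ResidueField A) (fun i => gaussR A M ⟨w i, hD.int i⟩) := by
  rw [Fintype.linearIndependent_iff]
  intro g hg j
  have ha : ∀ i, ∃ a : A, residue A a = g i := fun i => residue_surjective (g i)
  choose a ha using ha
  have hcV : ∀ i, cst M ((a i : A) : Kbar) ∈ gaussV A M := fun i => h89_cst_mem_gaussV (a i)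
  have hsum : (((∑ i, (⟨cst M ((a i : A) : Kbar), hcV i⟩ * ⟨w i, hD.int i⟩ : gaussV A M) :
      gaussV A M)) : FF M) = ∑ i, cst M ((a i : A) : Kbar) * w i := by
    rw [AddSubmonoidClass.coe_finsetSum]
    rfl
  have hred : gaussR A M (∑ i, (⟨cst M ((a i : A) : Kbar), hcV i⟩ * ⟨w i, hD.int i⟩ :
      gaussV A M)) = 0 := by
    rw [map_sum, ← hg]
    refine Finset.sum_congr rfl (fun i _ => ?_)
    rw [map_mul, h89_gaussR_cst, ha i, HahnSeries.C_mul_eq_smul]
  have hsmall : GaussSmall A M (∑ i, cst M ((a i : A) : Kbar) * w i) := by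
    refine ⟨hsum ▸ Subtype.mem _, ?_⟩
    rw [← hred]
    exact h89_gaussR_congr _ _ hsum.symm
  have h1 := hD.small hℓ hM hA hW (fun i => ((a i : A) : Kbar)) hsmall j
  rw [← ha j, residue_eq_zero_iff]
  exact ValuationSubring.coe_mem_nonunits_iff.mp h1

/-- **DUAL**: every finitely generated subspace `W` of `FF M` has a basis `w i` of
Gauss-integral functions and good points `P j` with `w i (P j) = δ i j`; the poles of `W` lie
in the finite set `T`. -/
theorem h55o_dual (hℓ : ℓ.Prime) (hM : ¬ ℓ ∣ M) (haux : auxLevel ℓ ∣ M)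
    (hA : A.LiesOverPrime ℓ) (W : Submodule Kbar (FF M)) (hWfg : W.FG) :
    ∃ (T : Finset (Place Kbar (FF M))) (n : ℕ) (w : Fin n → FF M)
      (P : Fin n → Place Kbar (FF M)),
      (∀ f ∈ W, ∀ v : Place Kbar (FF M), v ∉ (T : Set (Place Kbar (FF M))) →
        f ∈ v.toValuationSubring) ∧
      H55oDual A (T : Set (Place Kbar (FF M))) W w P ∧
      Submodule.span Kbar (Set.range w) = W := by
  classical
  obtain ⟨s, hs⟩ := hWfg
  -- the poles
  have hex : ∀ f : FF M, ∃ Tf : Finset (Place Kbar (FF M)), ∀ v : Place Kbar (FF M),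
      v ∉ Tf → f ∈ v.toValuationSubring := by
    intro f
    rcases eq_or_ne f 0 with rfl | hf
    · exact ⟨∅, fun v _ => zero_mem _⟩
    · obtain ⟨Tf, hTf⟩ := h55o_exists_finset_poles f hf
      exact ⟨Tf, fun v hv => (hTf v hv).1⟩
  choose Tf hTf using hex
  set T : Finset (Place Kbar (FF M)) := s.biUnion Tf with hT
  have hW : ∀ f ∈ W, ∀ v : Place Kbar (FF M), v ∉ (T : Set (Place Kbar (FF M))) →
      f ∈ v.toValuationSubring := by
    intro f hf v hv
    rw [← hs] at hf
    induction hf using Submodule.span_induction with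
    | mem x hx =>
      refine hTf x v (fun hvx => hv ?_)
      exact Finset.mem_coe.mpr (Finset.mem_biUnion.mpr ⟨x, Finset.mem_coe.mp hx, hvx⟩)
    | zero => exact zero_mem _
    | add x y _ _ hx hy => exact add_mem hx hy
    | smul a x _ hx =>
      rw [← h55o_cst_mul_eq_smul]
      exact mul_mem (cst_mem v a) hx
  have hsW : ∀ f ∈ s, f ∈ W := fun f hf => by
    rw [← hs]
    exact Submodule.subset_span (Finset.mem_coe.mpr hf)
  obtain ⟨ι, hF, hDec, w, P, hD, hspan⟩ := h55o_dual_of_finset hℓ hM haux hA T W hW s hsW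
  refine ⟨T, Fintype.card ι, w ∘ (Fintype.equivFin ι).symm, P ∘ (Fintype.equivFin ι).symm,
    hW, hD.reindex _, ?_⟩
  rw [Set.range_comp, Equiv.range_eq_univ, Set.image_univ, hspan, hs]

/-- **ORTHO**: every finitely generated `ℚ̄`-subspace `W` of `FF M` (`M` a good level) has a
basis of Gauss-integral functions whose reductions are linearly independent over the residue
field `k = A / 𝔪_A`; the Gauss-integral elements of `W` are the `A`-combinations of the
basis. -/
theorem h55o_ortho (hℓ : ℓ.Prime) (hM : ¬ ℓ ∣ M) (haux : auxLevel ℓ ∣ M)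
    (hA : A.LiesOverPrime ℓ) (W : Submodule Kbar (FF M)) (hWfg : W.FG) :
    ∃ (n : ℕ) (w : Fin n → FF M) (hV : ∀ i, w i ∈ gaussV A M),
      (∀ i, w i ∈ W) ∧ LinearIndependent Kbar w ∧
      Submodule.span Kbar (Set.range w) = W ∧
      LinearIndependent (ResidueField A) (fun i => gaussR A M ⟨w i, hV i⟩) ∧
      (∀ c : Fin n → Kbar, GaussSmall A M (∑ i, cst M (c i) * w i) →
        ∀ i, c i ∈ A.nonunits) ∧
      (∀ f ∈ W, f ∈ gaussV A M →
        ∃ c : Fin n → Kbar, (∀ i, c i ∈ A) ∧ f = ∑ i, cst M (c i) * w i) := by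
  obtain ⟨T, n, w, P, hW, hD, hspan⟩ := h55o_dual hℓ hM haux hA W hWfg
  refine ⟨n, w, hD.int, hD.mem, hD.linearIndependent, hspan,
    hD.red_linearIndependent hℓ hM hA hW, fun c hc i => hD.small hℓ hM hA hW c hc i, ?_⟩
  intro f hf hfV
  rw [← hspan] at hf
  obtain ⟨c, hc⟩ := (Submodule.mem_span_range_iff_exists_fun Kbar).mp hf
  have hc' : f = ∑ i, cst M (c i) * w i := by
    rw [← hc]
    exact Finset.sum_congr rfl (fun i _ => (h55o_cst_mul_eq_smul (c i) (w i)).symm)
  refine ⟨c, fun i => hD.coeff_mem hW c (hc' ▸ hfV) i, hc'⟩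

end Dual

end Fermat.Agent.P5
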