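import Mathlib

/-!
# P5 / ALG-CLOS toolkit (helper56): function algebras on a finite set over a subring

`K` a field, `O` a subring, `S` a finite set, `B` an `O`-subalgebra of `S → K`.  Mathlib only.

* `h56p_aeval_mem`, `h56p_det_mem` : polynomials and determinants of functions of `B`;
* `h56p_inv_mem` : a function of `B` whose values are units of `O` has its inverse in `B`;
* `h56p_conductor` : if functions of `B` with values in `O` separate the points of `S`, then `B`
  contains `c • (S → O)` for some `c ≠ 0` of `O`;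
* `h56p_mem_of_approx` : hence a function congruent modulo `c` to an element of `B` lies in `B`
  ("`B` is closed");
* `h56p_prodAlg B B'` : the algebra of functions on `S × S'` generated by `B` and `B'`;
  `h56p_sweedler` : its elements are finite sums `∑ a i x * b i y`;
  `h56p_prod_conductor`, `h56p_sw_of_approx` : conductor and closedness of the product algebra.
-/

set_option autoImplicit false

open Polynomial

namespace Fermat.Agent.P5

variable {K : Type*} [Field K] {O : Subring K} {S S' : Type*}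



/-- constants with values in `O` lie in every `O`-subalgebra. -/
theorem h56p_const_mem (B : Subalgebra O (S → K)) {a : K} (ha : a ∈ O) :
    (fun _ : S => a) ∈ B := by
  have h := B.algebraMap_mem (⟨a, ha⟩ : O)
  have e : (algebraMap O (S → K)) ⟨a, ha⟩ = fun _ : S => a := by
    funext s
    rfl
  rwa [e] at h

/-- multiples by elements of `O`. -/
theorem h56p_smul_mem (B : Subalgebra O (S → K)) {a : K} (ha : a ∈ O) {f : S → K}
    (hf : f ∈ B) : (fun s => a * f s) ∈ B := by
  have h := B.mul_mem (h56p_const_mem B ha) hf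
  exact h

/-- finite products. -/
theorem h56p_prod_mem (B : Subalgebra O (S → K)) {ι : Type*} (t : Finset ι) (f : ι → S → K)
    (hf : ∀ i ∈ t, f i ∈ B) : (fun s => ∏ i ∈ t, f i s) ∈ B := by
  have h := B.prod_mem hf
  have e : (∏ i ∈ t, f i) = fun s => ∏ i ∈ t, f i s := by
    funext s
    rw [Finset.prod_apply]
  rwa [e] at h

/-- finite sums. -/
theorem h56p_sum_mem (B : Subalgebra O (S → K)) {ι : Type*} (t : Finset ι) (f : ι → S → K)
    (hf : ∀ i ∈ t, f i ∈ B) : (fun s => ∑ i ∈ t, f i s) ∈ B := by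
  have h := B.sum_mem hf
  have e : (∑ i ∈ t, f i) = fun s => ∑ i ∈ t, f i s := by
    funext s
    rw [Finset.sum_apply]
  rwa [e] at h




/-- evaluation of a polynomial with coefficients in `O` at a function of `B`. -/
theorem h56p_aeval_mem (B : Subalgebra O (S → K)) {f : S → K} (hf : f ∈ B) (p : O[X]) :
    (fun s => aeval (f s) p) ∈ B := by
  have h1 : (aeval (⟨f, hf⟩ : B) p : S → K) = aeval f p := aeval_subalgebra_coe p B ⟨f, hf⟩
  have h2 : aeval f p ∈ B := by
    rw [← h1]
    exact (aeval (⟨f, hf⟩ : B) p).2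
  have e : aeval f p = fun s => aeval (f s) p := by
    funext s
    have := aeval_algHom_apply (Pi.evalAlgHom O (fun _ : S => K) s) f p
    simpa using this.symm
  rwa [e] at h2

/-- **unit inverse.**  A function of `B` whose values are units of `O` has its inverse in `B`. -/
theorem h56p_inv_mem [Finite S] (B : Subalgebra O (S → K)) {f : S → K} (hf : f ∈ B)
    (hO : ∀ s, f s ∈ O) (h0 : ∀ s, f s ≠ 0) (hu : ∀ s, (f s)⁻¹ ∈ O) :
    (fun s => (f s)⁻¹) ∈ B := by
  classical
  haveI : Fintype S := Fintype.ofFinite S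
  -- the polynomial `∏ (X - f s)` over `O`
  let P : O[X] := ∏ s : S, (X - C (⟨f s, hO s⟩ : O))
  have hP : ∀ t, aeval (f t) P = 0 := by
    intro t
    simp only [P, map_prod, map_sub, aeval_X, aeval_C]
    apply Finset.prod_eq_zero (Finset.mem_univ t)
    show f t - algebraMap O K ⟨f t, hO t⟩ = 0
    exact sub_self _
  -- constant coefficient
  have ha : ((P.coeff 0 : O) : K) = ∏ s : S, (- f s) := by
    rw [coeff_zero_eq_eval_zero]
    simp only [P, eval_prod, eval_sub, eval_X, eval_C, zero_sub]
    push_cast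
    rfl
  have ha0 : ((P.coeff 0 : O) : K) ≠ 0 := by
    rw [ha]
    exact Finset.prod_ne_zero_iff.2 fun s _ => neg_ne_zero.2 (h0 s)
  have hainv : (((P.coeff 0 : O) : K))⁻¹ ∈ O := by
    rw [ha, ← Finset.prod_inv_distrib]
    refine Subring.prod_mem _ fun s _ => ?_
    rw [inv_neg]
    exact O.neg_mem (hu s)
  -- `P = divX P * X + C (P.coeff 0)`
  have hdiv : ∀ t, aeval (f t) P.divX * f t + ((P.coeff 0 : O) : K) = 0 := by
    intro t
    have h1 := congrArg (aeval (f t)) (divX_mul_X_add P)
    rw [map_add, map_mul, aeval_X, aeval_C, hP t] at h1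
    exact h1
  have key : ∀ t, (f t)⁻¹ = (-(((P.coeff 0 : O) : K))⁻¹) * aeval (f t) P.divX := by
    intro t
    have h1 := hdiv t
    have h2 : aeval (f t) P.divX * f t = -((P.coeff 0 : O) : K) := eq_neg_of_add_eq_zero_left h1
    have h3 : aeval (f t) P.divX = -((P.coeff 0 : O) : K) * (f t)⁻¹ := by
      rw [← h2, mul_assoc, mul_inv_cancel₀ (h0 t), mul_one]
    rw [h3]
    field_simp
  have hmem := h56p_smul_mem B (O.neg_mem hainv) (h56p_aeval_mem B hf P.divX)
  have e : (fun s => (f s)⁻¹) = fun s => (-(((P.coeff 0 : O) : K))⁻¹) * aeval (f s) P.divX := by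
    funext s
    exact key s
  rw [e]
  exact hmem




/-- differences with constants. -/
theorem h56p_sub_const_mem (B : Subalgebra O (S → K)) {f : S → K} (hf : f ∈ B) {a : K}
    (ha : a ∈ O) : (fun s => f s - a) ∈ B :=
  B.sub_mem hf (h56p_const_mem B ha)

/-- **conductor.**  If functions of `B` with values in `O` separate the points of the finite set
`S`, then `B` contains `c • (S → O)` for some non-zero `c ∈ O`. -/
theorem h56p_conductor [Finite S] (B : Subalgebra O (S → K)) {ι : Type*} (X : ι → S → K)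
    (hX : ∀ i, X i ∈ B) (hXO : ∀ i s, X i s ∈ O)
    (hsep : ∀ s s', s ≠ s' → ∃ i, X i s ≠ X i s') :
    ∃ c ∈ O, c ≠ 0 ∧ ∀ F : S → K, (∀ s, ∃ a ∈ O, F s = c * a) → F ∈ B := by
  classical
  have : Fintype S := Fintype.ofFinite S
  by_cases hne : Nonempty ι
  swap
  · -- no functions: `S` is a subsingleton
    have hsub : ∀ s s' : S, s = s' := by
      intro s s'
      by_contra h
      obtain ⟨i, -⟩ := hsep s s' h
      exact hne ⟨i⟩
    refine ⟨1, O.one_mem, one_ne_zero, fun F hF => ?_⟩
    by_cases hS : Nonempty S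
    · obtain ⟨s₀⟩ := hS
      obtain ⟨a, ha, hFa⟩ := hF s₀
      have e : F = fun _ => a := by
        funext s
        rw [hsub s s₀, hFa, one_mul]
      rw [e]
      exact h56p_const_mem B ha
    · have e : F = fun _ => 0 := by
        funext s
        exact (hS ⟨s⟩).elim
      rw [e]
      exact h56p_const_mem B O.zero_mem
  obtain ⟨i₀⟩ := hne
  -- a separating index for every pair
  let ix : S → S → ι := fun s s' => if h : s = s' then i₀ else (hsep s s' h).choose
  have hix : ∀ s s', s ≠ s' → X (ix s s') s ≠ X (ix s s') s' := by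
    intro s s' h
    simp only [ix, dif_neg h]
    exact (hsep s s' h).choose_spec
  -- the Lagrange functions
  let L : S → S → K := fun s t => ∏ s' ∈ Finset.univ.erase s, (X (ix s s') t - X (ix s s') s')
  have hL : ∀ s, L s ∈ B := fun s =>
    h56p_prod_mem B _ (fun s' t => X (ix s s') t - X (ix s s') s')
      (fun s' _ => h56p_sub_const_mem B (hX _) (hXO _ _))
  let d : S → K := fun s => L s s
  have hd0 : ∀ s, d s ≠ 0 := by
    intro s
    refine Finset.prod_ne_zero_iff.2 fun s' hs' => sub_ne_zero.2 ?_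
    exact hix s s' (Finset.ne_of_mem_erase hs').symm
  have hdO : ∀ s, d s ∈ O := fun s =>
    Subring.prod_mem _ fun s' _ => O.sub_mem (hXO _ _) (hXO _ _)
  have hLt : ∀ s t, t ≠ s → L s t = 0 := by
    intro s t hts
    exact Finset.prod_eq_zero (Finset.mem_erase.2 ⟨hts, Finset.mem_univ t⟩) (sub_self _)
  refine ⟨∏ s, d s, Subring.prod_mem _ fun s _ => hdO s,
    Finset.prod_ne_zero_iff.2 fun s _ => hd0 s, fun F hF => ?_⟩
  choose a ha hFa using hF
  have e : F = fun t => ∑ s, (a s * ∏ s'' ∈ Finset.univ.erase s, d s'') * L s t := by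
    funext t
    rw [Finset.sum_eq_single t]
    · rw [hFa t, ← Finset.mul_prod_erase Finset.univ d (Finset.mem_univ t)]
      show (d t * ∏ x ∈ Finset.univ.erase t, d x) * a t = a t * (∏ s'' ∈ Finset.univ.erase t, d s'') * d t
      ring
    · intro s _ hst
      rw [hLt s t (Ne.symm hst), mul_zero]
    · intro h
      exact (h (Finset.mem_univ t)).elim
  rw [e]
  refine h56p_sum_mem B _ (fun s t => (a s * ∏ s'' ∈ Finset.univ.erase s, d s'') * L s t)
    (fun s _ => ?_)
  exact h56p_smul_mem B (O.mul_mem (ha s) (Subring.prod_mem _ fun s'' _ => hdO s'')) (hL s)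

/-- **closedness.**  With the conductor `c`: a function congruent modulo `c` to an element of `B`
lies in `B`. -/
theorem h56p_mem_of_approx (B : Subalgebra O (S → K)) {c : K}
    (hc : ∀ F : S → K, (∀ s, ∃ a ∈ O, F s = c * a) → F ∈ B) {F b : S → K} (hb : b ∈ B)
    (hFb : ∀ s, ∃ a ∈ O, F s - b s = c * a) : F ∈ B := by
  have h1 : (fun s => F s - b s) ∈ B := hc _ hFb
  have h2 := B.add_mem h1 hb
  have e : (fun s => F s - b s) + b = F := by
    funext s
    simp
  rwa [e] at h2




/-- the algebra of functions on `S × S'` generated by `B` (first variable) and `B'` (second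
variable). -/
def h56p_prodAlg (B : Subalgebra O (S → K)) (B' : Subalgebra O (S' → K)) :
    Subalgebra O (S × S' → K) :=
  Algebra.adjoin O ({F | ∃ f ∈ B, F = fun z => f z.1} ∪ {F | ∃ g ∈ B', F = fun z => g z.2})

theorem h56p_fst_mem (B : Subalgebra O (S → K)) (B' : Subalgebra O (S' → K)) {f : S → K}
    (hf : f ∈ B) : (fun z : S × S' => f z.1) ∈ h56p_prodAlg B B' :=
  Algebra.subset_adjoin (Or.inl ⟨f, hf, rfl⟩)

theorem h56p_snd_mem (B : Subalgebra O (S → K)) (B' : Subalgebra O (S' → K)) {g : S' → K}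
    (hg : g ∈ B') : (fun z : S × S' => g z.2) ∈ h56p_prodAlg B B' :=
  Algebra.subset_adjoin (Or.inr ⟨g, hg, rfl⟩)

/-- Sweedler form with an arbitrary finite index type. -/
def h56p_Sw (B : Subalgebra O (S → K)) (B' : Subalgebra O (S' → K)) (F : S × S' → K) : Prop :=
  ∃ (n : ℕ) (a : Fin n → S → K) (b : Fin n → S' → K),
    (∀ i, a i ∈ B) ∧ (∀ i, b i ∈ B') ∧ ∀ x y, F (x, y) = ∑ i, a i x * b i y

theorem h56p_Sw_of_fintype (B : Subalgebra O (S → K)) (B' : Subalgebra O (S' → K))
    {F : S × S' → K} {ι : Type*} [Fintype ι] (a : ι → S → K) (b : ι → S' → K)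
    (ha : ∀ i, a i ∈ B) (hb : ∀ i, b i ∈ B') (hF : ∀ x y, F (x, y) = ∑ i, a i x * b i y) :
    h56p_Sw B B' F := by
  classical
  let e := Fintype.equivFin ι
  refine ⟨Fintype.card ι, fun i => a (e.symm i), fun i => b (e.symm i), fun i => ha _,
    fun i => hb _, fun x y => ?_⟩
  rw [hF x y]
  exact (Equiv.sum_comp e.symm (fun i => a i x * b i y)).symm

/-- **Sweedler form.**  Every element of the product algebra is a finite sum of products. -/
theorem h56p_sweedler (B : Subalgebra O (S → K)) (B' : Subalgebra O (S' → K))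
    {F : S × S' → K} (hF : F ∈ h56p_prodAlg B B') : h56p_Sw B B' F := by
  classical
  induction hF using Algebra.adjoin_induction with
  | mem F hF =>
    rcases hF with ⟨f, hf, rfl⟩ | ⟨g, hg, rfl⟩
    · exact ⟨1, fun _ => f, fun _ => 1, fun _ => hf, fun _ => B'.one_mem, fun x y => by simp⟩
    · exact ⟨1, fun _ => 1, fun _ => g, fun _ => B.one_mem, fun _ => hg, fun x y => by simp⟩
  | algebraMap r =>
    refine ⟨1, fun _ => algebraMap O (S → K) r, fun _ => 1, fun _ => B.algebraMap_mem r,
      fun _ => B'.one_mem, fun x y => ?_⟩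
    simp
  | add F G _ _ hF hG =>
    obtain ⟨n, a, b, ha, hb, hF⟩ := hF
    obtain ⟨m, a', b', ha', hb', hG⟩ := hG
    refine h56p_Sw_of_fintype B B' (ι := Fin n ⊕ Fin m) (Sum.elim a a') (Sum.elim b b')
      (fun i => ?_) (fun i => ?_) (fun x y => ?_)
    · cases i with
      | inl i => exact ha i
      | inr i => exact ha' i
    · cases i with
      | inl i => exact hb i
      | inr i => exact hb' i
    · rw [Fintype.sum_sum_type]
      simp only [Sum.elim_inl, Sum.elim_inr, Pi.add_apply]
      rw [hF x y, hG x y]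
  | mul F G _ _ hF hG =>
    obtain ⟨n, a, b, ha, hb, hF⟩ := hF
    obtain ⟨m, a', b', ha', hb', hG⟩ := hG
    refine h56p_Sw_of_fintype B B' (ι := Fin n × Fin m) (fun i => a i.1 * a' i.2)
      (fun i => b i.1 * b' i.2) (fun i => B.mul_mem (ha _) (ha' _))
      (fun i => B'.mul_mem (hb _) (hb' _)) (fun x y => ?_)
    rw [Fintype.sum_prod_type]
    simp only [Pi.mul_apply]
    rw [hF x y, hG x y, Finset.sum_mul_sum]
    refine Finset.sum_congr rfl fun i _ => Finset.sum_congr rfl fun j _ => ?_
    ring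


/-- determinants of matrices of functions of `B`. -/
theorem h56p_det_mem (B : Subalgebra O (S → K)) {n : Type*} [Fintype n] [DecidableEq n]
    (M : S → Matrix n n K) (hM : ∀ i j, (fun s => M s i j) ∈ B) :
    (fun s => (M s).det) ∈ B := by
  have e : (fun s => (M s).det) =
      fun s => ∑ σ : Equiv.Perm n, (Equiv.Perm.sign σ : K) * ∏ i, M s (σ i) i := by
    funext s
    rw [Matrix.det_apply]
    refine Finset.sum_congr rfl fun σ _ => ?_
    rw [Units.smul_def, zsmul_eq_mul]
  rw [e]
  refine h56p_sum_mem B _ (fun σ s => (Equiv.Perm.sign σ : K) * ∏ i, M s (σ i) i) (fun σ _ => ?_)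
  refine h56p_smul_mem B ?_ (h56p_prod_mem B _ (fun i s => M s (σ i) i) (fun i _ => hM _ _))
  rcases Int.units_eq_one_or (Equiv.Perm.sign σ) with h | h
  · rw [h]
    simp only [Units.val_one, Int.cast_one]
    exact O.one_mem
  · rw [h]
    simp only [Units.val_neg, Units.val_one, Int.cast_neg, Int.cast_one]
    exact O.neg_mem O.one_mem

/-- conductor of the product algebra. -/
theorem h56p_prod_conductor [Finite S] [Finite S'] (B : Subalgebra O (S → K))
    (B' : Subalgebra O (S' → K)) {ι ι' : Type*} (X : ι → S → K) (X' : ι' → S' → K)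
    (hX : ∀ i, X i ∈ B) (hXO : ∀ i s, X i s ∈ O)
    (hsep : ∀ s s', s ≠ s' → ∃ i, X i s ≠ X i s')
    (hX' : ∀ i, X' i ∈ B') (hXO' : ∀ i s, X' i s ∈ O)
    (hsep' : ∀ s s', s ≠ s' → ∃ i, X' i s ≠ X' i s') :
    ∃ c ∈ O, c ≠ 0 ∧ ∀ F : S × S' → K, (∀ z, ∃ a ∈ O, F z = c * a) → F ∈ h56p_prodAlg B B' := by
  refine h56p_conductor (h56p_prodAlg B B') (ι := ι ⊕ ι')
    (Sum.elim (fun i z => X i z.1) (fun i z => X' i z.2)) (fun i => ?_) (fun i z => ?_)
    (fun z z' hz => ?_)
  · cases i with
    | inl i => exact h56p_fst_mem B B' (hX i)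
    | inr i => exact h56p_snd_mem B B' (hX' i)
  · cases i with
    | inl i => exact hXO i z.1
    | inr i => exact hXO' i z.2
  · by_cases h1 : z.1 = z'.1
    · have h2 : z.2 ≠ z'.2 := fun h2 => hz (Prod.ext h1 h2)
      obtain ⟨i, hi⟩ := hsep' _ _ h2
      exact ⟨Sum.inr i, hi⟩
    · obtain ⟨i, hi⟩ := hsep _ _ h1
      exact ⟨Sum.inl i, hi⟩

/-- **closedness of the product algebra, Sweedler form.**  A function on `S × S'` which is
congruent modulo the conductor to an element of the product algebra is a finite sum of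
products. -/
theorem h56p_sw_of_approx (B : Subalgebra O (S → K)) (B' : Subalgebra O (S' → K)) {c : K}
    (hc : ∀ F : S × S' → K, (∀ z, ∃ a ∈ O, F z = c * a) → F ∈ h56p_prodAlg B B')
    {F G : S × S' → K} (hG : G ∈ h56p_prodAlg B B')
    (hFG : ∀ z, ∃ a ∈ O, F z - G z = c * a) : h56p_Sw B B' F :=
  h56p_sweedler B B' (h56p_mem_of_approx (h56p_prodAlg B B') hc hG hFG)

end Fermat.Agent.P5
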