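import Fermat.Agent.P5.H71Rep
import Fermat.Agent.P5.H4Rep

/-!
# Wave 5, pillar (P), block GEO: row GEO-NONSPEC (helper71)

The reduction input `H4rNonSpec A Q` of helper4's consumers (`h4r_rep`, `h4r_rep_unique`,
`h4r_step`, `h4r_der_unit`, `h4r_link`, `h4r_valid`) from helper13's frozen interface:
a reduction map `r` (`H13sIsRed A M r`) and centres `Q i` whose reduced divisor is non-special
on the special fibre (`ℓ~ (∑ r (Q i)) = 1`).

* `h71r_red_eq_push` : `h4r_red A w D = (r_* D) (r w)`;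
* `h71r_h4NonSpec` : `H4rNonSpec A Q`;
* `h71r_h4_inj`, `h71r_h4_out` : the side conditions `hQ`, `hout` of helper4's theorems.
-/

set_option autoImplicit false
set_option linter.unusedSectionVars false
set_option linter.style.haveILetI false

open AlgebraicCurve ModularCurve

noncomputable section

namespace Fermat.Agent.P5

open Fermat.Agent.S37 Fermat.Agent.Red.GV

variable {ℓ : ℕ} {M : ℕ} [NeZero M] {A : ValuationSubring Kbar}
  {r : Place Kbar (FF M) → Place (h13sK A) (h13sFt A M)} {g : ℕ}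

/-- the reduction of a divisor on the class of `w` is the push-forward at `r w`. -/
theorem h71r_red_eq_push (hr : H13sIsRed A M r) (w : Place Kbar (FF M))
    (D : Divisor Kbar (FF M)) : h4r_red A w D = Finsupp.mapDomain r D (r w) := by
  classical
  rw [h4r_red_apply, h71r_push_apply]
  refine Finset.sum_congr rfl fun v _ => ?_
  by_cases h : SameRed A v w
  · rw [if_pos h, if_pos ((hr.2.1 v w).mpr h)]
  · rw [if_neg h, if_neg fun h' => h ((hr.2.1 v w).mp h')]

/-- **GEO-NONSPEC**: helper4's reduction input from the frozen GEO-RR interface. -/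
theorem h71r_h4NonSpec (hℓ : ℓ.Prime) (hM : ¬ ℓ ∣ M) (hA : A.LiesOverPrime ℓ)
    (hr : H13sIsRed A M r) (Q : Fin g → Place Kbar (FF M))
    (hns : h13rL (h13sK A) (h13sFt A M) (∑ i, Finsupp.single (r (Q i)) (1 : ℤ)) = 1) :
    H4rNonSpec A Q := by
  intro D hD hpos w
  obtain ⟨f, hf0, hDf⟩ := hD
  have hpos' : 0 ≤ Finsupp.mapDomain r D + ∑ i, Finsupp.single (r (Q i)) (1 : ℤ) := by
    rw [Finsupp.le_def]
    intro Q'
    obtain ⟨w', rfl⟩ := hr.1 Q'
    have h1 := hpos w'
    rw [h71r_red_eq_push hr, Finsupp.mapDomain_add] at h1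
    unfold h4r_sum at h1
    rw [h71r_push_sum_single] at h1
    exact h1
  rw [h71r_red_eq_push hr,
    h71r_nonspec (h71r_red_of_isRed hℓ hM hA hr) (fun i => r (Q i)) hns hf0 hDf hpos']
  rfl

/-- the centres have pairwise distinct reductions. -/
theorem h71r_h4_inj (hr : H13sIsRed A M r) (Q : Fin g → Place Kbar (FF M))
    (hQ : Function.Injective fun i => r (Q i)) :
    ∀ i j, SameRed A (Q i) (Q j) → i = j :=
  fun _ _ h => hQ ((hr.2.1 _ _).mpr h)

/-- a place outside the discs of the centres. -/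
theorem h71r_h4_out (hr : H13sIsRed A M r) (hBs : H13rBase (h13sK A) (h13sFt A M))
    (Q : Fin g → Place Kbar (FF M)) :
    ∃ v : Place Kbar (FF M), ∀ i, ¬ SameRed A v (Q i) := by
  classical
  haveI := hBs.infinite
  obtain ⟨Q0, hQ0⟩ := Infinite.exists_notMem_finset (Finset.univ.image fun i => r (Q i))
  obtain ⟨v0, hv0⟩ := hr.1 Q0
  refine ⟨v0, fun i h => hQ0 (Finset.mem_image.mpr ⟨i, Finset.mem_univ i, ?_⟩)⟩
  rw [← hv0]
  exact ((hr.2.1 _ _).mpr h).symm

end Fermat.Agent.P5
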