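import Fermat.Agent.P5.H56GeoAsm
import Fermat.Agent.P5.H4Seed
import Fermat.Agent.P5.H71NonSpec
import Fermat.Agent.P5.H71Rep
import Fermat.Agent.P5.H91Unr
import Fermat.Agent.P5.H40RRInst
import Fermat.Agent.P5.H37DiscChar
import Fermat.Agent.Red.HKMod

/-!
# P5 (wave 5, S19), rows GEO-SEED + GEO-ASM (helper56), version 2

The wiring of `P5/H56GeoAsm.lean` with the landed leaves DISCHARGED:

* `h56h_rep  : H13sBase → H56gRep`  (helper71: `h71r_rep`, `h71r_rep_unique`; helper40);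
* `h56h_lift : H56gLift`            (helper91: `h91n_geo_tail`);
* the LINK is consumed in helper4's raw form `H4sLinkRaw` on charts whose rings `O i` carry the
  bridge `H37DiscChar` (helper37): frozen leaf **`H56gLinkRaw`**;
* `h56h_link : H13sBase → H56gLinkRaw → H56gLinkC` (via helper4's `h4s_link`, helper71's
  `h71r_h4NonSpec`, `h71r_h4_inj`, `h71r_h4_out`);
* `h56h_seed`, `h56h_geoInputs`, `h56h_geoGood`, `h56h_level` : the assembly from the leaves
  `H37DiscExistsC`, `H13sBase`, `H13sRedDiv`, `H13sGenus`, `H56gInfFin`, `H56gRep`, `H56gLinkC`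
  (`H56gLinkC` = `H56gLink` for charts carrying the bridge; `h56h_linkC_of_link`,
  `h56h_link : H13sBase → H56gLinkRaw → H56gLinkC`).
-/

set_option autoImplicit false
set_option linter.unusedSectionVars false
set_option linter.unusedVariables false
set_option linter.style.longLine false

open AlgebraicCurve ModularCurve

noncomputable section

namespace Fermat.Agent.P5

open Fermat.Agent.S37

/-! ### The leaves which are already theorems -/

/-- **REP** is a theorem (helper71), given the base facts of the special fibre. -/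
theorem h56h_rep (hBase : H13sBase) : H56gRep := by
  intro ℓ hℓ M _ hM haux A hA r hr g hgG hgS c hd hns
  have hB : H13rBase Kbar (FF M) := h40r_base_FF M
  have hBs := hBase ℓ hℓ M hM haux A hA
  exact ⟨h71r_rep hℓ hM hA hr hB (h78q_large hB g hgG).2 c.Q hns.1 hns.2,
    h71r_rep_unique hℓ hM hA hr hB hBs c.Q hns.1 hns.2⟩

/-- **LIFT** is a theorem (helper91). -/
theorem h56h_lift : H56gLift := fun ℓ hℓ M _ hM haux A hA =>
  (h91n_geo_tail hℓ hM haux hA).1

/-! ### The link -/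

/-- **LINK-RAW** (row GEO-LINK): the raw data of a link (helper4's `H4sLinkRaw`: polar divisor
`E₀`, basis `bs, b j`, membership in the rings `O i`, jets `N0` with unit determinant, unit
derivative of `bs` at the centres of the target) between two charts with disc calculus AND the
bridge `H37DiscChar` at every centre, non-special centres, `2g` distinct reductions. -/
def H56gLinkRaw : Prop :=
  ∀ (ℓ : ℕ), ℓ.Prime → ∀ (M : ℕ) [NeZero M], ¬ ℓ ∣ M → auxLevel ℓ ∣ M →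
    ∀ A : ValuationSubring Kbar, A.LiesOverPrime ℓ →
    ∀ r : Place Kbar (FF M) → Place (h13sK A) (h13sFt A M), H13sIsRed A M r →
    ∀ g : ℕ, H13rIsGenus Kbar (FF M) g → H13rIsGenus (h13sK A) (h13sFt A M) g →
    ∀ c c' : H96Chart M g,
      (∀ i, H37DiscAt A (c.Q i) (c.t i) (c.O i)) → (∀ i, H37DiscChar A (c.Q i) (c.O i)) →
      (∀ i, H37DiscAt A (c'.Q i) (c'.t i) (c'.O i)) → (∀ i, H37DiscChar A (c'.Q i) (c'.O i)) →
      H56gNonSpec r c.Q → H56gNonSpec r c'.Q → (∀ i j, r (c.Q i) ≠ r (c'.Q j)) →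
      H4sLinkRaw A c c'

/-- **LINK with the bridge**: the statement `H56gLink` for charts carrying `H37DiscChar`. -/
def H56gLinkC : Prop :=
  ∀ (ℓ : ℕ), ℓ.Prime → ∀ (M : ℕ) [NeZero M], ¬ ℓ ∣ M → auxLevel ℓ ∣ M →
    ∀ A : ValuationSubring Kbar, A.LiesOverPrime ℓ →
    ∀ r : Place Kbar (FF M) → Place (h13sK A) (h13sFt A M), H13sIsRed A M r →
    ∀ g : ℕ, H13rIsGenus Kbar (FF M) g → H13rIsGenus (h13sK A) (h13sFt A M) g →
    ∀ c c' : H96Chart M g,
      (∀ i, H37DiscAt A (c.Q i) (c.t i) (c.O i)) → (∀ i, H37DiscChar A (c.Q i) (c.O i)) →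
      (∀ i, H37DiscAt A (c'.Q i) (c'.t i) (c'.O i)) → (∀ i, H37DiscChar A (c'.Q i) (c'.O i)) →
      H56gNonSpec r c.Q → H56gNonSpec r c'.Q → (∀ i j, r (c.Q i) ≠ r (c'.Q j)) →
      Nonempty (H96Link A c c')

/-- helper4's seed chart from the special-fibre data. -/
theorem h56h_chart {ℓ : ℕ} (hℓ : ℓ.Prime) {M : ℕ} [NeZero M] (hM : ¬ ℓ ∣ M)
    {A : ValuationSubring Kbar} (hA : A.LiesOverPrime ℓ)
    {r : Place Kbar (FF M) → Place (h13sK A) (h13sFt A M)} (hr : H13sIsRed A M r)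
    (hBs : H13rBase (h13sK A) (h13sFt A M)) {g : ℕ} (c : H96Chart M g)
    (hd : ∀ i, H37DiscAt A (c.Q i) (c.t i) (c.O i)) (hns : H56gNonSpec r c.Q) :
    H4sChart A c where
  disc := hd
  distinct := h71r_h4_inj hr c.Q hns.1
  nonspec := h71r_h4NonSpec hℓ hM hA hr c.Q hns.2
  out := h71r_h4_out hr hBs c.Q

/-- the link with the bridge from the link without the bridge. -/
theorem h56h_linkC_of_link (h : H56gLink) : H56gLinkC :=
  fun ℓ hℓ M _ hM haux A hA r hr g hgG hgS c c' hd _ hd' _ hns hns' hne =>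
    h ℓ hℓ M hM haux A hA r hr g hgG hgS c c' hd hd' hns hns' hne

/-- the link from the raw data. -/
theorem h56h_link (hBase : H13sBase) (hRaw : H56gLinkRaw) : H56gLinkC := by
  intro ℓ hℓ M _ hM haux A hA r hr g hgG hgS c c' hd hch hd' hch' hns hns' hne
  have hBs := hBase ℓ hℓ M hM haux A hA
  haveI : HasPrincipalDivisors Kbar (FF M) := Fermat.Agent.Red.HKMod.hasPrincipalDivisors_FF M
  have hB : H13rBase Kbar (FF M) := h40r_base_FF M
  exact h4s_link A hB.deg_one (h56h_chart hℓ hM hA hr hBs c hd hns)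
    (h56h_chart hℓ hM hA hr hBs c' hd' hns')
    (hRaw ℓ hℓ M hM haux A hA r hr g hgG hgS c c' hd hch hd' hch' hns hns' hne)

/-! ### The centres, with the bridge -/

/-- over a reduced divisor `T` of the special fibre avoiding the infinite points, a family of
centres with disc calculus and bridge, enumerated by `Fin g`. -/
theorem h56h_centres (hDisc : H37DiscExistsC) (ℓ : ℕ) (hℓ : ℓ.Prime) (M : ℕ) [NeZero M]
    (hℓM : ¬ ℓ ∣ M) (haux : auxLevel ℓ ∣ M) (A : ValuationSubring Kbar)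
    (hA : A.LiesOverPrime ℓ)
    (r : Place Kbar (FF M) → Place (h13sK A) (h13sFt A M)) (hr : H13sIsRed A M r)
    (S : Finset (Place (h13sK A) (h13sFt A M)))
    (hS : ∀ v : Place Kbar (FF M), ¬ IsFinAt A v → r v ∈ S)
    (g : ℕ) (T : Finset (Place (h13sK A) (h13sFt A M))) (hTS : Disjoint T S)
    (hTc : T.card = g) (hTl : h13rL (h13sK A) (h13sFt A M) (h13rSum _ _ T) = 1) :
    ∃ c : H96Chart M g, (∀ i, H37DiscAt A (c.Q i) (c.t i) (c.O i)) ∧
      (∀ i, H37DiscChar A (c.Q i) (c.O i)) ∧ H56gNonSpec r c.Q ∧ ∀ i, r (c.Q i) ∈ T := by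
  classical
  have key : ∀ w : Place (h13sK A) (h13sFt A M), w ∈ T →
      ∃ (Q : Place Kbar (FF M)) (t : FF M) (O : Subring (FF M)),
        r Q = w ∧ H37DiscAt A Q t O ∧ H37DiscChar A Q O := by
    intro w hw
    obtain ⟨v, rfl⟩ := hr.1 w
    have hfin : IsFinAt A v := by
      by_contra hv
      exact (Finset.disjoint_left.1 hTS hw) (hS v hv)
    obtain ⟨Q, t, O, hvQ, hd, hch⟩ := hDisc ℓ hℓ M hℓM haux A hA v hfin
    exact ⟨Q, t, O, ((hr.2.1 v Q).2 hvQ).symm, hd, hch⟩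
  let e : Fin g ≃ T := (Finset.equivFinOfCardEq hTc).symm
  choose Q t O hQ hd hch using
    fun i : Fin g => key (e i : Place (h13sK A) (h13sFt A M)) (e i).2
  refine ⟨⟨Q, t, O⟩, hd, hch, ⟨?_, ?_⟩, fun i => ?_⟩
  · intro i j hij
    have h1 : ((e i : T) : Place (h13sK A) (h13sFt A M)) = (e j : T) := by
      rw [← hQ i, ← hQ j]; exact hij
    exact e.injective (Subtype.ext h1)
  · have h2 : (∑ i, Finsupp.single (r (Q i)) (1 : ℤ) : Divisor (h13sK A) (h13sFt A M)) =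
        h13rSum (h13sK A) (h13sFt A M) T := by
      unfold h13rSum
      rw [← Finset.sum_coe_sort T (fun v => (Finsupp.single v (1 : ℤ) :
        Divisor (h13sK A) (h13sFt A M)))]
      rw [← Equiv.sum_comp e]
      exact Finset.sum_congr rfl fun i _ => by rw [hQ i]
    show h13rL (h13sK A) (h13sFt A M) (∑ i, Finsupp.single (r (Q i)) (1 : ℤ)) = 1
    rw [h2]
    exact hTl
  · show r (Q i) ∈ T
    rw [hQ i]
    exact (e i).2

/-! ### GEO-SEED and GEO-ASM, version 2 -/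

/-- **GEO-SEED**: at a good level, two valid charts linked both ways. -/
theorem h56h_seed (hDisc : H37DiscExistsC) (hBase : H13sBase) (hRed : H13sRedDiv)
    (hGen : H13sGenus) (hInf : H56gInfFin) (hRep : H56gRep) (hLink : H56gLinkC)
    (ℓ : ℕ) (hℓ : ℓ.Prime) (M : ℕ) [NeZero M] (hℓM : ¬ ℓ ∣ M) (haux : auxLevel ℓ ∣ M)
    (A : ValuationSubring Kbar) (hA : A.LiesOverPrime ℓ) :
    ∃ (g : ℕ) (c c' : H96Chart M g), c.Valid A ∧ c'.Valid A ∧
      Nonempty (H96Link A c c') ∧ Nonempty (H96Link A c' c) := by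
  classical
  obtain ⟨r, hr⟩ := hRed ℓ hℓ M hℓM haux A hA
  obtain ⟨g, hgG, hgS⟩ := hGen ℓ hℓ M hℓM haux A hA
  have hB := hBase ℓ hℓ M hℓM haux A hA
  obtain ⟨S, hS⟩ := hInf ℓ hℓ M hℓM haux A hA r hr
  obtain ⟨T₀, hT₀S, hT₀c, hT₀l⟩ := h78m_moving (K := h13sK A) (F := h13sFt A M) hB g hgS S
  obtain ⟨T₁, hT₁S, hT₁c, hT₁l⟩ :=
    h78m_moving (K := h13sK A) (F := h13sFt A M) hB g hgS (S ∪ T₀)
  have hT₁S' : Disjoint T₁ S := Finset.disjoint_of_subset_right Finset.subset_union_left hT₁S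
  have hT₁T₀ : Disjoint T₁ T₀ :=
    Finset.disjoint_of_subset_right Finset.subset_union_right hT₁S
  obtain ⟨c, hcd, hcc, hcn, hcT⟩ :=
    h56h_centres hDisc ℓ hℓ M hℓM haux A hA r hr S hS g T₀ hT₀S hT₀c hT₀l
  obtain ⟨c', hcd', hcc', hcn', hcT'⟩ :=
    h56h_centres hDisc ℓ hℓ M hℓM haux A hA r hr S hS g T₁ hT₁S' hT₁c hT₁l
  have hne : ∀ i j, r (c.Q i) ≠ r (c'.Q j) := fun i j h =>
    Finset.disjoint_left.1 hT₁T₀ (hcT' j) (h ▸ hcT i)
  have hne' : ∀ i j, r (c'.Q i) ≠ r (c.Q j) := fun i j h => hne j i h.symm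
  obtain ⟨hrep, hrepu⟩ := hRep ℓ hℓ M hℓM haux A hA r hr g hgG hgS c hcd hcn
  obtain ⟨hrep', hrepu'⟩ := hRep ℓ hℓ M hℓM haux A hA r hr g hgG hgS c' hcd' hcn'
  exact ⟨g, c, c', h56g_valid A c hcd hrep hrepu, h56g_valid A c' hcd' hrep' hrepu',
    hLink ℓ hℓ M hℓM haux A hA r hr g hgG hgS c c' hcd hcc hcd' hcc' hcn hcn' hne,
    hLink ℓ hℓ M hℓM haux A hA r hr g hgG hgS c' c hcd' hcc' hcd hcc hcn' hcn hne'⟩

/-- **GEO-ASM**: the geometric inputs at a good level, for EVERY valuation subring over `ℓ`. -/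
theorem h56h_geoInputs (hDisc : H37DiscExistsC) (hBase : H13sBase) (hRed : H13sRedDiv)
    (hGen : H13sGenus) (hInf : H56gInfFin) (hRep : H56gRep) (hLink : H56gLinkC)
    (ℓ : ℕ) (hℓ : ℓ.Prime) (M : ℕ) [NeZero M] (hℓM : ¬ ℓ ∣ M) (haux : auxLevel ℓ ∣ M)
    (A : ValuationSubring Kbar) (hA : A.LiesOverPrime ℓ) : H96GeoInputs M A := by
  obtain ⟨g, c, c', hc, hc', ⟨L⟩, ⟨L'⟩⟩ :=
    h56h_seed hDisc hBase hRed hGen hInf hRep hLink ℓ hℓ M hℓM haux A hA
  refine h36q_geoInputs_of_seed (A := A) ({c, c'} : Set (H96Chart M g)) ⟨c, Or.inl rfl⟩ ?_ ?_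
    (h56h_lift ℓ hℓ M hℓM haux A hA) (h94q_inertia_mod M A ℓ hℓ hℓM hA)
  · rintro d (rfl | rfl)
    · exact hc
    · exact hc'
  · rintro d (rfl | rfl)
    · exact ⟨c', Or.inr rfl, ⟨L'⟩⟩
    · exact ⟨c, Or.inl rfl, ⟨L⟩⟩

/-- **TOP-GEO**: `H69vGeoGood` from the six open leaves. -/
theorem h56h_geoGood (hDisc : H37DiscExistsC) (hBase : H13sBase) (hRed : H13sRedDiv)
    (hGen : H13sGenus) (hInf : H56gInfFin) (hRep : H56gRep) (hLink : H56gLinkC) :
    H69vGeoGood := by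
  intro ℓ hℓ M _ haux hℓM
  obtain ⟨A, hA⟩ := Fermat.Agent.S54.exists_liesOverPrime hℓ.out
  exact ⟨A, hA, h56h_geoInputs hDisc hBase hRed hGen hInf hRep hLink ℓ hℓ.out M hℓM haux A hA⟩

/-- **TOP-LEVEL**: the frozen `H98pLevel` of `P5/Skeleton.lean` from the six open leaves. -/
theorem h56h_level (hDisc : H37DiscExistsC) (hBase : H13sBase) (hRed : H13sRedDiv)
    (hGen : H13sGenus) (hInf : H56gInfFin) (hRep : H56gRep) (hLink : H56gLinkC) : H98pLevel :=
  h69v_level_of_geo (h56h_geoGood hDisc hBase hRed hGen hInf hRep hLink)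

end Fermat.Agent.P5
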