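import Fermat.Agent.P5.H38LinkIface
import Fermat.Agent.P5.H71RepAbs

/-!
# Wave 5, pillar (P), row GEO-LINK, leaf LINK-DIMS (helper71)

`h71d_dims : H38lDimsLeaf` (exact frozen Prop of `P5/H38LinkIface.lean`): the Riemann–Roch
input of the link from the frozen leaves of GEO-RR.

* `h71d_semi` : semicontinuity `ℓ(E) ≤ ℓ~(r_* E)` from `H13sSemi` (the reductions of an
  orthonormal basis are linearly independent over the residue field);
* degrees of the reduced divisors by `deg_one`, the dimensions by `H13rMono` on both fibres,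
  the lifting by the last clause of `H13sSemi`.
-/

set_option autoImplicit false
set_option linter.unusedSectionVars false
set_option linter.unusedVariables false
set_option linter.style.haveILetI false

open AlgebraicCurve ModularCurve

noncomputable section

namespace Fermat.Agent.P5

open Fermat.Agent.S37 Fermat.Agent.Red.GV

section Semi

variable {ℓ : ℕ} {M : ℕ} [NeZero M] {A : ValuationSubring Kbar}
  {r : Place Kbar (FF M) → Place (h13sK A) (h13sFt A M)}

/-- an element outside `A`. -/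
theorem h71d_exists_not_mem (hℓ : ℓ.Prime) (hA : A.LiesOverPrime ℓ) : ∃ x : Kbar, x ∉ A := by
  have h1 : (ℓ : Kbar) ∈ A.nonunits := hA
  rw [ValuationSubring.mem_nonunits_iff_or] at h1
  rcases h1 with h1 | h1
  · exact absurd h1 (Nat.cast_ne_zero.mpr hℓ.ne_zero)
  · exact ⟨_, h1⟩

/-- the reductions of an orthonormal family are linearly independent over the residue field
(in `k((q))`). -/
theorem h71d_indep (hℓ : ℓ.Prime) (hM : ¬ ℓ ∣ M) (hA : A.LiesOverPrime ℓ) {n : ℕ}
    (b : Fin n → FF M) (hb : ∀ i, b i ∈ gaussV A M)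
    (horth : ∀ c : Fin n → Kbar, (∑ i, cst M (c i) * b i) ∈ gaussV A M → ∀ i, c i ∈ A)
    (ct : Fin n → h13sK A)
    (h0 : ∑ i, HahnSeries.C (ct i) * h13sR A M ⟨b i, hb i⟩ = 0) : ∀ i, ct i = 0 := by
  classical
  -- lifts of the coefficients
  have hlift : ∀ i, ∃ a : A, h13sPi A a = ct i := fun i =>
    IsLocalRing.residue_surjective (ct i)
  choose a ha using hlift
  have hcm : ∀ i, cst M ((a i : A) : Kbar) ∈ gaussV A M := fun i =>
    (cst_mem_gaussV_iff A M hA _).mpr (a i).2
  -- the combination in the Gauss ring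
  set U : gaussV A M := ∑ i, (⟨cst M ((a i : A) : Kbar), hcm i⟩ : gaussV A M) * ⟨b i, hb i⟩
    with hU
  have hUcoe : ((U : gaussV A M) : FF M) = ∑ i, cst M ((a i : A) : Kbar) * b i := by
    rw [hU, AddSubmonoidClass.coe_finsetSum]
    rfl
  have hUred : h13sR A M U = 0 := by
    rw [hU, map_sum, ← h0]
    refine Finset.sum_congr rfl fun i _ => ?_
    rw [map_mul]
    have h1 : h13sR A M ⟨cst M ((a i : A) : Kbar), hcm i⟩ =
        HahnSeries.C (h13sPi A (a i)) :=
      gaussRed_algebraMap A (IsLocalRing.residue A) M (a i)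
    rw [h1, ha i]
  have hUred' : gaussR A M U = 0 := hUred
  intro i0
  by_contra hne
  -- `a i0` is a unit of `A`
  have hnm : a i0 ∉ IsLocalRing.maximalIdeal A := by
    intro hm
    apply hne
    rw [← ha i0]
    exact (IsLocalRing.residue_eq_zero_iff _).mpr hm
  have hnn : ((a i0 : A) : Kbar) ∉ A.nonunits := fun h =>
    hnm (ValuationSubring.coe_mem_nonunits_iff.mp h)
  rw [ValuationSubring.mem_nonunits_iff_or, not_or, not_not] at hnn
  obtain ⟨hai0, hinv⟩ := hnn
  rcases (gaussR_eq_zero_iff A M hℓ hM hA U).mp hUred' with hz | hz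
  · -- the combination vanishes: scale by an element outside `A`
    obtain ⟨x, hx⟩ := h71d_exists_not_mem hℓ hA
    have h1 : (∑ i, cst M (x * (((a i0 : A) : Kbar))⁻¹ * ((a i : A) : Kbar)) * b i) ∈
        gaussV A M := by
      have h2 : (∑ i, cst M (x * (((a i0 : A) : Kbar))⁻¹ * ((a i : A) : Kbar)) * b i) =
          cst M (x * (((a i0 : A) : Kbar))⁻¹) * ∑ i, cst M ((a i : A) : Kbar) * b i := by
        rw [Finset.mul_sum]
        refine Finset.sum_congr rfl fun i _ => ?_
        rw [← mul_assoc, ← map_mul]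
      rw [h2, ← hUcoe, hz, mul_zero]
      exact (gaussV A M).zero_mem
    have h3 := horth _ h1 i0
    rw [mul_assoc, inv_mul_cancel₀ hai0, mul_one] at h3
    exact hx h3
  · -- the combination is Gauss-small: normalise it
    have hU0 : ((U : gaussV A M) : FF M) ≠ 0 := by
      intro h
      rw [h, inv_zero] at hz
      exact hz (gaussV A M).zero_mem
    obtain ⟨e, he0, he1, he2⟩ := exists_cst_mul_unit A M hℓ hM hA _ hU0
    have h1 : (∑ i, cst M (e * ((a i : A) : Kbar)) * b i) ∈ gaussV A M := by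
      have h2 : (∑ i, cst M (e * ((a i : A) : Kbar)) * b i) =
          cst M e * ∑ i, cst M ((a i : A) : Kbar) * b i := by
        rw [Finset.mul_sum]
        refine Finset.sum_congr rfl fun i _ => ?_
        rw [← mul_assoc, ← map_mul]
      rw [h2, ← hUcoe]
      exact he1
    have h3 := horth _ h1 i0
    have heA : e ∈ A := by
      have h4 : e = e * ((a i0 : A) : Kbar) * (((a i0 : A) : Kbar))⁻¹ := by
        rw [mul_assoc, mul_inv_cancel₀ hai0, mul_one]
      rw [h4]
      exact A.mul_mem _ _ h3 hinv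
    apply hz
    have hce : cst M e ≠ 0 := by
      simpa only [cst, ne_eq, map_eq_zero] using he0
    have h5 : ((U : gaussV A M) : FF M)⁻¹ = cst M e * (cst M e * (U : FF M))⁻¹ := by
      rw [mul_inv, ← mul_assoc, mul_inv_cancel₀ hce, one_mul]
    rw [h5]
    exact (gaussV A M).mul_mem ((cst_mem_gaussV_iff A M hA _).mpr heA) he2

/-- **semicontinuity**: `ℓ(E) ≤ ℓ~(r_* E)`. -/
theorem h71d_semi (hSemi : H13sSemi) (hℓ : ℓ.Prime) (hM : ¬ ℓ ∣ M) (haux : auxLevel ℓ ∣ M)
    (hA : A.LiesOverPrime ℓ) (hr : H13sIsRed A M r)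
    (hFs : ∀ D : Divisor (h13sK A) (h13sFt A M), Module.Finite (h13sK A) (riemannRochSpace D))
    (E : Divisor Kbar (FF M)) :
    h13rL Kbar (FF M) E ≤ h13rL (h13sK A) (h13sFt A M) (h13sPush r E) := by
  classical
  obtain ⟨b, -, hb, hred, horth, -, -⟩ := hSemi ℓ hℓ M hM haux A hA r hr E
  haveI := hFs (h13sPush r E)
  let y : Fin (h13rL Kbar (FF M) E) → ↥(riemannRochSpace (h13sPush r E)) := fun i =>
    ⟨h13sRed A M ⟨b i, hb i⟩, hred i (hb i)⟩
  have hli : LinearIndependent (h13sK A) y := by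
    rw [Fintype.linearIndependent_iff]
    intro ct hct
    refine h71d_indep hℓ hM hA b hb horth ct ?_
    have h1 : ∑ i, algebraMap (h13sK A) (h13sFt A M) (ct i) *
        ((y i : ↥(riemannRochSpace (h13sPush r E))) : h13sFt A M) = 0 := by
      have h3 := congrArg Subtype.val hct
      simp only [Submodule.coe_sum, Submodule.coe_smul, ZeroMemClass.coe_zero] at h3
      rw [← h3]
      exact Finset.sum_congr rfl fun i _ => (Algebra.smul_def _ _).symm
    have h2 := congrArg (h13sIncl A M) h1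
    rw [map_sum, map_zero] at h2
    rw [← h2]
    refine Finset.sum_congr rfl fun i _ => ?_
    rw [map_mul, AlgHom.commutes]
    have h3 : (algebraMap (h13sK A) (LaurentSeries (h13sK A))) (ct i) =
        HahnSeries.C (ct i) := by
      have h4 : algebraMap (h13sK A) (PowerSeries (h13sK A)) (ct i) = PowerSeries.C (ct i) := by
        simp
      rw [HahnSeries.algebraMap_apply', h4, HahnSeries.ofPowerSeries_C]
    rw [h3]
    rfl
  have h2 := hli.fintype_card_le_finrank
  rw [Fintype.card_fin] at h2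
  exact h2

end Semi

/-! ### Degrees and inequalities of reduced divisors -/

section Deg

variable {K F : Type*} [Field K] [Field F] [Algebra K F]

theorem h71d_single_le_sum {g : ℕ} (Q : Fin g → Place K F) (i : Fin g) :
    Finsupp.single (Q i) (1 : ℤ) ≤ ∑ j, Finsupp.single (Q j) (1 : ℤ) := by
  classical
  rw [← Finset.add_sum_erase Finset.univ (fun j => Finsupp.single (Q j) (1 : ℤ))
    (Finset.mem_univ i)]
  refine le_add_of_nonneg_right (Finset.sum_nonneg fun j _ => ?_)
  rw [Finsupp.le_def]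
  intro v
  classical
  rw [Finsupp.single_apply]
  simp only [Finsupp.coe_zero, Pi.zero_apply]
  split_ifs <;> simp

theorem h71d_degree_single (hB : H13rBase K F) (v : Place K F) :
    Divisor.degree (Finsupp.single v (1 : ℤ)) = 1 := by
  rw [Divisor.degree_single, hB.deg_one, Nat.cast_one, mul_one]

/-- a reduced non-special divisor of degree `g`. -/
theorem h71d_nonspecial_of_one (hB : H13rBase K F) {g : ℕ} (Q : Fin g → Place K F)
    (h1 : h13rL K F (∑ i, Finsupp.single (Q i) (1 : ℤ)) = 1) :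
    (h13rL K F (∑ i, Finsupp.single (Q i) (1 : ℤ)) : ℤ) + g =
      Divisor.degree (∑ i, Finsupp.single (Q i) (1 : ℤ)) + 1 := by
  rw [h1, h71r_degree_sum_single hB Q]
  push_cast
  ring

end Deg

/-! ### The leaf -/

/-- **LINK-DIMS** (exact frozen Prop). -/
theorem h71d_dims : H38lDimsLeaf := by
  intro hSemi ℓ hℓ M _ hM haux A hA r hr hBg hBs hFg hFs hMg hMs g hgg hgs c c' _ _ _ h0 h1
  classical
  -- abbreviations
  have hpush : ∀ Q : Fin g → Place Kbar (FF M),
      h13sPush r (h38lSum Q) = ∑ i, Finsupp.single (r (Q i)) (1 : ℤ) := by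
    intro Q
    unfold h13sPush h38lSum
    exact h71r_push_sum_single Q
  have hpushD : h13sPush r (h38lD c c') =
      (∑ i, Finsupp.single (r (c.Q i)) (1 : ℤ)) + (∑ i, Finsupp.single (r (c.Q i)) (1 : ℤ)) +
        ∑ i, Finsupp.single (r (c'.Q i)) (1 : ℤ) := by
    have h2 : h13sPush r (h38lD c c') =
        h13sPush r (h38lSum c.Q) + h13sPush r (h38lSum c.Q) + h13sPush r (h38lSum c'.Q) := by
      unfold h13sPush h38lD
      rw [Finsupp.mapDomain_add, Finsupp.mapDomain_add]
    rw [h2, hpush, hpush]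
  rw [hpush] at h0 h1
  set D0 : Divisor (h13sK A) (h13sFt A M) := ∑ i, Finsupp.single (r (c.Q i)) (1 : ℤ) with hD0
  set D1 : Divisor (h13sK A) (h13sFt A M) := ∑ i, Finsupp.single (r (c'.Q i)) (1 : ℤ) with hD1
  have hD0nn : (0 : Divisor (h13sK A) (h13sFt A M)) ≤ D0 := h71r_sum_single_nonneg _
  have hD1nn : (0 : Divisor (h13sK A) (h13sFt A M)) ≤ D1 := h71r_sum_single_nonneg _
  have hdeg0 : Divisor.degree D0 = g := h71r_degree_sum_single hBs _
  have hdeg1 : Divisor.degree D1 = g := h71r_degree_sum_single hBs _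
  have hns0 : (h13rL (h13sK A) (h13sFt A M) D0 : ℤ) + g = Divisor.degree D0 + 1 :=
    h71d_nonspecial_of_one hBs _ h0
  have hns1 : (h13rL (h13sK A) (h13sFt A M) D1 : ℤ) + g = Divisor.degree D1 + 1 :=
    h71d_nonspecial_of_one hBs _ h1
  -- the special fibre: `ℓ~(2 D0 + D1) = 2 g + 1`
  have hdimS : h13rL (h13sK A) (h13sFt A M) (h13sPush r (h38lD c c')) = 2 * g + 1 := by
    rw [hpushD]
    have hle : D0 ≤ D0 + D0 + D1 := by
      have : D0 + 0 + 0 ≤ D0 + D0 + D1 := add_le_add (add_le_add le_rfl hD0nn) hD1nn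
      simpa using this
    have h3 := hMs hBs g hgs D0 (D0 + D0 + D1) hle hns0
    rw [map_add, map_add, hdeg0, hdeg1] at h3
    omega
  -- the generic fibre
  have hGsum1 : h13rL Kbar (FF M) (h38lSum c'.Q) = 1 := by
    have hle := h71d_semi hSemi hℓ hM haux hA hr (hFs hBs).1 (h38lSum c'.Q)
    rw [hpush, h1] at hle
    have hpos := hgg.1 (h38lSum c'.Q)
    have hdeg : Divisor.degree (h38lSum c'.Q) = g := h71r_degree_sum_single hBg _
    rw [hdeg] at hpos
    omega
  have hdimG : h13rL Kbar (FF M) (h38lD c c') = 2 * g + 1 := by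
    have hnsG : (h13rL Kbar (FF M) (h38lSum c'.Q) : ℤ) + g =
        Divisor.degree (h38lSum c'.Q) + 1 := h71d_nonspecial_of_one hBg _ hGsum1
    have hle : h38lSum c'.Q ≤ h38lD c c' := by
      unfold h38lD
      have : 0 + 0 + h38lSum c'.Q ≤ h38lSum c.Q + h38lSum c.Q + h38lSum c'.Q :=
        add_le_add (add_le_add (h71r_sum_single_nonneg c.Q) (h71r_sum_single_nonneg c.Q)) le_rfl
      simpa using this
    have h3 := hMg hBg g hgg (h38lSum c'.Q) (h38lD c c') hle hnsG
    have hdegD : Divisor.degree (h38lD c c') = 3 * g := by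
      unfold h38lD h38lSum
      rw [map_add, map_add, h71r_degree_sum_single hBg, h71r_degree_sum_single hBg]
      ring
    rw [hdegD] at h3
    omega
  refine ⟨?_, hdimS, fun i => ?_, fun i => ?_, by rw [hpush]; exact h1, hGsum1⟩
  · -- lifting
    obtain ⟨b, -, -, -, -, -, hl⟩ := hSemi ℓ hℓ M hM haux A hA r hr (h38lD c c')
    exact hl (by rw [hdimG, hdimS])
  · -- `ℓ~(2 D0 + D1 - Q i) ≤ 2 g`
    rw [hpushD]
    have hle : D1 ≤ D0 + D0 + D1 - Finsupp.single (r (c.Q i)) 1 := by
      have h4 : Finsupp.single (r (c.Q i)) (1 : ℤ) ≤ D0 :=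
        h71d_single_le_sum (fun j => r (c.Q j)) i
      have h5 : D1 = 0 + 0 + D1 := by simp
      have h6 : D0 + D0 + D1 - Finsupp.single (r (c.Q i)) 1 =
          D0 + (D0 - Finsupp.single (r (c.Q i)) 1) + D1 := by abel
      rw [h6]
      nth_rewrite 1 [h5]
      exact add_le_add (add_le_add hD0nn (sub_nonneg.mpr h4)) le_rfl
    have h3 := hMs hBs g hgs D1 _ hle hns1
    rw [map_sub, map_add, map_add, hdeg0, hdeg1, h71d_degree_single hBs] at h3
    omega
  · -- `ℓ~(2 D0 + D1 - Q' i) ≤ 2 g`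
    rw [hpushD]
    have hle : D0 ≤ D0 + D0 + D1 - Finsupp.single (r (c'.Q i)) 1 := by
      have h4 : Finsupp.single (r (c'.Q i)) (1 : ℤ) ≤ D1 :=
        h71d_single_le_sum (fun j => r (c'.Q j)) i
      have h5 : D0 = D0 + 0 + 0 := by simp
      have h6 : D0 + D0 + D1 - Finsupp.single (r (c'.Q i)) 1 =
          D0 + D0 + (D1 - Finsupp.single (r (c'.Q i)) 1) := by abel
      rw [h6]
      nth_rewrite 1 [h5]
      exact add_le_add (add_le_add le_rfl hD0nn) (sub_nonneg.mpr h4)
    have h3 := hMs hBs g hgs D0 _ hle hns0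
    rw [map_sub, map_add, map_add, hdeg0, hdeg1, h71d_degree_single hBs] at h3
    omega

end Fermat.Agent.P5
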