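import Fermat.Agent.P5.H56GeoAsm2
import Fermat.Agent.P5.H62DiscChar
import Fermat.Agent.P5.H26GenusFinal
import Fermat.Agent.P5.H88RedDivFinal
import Fermat.Agent.P5.H89InfFin
import Fermat.Agent.P5.H4LinkLeaf
import Fermat.Agent.P5.H38LinkIface
import Fermat.Agent.P5.H81LinkMem
import Fermat.Agent.P5.H71LinkDims
import Fermat.Agent.P5.H68RRFin
import Fermat.Agent.P5.H68RRLarge

/-!
# P5 (wave 5, S19), row GEO-ASM (helper56): `H69vGeoGood` from the LINK alone

All the leaves of `P5/H56GeoAsm.lean` / `P5/H56GeoAsm2.lean` except the link are theorems: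
`h62q_discExistsC` (helper62), `h26s_base`, `h26s_genus`, `h26s_semi` (helper26 + seats),
`h88r_redDiv` (helper88/60/94), `h89n_infFin` (helper89), `h4r_repLeaf` (helper4),
`h56h_lift` (helper91).  Hence:

* `h56k_geoGood_of_linkC : H56gLinkC → H69vGeoGood`  (link for charts carrying the bridge);
* `h56k_geoGood_of_link  : H56gLink → H69vGeoGood`;
* `h56k_geoGood_of_raw   : H4sLinkRawLeaf → H69vGeoGood` (helper4's raw shape);
* `h56k_geoGood_of_rawC  : H56gLinkRaw → H69vGeoGood`   (raw shape, with the bridge);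
* `h56k_linkC_of_core    : H38lCoreStatement → H56gLinkC`,
  `h56k_geoGood_of_core  : H38lCoreStatement → H69vGeoGood` (helper38's frozen core).
-/

set_option autoImplicit false
set_option linter.unusedSectionVars false
set_option linter.unusedVariables false
set_option linter.style.longLine false

open AlgebraicCurve ModularCurve

noncomputable section

namespace Fermat.Agent.P5

open Fermat.Agent.S37 Fermat.Agent.Red.GV

/-- **GEO-ASM** from the link (charts with the bridge). -/
theorem h56k_geoGood_of_linkC (hLink : H56gLinkC) : H69vGeoGood :=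
  h56h_geoGood h62q_discExistsC h26s_base h88r_redDiv h26s_genus h89n_infFin h4r_repLeaf hLink

/-- **GEO-ASM** from the link. -/
theorem h56k_geoGood_of_link (hLink : H56gLink) : H69vGeoGood :=
  h56k_geoGood_of_linkC (h56h_linkC_of_link hLink)

/-- **GEO-ASM** from helper4's raw link data. -/
theorem h56k_geoGood_of_raw (hRaw : H4sLinkRawLeaf) : H69vGeoGood :=
  h56k_geoGood_of_link (h4s_linkLeaf hRaw)

/-- **GEO-ASM** from the raw link data on charts with the bridge. -/
theorem h56k_geoGood_of_rawC (hRaw : H56gLinkRaw) : H69vGeoGood :=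
  h56k_geoGood_of_linkC (h56h_link h26s_base hRaw)

/-! ### From helper38's frozen core -/

/-- the divisorial raw data of helper4 from the global shape of helper38. -/
theorem h56k_linkData {M : ℕ} [NeZero M] {g : ℕ} {A : ValuationSubring Kbar}
    {c c' : H96Chart M g} {E₀ : Divisor Kbar (FF M)} {bs : FF M} {b : Fin g ⊕ Fin g → FF M}
    (h : H38lBase A c c' E₀ bs b) : H4rLinkData A c c' b bs where
  exE0 := by
    have hord : ∀ v : Place Kbar (FF M),
        v.ord bs = 2 * h4r_sum c.Q v + h4r_sum c'.Q v - E₀ v := by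
      intro v
      have h1 := h.bs_ord v
      have h2 : h38lD c c' v = h4r_sum c.Q v + h4r_sum c.Q v + h4r_sum c'.Q v := by
        show (h38lSum c.Q + h38lSum c.Q + h38lSum c'.Q) v = _
        rw [Finsupp.add_apply, Finsupp.add_apply]
        rfl
      rw [h1, h2]
      ring
    refine ⟨E₀, h.E0_nonneg, h.E0_out, h.E0_out', h.b_L, ?_, hord⟩
    rw [mem_riemannRochSpace_iff]
    intro v
    right
    have h1 := h4r_sum_nonneg c.Q v
    have h2 := h4r_sum_nonneg c'.Q v
    simp only [Finsupp.coe_zero, Pi.zero_apply] at h1 h2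
    rw [hord v]
    omega
  bs_ne := h.bs_ne
  indep := fun e co he => (h.indep e co he).1

/-- **the link from helper38's core** (`H38lCoreStatement`, `P5/H38LinkIface.lean`). -/
theorem h56k_linkC_of_core (hCore : H38lCoreStatement) : H56gLinkC := by
  intro ℓ hℓ M _ hM haux A hA r hr g hgG hgS c c' hd hch hd' hch' hns hns' hne
  have hBg : H13rBase Kbar (FF M) := h13g_gBase M
  have hBs := h26s_base ℓ hℓ M hM haux A hA
  haveI : HasPrincipalDivisors Kbar (FF M) := ⟨hBg.pd⟩
  have hQ : ∀ i j, SameRed A (c.Q i) (c.Q j) → i = j :=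
    fun i j h => hns.1 ((hr.2.1 (c.Q i) (c.Q j)).2 h)
  have hQ' : ∀ i j, SameRed A (c'.Q i) (c'.Q j) → i = j :=
    fun i j h => hns'.1 ((hr.2.1 (c'.Q i) (c'.Q j)).2 h)
  have hQQ' : ∀ i j, ¬ SameRed A (c.Q i) (c'.Q j) :=
    fun i j h => hne i j ((hr.2.1 (c.Q i) (c'.Q j)).2 h)
  have h0 : h13rL (h13sK A) (h13sFt A M) (h13sPush r (h38lSum c.Q)) = 1 := by
    show h13rL (h13sK A) (h13sFt A M) (h13sPush r (h4r_sum c.Q)) = 1
    rw [h4r_push_sum]
    exact hns.2
  have h1 : h13rL (h13sK A) (h13sFt A M) (h13sPush r (h38lSum c'.Q)) = 1 := by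
    show h13rL (h13sK A) (h13sFt A M) (h13sPush r (h4r_sum c'.Q)) = 1
    rw [h4r_push_sum]
    exact hns'.2
  have hdims : H38lDims A r c c' :=
    h71d_dims h26s_semi ℓ hℓ M hM haux A hA r hr hBg hBs (h68r_fin _ _) (h68r_fin _ _)
      (h68r_mono _ _) (h68r_mono _ _) g hgG hgS c c' hQ hQ' hQQ' h0 h1
  obtain ⟨E₀, bs, b, hBase, hJets⟩ := hCore ℓ hℓ M hM A hA r hr hBg g c c' hd hd'
    (fun i => (hch i).O_gauss _ (hd i).O_t) (fun i => (hch' i).O_gauss _ (hd' i).O_t)
    (fun i f hf _ hreg => h81m_mem hℓ hM haux hA (hd i) hf hreg)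
    (fun i f hf _ hreg => h81m_mem hℓ hM haux hA (hd' i) hf hreg)
    hQ hQ' hQQ' hdims
  have hStep : H38lStep A c c' bs b :=
    h4r_step A c c' hBg.deg_one (fun i => (hd i).O_val) (fun i => (hd i).O_t) hQ hQ'
      (h4s_chart_of_nonSpec hℓ hM A hA r hr c' hd' hns').nonspec (h56k_linkData hBase)
  exact h38l_link_of hJets hStep

/-- **GEO-ASM** from helper38's frozen core. -/
theorem h56k_geoGood_of_core (hCore : H38lCoreStatement) : H69vGeoGood :=
  h56k_geoGood_of_linkC (h56k_linkC_of_core hCore)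

end Fermat.Agent.P5
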