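import Mathlib
import Fermat.Agent.P5.H13RRIface
import Fermat.Agent.P5.H78RRLeaves

/-!
# P5 (wave 5, S19), block GEO-LINK, sub-leaf LINK-E0, part 1 (helper57): exact pole orders

Abstract function field `F / K` in the Prelude vocabulary (`Place`, `Divisor`,
`riemannRochSpace`), `K` infinite, with the basic facts `H13rBase K F` and a weak genus `g`
(`H13rIsGenus K F g`).

For two families `P, P' : Fin g → Place K F` of pairwise distinct places with
`ℓ(∑ P i) = 1` (a non-special reduced divisor of degree `g`), put `D = 2 ∑ P i + ∑ P' i`.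

* `h57e_l_D`     : `ℓ(D) = 2 g + 1`;
* `h57e_l_D_sub` : `ℓ(D - R) = 2 g` for every `R` among the `P i`, `P' i`;
* `h57e_exact`   : there is `y ∈ L(D)`, `y ≠ 0`, with EXACT pole orders: `ord_{P i} y = -2`,
  `ord_{P' i} y = -1` (hence the divisor of zeros of `y` is disjoint from the `P i`, `P' i`).
-/

set_option autoImplicit false
set_option linter.style.haveILetI false
set_option linter.unusedSectionVars false

open AlgebraicCurve WithZero

noncomputable section

namespace Fermat.Agent.P5

variable {K F : Type*} [Field K] [Field F] [Algebra K F]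

/-- the reduced divisor `∑ P i`. -/
def h57eSum {n : ℕ} (P : Fin n → Place K F) : Divisor K F :=
  ∑ i, Finsupp.single (P i) (1 : ℤ)

open Classical in
theorem h57eSum_apply {n : ℕ} (P : Fin n → Place K F) (v : Place K F) :
    h57eSum P v = ∑ i, if P i = v then (1 : ℤ) else 0 := by
  unfold h57eSum
  rw [Finsupp.finsetSum_apply]
  refine Finset.sum_congr rfl fun i _ => ?_
  rw [Finsupp.single_apply]

theorem h57eSum_nonneg {n : ℕ} (P : Fin n → Place K F) : 0 ≤ h57eSum P := by
  classical
  intro v
  rw [h57eSum_apply]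
  exact Finset.sum_nonneg fun i _ => by split_ifs <;> simp

theorem h57eSum_apply_self {n : ℕ} {P : Fin n → Place K F} (hP : Function.Injective P)
    (i : Fin n) : h57eSum P (P i) = 1 := by
  classical
  rw [h57eSum_apply, Finset.sum_eq_single i]
  · rw [if_pos rfl]
  · intro j _ hj
    rw [if_neg fun h => hj (hP h)]
  · intro h
    exact absurd (Finset.mem_univ i) h

theorem h57eSum_apply_out {n : ℕ} {P : Fin n → Place K F} {v : Place K F}
    (hv : ∀ i, P i ≠ v) : h57eSum P v = 0 := by
  classical
  rw [h57eSum_apply]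
  exact Finset.sum_eq_zero fun i _ => if_neg (hv i)

theorem h57eSum_degree (hB : H13rBase K F) {n : ℕ} (P : Fin n → Place K F) :
    Divisor.degree (h57eSum P) = n := by
  unfold h57eSum
  rw [map_sum]
  simp only [Divisor.degree_single, hB.deg_one, Nat.cast_one, mul_one, Finset.sum_const,
    Finset.card_univ, Fintype.card_fin, nsmul_eq_mul]

/-- the divisor `2 ∑ P i + ∑ P' i`. -/
def h57eD {n : ℕ} (P P' : Fin n → Place K F) : Divisor K F :=
  (2 : ℤ) • h57eSum P + h57eSum P'

theorem h57eD_apply {n : ℕ} (P P' : Fin n → Place K F) (v : Place K F) :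
    h57eD P P' v = 2 * h57eSum P v + h57eSum P' v := by
  unfold h57eD
  rw [Finsupp.add_apply, Finsupp.smul_apply, smul_eq_mul]

theorem h57eD_degree (hB : H13rBase K F) {n : ℕ} (P P' : Fin n → Place K F) :
    Divisor.degree (h57eD P P') = 3 * n := by
  unfold h57eD
  rw [map_add, map_zsmul, h57eSum_degree hB, h57eSum_degree hB, smul_eq_mul]
  ring

theorem h57eD_apply_left {n : ℕ} {P P' : Fin n → Place K F} (hP : Function.Injective P)
    (hd : ∀ i j, P i ≠ P' j) (i : Fin n) : h57eD P P' (P i) = 2 := by
  rw [h57eD_apply, h57eSum_apply_self hP, h57eSum_apply_out fun j h => hd i j h.symm]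
  norm_num

theorem h57eD_apply_right {n : ℕ} {P P' : Fin n → Place K F} (hP' : Function.Injective P')
    (hd : ∀ i j, P i ≠ P' j) (j : Fin n) : h57eD P P' (P' j) = 1 := by
  rw [h57eD_apply, h57eSum_apply_self hP', h57eSum_apply_out fun i h => hd i j h]
  norm_num

theorem h57eD_apply_out {n : ℕ} {P P' : Fin n → Place K F} {v : Place K F}
    (hv : ∀ i, P i ≠ v) (hv' : ∀ i, P' i ≠ v) : h57eD P P' v = 0 := by
  rw [h57eD_apply, h57eSum_apply_out hv, h57eSum_apply_out hv']
  norm_num

theorem h57eSum_le_D {n : ℕ} (P P' : Fin n → Place K F) : h57eSum P ≤ h57eD P P' := by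
  intro v
  rw [h57eD_apply]
  have h1 := h57eSum_nonneg P v
  have h2 := h57eSum_nonneg P' v
  simp only [Finsupp.coe_zero, Pi.zero_apply] at h1 h2
  linarith

/-- `∑ P i ≤ D - R` for `R` one of the `P i`, `P' j`. -/
theorem h57eSum_le_D_sub {n : ℕ} {P P' : Fin n → Place K F} (hP : Function.Injective P)
    (hP' : Function.Injective P') (hd : ∀ i j, P i ≠ P' j) (R : Place K F)
    (hR : (∃ i, R = P i) ∨ ∃ j, R = P' j) :
    h57eSum P ≤ h57eD P P' - Finsupp.single R (1 : ℤ) := by
  classical
  intro v
  rw [Finsupp.sub_apply, h57eD_apply, Finsupp.single_apply]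
  have h1 := h57eSum_nonneg P v
  have h2 := h57eSum_nonneg P' v
  simp only [Finsupp.coe_zero, Pi.zero_apply] at h1 h2
  by_cases hv : R = v
  · rw [if_pos hv]
    subst hv
    rcases hR with ⟨i, rfl⟩ | ⟨j, rfl⟩
    · rw [h57eSum_apply_self hP]
      linarith
    · rw [h57eSum_apply_self hP', h57eSum_apply_out fun i h => hd i j h]
      norm_num
  · rw [if_neg hv]
    linarith

section RR

variable (hB : H13rBase K F) {g : ℕ} (hg : H13rIsGenus K F g)
  {P P' : Fin g → Place K F}
  (hns : h13rL K F (h57eSum P) = 1)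

include hB hg hns

/-- every divisor above the non-special `∑ P i` is non-special. -/
theorem h57e_l_of_le {E : Divisor K F} (hE : h57eSum P ≤ E) :
    (h13rL K F E : ℤ) + g = Divisor.degree E + 1 := by
  refine h78q_mono hB g hg (h57eSum P) E hE ?_
  rw [hns, h57eSum_degree hB]
  push_cast
  ring

/-- `ℓ(2 ∑ P i + ∑ P' i) = 2 g + 1`. -/
theorem h57e_l_D : h13rL K F (h57eD P P') = 2 * g + 1 := by
  have h := h57e_l_of_le hB hg hns (h57eSum_le_D P P')
  rw [h57eD_degree hB] at h
  omega

/-- `ℓ(D - R) = 2 g` for `R` among the `P i`, `P' j`. -/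
theorem h57e_l_D_sub (hP : Function.Injective P) (hP' : Function.Injective P')
    (hd : ∀ i j, P i ≠ P' j) (R : Place K F) (hR : (∃ i, R = P i) ∨ ∃ j, R = P' j) :
    h13rL K F (h57eD P P' - Finsupp.single R (1 : ℤ)) = 2 * g := by
  have h := h57e_l_of_le hB hg hns (h57eSum_le_D_sub hP hP' hd R hR)
  rw [map_sub, h57eD_degree hB, Divisor.degree_single, hB.deg_one] at h
  push_cast at h
  omega

/-- **exact pole orders.** -/
theorem h57e_exact [Infinite K] (hP : Function.Injective P) (hP' : Function.Injective P')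
    (hd : ∀ i j, P i ≠ P' j) :
    ∃ y : F, y ∈ riemannRochSpace (h57eD P P') ∧ y ≠ 0 ∧
      (∀ i, (P i).ord y = -2) ∧ ∀ j, (P' j).ord y = -1 := by
  classical
  set D := h57eD P P' with hD
  set V := riemannRochSpace D with hV
  haveI hfin : Module.Finite K ↥V := h78q_finite hB D
  have hlV : Module.finrank K ↥V = 2 * g + 1 := h57e_l_D hB hg hns
  -- the places `R k`
  let R : Fin g ⊕ Fin g → Place K F := Sum.elim P P'
  have hRmem : ∀ k, (∃ i, R k = P i) ∨ ∃ j, R k = P' j := by
    rintro (i | j)
    · exact Or.inl ⟨i, rfl⟩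
    · exact Or.inr ⟨j, rfl⟩
  -- the proper subspaces
  let W : Option (Fin g ⊕ Fin g) → Submodule K ↥V := fun o =>
    match o with
    | none => ⊥
    | some k => (riemannRochSpace (D - Finsupp.single (R k) (1 : ℤ))).comap V.subtype
  have hW : ∀ o, W o ≠ ⊤ := by
    rintro (_ | k)
    · intro h
      have h1 : Module.finrank K ↥(⊥ : Submodule K ↥V) = Module.finrank K ↥(⊤ : Submodule K ↥V) := by
        show Module.finrank K ↥(W none) = _
        rw [h]
      rw [finrank_bot, finrank_top, hlV] at h1
      omega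
    · intro h
      have h1 : V ≤ riemannRochSpace (D - Finsupp.single (R k) (1 : ℤ)) := by
        intro x hx
        have h2 : (⟨x, hx⟩ : ↥V) ∈ W (some k) := by rw [h]; exact Submodule.mem_top
        exact h2
      haveI : Module.Finite K ↥(riemannRochSpace (D - Finsupp.single (R k) (1 : ℤ))) :=
        h78q_finite hB _
      have h3 := Submodule.finrank_mono h1
      have h4 : Module.finrank K ↥(riemannRochSpace (D - Finsupp.single (R k) (1 : ℤ))) = 2 * g :=
        h57e_l_D_sub hB hg hns hP hP' hd (R k) (hRmem k)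
      rw [hlV, h4] at h3
      omega
  obtain ⟨y, hy⟩ := Submodule.exists_forall_notMem_of_forall_ne_top W hW
  have hy0 : (y : F) ≠ 0 := by
    intro h0
    have h1 := hy none
    apply h1
    show y ∈ (⊥ : Submodule K ↥V)
    rw [Submodule.mem_bot]
    exact Subtype.ext h0
  have hyD : ∀ v : Place K F, -D v ≤ v.ord (y : F) := fun v =>
    ((mem_riemannRochSpace_iff.mp y.2) v).resolve_left hy0
  -- exactness at `R k`
  have hex : ∀ k, (R k).ord (y : F) = -D (R k) := by
    intro k
    have h1 : (y : F) ∉ riemannRochSpace (D - Finsupp.single (R k) (1 : ℤ)) := hy (some k)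
    rw [mem_riemannRochSpace_iff] at h1
    simp only [not_forall, not_or, not_le] at h1
    obtain ⟨v, -, hv⟩ := h1
    rw [Finsupp.sub_apply, Finsupp.single_apply] at hv
    by_cases hvk : R k = v
    · rw [if_pos hvk] at hv
      have h2 := hyD v
      rw [hvk]
      omega
    · rw [if_neg hvk, sub_zero] at hv
      exact absurd (hyD v) (not_le.mpr hv)
  refine ⟨y, y.2, hy0, fun i => ?_, fun j => ?_⟩
  · have h := hex (Sum.inl i)
    rw [show R (Sum.inl i) = P i from rfl, hD, h57eD_apply_left hP hd] at h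
    exact h
  · have h := hex (Sum.inr j)
    rw [show R (Sum.inr j) = P' j from rfl, hD, h57eD_apply_right hP' hd] at h
    exact h

end RR

end Fermat.Agent.P5
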