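import Fermat.Agent.P5.H13SFIface
import Fermat.Agent.P5.H57Exact
import Fermat.Agent.S18.ResAlgClosed

/-!
# P5 (wave 5, S19), block GEO-LINK, sub-leaf LINK-E0 (helper57)

Frozen vocabulary of helper13 only (`P5/H13RRIface.lean`, `P5/H13SFIface.lean`): `M` a level
prime to `ℓ`, `A` a valuation subring of `ℚ̄` over `ℓ`, `k = h13sK A`, `F̃ = h13sFt A M`,
`r` a reduction map of places (`H13sIsRed A M r`).

* `H57eSemiAt A M r` : the conclusion of the frozen leaf `H13sSemi` at `(A, M, r)`;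
* `h57e_semi_indep`, `h57e_semicont` : the reductions of the integral basis of `L(E)` are
  linearly independent over `k`, hence `ℓ(E) ≤ ℓ~(r_* E)` for EVERY divisor `E`;
* `h57e_exists_E0` : **LINK-E0.**  For centres `Q, Q' : Fin g → Place` with pairwise distinct
  reductions and `ℓ~(∑ r (Q i)) = 1` there are a Gauss unit `f` and an effective divisor `E₀` of
  degree `3 g` with `div f = E₀ - 2 ∑ Q i - ∑ Q' i` such that no point of `E₀` has the same
  reduction as a centre; moreover `ℓ(E₀) = 2 g + 1 = ℓ~(r_* E₀)` and `ℓ(2 D₀ + D₁) = 2 g + 1`.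
  So `bs := f⁻¹` has divisor `2 D₀ + D₁ - E₀`.
-/

set_option autoImplicit false
set_option linter.style.haveILetI false
set_option linter.unusedSectionVars false

open AlgebraicCurve ModularCurve WithZero

noncomputable section

namespace Fermat.Agent.P5

open Fermat.Agent.S37 Fermat.Agent.Red.GV

/-- the conclusion of the frozen leaf `H13sSemi` at `(A, M, r)`. -/
def H57eSemiAt (A : ValuationSubring Kbar) (M : ℕ) [NeZero M]
    (r : Place Kbar (FF M) → Place (h13sK A) (h13sFt A M)) : Prop :=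
  ∀ E : Divisor Kbar (FF M),
    ∃ b : Fin (h13rL Kbar (FF M) E) → FF M,
      (∀ i, b i ∈ riemannRochSpace E) ∧
      (∀ i, b i ∈ gaussV A M) ∧
      (∀ (i : Fin (h13rL Kbar (FF M) E)) (hi : b i ∈ gaussV A M),
        h13sRed A M ⟨b i, hi⟩ ∈ riemannRochSpace (h13sPush r E)) ∧
      (∀ c : Fin (h13rL Kbar (FF M) E) → Kbar,
        (∑ i, cst M (c i) * b i) ∈ gaussV A M → ∀ i, c i ∈ A) ∧
      (∀ f ∈ riemannRochSpace E, ∃ c : Fin (h13rL Kbar (FF M) E) → Kbar,
        f = ∑ i, cst M (c i) * b i) ∧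
      (h13rL Kbar (FF M) E = h13rL (h13sK A) (h13sFt A M) (h13sPush r E) →
        ∀ y ∈ riemannRochSpace (h13sPush r E),
          ∃ (f : FF M) (hf : f ∈ gaussV A M), f ∈ riemannRochSpace E ∧
            h13sRed A M ⟨f, hf⟩ = y)

/-- the frozen leaf `H13sSemi` gives `H57eSemiAt`. -/
theorem h57e_semiAt_of (h : H13sSemi) {ℓ : ℕ} (hℓ : ℓ.Prime) {M : ℕ} [NeZero M]
    (hℓM : ¬ ℓ ∣ M) (haux : auxLevel ℓ ∣ M) (A : ValuationSubring Kbar)
    (hA : A.LiesOverPrime ℓ) (r : Place Kbar (FF M) → Place (h13sK A) (h13sFt A M))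
    (hr : H13sIsRed A M r) : H57eSemiAt A M r :=
  h ℓ hℓ M hℓM haux A hA r hr

section Red

variable (A : ValuationSubring Kbar) (M : ℕ)

/-- the residue map is onto `k`. -/
theorem h57e_pi_surjective : Function.Surjective (h13sPi A) :=
  IsLocalRing.residue_surjective

theorem h57e_pi_eq_zero {a : A} (ha : (a : Kbar) ∈ A.nonunits) : h13sPi A a = 0 := by
  obtain ⟨ha', hm⟩ := A.mem_nonunits_iff_exists_mem_maximalIdeal.mp ha
  exact (IsLocalRing.residue_eq_zero_iff a).mpr hm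

/-- `k` is infinite. -/
theorem h57e_infinite : Infinite (h13sK A) := by
  haveI : IsAlgClosed (IsLocalRing.ResidueField A) :=
    Fermat.Agent.S18.h72_residueField_isAlgClosed A
  exact (inferInstance : Infinite (IsLocalRing.ResidueField A))

/-- constants of `A` are Gauss-integral. -/
theorem h57e_cst_mem (a : A) : cst M (a : Kbar) ∈ gaussV A M :=
  algebraMap_mem_gaussSubring A (IsLocalRing.residue A) M a

/-- `h13sIncl` of a scalar multiple. -/
theorem h57e_incl_smul (c : h13sK A) (y : h13sFt A M) :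
    h13sIncl A M (c • y) = HahnSeries.C c * h13sIncl A M y := by
  have h1 : algebraMap (h13sK A) (LaurentSeries (h13sK A)) c = HahnSeries.C c := by
    rw [HahnSeries.algebraMap_apply']
    simp
  rw [Algebra.smul_def, map_mul, AlgHom.commutes, h1]

/-- the reduction of `cst a * x`. -/
theorem h57e_incl_red_cst_mul (a : A) (x : gaussV A M)
    (h : cst M (a : Kbar) * (x : FF M) ∈ gaussV A M) :
    h13sIncl A M (h13sRed A M ⟨cst M (a : Kbar) * (x : FF M), h⟩) =
      HahnSeries.C (h13sPi A a) * h13sIncl A M (h13sRed A M x) := by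
  rw [h13sIncl_red, h13sIncl_red]
  have e : (⟨cst M (a : Kbar) * (x : FF M), h⟩ : gaussV A M) =
      ⟨cst M (a : Kbar), h57e_cst_mem A M a⟩ * x := Subtype.ext rfl
  rw [e, map_mul]
  have h2 : gaussR A M ⟨cst M (a : Kbar), h57e_cst_mem A M a⟩ =
      HahnSeries.C (IsLocalRing.residue A a) :=
    gaussRed_algebraMap A (IsLocalRing.residue A) M a
  rw [h2]
  rfl

end Red

section Semi

variable {ℓ : ℕ} {M : ℕ} [NeZero M] (A : ValuationSubring Kbar)

/-- a Gauss-integral combination of an integral basis with zero reduction has all its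
coefficients in `𝔪_A`. -/
theorem h57e_coeff_nonunit (hℓ : ℓ.Prime) (hℓM : ¬ ℓ ∣ M) (hA : A.LiesOverPrime ℓ)
    {n : ℕ} (b : Fin n → FF M)
    (hb4 : ∀ c : Fin n → Kbar, (∑ i, cst M (c i) * b i) ∈ gaussV A M → ∀ i, c i ∈ A)
    (a : Fin n → Kbar) (hx : (∑ i, cst M (a i) * b i) ∈ gaussV A M)
    (hred : gaussR A M ⟨_, hx⟩ = 0) : ∀ i, a i ∈ A.nonunits := by
  set x : FF M := ∑ i, cst M (a i) * b i with hxdef
  -- a scalar `c ∉ A` with `cst c * x` Gauss-integral
  have hc : ∃ c : Kbar, c ∉ A ∧ cst M c * x ∈ gaussV A M := by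
    rcases (gaussR_eq_zero_iff A M hℓ hℓM hA ⟨x, hx⟩).mp hred with h0 | hinv
    · refine ⟨(ℓ : Kbar)⁻¹, fun h => ?_, ?_⟩
      · have h1 : A.valuation (ℓ : Kbar) < 1 := hA
        have h2 : A.valuation ((ℓ : Kbar)⁻¹) ≤ 1 := (A.valuation_le_one_iff _).mpr h
        have hℓ0 : (ℓ : Kbar) ≠ 0 := Nat.cast_ne_zero.mpr hℓ.ne_zero
        have h3 : A.valuation (ℓ : Kbar) * A.valuation ((ℓ : Kbar)⁻¹) = 1 := by
          rw [← map_mul, mul_inv_cancel₀ hℓ0, map_one]
        have h4 : A.valuation (ℓ : Kbar) * A.valuation ((ℓ : Kbar)⁻¹) < 1 := by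
          calc A.valuation (ℓ : Kbar) * A.valuation ((ℓ : Kbar)⁻¹)
              ≤ A.valuation (ℓ : Kbar) * 1 := mul_le_mul_right h2 _
            _ = A.valuation (ℓ : Kbar) := mul_one _
            _ < 1 := h1
        rw [h3] at h4
        exact lt_irrefl _ h4
      · have h1 : (x : FF M) = 0 := h0
        rw [h1, mul_zero]
        exact Subring.zero_mem _
    · have hx0 : x ≠ 0 := by
        intro h0
        apply hinv
        show x⁻¹ ∈ gaussV A M
        rw [h0, inv_zero]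
        exact Subring.zero_mem _
      obtain ⟨c, hc0, hcx, hcxi⟩ := exists_cst_mul_unit A M hℓ hℓM hA x hx0
      refine ⟨c, fun hcA => hinv ?_, hcx⟩
      show x⁻¹ ∈ gaussV A M
      have hcst0 : cst M c ≠ 0 := fun h => hc0 ((map_eq_zero _).mp h)
      have e : x⁻¹ = cst M c * (cst M c * x)⁻¹ := by
        rw [mul_inv, ← mul_assoc, mul_inv_cancel₀ hcst0, one_mul]
      rw [e]
      exact Subring.mul_mem _ (h57e_cst_mem A M ⟨c, hcA⟩) hcxi
  obtain ⟨c, hcA, hcx⟩ := hc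
  have h1 : ∀ i, c * a i ∈ A := by
    refine hb4 (fun i => c * a i) ?_
    have e : (∑ i, cst M (c * a i) * b i) = cst M c * x := by
      rw [hxdef, Finset.mul_sum]
      refine Finset.sum_congr rfl fun i _ => ?_
      have e1 : cst M (c * a i) = cst M c * cst M (a i) := map_mul _ _ _
      rw [e1, mul_assoc]
    rw [e]
    exact hcx
  intro i
  show A.valuation (a i) < 1
  by_contra hlt
  have h2 : (1 : A.ValueGroup) ≤ A.valuation (a i) := not_lt.mp hlt
  have h3 : A.valuation (c * a i) ≤ 1 := (A.valuation_le_one_iff _).mpr (h1 i)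
  rw [map_mul] at h3
  have h4 : A.valuation c ≤ 1 := by
    calc A.valuation c = A.valuation c * 1 := (mul_one _).symm
      _ ≤ A.valuation c * A.valuation (a i) := mul_le_mul_right h2 _
      _ ≤ 1 := h3
  exact hcA ((A.valuation_le_one_iff _).mp h4)

/-- the reduction of an `A`-combination of Gauss-integral functions. -/
theorem h57e_incl_red_sum {n : ℕ} (a : Fin n → A) (w : Fin n → gaussV A M)
    (hx : (∑ i, cst M (a i : Kbar) * (w i : FF M)) ∈ gaussV A M) :
    h13sIncl A M (h13sRed A M ⟨_, hx⟩) =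
      ∑ i, HahnSeries.C (h13sPi A (a i)) * h13sIncl A M (h13sRed A M (w i)) := by
  rw [h13sIncl_red]
  have e : (⟨_, hx⟩ : gaussV A M) =
      ∑ i, (⟨cst M (a i : Kbar), h57e_cst_mem A M (a i)⟩ : gaussV A M) * w i := by
    apply Subtype.ext
    rw [AddSubmonoidClass.coe_finsetSum]
    rfl
  rw [e, map_sum]
  refine Finset.sum_congr rfl fun i _ => ?_
  rw [map_mul, h13sIncl_red]
  have h2 : gaussR A M ⟨cst M (a i : Kbar), h57e_cst_mem A M (a i)⟩ =
      HahnSeries.C (IsLocalRing.residue A (a i)) :=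
    gaussRed_algebraMap A (IsLocalRing.residue A) M (a i)
  rw [h2]
  rfl

/-- **independence of the reductions** of an integral basis. -/
theorem h57e_indep (hℓ : ℓ.Prime) (hℓM : ¬ ℓ ∣ M) (hA : A.LiesOverPrime ℓ)
    {n : ℕ} (b : Fin n → FF M) (hb2 : ∀ i, b i ∈ gaussV A M)
    (hb4 : ∀ c : Fin n → Kbar, (∑ i, cst M (c i) * b i) ∈ gaussV A M → ∀ i, c i ∈ A) :
    LinearIndependent (h13sK A) (fun i => h13sRed A M ⟨b i, hb2 i⟩) := by
  rw [Fintype.linearIndependent_iff]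
  intro c hsum
  choose a ha using fun i => h57e_pi_surjective A (c i)
  have hx : (∑ i, cst M (a i : Kbar) * b i) ∈ gaussV A M :=
    Subring.sum_mem _ fun i _ => Subring.mul_mem _ (h57e_cst_mem A M (a i)) (hb2 i)
  have h1 := h57e_incl_red_sum A a (fun i => (⟨b i, hb2 i⟩ : gaussV A M)) hx
  have h2 : (∑ i, HahnSeries.C (h13sPi A (a i)) *
      h13sIncl A M (h13sRed A M ⟨b i, hb2 i⟩)) = 0 := by
    have h3 := congrArg (h13sIncl A M) hsum
    rw [map_sum, map_zero] at h3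
    rw [← h3]
    refine Finset.sum_congr rfl fun i _ => ?_
    rw [ha i, h57e_incl_smul]
  rw [h2] at h1
  have hred : gaussR A M ⟨_, hx⟩ = 0 := h1
  have h4 := h57e_coeff_nonunit A hℓ hℓM hA b hb4 (fun i => (a i : Kbar)) hx hred
  intro i
  rw [← ha i]
  exact h57e_pi_eq_zero A (h4 i)

/-- **semicontinuity**: `ℓ(E) ≤ ℓ~(r_* E)` for every divisor `E` of the generic fibre. -/
theorem h57e_semicont (hℓ : ℓ.Prime) (hℓM : ¬ ℓ ∣ M) (hA : A.LiesOverPrime ℓ)
    (hBs : H13rBase (h13sK A) (h13sFt A M))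
    (r : Place Kbar (FF M) → Place (h13sK A) (h13sFt A M)) (hsemi : H57eSemiAt A M r)
    (E : Divisor Kbar (FF M)) :
    h13rL Kbar (FF M) E ≤ h13rL (h13sK A) (h13sFt A M) (h13sPush r E) := by
  obtain ⟨b, -, hb2, hb3, hb4, -, -⟩ := hsemi E
  have hli := h57e_indep A hℓ hℓM hA b hb2 hb4
  haveI : Module.Finite (h13sK A) ↥(riemannRochSpace (h13sPush r E)) := h78q_finite hBs _
  let ρ : Fin (h13rL Kbar (FF M) E) → ↥(riemannRochSpace (h13sPush r E)) := fun i =>
    ⟨h13sRed A M ⟨b i, hb2 i⟩, hb3 i (hb2 i)⟩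
  have hli' : LinearIndependent (h13sK A) ρ := by
    refine LinearIndependent.of_comp (riemannRochSpace (h13sPush r E)).subtype ?_
    exact hli
  have h := hli'.fintype_card_le_finrank
  rw [Fintype.card_fin] at h
  exact h

end Semi

section Push

variable {M : ℕ} {A : ValuationSubring Kbar}
  (r : Place Kbar (FF M) → Place (h13sK A) (h13sFt A M))

theorem h57e_push_add (D E : Divisor Kbar (FF M)) :
    h13sPush r (D + E) = h13sPush r D + h13sPush r E :=
  Finsupp.mapDomain_add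

theorem h57e_push_sum {n : ℕ} (P : Fin n → Place Kbar (FF M)) :
    h13sPush r (h57eSum P) = h57eSum fun i => r (P i) := by
  unfold h13sPush h57eSum
  rw [Finsupp.mapDomain_finsetSum]
  refine Finset.sum_congr rfl fun i _ => ?_
  rw [Finsupp.mapDomain_single]

theorem h57e_push_D {n : ℕ} (P P' : Fin n → Place Kbar (FF M)) :
    h13sPush r (h57eD P P') = h57eD (fun i => r (P i)) (fun i => r (P' i)) := by
  unfold h57eD
  rw [h57e_push_add, ← h57e_push_sum, ← h57e_push_sum]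
  congr 1
  exact Finsupp.mapDomain_smul _ _

open Classical in
theorem h57e_push_apply (E : Divisor Kbar (FF M)) (w : Place (h13sK A) (h13sFt A M)) :
    h13sPush r E w = ∑ v ∈ E.support, if r v = w then E v else 0 := by
  unfold h13sPush Finsupp.mapDomain
  rw [Finsupp.sum, Finsupp.finsetSum_apply]
  refine Finset.sum_congr rfl fun v _ => ?_
  rw [Finsupp.single_apply]

/-- an effective divisor whose push-forward vanishes at `w` vanishes on the fibre of `w`. -/
theorem h57e_push_eq_zero {E : Divisor Kbar (FF M)} (hE : 0 ≤ E)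
    {w : Place (h13sK A) (h13sFt A M)} (h0 : h13sPush r E w = 0)
    {v : Place Kbar (FF M)} (hv : r v = w) : E v = 0 := by
  classical
  by_contra hne
  have hvs : v ∈ E.support := Finsupp.mem_support_iff.mpr hne
  rw [h57e_push_apply] at h0
  have hnn : ∀ u ∈ E.support, (0 : ℤ) ≤ if r u = w then E u else 0 := by
    intro u _
    split_ifs
    · exact hE u
    · exact le_rfl
  have h1 := (Finset.sum_eq_zero_iff_of_nonneg hnn).mp h0 v hvs
  rw [if_pos hv] at h1
  exact hne h1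

end Push

section Main

variable {ℓ : ℕ} {M : ℕ} [NeZero M] (A : ValuationSubring Kbar)

/-- **LINK-E0.** -/
theorem h57e_exists_E0 (hℓ : ℓ.Prime) (hℓM : ¬ ℓ ∣ M) (hA : A.LiesOverPrime ℓ)
    (r : Place Kbar (FF M) → Place (h13sK A) (h13sFt A M)) (hr : H13sIsRed A M r)
    (hBg : H13rBase Kbar (FF M)) (hBs : H13rBase (h13sK A) (h13sFt A M))
    {g : ℕ} (hg : H13rIsGenus Kbar (FF M) g) (hgs : H13rIsGenus (h13sK A) (h13sFt A M) g)
    (hsemi : H57eSemiAt A M r)
    (Q Q' : Fin g → Place Kbar (FF M))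
    (hQ : Function.Injective fun i => r (Q i)) (hQ' : Function.Injective fun i => r (Q' i))
    (hd : ∀ i j, r (Q i) ≠ r (Q' j))
    (hns : h13rL (h13sK A) (h13sFt A M) (h57eSum fun i => r (Q i)) = 1) :
    ∃ (f : FF M) (E₀ : Divisor Kbar (FF M)),
      f ≠ 0 ∧ f ∈ gaussV A M ∧ f⁻¹ ∈ gaussV A M ∧ 0 ≤ E₀ ∧
      (∀ v, E₀ v = v.ord f + h57eD Q Q' v) ∧
      (∀ v, E₀ v ≠ 0 → ∀ i, r v ≠ r (Q i) ∧ r v ≠ r (Q' i)) ∧
      (∀ i, (Q i).ord f = -2) ∧ (∀ i, (Q' i).ord f = -1) ∧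
      Divisor.degree E₀ = 3 * g ∧
      h13rL Kbar (FF M) (h57eD Q Q') = 2 * g + 1 ∧
      h13rL Kbar (FF M) E₀ = 2 * g + 1 ∧
      h13rL (h13sK A) (h13sFt A M) (h13sPush r E₀) = 2 * g + 1 := by
  classical
  haveI := h57e_infinite A
  have hQi : Function.Injective Q := fun i j h => hQ (congrArg r h)
  have hQ'i : Function.Injective Q' := fun i j h => hQ' (congrArg r h)
  have hdg : ∀ i j, Q i ≠ Q' j := fun i j h => hd i j (congrArg r h)
  -- the special fibre
  obtain ⟨y, hyD, hy0, hyQ, hyQ'⟩ := h57e_exact hBs hgs hns hQ hQ' hd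
  have hlDs : h13rL (h13sK A) (h13sFt A M)
      (h57eD (fun i => r (Q i)) (fun i => r (Q' i))) = 2 * g + 1 := h57e_l_D hBs hgs hns
  have hpush : h13sPush r (h57eD Q Q') = h57eD (fun i => r (Q i)) (fun i => r (Q' i)) :=
    h57e_push_D r Q Q'
  -- the generic fibre
  have hlDg : h13rL Kbar (FF M) (h57eD Q Q') = 2 * g + 1 := by
    have h1 := hg.1 (h57eD Q Q')
    rw [h57eD_degree hBg] at h1
    have h2 := h57e_semicont A hℓ hℓM hA hBs r hsemi (h57eD Q Q')
    rw [hpush, hlDs] at h2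
    omega
  -- the lift
  obtain ⟨b, -, -, -, -, -, hb6⟩ := hsemi (h57eD Q Q')
  obtain ⟨f, hf, hfD, hfy⟩ := hb6 (by rw [hpush, hlDg, hlDs]) y (by rw [hpush]; exact hyD)
  have hred0 : gaussR A M ⟨f, hf⟩ ≠ 0 := by
    intro h0
    have h1 : h13sIncl A M (h13sRed A M ⟨f, hf⟩) = 0 := h0
    rw [hfy] at h1
    exact hy0 ((map_eq_zero (h13sIncl A M)).mp h1)
  have hunit : f ≠ 0 ∧ f⁻¹ ∈ gaussV A M := by
    have h1 := (gaussR_eq_zero_iff A M hℓ hℓM hA ⟨f, hf⟩).not.mp hred0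
    rw [not_or, not_not] at h1
    exact h1
  obtain ⟨hf0, hfinv⟩ := hunit
  obtain ⟨Df, hDf, hDfdeg⟩ := hBg.pd f hf0
  have hrd : ∀ w : Place (h13sK A) (h13sFt A M), h13sPush r Df w = w.ord y := by
    intro w
    have h1 := hr.2.2 f hf hfinv Df hDf w
    rw [hfy] at h1
    exact h1
  set E₀ : Divisor Kbar (FF M) := Df + h57eD Q Q' with hE₀
  have hE₀v : ∀ v, E₀ v = v.ord f + h57eD Q Q' v := by
    intro v
    rw [hE₀, Finsupp.add_apply, hDf v]
  have hE₀nn : 0 ≤ E₀ := by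
    intro v
    rw [hE₀v]
    have h1 := ((mem_riemannRochSpace_iff.mp hfD) v).resolve_left hf0
    show (0 : ℤ) ≤ _
    omega
  have hpE : ∀ w, h13sPush r E₀ w =
      h57eD (fun i => r (Q i)) (fun i => r (Q' i)) w + w.ord y := by
    intro w
    rw [hE₀, h57e_push_add, Finsupp.add_apply, hrd w, hpush]
    ring
  have hz : ∀ i, h13sPush r E₀ (r (Q i)) = 0 := by
    intro i
    rw [hpE, hyQ i]
    have := h57eD_apply_left (P := fun i => r (Q i)) (P' := fun i => r (Q' i)) hQ hd i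
    rw [this]
    norm_num
  have hz' : ∀ i, h13sPush r E₀ (r (Q' i)) = 0 := by
    intro i
    rw [hpE, hyQ' i]
    have := h57eD_apply_right (P := fun i => r (Q i)) (P' := fun i => r (Q' i)) hQ' hd i
    rw [this]
    norm_num
  refine ⟨f, E₀, hf0, hf, hfinv, hE₀nn, hE₀v, ?_, ?_, ?_, ?_, hlDg, ?_, ?_⟩
  · intro v hv i
    exact ⟨fun h => hv (h57e_push_eq_zero r hE₀nn (hz i) h),
      fun h => hv (h57e_push_eq_zero r hE₀nn (hz' i) h)⟩
  · intro i
    have h1 := h57e_push_eq_zero r hE₀nn (hz i) (v := Q i) rfl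
    rw [hE₀v, h57eD_apply_left hQi hdg] at h1
    omega
  · intro i
    have h1 := h57e_push_eq_zero r hE₀nn (hz' i) (v := Q' i) rfl
    rw [hE₀v, h57eD_apply_right hQ'i hdg] at h1
    omega
  · rw [hE₀, map_add, hDfdeg, h57eD_degree hBg, zero_add]
  · rw [← hlDg]
    exact h78q_inv (h57eD Q Q') E₀ f hf0 fun v => by rw [hE₀v]; ring
  · rw [← hlDs]
    exact h78q_inv _ (h13sPush r E₀) y hy0 fun w => hpE w

/-- **LINK-E0**, hypotheses and conclusion in terms of `SameRed`. -/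
theorem h57e_exists_E0_sameRed (hℓ : ℓ.Prime) (hℓM : ¬ ℓ ∣ M) (hA : A.LiesOverPrime ℓ)
    (r : Place Kbar (FF M) → Place (h13sK A) (h13sFt A M)) (hr : H13sIsRed A M r)
    (hBg : H13rBase Kbar (FF M)) (hBs : H13rBase (h13sK A) (h13sFt A M))
    {g : ℕ} (hg : H13rIsGenus Kbar (FF M) g) (hgs : H13rIsGenus (h13sK A) (h13sFt A M) g)
    (hsemi : H57eSemiAt A M r)
    (Q Q' : Fin g → Place Kbar (FF M))
    (hQ : ∀ i j, SameRed A (Q i) (Q j) → i = j)
    (hQ' : ∀ i j, SameRed A (Q' i) (Q' j) → i = j)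
    (hd : ∀ i j, ¬ SameRed A (Q i) (Q' j))
    (hns : h13rL (h13sK A) (h13sFt A M) (h57eSum fun i => r (Q i)) = 1) :
    ∃ (f : FF M) (E₀ : Divisor Kbar (FF M)),
      f ≠ 0 ∧ f ∈ gaussV A M ∧ f⁻¹ ∈ gaussV A M ∧ 0 ≤ E₀ ∧
      (∀ v, E₀ v = v.ord f + h57eD Q Q' v) ∧
      (∀ v, E₀ v ≠ 0 → ∀ i, ¬ SameRed A v (Q i) ∧ ¬ SameRed A v (Q' i)) ∧
      (∀ i, (Q i).ord f = -2) ∧ (∀ i, (Q' i).ord f = -1) ∧
      Divisor.degree E₀ = 3 * g ∧
      h13rL Kbar (FF M) (h57eD Q Q') = 2 * g + 1 ∧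
      h13rL Kbar (FF M) E₀ = 2 * g + 1 ∧
      h13rL (h13sK A) (h13sFt A M) (h13sPush r E₀) = 2 * g + 1 := by
  obtain ⟨f, E₀, h1, h2, h3, h4, h5, h6, h7⟩ :=
    h57e_exists_E0 A hℓ hℓM hA r hr hBg hBs hg hgs hsemi Q Q'
      (fun i j h => hQ i j ((hr.2.1 _ _).mp h))
      (fun i j h => hQ' i j ((hr.2.1 _ _).mp h))
      (fun i j h => hd i j ((hr.2.1 _ _).mp h)) hns
  exact ⟨f, E₀, h1, h2, h3, h4, h5,
    fun v hv i => ⟨fun hs => (h6 v hv i).1 ((hr.2.1 _ _).mpr hs),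
      fun hs => (h6 v hv i).2 ((hr.2.1 _ _).mpr hs)⟩, h7⟩

end Main

end Fermat.Agent.P5
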