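import Fermat.Agent.P5.H75JetRed
import Fermat.Agent.P5.H81LinkDer
import Fermat.Agent.P5.H57LinkE0

/-!
# Wave 5, pillar (P), block GEO-LINK (helper57): the ring of a disc is Gauss-integral

`M` a good level, `A` over `ℓ`, `r` THE reduction map of places (`H13sIsRed`), `(Q, t, O)` a disc
calculus (`H37DiscAt`, `P5/H37DiscIface.lean`).

* `h57k_push_eq_zero_of_fibre` : a divisor vanishing on the fibre of `w` has push-forward `0`
  at `w`.
* `h57k_O_gauss` : **`O ⊆ gaussV A M`**, from `H37DiscAt` and RED-DIV alone.  [If `f ∈ O` is not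
  Gauss-integral, `x = c f` is a Gauss unit for some `c ∈ 𝔪_A`; `x - x(Q)` vanishes at `Q` and
  `x - s` (`s² = c`) has no zero on the disc, but both have the reduction of `x`.]
* `h57k_discChar` : **`H37DiscChar A Q O` from `H37DiscAt A Q t O`** (`O_char` is `h81m_mem` of
  helper81): the bridge DISC ↔ RR needs no extra hypothesis.
-/

set_option autoImplicit false
set_option linter.unusedSectionVars false
set_option linter.unusedVariables false

open AlgebraicCurve ModularCurve

noncomputable section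

namespace Fermat.Agent.P5

open Fermat.Agent.S37 Fermat.Agent.Red.GV

variable {ℓ : ℕ} {M : ℕ} [NeZero M] {A : ValuationSubring Kbar}
  {r : Place Kbar (FF M) → Place (h13sK A) (h13sFt A M)}

/-- the push-forward of a divisor vanishing on the fibre of `w` vanishes at `w`. -/
theorem h57k_push_eq_zero_of_fibre (D : Divisor Kbar (FF M))
    (w : Place (h13sK A) (h13sFt A M)) (h : ∀ v, r v = w → D v = 0) :
    h13sPush r D w = 0 := by
  classical
  rw [h57e_push_apply]
  refine Finset.sum_eq_zero fun v _ => ?_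
  split_ifs with hv
  · exact h v hv
  · rfl

/-- two Gauss-integral functions which differ by a constant of `𝔪_A` have the same reduction. -/
theorem h57k_red_sub_cst (hℓ : ℓ.Prime) (hM : ¬ ℓ ∣ M) (hA : A.LiesOverPrime ℓ)
    (x : FF M) (hx : x ∈ gaussV A M) (s : Kbar) (hs : s ∈ A.nonunits)
    (hx' : x - cst M s ∈ gaussV A M) :
    h13sRed A M ⟨x - cst M s, hx'⟩ = h13sRed A M ⟨x, hx⟩ := by
  have h1 : (1 : FF M) ∈ gaussV A M := (gaussV A M).one_mem
  refine (h75j_red_eq hℓ hM hA h1 x (x - cst M s) hx hx' s 0 hs (h75w_nu_zero A) ?_).symm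
  have h0 : cst M (0 : Kbar) = 0 := map_zero _
  rw [h0]
  ring

/-- **the ring of a disc consists of Gauss-integral functions.** -/
theorem h57k_O_gauss (hℓ : ℓ.Prime) (hM : ¬ ℓ ∣ M) (hA : A.LiesOverPrime ℓ)
    (hr : H13sIsRed A M r) (hB : H13rBase Kbar (FF M))
    {Q : Place Kbar (FF M)} {t : FF M} {O : Subring (FF M)} (hd : H37DiscAt A Q t O)
    (f : FF M) (hf : f ∈ O) : f ∈ gaussV A M := by
  classical
  by_contra hfV
  have hf0 : f ≠ 0 := by
    rintro rfl
    exact hfV (gaussV A M).zero_mem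
  obtain ⟨c, hc0, hxV, hxiV⟩ := exists_cst_mul_unit A M hℓ hM hA f hf0
  -- `c⁻¹ ∉ A`
  have hcinv : c⁻¹ ∉ A := by
    intro h
    apply hfV
    have h1 : f = cst M c⁻¹ * (cst M c * f) := by
      have h2 : cst M c⁻¹ * cst M c = 1 := by
        have h3 : cst M c⁻¹ * cst M c = cst M (c⁻¹ * c) :=
          (map_mul (algebraMap Kbar (FF M)) _ _).symm
        rw [h3, inv_mul_cancel₀ hc0]
        exact map_one (algebraMap Kbar (FF M))
      rw [← mul_assoc, h2, one_mul]
    rw [h1]
    exact (gaussV A M).mul_mem ((cst_mem_gaussV_iff A M hA _).mpr h) hxV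
  have hcnu : c ∈ A.nonunits := by
    have := Fermat.Agent.Red.GV.Asm.inv_mem_nonunits_of_notMem A c⁻¹ hcinv
    rwa [inv_inv] at this
  have hcA : c ∈ A := h75w_nu_mem A hcnu
  -- a square root of `c`
  obtain ⟨s, hs⟩ := IsAlgClosed.exists_pow_nat_eq c (n := 2) (by norm_num)
  have hs0 : s ≠ 0 := by
    rintro rfl
    apply hc0
    rw [← hs]
    norm_num
  have hsinv : s⁻¹ ∉ A := by
    intro h
    apply hcinv
    have : c⁻¹ = s⁻¹ * s⁻¹ := by
      rw [← hs, pow_two, mul_inv]
    rw [this]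
    exact A.mul_mem _ _ h h
  have hsnu : s ∈ A.nonunits := by
    have := Fermat.Agent.Red.GV.Asm.inv_mem_nonunits_of_notMem A s⁻¹ hsinv
    rwa [inv_inv] at this
  have hsA : s ∈ A := h75w_nu_mem A hsnu
  set x : FF M := cst M c * f with hxdef
  have hx0 : x ≠ 0 := by
    intro h
    rw [h, inv_zero] at hxiV
    rcases mul_eq_zero.mp h with h1 | h1
    · have : c = 0 := by
        have h2 : cst M c = cst M 0 := by rw [h1]; exact (map_zero _).symm
        exact (algebraMap Kbar (FF M)).injective h2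
      exact hc0 this
    · exact hf0 h1
  have hRx : h13sRed A M ⟨x, hxV⟩ ≠ 0 := by
    intro h
    have h1 : gaussR A M ⟨x, hxV⟩ = 0 := congrArg Subtype.val h
    rcases (gaussR_eq_zero_iff A M hℓ hM hA ⟨x, hxV⟩).mp h1 with h2 | h2
    · exact hx0 h2
    · exact h2 hxiV
  -- the values of `f` and `x` on the disc
  have hxO : x ∈ O := O.mul_mem (hd.O_cst c hcA) hf
  -- first function: `x₁ = x - x(Q)`
  obtain ⟨a, haA, hfa⟩ := hd.O_val f hf Q hd.refl
  have hca : c * a ∈ A.nonunits := by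
    rw [A.mem_nonunits_iff] at hcnu ⊢
    rw [map_mul]
    have h1 : A.valuation a ≤ 1 := (A.valuation_le_one_iff a).mpr haA
    calc A.valuation c * A.valuation a ≤ A.valuation c * 1 := by gcongr
      _ = A.valuation c := mul_one _
      _ < 1 := hcnu
  have hx1V : x - cst M (c * a) ∈ gaussV A M :=
    (gaussV A M).sub_mem hxV ((cst_mem_gaussV_iff A M hA _).mpr (h75w_nu_mem A hca))
  have hR1 := h57k_red_sub_cst hℓ hM hA x hxV (c * a) hca hx1V
  have hx1 : h13sRed A M ⟨x - cst M (c * a), hx1V⟩ ≠ 0 := by rw [hR1]; exact hRx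
  obtain ⟨h, hh, hdiv⟩ := hd.O_div f hf Q hd.refl a 0 hfa hd.t_zero
  have h0 : cst M (0 : Kbar) = 0 := map_zero _
  rw [h0, sub_zero] at hdiv
  have hexp : x = cst M (c * a) + t * (cst M c * h) := by
    have e1 : cst M (c * a) = cst M c * cst M a := map_mul (algebraMap Kbar (FF M)) _ _
    rw [hxdef, e1]
    linear_combination (cst M c) * hdiv
  have hone : 1 ≤ (r Q).ord (h13sRed A M ⟨x - cst M (c * a), hx1V⟩) := by
    have h3 := (not_congr (gaussR_eq_zero_iff A M hℓ hM hA ⟨_, hx1V⟩)).mp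
      (fun h0 => hx1 (Subtype.ext h0))
    simp only [not_or, not_not] at h3
    have h4 := h75j_ord_ge hr hB hd 1 (cst M c * h) (O.mul_mem (hd.O_cst c hcA) hh)
      (x - cst M (c * a)) hx1V h3.2 h3.1 (by rw [hexp]; ring)
    exact_mod_cast h4
  -- second function: `x₂ = x - s`
  have hx2V : x - cst M s ∈ gaussV A M :=
    (gaussV A M).sub_mem hxV ((cst_mem_gaussV_iff A M hA _).mpr hsA)
  have hR2 := h57k_red_sub_cst hℓ hM hA x hxV s hsnu hx2V
  have hx2 : h13sRed A M ⟨x - cst M s, hx2V⟩ ≠ 0 := by rw [hR2]; exact hRx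
  have h32 := (not_congr (gaussR_eq_zero_iff A M hℓ hM hA ⟨_, hx2V⟩)).mp
    (fun h0 => hx2 (Subtype.ext h0))
  simp only [not_or, not_not] at h32
  obtain ⟨D, hD, -⟩ := hB.pd (x - cst M s) h32.1
  have hred := hr.2.2 (x - cst M s) hx2V h32.2 D hD (r Q)
  have hzero : h13sPush r D (r Q) = 0 := by
    refine h57k_push_eq_zero_of_fibre D (r Q) fun v hv => ?_
    have hvQ : SameRed A v Q := (hr.2.1 v Q).mp hv
    obtain ⟨a', ha'A, hfa'⟩ := hd.O_val f hf v hvQ
    have hval : ValueAt v (x - cst M s) (c * a' - s) :=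
      Fermat.Agent.Red.Match.valueAt_sub
        (Fermat.Agent.Red.Match.valueAt_mul (Fermat.Agent.Red.Match.valueAt_cst v c) hfa')
        (Fermat.Agent.Red.Match.valueAt_cst v s)
    rw [hD v]
    refine h81n_ord_eq_zero_of_valueAt hval ?_
    intro hcs
    -- `c a' = s`, `s² = c` ⟹ `s a' = 1` ⟹ `s⁻¹ ∈ A`
    apply hsinv
    have h5 : s * a' = 1 := by
      have h6 : s * (s * a') = s * 1 := by
        have : c * a' = s := sub_eq_zero.mp hcs
        rw [mul_one, ← mul_assoc, ← pow_two, hs, this]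
      exact mul_left_cancel₀ hs0 h6
    have h7 : s⁻¹ = a' := by
      rw [← mul_one s⁻¹, ← h5, ← mul_assoc, inv_mul_cancel₀ hs0, one_mul]
    rw [h7]
    exact ha'A
  rw [hzero] at hred
  rw [hR1] at hone
  rw [hR2] at hred
  omega

/-- **the bridge DISC ↔ RR from the disc calculus alone.** -/
theorem h57k_discChar (hℓ : ℓ.Prime) (hM : ¬ ℓ ∣ M) (haux : auxLevel ℓ ∣ M)
    (hA : A.LiesOverPrime ℓ) (hr : H13sIsRed A M r) (hB : H13rBase Kbar (FF M))
    {Q : Place Kbar (FF M)} {t : FF M} {O : Subring (FF M)} (hd : H37DiscAt A Q t O) :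
    H37DiscChar A Q O where
  O_gauss := h57k_O_gauss hℓ hM hA hr hB hd
  O_char := fun f hf hreg =>
    h81m_mem hℓ hM haux hA hd hf fun P hP =>
      Fermat.Agent.S24.DiffPlace.ord_nonneg_of_mem P (hreg P hP)

end Fermat.Agent.P5
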