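import Fermat.Agent.P5.H57DiscGauss

/-!
# Wave 5, pillar (P), block GEO-LINK (helper57): the basis of `L(E₀)` and its jets

Frozen vocabulary of `P5/H13RRIface.lean`, `P5/H13SFIface.lean` (no charts): `M` a level prime
to `ℓ`, `A` over `ℓ`, `r` THE reduction map of places, `Q, Q' : Fin g → Place` the centres of two
charts (pairwise distinct reductions, `ℓ~(∑ r (Q i)) = 1 = ℓ~(∑ r (Q' i))`), `E₀`, `f` as in
`h57e_exists_E0_sameRed` (`P5/H57LinkE0.lean`), `bs = f⁻¹`.

* `h57k_exchange` : the exchange lemma (Mathlib only).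
* `h57k_generic_indep` : an integral basis in the sense of `H13sSemi` is `ℚ̄`-independent.
* `h57k_red_sum` : the reduction of an `A`-combination, in the special fibre field.
* `h57k_basis` : **LINK-BASIS.**  There are `E₀`, `bs`, `b : Fin g ⊕ Fin g → L(E₀)`, all
  Gauss-integral, with `div bs = 2 D₀ + D₁ - E₀`, `bs ∉ span (b j)`, and the NON-DEGENERACY of
  the jets: an `A`-combination of the `b j` whose reduction vanishes, or vanishes twice at every
  `r (Q i)`, has all its coefficients in `𝔪_A` (the hypothesis `hind` of `h75j_N0_unit`).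
-/

set_option autoImplicit false
set_option linter.unusedSectionVars false
set_option linter.unusedVariables false
set_option linter.style.haveILetI false

open AlgebraicCurve ModularCurve

noncomputable section

namespace Fermat.Agent.P5

open Fermat.Agent.S37 Fermat.Agent.Red.GV

/-! ### Linear algebra -/

/-- **the exchange lemma**: if `w = ∑ a m • ρ m` with `a m0 ≠ 0`, then `w` together with the
`ρ m`, `m ≠ m0`, is linearly independent. -/
theorem h57k_exchange {k V ι : Type*} [Field k] [AddCommGroup V] [Module k V] [Fintype ι]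
    {n : ℕ} (ρ : Fin n → V) (hρ : LinearIndependent k ρ) (a : Fin n → k) (m0 : Fin n)
    (ha : a m0 ≠ 0) (e : ι ≃ {m : Fin n // m ≠ m0}) (x : k) (y : ι → k)
    (h : x • (∑ m, a m • ρ m) + ∑ j, y j • ρ (e j) = 0) : x = 0 ∧ ∀ j, y j = 0 := by
  classical
  let E : Option ι ≃ Fin n := (Equiv.optionCongr e).trans (Equiv.optionSubtypeNe m0)
  have hEn : E none = m0 := by simp [E]
  have hEs : ∀ j, E (some j) = (e j : Fin n) := fun j => by simp [E]
  have hsplit : ∀ F : Fin n → V, ∑ m, F m = F m0 + ∑ j, F (e j) := by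
    intro F
    rw [← Equiv.sum_comp E F, Fintype.sum_option, hEn]
    simp only [hEs]
  let c : Fin n → k := fun m =>
    if hm : m = m0 then x * a m0 else x * a m + y (e.symm ⟨m, hm⟩)
  have hc0 : c m0 = x * a m0 := dif_pos rfl
  have hcj : ∀ j, c (e j) = x * a (e j) + y j := by
    intro j
    have hne : (e j : Fin n) ≠ m0 := (e j).2
    have h1 : c (e j) = x * a (e j) + y (e.symm ⟨(e j : Fin n), hne⟩) := dif_neg hne
    rw [h1]
    have h2 : (⟨(e j : Fin n), hne⟩ : {m : Fin n // m ≠ m0}) = e j := Subtype.ext rfl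
    rw [h2, Equiv.symm_apply_apply]
  have hsum : ∑ m, c m • ρ m = 0 := by
    rw [hsplit (fun m => c m • ρ m), hc0]
    simp only [hcj]
    rw [hsplit (fun m => a m • ρ m)] at h
    rw [← h]
    simp only [smul_add, Finset.smul_sum, add_smul, mul_smul, Finset.sum_add_distrib]
    abel
  have hall := (Fintype.linearIndependent_iff.mp hρ) c hsum
  have hx : x = 0 := by
    have h1 := hall m0
    rw [hc0] at h1
    exact (mul_eq_zero.mp h1).resolve_right ha
  refine ⟨hx, fun j => ?_⟩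
  have h1 := hall (e j)
  rw [hcj, hx, zero_mul, zero_add] at h1
  exact h1

/-- the complement of a point of `Fin (2 g + 1)` is enumerated by `Fin g ⊕ Fin g`. -/
theorem h57k_exists_equiv {n g : ℕ} (hn : n = 2 * g + 1) (m0 : Fin n) :
    Nonempty (Fin g ⊕ Fin g ≃ {m : Fin n // m ≠ m0}) := by
  classical
  refine ⟨Fintype.equivOfCardEq ?_⟩
  rw [Fintype.card_sum, Fintype.card_fin, Fintype.card_subtype_compl, Fintype.card_fin,
    Fintype.card_subtype_eq]
  omega

section Red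

variable {ℓ : ℕ} {M : ℕ} [NeZero M] {A : ValuationSubring Kbar}

/-- an integral basis in the sense of `H13sSemi` is linearly independent over `ℚ̄`. -/
theorem h57k_generic_indep (hℓ : ℓ.Prime) (hA : A.LiesOverPrime ℓ) {n : ℕ} (B : Fin n → FF M)
    (hB4 : ∀ c : Fin n → Kbar, (∑ i, cst M (c i) * B i) ∈ gaussV A M → ∀ i, c i ∈ A) :
    LinearIndependent Kbar B := by
  rw [Fintype.linearIndependent_iff]
  intro c hc i
  by_contra hi
  have hℓ0 : (ℓ : Kbar) ≠ 0 := Nat.cast_ne_zero.mpr hℓ.ne_zero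
  have h1 : (∑ j, cst M ((ℓ : Kbar)⁻¹ * (c i)⁻¹ * c j) * B j) = 0 := by
    have h2 : ∀ j, cst M ((ℓ : Kbar)⁻¹ * (c i)⁻¹ * c j) * B j =
        ((ℓ : Kbar)⁻¹ * (c i)⁻¹) • (c j • B j) := by
      intro j
      rw [Algebra.smul_def, Algebra.smul_def, ← mul_assoc]
      congr 1
      exact map_mul (algebraMap Kbar (FF M)) _ _
    simp_rw [h2]
    rw [← Finset.smul_sum, hc, smul_zero]
  have h3 := hB4 (fun j => (ℓ : Kbar)⁻¹ * (c i)⁻¹ * c j) (by rw [h1]; exact zero_mem _) i
  have h4 : (ℓ : Kbar)⁻¹ * (c i)⁻¹ * c i = (ℓ : Kbar)⁻¹ := by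
    rw [mul_assoc, inv_mul_cancel₀ hi, mul_one]
  rw [h4] at h3
  have h5 : A.valuation (ℓ : Kbar) < 1 := hA
  have h6 : A.valuation ((ℓ : Kbar)⁻¹) ≤ 1 := (A.valuation_le_one_iff _).mpr h3
  rw [map_inv₀] at h6
  have h7 : A.valuation (ℓ : Kbar) ≠ 0 := (A.valuation.ne_zero_iff).mpr hℓ0
  have h8 : (1 : _) ≤ A.valuation (ℓ : Kbar) := by
    have := (inv_le_one₀ (zero_lt_iff.mpr h7)).mp h6
    exact this
  exact absurd h5 (not_lt.mpr h8)

/-- the reduction is multiplicative. -/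
theorem h57k_red_mul (x y : gaussV A M) :
    h13sRed A M (x * y) = h13sRed A M x * h13sRed A M y := by
  apply (h13sIncl A M).toRingHom.injective
  show h13sIncl A M _ = h13sIncl A M _
  rw [map_mul, h13sIncl_red, h13sIncl_red, h13sIncl_red, map_mul]
  rfl

theorem h57k_red_one : h13sRed A M 1 = 1 := by
  apply (h13sIncl A M).toRingHom.injective
  show h13sIncl A M _ = h13sIncl A M _
  rw [map_one, h13sIncl_red, map_one]
  rfl

theorem h57k_red_zero : h13sRed A M 0 = 0 := by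
  apply (h13sIncl A M).toRingHom.injective
  show h13sIncl A M _ = h13sIncl A M _
  rw [map_zero, h13sIncl_red, map_zero]
  rfl

/-- the reduction of an `A`-combination, in the special fibre field. -/
theorem h57k_red_sum {ι : Type*} [Fintype ι] (a : ι → A) (w : ι → gaussV A M)
    (hx : (∑ i, cst M (a i : Kbar) * (w i : FF M)) ∈ gaussV A M) :
    h13sRed A M ⟨_, hx⟩ = ∑ i, h13sPi A (a i) • h13sRed A M (w i) := by
  apply (h13sIncl A M).toRingHom.injective
  show h13sIncl A M _ = h13sIncl A M _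
  rw [map_sum, h13sIncl_red]
  have e : (⟨_, hx⟩ : gaussV A M) =
      ∑ i, (⟨cst M (a i : Kbar), h57e_cst_mem A M (a i)⟩ : gaussV A M) * w i := by
    apply Subtype.ext
    rw [AddSubmonoidClass.coe_finsetSum]
    rfl
  rw [e, map_sum]
  refine Finset.sum_congr rfl fun i _ => ?_
  rw [map_mul, h57e_incl_smul, h13sIncl_red]
  have h2 : gaussR A M ⟨cst M (a i : Kbar), h57e_cst_mem A M (a i)⟩ =
      HahnSeries.C (IsLocalRing.residue A (a i)) :=
    gaussRed_algebraMap A (IsLocalRing.residue A) M (a i)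
  rw [h2]
  rfl

/-- the residue of an element of `A` vanishes iff it is a non-unit. -/
theorem h57k_mem_nonunits_of_pi {c : Kbar} (hc : c ∈ A) (h : h13sPi A ⟨c, hc⟩ = 0) :
    c ∈ A.nonunits := by
  have h1 : (⟨c, hc⟩ : A) ∈ IsLocalRing.maximalIdeal A :=
    (IsLocalRing.residue_eq_zero_iff _).mp h
  exact A.mem_nonunits_iff_exists_mem_maximalIdeal.mpr ⟨hc, h1⟩

end Red

section Main

variable {ℓ : ℕ} {M : ℕ} [NeZero M] {A : ValuationSubring Kbar}

/-- a function of the special fibre in `L(D)`, `D ≥ 0` reduced of dimension one, is constant. -/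
theorem h57k_const_of_l_one {n : ℕ} (P : Fin n → Place (h13sK A) (h13sFt A M))
    (hl : h13rL (h13sK A) (h13sFt A M) (h57eSum P) = 1) (z : h13sFt A M)
    (hz : z ∈ riemannRochSpace (h57eSum P)) : ∃ x : h13sK A, z = x • (1 : h13sFt A M) := by
  have h1 : (1 : h13sFt A M) ∈ riemannRochSpace (h57eSum P) := by
    rw [mem_riemannRochSpace_iff]
    intro w
    right
    have h2 := h57eSum_nonneg P w
    simp only [Finsupp.coe_zero, Pi.zero_apply] at h2
    rw [Place.ord_one]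
    omega
  have h3 : (⟨1, h1⟩ : ↥(riemannRochSpace (h57eSum P))) ≠ 0 := by
    intro h
    exact one_ne_zero (congrArg Subtype.val h)
  obtain ⟨x, hx⟩ := (finrank_eq_one_iff_of_nonzero' _ h3).mp hl ⟨z, hz⟩
  refine ⟨x, ?_⟩
  have := congrArg Subtype.val hx
  exact this.symm

/-- **LINK-BASIS.** -/
theorem h57k_basis (hℓ : ℓ.Prime) (hℓM : ¬ ℓ ∣ M) (hA : A.LiesOverPrime ℓ)
    (r : Place Kbar (FF M) → Place (h13sK A) (h13sFt A M)) (hr : H13sIsRed A M r)
    (hBg : H13rBase Kbar (FF M)) (hBs : H13rBase (h13sK A) (h13sFt A M))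
    {g : ℕ} (hg : H13rIsGenus Kbar (FF M) g) (hgs : H13rIsGenus (h13sK A) (h13sFt A M) g)
    (hsemi : H57eSemiAt A M r)
    (Q Q' : Fin g → Place Kbar (FF M))
    (hQ : ∀ i j, SameRed A (Q i) (Q j) → i = j)
    (hQ' : ∀ i j, SameRed A (Q' i) (Q' j) → i = j)
    (hd : ∀ i j, ¬ SameRed A (Q i) (Q' j))
    (hns : h13rL (h13sK A) (h13sFt A M) (h57eSum fun i => r (Q i)) = 1)
    (hns' : h13rL (h13sK A) (h13sFt A M) (h57eSum fun i => r (Q' i)) = 1) :
    ∃ (E₀ : Divisor Kbar (FF M)) (bs : FF M) (b : Fin g ⊕ Fin g → FF M),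
      0 ≤ E₀ ∧
      (∀ i v, SameRed A v (Q i) → E₀ v = 0) ∧
      (∀ i v, SameRed A v (Q' i) → E₀ v = 0) ∧
      bs ≠ 0 ∧ bs ∈ gaussV A M ∧ bs⁻¹ ∈ gaussV A M ∧ bs ∈ riemannRochSpace E₀ ∧
      (∀ v : Place Kbar (FF M), v.ord bs = h57eD Q Q' v - E₀ v) ∧
      (∀ j, b j ∈ riemannRochSpace E₀) ∧ (∀ j, b j ∈ gaussV A M) ∧
      (∀ (e : Kbar) (co : Fin g ⊕ Fin g → Kbar),
        cst M e * bs + ∑ j, cst M (co j) * b j = 0 → e = 0) ∧
      (∀ co : Fin g ⊕ Fin g → Kbar, (∀ j, co j ∈ A) →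
        ∀ hf : (∑ j, cst M (co j) * b j) ∈ gaussV A M,
          (h13sRed A M ⟨_, hf⟩ = 0 ∨ ∀ i, 2 ≤ (r (Q i)).ord (h13sRed A M ⟨_, hf⟩)) →
          ∀ j, co j ∈ A.nonunits) := by
  classical
  obtain ⟨f, E₀, hf0, hfV, hfiV, hE₀, hE₀v, hout, -, -, -, -, hlE, hlEs⟩ :=
    h57e_exists_E0_sameRed A hℓ hℓM hA r hr hBg hBs hg hgs hsemi Q Q' hQ hQ' hd hns
  -- injectivity of the reduced centres
  have hrQ : Function.Injective fun i => r (Q i) := fun i j h => hQ i j ((hr.2.1 _ _).mp h)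
  have hrQ' : Function.Injective fun i => r (Q' i) := fun i j h => hQ' i j ((hr.2.1 _ _).mp h)
  have hrd : ∀ i j, r (Q i) ≠ r (Q' j) := fun i j h => hd i j ((hr.2.1 _ _).mp h)
  have hE₀Q : ∀ i v, SameRed A v (Q i) → E₀ v = 0 := by
    intro i v hv
    by_contra hne
    exact (hout v hne i).1 hv
  have hE₀Q' : ∀ i v, SameRed A v (Q' i) → E₀ v = 0 := by
    intro i v hv
    by_contra hne
    exact (hout v hne i).2 hv
  -- `bs`
  obtain ⟨bs, hbs⟩ : ∃ bs : FF M, bs = f⁻¹ := ⟨_, rfl⟩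
  have hbs0 : bs ≠ 0 := by rw [hbs]; exact inv_ne_zero hf0
  have hbsV : bs ∈ gaussV A M := by rw [hbs]; exact hfiV
  have hbsiV : bs⁻¹ ∈ gaussV A M := by rw [hbs, inv_inv]; exact hfV
  have hbsf : bs * f = 1 := by rw [hbs]; exact inv_mul_cancel₀ hf0
  have hDnn : ∀ v, 0 ≤ h57eD Q Q' v := by
    intro v
    rw [h57eD_apply]
    have h1 := h57eSum_nonneg Q v
    have h2 := h57eSum_nonneg Q' v
    simp only [Finsupp.coe_zero, Pi.zero_apply] at h1 h2
    omega
  have hbsord : ∀ v : Place Kbar (FF M), v.ord bs = h57eD Q Q' v - E₀ v := by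
    intro v
    rw [hbs, Place.ord_inv, hE₀v]
    ring
  have hbsL : bs ∈ riemannRochSpace E₀ := by
    rw [mem_riemannRochSpace_iff]
    intro v
    right
    rw [hbsord]
    have := hDnn v
    omega
  -- the integral basis of `L(E₀)`
  obtain ⟨B, hB1, hB2, hB3, hB4, hB5, -⟩ := hsemi E₀
  obtain ⟨cm, hcm⟩ := hB5 bs hbsL
  have hcmA : ∀ m, cm m ∈ A := hB4 cm (hcm ▸ hbsV)
  have hxV : (∑ m, cst M ((⟨cm m, hcmA m⟩ : A) : Kbar) * ((⟨B m, hB2 m⟩ : gaussV A M) : FF M))
      ∈ gaussV A M := hcm ▸ hbsV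
  have hredbs : h13sRed A M ⟨bs, hbsV⟩ =
      ∑ m, h13sPi A ⟨cm m, hcmA m⟩ • h13sRed A M ⟨B m, hB2 m⟩ := by
    rw [← h57k_red_sum (fun m => (⟨cm m, hcmA m⟩ : A)) (fun m => (⟨B m, hB2 m⟩ : gaussV A M))
      hxV]
    congr 1
    exact Subtype.ext hcm
  have hredbs0 : h13sRed A M ⟨bs, hbsV⟩ ≠ 0 := by
    intro h
    have h1 : gaussR A M ⟨bs, hbsV⟩ = 0 := congrArg Subtype.val h
    rcases (gaussR_eq_zero_iff A M hℓ hℓM hA ⟨bs, hbsV⟩).mp h1 with h2 | h2
    · exact hbs0 h2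
    · exact h2 hbsiV
  obtain ⟨m0, hm0⟩ : ∃ m0, h13sPi A ⟨cm m0, hcmA m0⟩ ≠ 0 := by
    by_contra hall
    simp only [not_exists, not_not] at hall
    apply hredbs0
    rw [hredbs]
    exact Finset.sum_eq_zero fun m _ => by rw [hall m, zero_smul]
  have hcm0 : cm m0 ≠ 0 := by
    intro h
    apply hm0
    have : (⟨cm m0, hcmA m0⟩ : A) = 0 := Subtype.ext h
    rw [this, map_zero]
  obtain ⟨e⟩ := h57k_exists_equiv hlE m0
  have hρ := h57e_indep A hℓ hℓM hA B hB2 hB4
  have hρg := h57k_generic_indep hℓ hA B hB4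
  refine ⟨E₀, bs, fun j => B (e j), hE₀, hE₀Q, hE₀Q', hbs0, hbsV, hbsiV, hbsL, hbsord,
    fun j => hB1 _, fun j => hB2 _, ?_, ?_⟩
  · -- weak independence over `ℚ̄`
    intro e' co h
    refine (h57k_exchange B hρg cm m0 hcm0 e e' co ?_).1
    rw [← h, hcm]
    simp only [Algebra.smul_def]
  · -- non-degeneracy of the jets
    intro co hco hf hcase
    -- the reduction of the combination
    have hxV' : (∑ j, cst M ((⟨co j, hco j⟩ : A) : Kbar) *
        ((⟨B (e j), hB2 _⟩ : gaussV A M) : FF M)) ∈ gaussV A M := hf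
    have hredu : h13sRed A M ⟨_, hf⟩ =
        ∑ j, h13sPi A ⟨co j, hco j⟩ • h13sRed A M ⟨B (e j), hB2 _⟩ :=
      h57k_red_sum (fun j => (⟨co j, hco j⟩ : A))
        (fun j => (⟨B (e j), hB2 _⟩ : gaussV A M)) hxV'
    set y : h13sFt A M := h13sRed A M ⟨_, hf⟩ with hy
    -- `y = x • bs~`
    have hx : ∃ x : h13sK A, y = x • h13sRed A M ⟨bs, hbsV⟩ := by
      by_cases hy0 : y = 0
      · exact ⟨0, by rw [hy0, zero_smul]⟩
      have hdv : ∀ i, 2 ≤ (r (Q i)).ord y := by
        rcases hcase with h | h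
        · exact absurd h hy0
        · exact h
      -- `y ∈ L(r_* E₀)`
      have hyL : y ∈ riemannRochSpace (h13sPush r E₀) := by
        rw [hredu]
        exact Submodule.sum_mem _ fun j _ => Submodule.smul_mem _ _ (hB3 _ (hB2 _))
      -- the divisor of `f~`
      obtain ⟨Df, hDf, -⟩ := hBg.pd f hf0
      have hrf : ∀ w, h13sPush r Df w = w.ord (h13sRed A M ⟨f, hfV⟩) :=
        fun w => hr.2.2 f hfV hfiV Df hDf w
      have hDE : Df + h57eD Q Q' = E₀ := by
        ext v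
        rw [Finsupp.add_apply, hDf v, hE₀v]
      have hpE : ∀ w, h13sPush r E₀ w = w.ord (h13sRed A M ⟨f, hfV⟩) +
          h57eD (fun i => r (Q i)) (fun i => r (Q' i)) w := by
        intro w
        rw [← hDE, h57e_push_add, Finsupp.add_apply, hrf w, h57e_push_D]
      have hredf0 : h13sRed A M ⟨f, hfV⟩ ≠ 0 := by
        intro h
        have h1 : gaussR A M ⟨f, hfV⟩ = 0 := congrArg Subtype.val h
        rcases (gaussR_eq_zero_iff A M hℓ hℓM hA ⟨f, hfV⟩).mp h1 with h2 | h2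
        · exact hf0 h2
        · exact h2 hfiV
      have hmul : h13sRed A M ⟨bs, hbsV⟩ * h13sRed A M ⟨f, hfV⟩ = 1 := by
        rw [← h57k_red_mul, ← h57k_red_one]
        congr 1
        exact Subtype.ext hbsf
      -- `z = y f~ ∈ L(∑ r (Q' i))`
      have hzL : y * h13sRed A M ⟨f, hfV⟩ ∈
          riemannRochSpace (h57eSum fun i => r (Q' i)) := by
        rw [mem_riemannRochSpace_iff]
        intro w
        right
        rw [Place.ord_mul _ hy0 hredf0]
        have h1 := ((mem_riemannRochSpace_iff.mp hyL) w).resolve_left hy0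
        have h2 := hpE w
        rw [h57eD_apply] at h2
        by_cases hw : ∃ i, r (Q i) = w
        · obtain ⟨i, rfl⟩ := hw
          have h3 : h13sPush r E₀ (r (Q i)) = 0 :=
            h57k_push_eq_zero_of_fibre E₀ (r (Q i)) fun v hv =>
              hE₀Q i v ((hr.2.1 v (Q i)).mp hv)
          have h4 : h57eSum (fun i => r (Q i)) (r (Q i)) = 1 :=
            h57eSum_apply_self (P := fun i => r (Q i)) hrQ i
          have h5 := hdv i
          rw [h3, h4] at h2
          omega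
        · have h4 : h57eSum (fun i => r (Q i)) w = 0 :=
            h57eSum_apply_out fun i hi => hw ⟨i, hi⟩
          rw [h4] at h2
          omega
      obtain ⟨x, hx⟩ := h57k_const_of_l_one _ hns' _ hzL
      refine ⟨x, ?_⟩
      calc y = y * (h13sRed A M ⟨f, hfV⟩ * h13sRed A M ⟨bs, hbsV⟩) := by
              rw [mul_comm (h13sRed A M ⟨f, hfV⟩), hmul, mul_one]
        _ = (y * h13sRed A M ⟨f, hfV⟩) * h13sRed A M ⟨bs, hbsV⟩ := by ring
        _ = x • h13sRed A M ⟨bs, hbsV⟩ := by rw [hx, smul_mul_assoc, one_mul]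
    obtain ⟨x, hx⟩ := hx
    have hrel : (-x) • (∑ m, h13sPi A ⟨cm m, hcmA m⟩ • h13sRed A M ⟨B m, hB2 m⟩) +
        ∑ j, h13sPi A ⟨co j, hco j⟩ • h13sRed A M ⟨B (e j), hB2 _⟩ = 0 := by
      rw [← hredbs, ← hredu, hx, neg_smul, neg_add_cancel]
    have hzero := (h57k_exchange (fun m => h13sRed A M ⟨B m, hB2 m⟩) hρ
      (fun m => h13sPi A ⟨cm m, hcmA m⟩) m0 hm0 e (-x) (fun j => h13sPi A ⟨co j, hco j⟩)
      hrel).2
    intro j
    exact h57k_mem_nonunits_of_pi (hco j) (hzero j)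

end Main

end Fermat.Agent.P5
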