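import Fermat.Agent.P5.H57LinkBasis
import Fermat.Agent.P5.H4LinkLeaf
import Fermat.Agent.P5.H40SFBase
import Fermat.Agent.P5.H60RedDivTop
import Fermat.Agent.P5.H55Semi

/-!
# Wave 5, pillar (P), block GEO-LINK (helper57): the link, assembled

`M` a good level, `A` over `ℓ`, `r` THE reduction map of places, `c`, `c'` two charts with a disc
calculus at every centre (`H37DiscAt`), non-special centres (`H56gNonSpec`) and pairwise distinct
reductions of the `2 g` centres.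

* `h57k_linkRaw` : **`H4sLinkRaw A c c'`** (`P5/H4Seed.lean`), from
  LINK-BASIS (`h57k_basis`, `P5/H57LinkBasis.lean`), the bridge `h57k_discChar`
  (`P5/H57DiscGauss.lean`), `h81n_mem_link` / `h81n_exists_jets` / `h81n_hbsder_link` (helper81)
  and `h75j_N0_unit` (helper75).
* `h57k_linkRawLeaf : H13sBase → H13sSemi → H4sLinkRawLeaf` and
  `h57k_link_of : H13sBase → H13sSemi → H56gLink` (exact frozen Props of `P5/H4LinkLeaf.lean`,
  `P5/H56GeoAsm.lean`).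
* `h57k_link : H56gLink`, UNCONDITIONAL (with `h60q_redDiv`, `h40b_sBase`, `h55s_semi`).
-/

set_option autoImplicit false
set_option linter.unusedSectionVars false
set_option linter.unusedVariables false

open AlgebraicCurve ModularCurve

noncomputable section

namespace Fermat.Agent.P5

open Fermat.Agent.S37 Fermat.Agent.Red.GV

variable {ℓ : ℕ} {M : ℕ} [NeZero M] {A : ValuationSubring Kbar}

/-- **the raw link data.** -/
theorem h57k_linkRaw (hℓ : ℓ.Prime) (hM : ¬ ℓ ∣ M) (haux : auxLevel ℓ ∣ M)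
    (hA : A.LiesOverPrime ℓ)
    (r : Place Kbar (FF M) → Place (h13sK A) (h13sFt A M)) (hr : H13sIsRed A M r)
    (hBg : H13rBase Kbar (FF M)) (hBs : H13rBase (h13sK A) (h13sFt A M))
    (hsemi : H57eSemiAt A M r)
    {g : ℕ} (hgG : H13rIsGenus Kbar (FF M) g) (hgS : H13rIsGenus (h13sK A) (h13sFt A M) g)
    (c c' : H96Chart M g) (hd : ∀ i, H37DiscAt A (c.Q i) (c.t i) (c.O i))
    (hd' : ∀ i, H37DiscAt A (c'.Q i) (c'.t i) (c'.O i))
    (hns : H56gNonSpec r c.Q) (hns' : H56gNonSpec r c'.Q)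
    (hne : ∀ i j, r (c.Q i) ≠ r (c'.Q j)) : H4sLinkRaw A c c' := by
  have hQ : ∀ i j, SameRed A (c.Q i) (c.Q j) → i = j := fun i j h =>
    hns.1 ((hr.2.1 _ _).mpr h)
  have hQ' : ∀ i j, SameRed A (c'.Q i) (c'.Q j) → i = j := fun i j h =>
    hns'.1 ((hr.2.1 _ _).mpr h)
  have hdd : ∀ i j, ¬ SameRed A (c.Q i) (c'.Q j) := fun i j h =>
    hne i j ((hr.2.1 _ _).mpr h)
  obtain ⟨E₀, bs, b, hE₀, hE₀Q, hE₀Q', hbs0, hbsV, hbsiV, hbsL, hbsord, hbL, hbV, hindep,
    hind⟩ := h57k_basis hℓ hM hA r hr hBg hBs hgG hgS hsemi c.Q c'.Q hQ hQ' hdd hns.2 hns'.2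
  have hLD : H4rLinkData A c c' b bs :=
    { exE0 := ⟨E₀, hE₀, hE₀Q, hE₀Q', hbL, hbsL, fun v => by
        rw [hbsord v, h57eD_apply]
        rfl⟩
      bs_ne := hbs0
      indep := hindep }
  have hc : ∀ i, H37DiscChar A (c.Q i) (c.O i) := fun i =>
    h57k_discChar hℓ hM haux hA hr hBg (hd i)
  have hc' : ∀ i, H37DiscChar A (c'.Q i) (c'.O i) := fun i =>
    h57k_discChar hℓ hM haux hA hr hBg (hd' i)
  have hmemb : ∀ j i, b j ∈ c.O i ∧ b j ∈ c'.O i := fun j =>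
    h81n_mem_link hℓ hM haux hA hd hd' hE₀Q hE₀Q' (hbV j) (hbL j)
  have hmembs : ∀ i, bs ∈ c.O i ∧ bs ∈ c'.O i :=
    h81n_mem_link hℓ hM haux hA hd hd' hE₀Q hE₀Q' hbsV hbsL
  obtain ⟨N0, -, hN0val, hN0der⟩ := h81n_exists_jets hd b fun j i => (hmemb j i).1
  have hunit : N0.det ≠ 0 ∧ (N0.det)⁻¹ ∈ A :=
    h75j_N0_unit hℓ hM hA hr hBg c hd (fun i => (hc i).O_gauss _ (hd i).O_t)
      (fun i => (hc i).O_gauss) b (fun j i => (hmemb j i).1) N0 hN0val hN0der hind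
  have hbsder := h81n_hbsder_link hℓ hM haux hA hd' hc' hLD hQ' hdd hbsV hbsiV
  exact ⟨⟨b, bs, N0, hLD, hmemb, hmembs, hN0val, hN0der, hunit, hbsder⟩⟩

/-- **GEO-LINK**: the frozen raw-link leaf, from `H13sBase` and `H13sSemi`. -/
theorem h57k_linkRawLeaf (hBase : H13sBase) (hSemi : H13sSemi) : H4sLinkRawLeaf := by
  intro ℓ hℓ M _ hM haux A hA r hr g hgG hgS c c' hd hd' hns hns' hne
  exact h57k_linkRaw hℓ hM haux hA r hr (h40b_gBase M) (hBase ℓ hℓ M hM haux A hA)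
    (h57e_semiAt_of hSemi hℓ hM haux A hA r hr) hgG hgS c c' hd hd' hns hns' hne

/-- **GEO-LINK**: the frozen leaf `H56gLink`, from `H13sBase` and `H13sSemi`. -/
theorem h57k_link_of (hBase : H13sBase) (hSemi : H13sSemi) : H56gLink :=
  h4s_linkLeaf (h57k_linkRawLeaf hBase hSemi)

/-- **GEO-LINK, unconditional.** -/
theorem h57k_link : H56gLink :=
  h57k_link_of (h40b_sBase h60q_redDiv) (h55s_semi (h40b_sBase h60q_redDiv))

end Fermat.Agent.P5
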