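import Mathlib

/-!
# P5 (pillar (P), S19), block GEO-RR (helper58): the abstract Čech pair

`k` a field, `V` a `k`-vector space, `L₀ L₁ : Submodule k V` (think: `V = F` the function field,
`L₀ = L₀(D)` the fractional ideal of the divisor `D` on the affine chart `j ≠ ∞`, `L₁ = L_∞(D)`
the lattice of `D` at the points over `j = ∞`).

* `H⁰ = L₀ ⊓ L₁`, `H¹ = V ⧸ (L₀ ⊔ L₁)`, `h58rFin` (both finite-dimensional),
  `h58rChi = dim H⁰ - dim H¹`.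
* `h58r_step` : for `L₀ ≤ L₀'` with `L₀' / L₀` finite-dimensional of dimension `c`:
  `(L₀, L₁)` is finite iff `(L₀', L₁)` is, and `χ (L₀', L₁) = χ (L₀, L₁) + c`
  (the six-term exact sequence).  `h58r_step'` : the same in the second variable.
* `h58r_h1_le`, `h58r_h0_le` : monotonicity.

Mathlib only.
-/

set_option autoImplicit false
set_option linter.unusedSectionVars false

noncomputable section

namespace Fermat.Agent.P5

open Module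

variable {k V : Type*} [Field k] [AddCommGroup V] [Module k V]

/-- both cohomology groups of the pair are finite-dimensional. -/
def h58rFin (L₀ L₁ : Submodule k V) : Prop :=
  FiniteDimensional k ↥(L₀ ⊓ L₁) ∧ FiniteDimensional k (V ⧸ (L₀ ⊔ L₁))

/-- the Euler characteristic of the pair. -/
def h58rChi (L₀ L₁ : Submodule k V) : ℤ :=
  (finrank k ↥(L₀ ⊓ L₁) : ℤ) - (finrank k (V ⧸ (L₀ ⊔ L₁)) : ℤ)

/-! ### generic exactness helpers -/

/-- middle term of an exact sequence with finite-dimensional ends is finite-dimensional. -/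
theorem h58r_fin_mid {A B C : Type*} [AddCommGroup A] [Module k A] [AddCommGroup B] [Module k B]
    [AddCommGroup C] [Module k C] (f : A →ₗ[k] B) (g : B →ₗ[k] C)
    (hex : LinearMap.ker g = LinearMap.range f)
    (hA : FiniteDimensional k A) (hC : FiniteDimensional k C) : FiniteDimensional k B := by
  haveI : FiniteDimensional k ↥(LinearMap.range g) := inferInstance
  have hex' : Function.Exact f g.rangeRestrict := by
    rw [LinearMap.exact_iff, LinearMap.ker_rangeRestrict, hex]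
  exact Module.Finite.of_exact hex' g.surjective_rangeRestrict

/-- dimension of the middle term of an exact sequence. -/
theorem h58r_dim_mid {A B C : Type*} [AddCommGroup A] [Module k A] [AddCommGroup B] [Module k B]
    [AddCommGroup C] [Module k C] (f : A →ₗ[k] B) (g : B →ₗ[k] C)
    (hex : LinearMap.ker g = LinearMap.range f) [FiniteDimensional k B] :
    finrank k B = finrank k ↥(LinearMap.range f) + finrank k ↥(LinearMap.range g) := by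
  have h := LinearMap.finrank_range_add_finrank_ker g
  rw [hex] at h
  omega

section Step

variable (L₀ L₀' L₁ : Submodule k V)

/-- `H⁰ (L₀) → H⁰ (L₀')`. -/
def h58rIota (hle : L₀ ≤ L₀') : ↥(L₀ ⊓ L₁) →ₗ[k] ↥(L₀' ⊓ L₁) :=
  Submodule.inclusion (inf_le_inf_right L₁ hle)

/-- `H⁰ (L₀') → L₀' / L₀`. -/
def h58rPi : ↥(L₀' ⊓ L₁) →ₗ[k] (↥L₀' ⧸ L₀.submoduleOf L₀') :=
  (L₀.submoduleOf L₀').mkQ ∘ₗ Submodule.inclusion (inf_le_left : L₀' ⊓ L₁ ≤ L₀')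

/-- `L₀' / L₀ → H¹ (L₀)`. -/
def h58rDelta : (↥L₀' ⧸ L₀.submoduleOf L₀') →ₗ[k] V ⧸ (L₀ ⊔ L₁) :=
  (L₀.submoduleOf L₀').liftQ ((L₀ ⊔ L₁).mkQ ∘ₗ L₀'.subtype) (by
    intro x hx
    rw [LinearMap.mem_ker, LinearMap.comp_apply, Submodule.mkQ_apply,
      Submodule.Quotient.mk_eq_zero]
    exact Submodule.mem_sup_left hx)

/-- `H¹ (L₀) → H¹ (L₀')`. -/
def h58rRho (hle : L₀ ≤ L₀') : V ⧸ (L₀ ⊔ L₁) →ₗ[k] V ⧸ (L₀' ⊔ L₁) :=
  Submodule.mapQ (L₀ ⊔ L₁) (L₀' ⊔ L₁) LinearMap.id (by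
    intro x hx
    exact (sup_le_sup_right hle L₁) hx)

theorem h58rPi_apply (x : ↥(L₀' ⊓ L₁)) :
    h58rPi L₀ L₀' L₁ x = (L₀.submoduleOf L₀').mkQ ⟨(x : V), x.2.1⟩ := rfl

theorem h58rDelta_mk (y : ↥L₀') :
    h58rDelta L₀ L₀' L₁ ((L₀.submoduleOf L₀').mkQ y) = (L₀ ⊔ L₁).mkQ (y : V) := rfl

theorem h58rRho_mk (hle : L₀ ≤ L₀') (v : V) :
    h58rRho L₀ L₀' L₁ hle ((L₀ ⊔ L₁).mkQ v) = (L₀' ⊔ L₁).mkQ v := rfl

theorem h58r_mkQ_eq_zero (y : ↥L₀') :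
    (L₀.submoduleOf L₀').mkQ y = 0 ↔ (y : V) ∈ L₀ := by
  rw [Submodule.mkQ_apply, Submodule.Quotient.mk_eq_zero]
  rfl

theorem h58r_mkQ_eq (y z : ↥L₀') :
    (L₀.submoduleOf L₀').mkQ y = (L₀.submoduleOf L₀').mkQ z ↔ (y : V) - (z : V) ∈ L₀ := by
  rw [Submodule.mkQ_apply, Submodule.mkQ_apply, Submodule.Quotient.eq]
  rfl

theorem h58rIota_injective (hle : L₀ ≤ L₀') : Function.Injective (h58rIota L₀ L₀' L₁ hle) :=
  Submodule.inclusion_injective _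

theorem h58r_ker_pi (hle : L₀ ≤ L₀') :
    LinearMap.ker (h58rPi L₀ L₀' L₁) = LinearMap.range (h58rIota L₀ L₀' L₁ hle) := by
  ext x
  rw [LinearMap.mem_ker, LinearMap.mem_range, h58rPi_apply, h58r_mkQ_eq_zero]
  constructor
  · intro h
    exact ⟨⟨(x : V), ⟨h, x.2.2⟩⟩, Subtype.ext rfl⟩
  · rintro ⟨y, rfl⟩
    exact y.2.1

theorem h58r_ker_delta (hle : L₀ ≤ L₀') :
    LinearMap.ker (h58rDelta L₀ L₀' L₁) = LinearMap.range (h58rPi L₀ L₀' L₁) := by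
  ext x
  obtain ⟨y, rfl⟩ := Submodule.mkQ_surjective _ x
  rw [LinearMap.mem_ker, LinearMap.mem_range, h58rDelta_mk, Submodule.mkQ_apply,
    Submodule.Quotient.mk_eq_zero]
  constructor
  · intro h
    obtain ⟨a, ha, b, hb, hab⟩ := Submodule.mem_sup.mp h
    have hb' : b ∈ L₀' := by
      have : b = (y : V) - a := by rw [← hab]; abel
      rw [this]
      exact L₀'.sub_mem y.2 (hle ha)
    refine ⟨⟨b, ⟨hb', hb⟩⟩, ?_⟩
    rw [h58rPi_apply, h58r_mkQ_eq]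
    have : b - (y : V) = -a := by rw [← hab]; abel
    show b - (y : V) ∈ L₀
    rw [this]
    exact L₀.neg_mem ha
  · rintro ⟨z, hz⟩
    rw [h58rPi_apply, h58r_mkQ_eq] at hz
    have h1 : ((z : V) - (y : V)) ∈ L₀ := hz
    have h2 : (y : V) = (z : V) - ((z : V) - (y : V)) := by abel
    rw [h2]
    exact (L₀ ⊔ L₁).sub_mem (Submodule.mem_sup_right z.2.2) (Submodule.mem_sup_left h1)

theorem h58r_ker_rho (hle : L₀ ≤ L₀') :
    LinearMap.ker (h58rRho L₀ L₀' L₁ hle) = LinearMap.range (h58rDelta L₀ L₀' L₁) := by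
  ext x
  obtain ⟨v, rfl⟩ := Submodule.mkQ_surjective _ x
  rw [LinearMap.mem_ker, LinearMap.mem_range, h58rRho_mk, Submodule.mkQ_apply,
    Submodule.Quotient.mk_eq_zero]
  constructor
  · intro h
    obtain ⟨a, ha, b, hb, hab⟩ := Submodule.mem_sup.mp h
    refine ⟨(L₀.submoduleOf L₀').mkQ ⟨a, ha⟩, ?_⟩
    rw [h58rDelta_mk, Submodule.mkQ_apply, Submodule.mkQ_apply, Submodule.Quotient.eq]
    have : a - v = -b := by rw [← hab]; abel
    rw [this]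
    exact (L₀ ⊔ L₁).neg_mem (Submodule.mem_sup_right hb)
  · rintro ⟨z, hz⟩
    obtain ⟨y, rfl⟩ := Submodule.mkQ_surjective _ z
    rw [h58rDelta_mk, Submodule.mkQ_apply, Submodule.mkQ_apply, Submodule.Quotient.eq] at hz
    have h2 : v = (y : V) - ((y : V) - v) := by abel
    rw [h2]
    exact (L₀' ⊔ L₁).sub_mem (Submodule.mem_sup_left y.2) ((sup_le_sup_right hle L₁) hz)

theorem h58rRho_surjective (hle : L₀ ≤ L₀') : Function.Surjective (h58rRho L₀ L₀' L₁ hle) := by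
  intro x
  obtain ⟨v, rfl⟩ := Submodule.mkQ_surjective _ x
  exact ⟨(L₀ ⊔ L₁).mkQ v, rfl⟩

/-- **(R1), finiteness**: enlarging `L₀` by a finite-dimensional amount does not change the
finiteness of the Čech pair. -/
theorem h58r_step_fin (hle : L₀ ≤ L₀')
    (hQ : FiniteDimensional k (↥L₀' ⧸ L₀.submoduleOf L₀')) :
    h58rFin L₀ L₁ ↔ h58rFin L₀' L₁ := by
  constructor
  · rintro ⟨h0, h1⟩
    refine ⟨?_, ?_⟩
    · exact h58r_fin_mid (h58rIota L₀ L₀' L₁ hle) (h58rPi L₀ L₀' L₁)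
        (h58r_ker_pi L₀ L₀' L₁ hle) h0 hQ
    · haveI := h1
      exact Module.Finite.of_surjective (h58rRho L₀ L₀' L₁ hle) (h58rRho_surjective L₀ L₀' L₁ hle)
  · rintro ⟨h0, h1⟩
    refine ⟨?_, ?_⟩
    · haveI := h0
      exact Module.Finite.of_injective (h58rIota L₀ L₀' L₁ hle) (h58rIota_injective L₀ L₀' L₁ hle)
    · exact h58r_fin_mid (h58rDelta L₀ L₀' L₁) (h58rRho L₀ L₀' L₁ hle)
        (h58r_ker_rho L₀ L₀' L₁ hle) hQ h1

/-- **(R1), Euler characteristic**: `χ (L₀', L₁) = χ (L₀, L₁) + dim (L₀' / L₀)`. -/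
theorem h58r_step_chi (hle : L₀ ≤ L₀')
    (hQ : FiniteDimensional k (↥L₀' ⧸ L₀.submoduleOf L₀'))
    (hfin : h58rFin L₀ L₁) :
    h58rChi L₀' L₁ = h58rChi L₀ L₁ + (finrank k (↥L₀' ⧸ L₀.submoduleOf L₀') : ℤ) := by
  obtain ⟨h0', h1'⟩ := (h58r_step_fin L₀ L₀' L₁ hle hQ).mp hfin
  obtain ⟨h0, h1⟩ := hfin
  haveI := h0; haveI := h1; haveI := h0'; haveI := h1'; haveI := hQ
  have e1 := h58r_dim_mid (h58rIota L₀ L₀' L₁ hle) (h58rPi L₀ L₀' L₁) (h58r_ker_pi L₀ L₀' L₁ hle)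
  have e2 := h58r_dim_mid (h58rPi L₀ L₀' L₁) (h58rDelta L₀ L₀' L₁) (h58r_ker_delta L₀ L₀' L₁ hle)
  have e3 := h58r_dim_mid (h58rDelta L₀ L₀' L₁) (h58rRho L₀ L₀' L₁ hle)
    (h58r_ker_rho L₀ L₀' L₁ hle)
  have e4 : finrank k ↥(LinearMap.range (h58rIota L₀ L₀' L₁ hle)) = finrank k ↥(L₀ ⊓ L₁) :=
    LinearMap.finrank_range_of_inj (h58rIota_injective L₀ L₀' L₁ hle)
  have e5 : finrank k ↥(LinearMap.range (h58rRho L₀ L₀' L₁ hle)) = finrank k (V ⧸ (L₀' ⊔ L₁)) := by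
    rw [LinearMap.range_eq_top.mpr (h58rRho_surjective L₀ L₀' L₁ hle)]
    exact finrank_top k _
  unfold h58rChi
  omega

end Step

/-- **(R1)** packaged: finiteness transfers and `χ` jumps by `c = dim (L₀' / L₀)`. -/
theorem h58r_step (L₀ L₀' L₁ : Submodule k V) (hle : L₀ ≤ L₀')
    (hQ : FiniteDimensional k (↥L₀' ⧸ L₀.submoduleOf L₀')) :
    (h58rFin L₀ L₁ ↔ h58rFin L₀' L₁) ∧
      (h58rFin L₀ L₁ →
        h58rChi L₀' L₁ = h58rChi L₀ L₁ + (finrank k (↥L₀' ⧸ L₀.submoduleOf L₀') : ℤ)) :=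
  ⟨h58r_step_fin L₀ L₀' L₁ hle hQ, h58r_step_chi L₀ L₀' L₁ hle hQ⟩

theorem h58rFin_comm (L₀ L₁ : Submodule k V) : h58rFin L₀ L₁ ↔ h58rFin L₁ L₀ := by
  unfold h58rFin
  rw [inf_comm, sup_comm]

theorem h58rChi_comm (L₀ L₁ : Submodule k V) : h58rChi L₀ L₁ = h58rChi L₁ L₀ := by
  unfold h58rChi
  rw [inf_comm, sup_comm]

/-- **(R1)** in the second variable. -/
theorem h58r_step' (L₀ L₁ L₁' : Submodule k V) (hle : L₁ ≤ L₁')
    (hQ : FiniteDimensional k (↥L₁' ⧸ L₁.submoduleOf L₁')) :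
    (h58rFin L₀ L₁ ↔ h58rFin L₀ L₁') ∧
      (h58rFin L₀ L₁ →
        h58rChi L₀ L₁' = h58rChi L₀ L₁ + (finrank k (↥L₁' ⧸ L₁.submoduleOf L₁') : ℤ)) := by
  rw [h58rFin_comm L₀ L₁, h58rFin_comm L₀ L₁', h58rChi_comm L₀ L₁, h58rChi_comm L₀ L₁']
  exact h58r_step L₁ L₁' L₀ hle hQ

/-! ### monotonicity -/

/-- `dim H¹` decreases when `L₀` grows. -/
theorem h58r_h1_le (L₀ L₀' L₁ : Submodule k V) (hle : L₀ ≤ L₀')
    (h1 : FiniteDimensional k (V ⧸ (L₀ ⊔ L₁))) :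
    FiniteDimensional k (V ⧸ (L₀' ⊔ L₁)) ∧
      finrank k (V ⧸ (L₀' ⊔ L₁)) ≤ finrank k (V ⧸ (L₀ ⊔ L₁)) := by
  haveI := h1
  exact ⟨Module.Finite.of_surjective (h58rRho L₀ L₀' L₁ hle) (h58rRho_surjective L₀ L₀' L₁ hle),
    LinearMap.finrank_le_finrank_of_surjective (h58rRho_surjective L₀ L₀' L₁ hle)⟩

/-- `dim H⁰` increases when `L₀` grows. -/
theorem h58r_h0_le (L₀ L₀' L₁ : Submodule k V) (hle : L₀ ≤ L₀')
    (h0 : FiniteDimensional k ↥(L₀' ⊓ L₁)) :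
    FiniteDimensional k ↥(L₀ ⊓ L₁) ∧ finrank k ↥(L₀ ⊓ L₁) ≤ finrank k ↥(L₀' ⊓ L₁) := by
  haveI := h0
  exact ⟨Module.Finite.of_injective (h58rIota L₀ L₀' L₁ hle) (h58rIota_injective L₀ L₀' L₁ hle),
    LinearMap.finrank_le_finrank_of_injective (h58rIota_injective L₀ L₀' L₁ hle)⟩

/-- the jump of `dim H⁰` is at most `dim (L₀' / L₀)`. -/
theorem h58r_h0_jump (L₀ L₀' L₁ : Submodule k V) (hle : L₀ ≤ L₀')
    (hQ : FiniteDimensional k (↥L₀' ⧸ L₀.submoduleOf L₀'))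
    (h0 : FiniteDimensional k ↥(L₀' ⊓ L₁)) :
    finrank k ↥(L₀' ⊓ L₁) ≤ finrank k ↥(L₀ ⊓ L₁) + finrank k (↥L₀' ⧸ L₀.submoduleOf L₀') := by
  haveI := h0; haveI := hQ
  have e1 := h58r_dim_mid (h58rIota L₀ L₀' L₁ hle) (h58rPi L₀ L₀' L₁) (h58r_ker_pi L₀ L₀' L₁ hle)
  have e4 : finrank k ↥(LinearMap.range (h58rIota L₀ L₀' L₁ hle)) = finrank k ↥(L₀ ⊓ L₁) :=
    LinearMap.finrank_range_of_inj (h58rIota_injective L₀ L₀' L₁ hle)
  have e6 : finrank k ↥(LinearMap.range (h58rPi L₀ L₀' L₁)) ≤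
      finrank k (↥L₀' ⧸ L₀.submoduleOf L₀') := Submodule.finrank_le _
  omega

end Fermat.Agent.P5
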