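import Mathlib

/-!
# Pillar P5 (S19), block GEO-RR: the Čech algebra of two charts (helper78)

Abstract core (Mathlib only).  `R` a commutative ring, `F` a commutative `R`-algebra,
`x y : F` with `x * y = 1` (`y = 1 / x`), `M₀` an `R[x]`-submodule of `F` (sections over the chart
`x ≠ ∞`), `M∞` an `R[1/x]`-submodule of `F` (sections over the chart `x ≠ 0`), generated over
`R[1/x]` by finitely many `η i` with `x ^ c * η i ∈ M₀`.

* `h78r_tw x n M∞` : the twist `x ^ n M∞`.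
* `h78r_cech_fin` : **finiteness of `H¹`**: `x ^ m M∞ ≤ M₀ + x ^ n M∞ + span {x ^ e η i, n ≤ e < c}`
  for all `m`, `n`.
* `h78r_cech_vanish` : **vanishing of `H¹`**: `x ^ m M∞ ≤ M₀ + x ^ n M∞` for `n ≥ c`, all `m`.
The base `R` is an arbitrary commutative ring (a field for the fibres, the valuation ring for
the model).
-/

set_option autoImplicit false

open Polynomial

namespace Fermat.Agent.P5

variable {R F : Type*} [CommRing R] [CommRing F] [Algebra R F]

/-- the twist `x ^ n M`. -/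
def h78r_tw (x : F) (n : ℕ) (M : Submodule R F) : Submodule R F :=
  M.map (LinearMap.mulLeft R (x ^ n))

theorem h78r_mem_tw {x : F} {n : ℕ} {M : Submodule R F} {z : F} :
    z ∈ h78r_tw x n M ↔ ∃ m ∈ M, x ^ n * m = z := by
  simp [h78r_tw, Submodule.mem_map]

theorem h78r_tw_zero (x : F) (M : Submodule R F) : h78r_tw x 0 M = M := by
  ext z
  simp [h78r_mem_tw]

/-- stability of `M` under `y = 1 / x` gives `x ^ e M ≤ x ^ n M` for `e ≤ n`. -/
theorem h78r_tw_mono {x y : F} (hxy : x * y = 1) {M : Submodule R F}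
    (hM : ∀ m ∈ M, y * m ∈ M) {e n : ℕ} (hen : e ≤ n) : h78r_tw x e M ≤ h78r_tw x n M := by
  intro z hz
  obtain ⟨m, hm, rfl⟩ := h78r_mem_tw.mp hz
  have hpow : ∀ j : ℕ, ∀ m ∈ M, y ^ j * m ∈ M := by
    intro j
    induction j with
    | zero => intro m hm; simpa using hm
    | succ j ih =>
      intro m hm
      have := hM _ (ih m hm)
      rwa [← mul_assoc, ← pow_succ'] at this
  refine h78r_mem_tw.mpr ⟨y ^ (n - e) * m, hpow _ m hm, ?_⟩
  have h1 : x ^ n * y ^ (n - e) = x ^ e := by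
    obtain ⟨d, rfl⟩ := Nat.exists_eq_add_of_le hen
    rw [Nat.add_sub_cancel_left, pow_add, mul_assoc, ← mul_pow, hxy, one_pow, mul_one]
  rw [← mul_assoc, h1]

/-- one monomial `x ^ m y ^ e η`. -/
theorem h78r_monomial {x y : F} (hxy : x * y = 1) {M0 Minf : Submodule R F}
    (h0 : ∀ m ∈ M0, x * m ∈ M0) (hinf : ∀ m ∈ Minf, y * m ∈ Minf)
    {η : F} (hη : η ∈ Minf) {c : ℕ} (hc : x ^ c * η ∈ M0) (n m e : ℕ) :
    x ^ m * (y ^ e * η) ∈
      M0 ⊔ h78r_tw x n Minf ⊔
        Submodule.span R {z | ∃ j : ℕ, n ≤ j ∧ j < c ∧ z = x ^ j * η} := by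
  have hpow0 : ∀ j : ℕ, ∀ m ∈ M0, x ^ j * m ∈ M0 := by
    intro j
    induction j with
    | zero => intro m hm; simpa using hm
    | succ j ih =>
      intro m hm
      have := h0 _ (ih m hm)
      rwa [← mul_assoc, ← pow_succ'] at this
  have hpowinf : ∀ j : ℕ, ∀ m ∈ Minf, y ^ j * m ∈ Minf := by
    intro j
    induction j with
    | zero => intro m hm; simpa using hm
    | succ j ih =>
      intro m hm
      have := hinf _ (ih m hm)
      rwa [← mul_assoc, ← pow_succ'] at this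
  have hxy' : ∀ a b : ℕ, x ^ (a + b) * y ^ b = x ^ a := by
    intro a b
    rw [pow_add, mul_assoc, ← mul_pow, hxy, one_pow, mul_one]
  have hyx' : ∀ a b : ℕ, x ^ b * y ^ (a + b) = y ^ a := by
    intro a b
    rw [pow_add, mul_comm (y ^ a), ← mul_assoc, ← mul_pow, hxy, one_pow, one_mul]
  rcases le_total e m with hem | hme
  · -- `x ^ m y ^ e = x ^ (m - e)`
    obtain ⟨d, rfl⟩ := Nat.exists_eq_add_of_le hem
    have e1 : x ^ (e + d) * (y ^ e * η) = x ^ d * η := by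
      rw [← mul_assoc, Nat.add_comm, hxy']
    rw [e1]
    by_cases hdc : c ≤ d
    · -- in `M₀`
      obtain ⟨d', rfl⟩ := Nat.exists_eq_add_of_le hdc
      refine Submodule.mem_sup_left (Submodule.mem_sup_left ?_)
      have : x ^ (c + d') * η = x ^ d' * (x ^ c * η) := by
        rw [← mul_assoc, ← pow_add, Nat.add_comm]
      rw [this]
      exact hpow0 _ _ hc
    · by_cases hdn : d < n
      · -- in `x ^ n M∞`
        refine Submodule.mem_sup_left (Submodule.mem_sup_right ?_)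
        exact h78r_tw_mono hxy hinf hdn.le (h78r_mem_tw.mpr ⟨η, hη, rfl⟩)
      · -- a generator
        refine Submodule.mem_sup_right (Submodule.subset_span ⟨d, ?_, ?_, rfl⟩)
        · omega
        · omega
  · -- `x ^ m y ^ e = y ^ (e - m)`
    obtain ⟨d, rfl⟩ := Nat.exists_eq_add_of_le hme
    have e1 : x ^ m * (y ^ (m + d) * η) = y ^ d * η := by
      rw [← mul_assoc, Nat.add_comm, hyx']
    rw [e1]
    refine Submodule.mem_sup_left (Submodule.mem_sup_right ?_)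
    have h1 : y ^ d * η ∈ h78r_tw x 0 Minf := by
      rw [h78r_tw_zero]
      exact hpowinf _ _ hη
    exact h78r_tw_mono hxy hinf (Nat.zero_le n) h1

/-- **finiteness of `H¹`.** -/
theorem h78r_cech_fin {ι : Type*} [Fintype ι] {x y : F} (hxy : x * y = 1)
    {M0 Minf : Submodule R F}
    (h0 : ∀ m ∈ M0, x * m ∈ M0) (hinf : ∀ m ∈ Minf, y * m ∈ Minf)
    (η : ι → F) (hη : ∀ i, η i ∈ Minf)
    (hgen : ∀ m ∈ Minf, ∃ p : ι → Polynomial R, m = ∑ i, Polynomial.aeval y (p i) * η i)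
    {c : ℕ} (hc : ∀ i, x ^ c * η i ∈ M0) (n m : ℕ) :
    h78r_tw x m Minf ≤
      M0 ⊔ h78r_tw x n Minf ⊔
        Submodule.span R {z | ∃ (i : ι) (j : ℕ), n ≤ j ∧ j < c ∧ z = x ^ j * η i} := by
  intro z hz
  obtain ⟨w, hw, rfl⟩ := h78r_mem_tw.mp hz
  obtain ⟨p, rfl⟩ := hgen w hw
  rw [Finset.mul_sum]
  refine Submodule.sum_mem _ fun i _ => ?_
  rw [Polynomial.aeval_eq_sum_range, Finset.sum_mul, Finset.mul_sum]
  refine Submodule.sum_mem _ fun e _ => ?_
  rw [smul_mul_assoc, mul_smul_comm]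
  refine Submodule.smul_mem _ _ ?_
  have h := h78r_monomial hxy h0 hinf (hη i) (hc i) n m e
  have hle : M0 ⊔ h78r_tw x n Minf ⊔
      Submodule.span R {z | ∃ j : ℕ, n ≤ j ∧ j < c ∧ z = x ^ j * η i} ≤
      M0 ⊔ h78r_tw x n Minf ⊔
        Submodule.span R {z | ∃ (i : ι) (j : ℕ), n ≤ j ∧ j < c ∧ z = x ^ j * η i} := by
    refine sup_le_sup le_rfl (Submodule.span_mono ?_)
    rintro z ⟨j, hj1, hj2, rfl⟩
    exact ⟨i, j, hj1, hj2, rfl⟩
  exact hle h

/-- **vanishing of `H¹`.** -/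
theorem h78r_cech_vanish {ι : Type*} [Fintype ι] {x y : F} (hxy : x * y = 1)
    {M0 Minf : Submodule R F}
    (h0 : ∀ m ∈ M0, x * m ∈ M0) (hinf : ∀ m ∈ Minf, y * m ∈ Minf)
    (η : ι → F) (hη : ∀ i, η i ∈ Minf)
    (hgen : ∀ m ∈ Minf, ∃ p : ι → Polynomial R, m = ∑ i, Polynomial.aeval y (p i) * η i)
    {c : ℕ} (hc : ∀ i, x ^ c * η i ∈ M0) {n : ℕ} (hn : c ≤ n) (m : ℕ) :
    h78r_tw x m Minf ≤ M0 ⊔ h78r_tw x n Minf := by
  have h := h78r_cech_fin hxy h0 hinf η hη hgen hc n m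
  have hemp : {z | ∃ (i : ι) (j : ℕ), n ≤ j ∧ j < c ∧ z = x ^ j * η i} = (∅ : Set F) := by
    ext z
    simp only [Set.mem_ofPred_eq, Set.mem_empty_iff_false, iff_false, not_exists, not_and]
    intro i j hj1 hj2
    omega
  rw [hemp, Submodule.span_empty, sup_bot_eq] at h
  exact h

end Fermat.Agent.P5
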