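import Fermat.Agent.Red.BC.BridgeMain
import Fermat.Agent.Red.ModelO.Mid
import Fermat.Agent.P5.H78Cech

/-!
# P5 (pillar (P), S19), block GEO-RR (helper58): the two charts of the normal model over `A`
satisfy the hypotheses of the abstract Čech algebra

`M` a level, `A` a valuation subring of `ℚ̄` over `ℓ ∤ M`, `t : FF M`, `t ≠ 0`
(`t = j`), `modelAt M A t` / `modelAt M A t⁻¹` the two charts (P-RED).

* `h58s_clear_finset` : uniform version of the landed `h85_exists_pow_mul_mem_modelAt`.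
* `h58sSub M A t` : the chart `modelAt M A t` as an `A`-submodule of `FF M`.
* `h58s_cech_data` : the hypotheses of `h78r_cech_fin` / `h78r_cech_vanish` for the charts.
* `h58s_H1_fg` : **`H¹` of the model over `A` is a finitely generated `A`-module**: there is a
  finite set `T` with `jᵐ B_∞ ≤ B + B_∞ + span_A T` for all `m`.
* `h58s_H1_vanish` : **`H¹ (n D_∞) = 0` over `A` for `n ≥ c`**: `jᵐ B_∞ ≤ B + jⁿ B_∞`.
* `h58s_H0` : `B ⊓ B_∞ = A` (restating `h85_overlap`).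
-/

set_option autoImplicit false
set_option linter.unusedSectionVars false
set_option synthInstance.maxHeartbeats 400000

open ModularCurve Polynomial

noncomputable section

namespace Fermat.Agent.P5

open Fermat.Agent.S37 Fermat.Agent.Red.ModelO Fermat.Agent.Red.BC

variable (M : ℕ) [NeZero M] (A : ValuationSubring Kbar)

theorem h58s_t_mem (t : FF M) : t ∈ ringAdj M A t :=
  Subring.subset_closure (Or.inr rfl)

theorem h58s_t_mem_modelAt (t : FF M) : t ∈ modelAt M A t := by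
  have h : IsIntegral (ringAdj M A t) (algebraMap (ringAdj M A t) (FF M) ⟨t, h58s_t_mem M A t⟩) :=
    isIntegral_algebraMap
  exact h

theorem h58s_cst_mem_modelAt (t : FF M) {a : Kbar} (ha : a ∈ A) : cst M a ∈ modelAt M A t := by
  have hmem : cst M a ∈ ringAdj M A t := Subring.subset_closure (Or.inl ⟨a, ha, rfl⟩)
  have h : IsIntegral (ringAdj M A t) (algebraMap (ringAdj M A t) (FF M) ⟨cst M a, hmem⟩) :=
    isIntegral_algebraMap
  exact h

theorem h58s_clear_mono (t : FF M) {η : FF M} {c c' : ℕ} (hcc : c ≤ c')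
    (h : t ^ c * η ∈ modelAt M A t) : t ^ c' * η ∈ modelAt M A t := by
  have e : t ^ c' * η = t ^ (c' - c) * (t ^ c * η) := by
    rw [← mul_assoc, ← pow_add, Nat.sub_add_cancel hcc]
  rw [e]
  exact Subring.mul_mem _ (Subring.pow_mem _ (h58s_t_mem_modelAt M A t) _) h

/-- uniform clearing for a finite family. -/
theorem h58s_clear_finset (t : FF M) (ht : t ≠ 0) (S : Finset (FF M))
    (hS : ∀ s ∈ S, s ∈ modelAt M A t⁻¹) :
    ∃ c : ℕ, ∀ s ∈ S, t ^ c * s ∈ modelAt M A t := by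
  classical
  induction S using Finset.induction_on with
  | empty => exact ⟨0, fun s hs => by simp at hs⟩
  | insert a S ha ih =>
    obtain ⟨c₁, hc₁⟩ := ih (fun s hs => hS s (Finset.mem_insert_of_mem hs))
    obtain ⟨c₂, hc₂⟩ := h85_exists_pow_mul_mem_modelAt M A ht (hS a (Finset.mem_insert_self a S))
    refine ⟨max c₁ c₂, fun s hs => ?_⟩
    rcases Finset.mem_insert.mp hs with rfl | hs
    · exact h58s_clear_mono M A t (le_max_right _ _) hc₂
    · exact h58s_clear_mono M A t (le_max_left _ _) (hc₁ s hs)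

/-! ### the charts as `A`-submodules -/

theorem h58s_algebraMap_apply (a : A) : algebraMap A (FF M) a = cst M (a : Kbar) := rfl

theorem h58s_smul_def (a : A) (f : FF M) : a • f = cst M (a : Kbar) * f := by
  rw [Algebra.smul_def, h58s_algebraMap_apply]

/-- the chart `modelAt M A t` as an `A`-submodule of `FF M`. -/
def h58sSub (t : FF M) : Submodule A (FF M) where
  carrier := modelAt M A t
  add_mem' := fun ha hb => Subring.add_mem _ ha hb
  zero_mem' := Subring.zero_mem _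
  smul_mem' := by
    intro a f hf
    show a • f ∈ modelAt M A t
    rw [h58s_smul_def]
    exact Subring.mul_mem _ (h58s_cst_mem_modelAt M A t a.2) hf

theorem h58s_mem_sub {t f : FF M} : f ∈ h58sSub M A t ↔ f ∈ modelAt M A t := Iff.rfl

theorem h58s_aeval (t : FF M) (p : Polynomial A) : Polynomial.aeval t p = h85ev M A t p := by
  rw [Polynomial.aeval_def]
  rfl

/-- **`H⁰` of the model**: `B ⊓ B_∞ = A`. -/
theorem h58s_H0 (t : FF M) {y : FF M} (h0 : y ∈ h58sSub M A t) (h1 : y ∈ h58sSub M A t⁻¹) :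
    ∃ a : A, y = a • (1 : FF M) := by
  obtain ⟨a, ha, rfl⟩ := h85_overlap M A t h0 h1
  refine ⟨⟨a, ha⟩, ?_⟩
  rw [h58s_smul_def, mul_one]

/-- the hypotheses of the abstract Čech algebra for the two charts over `A`. -/
theorem h58s_cech_data {ℓ : ℕ} (hℓ : ℓ.Prime) (hℓM : ¬ ℓ ∣ M) (hA : A.LiesOverPrime ℓ) :
    ∃ (S : Finset (FF M)) (c : ℕ),
      (∀ s ∈ S, s ∈ h58sSub M A (jB M)⁻¹) ∧
      (∀ m ∈ h58sSub M A (jB M)⁻¹, ∃ p : ↥S → Polynomial A,
        m = ∑ i, Polynomial.aeval (jB M)⁻¹ (p i) * (i : FF M)) ∧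
      (∀ s ∈ S, jB M ^ c * s ∈ h58sSub M A (jB M)) := by
  classical
  obtain ⟨S, hS, hgen⟩ := h58_modelInf_fg hℓ hℓM hA
  obtain ⟨c, hc⟩ := h58s_clear_finset M A (jB M) (h85_jB_ne_zero M) S hS
  refine ⟨S, c, hS, ?_, hc⟩
  intro m hm
  obtain ⟨co, hco⟩ := hgen m hm
  refine ⟨fun i => co (i : FF M), ?_⟩
  rw [hco, ← Finset.sum_coe_sort S (fun s => h85ev M A (jB M)⁻¹ (co s) * s)]
  refine Finset.sum_congr rfl (fun i _ => ?_)
  rw [h58s_aeval]

/-- the middle chart `B[1/j] = B_∞[j]` as an `A`-submodule of `FF M` (the ambient module of the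
Čech complex of the model). -/
def h58sMid : Submodule A (FF M) where
  carrier := h85modelMid M A
  add_mem' := fun ha hb => Subring.add_mem _ ha hb
  zero_mem' := Subring.zero_mem _
  smul_mem' := by
    intro a f hf
    show a • f ∈ h85modelMid M A
    rw [h58s_smul_def]
    exact Subring.mul_mem _
      (h85_modelFin_le_modelMid M A (h58s_cst_mem_modelAt M A (jB M) a.2)) hf

theorem h58s_fin_le_mid : h58sSub M A (jB M) ≤ h58sMid M A :=
  fun _ hx => h85_modelFin_le_modelMid M A hx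

theorem h58s_inf_le_mid : h58sSub M A (jB M)⁻¹ ≤ h58sMid M A :=
  fun _ hx => h85_modelInf_le_modelMid M A hx

theorem h58s_mid_le_tw {w : FF M} (hw : w ∈ h58sMid M A) :
    ∃ k : ℕ, w ∈ h78r_tw (jB M) k (h58sSub M A (jB M)⁻¹) := by
  obtain ⟨k, hk⟩ := h85_modelMid_scale_inf M A hw
  refine ⟨k, h78r_mem_tw.mpr ⟨(jB M)⁻¹ ^ k * w, hk, ?_⟩⟩
  rw [← mul_assoc, ← mul_pow, mul_inv_cancel₀ (h85_jB_ne_zero M), one_pow, one_mul]

theorem h58s_tw_le_mid (k : ℕ) : h78r_tw (jB M) k (h58sSub M A (jB M)⁻¹) ≤ h58sMid M A := by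
  intro z hz
  obtain ⟨m, hm, rfl⟩ := h78r_mem_tw.mp hz
  exact Subring.mul_mem _ (Subring.pow_mem _
    (h85_modelFin_le_modelMid M A (h58s_t_mem_modelAt M A (jB M))) k)
    (h85_modelInf_le_modelMid M A hm)

/-- **`H¹` of the model over `A` is a finitely generated `A`-module.** -/
theorem h58s_H1_fg {ℓ : ℕ} (hℓ : ℓ.Prime) (hℓM : ¬ ℓ ∣ M) (hA : A.LiesOverPrime ℓ) :
    ∃ T : Finset (FF M), (∀ τ ∈ T, τ ∈ h58sMid M A) ∧ ∀ m : ℕ,
      h78r_tw (jB M) m (h58sSub M A (jB M)⁻¹) ≤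
        h58sSub M A (jB M) ⊔ h58sSub M A (jB M)⁻¹ ⊔ Submodule.span A (T : Set (FF M)) := by
  classical
  obtain ⟨S, c, hS, hgen, hc⟩ := h58s_cech_data M A hℓ hℓM hA
  let T : Finset (FF M) :=
    (S.attach ×ˢ Finset.range c).image (fun p => jB M ^ p.2 * (p.1 : FF M))
  refine ⟨T, ?_, fun m => ?_⟩
  · intro τ hτ
    obtain ⟨p, -, rfl⟩ := Finset.mem_image.mp hτ
    exact h58s_tw_le_mid M A p.2 (h78r_mem_tw.mpr ⟨(p.1 : FF M), hS p.1 p.1.2, rfl⟩)
  have h := h78r_cech_fin (R := A) (x := jB M) (y := (jB M)⁻¹)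
    (mul_inv_cancel₀ (h85_jB_ne_zero M))
    (M0 := h58sSub M A (jB M)) (Minf := h58sSub M A (jB M)⁻¹)
    (fun f hf => Subring.mul_mem _ (h58s_t_mem_modelAt M A (jB M)) hf)
    (fun f hf => Subring.mul_mem _ (h58s_t_mem_modelAt M A (jB M)⁻¹) hf)
    (fun i : ↥S => (i : FF M)) (fun i => hS i i.2) hgen (c := c) (fun i => hc i i.2) 0 m
  rw [h78r_tw_zero] at h
  refine h.trans (sup_le_sup_left (Submodule.span_mono ?_) _)
  rintro z ⟨i, e, -, he, rfl⟩
  exact Finset.mem_coe.mpr (Finset.mem_image.mpr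
    ⟨(i, e), Finset.mem_product.mpr ⟨Finset.mem_attach _ _, Finset.mem_range.mpr he⟩, rfl⟩)

/-- **`H¹ (n D_∞) = 0` over `A` for `n ≥ c`.** -/
theorem h58s_H1_vanish {ℓ : ℕ} (hℓ : ℓ.Prime) (hℓM : ¬ ℓ ∣ M) (hA : A.LiesOverPrime ℓ) :
    ∃ c : ℕ, ∀ n : ℕ, c ≤ n → ∀ m : ℕ,
      h78r_tw (jB M) m (h58sSub M A (jB M)⁻¹) ≤
        h58sSub M A (jB M) ⊔ h78r_tw (jB M) n (h58sSub M A (jB M)⁻¹) := by
  classical
  obtain ⟨S, c, hS, hgen, hc⟩ := h58s_cech_data M A hℓ hℓM hA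
  refine ⟨c, fun n hn m => ?_⟩
  exact h78r_cech_vanish (R := A) (x := jB M) (y := (jB M)⁻¹) (mul_inv_cancel₀ (h85_jB_ne_zero M))
    (M0 := h58sSub M A (jB M)) (Minf := h58sSub M A (jB M)⁻¹)
    (fun f hf => Subring.mul_mem _ (h58s_t_mem_modelAt M A (jB M)) hf)
    (fun f hf => Subring.mul_mem _ (h58s_t_mem_modelAt M A (jB M)⁻¹) hf)
    (fun i : ↥S => (i : FF M)) (fun i => hS i i.2) hgen (c := c) (fun i => hc i i.2) hn m

/-- **`H¹ = B_m / (B + B_∞)` of the model over `A` is a finitely generated `A`-module**: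
`B_m = B + B_∞ + span_A T` for a finite subset `T` of the middle chart. -/
theorem h58s_H1_fg_mid {ℓ : ℕ} (hℓ : ℓ.Prime) (hℓM : ¬ ℓ ∣ M) (hA : A.LiesOverPrime ℓ) :
    ∃ T : Finset (FF M), (∀ τ ∈ T, τ ∈ h58sMid M A) ∧
      h58sMid M A =
        h58sSub M A (jB M) ⊔ h58sSub M A (jB M)⁻¹ ⊔ Submodule.span A (T : Set (FF M)) := by
  classical
  obtain ⟨T, hTmem, hT⟩ := h58s_H1_fg M A hℓ hℓM hA
  refine ⟨T, hTmem, le_antisymm ?_ ?_⟩
  · intro w hw
    obtain ⟨k, hk⟩ := h58s_mid_le_tw M A hw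
    exact hT k hk
  · refine sup_le (sup_le (h58s_fin_le_mid M A) (h58s_inf_le_mid M A)) ?_
    rw [Submodule.span_le]
    intro τ hτ
    exact hTmem τ (Finset.mem_coe.mp hτ)

/-- the twists exhaust the middle chart: `B_m = ⋃ₖ jᵏ B_∞`. -/
theorem h58s_mem_mid_iff {w : FF M} :
    w ∈ h58sMid M A ↔ ∃ k : ℕ, w ∈ h78r_tw (jB M) k (h58sSub M A (jB M)⁻¹) :=
  ⟨h58s_mid_le_tw M A, fun ⟨k, hk⟩ => h58s_tw_le_mid M A k hk⟩

/-- **`H¹ (n D_∞) = 0` over `A` for `n ≥ c`**, middle-chart form: `B_m = B + jⁿ B_∞`. -/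
theorem h58s_H1_vanish_mid {ℓ : ℕ} (hℓ : ℓ.Prime) (hℓM : ¬ ℓ ∣ M) (hA : A.LiesOverPrime ℓ) :
    ∃ c : ℕ, ∀ n : ℕ, c ≤ n →
      h58sMid M A = h58sSub M A (jB M) ⊔ h78r_tw (jB M) n (h58sSub M A (jB M)⁻¹) := by
  obtain ⟨c, hc⟩ := h58s_H1_vanish M A hℓ hℓM hA
  refine ⟨c, fun n hn => le_antisymm ?_ ?_⟩
  · intro w hw
    obtain ⟨k, hk⟩ := h58s_mid_le_tw M A hw
    exact hc n hn k hk
  · exact sup_le (h58s_fin_le_mid M A) (h58s_tw_le_mid M A n)

end Fermat.Agent.P5
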