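import Fermat.Agent.P5.H58DictG
import Fermat.Agent.P5.H26GenusWire

/-!
# P5 (pillar (P), S19), block GEO-GENUS (helper58): the leaf `H26sDictG`

`h58h_dictG26 : H26sDictG` (exact frozen Prop of `P5/H26GenusWire.lean`, helper26):
`B ∩ jⁿ B_∞ ⊆ L(n D_∞)`.  Also the converse inclusion in the same vocabulary
(`h58h_dictG26_conv`): a Gauss-integral element of `L(n D_∞)` lies in `B ∩ jⁿ B_∞`.
-/

set_option autoImplicit false
set_option synthInstance.maxHeartbeats 400000

open AlgebraicCurve ModularCurve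

noncomputable section

namespace Fermat.Agent.P5

open Fermat.Agent.S37 Fermat.Agent.Red.GV

/-- **DICT-G**, the frozen leaf of GEO-GENUS. -/
theorem h58h_dictG26 : H26sDictG := by
  intro ℓ hℓ M _ hM _ A hA D hD n w w' hw hw' hww'
  exact ((h58h_dictG M A hℓ hM hA D (fun v => by rw [hD v, max_comm]) n w).mpr
    ⟨hw, w', hw', hww'⟩).1

/-- the converse inclusion: a Gauss-integral element of `L(n D_∞)` lies in `B ∩ jⁿ B_∞`. -/
theorem h58h_dictG26_conv (ℓ : ℕ) (hℓ : ℓ.Prime) (M : ℕ) [NeZero M] (hM : ¬ ℓ ∣ M)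
    (A : ValuationSubring Kbar) (hA : A.LiesOverPrime ℓ)
    (D : Divisor Kbar (FF M)) (hD : H26sIsPole M D) (n : ℕ) (w : FF M)
    (hw : w ∈ riemannRochSpace (n • D)) (hV : w ∈ gaussV A M) :
    w ∈ modelFin M A ∧ ∃ w' ∈ modelInf M A, w = jB M ^ n * w' :=
  (h58h_dictG M A hℓ hM hA D (fun v => by rw [hD v, max_comm]) n w).mp ⟨hw, hV⟩

end Fermat.Agent.P5
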