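import Mathlib
import Fermat.Prelude.Def_GaloisRep_LocalConditions

/-!
# S33 (ordinary at `p ∥ N`), pure algebra block ALG33' (helper58)

Mathlib + Prelude only.  Nothing is assumed; everything is a theorem.

`GaloisRepAdic.IsOrdinaryAt` asks, for every place `P` over `p`, for a line `L = T ∙ b 0`
(`b` a basis of `V`) which is stable under the decomposition group and such that inertia acts
trivially on `V / L`.

* `h58o_cayley` : Cayley–Hamilton in rank two, `s² - tr(s) s + det(s) = 0`.
* `h58o_trace_of_det` : `(s - ε₀)(s - 1) = 0`, `det s = ε₀`, `s` invertible `⟹ tr s = 1 + ε₀`.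
* `h58o_line_of_idem` : an idempotent `e` of trace `1` on a free module of rank two over a local
  ring has `ker e = T ∙ b 0` for a basis `b`.
* `h58o_ordinary_core` : **abstract form.**  `I ⊆ G` normalised by `D`, `s₀ ∈ I`, `ε₀ ∈ T` with
  `1 - ε₀` a unit, `tr ρ(s₀) = 1 + ε₀` and `(ρ(s₀) - ε₀)(ρ(b) - 1) = 0` for all `b ∈ I`
  `⟹` the line `L = ker (ρ(s₀) - ε₀)` has all the properties asked by `IsOrdinaryAt`.
* `h58o_isOrdinaryAt` : the same for a `GaloisRepAdic`, in the exact shape of the Prelude.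
* `h58o_isOrdinaryAt_of_det` : the same with `det ρ(s₀) = ε₀` instead of the trace.

So S33 is reduced to ONE family of identities in `End_T(V)`:
for every `P` over `p` there is `s₀` in the inertia group of `P` with `ε(s₀) ≢ 1` modulo the
maximal ideal (`p` odd) and `(ρ(s₀) - ε(s₀)) (ρ(b) - 1) = 0` for all `b` in that inertia group.
-/

set_option autoImplicit false

noncomputable section

namespace Fermat.Agent.P5

open Module

section Abstract

variable {T : Type*} [CommRing T]
  {V : Type*} [AddCommGroup V] [Module T V] [Module.Free T V] [Module.Finite T V]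

/-- **Cayley–Hamilton in rank two.** -/
theorem h58o_cayley [Nontrivial T] (hrk : finrank T V = 2) (s : Module.End T V) :
    s * s - LinearMap.trace T V s • s + LinearMap.det s • (1 : Module.End T V) = 0 := by
  classical
  let b : Basis (Fin 2) T V := Module.finBasisOfFinrankEq T V hrk
  have h1 := Matrix.aeval_self_charpoly (LinearMap.toMatrix b b s)
  rw [Matrix.charpoly_fin_two] at h1
  simp only [map_sub, map_add, map_mul, map_pow, Polynomial.aeval_X, Polynomial.aeval_C] at h1
  have htr : (LinearMap.toMatrix b b s).trace = LinearMap.trace T V s :=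
    (LinearMap.trace_eq_matrix_trace T b s).symm
  have hdet : (LinearMap.toMatrix b b s).det = LinearMap.det s := LinearMap.det_toMatrix b s
  rw [htr, hdet] at h1
  apply (LinearMap.toMatrixAlgEquiv b).injective
  rw [map_zero, map_add, map_sub, map_mul, map_smul, map_smul, map_one]
  have h2 : LinearMap.toMatrixAlgEquiv b s = LinearMap.toMatrix b b s := rfl
  rw [h2]
  rw [Algebra.algebraMap_eq_smul_one, Algebra.algebraMap_eq_smul_one, smul_mul_assoc, one_mul,
    pow_two] at h1
  exact h1

/-- the trace from the determinant. -/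
theorem h58o_trace_of_det [Nontrivial T] (hrk : finrank T V = 2) (s : Module.End T V)
    (hs : IsUnit s) (ε₀ : T) (hdet : LinearMap.det s = ε₀)
    (hX : (s - ε₀ • (1 : Module.End T V)) * (s - 1) = 0) :
    LinearMap.trace T V s = 1 + ε₀ := by
  have h1 := h58o_cayley hrk s
  rw [hdet] at h1
  have h2 : s * s = (1 + ε₀) • s - ε₀ • (1 : Module.End T V) := by
    have h3 : (s - ε₀ • (1 : Module.End T V)) * (s - 1) =
        s * s - (1 + ε₀) • s + ε₀ • (1 : Module.End T V) := by
      rw [sub_mul, mul_sub, mul_sub, mul_one, smul_mul_assoc, one_mul, smul_mul_assoc, one_mul,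
        add_smul, one_smul]
      abel
    rw [h3] at hX
    rw [← sub_eq_zero, ← hX]
    abel
  rw [h2] at h1
  have h4 : ((1 + ε₀) - LinearMap.trace T V s) • s = 0 := by
    rw [sub_smul, ← h1]
    abel
  obtain ⟨u, rfl⟩ := hs
  have h5 : ((1 + ε₀) - LinearMap.trace T V (u : Module.End T V)) • (1 : Module.End T V) = 0 := by
    have h6 := congrArg (fun x => x * ((u⁻¹ : (Module.End T V)ˣ) : Module.End T V)) h4
    simp only [smul_mul_assoc, Units.mul_inv, zero_mul] at h6
    exact h6
  have h7 := congrArg (LinearMap.trace T V) h5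
  rw [map_smul, LinearMap.trace_one, map_zero, hrk] at h7
  -- evaluate `h5` on a basis vector instead (no division by `2`)
  let b : Basis (Fin 2) T V := Module.finBasisOfFinrankEq T V hrk
  have h8 := congrArg (fun f : Module.End T V => b.repr (f (b 0)) 0) h5
  simp only [LinearMap.smul_apply, Module.End.one_apply, map_smul, Finsupp.smul_apply,
    Basis.repr_self, Finsupp.single_eq_same, smul_eq_mul, mul_one, LinearMap.zero_apply,
    map_zero, Finsupp.zero_apply] at h8
  exact (sub_eq_zero.mp h8).symm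

variable [IsLocalRing T]

/-- **rank-one idempotents.**  An idempotent of trace `1` on a free module of rank two over a
local ring: its kernel is the line spanned by the first vector of a basis. -/
theorem h58o_line_of_idem (hrk : finrank T V = 2) (e : Module.End T V)
    (he : IsIdempotentElem e) (htr : LinearMap.trace T V e = 1) :
    ∃ b : Basis (Fin 2) T V, LinearMap.ker e = T ∙ b 0 := by
  classical
  have hproj : LinearMap.IsProj (LinearMap.range e) e :=
    (LinearMap.isProj_range_iff_isIdempotentElem e).mpr he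
  have hc : IsCompl (LinearMap.range e) (LinearMap.ker e) := hproj.isCompl
  -- both summands are finite projective, hence free
  have hfinR : Module.Finite T (LinearMap.range e) := inferInstance
  have hfinK : Module.Finite T (LinearMap.ker e) :=
    Module.Finite.equiv (Submodule.quotientEquivOfIsCompl _ _ hc)
  have hprojR : Module.Projective T (LinearMap.range e) :=
    Module.Projective.of_split (LinearMap.range e).subtype hproj.codRestrict
      (LinearMap.ext fun x => by
        rw [LinearMap.comp_apply, Submodule.subtype_apply, LinearMap.id_apply]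
        exact hproj.codRestrict_apply_cod x)
  have hprojK : Module.Projective T (LinearMap.ker e) := by
    have hmem : ∀ x : V, (1 - e) x ∈ LinearMap.ker e := by
      intro x
      rw [LinearMap.mem_ker, LinearMap.sub_apply, Module.End.one_apply, map_sub,
        ← Module.End.mul_apply, he.eq, sub_self]
    refine Module.Projective.of_split (LinearMap.ker e).subtype
      (LinearMap.codRestrict (LinearMap.ker e) (1 - e) hmem) (LinearMap.ext fun x => ?_)
    apply Subtype.ext
    rw [LinearMap.comp_apply, Submodule.subtype_apply, LinearMap.id_apply,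
      LinearMap.codRestrict_apply, LinearMap.sub_apply, Module.End.one_apply,
      LinearMap.mem_ker.mp x.2, sub_zero]
  have hfreeR : Module.Free T (LinearMap.range e) := Module.free_of_flat_of_isLocalRing
  have hfreeK : Module.Free T (LinearMap.ker e) := Module.free_of_flat_of_isLocalRing
  -- the ranks
  have h1 : (1 : T) = (finrank T (LinearMap.range e) : T) := by rw [← htr]; exact hproj.trace
  have h2 : finrank T (LinearMap.range e) + finrank T (LinearMap.ker e) = 2 := by
    rw [← hrk, ← Module.finrank_prod]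
    exact LinearEquiv.finrank_eq (Submodule.prodEquivOfIsCompl _ _ hc)
  have hR : finrank T (LinearMap.range e) = 1 := by
    have h3 : finrank T (LinearMap.range e) ≤ 2 := by omega
    interval_cases h : finrank T (LinearMap.range e)
    · exfalso
      rw [Nat.cast_zero] at h1
      exact one_ne_zero h1
    · rfl
    · exfalso
      rw [Nat.cast_ofNat] at h1
      have h4 : (1 : T) = 0 := by
        have h5 : (2 : T) = 1 + 1 := by norm_num
        rw [h5] at h1
        exact (add_eq_left.mp h1.symm)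
      exact one_ne_zero h4
  have hK : finrank T (LinearMap.ker e) = 1 := by omega
  -- the basis
  let c0 : Basis (Fin 1) T (LinearMap.ker e) := Module.finBasisOfFinrankEq T _ hK
  let c1 : Basis (Fin 1) T (LinearMap.range e) := Module.finBasisOfFinrankEq T _ hR
  let b : Basis (Fin 2) T V :=
    ((c0.prod c1).map (Submodule.prodEquivOfIsCompl _ _ hc.symm)).reindex finSumFinEquiv
  have hb0 : b 0 = (c0 0 : V) := by
    have h3 : finSumFinEquiv.symm (0 : Fin 2) = (Sum.inl 0 : Fin 1 ⊕ Fin 1) := by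
      rw [Equiv.symm_apply_eq]
      rfl
    rw [Basis.reindex_apply, h3, Basis.map_apply, Submodule.coe_prodEquivOfIsCompl']
    rw [Basis.prod_apply_inl_fst, Basis.prod_apply_inl_snd]
    rw [Submodule.coe_zero, add_zero]
  refine ⟨b, ?_⟩
  rw [hb0]
  apply le_antisymm
  · intro x hx
    have h3 : (⟨x, hx⟩ : LinearMap.ker e) ∈ Submodule.span T (Set.range c0) := by
      rw [c0.span_eq]; exact Submodule.mem_top
    have h4 : Set.range c0 = {c0 0} := by
      ext y
      constructor
      · rintro ⟨i, rfl⟩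
        rw [Subsingleton.elim i 0]
        exact Set.mem_singleton _
      · rintro rfl
        exact ⟨0, rfl⟩
    rw [h4, Submodule.mem_span_singleton] at h3
    obtain ⟨a, ha⟩ := h3
    rw [Submodule.mem_span_singleton]
    refine ⟨a, ?_⟩
    have h5 := congrArg Subtype.val ha
    rw [Submodule.coe_smul] at h5
    exact h5
  · rw [Submodule.span_singleton_le_iff_mem]
    exact (c0 0).2

/-- **ALG33', abstract form.** -/
theorem h58o_ordinary_core (hrk : finrank T V = 2)
    {G : Type*} [Group G] (ρ : G →* Module.End T V) (I D : Subgroup G)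
    (hnorm : ∀ d ∈ D, ∀ a ∈ I, d * a * d⁻¹ ∈ I)
    (s₀ : G) (hs₀ : s₀ ∈ I) (ε₀ : T) (hunit : IsUnit (1 - ε₀))
    (htr : LinearMap.trace T V (ρ s₀) = 1 + ε₀)
    (hX : ∀ b ∈ I, (ρ s₀ - ε₀ • (1 : Module.End T V)) * (ρ b - 1) = 0) :
    ∃ L : Submodule T V, (∃ b : Basis (Fin 2) T V, L = T ∙ b 0) ∧
      (∀ σ ∈ D, ∀ v ∈ L, ρ σ v ∈ L) ∧ (∀ σ ∈ I, ∀ v : V, ρ σ v - v ∈ L) := by
  obtain ⟨u, hu⟩ := hunit
  set X : Module.End T V := ρ s₀ - ε₀ • (1 : Module.End T V) with hXdef
  set e : Module.End T V := ((u⁻¹ : Tˣ) : T) • X with hedef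
  have huu : ((u⁻¹ : Tˣ) : T) * (1 - ε₀) = 1 := by rw [← hu]; exact Units.inv_mul u
  have hXX : X * X = (1 - ε₀) • X := by
    have h1 := hX s₀ hs₀
    have h2 : X = (ρ s₀ - 1) + (1 - ε₀) • (1 : Module.End T V) := by
      rw [hXdef, sub_smul, one_smul]; abel
    calc X * X = X * ((ρ s₀ - 1) + (1 - ε₀) • (1 : Module.End T V)) := by rw [← h2]
      _ = X * (ρ s₀ - 1) + (1 - ε₀) • X := by rw [mul_add, mul_smul_comm, mul_one]
      _ = (1 - ε₀) • X := by rw [h1, zero_add]
  have he : IsIdempotentElem e := by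
    change e * e = e
    rw [hedef, smul_mul_smul_comm, hXX, smul_smul, mul_assoc, huu, mul_one]
  have htre : LinearMap.trace T V e = 1 := by
    rw [hedef, map_smul, hXdef, map_sub, map_smul, LinearMap.trace_one, htr, hrk, smul_eq_mul,
      smul_eq_mul]
    have h1 : (1 + ε₀ - ε₀ * ((2 : ℕ) : T)) = 1 - ε₀ := by push_cast; ring
    rw [h1, huu]
  obtain ⟨b, hb⟩ := h58o_line_of_idem hrk e he htre
  have heX : ∀ a ∈ I, ∀ v : V, e ((ρ a - 1) v) = 0 := by
    intro a ha v
    have h1 := hX a ha
    rw [hedef, LinearMap.smul_apply, ← Module.End.mul_apply, h1, LinearMap.zero_apply, smul_zero]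
  refine ⟨LinearMap.ker e, ⟨b, hb⟩, ?_, ?_⟩
  · intro σ hσ v hv
    rw [LinearMap.mem_ker] at hv ⊢
    -- `v = -u⁻¹ (ρ s₀ - 1) v`
    have h1 : v = -(((u⁻¹ : Tˣ) : T) • ((ρ s₀ - 1) v)) := by
      have h2 : e v = ((u⁻¹ : Tˣ) : T) • ((ρ s₀ - 1) v) + v := by
        rw [hedef, LinearMap.smul_apply, hXdef, LinearMap.sub_apply, LinearMap.sub_apply,
          LinearMap.smul_apply, Module.End.one_apply]
        have h3 : ρ s₀ v - ε₀ • v = (ρ s₀ v - v) + (1 - ε₀) • v := by
          rw [sub_smul, one_smul]; abel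
        rw [h3, smul_add, smul_smul, huu, one_smul]
      rw [hv] at h2
      rw [eq_neg_iff_add_eq_zero, add_comm]
      exact h2.symm
    have h4 : ρ σ ((ρ s₀ - 1) v) = (ρ (σ * s₀ * σ⁻¹) - 1) (ρ σ v) := by
      rw [LinearMap.sub_apply, LinearMap.sub_apply, Module.End.one_apply, Module.End.one_apply,
        map_sub, ← Module.End.mul_apply, ← Module.End.mul_apply, ← map_mul, ← map_mul,
        inv_mul_cancel_right]
    rw [h1, map_neg, map_smul, map_neg, map_smul, h4, heX _ (hnorm σ hσ s₀ hs₀), smul_zero,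
      neg_zero]
  · intro σ hσ v
    rw [LinearMap.mem_ker]
    have h1 := heX σ hσ v
    rw [LinearMap.sub_apply, Module.End.one_apply] at h1
    exact h1

end Abstract

/-! ### The Prelude shape -/

/-- inertia is normalised by the decomposition group. -/
theorem h58o_inertia_conj (P : ValuationSubring (AlgebraicClosure ℚ))
    {d a : AlgebraicClosure ℚ ≃ₐ[ℚ] AlgebraicClosure ℚ}
    (hd : d ∈ P.decompositionSubgroup ℚ) (ha : a ∈ P.inertiaSubgroupIn ℚ) :
    d * a * d⁻¹ ∈ P.inertiaSubgroupIn ℚ := by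
  obtain ⟨a', ha', rfl⟩ := ha
  refine ⟨⟨d, hd⟩ * a' * ⟨d, hd⟩⁻¹, ?_, rfl⟩
  have hn : (P.inertiaSubgroup ℚ).Normal := by
    unfold ValuationSubring.inertiaSubgroup
    infer_instance
  exact hn.conj_mem a' ha' ⟨d, hd⟩

/-- **ALG33'** in the exact shape of the Prelude. -/
theorem h58o_isOrdinaryAt {T : Type} [CommRing T] [IsLocalRing T] (ρ : GaloisRepAdic T) (p : ℕ)
    (h : ∀ P : ValuationSubring (AlgebraicClosure ℚ), P.LiesOverPrime p →
      ∃ s₀ ∈ P.inertiaSubgroupIn ℚ, ∃ ε₀ : T, IsUnit (1 - ε₀) ∧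
        LinearMap.trace T ρ.V (ρ.ρ s₀) = 1 + ε₀ ∧
        ∀ b ∈ P.inertiaSubgroupIn ℚ,
          (ρ.ρ s₀ - ε₀ • (1 : Module.End T ρ.V)) * (ρ.ρ b - 1) = 0) :
    ρ.IsOrdinaryAt p := by
  intro P hP
  obtain ⟨s₀, hs₀, ε₀, hunit, htr, hX⟩ := h P hP
  exact h58o_ordinary_core ρ.finrank_eq ρ.ρ (P.inertiaSubgroupIn ℚ) (P.decompositionSubgroup ℚ)
    (fun d hd a ha => h58o_inertia_conj P hd ha) s₀ hs₀ ε₀ hunit htr hX

/-- **ALG33'** with the determinant instead of the trace. -/
theorem h58o_isOrdinaryAt_of_det {T : Type} [CommRing T] [IsLocalRing T] (ρ : GaloisRepAdic T)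
    (p : ℕ)
    (h : ∀ P : ValuationSubring (AlgebraicClosure ℚ), P.LiesOverPrime p →
      ∃ s₀ ∈ P.inertiaSubgroupIn ℚ, ∃ ε₀ : T, IsUnit (1 - ε₀) ∧
        LinearMap.det (ρ.ρ s₀) = ε₀ ∧
        ∀ b ∈ P.inertiaSubgroupIn ℚ,
          (ρ.ρ s₀ - ε₀ • (1 : Module.End T ρ.V)) * (ρ.ρ b - 1) = 0) :
    ρ.IsOrdinaryAt p := by
  refine h58o_isOrdinaryAt ρ p fun P hP => ?_
  obtain ⟨s₀, hs₀, ε₀, hunit, hdet, hX⟩ := h P hP
  refine ⟨s₀, hs₀, ε₀, hunit, ?_, hX⟩
  have hu : IsUnit (ρ.ρ s₀) :=
    ⟨⟨ρ.ρ s₀, ρ.ρ s₀⁻¹, by rw [← map_mul, mul_inv_cancel, map_one],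
      by rw [← map_mul, inv_mul_cancel, map_one]⟩, rfl⟩
  exact h58o_trace_of_det ρ.finrank_eq (ρ.ρ s₀) hu ε₀ hdet (hX s₀ hs₀)

end Fermat.Agent.P5
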