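import Fermat.Agent.P5.H58OrdAlg
import Fermat.Agent.S31.KerOfTrace

/-!
# S33 (ordinary at `p ∥ N`), pure algebra block ALG33', trace form (helper58)

For a residually absolutely irreducible `ρ : G_ℚ → GL₂(T)` the identity
`(ρ(s₀) - ε₀)(ρ(b) - 1) = 0` of `P5/H58OrdAlg.lean` is equivalent to the four-term trace identity

`tr ρ(s₀ b g) - tr ρ(s₀ g) - ε₀ tr ρ(b g) + ε₀ tr ρ(g) = 0` for all `g ∈ G_ℚ`

(Burnside + Nakayama + perfectness of the trace form: landed `Fermat.Agent.S31.KT_span_eq_top`,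
`KT_eq_zero_of_trace_mul_eq_zero`).

* `h58o_mono_of_trace` : the identity in `End_T(V)` from the trace identity.
* `h58o_isOrdinaryAt_of_trace` : `IsOrdinaryAt p` from: for every `P` over `p` an element `s₀` of
  the inertia group of `P` and `ε₀ ∈ T` with `1 - ε₀` a unit, `det ρ(s₀) = ε₀` and the four-term
  trace identity for all `b` in the inertia group and all `g`.
-/

set_option autoImplicit false

noncomputable section

namespace Fermat.Agent.P5

/-- the identity `(ρ(s₀) - ε₀)(ρ(b) - 1) = 0` from the four-term trace identity. -/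
theorem h58o_mono_of_trace {T : Type} [CommRing T] [IsLocalRing T] (ρ : GaloisRepAdic T)
    (habs : ρ.residual.IsAbsolutelyIrreducible)
    (s₀ b : AlgebraicClosure ℚ ≃ₐ[ℚ] AlgebraicClosure ℚ) (ε₀ : T)
    (h : ∀ g : AlgebraicClosure ℚ ≃ₐ[ℚ] AlgebraicClosure ℚ,
      LinearMap.trace T ρ.V (ρ.ρ (s₀ * b * g)) - LinearMap.trace T ρ.V (ρ.ρ (s₀ * g))
        - ε₀ * LinearMap.trace T ρ.V (ρ.ρ (b * g)) + ε₀ * LinearMap.trace T ρ.V (ρ.ρ g) = 0) :
    (ρ.ρ s₀ - ε₀ • (1 : Module.End T ρ.V)) * (ρ.ρ b - 1) = 0 := by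
  have hres := Fermat.Agent.S53.residual_span_range_eq_top ρ.residual habs
  have hE := Fermat.Agent.S31.KT_span_eq_top (fun g => ρ.ρ g) hres
  refine Fermat.Agent.S31.KT_eq_zero_of_trace_mul_eq_zero _ fun e => ?_
  have he : e ∈ Submodule.span T (Set.range fun g => ρ.ρ g) := by
    rw [hE]; exact Submodule.mem_top
  induction he using Submodule.span_induction with
  | mem x hx =>
    obtain ⟨g, rfl⟩ := hx
    have h1 : (ρ.ρ s₀ - ε₀ • (1 : Module.End T ρ.V)) * (ρ.ρ b - 1) * ρ.ρ g =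
        ρ.ρ (s₀ * b * g) - ρ.ρ (s₀ * g) - ε₀ • ρ.ρ (b * g) + ε₀ • ρ.ρ g := by
      rw [map_mul, map_mul, map_mul, map_mul, sub_mul, mul_sub, mul_sub, mul_one, smul_mul_assoc,
        one_mul, sub_mul, sub_mul, sub_mul, smul_mul_assoc, smul_mul_assoc]
      abel
    change LinearMap.trace T ρ.V ((ρ.ρ s₀ - ε₀ • (1 : Module.End T ρ.V)) * (ρ.ρ b - 1) * ρ.ρ g) = 0
    rw [h1, map_add, map_sub, map_sub, map_smul, map_smul, smul_eq_mul, smul_eq_mul]
    exact h g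
  | zero => rw [mul_zero, map_zero]
  | add x y _ _ hx hy => rw [mul_add, map_add, hx, hy, add_zero]
  | smul c x _ hx => rw [mul_smul_comm, map_smul, hx, smul_zero]

/-- **ALG33', trace form.** -/
theorem h58o_isOrdinaryAt_of_trace {T : Type} [CommRing T] [IsLocalRing T] (ρ : GaloisRepAdic T)
    (habs : ρ.residual.IsAbsolutelyIrreducible) (p : ℕ)
    (h : ∀ P : ValuationSubring (AlgebraicClosure ℚ), P.LiesOverPrime p →
      ∃ s₀ ∈ P.inertiaSubgroupIn ℚ, ∃ ε₀ : T, IsUnit (1 - ε₀) ∧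
        LinearMap.det (ρ.ρ s₀) = ε₀ ∧
        ∀ b ∈ P.inertiaSubgroupIn ℚ, ∀ g : AlgebraicClosure ℚ ≃ₐ[ℚ] AlgebraicClosure ℚ,
          LinearMap.trace T ρ.V (ρ.ρ (s₀ * b * g)) - LinearMap.trace T ρ.V (ρ.ρ (s₀ * g))
            - ε₀ * LinearMap.trace T ρ.V (ρ.ρ (b * g))
            + ε₀ * LinearMap.trace T ρ.V (ρ.ρ g) = 0) :
    ρ.IsOrdinaryAt p := by
  refine h58o_isOrdinaryAt_of_det ρ p fun P hP => ?_
  obtain ⟨s₀, hs₀, ε₀, hunit, hdet, hX⟩ := h P hP
  exact ⟨s₀, hs₀, ε₀, hunit, hdet, fun b hb => h58o_mono_of_trace ρ habs s₀ b ε₀ (hX b hb)⟩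

end Fermat.Agent.P5
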