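import Fermat.Agent.Red.ModelO.Bridge85
import Fermat.Agent.Red.ModelO.Mid
import Fermat.Agent.Red.GateGoodMain
import Fermat.Agent.Red.Nz.Defs

/-!
# P5 (S19), block GEO-RR, row GEO-GENUS (helper59): the Čech `H¹` of `𝒪(n D_∞)` over `A`

`B = modelFin M A`, `B∞ = modelInf M A`, `B[1/j] = h85modelMid M A` (`ℓ ∤ M`, `A` over `ℓ`).

* `h59c_vanish` : there is `N` such that for all `n ≥ N`: `B[1/j] = B + j ^ n B∞`
  (vanishing of `H¹(X, 𝒪(n D_∞))` over `A`; from the finite generation of `B` over `A[j]`, no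
  Nakayama, no special fibre input).
* `h59c_lift_cst` : for `n ≥ N`, `b ∈ B`, `c ∈ j ^ n B∞` with `b - c = π h`, `h ∈ B[1/j]`:
  there is `f ∈ B ∩ j ^ n B∞` with `f = b - π h₁ = c + π h₂`, `h₁ ∈ B`, `h₂ ∈ j ^ n B∞`.
* `h59c_small_factor` (good level): a Gauss-small element of `B[1/j]` is `π h'`, `π ∈ 𝔪_A`,
  `h' ∈ B[1/j]`.
* `h59c_lift` (good level): for `n ≥ N`, `b ∈ B`, `c ∈ j ^ n B∞` with `b - c` Gauss-small there
  is `f ∈ B ∩ j ^ n B∞` with `f - b` Gauss-small: every element of `L~(n D~_∞)` lifts to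
  `L(n D_∞)`.
-/

set_option autoImplicit false
set_option linter.unusedSectionVars false
set_option linter.unusedVariables false

open AlgebraicCurve ModularCurve IsLocalRing Polynomial

noncomputable section

namespace Fermat.Agent.P5

open Fermat.Agent.S37 Fermat.Agent.Red Fermat.Agent.Red.GG Fermat.Agent.Red.GV
  Fermat.Agent.Red.ModelO Fermat.Agent.Red.Nz

variable {M : ℕ} [NeZero M] (A : ValuationSubring Kbar)

/-- values of polynomials in `j` over `A` lie in the finite chart. -/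
theorem h59c_ev_mem_fin (p : Polynomial A) : h85ev M A (jB M) p ∈ modelFin M A := by
  induction p using Polynomial.induction_on' with
  | add p q hp hq =>
    rw [map_add]
    exact add_mem hp hq
  | monomial n a =>
    rw [← C_mul_X_pow_eq_monomial, map_mul, map_pow, h85ev_C, h85ev_X]
    exact mul_mem (h85_cst_mem_modelAt M A _ a.2) (pow_mem (h85_jB_mem_modelFin M A) n)

/-- a polynomial in `j` of degree `< k` divided by `j ^ k` lies in the chart at infinity. -/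
theorem h59c_ev_low_mem (k : ℕ) (r : Polynomial A) (hr : r.natDegree < k) :
    (jB M)⁻¹ ^ k * h85ev M A (jB M) r ∈ modelInf M A := by
  have h1 : h85ev M A (jB M) r = ∑ i ∈ Finset.range k, cst M ((r.coeff i : A) : Kbar) * jB M ^ i := by
    have h2 : h85ev M A (jB M) r = r.eval₂ (h85cstHom M A) (jB M) := rfl
    rw [h2, Polynomial.eval₂_eq_sum_range' _ hr]
    rfl
  rw [h1, Finset.mul_sum]
  refine sum_mem fun i hi => ?_
  have hik : i < k := Finset.mem_range.mp hi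
  have h3 : (jB M)⁻¹ ^ k * (cst M ((r.coeff i : A) : Kbar) * jB M ^ i) =
      cst M ((r.coeff i : A) : Kbar) * (jB M)⁻¹ ^ (k - i) := by
    have hj : jB M ≠ 0 := h85_jB_ne_zero M
    have h4 : (jB M)⁻¹ ^ k = (jB M)⁻¹ ^ (k - i) * (jB M)⁻¹ ^ i := by
      rw [← pow_add]
      congr 1
      omega
    rw [h4]
    have h5 : (jB M)⁻¹ ^ i * jB M ^ i = 1 := by
      rw [← mul_pow, inv_mul_cancel₀ hj, one_pow]
    calc (jB M)⁻¹ ^ (k - i) * (jB M)⁻¹ ^ i * (cst M ((r.coeff i : A) : Kbar) * jB M ^ i)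
        = cst M ((r.coeff i : A) : Kbar) * (jB M)⁻¹ ^ (k - i) * ((jB M)⁻¹ ^ i * jB M ^ i) := by
          ring
      _ = cst M ((r.coeff i : A) : Kbar) * (jB M)⁻¹ ^ (k - i) := by rw [h5, mul_one]
  rw [h3]
  exact mul_mem (h85_cst_mem_modelAt M A _ (r.coeff i).2)
    (pow_mem (h85_jB_inv_mem_modelInf M A) _)

/-- **vanishing of `H¹(𝒪(n D_∞))` over `A`**: `B[1/j] = B + j ^ n B∞` for `n ≥ N`. -/
theorem h59c_vanish {ℓ : ℕ} (hℓ : ℓ.Prime) (hℓM : ¬ ℓ ∣ M) (hA : A.LiesOverPrime ℓ) :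
    ∃ N : ℕ, ∀ n : ℕ, N ≤ n → ∀ y ∈ h85modelMid M A,
      ∃ b ∈ modelFin M A, ∃ c : FF M, (jB M)⁻¹ ^ n * c ∈ modelInf M A ∧ y = b + c := by
  classical
  obtain ⟨S, hSB, hS⟩ := h85_modelFin_fg hℓ hℓM hA
  have hN : ∀ s : FF M, ∃ N : ℕ, s ∈ S → (jB M)⁻¹ ^ N * s ∈ modelInf M A := by
    intro s
    by_cases hs : s ∈ S
    · obtain ⟨k, hk⟩ := h85_modelMid_scale_inf M A (h85_modelFin_le_modelMid M A (hSB s hs))
      exact ⟨k, fun _ => hk⟩
    · exact ⟨0, fun h => absurd h hs⟩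
  choose Nf hNf using hN
  refine ⟨S.sup Nf, fun n hn y hy => ?_⟩
  obtain ⟨k₀, hk₀⟩ := hy
  have hk : jB M ^ (k₀ + 1) * y ∈ modelFin M A := by
    rw [pow_succ', mul_assoc]
    exact mul_mem (h85_jB_mem_modelFin M A) hk₀
  obtain ⟨c, hc⟩ := hS _ hk
  have hj : jB M ≠ 0 := h85_jB_ne_zero M
  have hmonic : (X ^ (k₀ + 1) : Polynomial A).Monic := monic_X_pow (k₀ + 1)
  have hdeg : ∀ p : Polynomial A, (p %ₘ X ^ (k₀ + 1)).natDegree < k₀ + 1 := by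
    intro p
    have h1 := Polynomial.natDegree_modByMonic_lt p hmonic (by
      intro h
      have h2 := congrArg Polynomial.natDegree h
      rw [natDegree_X_pow, natDegree_one] at h2
      omega)
    rwa [natDegree_X_pow] at h1
  refine ⟨∑ s ∈ S, h85ev M A (jB M) (c s /ₘ X ^ (k₀ + 1)) * s, ?_,
    ∑ s ∈ S, ((jB M)⁻¹ ^ (k₀ + 1) * h85ev M A (jB M) (c s %ₘ X ^ (k₀ + 1))) * s, ?_, ?_⟩
  · exact sum_mem fun s hs => mul_mem (h59c_ev_mem_fin A _) (hSB s hs)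
  · rw [Finset.mul_sum]
    refine sum_mem fun s hs => ?_
    have hle : Nf s ≤ n := le_trans (Finset.le_sup hs) hn
    have h1 : (jB M)⁻¹ ^ n *
        ((jB M)⁻¹ ^ (k₀ + 1) * h85ev M A (jB M) (c s %ₘ X ^ (k₀ + 1)) * s) =
        ((jB M)⁻¹ ^ (k₀ + 1) * h85ev M A (jB M) (c s %ₘ X ^ (k₀ + 1))) *
          ((jB M)⁻¹ ^ (n - Nf s) * ((jB M)⁻¹ ^ Nf s * s)) := by
      have h2 : (jB M)⁻¹ ^ n = (jB M)⁻¹ ^ (n - Nf s) * (jB M)⁻¹ ^ Nf s := by
        rw [← pow_add]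
        congr 1
        omega
      rw [h2]
      ring
    rw [h1]
    exact mul_mem (h59c_ev_low_mem A (k₀ + 1) _ (hdeg _))
      (mul_mem (pow_mem (h85_jB_inv_mem_modelInf M A) _) (hNf s hs))
  · have hsplit : ∀ s, h85ev M A (jB M) (c s) =
        h85ev M A (jB M) (c s %ₘ X ^ (k₀ + 1))
          + jB M ^ (k₀ + 1) * h85ev M A (jB M) (c s /ₘ X ^ (k₀ + 1)) := by
      intro s
      have h1 := congrArg (h85ev M A (jB M)) (Polynomial.modByMonic_add_div (c s) (X ^ (k₀ + 1)))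
      rw [map_add, map_mul, map_pow, h85ev_X] at h1
      exact h1.symm
    have hinv : (jB M)⁻¹ ^ (k₀ + 1) * jB M ^ (k₀ + 1) = 1 := by
      rw [← mul_pow, inv_mul_cancel₀ hj, one_pow]
    have hy : y = (jB M)⁻¹ ^ (k₀ + 1) * (jB M ^ (k₀ + 1) * y) := by
      rw [← mul_assoc, hinv, one_mul]
    rw [hy, hc, Finset.mul_sum, ← Finset.sum_add_distrib]
    refine Finset.sum_congr rfl fun s _ => ?_
    rw [hsplit s]
    have h3 : (jB M)⁻¹ ^ (k₀ + 1) *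
        ((h85ev M A (jB M) (c s %ₘ X ^ (k₀ + 1))
          + jB M ^ (k₀ + 1) * h85ev M A (jB M) (c s /ₘ X ^ (k₀ + 1))) * s) =
        ((jB M)⁻¹ ^ (k₀ + 1) * jB M ^ (k₀ + 1)) * h85ev M A (jB M) (c s /ₘ X ^ (k₀ + 1)) * s
          + (jB M)⁻¹ ^ (k₀ + 1) * h85ev M A (jB M) (c s %ₘ X ^ (k₀ + 1)) * s := by ring
    rw [h3, hinv, one_mul]

/-- **lifting, constant form.** -/
theorem h59c_lift_cst {ℓ : ℕ} (hℓ : ℓ.Prime) (hℓM : ¬ ℓ ∣ M) (hA : A.LiesOverPrime ℓ) :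
    ∃ N : ℕ, ∀ n : ℕ, N ≤ n → ∀ b ∈ modelFin M A, ∀ c : FF M,
      (jB M)⁻¹ ^ n * c ∈ modelInf M A → ∀ π : Kbar, π ∈ A → ∀ h ∈ h85modelMid M A,
      b - c = cst M π * h →
      ∃ f ∈ modelFin M A, (jB M)⁻¹ ^ n * f ∈ modelInf M A ∧
        (∃ h₁ ∈ modelFin M A, f = b - cst M π * h₁) ∧
        (∃ h₂ : FF M, (jB M)⁻¹ ^ n * h₂ ∈ modelInf M A ∧ f = c + cst M π * h₂) := by
  obtain ⟨N, hN⟩ := h59c_vanish A hℓ hℓM hA
  refine ⟨N, fun n hn b hb c hc π hπ h hh hbc => ?_⟩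
  obtain ⟨h₁, hh₁, h₂, hh₂, hsum⟩ := hN n hn h hh
  have hπB : cst M π ∈ modelFin M A := h85_cst_mem_modelAt M A _ hπ
  have hπB' : cst M π ∈ modelInf M A := h85_cst_mem_modelAt M A _ hπ
  have hf : b - cst M π * h₁ = c + cst M π * h₂ := by
    have h1 : b - c = cst M π * (h₁ + h₂) := by rw [hbc, hsum]
    linear_combination h1
  refine ⟨b - cst M π * h₁, sub_mem hb (mul_mem hπB hh₁), ?_, ⟨h₁, hh₁, rfl⟩, ⟨h₂, hh₂, hf⟩⟩
  rw [hf, mul_add]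
  refine add_mem hc ?_
  have h2 : (jB M)⁻¹ ^ n * (cst M π * h₂) = cst M π * ((jB M)⁻¹ ^ n * h₂) := by ring
  rw [h2]
  exact mul_mem hπB' hh₂

/-! ## Gauss-small elements -/

theorem h59c_small_cst_mul {ℓ : ℕ} (hℓ : ℓ.Prime) (hℓM : ¬ ℓ ∣ M) (hA : A.LiesOverPrime ℓ)
    {π : Kbar} (hπ : π ∈ A.nonunits) {x : FF M} (hx : x ∈ gaussV A M) :
    GaussSmall A M (cst M π * x) := by
  have hπA : π ∈ A := A.nonunits_le hπ
  have hcV : cst M π ∈ gaussV A M := (cst_mem_gaussV_iff A M hA π).mpr hπA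
  refine ⟨mul_mem hcV hx, ?_⟩
  have h1 : (⟨cst M π * x, mul_mem hcV hx⟩ : gaussV A M) = ⟨cst M π, hcV⟩ * ⟨x, hx⟩ := rfl
  rw [h1, map_mul]
  have h2 : gaussR A M ⟨cst M π, hcV⟩ = 0 := by
    rw [gaussR_eq_zero_iff A M hℓ hℓM hA]
    by_cases h0 : π = 0
    · left
      show cst M π = 0
      rw [h0]
      exact map_zero _
    · right
      intro hinv
      have h3 : (cst M π)⁻¹ = cst M π⁻¹ := (map_inv₀ (algebraMap Kbar (FF M)) π).symm
      have h4 : cst M π⁻¹ ∈ gaussV A M := by rw [← h3]; exact hinv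
      have h5 : π⁻¹ ∈ A := (cst_mem_gaussV_iff A M hA π⁻¹).mp h4
      rcases (ValuationSubring.mem_nonunits_iff_or (A := A)).mp hπ with h6 | h6
      · exact h0 h6
      · exact h6 h5
  rw [h2, zero_mul]

/-- a Gauss-small element of `B[1/j]` is `π h'` with `π ∈ 𝔪_A`, `h' ∈ B[1/j]`. -/
theorem h59c_small_factor {ℓ : ℕ} (hℓ : ℓ.Prime) (hℓM : ¬ ℓ ∣ M) (hA : A.LiesOverPrime ℓ)
    {h : FF M} (hs : GaussSmall A M h) (hh : h ∈ h85modelMid M A) :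
    ∃ π : Kbar, π ∈ A.nonunits ∧ ∃ h' ∈ h85modelMid M A, h = cst M π * h' := by
  obtain ⟨hV, hred⟩ := hs
  obtain ⟨k, hk⟩ := hh
  have hjV : jB M ∈ gaussV A M := modelFin_le_gaussV A M hℓ hℓM hA (h85_jB_mem_modelFin M A)
  have hj : jB M ≠ 0 := h85_jB_ne_zero M
  have hxV : jB M ^ k * h ∈ gaussV A M := mul_mem (pow_mem hjV k) hV
  have hxred : gaussR A M ⟨jB M ^ k * h, hxV⟩ = 0 := by
    have h1 : (⟨jB M ^ k * h, hxV⟩ : gaussV A M) = ⟨jB M ^ k, pow_mem hjV k⟩ * ⟨h, hV⟩ := rfl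
    rw [h1, map_mul, hred, mul_zero]
  obtain ⟨c, x', hc0, hcn, hx', hxx'⟩ :=
    exists_eq_cst_mul_of_gaussR_eq_zero_fin A M hℓ hℓM hA ⟨jB M ^ k * h, hxV⟩ hk hxred
  refine ⟨c, hcn, (jB M)⁻¹ ^ k * x', ?_, ?_⟩
  · exact mul_mem (pow_mem (h85_jB_inv_mem_modelMid M A) k) (h85_modelFin_le_modelMid M A hx')
  · have hinv : (jB M)⁻¹ ^ k * jB M ^ k = 1 := by
      rw [← mul_pow, inv_mul_cancel₀ hj, one_pow]
    have h2 : jB M ^ k * h = cst M c * x' := hxx'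
    calc h = (jB M)⁻¹ ^ k * jB M ^ k * h := by rw [hinv, one_mul]
      _ = (jB M)⁻¹ ^ k * (jB M ^ k * h) := by ring
      _ = (jB M)⁻¹ ^ k * (cst M c * x') := by rw [h2]
      _ = cst M c * ((jB M)⁻¹ ^ k * x') := by ring

/-- **lifting**: for `n ≥ N`, `b ∈ B` and `c ∈ j ^ n B∞` with `b - c` Gauss-small there is
`f ∈ B ∩ j ^ n B∞` with `f - b` Gauss-small (and `f - c` Gauss-small). -/
theorem h59c_lift {ℓ : ℕ} (hℓ : ℓ.Prime) (hℓM : ¬ ℓ ∣ M) (hA : A.LiesOverPrime ℓ) :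
    ∃ N : ℕ, ∀ n : ℕ, N ≤ n → ∀ b ∈ modelFin M A, ∀ c : FF M,
      (jB M)⁻¹ ^ n * c ∈ modelInf M A → GaussSmall A M (b - c) →
      ∃ f ∈ modelFin M A, (jB M)⁻¹ ^ n * f ∈ modelInf M A ∧ GaussSmall A M (f - b) := by
  obtain ⟨N, hN⟩ := h59c_lift_cst A hℓ hℓM hA
  refine ⟨N, fun n hn b hb c hc hs => ?_⟩
  have hj : jB M ≠ 0 := h85_jB_ne_zero M
  have hcM : c ∈ h85modelMid M A := by
    have hinv : jB M ^ n * (jB M)⁻¹ ^ n = 1 := by
      rw [← mul_pow, mul_inv_cancel₀ hj, one_pow]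
    have h1 : c = jB M ^ n * ((jB M)⁻¹ ^ n * c) := by
      rw [← mul_assoc, hinv, one_mul]
    rw [h1]
    exact mul_mem (pow_mem (h85_modelFin_le_modelMid M A (h85_jB_mem_modelFin M A)) n)
      (h85_modelInf_le_modelMid M A hc)
  have hbcM : b - c ∈ h85modelMid M A := sub_mem (h85_modelFin_le_modelMid M A hb) hcM
  obtain ⟨π, hπ, h', hh', hfac⟩ := h59c_small_factor A hℓ hℓM hA hs hbcM
  obtain ⟨f, hf, hf', ⟨h₁, hh₁, hfb⟩, -⟩ := hN n hn b hb c hc π (A.nonunits_le hπ) h' hh' hfac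
  refine ⟨f, hf, hf', ?_⟩
  have hneg : cst M (-π) = -cst M π := map_neg (algebraMap Kbar (FF M)) π
  have h1 : f - b = cst M (-π) * h₁ := by
    rw [hfb, hneg]
    ring
  rw [h1]
  refine h59c_small_cst_mul A hℓ hℓM hA ?_ (modelFin_le_gaussV A M hℓ hℓM hA hh₁)
  have h2 : A.valuation (-π) < 1 := by
    rw [Valuation.map_neg]
    exact (ValuationSubring.mem_nonunits_iff (A := A)).mp hπ
  exact (ValuationSubring.mem_nonunits_iff (A := A)).mpr h2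

end Fermat.Agent.P5
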