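import Mathlib

/-!
# P5 (S19), block GEO-DISC (helper59): polynomial approximation on a residue disc, abstractly

`B` a commutative ring (a chart over the discrete valuation ring `A₀`), `c : R₀ →+* B` the
constants, `𝔰` a maximal ideal of `B` (a closed point of the special fibre) with rational residue
field (`hres`) and `𝔰 = (q₀, u)` locally (`hgen`), `J = (c q₀, u)`.

* `h59d_expand` : for all `m`, `b` there are `p : R₀[X]` and `t ∉ 𝔰` with
  `t * (b - p(u)) ∈ J ^ m` (finite Taylor expansion in the local parameter `u`, no section, no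
  henselian argument).
* `h59d_point`, `h59d_point_approx` : at every point `P : B →+* A` centred at `𝔰` (`A` local):
  `P b - p(P u) ∈ (ι q₀, P u) ^ m`, the same `p` for all points of the residue disc.
* `h59d_pair_dvd` : `u(P) - u(P')` divides `b(P) - b(P')` (`A` a rank one local domain);
  `h59d_pair_inj` : the coordinate `u` is injective on the residue disc.
* `h59d_pair_approx` : ONE polynomial `p` approximating the values modulo
  `(q₀, u(P)) ^ (m + 1)` and the divided differences modulo `(q₀, u(P), u(P')) ^ m`.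

Everything is pure commutative algebra (`import Mathlib` only); the chart must be taken over the
discrete valuation ring `A₀` (over `A` the ideal `𝔪_A` is idempotent and nothing converges).
-/

set_option autoImplicit false
set_option linter.unusedSectionVars false

open Polynomial IsLocalRing

namespace Fermat.Agent.P5

section Expand

variable {B R₀ : Type*} [CommRing B] [CommRing R₀] (c : R₀ →+* B) (𝔰 : Ideal B) (q₀ : R₀) (u : B)

/-- the first step: `b ≡ c a` modulo `𝔰`, and `𝔰 = J` locally. -/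
theorem h59d_expand_one
    (hres : ∀ b : B, ∃ a : R₀, b - c a ∈ 𝔰)
    (hgen : ∀ z ∈ 𝔰, ∃ t, t ∉ 𝔰 ∧ t * z ∈ Ideal.span {c q₀, u}) (b : B) :
    ∃ (p : R₀[X]) (t : B), t ∉ 𝔰 ∧ t * (b - p.eval₂ c u) ∈ Ideal.span {c q₀, u} ^ 1 := by
  obtain ⟨a, ha⟩ := hres b
  obtain ⟨t, ht, htz⟩ := hgen _ ha
  refine ⟨C a, t, ht, ?_⟩
  rw [pow_one, eval₂_C]
  exact htz

/-- the induction step. -/
theorem h59d_expand_step [h𝔰 : 𝔰.IsMaximal]
    (hres : ∀ b : B, ∃ a : R₀, b - c a ∈ 𝔰)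
    (hgen : ∀ z ∈ 𝔰, ∃ t, t ∉ 𝔰 ∧ t * z ∈ Ideal.span {c q₀, u}) (m : ℕ) (hm : 1 ≤ m)
    (ih : ∀ b : B, ∃ (p : R₀[X]) (t : B), t ∉ 𝔰 ∧
      t * (b - p.eval₂ c u) ∈ Ideal.span {c q₀, u} ^ m) (b : B) :
    ∃ (p : R₀[X]) (t : B), t ∉ 𝔰 ∧
      t * (b - p.eval₂ c u) ∈ Ideal.span {c q₀, u} ^ (m + 1) := by
  have h𝔰p : 𝔰.IsPrime := h𝔰.isPrime
  have hq : c q₀ ∈ Ideal.span {c q₀, u} := Ideal.subset_span (by simp)
  have hu : u ∈ Ideal.span {c q₀, u} := Ideal.subset_span (by simp)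
  have hJm : Ideal.span {c q₀, u} ^ m ≤ Ideal.span {c q₀, u} :=
    Ideal.pow_le_self (by omega)
  obtain ⟨a, ha⟩ := hres b
  obtain ⟨t₁, ht₁, ht₁z⟩ := hgen _ ha
  obtain ⟨x, y, hxy⟩ := Ideal.mem_span_pair.mp ht₁z
  obtain ⟨y', i, hi, hinv⟩ := h𝔰.exists_inv ht₁
  obtain ⟨a', ha'⟩ := hres y'
  have hw : 1 - t₁ * c a' ∈ 𝔰 := by
    have h1 : 1 - t₁ * c a' = t₁ * (y' - c a') + i := by linear_combination -hinv
    rw [h1]
    exact 𝔰.add_mem (𝔰.mul_mem_left _ ha') hi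
  obtain ⟨t₂, ht₂, ht₂w⟩ := hgen _ hw
  obtain ⟨px, tx, htx, hx⟩ := ih x
  obtain ⟨py, ty, hty, hy⟩ := ih y
  obtain ⟨pz, tz, htz, hz⟩ := ih (b - c a)
  obtain ⟨pw, tw, htw, hw'⟩ := ih (1 - t₁ * c a')
  have hpw : tw * t₂ * pw.eval₂ c u ∈ Ideal.span {c q₀, u} := by
    have h1 : tw * t₂ * pw.eval₂ c u =
        tw * (t₂ * (1 - t₁ * c a')) - t₂ * (tw * (1 - t₁ * c a' - pw.eval₂ c u)) := by ring
    rw [h1]
    exact Ideal.sub_mem _ (Ideal.mul_mem_left _ _ ht₂w) (Ideal.mul_mem_left _ _ (hJm hw'))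
  refine ⟨C a + C a' * (C q₀ * px + X * py) + pw * pz, tx * ty * tw * tz * t₁ * t₂, ?_, ?_⟩
  · intro h
    rcases h𝔰p.mem_or_mem h with h | h
    · rcases h𝔰p.mem_or_mem h with h | h
      · rcases h𝔰p.mem_or_mem h with h | h
        · rcases h𝔰p.mem_or_mem h with h | h
          · rcases h𝔰p.mem_or_mem h with h | h
            · exact htx h
            · exact hty h
          · exact htw h
        · exact htz h
      · exact ht₁ h
    · exact ht₂ h
  · have key : tx * ty * tw * tz * t₁ * t₂ *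
        (b - (C a + C a' * (C q₀ * px + X * py) + pw * pz).eval₂ c u) =
        (ty * tw * tz * t₁ * t₂ * c a') * ((tx * (x - px.eval₂ c u)) * c q₀)
        + (tx * tw * tz * t₁ * t₂ * c a') * ((ty * (y - py.eval₂ c u)) * u)
        + (tx * ty * tz * t₂) * ((tw * (1 - t₁ * c a' - pw.eval₂ c u)) * (t₁ * (b - c a)))
        + (tx * ty * t₁) * ((tz * (b - c a - pz.eval₂ c u)) * (tw * t₂ * pw.eval₂ c u)) := by
      simp only [eval₂_add, eval₂_mul, eval₂_C, eval₂_X]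
      linear_combination (-(tx * ty * tw * tz * t₁ * t₂ * c a')) * hxy
    rw [key, pow_succ]
    refine Ideal.add_mem _ (Ideal.add_mem _ (Ideal.add_mem _ ?_ ?_) ?_) ?_
    · exact Ideal.mul_mem_left _ _ (Ideal.mul_mem_mul hx hq)
    · exact Ideal.mul_mem_left _ _ (Ideal.mul_mem_mul hy hu)
    · exact Ideal.mul_mem_left _ _ (Ideal.mul_mem_mul hw' ht₁z)
    · exact Ideal.mul_mem_left _ _ (Ideal.mul_mem_mul hz hpw)

/-- **finite Taylor expansion in the local parameter `u`**: every `b` is a polynomial in `u`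
with constant coefficients modulo `J ^ m`, locally at `𝔰`. -/
theorem h59d_expand [h𝔰 : 𝔰.IsMaximal]
    (hres : ∀ b : B, ∃ a : R₀, b - c a ∈ 𝔰)
    (hgen : ∀ z ∈ 𝔰, ∃ t, t ∉ 𝔰 ∧ t * z ∈ Ideal.span {c q₀, u}) (m : ℕ) :
    ∀ b : B, ∃ (p : R₀[X]) (t : B), t ∉ 𝔰 ∧
      t * (b - p.eval₂ c u) ∈ Ideal.span {c q₀, u} ^ m := by
  rcases Nat.eq_zero_or_pos m with h0 | hpos
  · intro b
    refine ⟨0, 1, (Ideal.ne_top_iff_one 𝔰).mp h𝔰.ne_top, ?_⟩
    rw [h0, pow_zero, Ideal.one_eq_top]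
    exact Submodule.mem_top
  · induction m, hpos using Nat.le_induction with
    | base => exact h59d_expand_one c 𝔰 q₀ u hres hgen
    | succ n hn ih => exact h59d_expand_step c 𝔰 q₀ u hres hgen n hn ih

end Expand

/-! ## Points of the residue disc -/

section Points

variable {B R₀ A : Type*} [CommRing B] [CommRing R₀] [CommRing A] [IsLocalRing A]
  (c : R₀ →+* B) (ι : R₀ →+* A) (𝔰 : Ideal B) (q₀ : R₀) (u : B)

/-- a point of the residue disc of `𝔰`: a ring homomorphism `B → A` which is the given map on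
the constants and maps `𝔰` into the maximal ideal. -/
def H59dPoint (P : B →+* A) : Prop :=
  (∀ a : R₀, P (c a) = ι a) ∧ ∀ z ∈ 𝔰, P z ∈ maximalIdeal A

variable {c ι 𝔰}

theorem h59d_isUnit [h𝔰 : 𝔰.IsMaximal] {P : B →+* A} (hP : H59dPoint c ι 𝔰 P) {t : B}
    (ht : t ∉ 𝔰) : IsUnit (P t) := by
  obtain ⟨y, i, hi, hinv⟩ := h𝔰.exists_inv ht
  have h1 : P y * P t = 1 - P i := by
    rw [← map_mul, eq_sub_iff_add_eq, ← map_add, hinv, map_one]
  have h2 : IsUnit (1 - P i) := by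
    have h3 := hP.2 i hi
    rw [mem_maximalIdeal, mem_nonunits_iff] at h3
    rcases IsLocalRing.isUnit_or_isUnit_of_add_one (a := P i) (b := 1 - P i) (by ring) with h | h
    · exact absurd h h3
    · exact h
  rw [← h1] at h2
  exact isUnit_of_mul_isUnit_right h2

theorem h59d_eval {P : B →+* A} (hP : H59dPoint c ι 𝔰 P) (p : R₀[X]) :
    P (p.eval₂ c u) = p.eval₂ ι (P u) := by
  rw [Polynomial.hom_eval₂]
  congr 1
  exact RingHom.ext hP.1

theorem h59d_map_mem {P : B →+* A} (hP : H59dPoint c ι 𝔰 P) {m : ℕ} {x : B}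
    (hx : x ∈ Ideal.span {c q₀, u} ^ m) : P x ∈ Ideal.span {ι q₀, P u} ^ m := by
  have h1 := Ideal.mem_map_of_mem P hx
  rw [Ideal.map_pow, Ideal.map_span, Set.image_pair, hP.1] at h1
  exact h1

/-- the value of `b` at a point of the residue disc is approximated by the value of the
polynomial. -/
theorem h59d_point [h𝔰 : 𝔰.IsMaximal] {P : B →+* A} (hP : H59dPoint c ι 𝔰 P) {m : ℕ} {b t : B}
    {p : R₀[X]} (ht : t ∉ 𝔰) (h : t * (b - p.eval₂ c u) ∈ Ideal.span {c q₀, u} ^ m) :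
    P b - p.eval₂ ι (P u) ∈ Ideal.span {ι q₀, P u} ^ m := by
  have h1 := h59d_map_mem q₀ u hP h
  rw [map_mul, map_sub, h59d_eval u hP] at h1
  exact (Ideal.unit_mul_mem_iff_mem _ (h59d_isUnit hP ht)).mp h1

variable (c ι 𝔰)

/-- **uniform polynomial approximation on the residue disc.** -/
theorem h59d_point_approx [h𝔰 : 𝔰.IsMaximal]
    (hres : ∀ b : B, ∃ a : R₀, b - c a ∈ 𝔰)
    (hgen : ∀ z ∈ 𝔰, ∃ t, t ∉ 𝔰 ∧ t * z ∈ Ideal.span {c q₀, u}) (m : ℕ) (b : B) :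
    ∃ p : R₀[X], ∀ P : B →+* A, H59dPoint c ι 𝔰 P →
      P b - p.eval₂ ι (P u) ∈ Ideal.span {ι q₀, P u} ^ m := by
  obtain ⟨p, t, ht, h⟩ := h59d_expand c 𝔰 q₀ u hres hgen m b
  exact ⟨p, fun P hP => h59d_point q₀ u hP ht h⟩

end Points

/-! ## Two points of the same residue disc -/

section TwoPoints

variable {B R₀ A : Type*} [CommRing B] [CommRing R₀] [CommRing A] [IsLocalRing A]
  {c : R₀ →+* B} {ι : R₀ →+* A} {𝔰 : Ideal B} (q₀ : R₀) (u : B)
  {P P' : B →+* A}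

theorem h59d_span_le_left :
    Ideal.span {ι q₀, P u} ≤ Ideal.span {ι q₀, P u, P' u} :=
  Ideal.span_mono (by
    intro x hx
    rcases hx with hx | hx
    · exact Or.inl hx
    · exact Or.inr (Or.inl hx))

theorem h59d_span_le_right :
    Ideal.span {ι q₀, P' u} ≤ Ideal.span {ι q₀, P u, P' u} :=
  Ideal.span_mono (by
    intro x hx
    rcases hx with hx | hx
    · exact Or.inl hx
    · exact Or.inr (Or.inr hx))

/-- the difference of the values of a generator of `J`. -/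
theorem h59d_pair_gen (hP : H59dPoint c ι 𝔰 P) (hP' : H59dPoint c ι 𝔰 P') (Δ : Ideal A)
    (hΔ : ∀ b : B, P b - P' b ∈ Δ) {g : B} (hg : g ∈ Ideal.span {c q₀, u}) :
    P g - P' g ∈ Ideal.span {P u - P' u} ⊔ Ideal.span {ι q₀, P u, P' u} * Δ := by
  obtain ⟨α, β, rfl⟩ := Ideal.mem_span_pair.mp hg
  have hq : ι q₀ ∈ Ideal.span {ι q₀, P u, P' u} := Ideal.subset_span (by simp)
  have hu : P u ∈ Ideal.span {ι q₀, P u, P' u} := Ideal.subset_span (by simp)
  have h1 : P (α * c q₀ + β * u) - P' (α * c q₀ + β * u) =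
      P' β * (P u - P' u) + (ι q₀ * (P α - P' α) + P u * (P β - P' β)) := by
    simp only [map_add, map_mul, hP.1, hP'.1]
    ring
  rw [h1]
  refine Ideal.add_mem _ (Ideal.mem_sup_left
    (Ideal.mul_mem_left _ _ (Ideal.mem_span_singleton_self _))) (Ideal.mem_sup_right ?_)
  exact Ideal.add_mem _ (Ideal.mul_mem_mul hq (hΔ α)) (Ideal.mul_mem_mul hu (hΔ β))

/-- the difference of the values of an element of `J ^ (m + 1)`. -/
theorem h59d_pair_pow (hP : H59dPoint c ι 𝔰 P) (hP' : H59dPoint c ι 𝔰 P') (Δ : Ideal A)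
    (hΔ : ∀ b : B, P b - P' b ∈ Δ) (m : ℕ) :
    ∀ x ∈ Ideal.span {c q₀, u} ^ (m + 1),
      P x - P' x ∈ Ideal.span {P u - P' u} * Ideal.span {ι q₀, P u, P' u} ^ m
        ⊔ Ideal.span {ι q₀, P u, P' u} ^ (m + 1) * Δ := by
  induction m with
  | zero =>
    intro x hx
    rw [zero_add, pow_one] at hx
    have h := h59d_pair_gen q₀ u hP hP' Δ hΔ hx
    rw [pow_zero, Ideal.one_eq_top, Ideal.mul_top, zero_add, pow_one]
    exact h
  | succ m ih =>
    intro x hx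
    rw [pow_succ] at hx
    refine Submodule.mul_induction_on hx (fun y hy g hg => ?_) (fun x y hx hy => ?_)
    · have h1 : P (y * g) - P' (y * g) = P y * (P g - P' g) + (P y - P' y) * P' g := by
        simp only [map_mul]
        ring
      rw [h1]
      have hPy : P y ∈ Ideal.span {ι q₀, P u, P' u} ^ (m + 1) :=
        Ideal.pow_right_mono (h59d_span_le_left q₀ u) _ (h59d_map_mem q₀ u hP hy)
      have hP'g : P' g ∈ Ideal.span {ι q₀, P u, P' u} := by
        have h2 := h59d_map_mem q₀ u hP' (m := 1) (by rw [pow_one]; exact hg)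
        rw [pow_one] at h2
        exact h59d_span_le_right q₀ u h2
      have hδg := h59d_pair_gen q₀ u hP hP' Δ hΔ hg
      have hδy := ih y hy
      refine Ideal.add_mem _ ?_ ?_
      · obtain ⟨g₁, hg₁, g₂, hg₂, hgg⟩ := Submodule.mem_sup.mp hδg
        rw [← hgg, mul_add]
        refine Ideal.add_mem _ (Ideal.mem_sup_left ?_) (Ideal.mem_sup_right ?_)
        · exact Ideal.mul_mem_mul_rev hg₁ hPy
        · have h3 := Ideal.mul_mem_mul hPy hg₂
          rw [← mul_assoc, ← pow_succ] at h3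
          exact h3
      · obtain ⟨y₁, hy₁, y₂, hy₂, hyy⟩ := Submodule.mem_sup.mp hδy
        rw [← hyy, add_mul]
        refine Ideal.add_mem _ (Ideal.mem_sup_left ?_) (Ideal.mem_sup_right ?_)
        · have h3 := Ideal.mul_mem_mul hy₁ hP'g
          rw [mul_assoc, ← pow_succ] at h3
          exact h3
        · have h3 := Ideal.mul_mem_mul hy₂ hP'g
          rw [mul_assoc, mul_comm Δ, ← mul_assoc, ← pow_succ] at h3
          exact h3
    · have h1 : P (x + y) - P' (x + y) = (P x - P' x) + (P y - P' y) := by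
        simp only [map_add]
        ring
      rw [h1]
      exact Ideal.add_mem _ hx hy

theorem h59d_eval_sub (p : R₀[X]) (x y : A) :
    p.eval₂ ι x - p.eval₂ ι y ∈ Ideal.span {x - y} := by
  rw [Ideal.mem_span_singleton, ← Polynomial.eval_map, ← Polynomial.eval_map]
  exact Polynomial.sub_dvd_eval_sub x y _

/-- rank one: a power of an ideal generated by three elements of the maximal ideal is
contained in a given nonzero principal ideal. -/
theorem h59d_arch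
    (harch : ∀ x ∈ maximalIdeal A, x ≠ 0 → ∀ a : A, a ≠ 0 → ∃ k : ℕ, a ∣ x ^ k)
    {x₁ x₂ x₃ : A} (h₁ : x₁ ∈ maximalIdeal A) (h₂ : x₂ ∈ maximalIdeal A)
    (h₃ : x₃ ∈ maximalIdeal A) {a : A} (ha : a ≠ 0) :
    ∃ n : ℕ, Ideal.span {x₁, x₂, x₃} ^ n ≤ Ideal.span {a} := by
  have hone : ∀ x ∈ maximalIdeal A, ∃ k : ℕ, Ideal.span {x} ^ k ≤ Ideal.span {a} := by
    intro x hx
    by_cases hx0 : x = 0
    · refine ⟨1, ?_⟩
      rw [pow_one, hx0, Ideal.span_singleton_le_span_singleton]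
      exact dvd_zero a
    · obtain ⟨k, hk⟩ := harch x hx hx0 a ha
      refine ⟨k, ?_⟩
      rw [Ideal.span_singleton_pow, Ideal.span_singleton_le_span_singleton]
      exact hk
  obtain ⟨k₁, hk₁⟩ := hone x₁ h₁
  obtain ⟨k₂, hk₂⟩ := hone x₂ h₂
  obtain ⟨k₃, hk₃⟩ := hone x₃ h₃
  refine ⟨k₁ + (k₂ + k₃), ?_⟩
  rw [Ideal.span_insert, Ideal.span_insert]
  refine le_trans Ideal.sup_pow_add_le_pow_sup_pow (sup_le hk₁ ?_)
  exact le_trans Ideal.sup_pow_add_le_pow_sup_pow (sup_le hk₂ hk₃)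

variable [h𝔰 : 𝔰.IsMaximal]

/-- the difference of the values of `b` at two points of the disc, first estimate. -/
theorem h59d_pair_pre (hP : H59dPoint c ι 𝔰 P) (hP' : H59dPoint c ι 𝔰 P')
    (hres : ∀ b : B, ∃ a : R₀, b - c a ∈ 𝔰)
    (hgen : ∀ z ∈ 𝔰, ∃ t, t ∉ 𝔰 ∧ t * z ∈ Ideal.span {c q₀, u}) (n : ℕ) (b : B) :
    P b - P' b ∈ Ideal.span {P u - P' u} ⊔ Ideal.span {ι q₀, P u, P' u} ^ (n + 1) := by
  obtain ⟨p, t, ht, h⟩ := h59d_expand c 𝔰 q₀ u hres hgen (n + 1) b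
  have hδx := h59d_pair_pow q₀ u hP hP' ⊤ (fun _ => Submodule.mem_top) n _ h
  have hδx' : P (t * (b - p.eval₂ c u)) - P' (t * (b - p.eval₂ c u)) ∈
      Ideal.span {P u - P' u} ⊔ Ideal.span {ι q₀, P u, P' u} ^ (n + 1) := by
    have hle : Ideal.span {P u - P' u} * Ideal.span {ι q₀, P u, P' u} ^ n
        ⊔ Ideal.span {ι q₀, P u, P' u} ^ (n + 1) * ⊤ ≤
        Ideal.span {P u - P' u} ⊔ Ideal.span {ι q₀, P u, P' u} ^ (n + 1) :=
      sup_le_sup Ideal.mul_le_left Ideal.mul_le_left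
    exact hle hδx
  have hP'y : P' b - p.eval₂ ι (P' u) ∈ Ideal.span {ι q₀, P u, P' u} ^ (n + 1) :=
    Ideal.pow_right_mono (h59d_span_le_right q₀ u) _ (h59d_point q₀ u hP' ht h)
  have h1 : P t * ((P b - P' b) - (p.eval₂ ι (P u) - p.eval₂ ι (P' u))) =
      (P (t * (b - p.eval₂ c u)) - P' (t * (b - p.eval₂ c u)))
        - (P t - P' t) * (P' b - p.eval₂ ι (P' u)) := by
    simp only [map_mul, map_sub, h59d_eval u hP, h59d_eval u hP']
    ring
  have h2 : P t * ((P b - P' b) - (p.eval₂ ι (P u) - p.eval₂ ι (P' u))) ∈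
      Ideal.span {P u - P' u} ⊔ Ideal.span {ι q₀, P u, P' u} ^ (n + 1) := by
    rw [h1]
    exact Ideal.sub_mem _ hδx' (Ideal.mem_sup_right (Ideal.mul_mem_left _ _ hP'y))
  have h3 := (Ideal.unit_mul_mem_iff_mem _ (h59d_isUnit hP ht)).mp h2
  have h4 : P b - P' b = ((P b - P' b) - (p.eval₂ ι (P u) - p.eval₂ ι (P' u)))
      + (p.eval₂ ι (P u) - p.eval₂ ι (P' u)) := by ring
  rw [h4]
  exact Ideal.add_mem _ h3 (Ideal.mem_sup_left (h59d_eval_sub p _ _))

/-- **divided differences are integral**: `u(P) - u(P')` divides `b(P) - b(P')`. -/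
theorem h59d_pair_dvd [IsDomain A]
    (harch : ∀ x ∈ maximalIdeal A, x ≠ 0 → ∀ a : A, a ≠ 0 → ∃ k : ℕ, a ∣ x ^ k)
    (hP : H59dPoint c ι 𝔰 P) (hP' : H59dPoint c ι 𝔰 P')
    (hres : ∀ b : B, ∃ a : R₀, b - c a ∈ 𝔰)
    (hgen : ∀ z ∈ 𝔰, ∃ t, t ∉ 𝔰 ∧ t * z ∈ Ideal.span {c q₀, u})
    (hq𝔰 : c q₀ ∈ 𝔰) (hu𝔰 : u ∈ 𝔰) (hq0 : ι q₀ ≠ 0) (b : B) :
    P b - P' b ∈ Ideal.span {P u - P' u} := by
  have hqm : ι q₀ ∈ maximalIdeal A := by
    have := hP.2 _ hq𝔰
    rwa [hP.1] at this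
  have hum : P u ∈ maximalIdeal A := hP.2 _ hu𝔰
  have hum' : P' u ∈ maximalIdeal A := hP'.2 _ hu𝔰
  have hkey : ∀ a : A, a ≠ 0 → Ideal.span {P u - P' u} ≤ Ideal.span {a} →
      P b - P' b ∈ Ideal.span {a} := by
    intro a ha hle
    obtain ⟨n, hn⟩ := h59d_arch harch hqm hum hum' ha
    have h1 := h59d_pair_pre q₀ u hP hP' hres hgen n b
    have hle2 : Ideal.span {P u - P' u} ⊔ Ideal.span {ι q₀, P u, P' u} ^ (n + 1) ≤
        Ideal.span {a} :=
      sup_le hle (le_trans (Ideal.pow_le_pow_right (Nat.le_succ n)) hn)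
    exact hle2 h1
  by_cases hd : P u - P' u = 0
  · by_cases he : P b - P' b = 0
    · rw [he]
      exact Ideal.zero_mem _
    · exfalso
      have h1 := hkey ((P b - P' b) * ι q₀) (mul_ne_zero he hq0) (by
        rw [hd, Ideal.span_singleton_le_span_singleton]
        exact dvd_zero _)
      obtain ⟨r, hr⟩ := Ideal.mem_span_singleton.mp h1
      have h2 : (P b - P' b) * (1 - ι q₀ * r) = 0 := by linear_combination hr
      have h3 : IsUnit (1 - ι q₀ * r) := by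
        have h4 : ι q₀ * r ∈ maximalIdeal A := Ideal.mul_mem_right _ _ hqm
        rw [mem_maximalIdeal, mem_nonunits_iff] at h4
        rcases IsLocalRing.isUnit_or_isUnit_of_add_one (a := ι q₀ * r) (b := 1 - ι q₀ * r)
          (by ring) with h | h
        · exact absurd h h4
        · exact h
      exact he ((h3.mul_left_eq_zero).mp h2)
  · exact hkey _ hd le_rfl

/-- **the coordinate `u` is injective on the residue disc.** -/
theorem h59d_pair_inj [IsDomain A]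
    (harch : ∀ x ∈ maximalIdeal A, x ≠ 0 → ∀ a : A, a ≠ 0 → ∃ k : ℕ, a ∣ x ^ k)
    (hP : H59dPoint c ι 𝔰 P) (hP' : H59dPoint c ι 𝔰 P')
    (hres : ∀ b : B, ∃ a : R₀, b - c a ∈ 𝔰)
    (hgen : ∀ z ∈ 𝔰, ∃ t, t ∉ 𝔰 ∧ t * z ∈ Ideal.span {c q₀, u})
    (hq𝔰 : c q₀ ∈ 𝔰) (hu𝔰 : u ∈ 𝔰) (hq0 : ι q₀ ≠ 0) (huu : P u = P' u) : P = P' := by
  refine RingHom.ext fun b => ?_
  have h := h59d_pair_dvd q₀ u harch hP hP' hres hgen hq𝔰 hu𝔰 hq0 b
  rw [huu, sub_self, Ideal.span_singleton_eq_bot.mpr rfl, Ideal.mem_bot] at h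
  exact sub_eq_zero.mp h

end TwoPoints

/-! ## The uniform statement -/

section Uniform

variable {B R₀ A : Type*} [CommRing B] [CommRing R₀] [CommRing A] [IsLocalRing A] [IsDomain A]
  (c : R₀ →+* B) (ι : R₀ →+* A) (𝔰 : Ideal B) [h𝔰 : 𝔰.IsMaximal] (q₀ : R₀) (u : B)

/-- **uniform approximation of the values and of the divided differences on the residue disc**:
for every `b` and `m` there is ONE polynomial `p` over the constants with
`b(P) ≡ p(u(P))` modulo `(q₀, u(P)) ^ (m + 1)` for every point `P` of the disc and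
`(b(P) - b(P')) - (p(u(P)) - p(u(P'))) ∈ (u(P) - u(P')) (q₀, u(P), u(P')) ^ m` for every pair of
points of the disc. -/
theorem h59d_pair_approx
    (harch : ∀ x ∈ maximalIdeal A, x ≠ 0 → ∀ a : A, a ≠ 0 → ∃ k : ℕ, a ∣ x ^ k)
    (hres : ∀ b : B, ∃ a : R₀, b - c a ∈ 𝔰)
    (hgen : ∀ z ∈ 𝔰, ∃ t, t ∉ 𝔰 ∧ t * z ∈ Ideal.span {c q₀, u})
    (hq𝔰 : c q₀ ∈ 𝔰) (hu𝔰 : u ∈ 𝔰) (hq0 : ι q₀ ≠ 0) (m : ℕ) (b : B) :
    ∃ p : R₀[X],
      (∀ P : B →+* A, H59dPoint c ι 𝔰 P →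
        P b - p.eval₂ ι (P u) ∈ Ideal.span {ι q₀, P u} ^ (m + 1)) ∧
      (∀ P P' : B →+* A, H59dPoint c ι 𝔰 P → H59dPoint c ι 𝔰 P' →
        (P b - P' b) - (p.eval₂ ι (P u) - p.eval₂ ι (P' u)) ∈
          Ideal.span {P u - P' u} * Ideal.span {ι q₀, P u, P' u} ^ m) := by
  obtain ⟨p, t, ht, h⟩ := h59d_expand c 𝔰 q₀ u hres hgen (m + 1) b
  refine ⟨p, fun P hP => h59d_point q₀ u hP ht h, fun P P' hP hP' => ?_⟩
  have hΔ : ∀ b : B, P b - P' b ∈ Ideal.span {P u - P' u} :=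
    h59d_pair_dvd q₀ u harch hP hP' hres hgen hq𝔰 hu𝔰 hq0
  have hδx := h59d_pair_pow q₀ u hP hP' _ hΔ m _ h
  have hle : Ideal.span {P u - P' u} * Ideal.span {ι q₀, P u, P' u} ^ m
      ⊔ Ideal.span {ι q₀, P u, P' u} ^ (m + 1) * Ideal.span {P u - P' u} ≤
      Ideal.span {P u - P' u} * Ideal.span {ι q₀, P u, P' u} ^ m := by
    refine sup_le le_rfl ?_
    rw [mul_comm]
    exact Ideal.mul_mono_right (Ideal.pow_le_pow_right (Nat.le_succ m))
  have hδx' := hle hδx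
  have hP'y : P' b - p.eval₂ ι (P' u) ∈ Ideal.span {ι q₀, P u, P' u} ^ m :=
    Ideal.pow_le_pow_right (Nat.le_succ m)
      (Ideal.pow_right_mono (h59d_span_le_right q₀ u) _ (h59d_point q₀ u hP' ht h))
  have h1 : P t * ((P b - P' b) - (p.eval₂ ι (P u) - p.eval₂ ι (P' u))) =
      (P (t * (b - p.eval₂ c u)) - P' (t * (b - p.eval₂ c u)))
        - (P t - P' t) * (P' b - p.eval₂ ι (P' u)) := by
    simp only [map_mul, map_sub, h59d_eval u hP, h59d_eval u hP']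
    ring
  have h2 : P t * ((P b - P' b) - (p.eval₂ ι (P u) - p.eval₂ ι (P' u))) ∈
      Ideal.span {P u - P' u} * Ideal.span {ι q₀, P u, P' u} ^ m := by
    rw [h1]
    exact Ideal.sub_mem _ hδx' (Ideal.mul_mem_mul (hΔ t) hP'y)
  exact (Ideal.unit_mul_mem_iff_mem _ (h59d_isUnit hP ht)).mp h2

end Uniform

end Fermat.Agent.P5
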