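import Fermat.Agent.P5.H56GeoAsm
import Fermat.Agent.Red.MatchLoc
import Fermat.Agent.Red.GV.BarGalois
import Fermat.Agent.S24.DiffPlace

/-!
# P5 (wave 5, S19), leaf INF-FIN of GEO-ASM (helper59)

`h59i_infFin : H56gInfFin` (the frozen Prop of `P5/H56GeoAsm.lean`), UNCONDITIONAL: for a
reduction map of places `r` (`H13sIsRed A M r`) the reductions of the places which are not
finite at `A` lie in a finite set, namely the image under `r` of the support of the divisor of
`1/j` on the generic fibre.

Proof: at a non-finite place `v` the function `1/j` takes a value `b ∈ 𝔪_A`; the function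
`f = 1/j - b` is a Gauss unit with the same reduction as `1/j`, it vanishes at `v` and is
regular at every place with the same reduction as `v` (these are non-finite).  By the
reduction of principal divisors the order of `(1/j)~` at `r v` is positive, hence some place
of the fibre of `r v` lies in the support of the divisor of `1/j`.
-/

set_option autoImplicit false
set_option linter.unusedSectionVars false
set_option linter.unusedVariables false
set_option linter.style.longLine false

open AlgebraicCurve ModularCurve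

noncomputable section

namespace Fermat.Agent.P5

open Fermat.Agent.S37 Fermat.Agent.Red.GV

/-- a nonzero function of the maximal ideal of a place has positive order. -/
theorem h59i_ord_pos {K F : Type*} [Field K] [Field F] [Algebra K F]
    (v : Place K F) {x : F} (hx0 : x ≠ 0) (hx : x ∈ v.toValuationSubring.nonunits) :
    0 < v.ord x := by
  obtain ⟨hxm, hmax⟩ := ValuationSubring.mem_nonunits_iff_exists_mem_maximalIdeal.mp hx
  have h0 : 0 ≤ v.ord x := (Fermat.Agent.S24.DiffPlace.ord_nonneg_iff_mem v).mpr hxm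
  rcases h0.lt_or_eq with h | h
  · exact h
  · exfalso
    have hz0 : (⟨x, hxm⟩ : v.toValuationSubring) ≠ 0 := fun h' => hx0 (congrArg Subtype.val h')
    have hu := Fermat.Agent.S24.DiffPlace.isUnit_of_ord_eq_zero v hz0 h.symm
    exact (IsLocalRing.mem_maximalIdeal _).mp hmax hu

open scoped Classical in
/-- the value of a push-forward divisor at a place, as a sum over the support. -/
theorem h59i_push_apply {A : ValuationSubring Kbar} {M : ℕ}
    (r : Place Kbar (FF M) → Place (h13sK A) (h13sFt A M)) (D : Divisor Kbar (FF M))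
    (Q : Place (h13sK A) (h13sFt A M)) :
    h13sPush r D Q = ∑ w ∈ D.support, if r w = Q then D w else 0 := by
  classical
  unfold h13sPush
  rw [Finsupp.mapDomain, Finsupp.sum, Finsupp.finsetSum_apply]
  refine Finset.sum_congr rfl fun w _ => ?_
  rw [Finsupp.single_apply]

open scoped Classical in
/-- a push-forward divisor is supported in the image of the support. -/
theorem h59i_push_ne_zero {A : ValuationSubring Kbar} {M : ℕ}
    (r : Place Kbar (FF M) → Place (h13sK A) (h13sFt A M)) (D : Divisor Kbar (FF M))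
    (Q : Place (h13sK A) (h13sFt A M)) (h : h13sPush r D Q ≠ 0) :
    Q ∈ D.support.image r := by
  classical
  rw [h59i_push_apply] at h
  obtain ⟨w, hw, hne⟩ := Finset.exists_ne_zero_of_sum_ne_zero h
  have hrw : r w = Q := by
    by_contra hc
    exact hne (if_neg hc)
  exact Finset.mem_image.2 ⟨w, hw, hrw⟩

/-- **INF-FIN**: the reductions of the non-finite places lie in a finite set. -/
theorem h59i_infFin : H56gInfFin := by
  intro ℓ hℓ M _ hℓM haux A hA r hr
  classical
  have hPD := Fermat.Agent.Red.HKMod.hasPrincipalDivisors_FF M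
  have hjV : jB M ∈ gaussV A M := jB_mem_gaussV A M
  have hiV : (jB M)⁻¹ ∈ gaussV A M := jB_inv_mem_gaussV A M hℓ hℓM hA
  have hj0 : jB M ≠ 0 := by
    intro h0
    have h1 := (gaussR_eq_zero_iff A M hℓ hℓM hA ⟨(jB M)⁻¹, hiV⟩)
    have h2 : gaussR A M ⟨jB M, hjV⟩ = 0 := by
      have : (⟨jB M, hjV⟩ : gaussV A M) = 0 := Subtype.ext h0
      rw [this, map_zero]
    rw [gaussR_jB A M] at h2
    exact jqModC_ne_zero_of_nontrivial _ h2
  have hi0 : (jB M)⁻¹ ≠ 0 := inv_ne_zero hj0
  obtain ⟨D, hD, -⟩ := HasPrincipalDivisors.exists_divisor (K := Kbar) ((jB M)⁻¹) hi0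
  refine ⟨D.support.image r, fun v hv => ?_⟩
  obtain ⟨b, hb, hbv⟩ := Fermat.Agent.Red.Match.exists_valueAt_inv_of_not_isFinAt hv
  have hbA : b ∈ A := ValuationSubring.nonunits_subset hb
  have hcV : cst M b ∈ gaussV A M := (cst_mem_gaussV_iff A M hA b).2 hbA
  have hfV : (jB M)⁻¹ - cst M b ∈ gaussV A M := sub_mem hiV hcV
  -- the reduction of `f` is the reduction of `1/j`
  have hred : gaussR A M ⟨(jB M)⁻¹ - cst M b, hfV⟩ = gaussR A M ⟨(jB M)⁻¹, hiV⟩ := by
    have h1 : (⟨(jB M)⁻¹ - cst M b, hfV⟩ : gaussV A M) =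
        ⟨(jB M)⁻¹, hiV⟩ - ⟨cst M b, hcV⟩ := rfl
    rw [h1, map_sub, gaussR_cst_of_nonunit A M hA b hb hcV, sub_zero]
  have hredne : gaussR A M ⟨(jB M)⁻¹, hiV⟩ ≠ 0 := by
    intro h0
    rcases (gaussR_eq_zero_iff A M hℓ hℓM hA ⟨(jB M)⁻¹, hiV⟩).1 h0 with h | h
    · exact hi0 h
    · apply h
      show ((jB M)⁻¹)⁻¹ ∈ gaussV A M
      rw [inv_inv]
      exact hjV
  have hf0 : (jB M)⁻¹ - cst M b ≠ 0 := by
    intro h0
    apply hredne
    rw [← hred]
    have : (⟨(jB M)⁻¹ - cst M b, hfV⟩ : gaussV A M) = 0 := Subtype.ext h0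
    rw [this, map_zero]
  have hfinv : ((jB M)⁻¹ - cst M b)⁻¹ ∈ gaussV A M := by
    by_contra hc
    apply hredne
    rw [← hred]
    exact (gaussR_eq_zero_iff A M hℓ hℓM hA ⟨(jB M)⁻¹ - cst M b, hfV⟩).2 (Or.inr hc)
  have hredF : h13sRed A M ⟨(jB M)⁻¹ - cst M b, hfV⟩ = h13sRed A M ⟨(jB M)⁻¹, hiV⟩ :=
    Subtype.ext hred
  obtain ⟨Df, hDf, -⟩ :=
    HasPrincipalDivisors.exists_divisor (K := Kbar) ((jB M)⁻¹ - cst M b) hf0
  have e1 := hr.2.2 ((jB M)⁻¹ - cst M b) hfV hfinv Df hDf (r v)
  have e2 := hr.2.2 ((jB M)⁻¹) hiV (by rw [inv_inv]; exact hjV) D hD (r v)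
  rw [hredF] at e1
  have e3 : h13sPush r D (r v) = h13sPush r Df (r v) := by rw [e1, e2]
  apply h59i_push_ne_zero r D (r v)
  rw [e3, h59i_push_apply]
  -- every term is nonnegative, the term of `v` is positive
  have hvpos : 0 < Df v := by
    rw [hDf v]
    exact h59i_ord_pos v hf0 hbv
  have hvsupp : v ∈ Df.support := Finsupp.mem_support_iff.2 hvpos.ne'
  have hnn : ∀ w ∈ Df.support, 0 ≤ (if r w = r v then Df w else 0) := by
    intro w _
    split_ifs with hw
    · have hsr : SameRed A w v := (hr.2.1 w v).1 hw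
      have hwinf : ¬ IsFinAt A w := by
        rcases hsr with ⟨-, h2, -⟩ | ⟨h1, -, -⟩
        · exact absurd h2 hv
        · exact h1
      obtain ⟨b', hb', hbw⟩ := Fermat.Agent.Red.Match.exists_valueAt_inv_of_not_isFinAt hwinf
      have hmem : (jB M)⁻¹ ∈ w.toValuationSubring := Fermat.Agent.Red.Match.valueAt_mem hbw
      have hmem' : (jB M)⁻¹ - cst M b ∈ w.toValuationSubring :=
        sub_mem hmem (Fermat.Agent.Red.Match.cst_mem w b)
      rw [hDf w]
      exact Fermat.Agent.S24.DiffPlace.ord_nonneg_of_mem w hmem'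
    · exact le_rfl
  have hpos : 0 < ∑ w ∈ Df.support, (if r w = r v then Df w else 0) := by
    refine Finset.sum_pos' hnn ⟨v, hvsupp, ?_⟩
    rw [if_pos rfl]
    exact hvpos
  exact hpos.ne'

end Fermat.Agent.P5
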