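import Fermat.Agent.P5.H13RRIface

/-!
# Wave 5, pillar (P), block GEO-RR, leaf `H13rInv` (helper68)

`ℓ(D + div f) = ℓ(D)`: multiplication by `f` is a `K`-linear equivalence `L(E) ≃ L(D)` when
`E v = D v + ord_v f` for all places `v`.  Mathlib + Prelude only.
-/

set_option autoImplicit false

noncomputable section

namespace Fermat.Agent.P5

open AlgebraicCurve

variable {K F : Type*} [Field K] [Field F] [Algebra K F]

/-- multiplication by `f` maps `L(E)` into `L(D)` when `E = D + div f`. -/
theorem h68r_mul_mem {D E : Divisor K F} {f : F} (hf : f ≠ 0)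
    (hE : ∀ v : Place K F, E v = D v + v.ord f) {h : F} (hh : h ∈ riemannRochSpace E) :
    h * f ∈ riemannRochSpace D := by
  rw [mem_riemannRochSpace_iff] at hh ⊢
  intro v
  rcases eq_or_ne h 0 with rfl | h0
  · left
    simp
  · right
    have h1 := (hh v).resolve_left h0
    rw [v.ord_mul h0 hf]
    rw [hE v] at h1
    linarith

/-- the equivalence `L(E) ≃ L(D)`, `h ↦ h f`. -/
def h68rMulEquiv {D E : Divisor K F} {f : F} (hf : f ≠ 0)
    (hE : ∀ v : Place K F, E v = D v + v.ord f) :
    ↥(riemannRochSpace E) ≃ₗ[K] ↥(riemannRochSpace D) where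
  toFun h := ⟨(h : F) * f, h68r_mul_mem hf hE h.2⟩
  invFun h := ⟨(h : F) * f⁻¹, h68r_mul_mem (D := E) (E := D) (inv_ne_zero hf)
    (fun v => by rw [hE v, v.ord_inv]; ring) h.2⟩
  map_add' a b := by
    apply Subtype.ext
    show ((a : F) + (b : F)) * f = (a : F) * f + (b : F) * f
    ring
  map_smul' c a := by
    apply Subtype.ext
    show (c • (a : F)) * f = c • ((a : F) * f)
    rw [smul_mul_assoc]
  left_inv a := by
    apply Subtype.ext
    show (a : F) * f * f⁻¹ = (a : F)
    rw [mul_assoc, mul_inv_cancel₀ hf, mul_one]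
  right_inv a := by
    apply Subtype.ext
    show (a : F) * f⁻¹ * f = (a : F)
    rw [mul_assoc, inv_mul_cancel₀ hf, mul_one]

/-- **RR-INV** (exact frozen Prop of `P5/H13RRIface.lean`). -/
theorem h68r_inv (K F : Type*) [Field K] [Field F] [Algebra K F] : H13rInv K F := by
  intro D E f hf hE
  exact (h68rMulEquiv hf hE).finrank_eq

end Fermat.Agent.P5
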