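import Fermat.Agent.P5.H57LinkE0
import Fermat.Agent.P5.H81LinkDer
import Fermat.Agent.P5.H75JetRed
import Fermat.Agent.P5.H89DiscGauss
import Fermat.Agent.P5.H26GenusFinal
import Fermat.Agent.P5.H4LinkLeaf
import Fermat.Agent.P5.H68RRInv
import Fermat.Agent.P5.H60Place

/-!
# P5 (wave 5, S19), row GEO-LINK: the raw link data (helper60, assembly of the landed parts)

`h60l_linkRaw : H4sLinkRawLeaf` (exact frozen Prop of `P5/H4LinkLeaf.lean`, helper4),
UNCONDITIONAL: two charts with disc calculus and non-special centres, all `2g` centres with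
pairwise distinct reductions, carry the raw data of a link.

Construction (`D = 2 D₀ + D₁`):
* `E₀`, `bs = 1/f` : helper57 (`h57e_exists_E0_sameRed`): `f` a Gauss unit with
  `div f = E₀ - D`, `E₀ ≥ 0` without points in the discs, `ℓ(E₀) = 2g + 1 = ℓ~(r_* E₀)`.
* `b j` : an integral basis `β` of `L(E₀)` (`H13sSemi`, helper26/55/78) minus one element
  `β i₀` at which the coordinate of `bs` is a unit of `A`.
* membership, jets, `hbsder` : helper81 (`h81n_mem_link`, `h81n_exists_jets`,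
  `h81n_hbsder_link`); bridge `H37DiscChar` : helper89 (`h89g_discChar`).
* `N0_unit` : helper75 (`h75j_N0_unit`) from the independence of the reductions modulo double
  vanishing at the centres: a combination whose reduction vanishes twice at every `r (Q i)` lies
  in `L~(r_* E₀ - 2 r_* D₀) ≃ L~(r_* D₁) = k`, hence is a multiple of the reduction of `bs`.
-/

set_option autoImplicit false
set_option linter.unusedSectionVars false
set_option linter.unusedVariables false
set_option linter.style.haveILetI false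

open AlgebraicCurve ModularCurve

noncomputable section

namespace Fermat.Agent.P5

open Fermat.Agent.S37 Fermat.Agent.Red.GV Fermat.Agent.Red.Match

/-! ### Reindexing -/

/-- `Fin g ⊕ Fin g` is the complement of a point in a set with `2g + 1` elements. -/
theorem h60l_equiv (g n : ℕ) (hn : n = 2 * g + 1) (i₀ : Fin n) :
    Nonempty (Fin g ⊕ Fin g ≃ {i : Fin n // i ≠ i₀}) := by
  classical
  refine ⟨Fintype.equivOfCardEq ?_⟩
  rw [Fintype.card_sum, Fintype.card_fin, Fintype.card_subtype_compl, Fintype.card_fin,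
    Fintype.card_subtype_eq]
  omega

/-- a sum over the complement of a point. -/
theorem h60l_sum_reindex {R : Type*} [CommRing R] {g n : ℕ} (i₀ : Fin n)
    (e : Fin g ⊕ Fin g ≃ {i : Fin n // i ≠ i₀}) (co : Fin g ⊕ Fin g → R) (β : Fin n → R) :
    ∑ j, co j * β (e j).1 =
      ∑ i, (if h : i ≠ i₀ then co (e.symm ⟨i, h⟩) else 0) * β i := by
  classical
  rw [Fintype.sum_eq_add_sum_subtype_ne _ i₀]
  rw [dif_neg (not_not.mpr rfl), zero_mul, zero_add]
  rw [← Equiv.sum_comp e]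
  refine Finset.sum_congr rfl fun j _ => ?_
  rw [dif_pos (e j).2]
  congr 2
  exact (e.symm_apply_apply j).symm

/-! ### Reductions of combinations -/

section Red

variable {ℓ : ℕ} {M : ℕ} [NeZero M] {A : ValuationSubring Kbar}

/-- the reduction of a constant of `A`. -/
theorem h60l_red_cst (a : A) (h : cst M (a : Kbar) ∈ gaussV A M) :
    h60qRed A M ⟨cst M (a : Kbar), h⟩ = algebraMap (h13sK A) (h13sFt A M) (h13sPi A a) := by
  apply h60q_incl_injective A M
  rw [h60q_red_apply, h13sIncl_red, AlgHom.commutes, h40f_algebraMap_eq]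
  exact h40f_red_cst A M a

/-- the reduction of an `A`-combination of Gauss-integral functions. -/
theorem h60l_red_sum {n : ℕ} (a : Fin n → Kbar) (ha : ∀ i, a i ∈ A) (β : Fin n → FF M)
    (hβ : ∀ i, β i ∈ gaussV A M) (hx : (∑ i, cst M (a i) * β i) ∈ gaussV A M) :
    h60qRed A M ⟨_, hx⟩ =
      ∑ i, algebraMap (h13sK A) (h13sFt A M) (h13sPi A ⟨a i, ha i⟩) *
        h60qRed A M ⟨β i, hβ i⟩ := by
  have e : (⟨_, hx⟩ : gaussV A M) =
      ∑ i, (⟨cst M (a i), h57e_cst_mem A M ⟨a i, ha i⟩⟩ : gaussV A M) * ⟨β i, hβ i⟩ := by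
    apply Subtype.ext
    rw [AddSubmonoidClass.coe_finsetSum]
    rfl
  rw [e, map_sum]
  refine Finset.sum_congr rfl fun i _ => ?_
  rw [map_mul]
  congr 1
  exact h60l_red_cst ⟨a i, ha i⟩ _

/-- an integral basis is linearly independent over `ℚ̄`. -/
theorem h60l_indep (hℓ : ℓ.Prime) (hM : ¬ ℓ ∣ M) (hA : A.LiesOverPrime ℓ) {n : ℕ}
    (β : Fin n → FF M)
    (hb4 : ∀ c : Fin n → Kbar, (∑ i, cst M (c i) * β i) ∈ gaussV A M → ∀ i, c i ∈ A)
    (x : Fin n → Kbar) (hx : ∑ i, cst M (x i) * β i = 0) : ∀ i, x i = 0 := by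
  intro i
  by_contra hxi
  have h1 : ∑ k, cst M ((x i)⁻¹ * x k) * β k = 0 := by
    have h2 : ∑ k, cst M ((x i)⁻¹ * x k) * β k = cst M (x i)⁻¹ * ∑ k, cst M (x k) * β k := by
      rw [Finset.mul_sum]
      refine Finset.sum_congr rfl fun k _ => ?_
      have e1 : cst M ((x i)⁻¹ * x k) = cst M (x i)⁻¹ * cst M (x k) := map_mul _ _ _
      rw [e1, mul_assoc]
    rw [h2, hx, mul_zero]
  have h3 : (∑ k, cst M ((x i)⁻¹ * x k) * β k) ∈ gaussV A M := by
    rw [h1]
    exact Subring.zero_mem _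
  have h4 : gaussR A M ⟨_, h3⟩ = 0 := by
    have e : (⟨_, h3⟩ : gaussV A M) = 0 := Subtype.ext h1
    rw [e, map_zero]
  have h5 := h57e_coeff_nonunit A hℓ hM hA β hb4 (fun k => (x i)⁻¹ * x k) h3 h4 i
  rw [inv_mul_cancel₀ hxi] at h5
  exact Fermat.Agent.Red.Nz.h89_one_not_mem_nonunits A h5

end Red

/-! ### The reductions vanishing twice at the centres -/

section Mult

variable {ℓ : ℕ} {M : ℕ} [NeZero M] {A : ValuationSubring Kbar}
  (r : Place Kbar (FF M) → Place (h13sK A) (h13sFt A M)) (hr : H13sIsRed A M r)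
  {g : ℕ} (Q Q' : Fin g → Place Kbar (FF M))
  (f : FF M) (E₀ : Divisor Kbar (FF M)) (hf0 : f ≠ 0) (hfV : f ∈ gaussV A M)
  (hfiV : f⁻¹ ∈ gaussV A M) (hE0 : 0 ≤ E₀)
  (hEord : ∀ v, E₀ v = v.ord f + h57eD Q Q' v)

include hr hfV hfiV hEord in
/-- the order of the reduction of `f`. -/
theorem h60l_ord_red (w : Place (h13sK A) (h13sFt A M)) :
    w.ord (h13sRed A M ⟨f, hfV⟩) =
      h13sPush r E₀ w - (2 * h57eSum (fun i => r (Q i)) w + h57eSum (fun i => r (Q' i)) w) := by
  have hDf : ∀ v, (E₀ - h57eD Q Q') v = v.ord f := by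
    intro v
    rw [Finsupp.sub_apply, hEord v]
    ring
  have h1 := hr.2.2 f hfV hfiV (E₀ - h57eD Q Q') hDf w
  have h2 : h13sPush r E₀ = h13sPush r (E₀ - h57eD Q Q') + h13sPush r (h57eD Q Q') := by
    rw [← h57e_push_add, sub_add_cancel]
  rw [← h1, h2, h57e_push_D, Finsupp.add_apply, h57eD_apply]
  ring

include hr hf0 hfV hfiV hEord in
/-- the order of the reduction of `bs = 1/f`. -/
theorem h60l_ord_red_inv (w : Place (h13sK A) (h13sFt A M)) :
    w.ord (h13sRed A M ⟨f⁻¹, hfiV⟩) =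
      2 * h57eSum (fun i => r (Q i)) w + h57eSum (fun i => r (Q' i)) w - h13sPush r E₀ w := by
  have h1 : h13sRed A M ⟨f⁻¹, hfiV⟩ = (h13sRed A M ⟨f, hfV⟩)⁻¹ := h60q_red_inv hfV hfiV hf0
  rw [h1, Place.ord_inv, h60l_ord_red r hr Q Q' f E₀ hfV hfiV hEord w]
  ring

include hr in
/-- the push-forward of `E₀` vanishes at the reductions of the centres. -/
theorem h60l_push_zero (hout : ∀ i v, SameRed A v (Q i) → E₀ v = 0) (i : Fin g) :
    h13sPush r E₀ (r (Q i)) = 0 := by
  classical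
  rw [h57e_push_apply]
  refine Finset.sum_eq_zero fun v _ => ?_
  split_ifs with h
  · exact hout i v ((hr.2.1 v (Q i)).mp h)
  · rfl

include hr hf0 hfV hfiV hEord in
/-- **a reduction in `L~(r_* E₀)` vanishing twice at every `r (Q i)` is a multiple of the
reduction of `bs = 1/f`.** -/
theorem h60l_mult (hQ : Function.Injective fun i => r (Q i))
    (hns' : h13rL (h13sK A) (h13sFt A M) (h57eSum fun i => r (Q' i)) = 1)
    (hout : ∀ i v, SameRed A v (Q i) → E₀ v = 0)
    (y : h13sFt A M) (hyE : y ∈ riemannRochSpace (h13sPush r E₀))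
    (hy2 : ∀ i, 2 ≤ (r (Q i)).ord y) :
    ∃ μ : h13sK A, y = algebraMap (h13sK A) (h13sFt A M) μ * h13sRed A M ⟨f⁻¹, hfiV⟩ := by
  classical
  set S : Divisor (h13sK A) (h13sFt A M) := h57eSum (fun i => r (Q i)) with hS
  set S' : Divisor (h13sK A) (h13sFt A M) := h57eSum (fun i => r (Q' i)) with hS'
  set X : Divisor (h13sK A) (h13sFt A M) := h13sPush r E₀ - (2 : ℤ) • S with hX
  have hXw : ∀ w, X w = h13sPush r E₀ w - 2 * S w := by
    intro w
    rw [hX, Finsupp.sub_apply, Finsupp.smul_apply, smul_eq_mul]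
  set z : h13sFt A M := h13sRed A M ⟨f⁻¹, hfiV⟩ with hz
  have hz0 : z ≠ 0 := by
    have h1 := h60q_red_ne_zero (A := A) (M := M) hfiV (by rwa [inv_inv]) (inv_ne_zero hf0)
    exact h1
  -- `z ∈ L~(X)`
  have hzX : z ∈ riemannRochSpace X := by
    rw [mem_riemannRochSpace_iff]
    intro w
    right
    rw [hXw, hz, h60l_ord_red_inv r hr Q Q' f E₀ hf0 hfV hfiV hEord w]
    have h1 := h57eSum_nonneg (fun i => r (Q' i)) w
    simp only [Finsupp.coe_zero, Pi.zero_apply] at h1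
    linarith
  -- `y ∈ L~(X)`
  have hyX : y ∈ riemannRochSpace X := by
    rw [mem_riemannRochSpace_iff] at hyE ⊢
    intro w
    by_cases hw : ∃ i, r (Q i) = w
    · obtain ⟨i, rfl⟩ := hw
      right
      rw [hXw, h60l_push_zero r hr Q E₀ hout i, hS, h57eSum_apply_self hQ i]
      have := hy2 i
      linarith
    · rcases hyE w with h0 | h1
      · exact Or.inl h0
      · right
        rw [hXw, hS, h57eSum_apply_out (fun i hi => hw ⟨i, hi⟩)]
        linarith
  -- `ℓ~(X) = 1`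
  have hlX : h13rL (h13sK A) (h13sFt A M) X = 1 := by
    rw [← hns']
    refine h68r_inv (h13sK A) (h13sFt A M) S' X (h13sRed A M ⟨f, hfV⟩) ?_ ?_
    · exact h60q_red_ne_zero (A := A) (M := M) hfV hfiV hf0
    · intro w
      rw [hXw, h60l_ord_red r hr Q Q' f E₀ hfV hfiV hEord w]
      ring
  -- the multiple
  have hz'0 : (⟨z, hzX⟩ : ↥(riemannRochSpace X)) ≠ 0 := fun h => hz0 (congrArg Subtype.val h)
  obtain ⟨μ, hμ⟩ := (finrank_eq_one_iff_of_nonzero' (⟨z, hzX⟩ : ↥(riemannRochSpace X)) hz'0).mp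
    hlX ⟨y, hyX⟩
  refine ⟨μ, ?_⟩
  have h1 : μ • z = y := congrArg Subtype.val hμ
  rw [← h1]
  exact Algebra.smul_def μ z

end Mult

/-! ### The core -/

section Core

variable {ℓ : ℕ} {M : ℕ} [NeZero M] {A : ValuationSubring Kbar}

omit [NeZero M] in
theorem h60l_nonunits_add {x y : Kbar} (hx : x ∈ A.nonunits) (hy : y ∈ A.nonunits) :
    x + y ∈ A.nonunits := by
  rw [ValuationSubring.mem_nonunits_iff] at hx hy ⊢
  exact lt_of_le_of_lt (Valuation.map_add _ _ _) (max_lt hx hy)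

omit [NeZero M] in
theorem h60l_nonunits_of_mul {m u : Kbar} (hu : u ∈ A) (hun : u ∉ A.nonunits)
    (h : m * u ∈ A.nonunits) : m ∈ A.nonunits := by
  rw [ValuationSubring.mem_nonunits_iff] at h hun ⊢
  have h1 : A.valuation u ≤ 1 := (A.valuation_le_one_iff _).mpr hu
  have h2 : A.valuation u = 1 := le_antisymm h1 (not_lt.mp hun)
  rw [map_mul, h2, mul_one] at h
  exact h

/-- **the raw link data from the divisor `E₀`** (helper57) and an integral basis of `L(E₀)`. -/
theorem h60l_core (hℓ : ℓ.Prime) (hM : ¬ ℓ ∣ M) (haux : auxLevel ℓ ∣ M)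
    (hA : A.LiesOverPrime ℓ)
    (r : Place Kbar (FF M) → Place (h13sK A) (h13sFt A M)) (hr : H13sIsRed A M r)
    (hBg : H13rBase Kbar (FF M)) (hsemi : H57eSemiAt A M r) {g : ℕ} (c c' : H96Chart M g)
    (hd : ∀ i, H37DiscAt A (c.Q i) (c.t i) (c.O i))
    (hd' : ∀ i, H37DiscAt A (c'.Q i) (c'.t i) (c'.O i))
    (hns : H56gNonSpec r c.Q) (hns' : H56gNonSpec r c'.Q)
    (hne : ∀ i j, r (c.Q i) ≠ r (c'.Q j))
    (f : FF M) (E₀ : Divisor Kbar (FF M)) (hf0 : f ≠ 0) (hfV : f ∈ gaussV A M)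
    (hfiV : f⁻¹ ∈ gaussV A M) (hE0 : 0 ≤ E₀)
    (hEord : ∀ v, E₀ v = v.ord f + h57eD c.Q c'.Q v)
    (hEout : ∀ v, E₀ v ≠ 0 → ∀ i, ¬ SameRed A v (c.Q i) ∧ ¬ SameRed A v (c'.Q i))
    (hlE : h13rL Kbar (FF M) E₀ = 2 * g + 1) :
    H4sLinkRaw A c c' := by
  classical
  have hQ : ∀ i j, SameRed A (c.Q i) (c.Q j) → i = j :=
    fun i j h => hns.1 ((hr.2.1 _ _).mpr h)
  have hQ' : ∀ i j, SameRed A (c'.Q i) (c'.Q j) → i = j :=
    fun i j h => hns'.1 ((hr.2.1 _ _).mpr h)
  have hQQ' : ∀ i j, ¬ SameRed A (c.Q i) (c'.Q j) :=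
    fun i j h => hne i j ((hr.2.1 _ _).mpr h)
  have hEc : ∀ i v, SameRed A v (c.Q i) → E₀ v = 0 := by
    intro i v hv
    by_contra h
    exact (hEout v h i).1 hv
  have hEc' : ∀ i v, SameRed A v (c'.Q i) → E₀ v = 0 := by
    intro i v hv
    by_contra h
    exact (hEout v h i).2 hv
  -- the bridge
  have hch : ∀ i, H37DiscChar A (c.Q i) (c.O i) :=
    fun i => h89g_discChar hℓ hM haux hA hr (hd i)
  have hch' : ∀ i, H37DiscChar A (c'.Q i) (c'.O i) :=
    fun i => h89g_discChar hℓ hM haux hA hr (hd' i)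
  -- `bs`
  set bs : FF M := f⁻¹ with hbs
  have hbs0 : bs ≠ 0 := inv_ne_zero hf0
  have hbsV : bs ∈ gaussV A M := hfiV
  have hbsiV : bs⁻¹ ∈ gaussV A M := by
    rw [hbs, inv_inv]
    exact hfV
  have hD0 : ∀ v, 0 ≤ h57eD c.Q c'.Q v := by
    intro v
    rw [h57eD_apply]
    have h1 := h57eSum_nonneg c.Q v
    have h2 := h57eSum_nonneg c'.Q v
    simp only [Finsupp.coe_zero, Pi.zero_apply] at h1 h2
    linarith
  have hbsord : ∀ v : Place Kbar (FF M), v.ord bs = h57eD c.Q c'.Q v - E₀ v := by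
    intro v
    rw [hbs, Place.ord_inv, hEord v]
    ring
  have hbsL : bs ∈ riemannRochSpace E₀ := by
    rw [mem_riemannRochSpace_iff]
    intro v
    right
    rw [hbsord v]
    have := hD0 v
    linarith
  -- the integral basis
  obtain ⟨β, hb1, hb2, hb3, hb4, hb5, -⟩ := hsemi E₀
  obtain ⟨cc, hcc⟩ := hb5 bs hbsL
  have hccV : (∑ i, cst M (cc i) * β i) ∈ gaussV A M := hcc ▸ hbsV
  have hccA : ∀ i, cc i ∈ A := hb4 cc hccV
  have hccbs : (⟨_, hccV⟩ : gaussV A M) = ⟨bs, hbsV⟩ := Subtype.ext hcc.symm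
  -- a unit coordinate
  have hex : ∃ i₀, cc i₀ ∉ A.nonunits := by
    by_contra hall
    simp only [not_exists, not_not] at hall
    have h1 := h60l_red_sum cc hccA β hb2 hccV
    have h2 : h60qRed A M ⟨_, hccV⟩ = 0 := by
      rw [h1]
      refine Finset.sum_eq_zero fun i _ => ?_
      rw [h57e_pi_eq_zero A (a := ⟨cc i, hccA i⟩) (hall i), map_zero, zero_mul]
    rw [hccbs] at h2
    exact h60q_red_ne_zero hbsV hbsiV hbs0 h2
  obtain ⟨i₀, hi₀⟩ := hex
  have hcci₀ : cc i₀ ≠ 0 := fun h => hi₀ (h ▸ zero_mem _)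
  obtain ⟨e⟩ := h60l_equiv g _ hlE i₀
  -- the functions
  set b : Fin g ⊕ Fin g → FF M := fun j => β (e j).1 with hb
  have hbV : ∀ j, b j ∈ gaussV A M := fun j => hb2 _
  have hbL : ∀ j, b j ∈ riemannRochSpace E₀ := fun j => hb1 _
  have hbO : ∀ j i, b j ∈ c.O i ∧ b j ∈ c'.O i := fun j =>
    h81n_mem_link hℓ hM haux hA hd hd' hEc hEc' (hbV j) (hbL j)
  have hbsO : ∀ i, bs ∈ c.O i ∧ bs ∈ c'.O i :=
    h81n_mem_link hℓ hM haux hA hd hd' hEc hEc' hbsV hbsL
  -- reindexing
  have hrein : ∀ co : Fin g ⊕ Fin g → Kbar, ∑ j, cst M (co j) * b j =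
      ∑ i, cst M (if h : i ≠ i₀ then co (e.symm ⟨i, h⟩) else 0) * β i := by
    intro co
    rw [h60l_sum_reindex i₀ e (fun j => cst M (co j)) β]
    refine Finset.sum_congr rfl fun i _ => ?_
    congr 1
    split_ifs with h
    · rfl
    · simp [cst]
  -- the link data
  have hLD : H4rLinkData A c c' b bs := by
    refine ⟨⟨E₀, hE0, hEc, hEc', hbL, hbsL, fun v => ?_⟩, hbs0, fun ε co hsum => ?_⟩
    · rw [hbsord v, h57eD_apply]
      rfl
    · rw [hrein co, hcc, Finset.mul_sum, ← Finset.sum_add_distrib] at hsum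
      have h1 : ∑ i, cst M (ε * cc i + (if h : i ≠ i₀ then co (e.symm ⟨i, h⟩) else 0)) * β i
          = 0 := by
        rw [← hsum]
        refine Finset.sum_congr rfl fun i _ => ?_
        simp only [cst, map_add, map_mul]
        ring
      have h2 := h60l_indep hℓ hM hA β hb4 _ h1 i₀
      rw [dif_neg (not_not.mpr rfl), add_zero] at h2
      exact (mul_eq_zero.mp h2).resolve_right hcci₀
  -- the jets
  obtain ⟨N0, -, hval, hder⟩ := h81n_exists_jets hd b (fun j i => (hbO j i).1)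
  -- `N0_unit`
  have hunit : N0.det ≠ 0 ∧ (N0.det)⁻¹ ∈ A := by
    refine h75j_N0_unit hℓ hM hA hr hBg c hd (fun i => (hch i).O_gauss _ (hd i).O_t)
      (fun i => (hch i).O_gauss) b (fun j i => (hbO j i).1) N0 hval hder ?_
    intro co hco hF hcase
    set a : Fin (h13rL Kbar (FF M) E₀) → Kbar :=
      fun i => if h : i ≠ i₀ then co (e.symm ⟨i, h⟩) else 0 with ha
    have haA : ∀ i, a i ∈ A := by
      intro i
      rw [ha]
      dsimp only
      split_ifs with h
      · exact hco _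
      · exact zero_mem _
    have hai₀ : a i₀ = 0 := by
      rw [ha]
      dsimp only
      rw [dif_neg (not_not.mpr rfl)]
    have hFa : ∑ j, cst M (co j) * b j = ∑ i, cst M (a i) * β i := hrein co
    have hFa' : (∑ i, cst M (a i) * β i) ∈ gaussV A M := hFa ▸ hF
    have hFeq : (⟨_, hF⟩ : gaussV A M) = ⟨_, hFa'⟩ := Subtype.ext hFa
    suffices h : ∀ i, a i ∈ A.nonunits by
      intro j
      have h1 := h (e j).1
      rw [ha] at h1
      dsimp only at h1
      rw [dif_pos (e j).2] at h1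
      have h2 : e.symm ⟨(e j).1, (e j).2⟩ = j := e.symm_apply_apply j
      rwa [h2] at h1
    by_cases hzero : h13sRed A M ⟨_, hF⟩ = 0
    · refine h57e_coeff_nonunit A hℓ hM hA β hb4 a hFa' ?_
      rw [← hFeq]
      exact (h60q_red_eq_zero_iff _).mp hzero
    · have hy2 : ∀ i, 2 ≤ (r (c.Q i)).ord (h13sRed A M ⟨_, hF⟩) := hcase.resolve_left hzero
      have hyE : h13sRed A M ⟨_, hF⟩ ∈ riemannRochSpace (h13sPush r E₀) := by
        have h1 : h13sRed A M ⟨_, hF⟩ = h60qRed A M ⟨_, hFa'⟩ :=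
          congrArg (h60qRed A M) hFeq
        rw [h1, h60l_red_sum a haA β hb2 hFa']
        refine Submodule.sum_mem _ fun i _ => ?_
        rw [← Algebra.smul_def]
        exact Submodule.smul_mem _ _ (hb3 i (hb2 i))
      obtain ⟨μ, hμ⟩ := h60l_mult r hr c.Q c'.Q f E₀ hf0 hfV hfiV hEord hns.1 hns'.2 hEc _
        hyE hy2
      obtain ⟨m, rfl⟩ := h57e_pi_surjective A μ
      -- `G = F - m bs` has reduction `0`
      have hGeq : ∑ i, cst M (a i - (m : Kbar) * cc i) * β i =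
          ∑ i, cst M (a i) * β i - cst M (m : Kbar) * bs := by
        rw [hcc, Finset.mul_sum, ← Finset.sum_sub_distrib]
        refine Finset.sum_congr rfl fun i _ => ?_
        simp only [cst, map_sub, map_mul]
        ring
      have hmV : cst M (m : Kbar) ∈ gaussV A M := h57e_cst_mem A M m
      have hGV : (∑ i, cst M (a i - (m : Kbar) * cc i) * β i) ∈ gaussV A M := by
        rw [hGeq]
        exact Subring.sub_mem _ hFa' (Subring.mul_mem _ hmV hbsV)
      have hGred : gaussR A M ⟨_, hGV⟩ = 0 := by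
        rw [← h60q_red_eq_zero_iff]
        have h1 : (⟨_, hGV⟩ : gaussV A M) = ⟨_, hFa'⟩ - ⟨_, hmV⟩ * ⟨bs, hbsV⟩ :=
          Subtype.ext hGeq
        rw [h1, map_sub, map_mul, h60l_red_cst m hmV, ← hFeq]
        rw [sub_eq_zero]
        exact hμ
      have hG := h57e_coeff_nonunit A hℓ hM hA β hb4 (fun i => a i - (m : Kbar) * cc i) hGV
        hGred
      have hm : (m : Kbar) ∈ A.nonunits := by
        have h1 := hG i₀
        rw [hai₀, zero_sub] at h1
        have h2 : (m : Kbar) * cc i₀ ∈ A.nonunits := by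
          have := neg_mem h1
          rwa [neg_neg] at this
        exact h60l_nonunits_of_mul (hccA i₀) hi₀ h2
      intro i
      have h1 : a i = (a i - (m : Kbar) * cc i) + (m : Kbar) * cc i := by ring
      rw [h1]
      exact h60l_nonunits_add (hG i) (h71_mul_mem_nonunits A hm (hccA i))
  -- `hbsder`
  have hbsder := h81n_hbsder_link hℓ hM haux hA hd' hch' hLD hQ' hQQ' hbsV hbsiV
  exact ⟨⟨b, bs, N0, hLD, hbO, hbsO, hval, hder, hunit, hbsder⟩⟩

/-- **GEO-LINK, raw link data** (exact frozen Prop of `P5/H4LinkLeaf.lean`), unconditional. -/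
theorem h60l_linkRaw : H4sLinkRawLeaf := by
  intro ℓ hℓ M _ hM haux A hA r hr g hgG hgS c c' hd hd' hns hns' hne
  have hBg : H13rBase Kbar (FF M) := h40r_base_FF M
  have hBs : H13rBase (h13sK A) (h13sFt A M) := h26s_base ℓ hℓ M hM haux A hA
  have hsemi : H57eSemiAt A M r := h57e_semiAt_of h26s_semi hℓ hM haux A hA r hr
  obtain ⟨f, E₀, hf0, hfV, hfiV, hE0, hEord, hEout, -, -, -, -, hlE, -⟩ :=
    h57e_exists_E0_sameRed A hℓ hM hA r hr hBg hBs hgG hgS hsemi c.Q c'.Q
      (fun i j h => hns.1 ((hr.2.1 _ _).mpr h))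
      (fun i j h => hns'.1 ((hr.2.1 _ _).mpr h))
      (fun i j h => hne i j ((hr.2.1 _ _).mpr h)) hns.2
  exact h60l_core hℓ hM haux hA r hr hBg hsemi c c' hd hd' hns hns' hne f E₀ hf0 hfV hfiV
    hE0 hEord hEout hlE

/-- **GEO-LINK** (exact frozen Prop `H56gLink` of `P5/H56GeoAsm.lean`), unconditional. -/
theorem h60l_link : H56gLink := h4s_linkLeaf h60l_linkRaw

end Core

end Fermat.Agent.P5
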