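import Fermat.Prelude.Def_AlgebraicCurve_DivisorClassGroup

/-!
# P5 (wave 5, S19), block GEO-RR, leaf PLACE of RED-DIV (helper60): the abstract local ring

`φ : B → L` a ring homomorphism from a chart `B` to a field `L` (the reduction), `n` a prime of
`B` containing `ker φ`, `τ ∈ n` with `φ τ ≠ 0`, and the **factorisation hypothesis**
`H60qFact φ n τ` : every `y ≠ 0` of `L` is `(φ a / φ b) · (φ τ)^d` with `a, b ∉ n`.

* `h60qLoc φ n` : the local ring `{ y | y · φ b = φ a, b ∉ n }`, a subring of `L`.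
* `h60qVal`     : it is a valuation subring; `h60q_val_ne_top` : it is not `L`.
* `h60q_mem_iff_nonneg` : `y ∈ O ↔ 0 ≤ d`.
* `h60q_irreducible`, `h60q_isPrincipalIdealRing` : `O` is a discrete valuation ring with
  uniformiser `φ τ`.
* `h60qPlace` : the place (in the sense of the Prelude), `h60q_place_ord` : its order function.

Mathlib + the Prelude definition of places only.
-/

set_option autoImplicit false

open AlgebraicCurve

noncomputable section

namespace Fermat.Agent.P5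

variable {K L B : Type*} [Field K] [Field L] [Algebra K L] [CommRing B]

/-- the local ring of the reduced chart at the prime `n`. -/
def h60qLoc (φ : B →+* L) (n : Ideal B) [hn : n.IsPrime] : Subring L where
  carrier := {y | ∃ a b : B, b ∉ n ∧ y * φ b = φ a}
  mul_mem' := by
    rintro y y' ⟨a, b, hb, h⟩ ⟨a', b', hb', h'⟩
    refine ⟨a * a', b * b', fun hbb => (hn.mem_or_mem hbb).elim hb hb', ?_⟩
    rw [map_mul, map_mul, ← h, ← h']
    ring
  one_mem' := ⟨1, 1, fun h => hn.ne_top ((Ideal.eq_top_iff_one _).mpr h), by simp⟩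
  add_mem' := by
    rintro y y' ⟨a, b, hb, h⟩ ⟨a', b', hb', h'⟩
    refine ⟨a * b' + a' * b, b * b', fun hbb => (hn.mem_or_mem hbb).elim hb hb', ?_⟩
    rw [map_add, map_mul, map_mul, map_mul, ← h, ← h']
    ring
  zero_mem' := ⟨0, 1, fun h => hn.ne_top ((Ideal.eq_top_iff_one _).mpr h), by simp⟩
  neg_mem' := by
    rintro y ⟨a, b, hb, h⟩
    exact ⟨-a, b, hb, by rw [map_neg, ← h]; ring⟩

theorem h60q_mem_loc (φ : B →+* L) (n : Ideal B) [n.IsPrime] (y : L) :
    y ∈ h60qLoc φ n ↔ ∃ a b : B, b ∉ n ∧ y * φ b = φ a := Iff.rfl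

/-- the factorisation hypothesis: every non-zero `y` is `(φ a / φ b) (φ τ)^d`, `a, b ∉ n`. -/
def H60qFact (φ : B →+* L) (n : Ideal B) (τ : B) : Prop :=
  ∀ y : L, y ≠ 0 → ∃ (d : ℤ) (a b : B), a ∉ n ∧ b ∉ n ∧ y * φ b = φ a * (φ τ) ^ d

section Loc

variable (φ : B →+* L) (n : Ideal B) [hn : n.IsPrime]
  (hker : ∀ z : B, φ z = 0 → z ∈ n) (τ : B) (hτ : τ ∈ n) (hτ0 : φ τ ≠ 0)

omit hn in
include hker in
theorem h60q_map_ne_zero {b : B} (hb : b ∉ n) : φ b ≠ 0 := fun h => hb (hker b h)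

theorem h60q_one_not_mem : (1 : B) ∉ n := fun h => hn.ne_top ((Ideal.eq_top_iff_one _).mpr h)

/-- the images of `B` lie in the local ring. -/
theorem h60q_map_mem (a : B) : φ a ∈ h60qLoc φ n :=
  ⟨a, 1, h60q_one_not_mem n, by simp⟩

include hker in
/-- quotients with denominator outside `n` lie in the local ring. -/
theorem h60q_div_mem (a : B) {b : B} (hb : b ∉ n) : φ a / φ b ∈ h60qLoc φ n :=
  ⟨a, b, hb, div_mul_cancel₀ _ (h60q_map_ne_zero φ n hker hb)⟩

include hker hτ hτ0 in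
/-- the inverse of the uniformiser is not in the local ring. -/
theorem h60q_inv_unif_not_mem : (φ τ)⁻¹ ∉ h60qLoc φ n := by
  rintro ⟨a, b, hb, h⟩
  have h1 : φ b = φ (a * τ) := by
    rw [map_mul, ← h]
    field_simp
  have h2 : b - a * τ ∈ n := hker _ (by rw [map_sub, h1, sub_self])
  have h3 : b ∈ n := by
    have := n.add_mem h2 (n.mul_mem_left a hτ)
    rwa [sub_add_cancel] at this
  exact hb h3

include hker hτ hτ0 in
/-- **membership and the exponent.** -/
theorem h60q_mem_iff_nonneg {y : L} {d : ℤ} {a b : B} (ha : a ∉ n) (hb : b ∉ n)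
    (h : y * φ b = φ a * (φ τ) ^ d) : y ∈ h60qLoc φ n ↔ 0 ≤ d := by
  have hb0 := h60q_map_ne_zero φ n hker hb
  have ha0 := h60q_map_ne_zero φ n hker ha
  constructor
  · rintro ⟨a', b', hb', h'⟩
    by_contra hd
    rw [not_le] at hd
    obtain ⟨m, hm⟩ := Int.eq_ofNat_of_zero_le (show 0 ≤ -d - 1 by omega)
    -- `(φ τ)⁻¹ = (φ b' φ a)/(φ a' φ b) · ...` : contradiction with `a b' ∈ n`
    have hb0' := h60q_map_ne_zero φ n hker hb'
    have hd' : d = -((m : ℤ) + 1) := by omega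
    have h1 : φ (a * b') = φ (a' * b * τ ^ (m + 1)) := by
      rw [map_mul, map_mul, map_mul, map_pow, ← h']
      have h2 : φ a = y * φ b * (φ τ) ^ (m + 1) := by
        rw [h, hd', zpow_neg, mul_assoc]
        have : ((φ τ) ^ ((m : ℤ) + 1))⁻¹ * φ τ ^ (m + 1) = 1 := by
          rw [← zpow_natCast (φ τ) (m + 1)]
          push_cast
          exact inv_mul_cancel₀ (zpow_ne_zero _ hτ0)
        rw [this, mul_one]
      rw [h2]
      ring
    have h3 : a * b' - a' * b * τ ^ (m + 1) ∈ n := hker _ (by rw [map_sub, h1, sub_self])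
    have h4 : a * b' ∈ n := by
      have := n.add_mem h3 (n.mul_mem_left (a' * b) (n.pow_mem_of_mem hτ (m + 1) (by omega)))
      rwa [sub_add_cancel] at this
    exact (hn.mem_or_mem h4).elim ha hb'
  · intro hd
    obtain ⟨m, hm⟩ := Int.eq_ofNat_of_zero_le hd
    refine ⟨a * τ ^ m, b, hb, ?_⟩
    rw [h, hm, zpow_natCast, map_mul, map_pow]

include hker hτ hτ0 in
/-- the local ring is a valuation ring. -/
theorem h60q_mem_or_inv_mem (hF : H60qFact φ n τ) (y : L) :
    y ∈ h60qLoc φ n ∨ y⁻¹ ∈ h60qLoc φ n := by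
  by_cases hy : y = 0
  · left
    rw [hy]
    exact (h60qLoc φ n).zero_mem
  obtain ⟨d, a, b, ha, hb, h⟩ := hF y hy
  have hb0 := h60q_map_ne_zero φ n hker hb
  have ha0 := h60q_map_ne_zero φ n hker ha
  by_cases hd : 0 ≤ d
  · left
    exact (h60q_mem_iff_nonneg φ n hker τ hτ hτ0 ha hb h).mpr hd
  · right
    have h' : y⁻¹ * φ a = φ b * (φ τ) ^ (-d) := by
      rw [zpow_neg]
      have h1 : (φ τ) ^ d ≠ 0 := zpow_ne_zero _ hτ0
      field_simp
      rw [h]
    exact (h60q_mem_iff_nonneg φ n hker τ hτ hτ0 hb ha h').mpr (by omega)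

/-- the local ring, as a valuation subring. -/
def h60qVal (hF : H60qFact φ n τ) : ValuationSubring L :=
  { h60qLoc φ n with
    mem_or_inv_mem' := h60q_mem_or_inv_mem φ n hker τ hτ hτ0 hF }

theorem h60q_mem_val (hF : H60qFact φ n τ) (y : L) :
    y ∈ h60qVal φ n hker τ hτ hτ0 hF ↔ ∃ a b : B, b ∉ n ∧ y * φ b = φ a := Iff.rfl

theorem h60q_val_ne_top (hF : H60qFact φ n τ) : h60qVal φ n hker τ hτ hτ0 hF ≠ ⊤ := by
  intro h
  have h1 : (φ τ)⁻¹ ∈ h60qVal φ n hker τ hτ hτ0 hF := by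
    rw [h]
    exact ValuationSubring.mem_top _
  exact h60q_inv_unif_not_mem φ n hker τ hτ hτ0 h1

/-- the uniformiser, as an element of the valuation ring. -/
def h60qUnif (hF : H60qFact φ n τ) : h60qVal φ n hker τ hτ hτ0 hF :=
  ⟨φ τ, h60q_map_mem φ n τ⟩

theorem h60q_unif_not_isUnit (hF : H60qFact φ n τ) :
    ¬ IsUnit (h60qUnif φ n hker τ hτ hτ0 hF) := by
  rintro ⟨u, hu⟩
  apply h60q_inv_unif_not_mem φ n hker τ hτ hτ0
  have h1 : ((u⁻¹ : (h60qVal φ n hker τ hτ hτ0 hF)ˣ) : h60qVal φ n hker τ hτ hτ0 hF) *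
      h60qUnif φ n hker τ hτ hτ0 hF = 1 := by
    rw [← hu]
    exact Units.inv_mul u
  have h2 : (((u⁻¹ : (h60qVal φ n hker τ hτ hτ0 hF)ˣ) :
      h60qVal φ n hker τ hτ hτ0 hF) : L) * φ τ = 1 := congrArg Subtype.val h1
  have h3 : (φ τ)⁻¹ = (((u⁻¹ : (h60qVal φ n hker τ hτ hτ0 hF)ˣ) :
      h60qVal φ n hker τ hτ hτ0 hF) : L) := (eq_inv_of_mul_eq_one_left h2).symm
  rw [h3]
  exact Subtype.mem _

/-- the unit `φ a / φ b` of the valuation ring (`a, b ∉ n`). -/
def h60qUnit (hF : H60qFact φ n τ) {a b : B} (ha : a ∉ n) (hb : b ∉ n) :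
    (h60qVal φ n hker τ hτ hτ0 hF)ˣ where
  val := ⟨φ a / φ b, h60q_div_mem φ n hker a hb⟩
  inv := ⟨φ b / φ a, h60q_div_mem φ n hker b ha⟩
  val_inv := by
    apply Subtype.ext
    show φ a / φ b * (φ b / φ a) = 1
    have hb0 := h60q_map_ne_zero φ n hker hb
    have ha0 := h60q_map_ne_zero φ n hker ha
    field_simp
  inv_val := by
    apply Subtype.ext
    show φ b / φ a * (φ a / φ b) = 1
    have hb0 := h60q_map_ne_zero φ n hker hb
    have ha0 := h60q_map_ne_zero φ n hker ha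
    field_simp

theorem h60q_coe_unit (hF : H60qFact φ n τ) {a b : B} (ha : a ∉ n) (hb : b ∉ n) :
    (((h60qUnit φ n hker τ hτ hτ0 hF ha hb : (h60qVal φ n hker τ hτ hτ0 hF)ˣ) :
      h60qVal φ n hker τ hτ hτ0 hF) : L) = φ a / φ b := rfl

/-- every non-zero element of the valuation ring is a unit times a power of the uniformiser. -/
theorem h60q_associated (hF : H60qFact φ n τ) (x : h60qVal φ n hker τ hτ hτ0 hF)
    (hx : x ≠ 0) : ∃ m : ℕ, Associated (h60qUnif φ n hker τ hτ hτ0 hF ^ m) x := by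
  have hx0 : (x : L) ≠ 0 := fun h => hx (Subtype.ext h)
  obtain ⟨d, a, b, ha, hb, h⟩ := hF (x : L) hx0
  have hd : 0 ≤ d := (h60q_mem_iff_nonneg φ n hker τ hτ hτ0 ha hb h).mp x.2
  obtain ⟨m, hm⟩ := Int.eq_ofNat_of_zero_le hd
  refine ⟨m, h60qUnit φ n hker τ hτ hτ0 hF ha hb, ?_⟩
  apply Subtype.ext
  show (φ τ) ^ m * (φ a / φ b) = (x : L)
  have hb0 := h60q_map_ne_zero φ n hker hb
  rw [hm, zpow_natCast] at h
  field_simp
  rw [mul_comm (φ b), h]
  ring

/-- the uniformiser is irreducible. -/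
theorem h60q_irreducible (hF : H60qFact φ n τ) :
    Irreducible (h60qUnif φ n hker τ hτ hτ0 hF) := by
  have hπ0 : h60qUnif φ n hker τ hτ hτ0 hF ≠ 0 := fun h => hτ0 (congrArg Subtype.val h)
  have hnu := h60q_unif_not_isUnit φ n hker τ hτ hτ0 hF
  rw [irreducible_iff]
  refine ⟨hnu, fun y z hyz => ?_⟩
  have hy0 : y ≠ 0 := by
    rintro rfl
    rw [zero_mul] at hyz
    exact hπ0 hyz
  have hz0 : z ≠ 0 := by
    rintro rfl
    rw [mul_zero] at hyz
    exact hπ0 hyz
  obtain ⟨i, u, hu⟩ := h60q_associated φ n hker τ hτ hτ0 hF y hy0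
  obtain ⟨j, u', hu'⟩ := h60q_associated φ n hker τ hτ hτ0 hF z hz0
  rcases Nat.eq_zero_or_pos i with hi | hi
  · left
    rw [← hu, hi, pow_zero, one_mul]
    exact u.isUnit
  rcases Nat.eq_zero_or_pos j with hj | hj
  · right
    rw [← hu', hj, pow_zero, one_mul]
    exact u'.isUnit
  exfalso
  apply hnu
  -- `π = π^(i+j) u u'` with `i + j ≥ 2`
  obtain ⟨k, hk⟩ : ∃ k, i + j = k + 2 := ⟨i + j - 2, by omega⟩
  have h1 : h60qUnif φ n hker τ hτ hτ0 hF * 1 = h60qUnif φ n hker τ hτ hτ0 hF *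
      (h60qUnif φ n hker τ hτ hτ0 hF * (h60qUnif φ n hker τ hτ hτ0 hF ^ k * (u * u'))) := by
    rw [mul_one]
    conv_lhs => rw [hyz, ← hu, ← hu']
    have : h60qUnif φ n hker τ hτ hτ0 hF ^ i * ↑u *
        (h60qUnif φ n hker τ hτ hτ0 hF ^ j * ↑u') =
        h60qUnif φ n hker τ hτ hτ0 hF ^ (i + j) * (↑u * ↑u') := by
      rw [pow_add]
      ring
    rw [this, hk, pow_succ, pow_succ]
    ring
  have h2 := mul_left_cancel₀ hπ0 h1
  exact IsUnit.of_mul_eq_one _ h2.symm

/-- the local ring is a principal ideal ring. -/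
theorem h60q_isPrincipalIdealRing (hF : H60qFact φ n τ) :
    IsPrincipalIdealRing (h60qVal φ n hker τ hτ hτ0 hF) := by
  have h : IsDiscreteValuationRing.HasUnitMulPowIrreducibleFactorization
      (h60qVal φ n hker τ hτ hτ0 hF) :=
    ⟨h60qUnif φ n hker τ hτ hτ0 hF, h60q_irreducible φ n hker τ hτ hτ0 hF,
      fun {x} hx => h60q_associated φ n hker τ hτ hτ0 hF x hx⟩
  have h' := IsDiscreteValuationRing.ofHasUnitMulPowIrreducibleFactorization h
  exact h'.toIsPrincipalIdealRing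

/-- **the place at the prime `n`.** -/
def h60qPlace (hF : H60qFact φ n τ) (hK : ∀ c : K, algebraMap K L c ∈ h60qLoc φ n) :
    Place K L where
  toValuationSubring := h60qVal φ n hker τ hτ hτ0 hF
  algebraMap_mem' := hK
  ne_top' := h60q_val_ne_top φ n hker τ hτ hτ0 hF
  isPrincipalIdealRing' := h60q_isPrincipalIdealRing φ n hker τ hτ hτ0 hF

theorem h60q_mem_place (hF : H60qFact φ n τ) (hK : ∀ c : K, algebraMap K L c ∈ h60qLoc φ n)
    (y : L) :
    y ∈ (h60qPlace φ n hker τ hτ hτ0 hF hK).toValuationSubring ↔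
      ∃ a b : B, b ∉ n ∧ y * φ b = φ a := Iff.rfl

/-- **the order function of the place at `n`.** -/
theorem h60q_place_ord (hF : H60qFact φ n τ) (hK : ∀ c : K, algebraMap K L c ∈ h60qLoc φ n)
    {y : L} {d : ℤ} {a b : B} (ha : a ∉ n) (hb : b ∉ n)
    (h : y * φ b = φ a * (φ τ) ^ d) :
    (h60qPlace φ n hker τ hτ hτ0 hF hK).ord y = d := by
  have hb0 := h60q_map_ne_zero φ n hker hb
  have hy : y = φ a / φ b * (φ τ) ^ d := by
    field_simp
    exact h
  have h1 := (h60qPlace φ n hker τ hτ hτ0 hF hK).ord_unit_smul_zpow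
    (h60qUnit φ n hker τ hτ hτ0 hF ha hb) (π := h60qUnif φ n hker τ hτ hτ0 hF)
    (h60q_irreducible φ n hker τ hτ hτ0 hF) d
  rw [hy]
  exact h1

end Loc

/-! ### By-products: separation of the closed points, and the place over a valuation ring -/

section Sep

variable (φ : B →+* L) (n n' : Ideal B) [hn : n.IsPrime] [hn' : n'.IsPrime]
  (hker : ∀ z : B, φ z = 0 → z ∈ n) (hker' : ∀ z : B, φ z = 0 → z ∈ n')

include hker hker' in
/-- the local ring at `n` determines `n` (one inclusion). -/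
theorem h60q_le_of_loc_le (h : h60qLoc φ n' ≤ h60qLoc φ n) : n ≤ n' := by
  intro b hb
  by_contra hb'
  have hb0 : φ b ≠ 0 := h60q_map_ne_zero φ n' hker' hb'
  have h1 : (φ b)⁻¹ ∈ h60qLoc φ n' :=
    ⟨1, b, hb', by rw [map_one]; exact inv_mul_cancel₀ hb0⟩
  obtain ⟨a'', b'', hb'', h2⟩ := h h1
  have h3 : φ b'' = φ (a'' * b) := by
    rw [map_mul, ← h2]
    field_simp
  have h4 : b'' - a'' * b ∈ n := hker _ (by rw [map_sub, h3, sub_self])
  have h5 : b'' ∈ n := by
    have := n.add_mem h4 (n.mul_mem_left a'' hb)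
    rwa [sub_add_cancel] at this
  exact hb'' h5

include hker hker' in
/-- **separation**: distinct primes (containing `ker φ`) have distinct local rings. -/
theorem h60q_eq_of_loc_eq (h : h60qLoc φ n = h60qLoc φ n') : n = n' :=
  le_antisymm (h60q_le_of_loc_le φ n n' hker hker' h.ge)
    (h60q_le_of_loc_le φ n' n hker' hker h.le)

end Sep

section Over

variable (φ : B →+* L) (n : Ideal B) [hn : n.IsPrime]
  (hker : ∀ z : B, φ z = 0 → z ∈ n) (τ : B) (hτ : τ ∈ n) (hτ0 : φ τ ≠ 0)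

include hker in
/-- the local ring at `n` lies in every valuation ring `W ⊇ φ(B)` whose centre lies in `n`. -/
theorem h60q_loc_le_of_centre (W : ValuationSubring L) (hW : ∀ a : B, φ a ∈ W)
    (hc : ∀ a : B, φ a ∈ W.nonunits → a ∈ n) : h60qLoc φ n ≤ W.toSubring := by
  rintro y ⟨a, b, hb, h⟩
  have hb0 : φ b ≠ 0 := h60q_map_ne_zero φ n hker hb
  have h1 : (φ b)⁻¹ ∈ W := by
    by_contra h2
    exact hb (hc b ((ValuationSubring.mem_nonunits_iff_or W).mpr (Or.inr h2)))
  have h3 : y = φ a * (φ b)⁻¹ := by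
    rw [← h]
    field_simp
  rw [h3]
  exact W.mul_mem _ _ (hW a) h1

include hker hτ hτ0 in
/-- **the place over a valuation ring**: a valuation ring `W ≠ L` containing `φ(B)` whose
centre on `B` lies in `n` IS the local ring at `n`. -/
theorem h60q_val_eq_of_centre (hF : H60qFact φ n τ) (W : ValuationSubring L) (hWtop : W ≠ ⊤)
    (hW : ∀ a : B, φ a ∈ W) (hc : ∀ a : B, φ a ∈ W.nonunits → a ∈ n) :
    h60qVal φ n hker τ hτ hτ0 hF = W := by
  have hle := h60q_loc_le_of_centre φ n hker W hW hc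
  -- units of `W` among the `φ a`
  have hunit : ∀ a : B, a ∉ n → (φ a)⁻¹ ∈ W := by
    intro a ha
    by_contra h2
    exact ha (hc a ((ValuationSubring.mem_nonunits_iff_or W).mpr (Or.inr h2)))
  apply le_antisymm
  · exact fun y hy => hle hy
  · intro y hy
    by_cases hy0 : y = 0
    · rw [hy0]
      exact zero_mem _
    obtain ⟨d, a, b, ha, hb, h⟩ := hF y hy0
    by_cases hd : 0 ≤ d
    · exact (h60q_mem_iff_nonneg φ n hker τ hτ hτ0 ha hb h).mpr hd
    exfalso
    apply hWtop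
    have ha0 := h60q_map_ne_zero φ n hker ha
    have hb0 := h60q_map_ne_zero φ n hker hb
    -- `(φ τ)^d ∈ W`
    have h1 : (φ τ) ^ d ∈ W := by
      have h2 : (φ τ) ^ d = y * φ b * (φ a)⁻¹ := by
        rw [h]
        field_simp
      rw [h2]
      exact W.mul_mem _ _ (W.mul_mem _ _ hy (hW b)) (hunit a ha)
    -- `(φ τ)⁻¹ ∈ W`
    obtain ⟨m, hm⟩ := Int.eq_ofNat_of_zero_le (show 0 ≤ -d - 1 by omega)
    have h3 : (φ τ)⁻¹ ∈ W := by
      have h4 : (φ τ)⁻¹ = (φ τ) ^ d * (φ τ) ^ m := by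
        rw [← zpow_natCast (φ τ) m, ← zpow_add₀ hτ0, ← hm]
        have : d + (-d - 1) = -1 := by ring
        rw [this, zpow_neg_one]
      rw [h4]
      exact W.mul_mem _ _ h1 (pow_mem (hW τ) m)
    -- every element is in `W`
    have hz : ∀ e : ℤ, (φ τ) ^ e ∈ W := by
      intro e
      obtain ⟨k, rfl | rfl⟩ := e.eq_nat_or_neg
      · rw [zpow_natCast]
        exact pow_mem (hW τ) k
      · rw [zpow_neg, zpow_natCast, ← inv_pow]
        exact pow_mem h3 k
    refine SetLike.ext fun z => ⟨fun _ => ValuationSubring.mem_top z, fun _ => ?_⟩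
    by_cases hz0 : z = 0
    · rw [hz0]
      exact zero_mem _
    obtain ⟨e, a', b', ha', hb', h'⟩ := hF z hz0
    have hb0' := h60q_map_ne_zero φ n hker hb'
    have h5 : z = φ a' * (φ τ) ^ e * (φ b')⁻¹ := by
      rw [← h']
      field_simp
    rw [h5]
    exact W.mul_mem _ _ (W.mul_mem _ _ (hW a') (hz e)) (hunit b' hb')

end Over

end Fermat.Agent.P5
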