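import Fermat.Agent.Red.Nz.Final
import Fermat.Agent.Red.GateGoodMain

/-!
# P5 (wave 5, S19), block GEO, leaf RED-DIV (helper60): reduction of principal divisors

**Local conservation of number** in the landed P-RED / `Nz` vocabulary.  `x` a Gauss unit of
`F_M`, `n` a closed point of the special fibre of a chart `R = modelAt M A t`, `t'` a local
uniformiser at `n` (`n = (t') + 𝔪_A R` locally, `t'` a Gauss unit), `T₀` a finite set of places
centred at `n` containing all centred places in the support of `div x`,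
`d = ∑_{v ∈ T₀} ord_v x`.  Then the reduction of `x · t'^(-d)` is a unit at `n`:

* `h60p_redDiv_chart` : `RedUnitAt A R n (x * t' ^ (-d))` (from `h26_local_factor`; `LocUnit` is
  the case `d = 0`).
* `h60p_redDiv_fin`, `h60p_redDiv_inf` : the two charts at a good level, unconditional
  (`gatePieces`), for every local uniformiser.
* `h60p_exists_unif_fin`, `h60p_exists_unif_inf` : local uniformisers exist (`IfaceLocalUnif`).
-/

set_option autoImplicit false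
set_option linter.unusedSectionVars false
set_option linter.unusedVariables false

open AlgebraicCurve ModularCurve WithZero IsLocalRing

noncomputable section

namespace Fermat.Agent.P5

open Fermat.Agent.S37 Fermat.Agent.Red.GV Fermat.Agent.Red.Match Fermat.Agent.Red
  Fermat.Agent.Red.Nz

variable {M : ℕ} [NeZero M] {A : ValuationSubring Kbar} {ℓ : ℕ}

/-- **Local conservation of number at a closed point of a chart.** -/
theorem h60p_redDiv_chart (hℓ : ℓ.Prime) (hM : ¬ ℓ ∣ M) (hA : A.LiesOverPrime ℓ) (t : FF M)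
    (hC : GG.IfaceChart M A t) (hS : GG.IfaceSection M A t)
    (n : Ideal (modelAt M A t)) (hn : n.IsMaximal) (hmax : maxExt A (modelAt M A t) ≤ n)
    (t' : GG.chart M A t) (ht'n : t' ∈ (n : Ideal (GG.chart M A t)))
    (ht'0 : ((t' : GG.chart M A t) : FF M) ≠ 0)
    (ht'V : ((t' : GG.chart M A t) : FF M)⁻¹ ∈ gaussV A M)
    (hprin : ∀ y ∈ (n : Ideal (GG.chart M A t)), ∃ s, s ∉ (n : Ideal (GG.chart M A t)) ∧
      s * y ∈ Ideal.span {t'} ⊔ (maximalIdeal A).map (algebraMap A (GG.chart M A t)))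
    (x : FF M) (hx0 : x ≠ 0) (hxV : x ∈ gaussV A M) (hxiV : x⁻¹ ∈ gaussV A M)
    (T₀ : Finset (Place Kbar (FF M))) (hT₀c : ∀ v ∈ T₀, CenteredAt A (modelAt M A t) n v)
    (hT₀all : ∀ v : Place Kbar (FF M), CenteredAt A (modelAt M A t) n v → v.ord x ≠ 0 →
      v ∈ T₀) :
    RedUnitAt A (modelAt M A t) n
      (x * ((t' : GG.chart M A t) : FF M) ^ (-(∑ v ∈ T₀, v.ord x))) := by
  classical
  have hnP : (n : Ideal (GG.chart M A t)).IsPrime := hn.isPrime
  have hle := h89_map_le t n hmax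
  have htm : t ∈ modelAt M A t :=
    ringAdj_le_modelAt M A t (Fermat.Agent.Red.Match.self_mem_ringAdj M A t)
  have ht'VV : ((t' : GG.chart M A t) : FF M) ∈ gaussV A M := hC.hBV _ t'.2
  have hreg : ∀ v ∈ T₀, t ∈ v.toValuationSubring := fun v hv => by
    obtain ⟨a, ha⟩ := (hT₀c v hv).1 ⟨t, htm⟩
    exact valueAt_mem ha
  set T : Finset (GG.ChartPlace M t) :=
    T₀.subtype (fun v => t ∈ v.toValuationSubring) with hT
  have hTmem : ∀ i : GG.ChartPlace M t, i ∈ T ↔ i.1 ∈ T₀ := fun i => Finset.mem_subtype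
  have hTc : ∀ i ∈ T, h26Centered (GG.chart M A t) (GG.chartVal M t)
      (n : Ideal (GG.chart M A t)) i := fun i hi =>
    h89_h26Centered_of_centeredAt t n hn (hT₀c i.1 ((hTmem i).mp hi)) i.2
  have hval : ∀ i : GG.ChartPlace M t, GG.chartVal M t i x = exp (-(i.1.ord x)) := fun i =>
    i.1.adicValuation_eq_exp_neg_ord hx0
  have hw1 : ∀ k, h26Centered (GG.chart M A t) (GG.chartVal M t)
      (n : Ideal (GG.chart M A t)) k → k ∉ T → GG.chartVal M t k x = 1 := by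
    intro k hk hkT
    have hkc := h89_centeredAt_of_h26Centered t n hn hmax k hk
    have hord : k.1.ord x = 0 := by
      by_contra h0
      exact hkT ((hTmem k).mpr (hT₀all k.1 hkc h0))
    exact h89_adic_eq_one_of_ord_eq_zero k.1 hx0 hord
  have hsum : ∑ i ∈ T, i.1.ord x = ∑ v ∈ T₀, v.ord x :=
    Finset.sum_subtype_of_mem (s := T₀)
      (p := fun v : Place Kbar (FF M) => t ∈ v.toValuationSubring)
      (fun v : Place Kbar (FF M) => v.ord x) hreg
  set d : ℤ := ∑ v ∈ T₀, v.ord x with hd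
  set x' : FF M := x * ((t' : GG.chart M A t) : FF M) ^ (-d) with hx'
  have hx'0 : x' ≠ 0 := mul_ne_zero hx0 (zpow_ne_zero _ ht'0)
  have hx'V : x' ∈ gaussV A M := mul_mem hxV (h26_zpow_mem _ ht'VV ht'V _)
  -- the conclusion from a local unit `ε = x' · y`, `y` with reduction `1`
  have hfinal : ∀ y : FF M, GaussOne A M y →
      (∃ s : GG.chart M A t, s ∉ (n : Ideal (GG.chart M A t)) ∧
        (s : FF M) * (x' * y) ∈ GG.chart M A t ∧ (s : FF M) * (x' * y)⁻¹ ∈ GG.chart M A t) →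
      RedUnitAt A (modelAt M A t) n x' := by
    rintro y ⟨hyV, hy1⟩ ⟨s, hs, hsε, hsε'⟩
    have hy0 : y ≠ 0 := by
      rintro rfl
      have h1 : (⟨(0 : FF M), hyV⟩ : gaussV A M) = 0 := rfl
      rw [h1, map_zero] at hy1
      exact zero_ne_one hy1
    have hxy0 : x' * y ≠ 0 := mul_ne_zero hx'0 hy0
    refine ⟨⟨(s : FF M) * (x' * y), hsε⟩, s, ?_, hs, ?_⟩
    · intro ha
      have h1 : ((⟨(s : FF M) * (x' * y), hsε⟩ : modelAt M A t) *
          ⟨(s : FF M) * (x' * y)⁻¹, hsε'⟩) ∈ n := n.mul_mem_right _ ha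
      have h2 : ((⟨(s : FF M) * (x' * y), hsε⟩ : modelAt M A t) *
          ⟨(s : FF M) * (x' * y)⁻¹, hsε'⟩) = s * s := by
        apply Subtype.ext
        show (s : FF M) * (x' * y) * ((s : FF M) * (x' * y)⁻¹) = (s : FF M) * (s : FF M)
        field_simp
      rw [h2] at h1
      exact hs ((hnP.mem_or_mem h1).elim id id)
    · have hsV : (s : FF M) ∈ gaussV A M := hC.hBV _ s.2
      refine ⟨sub_mem (mul_mem hx'V hsV) (mul_mem hsV (mul_mem hx'V hyV)), ?_⟩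
      have h3 : (⟨x' * (s : FF M) - (s : FF M) * (x' * y),
          sub_mem (mul_mem hx'V hsV) (mul_mem hsV (mul_mem hx'V hyV))⟩ : gaussV A M) =
          ⟨x', hx'V⟩ * ⟨(s : FF M), hsV⟩ - ⟨(s : FF M), hsV⟩ * (⟨x', hx'V⟩ * ⟨y, hyV⟩) := rfl
      rw [h3, map_sub, map_mul, map_mul, map_mul, hy1, mul_one, mul_comm, sub_self]
  by_cases hTe : T = ∅
  · have hw1' : ∀ k, h26Centered (GG.chart M A t) (GG.chartVal M t)
        (n : Ideal (GG.chart M A t)) k → GG.chartVal M t k x = 1 := fun k hk =>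
      hw1 k hk (by rw [hTe]; exact Finset.notMem_empty k)
    obtain ⟨s, hs, h1, h2⟩ :=
      h26_local_unit (h𝔫 := hnP) hC (n : Ideal (GG.chart M A t)) x hxV hxiV hw1'
    have hd0 : d = 0 := by rw [← hsum, hTe, Finset.sum_empty]
    have hxx' : x' = x := by rw [hx', hd0, neg_zero, zpow_zero, mul_one]
    refine hfinal 1 h89_gaussOne_one ⟨s, hs, ?_, ?_⟩
    · rwa [mul_one, hxx']
    · rwa [mul_one, hxx']
  · obtain ⟨i₀, hi₀⟩ := Finset.nonempty_iff_ne_empty.mpr hTe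
    obtain ⟨φ₀, -, -⟩ := hS i₀ (n : Ideal (GG.chart M A t)) hn hle (hTc i₀ hi₀)
    have hex : ∀ i : GG.ChartPlace M t, ∃ φ : GG.chart M A t →ₐ[A] A, i ∈ T →
        ((∀ b : GG.chart M A t, φ b = 0 ↔ GG.chartVal M t i (b : FF M) < 1) ∧
          (RingHom.ker (φ : GG.chart M A t →+* A)).FG) := by
      intro i
      by_cases hi : i ∈ T
      · obtain ⟨φ, h1, h2⟩ := hS i (n : Ideal (GG.chart M A t)) hn hle (hTc i hi)
        exact ⟨φ, fun _ => ⟨h1, h2⟩⟩
      · exact ⟨φ₀, fun h => (hi h).elim⟩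
    choose φ hφ using hex
    obtain ⟨s, hs, h1, h2⟩ := h26_local_factor (h𝔫 := hnP) hC (n : Ideal (GG.chart M A t)) hle
      t' ht'n ht'0
      ht'V hprin T φ (fun i hi => (hφ i hi).1) (fun i hi => (hφ i hi).2) hTc x hxV hxiV
      (fun i => i.1.ord x) (fun i _ => hval i) hw1
    have hci : ∀ i ∈ T, φ i t' ∈ maximalIdeal A := fun i hi =>
      h26_section_local (B := GG.chart M A t) (h𝔫 := hnP) (n : Ideal (GG.chart M A t)) (φ i)
        (fun b hb => hTc i hi b (((hφ i hi).1 b).mp hb)) t' ht'n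
    have hfac : ∀ i ∈ T, ((t' : FF M) - algebraMap A (FF M) (φ i t')) ^ (-(i.1.ord x)) =
        (t' : FF M) ^ (-(i.1.ord x)) *
          (1 + cst M ((-(φ i t') : A) : Kbar) * (t' : FF M)⁻¹) ^ (-(i.1.ord x)) := by
      intro i _
      rw [← mul_zpow]
      congr 1
      have h3 : algebraMap A (FF M) (φ i t') = cst M ((φ i t' : A) : Kbar) := rfl
      have h4 : cst M ((-(φ i t') : A) : Kbar) = - cst M ((φ i t' : A) : Kbar) := by
        simp only [cst, NegMemClass.coe_neg, map_neg]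
      rw [h3, h4]
      field_simp
      ring
    have hprod : x * ∏ i ∈ T, ((t' : FF M) - algebraMap A (FF M) (φ i t')) ^ (-(i.1.ord x)) =
        x' * ∏ i ∈ T, (1 + cst M ((-(φ i t') : A) : Kbar) * (t' : FF M)⁻¹) ^ (-(i.1.ord x)) := by
      rw [Finset.prod_congr rfl hfac, Finset.prod_mul_distrib, h26_prod_zpow_const T _ ht'0,
        Finset.sum_neg_distrib, hsum, hx', mul_assoc]
    rw [hprod] at h1 h2
    exact hfinal _
      (h89_gaussOne_prod T _ (fun i hi =>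
        h89_gaussOne_zpow hℓ hM hA (h89_gaussOne_one_add _ (neg_mem (hci i hi)) ht'V) _))
      ⟨s, hs, h1, h2⟩

/-! ### Corollaries -/

omit [NeZero M] in
/-- `GaussSmall` is stable under multiplication by Gauss-integral functions. -/
theorem h60p_gaussSmall_mul {z y : FF M} (hz : GaussSmall A M z) (hy : y ∈ gaussV A M) :
    GaussSmall A M (z * y) := by
  obtain ⟨hzV, hz0⟩ := hz
  refine ⟨mul_mem hzV hy, ?_⟩
  have h1 : (⟨z * y, mul_mem hzV hy⟩ : gaussV A M) = ⟨z, hzV⟩ * ⟨y, hy⟩ := rfl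
  rw [h1, map_mul, hz0, zero_mul]

/-- **Regularity of the reduction**: if `d + e ≥ 0` (`d` the local degree of `div x` at `n`),
then the reduction of `x · t'^e` is regular at `n`: `x̄ t̄'^e b̄ = ā` with `b ∉ n`. -/
theorem h60p_redDiv_regular (hℓ : ℓ.Prime) (hM : ¬ ℓ ∣ M) (hA : A.LiesOverPrime ℓ) (t : FF M)
    (hC : GG.IfaceChart M A t) (hS : GG.IfaceSection M A t)
    (n : Ideal (modelAt M A t)) (hn : n.IsMaximal) (hmax : maxExt A (modelAt M A t) ≤ n)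
    (t' : GG.chart M A t) (ht'n : t' ∈ (n : Ideal (GG.chart M A t)))
    (ht'0 : ((t' : GG.chart M A t) : FF M) ≠ 0)
    (ht'V : ((t' : GG.chart M A t) : FF M)⁻¹ ∈ gaussV A M)
    (hprin : ∀ y ∈ (n : Ideal (GG.chart M A t)), ∃ s, s ∉ (n : Ideal (GG.chart M A t)) ∧
      s * y ∈ Ideal.span {t'} ⊔ (maximalIdeal A).map (algebraMap A (GG.chart M A t)))
    (x : FF M) (hx0 : x ≠ 0) (hxV : x ∈ gaussV A M) (hxiV : x⁻¹ ∈ gaussV A M)
    (T₀ : Finset (Place Kbar (FF M))) (hT₀c : ∀ v ∈ T₀, CenteredAt A (modelAt M A t) n v)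
    (hT₀all : ∀ v : Place Kbar (FF M), CenteredAt A (modelAt M A t) n v → v.ord x ≠ 0 →
      v ∈ T₀)
    (e : ℕ) (hde : 0 ≤ (∑ v ∈ T₀, v.ord x) + e) :
    ∃ a b : modelAt M A t, b ∉ n ∧
      GaussSmall A M (x * ((t' : GG.chart M A t) : FF M) ^ e * (b : FF M) - (a : FF M)) := by
  obtain ⟨a₀, b₀, -, hb₀, hsm⟩ := h60p_redDiv_chart hℓ hM hA t hC hS n hn hmax t' ht'n ht'0
    ht'V hprin x hx0 hxV hxiV T₀ hT₀c hT₀all
  set d : ℤ := ∑ v ∈ T₀, v.ord x with hd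
  obtain ⟨m, hm⟩ := Int.eq_ofNat_of_zero_le hde
  have ht'VV : ((t' : GG.chart M A t) : FF M) ∈ gaussV A M := hC.hBV _ t'.2
  have htm : ((t' : GG.chart M A t) : FF M) ^ m ∈ modelAt M A t := pow_mem t'.2 m
  refine ⟨a₀ * ⟨((t' : GG.chart M A t) : FF M) ^ m, htm⟩, b₀, hb₀, ?_⟩
  have h1 := h60p_gaussSmall_mul hsm (pow_mem ht'VV m)
  have h2 : (x * ((t' : GG.chart M A t) : FF M) ^ (-d) * (b₀ : FF M) - (a₀ : FF M)) *
      ((t' : GG.chart M A t) : FF M) ^ m =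
      x * ((t' : GG.chart M A t) : FF M) ^ e * (b₀ : FF M) -
        ((a₀ * ⟨((t' : GG.chart M A t) : FF M) ^ m, htm⟩ : modelAt M A t) : FF M) := by
    have h3 : ((t' : GG.chart M A t) : FF M) ^ (-d) * ((t' : GG.chart M A t) : FF M) ^ m =
        ((t' : GG.chart M A t) : FF M) ^ e := by
      rw [← zpow_natCast _ m, ← zpow_add₀ ht'0, ← zpow_natCast _ e]
      congr 1
      omega
    have h4 : ((a₀ * ⟨((t' : GG.chart M A t) : FF M) ^ m, htm⟩ : modelAt M A t) : FF M) =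
        (a₀ : FF M) * ((t' : GG.chart M A t) : FF M) ^ m := rfl
    rw [h4, ← h3]
    ring
  rw [h2] at h1
  exact h1

/-! ### The two charts at a good level (unconditional) -/

/-- local uniformisers at the closed points of the finite chart (good level). -/
theorem h60p_exists_unif_fin (hℓ : ℓ.Prime) (hM : ¬ ℓ ∣ M) (haux : auxLevel ℓ ∣ M)
    (hA : A.LiesOverPrime ℓ)
    (n : Ideal (GG.chart M A (jB M))) (hn : n.IsMaximal)
    (hle : (maximalIdeal A).map (algebraMap A (GG.chart M A (jB M))) ≤ n) :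
    ∃ t' ∈ n, ((t' : GG.chart M A (jB M)) : FF M) ≠ 0 ∧
      ((t' : GG.chart M A (jB M)) : FF M)⁻¹ ∈ gaussV A M ∧
      ∀ y ∈ n, ∃ s, s ∉ n ∧
        s * y ∈ Ideal.span {t'} ⊔ (maximalIdeal A).map (algebraMap A (GG.chart M A (jB M))) := by
  obtain ⟨-, -, -, -, ⟨hU, -⟩⟩ := GG.gatePieces ℓ hℓ M hM haux A hA
  exact hU n hn hle

/-- local uniformisers at the closed points of the chart at infinity (good level). -/
theorem h60p_exists_unif_inf (hℓ : ℓ.Prime) (hM : ¬ ℓ ∣ M) (haux : auxLevel ℓ ∣ M)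
    (hA : A.LiesOverPrime ℓ)
    (n : Ideal (GG.chart M A (jB M)⁻¹)) (hn : n.IsMaximal)
    (hle : (maximalIdeal A).map (algebraMap A (GG.chart M A (jB M)⁻¹)) ≤ n) :
    ∃ t' ∈ n, ((t' : GG.chart M A (jB M)⁻¹) : FF M) ≠ 0 ∧
      ((t' : GG.chart M A (jB M)⁻¹) : FF M)⁻¹ ∈ gaussV A M ∧
      ∀ y ∈ n, ∃ s, s ∉ n ∧
        s * y ∈ Ideal.span {t'} ⊔
          (maximalIdeal A).map (algebraMap A (GG.chart M A (jB M)⁻¹)) := by
  obtain ⟨-, -, -, -, ⟨-, hU⟩⟩ := GG.gatePieces ℓ hℓ M hM haux A hA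
  exact hU n hn hle

/-- **RED-DIV, finite chart** (good level, unconditional). -/
theorem h60p_redDiv_fin (hℓ : ℓ.Prime) (hM : ¬ ℓ ∣ M) (haux : auxLevel ℓ ∣ M)
    (hA : A.LiesOverPrime ℓ)
    (n : Ideal (modelFin M A)) (hn : n.IsMaximal) (hmax : maxExt A (modelFin M A) ≤ n)
    (t' : GG.chart M A (jB M)) (ht'n : t' ∈ (n : Ideal (GG.chart M A (jB M))))
    (ht'0 : ((t' : GG.chart M A (jB M)) : FF M) ≠ 0)
    (ht'V : ((t' : GG.chart M A (jB M)) : FF M)⁻¹ ∈ gaussV A M)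
    (hprin : ∀ y ∈ (n : Ideal (GG.chart M A (jB M))), ∃ s,
      s ∉ (n : Ideal (GG.chart M A (jB M))) ∧
      s * y ∈ Ideal.span {t'} ⊔ (maximalIdeal A).map (algebraMap A (GG.chart M A (jB M))))
    (x : FF M) (hx0 : x ≠ 0) (hxV : x ∈ gaussV A M) (hxiV : x⁻¹ ∈ gaussV A M)
    (T₀ : Finset (Place Kbar (FF M))) (hT₀c : ∀ v ∈ T₀, CenteredAt A (modelFin M A) n v)
    (hT₀all : ∀ v : Place Kbar (FF M), CenteredAt A (modelFin M A) n v → v.ord x ≠ 0 →
      v ∈ T₀) :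
    RedUnitAt A (modelFin M A) n
      (x * ((t' : GG.chart M A (jB M)) : FF M) ^ (-(∑ v ∈ T₀, v.ord x))) := by
  obtain ⟨⟨hC, -⟩, -, ⟨hS, -⟩, -, -⟩ := GG.gatePieces ℓ hℓ M hM haux A hA
  exact h60p_redDiv_chart hℓ hM hA (jB M) hC hS n hn hmax t' ht'n ht'0 ht'V hprin x hx0 hxV
    hxiV T₀ hT₀c hT₀all

/-- **RED-DIV, chart at infinity** (good level, unconditional). -/
theorem h60p_redDiv_inf (hℓ : ℓ.Prime) (hM : ¬ ℓ ∣ M) (haux : auxLevel ℓ ∣ M)
    (hA : A.LiesOverPrime ℓ)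
    (n : Ideal (modelInf M A)) (hn : n.IsMaximal) (hmax : maxExt A (modelInf M A) ≤ n)
    (t' : GG.chart M A (jB M)⁻¹) (ht'n : t' ∈ (n : Ideal (GG.chart M A (jB M)⁻¹)))
    (ht'0 : ((t' : GG.chart M A (jB M)⁻¹) : FF M) ≠ 0)
    (ht'V : ((t' : GG.chart M A (jB M)⁻¹) : FF M)⁻¹ ∈ gaussV A M)
    (hprin : ∀ y ∈ (n : Ideal (GG.chart M A (jB M)⁻¹)), ∃ s,
      s ∉ (n : Ideal (GG.chart M A (jB M)⁻¹)) ∧
      s * y ∈ Ideal.span {t'} ⊔ (maximalIdeal A).map (algebraMap A (GG.chart M A (jB M)⁻¹)))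
    (x : FF M) (hx0 : x ≠ 0) (hxV : x ∈ gaussV A M) (hxiV : x⁻¹ ∈ gaussV A M)
    (T₀ : Finset (Place Kbar (FF M))) (hT₀c : ∀ v ∈ T₀, CenteredAt A (modelInf M A) n v)
    (hT₀all : ∀ v : Place Kbar (FF M), CenteredAt A (modelInf M A) n v → v.ord x ≠ 0 →
      v ∈ T₀) :
    RedUnitAt A (modelInf M A) n
      (x * ((t' : GG.chart M A (jB M)⁻¹) : FF M) ^ (-(∑ v ∈ T₀, v.ord x))) := by
  obtain ⟨⟨-, hC⟩, -, ⟨-, hS⟩, -, -⟩ := GG.gatePieces ℓ hℓ M hM haux A hA
  exact h60p_redDiv_chart hℓ hM hA (jB M)⁻¹ hC hS n hn hmax t' ht'n ht'0 ht'V hprin x hx0 hxV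
    hxiV T₀ hT₀c hT₀all

end Fermat.Agent.P5
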