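import Fermat.Agent.P5.H37DiscIface
import Fermat.Agent.Red.GGSection
import Fermat.Agent.Red.LocalNak
import Fermat.Agent.Red.MatchLoc

/-!
# P5 (wave 5, S19), block GEO-DISC, assembly (helper62), part 1: the local ring of a residue disc

`B = GG.chart M A (jB M)` the finite chart of the normal model over `A` (`= modelFin M A`),
`φ_v = h62qEv A hv : B →ₐ[A] A` the evaluation at a finite place `v`,
`𝔫_v = h62qCen A hv = φ_v⁻¹(𝔪_A)` its centre (a maximal ideal of `B` containing `𝔪_A B`),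
`O = h62qO A 𝔫` the localisation of `B` at `𝔫` inside `FF M`.

* `h62q_cen_eq_of_sameRed`, `h62q_sameRed_of_cen_eq` : `SameRed A P Q ↔ 𝔫_P = 𝔫_Q`.
* `h62q_O_cst`, `h62q_O_model`, `h62q_O_val`, `h62q_O_unit` : the easy fields of `H37DiscAt`.
* `h62q_O_div` : the DIVISION property from a local parameter `t` at `𝔫`
  (`Red/LocalNak.lean`, `h26_local_ker_principal`) and finite generation of `ker φ_P`.
-/

set_option autoImplicit false
set_option linter.unusedSectionVars false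
set_option linter.unusedVariables false
set_option linter.style.longLine false

open AlgebraicCurve ModularCurve IsLocalRing

noncomputable section

namespace Fermat.Agent.P5

open Fermat.Agent.S37 Fermat.Agent.Red Fermat.Agent.Red.GG Fermat.Agent.Red.Match

variable {M : ℕ} [NeZero M] (A : ValuationSubring Kbar)

/-- `IsFinAt` in the form used by `GG.chartEv`. -/
theorem h62q_hx {v : Place Kbar (FF M)} (hv : IsFinAt A v) :
    ∃ a : A, ValueAt v (jB M) (a : Kbar) := by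
  obtain ⟨a, ha, h⟩ := hv
  exact ⟨⟨a, ha⟩, h⟩

/-- the evaluation of the finite chart at a finite place. -/
def h62qEv {v : Place Kbar (FF M)} (hv : IsFinAt A v) : chart M A (jB M) →ₐ[A] A :=
  chartEv A (jB M) v (h62q_hx A hv)

theorem h62q_ev_spec {v : Place Kbar (FF M)} (hv : IsFinAt A v) (b : chart M A (jB M)) :
    ValueAt v (b : FF M) ((h62qEv A hv b : A) : Kbar) :=
  chartEv_spec A (jB M) v (h62q_hx A hv) b

theorem h62q_ev_eq {v : Place Kbar (FF M)} (hv : IsFinAt A v) (b : chart M A (jB M)) {a : Kbar}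
    (h : ValueAt v (b : FF M) a) : ((h62qEv A hv b : A) : Kbar) = a :=
  chartEv_eq A (jB M) v (h62q_hx A hv) b h

theorem h62q_ev_algebraMap {v : Place Kbar (FF M)} (hv : IsFinAt A v) (a : A) :
    h62qEv A hv (algebraMap A (chart M A (jB M)) a) = a := by
  rw [AlgHom.commutes]
  rfl

theorem h62q_ev_surjective {v : Place Kbar (FF M)} (hv : IsFinAt A v) :
    Function.Surjective (h62qEv A hv : chart M A (jB M) →+* A) :=
  fun a => ⟨algebraMap A (chart M A (jB M)) a, h62q_ev_algebraMap A hv a⟩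

/-- the centre of a finite place on the finite chart. -/
def h62qCen {v : Place Kbar (FF M)} (hv : IsFinAt A v) : Ideal (chart M A (jB M)) :=
  (maximalIdeal A).comap (h62qEv A hv : chart M A (jB M) →+* A)

theorem h62q_mem_cen {v : Place Kbar (FF M)} (hv : IsFinAt A v) (b : chart M A (jB M)) :
    b ∈ h62qCen A hv ↔ h62qEv A hv b ∈ maximalIdeal A :=
  Iff.rfl

theorem h62q_mem_cen_iff {v : Place Kbar (FF M)} (hv : IsFinAt A v) (b : chart M A (jB M)) :
    b ∈ h62qCen A hv ↔ ((h62qEv A hv b : A) : Kbar) ∈ A.nonunits := by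
  rw [h62q_mem_cen, ValuationSubring.coe_mem_nonunits_iff]

theorem h62q_cen_isMaximal {v : Place Kbar (FF M)} (hv : IsFinAt A v) :
    (h62qCen A hv).IsMaximal :=
  Ideal.comap_isMaximal_of_surjective _ (h62q_ev_surjective A hv)

theorem h62q_map_le_cen {v : Place Kbar (FF M)} (hv : IsFinAt A v) :
    (maximalIdeal A).map (algebraMap A (chart M A (jB M))) ≤ h62qCen A hv := by
  rw [Ideal.map_le_iff_le_comap]
  intro a ha
  rw [Ideal.mem_comap, h62q_mem_cen, h62q_ev_algebraMap]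
  exact ha

theorem h62q_ker_le_cen {v : Place Kbar (FF M)} (hv : IsFinAt A v) :
    RingHom.ker (h62qEv A hv : chart M A (jB M) →+* A) ≤ h62qCen A hv := by
  intro b hb
  rw [RingHom.mem_ker] at hb
  rw [h62q_mem_cen]
  have h1 : h62qEv A hv b = 0 := hb
  rw [h1]
  exact zero_mem _

/-- the values at two places with the same reduction are congruent. -/
theorem h62q_ev_sub_mem {P Q : Place Kbar (FF M)} (hP : IsFinAt A P) (hQ : IsFinAt A Q)
    (h : SameRed A P Q) (b : chart M A (jB M)) :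
    h62qEv A hP b - h62qEv A hQ b ∈ maximalIdeal A := by
  rcases h with ⟨-, -, hc⟩ | ⟨h1, -, -⟩
  · obtain ⟨a, c, ha, hc', hva, hwc, hac⟩ := hc (b : FF M) b.2
    rw [← ValuationSubring.coe_mem_nonunits_iff]
    have e1 := h62q_ev_eq A hP b hva
    have e2 := h62q_ev_eq A hQ b hwc
    have e3 : ((h62qEv A hP b - h62qEv A hQ b : A) : Kbar) = a - c := by
      rw [← e1, ← e2]
      rfl
    rw [e3]
    exact hac
  · exact (h1 hP).elim

theorem h62q_cen_eq_of_sameRed {P Q : Place Kbar (FF M)} (hP : IsFinAt A P) (hQ : IsFinAt A Q)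
    (h : SameRed A P Q) : h62qCen A hP = h62qCen A hQ := by
  ext b
  rw [h62q_mem_cen, h62q_mem_cen]
  have h1 := h62q_ev_sub_mem A hP hQ h b
  constructor
  · intro h2
    have h3 := (maximalIdeal A).sub_mem h2 h1
    rwa [sub_sub_cancel] at h3
  · intro h2
    have h3 := (maximalIdeal A).add_mem h1 h2
    rwa [sub_add_cancel] at h3

theorem h62q_sameRed_of_cen_le {P Q : Place Kbar (FF M)} (hP : IsFinAt A P) (hQ : IsFinAt A Q)
    (h : RingHom.ker (h62qEv A hP : chart M A (jB M) →+* A) ≤ h62qCen A hQ) :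
    SameRed A P Q := by
  refine Or.inl ⟨hP, hQ, fun f hf => ?_⟩
  set b : chart M A (jB M) := ⟨f, hf⟩ with hb
  refine ⟨((h62qEv A hP b : A) : Kbar), ((h62qEv A hQ b : A) : Kbar), (h62qEv A hP b).2,
    (h62qEv A hQ b).2, h62q_ev_spec A hP b, h62q_ev_spec A hQ b, ?_⟩
  have h1 : b - algebraMap A (chart M A (jB M)) (h62qEv A hP b) ∈
      RingHom.ker (h62qEv A hP : chart M A (jB M) →+* A) := by
    rw [RingHom.mem_ker]
    show h62qEv A hP (b - algebraMap A (chart M A (jB M)) (h62qEv A hP b)) = 0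
    rw [map_sub, h62q_ev_algebraMap, sub_self]
  have h2 := h h1
  rw [h62q_mem_cen, map_sub, h62q_ev_algebraMap] at h2
  have h3 : ((h62qEv A hP b : A) : Kbar) - ((h62qEv A hQ b : A) : Kbar) =
      -(((h62qEv A hQ b - h62qEv A hP b : A) : A) : Kbar) := by
    push_cast
    ring
  rw [h3]
  exact neg_mem (ValuationSubring.coe_mem_nonunits_iff.mpr h2)

/-! ## The local ring -/

/-- the localisation of the finite chart at the prime `𝔫`, inside `FF M`. -/
def h62qO (𝔫 : Ideal (chart M A (jB M))) [h𝔫 : 𝔫.IsPrime] : Subring (FF M) where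
  carrier := {f | ∃ r s : chart M A (jB M), s ∉ 𝔫 ∧ f * (s : FF M) = (r : FF M)}
  mul_mem' := by
    rintro f g ⟨r, s, hs, hf⟩ ⟨r', s', hs', hg⟩
    refine ⟨r * r', s * s', fun h => (h𝔫.mem_or_mem h).elim hs hs', ?_⟩
    push_cast
    rw [← hf, ← hg]
    ring
  one_mem' := ⟨1, 1, (Ideal.ne_top_iff_one 𝔫).mp h𝔫.ne_top, by simp⟩
  add_mem' := by
    rintro f g ⟨r, s, hs, hf⟩ ⟨r', s', hs', hg⟩
    refine ⟨r * s' + r' * s, s * s', fun h => (h𝔫.mem_or_mem h).elim hs hs', ?_⟩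
    push_cast
    rw [← hf, ← hg]
    ring
  zero_mem' := ⟨0, 1, (Ideal.ne_top_iff_one 𝔫).mp h𝔫.ne_top, by simp⟩
  neg_mem' := by
    rintro f ⟨r, s, hs, hf⟩
    refine ⟨-r, s, hs, ?_⟩
    push_cast
    rw [← hf]
    ring

theorem h62q_mem_O {𝔫 : Ideal (chart M A (jB M))} [h𝔫 : 𝔫.IsPrime] {f : FF M} :
    f ∈ h62qO A 𝔫 ↔ ∃ r s : chart M A (jB M), s ∉ 𝔫 ∧ f * (s : FF M) = (r : FF M) :=
  Iff.rfl

theorem h62q_chart_le_O (𝔫 : Ideal (chart M A (jB M))) [h𝔫 : 𝔫.IsPrime] (b : chart M A (jB M)) :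
    (b : FF M) ∈ h62qO A 𝔫 :=
  ⟨b, 1, (Ideal.ne_top_iff_one 𝔫).mp h𝔫.ne_top, by simp⟩

theorem h62q_O_model (𝔫 : Ideal (chart M A (jB M))) [h𝔫 : 𝔫.IsPrime] :
    ∀ b ∈ modelFin M A, b ∈ h62qO A 𝔫 :=
  fun b hb => h62q_chart_le_O A 𝔫 ⟨b, hb⟩

theorem h62q_O_cst (𝔫 : Ideal (chart M A (jB M))) [h𝔫 : 𝔫.IsPrime] :
    ∀ a, a ∈ A → cst M a ∈ h62qO A 𝔫 :=
  fun a ha => h62q_chart_le_O A 𝔫 (algebraMap A (chart M A (jB M)) ⟨a, ha⟩)

/-- a function of the chart outside the centre of `P` has a unit value at `P`. -/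
theorem h62q_unit_of_not_mem {P : Place Kbar (FF M)} (hP : IsFinAt A P)
    {s : chart M A (jB M)} (hs : s ∉ h62qCen A hP) :
    ((h62qEv A hP s : A) : Kbar) ≠ 0 ∧ ((h62qEv A hP s : A) : Kbar)⁻¹ ∈ A := by
  have h1 : ((h62qEv A hP s : A) : Kbar) ∉ A.nonunits := fun h =>
    hs ((h62q_mem_cen_iff A hP s).mpr h)
  rw [ValuationSubring.mem_nonunits_iff_or, not_or, not_not] at h1
  exact h1

/-- the value of an element of the local ring. -/
theorem h62q_O_value {P : Place Kbar (FF M)} (hP : IsFinAt A P) {f : FF M}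
    {r s : chart M A (jB M)} (hs : s ∉ h62qCen A hP) (hf : f * (s : FF M) = (r : FF M)) :
    ValueAt P f (((h62qEv A hP r : A) : Kbar) * ((h62qEv A hP s : A) : Kbar)⁻¹) := by
  obtain ⟨h0, -⟩ := h62q_unit_of_not_mem A hP hs
  have hs0 : (s : FF M) ≠ 0 := by
    intro h
    have h1 := h62q_ev_spec A hP s
    rw [h] at h1
    exact h0 (valueAt_unique h1 (valueAt_zero P))
  have hf' : f = (r : FF M) * (s : FF M)⁻¹ := (eq_mul_inv_iff_mul_eq₀ hs0).mpr hf
  rw [hf']
  exact valueAt_mul (h62q_ev_spec A hP r) (valueAt_inv (h62q_ev_spec A hP s) h0)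

theorem h62q_O_val {Q : Place Kbar (FF M)} (hQ : IsFinAt A Q)
    [h𝔫 : (h62qCen A hQ).IsPrime] :
    ∀ f ∈ h62qO A (h62qCen A hQ), ∀ P, SameRed A P Q → ∃ a ∈ A, ValueAt P f a := by
  rintro f ⟨r, s, hs, hf⟩ P hPQ
  have hP : IsFinAt A P := (sameRed_isFinAt_iff hPQ).mpr hQ
  have hcen := h62q_cen_eq_of_sameRed A hP hQ hPQ
  have hs' : s ∉ h62qCen A hP := by rw [hcen]; exact hs
  obtain ⟨-, h1⟩ := h62q_unit_of_not_mem A hP hs'
  exact ⟨_, A.mul_mem _ _ (h62qEv A hP r).2 h1, h62q_O_value A hP hs' hf⟩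

theorem h62q_O_unit {Q : Place Kbar (FF M)} (hQ : IsFinAt A Q)
    [h𝔫 : (h62qCen A hQ).IsPrime] :
    ∀ f ∈ h62qO A (h62qCen A hQ), ∀ a, ValueAt Q f a → a ≠ 0 → a⁻¹ ∈ A →
      f⁻¹ ∈ h62qO A (h62qCen A hQ) := by
  rintro f ⟨r, s, hs, hf⟩ a hfa ha0 hainv
  obtain ⟨hs0, hsinv⟩ := h62q_unit_of_not_mem A hQ hs
  have hf0 : f ≠ 0 := by
    intro h
    rw [h] at hfa
    exact ha0 (valueAt_unique hfa (valueAt_zero Q))
  -- the value of `r` at `Q` is `a * s(Q)`, a unit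
  have hr : ValueAt Q (r : FF M) (a * ((h62qEv A hQ s : A) : Kbar)) := by
    rw [← hf]
    exact valueAt_mul hfa (h62q_ev_spec A hQ s)
  have hr' := h62q_ev_eq A hQ r hr
  have hrn : r ∉ h62qCen A hQ := by
    rw [h62q_mem_cen_iff, hr', ValuationSubring.mem_nonunits_iff_or, not_or, not_not]
    refine ⟨mul_ne_zero ha0 hs0, ?_⟩
    rw [mul_inv]
    exact A.mul_mem _ _ hainv hsinv
  refine ⟨s, r, hrn, ?_⟩
  rw [← hf]
  field_simp

end Fermat.Agent.P5
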