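import Fermat.Agent.P5.H62Disc

/-!
# P5 (wave 5, S19), block GEO-DISC, assembly (helper62), part 2: DIVISION and injectivity

* `h62q_div_chart`, `h62q_O_div` : `f - f(P) = (t - t(P)) h`, `h ∈ O`, for every point `P` of the
  residue disc, from a local parameter `t` at the centre (`h26_local_ker_principal`).
* `h62q_ev_eq_of_value` : two points of the disc with the same `t`-value have the same
  evaluation on the chart.
-/

set_option autoImplicit false
set_option linter.unusedSectionVars false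
set_option linter.unusedVariables false
set_option linter.style.longLine false

open AlgebraicCurve ModularCurve IsLocalRing

noncomputable section

namespace Fermat.Agent.P5

open Fermat.Agent.S37 Fermat.Agent.Red Fermat.Agent.Red.GG Fermat.Agent.Red.Match

variable {M : ℕ} [NeZero M] (A : ValuationSubring Kbar)

theorem h62q_coe_ne_zero {P : Place Kbar (FF M)} (hP : IsFinAt A P)
    {s : chart M A (jB M)} (hs : s ∉ h62qCen A hP) : (s : FF M) ≠ 0 := by
  obtain ⟨h0, -⟩ := h62q_unit_of_not_mem A hP hs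
  intro h
  have h1 := h62q_ev_spec A hP s
  rw [h] at h1
  exact h0 (valueAt_unique h1 (valueAt_zero P))

theorem h62q_inv_mem_O {Q : Place Kbar (FF M)} (hQ : IsFinAt A Q)
    [h𝔫 : (h62qCen A hQ).IsPrime] {s : chart M A (jB M)} (hs : s ∉ h62qCen A hQ) :
    (s : FF M)⁻¹ ∈ h62qO A (h62qCen A hQ) :=
  ⟨1, s, hs, by
    rw [inv_mul_cancel₀ (h62q_coe_ne_zero A hQ hs)]
    rfl⟩

/-- the local parameter hypothesis at the centre of `Q`. -/
def H62qParam {Q : Place Kbar (FF M)} (hQ : IsFinAt A Q) (t : chart M A (jB M)) : Prop :=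
  t ∈ h62qCen A hQ ∧ ∀ y ∈ h62qCen A hQ, ∃ s, s ∉ h62qCen A hQ ∧
    s * y ∈ Ideal.span {t} ⊔ (maximalIdeal A).map (algebraMap A (chart M A (jB M)))

/-- DIVISION for the functions of the chart. -/
theorem h62q_div_chart {Q : Place Kbar (FF M)} (hQ : IsFinAt A Q)
    [h𝔫 : (h62qCen A hQ).IsPrime] (hfin : IfaceFinite M A (jB M))
    (t : chart M A (jB M)) (ht : H62qParam A hQ t)
    {P : Place Kbar (FF M)} (hP : IsFinAt A P) (hPQ : SameRed A P Q) (b : chart M A (jB M)) :
    ∃ h ∈ h62qO A (h62qCen A hQ),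
      (b : FF M) - cst M ((h62qEv A hP b : A) : Kbar) =
        ((t : FF M) - cst M ((h62qEv A hP t : A) : Kbar)) * h := by
  have hcen := h62q_cen_eq_of_sameRed A hP hQ hPQ
  have hφ : ∀ y ∈ h62qCen A hQ, h62qEv A hP y ∈ maximalIdeal A := by
    intro y hy
    rw [← hcen] at hy
    exact hy
  have hker : RingHom.ker (h62qEv A hP : chart M A (jB M) →+* A) ≤ h62qCen A hQ := by
    rw [← hcen]
    exact h62q_ker_le_cen A hP
  have hfg : (RingHom.ker (h62qEv A hP : chart M A (jB M) →+* A)).FG :=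
    ker_chartEv_fg A (jB M) P (h62q_hx A hP) hfin
  have key := h26_local_ker_principal (maximalIdeal A) (h62qCen A hQ) t ht.1 ht.2
    (h62q_map_le_cen A hQ) (h62qEv A hP) hφ hker hfg
  have hy : b - algebraMap A (chart M A (jB M)) (h62qEv A hP b) ∈
      RingHom.ker (h62qEv A hP : chart M A (jB M) →+* A) := by
    rw [RingHom.mem_ker]
    show h62qEv A hP (b - algebraMap A (chart M A (jB M)) (h62qEv A hP b)) = 0
    rw [map_sub, h62q_ev_algebraMap, sub_self]
  obtain ⟨s, hs, hsy⟩ := key _ hy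
  obtain ⟨c, hc⟩ := Ideal.mem_span_singleton'.mp hsy
  have hs0 : (s : FF M) ≠ 0 := h62q_coe_ne_zero A hQ hs
  refine ⟨(c : FF M) * (s : FF M)⁻¹,
    mul_mem (h62q_chart_le_O A _ c) (h62q_inv_mem_O A hQ hs), ?_⟩
  have hc' := congrArg (fun x : chart M A (jB M) => (x : FF M)) hc
  simp only [MulMemClass.coe_mul, AddSubgroupClass.coe_sub, coe_algebraMap_chart] at hc'
  -- `c * (t - t(P)) = s * (b - b(P))`
  have h1 : (b : FF M) - cst M ((h62qEv A hP b : A) : Kbar) =
      ((c : FF M) * ((t : FF M) - cst M ((h62qEv A hP t : A) : Kbar))) * (s : FF M)⁻¹ := by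
    rw [hc']
    field_simp
  rw [h1]
  ring

/-- **DIVISION** in the local ring of the residue disc. -/
theorem h62q_O_div {Q : Place Kbar (FF M)} (hQ : IsFinAt A Q)
    [h𝔫 : (h62qCen A hQ).IsPrime] (hfin : IfaceFinite M A (jB M))
    (t : chart M A (jB M)) (ht : H62qParam A hQ t) :
    ∀ f ∈ h62qO A (h62qCen A hQ), ∀ P, SameRed A P Q → ∀ a a', ValueAt P f a →
      ValueAt P (t : FF M) a' →
      ∃ h ∈ h62qO A (h62qCen A hQ), f - cst M a = ((t : FF M) - cst M a') * h := by
  rintro f ⟨r, s, hs, hf⟩ P hPQ a a' hfa hta'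
  have hP : IsFinAt A P := (sameRed_isFinAt_iff hPQ).mpr hQ
  have hcen := h62q_cen_eq_of_sameRed A hP hQ hPQ
  have hs' : s ∉ h62qCen A hP := by rw [hcen]; exact hs
  obtain ⟨hs1, hs2⟩ := h62q_unit_of_not_mem A hP hs'
  have hs0 : (s : FF M) ≠ 0 := h62q_coe_ne_zero A hQ hs
  -- the values
  have ha : a = ((h62qEv A hP r : A) : Kbar) * ((h62qEv A hP s : A) : Kbar)⁻¹ :=
    valueAt_unique hfa (h62q_O_value A hP hs' hf)
  have ha' : ((h62qEv A hP t : A) : Kbar) = a' := h62q_ev_eq A hP t hta'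
  have haA : a ∈ A := by
    rw [ha]
    exact A.mul_mem _ _ (h62qEv A hP r).2 hs2
  have har : a * ((h62qEv A hP s : A) : Kbar) = ((h62qEv A hP r : A) : Kbar) := by
    rw [ha, mul_assoc, inv_mul_cancel₀ hs1, mul_one]
  obtain ⟨hr, hrO, hre⟩ := h62q_div_chart A hQ hfin t ht hP hPQ r
  obtain ⟨hs_, hsO, hse⟩ := h62q_div_chart A hQ hfin t ht hP hPQ s
  rw [ha'] at hre hse
  refine ⟨(hr - cst M a * hs_) * (s : FF M)⁻¹,
    mul_mem (sub_mem hrO (mul_mem (h62q_O_cst A _ a haA) hsO)) (h62q_inv_mem_O A hQ hs), ?_⟩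
  have h1 : f - cst M a = (((r : FF M) - cst M ((h62qEv A hP r : A) : Kbar)) -
      cst M a * ((s : FF M) - cst M ((h62qEv A hP s : A) : Kbar))) * (s : FF M)⁻¹ := by
    rw [← har, ← hf]
    simp only [cst, map_mul]
    field_simp
    ring
  rw [h1, hre, hse]
  ring

/-- two points of the disc with the same `t`-value have the same values on the chart. -/
theorem h62q_ev_eq_of_value {Q : Place Kbar (FF M)} (hQ : IsFinAt A Q)
    [h𝔫 : (h62qCen A hQ).IsPrime] (hfin : IfaceFinite M A (jB M))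
    (t : chart M A (jB M)) (ht : H62qParam A hQ t)
    {P P' : Place Kbar (FF M)} (hP : IsFinAt A P) (hP' : IsFinAt A P')
    (hPQ : SameRed A P Q) (hP'Q : SameRed A P' Q) {a : Kbar}
    (h1 : ValueAt P (t : FF M) a) (h2 : ValueAt P' (t : FF M) a) (b : chart M A (jB M)) :
    h62qEv A hP' b = h62qEv A hP b := by
  obtain ⟨h, hO, he⟩ := h62q_div_chart A hQ hfin t ht hP hPQ b
  obtain ⟨c, hcA, hc⟩ := h62q_O_val A hQ h hO P' hP'Q
  have e1 : ((h62qEv A hP t : A) : Kbar) = a := h62q_ev_eq A hP t h1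
  rw [e1] at he
  -- evaluate at `P'`
  have h3 : ValueAt P' ((b : FF M) - cst M ((h62qEv A hP b : A) : Kbar))
      (((h62qEv A hP' b : A) : Kbar) - ((h62qEv A hP b : A) : Kbar)) :=
    valueAt_sub (h62q_ev_spec A hP' b) (valueAt_cst P' _)
  have h4 : ValueAt P' (((t : FF M) - cst M a) * h) ((a - a) * c) :=
    valueAt_mul (valueAt_sub h2 (valueAt_cst P' a)) hc
  rw [← he] at h4
  have h5 := valueAt_unique h3 h4
  rw [sub_self, zero_mul, sub_eq_zero] at h5
  exact Subtype.ext h5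

end Fermat.Agent.P5
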