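import Fermat.Agent.P5.H62DiscDiv
import Fermat.Agent.Red.GateGoodFinal
import Fermat.Agent.Red.LocalAll
import Fermat.Agent.S37.Inertia
import Fermat.Agent.Red.BC.Main

/-!
# P5 (wave 5, S19), block GEO-DISC, assembly (helper62), part 3: points of the disc

* `h62q_place_eq` : a finite place is determined by its evaluation on the finite chart
  (`H26Chart.hinj`, landed `ifaceChart_fin`).
* `h62q_t_inj` : the parameter is injective on the residue disc.
* `h62q_exists_zero` : a Gauss unit of the centre `𝔫` has a zero centred at `𝔫`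
  (`Red/LocalAll.lean`, `h26_local_unit`), which lies in the residue disc.
* `h62q_fixed` : the zero of an inertia-fixed parameter is inertia-fixed.
-/

set_option autoImplicit false
set_option linter.unusedSectionVars false
set_option linter.unusedVariables false
set_option linter.style.longLine false

open AlgebraicCurve ModularCurve IsLocalRing

noncomputable section

namespace Fermat.Agent.P5

open Fermat.Agent.S37 Fermat.Agent.Red Fermat.Agent.Red.GG Fermat.Agent.Red.Match
  Fermat.Agent.Red.GV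

variable {M : ℕ} [NeZero M] (A : ValuationSubring Kbar) {ℓ : ℕ}

theorem h62q_j_mem {P : Place Kbar (FF M)} (hP : IsFinAt A P) :
    jB M ∈ P.toValuationSubring :=
  valueAt_mem (h62q_hx A hP).choose_spec

/-- a finite place is determined by its evaluation on the finite chart. -/
theorem h62q_place_eq (hℓ : ℓ.Prime) (hM : ¬ ℓ ∣ M) (hA : A.LiesOverPrime ℓ)
    {P P' : Place Kbar (FF M)} (hP : IsFinAt A P) (hP' : IsFinAt A P')
    (h : ∀ b : chart M A (jB M), h62qEv A hP' b = h62qEv A hP b) : P = P' := by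
  have hC : IfaceChart M A (jB M) := ifaceChart_fin hℓ hM hA
  have h1 := hC.hinj (⟨P, h62q_j_mem A hP⟩ : ChartPlace M (jB M)) ⟨P', h62q_j_mem A hP'⟩
    (fun b hb => by
      have hb' : P.adicValuation (b : FF M) < 1 := hb
      show P'.adicValuation (b : FF M) < 1
      rw [h71_adicValuation_lt_one_iff_valueAt] at hb' ⊢
      have h2 := h62q_ev_eq A hP b hb'
      have h3 := h62q_ev_spec A hP' b
      rwa [h b, h2] at h3)
  exact congrArg Subtype.val h1

/-- the parameter is injective on the residue disc. -/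
theorem h62q_t_inj (hℓ : ℓ.Prime) (hM : ¬ ℓ ∣ M) (hA : A.LiesOverPrime ℓ)
    {Q : Place Kbar (FF M)} (hQ : IsFinAt A Q)
    [h𝔫 : (h62qCen A hQ).IsPrime] (hfin : IfaceFinite M A (jB M))
    (t : chart M A (jB M)) (ht : H62qParam A hQ t) :
    ∀ P P' a, SameRed A P Q → SameRed A P' Q → ValueAt P (t : FF M) a →
      ValueAt P' (t : FF M) a → P = P' := by
  intro P P' a hPQ hP'Q h1 h2
  have hP : IsFinAt A P := (sameRed_isFinAt_iff hPQ).mpr hQ
  have hP' : IsFinAt A P' := (sameRed_isFinAt_iff hP'Q).mpr hQ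
  exact h62q_place_eq A hℓ hM hA hP hP'
    (fun b => h62q_ev_eq_of_value A hQ hfin t ht hP hP' hPQ hP'Q h1 h2 b)

/-- a Gauss unit of the centre of `v` has a zero in the residue disc of `v`. -/
theorem h62q_exists_zero (hℓ : ℓ.Prime) (hM : ¬ ℓ ∣ M) (hA : A.LiesOverPrime ℓ)
    {v : Place Kbar (FF M)} (hv : IsFinAt A v) (u : chart M A (jB M))
    (hu : u ∈ h62qCen A hv) (huV : (u : FF M)⁻¹ ∈ gaussV A M) :
    ∃ Q : Place Kbar (FF M), SameRed A Q v ∧ ValueAt Q (u : FF M) 0 := by
  have hC : IfaceChart M A (jB M) := ifaceChart_fin hℓ hM hA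
  have hmax : (h62qCen A hv).IsMaximal := h62q_cen_isMaximal A hv
  have hprime : (h62qCen A hv).IsPrime := hmax.isPrime
  by_contra hcon
  -- no zero centred at `𝔫`
  have hw1 : ∀ k : ChartPlace M (jB M),
      h26Centered (chart M A (jB M)) (chartVal M (jB M)) (h62qCen A hv) k →
      chartVal M (jB M) k (u : FF M) = 1 := by
    intro k hk
    by_contra hne
    have hle : chartVal M (jB M) k (u : FF M) ≤ 1 := hC.hB _ u.2 k
    have hlt : k.1.adicValuation (u : FF M) < 1 := lt_of_le_of_ne hle hne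
    rw [h71_adicValuation_lt_one_iff_valueAt] at hlt
    obtain ⟨a, ha⟩ := h71_value_mem_of_centered A (jB M) k (h62qCen A hv) hmax
      (h62q_map_le_cen A hv) hk
    have hkfin : IsFinAt A k.1 := ⟨(a : Kbar), a.2, ha⟩
    refine hcon ⟨k.1, h62q_sameRed_of_cen_le A hkfin hv ?_, hlt⟩
    intro b hb
    apply hk
    show k.1.adicValuation (b : FF M) < 1
    rw [h71_adicValuation_lt_one_iff_valueAt]
    have h1 := h62q_ev_spec A hkfin b
    rw [RingHom.mem_ker] at hb
    have hb' : h62qEv A hkfin b = 0 := hb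
    rwa [hb', ZeroMemClass.coe_zero] at h1
  obtain ⟨s, hs, -, h2⟩ := h26_local_unit hC (h62qCen A hv) (u : FF M)
    (hC.hBV _ u.2) huV hw1
  apply hs
  have hu0 : (u : FF M) ≠ 0 := by
    intro h0
    -- then every place centred would have `v k u = 0 ≠ 1`; use `v` itself
    have hcv : h26Centered (chart M A (jB M)) (chartVal M (jB M)) (h62qCen A hv)
        ⟨v, h62q_j_mem A hv⟩ := by
      intro b hb
      have hb' : v.adicValuation (b : FF M) < 1 := hb
      rw [h71_adicValuation_lt_one_iff_valueAt] at hb'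
      rw [h62q_mem_cen_iff, h62q_ev_eq A hv b hb']
      exact zero_mem _
    have h3 := hw1 _ hcv
    have h4 : chartVal M (jB M) ⟨v, h62q_j_mem A hv⟩ (u : FF M) = 0 := by
      rw [h0]
      exact map_zero _
    rw [h4] at h3
    exact zero_ne_one h3
  have e : s = (⟨(s : FF M) * (u : FF M)⁻¹, h2⟩ : chart M A (jB M)) * u := by
    apply Subtype.ext
    show (s : FF M) = (s : FF M) * (u : FF M)⁻¹ * (u : FF M)
    rw [mul_assoc, inv_mul_cancel₀ hu0, mul_one]
  rw [e]
  exact Ideal.mul_mem_left _ _ hu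

/-- the zero of an inertia-fixed parameter in the disc is inertia-fixed. -/
theorem h62q_fixed (hℓ : ℓ.Prime) (hM : ¬ ℓ ∣ M) (hA : A.LiesOverPrime ℓ)
    {Q : Place Kbar (FF M)} (hQ : IsFinAt A Q)
    [h𝔫 : (h62qCen A hQ).IsPrime] (hfin : IfaceFinite M A (jB M))
    (t : chart M A (jB M)) (ht : H62qParam A hQ t) (ht0 : ValueAt Q (t : FF M) 0)
    (hfix : ∀ σ ∈ A.inertiaSubgroupIn ℚ, gal M σ • (t : FF M) = (t : FF M)) :
    ∀ σ ∈ A.inertiaSubgroupIn ℚ, gal M σ • Q = Q := by
  intro σ hσ
  have h1 : SameRed A (gal M σ • Q) Q :=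
    ifaceInertia_of M (Fermat.Agent.Red.BC.ifaceBaseChange M) ℓ hℓ hM A hA σ hσ Q
  have h2 := Fermat.Agent.S37.GalI.valueAt_gal σ ht0
  rw [hfix σ hσ, map_zero] at h2
  exact h62q_t_inj A hℓ hM hA hQ hfin t ht (gal M σ • Q) Q 0 h1 (sameRed_refl A Q) h2 ht0

end Fermat.Agent.P5
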