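import Mathlib

/-!
# Wave 5, pillar (P), block GEO-DISC (helper62): finite Taylor expansion at a closed point

Pure algebra (Mathlib only).  `A₀` a base ring (the inertia ring, a DVR with uniformiser `π`),
`B₀` an `A₀`-algebra (the chart over `A₀`), `𝔰` a prime of `B₀` with `𝔰 = (π, t)` locally and
residue field covered by `A₀` (a smooth closed point of the special fibre with local parameter
`t`).  A *point of the residue disc* of `𝔰` with values in `A` is a ring homomorphism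
`ev : B₀ →+* A` mapping the complement of `𝔰` to units; its coordinate is `X = ev t`.

* `h62p_taylor_local` : in a local ring `R` with `𝔪 = (π, t)`: every `b` is a polynomial of degree
  `≤ m` in `t` over `A₀` modulo `𝔪 ^ (m + 1)`.
* `h62p_taylor` : the same at a prime `𝔰` of `B₀`: `s (b - p(t)) ∈ (π, t) ^ (m + 1)`, `s ∉ 𝔰`.
* `h62p_taylor_eval` : **finite Taylor at the points of the disc**: for every `b`, `m` there is ONE
  polynomial `p` over `A₀` of degree `≤ m` with `ev b - p(X) ∈ (π, X) ^ (m + 1)` for ALL points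
  `ev` of the disc (any target ring).
* `h62p_eval_eq` : **the coordinate separates the points of the disc**: `ev t = ev' t` ⟹
  `ev = ev'`, if `⋂ (π, X) ^ m = 0` in `A`.
* `h62p_sub_mem` : **divided differences are integral**: `ev b - ev' b ∈ (X - X')`, if the powers
  of `(π, X)`, `(π, X')` are eventually contained in `(X - X')` (rank one).
* `h62p_eval_congr` : `X ≡ X'` modulo an ideal `J` ⟹ `ev b ≡ ev' b` modulo
  `J + (π, X) ^ (m+1) + (π, X') ^ (m+1)`.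

Nothing is assumed; every declaration is a proved theorem.
-/

set_option autoImplicit false

open Polynomial IsLocalRing

namespace Fermat.Agent.P5

section Local

variable {A₀ R : Type*} [CommRing A₀] [CommRing R] [IsLocalRing R] [Algebra A₀ R]

/-- **finite Taylor expansion** in a local ring with `𝔪 = (π, t)` whose residue field is covered
by `A₀`: every `b` is a polynomial of degree `≤ m` in `t` over `A₀` modulo `𝔪 ^ (m + 1)`. -/
theorem h62p_taylor_local (π : A₀) (t : R)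
    (hmax : maximalIdeal R = Ideal.span {algebraMap A₀ R π, t})
    (hres : ∀ b : R, ∃ a : A₀, b - algebraMap A₀ R a ∈ maximalIdeal R) :
    ∀ (m : ℕ) (b : R), ∃ p : A₀[X], p.natDegree ≤ m ∧
      b - aeval t p ∈ maximalIdeal R ^ (m + 1) := by
  intro m
  induction m with
  | zero =>
    intro b
    obtain ⟨a, ha⟩ := hres b
    refine ⟨C a, by simp, ?_⟩
    rw [aeval_C, zero_add, pow_one]
    exact ha
  | succ m ih =>
    intro b
    obtain ⟨a, ha⟩ := hres b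
    rw [hmax] at ha
    obtain ⟨c, d, hcd⟩ := Ideal.mem_span_pair.mp ha
    obtain ⟨pc, hpc, hc⟩ := ih c
    obtain ⟨pd, hpd, hd⟩ := ih d
    refine ⟨C a + C π * pc + X * pd, ?_, ?_⟩
    · refine (natDegree_add_le _ _).trans (max_le ((natDegree_add_le _ _).trans (max_le ?_ ?_)) ?_)
      · simp
      · exact (natDegree_C_mul_le _ _).trans (hpc.trans (Nat.le_succ m))
      · refine natDegree_mul_le.trans ?_
        have := natDegree_X_le (R := A₀)
        omega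
    · have h1 : b - aeval t (C a + C π * pc + X * pd) =
          (c - aeval t pc) * algebraMap A₀ R π + (d - aeval t pd) * t := by
        simp only [map_add, map_mul, aeval_C, aeval_X]
        linear_combination -hcd
      rw [h1, pow_succ]
      have hπ : algebraMap A₀ R π ∈ maximalIdeal R := by
        rw [hmax]; exact Ideal.subset_span (by simp)
      have ht : t ∈ maximalIdeal R := by
        rw [hmax]; exact Ideal.subset_span (by simp)
      exact Ideal.add_mem _ (Ideal.mul_mem_mul hc hπ) (Ideal.mul_mem_mul hd ht)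

end Local

section Global

variable {A₀ B₀ : Type*} [CommRing A₀] [CommRing B₀] [Algebra A₀ B₀]

/-- **finite Taylor expansion at a closed point** `𝔰 = (π, t)` (locally) of `B₀` with residue
field covered by `A₀`: for every `b` and `m` there are a polynomial `p` of degree `≤ m` over `A₀`
and `s ∉ 𝔰` with `s (b - p(t)) ∈ (π, t) ^ (m + 1)`. -/
theorem h62p_taylor (𝔰 : Ideal B₀) [h𝔰 : 𝔰.IsPrime] (π : A₀) (t : B₀)
    (hπ : algebraMap A₀ B₀ π ∈ 𝔰) (ht : t ∈ 𝔰)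
    (hgen : ∀ y ∈ 𝔰, ∃ s, s ∉ 𝔰 ∧ s * y ∈ Ideal.span {algebraMap A₀ B₀ π, t})
    (hres : ∀ b : B₀, ∃ a : A₀, b - algebraMap A₀ B₀ a ∈ 𝔰)
    (hunit : ∀ a : A₀, algebraMap A₀ B₀ a ∉ 𝔰 → IsUnit a)
    (m : ℕ) (b : B₀) :
    ∃ (p : A₀[X]) (s : B₀), p.natDegree ≤ m ∧ s ∉ 𝔰 ∧
      s * (b - aeval t p) ∈ (Ideal.span {algebraMap A₀ B₀ π, t}) ^ (m + 1) := by
  classical
  let R := Localization.AtPrime 𝔰
  have hmap : Ideal.map (algebraMap B₀ R) 𝔰 = maximalIdeal R :=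
    Localization.AtPrime.map_eq_maximalIdeal
  have hu : ∀ s : B₀, s ∉ 𝔰 → IsUnit (algebraMap B₀ R s) := fun s hs =>
    IsLocalization.map_units R (⟨s, hs⟩ : 𝔰.primeCompl)
  have hI : Ideal.map (algebraMap B₀ R) (Ideal.span {algebraMap A₀ B₀ π, t}) = maximalIdeal R := by
    apply le_antisymm
    · rw [← hmap]
      apply Ideal.map_mono
      rw [Ideal.span_le]
      intro x hx
      rcases hx with rfl | hx
      · exact hπ
      · rw [Set.mem_singleton_iff] at hx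
        rw [hx]; exact ht
    · rw [← hmap, Ideal.map_le_iff_le_comap]
      intro y hy
      obtain ⟨s, hs, hsy⟩ := hgen y hy
      rw [Ideal.mem_comap]
      have h1 : algebraMap B₀ R (s * y) ∈
          Ideal.map (algebraMap B₀ R) (Ideal.span {algebraMap A₀ B₀ π, t}) :=
        Ideal.mem_map_of_mem _ hsy
      rw [map_mul] at h1
      exact (Ideal.unit_mul_mem_iff_mem _ (hu s hs)).mp h1
  have hmaxR : maximalIdeal R = Ideal.span {algebraMap A₀ R π, algebraMap B₀ R t} := by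
    rw [← hI, Ideal.map_span, Set.image_pair, ← IsScalarTower.algebraMap_apply]
  have hresR : ∀ b : R, ∃ a : A₀, b - algebraMap A₀ R a ∈ maximalIdeal R := by
    intro b
    obtain ⟨⟨x, s⟩, rfl⟩ := IsLocalization.mk'_surjective 𝔰.primeCompl b
    obtain ⟨ax, hax⟩ := hres x
    obtain ⟨σ, hσ⟩ := hres (s : B₀)
    have hσu : IsUnit σ := by
      apply hunit
      intro h
      apply s.2
      have h2 : (s : B₀) = ((s : B₀) - algebraMap A₀ B₀ σ) + algebraMap A₀ B₀ σ := by ring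
      rw [h2]
      exact 𝔰.add_mem hσ h
    obtain ⟨σ', rfl⟩ := hσu
    refine ⟨ax * ((σ'⁻¹ : A₀ˣ) : A₀), ?_⟩
    have h3 : (IsLocalization.mk' R x s - algebraMap A₀ R (ax * ((σ'⁻¹ : A₀ˣ) : A₀))) *
        algebraMap B₀ R (s : B₀) =
        algebraMap B₀ R ((x - algebraMap A₀ B₀ ax) +
          algebraMap A₀ B₀ (ax * ((σ'⁻¹ : A₀ˣ) : A₀)) * (algebraMap A₀ B₀ (σ' : A₀) - (s : B₀))) := by
      rw [sub_mul, IsLocalization.mk'_spec, IsScalarTower.algebraMap_apply A₀ B₀ R, ← map_mul,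
        ← map_sub]
      congr 1
      have h4 : algebraMap A₀ B₀ (ax * ((σ'⁻¹ : A₀ˣ) : A₀)) * algebraMap A₀ B₀ (σ' : A₀) =
          algebraMap A₀ B₀ ax := by
        rw [← map_mul, mul_assoc, Units.inv_mul, mul_one]
      linear_combination -h4
    have h5 : (IsLocalization.mk' R x s - algebraMap A₀ R (ax * ((σ'⁻¹ : A₀ˣ) : A₀))) *
        algebraMap B₀ R (s : B₀) ∈ maximalIdeal R := by
      rw [h3, ← hmap]
      apply Ideal.mem_map_of_mem
      refine 𝔰.add_mem hax (𝔰.mul_mem_left _ ?_)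
      have h6 : algebraMap A₀ B₀ (σ' : A₀) - (s : B₀) = -((s : B₀) - algebraMap A₀ B₀ σ') := by ring
      rw [h6]
      exact 𝔰.neg_mem hσ
    exact (Ideal.mul_unit_mem_iff_mem _ (hu s s.2)).mp h5
  obtain ⟨p, hp, hb⟩ := h62p_taylor_local π (algebraMap B₀ R t) hmaxR hresR m (algebraMap B₀ R b)
  rw [aeval_algebraMap_apply, ← map_sub, ← hI, ← Ideal.map_pow,
    IsLocalization.mem_map_algebraMap_iff 𝔰.primeCompl] at hb
  obtain ⟨⟨a, s⟩, hs⟩ := hb
  rw [← map_mul, IsLocalization.eq_iff_exists 𝔰.primeCompl] at hs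
  obtain ⟨c, hc⟩ := hs
  refine ⟨p, (c : B₀) * (s : B₀), hp, ?_, ?_⟩
  · exact fun h => (h𝔰.mem_or_mem h).elim c.2 s.2
  · have h7 : (c : B₀) * (s : B₀) * (b - aeval t p) = (c : B₀) * ((b - aeval t p) * (s : B₀)) := by
      ring
    rw [h7, hc]
    exact Ideal.mul_mem_left _ _ a.2

end Global

section Eval

variable {A₀ B₀ : Type*} [CommRing A₀] [CommRing B₀] [Algebra A₀ B₀]

/-- evaluation of a polynomial identity of `B₀` at a point. -/
theorem h62p_ev_aeval {A : Type*} [CommRing A] (ev : B₀ →+* A) (t : B₀) (p : A₀[X]) :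
    ev (aeval t p) = p.eval₂ (ev.comp (algebraMap A₀ B₀)) (ev t) := by
  rw [aeval_def, hom_eval₂]

/-- **finite Taylor at the points of the residue disc**: one polynomial for all points. -/
theorem h62p_taylor_eval (𝔰 : Ideal B₀) [h𝔰 : 𝔰.IsPrime] (π : A₀) (t : B₀)
    (hπ : algebraMap A₀ B₀ π ∈ 𝔰) (ht : t ∈ 𝔰)
    (hgen : ∀ y ∈ 𝔰, ∃ s, s ∉ 𝔰 ∧ s * y ∈ Ideal.span {algebraMap A₀ B₀ π, t})
    (hres : ∀ b : B₀, ∃ a : A₀, b - algebraMap A₀ B₀ a ∈ 𝔰)
    (hunit : ∀ a : A₀, algebraMap A₀ B₀ a ∉ 𝔰 → IsUnit a)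
    (m : ℕ) (b : B₀) :
    ∃ p : A₀[X], p.natDegree ≤ m ∧
      ∀ {A : Type*} [CommRing A] (ev : B₀ →+* A), (∀ s, s ∉ 𝔰 → IsUnit (ev s)) →
        ev b - p.eval₂ (ev.comp (algebraMap A₀ B₀)) (ev t) ∈
          (Ideal.span {ev (algebraMap A₀ B₀ π), ev t}) ^ (m + 1) := by
  obtain ⟨p, s, hp, hs, hsb⟩ := h62p_taylor 𝔰 π t hπ ht hgen hres hunit m b
  refine ⟨p, hp, fun {A} _ ev hev => ?_⟩
  have h1 : ev (s * (b - aeval t p)) ∈
      Ideal.map ev ((Ideal.span {algebraMap A₀ B₀ π, t}) ^ (m + 1)) :=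
    Ideal.mem_map_of_mem _ hsb
  rw [Ideal.map_pow, Ideal.map_span, Set.image_pair, map_mul, map_sub, h62p_ev_aeval] at h1
  exact (Ideal.unit_mul_mem_iff_mem _ (hev s hs)).mp h1

end Eval

section TwoPoints

variable {A₀ B₀ A : Type*} [CommRing A₀] [CommRing B₀] [Algebra A₀ B₀] [CommRing A]

/-- **congruence of the values at two points of the disc** with congruent coordinates. -/
theorem h62p_eval_congr (𝔰 : Ideal B₀) [h𝔰 : 𝔰.IsPrime] (π : A₀) (t : B₀)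
    (hπ : algebraMap A₀ B₀ π ∈ 𝔰) (ht : t ∈ 𝔰)
    (hgen : ∀ y ∈ 𝔰, ∃ s, s ∉ 𝔰 ∧ s * y ∈ Ideal.span {algebraMap A₀ B₀ π, t})
    (hres : ∀ b : B₀, ∃ a : A₀, b - algebraMap A₀ B₀ a ∈ 𝔰)
    (hunit : ∀ a : A₀, algebraMap A₀ B₀ a ∉ 𝔰 → IsUnit a)
    (ev ev' : B₀ →+* A) (hev : ∀ s, s ∉ 𝔰 → IsUnit (ev s)) (hev' : ∀ s, s ∉ 𝔰 → IsUnit (ev' s))
    (hA₀ : ev.comp (algebraMap A₀ B₀) = ev'.comp (algebraMap A₀ B₀))
    (J : Ideal A) (hJ : ev t - ev' t ∈ J) (m : ℕ) (b : B₀) :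
    ev b - ev' b ∈ J ⊔ (Ideal.span {ev (algebraMap A₀ B₀ π), ev t}) ^ (m + 1) ⊔
      (Ideal.span {ev' (algebraMap A₀ B₀ π), ev' t}) ^ (m + 1) := by
  obtain ⟨p, -, hp⟩ := h62p_taylor_eval 𝔰 π t hπ ht hgen hres hunit m b
  have h1 := hp ev hev
  have h2 := hp ev' hev'
  have h3 : p.eval₂ (ev.comp (algebraMap A₀ B₀)) (ev t) -
      p.eval₂ (ev'.comp (algebraMap A₀ B₀)) (ev' t) ∈ J := by
    rw [← hA₀, eval₂_eq_eval_map, eval₂_eq_eval_map]
    exact Ideal.mem_of_dvd _ (sub_dvd_eval_sub _ _ _) hJ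
  have h4 : ev b - ev' b =
      (p.eval₂ (ev.comp (algebraMap A₀ B₀)) (ev t) -
        p.eval₂ (ev'.comp (algebraMap A₀ B₀)) (ev' t)) +
      (ev b - p.eval₂ (ev.comp (algebraMap A₀ B₀)) (ev t)) -
      (ev' b - p.eval₂ (ev'.comp (algebraMap A₀ B₀)) (ev' t)) := by ring
  rw [h4]
  refine Ideal.sub_mem _ (Ideal.add_mem _ ?_ ?_) ?_
  · exact Ideal.mem_sup_left (Ideal.mem_sup_left h3)
  · exact Ideal.mem_sup_left (Ideal.mem_sup_right h1)
  · exact Ideal.mem_sup_right h2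

/-- **the coordinate separates the points of the residue disc.** -/
theorem h62p_eval_eq (𝔰 : Ideal B₀) [h𝔰 : 𝔰.IsPrime] (π : A₀) (t : B₀)
    (hπ : algebraMap A₀ B₀ π ∈ 𝔰) (ht : t ∈ 𝔰)
    (hgen : ∀ y ∈ 𝔰, ∃ s, s ∉ 𝔰 ∧ s * y ∈ Ideal.span {algebraMap A₀ B₀ π, t})
    (hres : ∀ b : B₀, ∃ a : A₀, b - algebraMap A₀ B₀ a ∈ 𝔰)
    (hunit : ∀ a : A₀, algebraMap A₀ B₀ a ∉ 𝔰 → IsUnit a)
    (ev ev' : B₀ →+* A) (hev : ∀ s, s ∉ 𝔰 → IsUnit (ev s)) (hev' : ∀ s, s ∉ 𝔰 → IsUnit (ev' s))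
    (hA₀ : ev.comp (algebraMap A₀ B₀) = ev'.comp (algebraMap A₀ B₀))
    (ht' : ev t = ev' t)
    (hsep : ∀ d : A, (∀ m : ℕ, d ∈ (Ideal.span {ev (algebraMap A₀ B₀ π), ev t}) ^ (m + 1)) →
      d = 0) : ev = ev' := by
  ext b
  rw [← sub_eq_zero]
  apply hsep
  intro m
  have h := h62p_eval_congr 𝔰 π t hπ ht hgen hres hunit ev ev' hev hev' hA₀ ⊥
    (by rw [ht', sub_self]; exact Ideal.zero_mem _) m b
  have hπ' : ev' (algebraMap A₀ B₀ π) = ev (algebraMap A₀ B₀ π) := by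
    have := congrArg (fun f => f π) hA₀
    exact this.symm
  rw [hπ', ← ht', bot_sup_eq, sup_idem] at h
  exact h

/-- **divided differences are integral**: `ev b - ev' b ∈ (X - X')`. -/
theorem h62p_sub_mem (𝔰 : Ideal B₀) [h𝔰 : 𝔰.IsPrime] (π : A₀) (t : B₀)
    (hπ : algebraMap A₀ B₀ π ∈ 𝔰) (ht : t ∈ 𝔰)
    (hgen : ∀ y ∈ 𝔰, ∃ s, s ∉ 𝔰 ∧ s * y ∈ Ideal.span {algebraMap A₀ B₀ π, t})
    (hres : ∀ b : B₀, ∃ a : A₀, b - algebraMap A₀ B₀ a ∈ 𝔰)
    (hunit : ∀ a : A₀, algebraMap A₀ B₀ a ∉ 𝔰 → IsUnit a)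
    (ev ev' : B₀ →+* A) (hev : ∀ s, s ∉ 𝔰 → IsUnit (ev s)) (hev' : ∀ s, s ∉ 𝔰 → IsUnit (ev' s))
    (hA₀ : ev.comp (algebraMap A₀ B₀) = ev'.comp (algebraMap A₀ B₀))
    (m : ℕ)
    (hm : (Ideal.span {ev (algebraMap A₀ B₀ π), ev t}) ^ (m + 1) ≤ Ideal.span {ev t - ev' t})
    (hm' : (Ideal.span {ev' (algebraMap A₀ B₀ π), ev' t}) ^ (m + 1) ≤ Ideal.span {ev t - ev' t})
    (b : B₀) : ev b - ev' b ∈ Ideal.span {ev t - ev' t} := by
  have h := h62p_eval_congr 𝔰 π t hπ ht hgen hres hunit ev ev' hev hev' hA₀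
    (Ideal.span {ev t - ev' t}) (Ideal.mem_span_singleton_self _) m b
  exact (sup_le (sup_le le_rfl hm) hm') h

end TwoPoints

end Fermat.Agent.P5
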