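import Mathlib

/-!
# Wave 5, pillar (P), block ALG-CLOS (helper66, prefix `h66x_`): closed function algebras

`K` a field, `A` a valuation subring of `K`, `A ≠ ⊤`, `T` a finite set.  The functions `T → K`
carry the topology of uniform convergence for the valuation of `A`; `f` is *adherent* to a set
`W` of functions if for every `c ≠ 0` some `g ∈ W` satisfies `v (f t - g t) ≤ v c` for all `t`.

* `h66x_closed` : **a finitely generated `A`-submodule of `T → K` is closed** (elimination on the
  generators: no freeness, no completeness, no discreteness).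
* `h66x_val_le_one` : the functions of a subalgebra, finitely generated as a module, are
  `A`-valued.
* `h66x_inv_mem` : a function of a subalgebra with unit values is invertible in the subalgebra.
* `h66x_newton`, `h66x_newton_fg` : a small root `Y` of `∑ γ k * Y ^ k` (finite Taylor expansions
  with integral remainders, `γ k ∈ W`, `γ 1` with unit values) lies in the closed subalgebra.
* `h66x_mem_of_approx` : limits along a topologically nilpotent `ρ`.
-/

set_option autoImplicit false

namespace Fermat.Agent.P5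

open Valuation

section Closed

variable {K : Type*} [Field K] (A : ValuationSubring K) {T : Type*}

/-- `f` is adherent to `W`: uniformly approximable by elements of `W`. -/
def h66xAdh (W : Set (T → K)) (f : T → K) : Prop :=
  ∀ c : K, c ≠ 0 → ∃ g ∈ W, ∀ t, A.valuation (f t - g t) ≤ A.valuation c

variable {A}

theorem h66x_adh_of_mem {W : Set (T → K)} {f : T → K} (hf : f ∈ W) : h66xAdh A W f :=
  fun c _ => ⟨f, hf, fun t => by rw [sub_self, map_zero]; exact zero_le⟩

theorem h66x_adh_mono {W W' : Set (T → K)} (h : W ⊆ W') {f : T → K} (hf : h66xAdh A W f) :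
    h66xAdh A W' f := fun c hc => by
  obtain ⟨g, hg, h1⟩ := hf c hc
  exact ⟨g, h hg, h1⟩

/-- a nonzero element of arbitrarily small valuation. -/
theorem h66x_exists_small (hA : A ≠ ⊤) (x : K) (hx : x ≠ 0) :
    ∃ c : K, c ≠ 0 ∧ A.valuation c < A.valuation x := by
  obtain ⟨y, hy⟩ : ∃ y : K, y ∉ A := by
    by_contra h
    apply hA
    rw [eq_top_iff]
    intro y _
    by_contra hy'
    exact h ⟨y, hy'⟩
  have hy0 : y ≠ 0 := fun h => hy (h ▸ A.zero_mem)
  have hvy : 1 < A.valuation y := by
    rw [← not_le, A.valuation_le_one_iff]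
    exact hy
  refine ⟨x * y⁻¹, mul_ne_zero hx (inv_ne_zero hy0), ?_⟩
  rw [map_mul, map_inv₀]
  have hvx : A.valuation x ≠ 0 := (Valuation.ne_zero_iff _).mpr hx
  have h1 : (A.valuation y)⁻¹ < 1 := by
    rw [inv_lt_one₀ (lt_trans zero_lt_one hvy)]
    exact hvy
  calc A.valuation x * (A.valuation y)⁻¹ < A.valuation x * 1 :=
        mul_lt_mul_of_pos_left h1 (zero_lt_iff.mpr hvx)
    _ = A.valuation x := mul_one _

/-- a function adherent to `0` is `0`. -/
theorem h66x_adh_zero (hA : A ≠ ⊤) {f : T → K} (hf : h66xAdh A ({0} : Set (T → K)) f) :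
    f = 0 := by
  funext t
  by_contra h
  have h' : f t ≠ 0 := h
  obtain ⟨c, hc0, hc⟩ := h66x_exists_small hA (f t) h'
  obtain ⟨g, hg, h1⟩ := hf c hc0
  rw [Set.mem_singleton_iff] at hg
  have h2 := h1 t
  rw [hg, Pi.zero_apply, sub_zero] at h2
  exact absurd h2 (not_le.mpr hc)

end Closed

section Elim

variable {K : Type*} [Field K] {A : ValuationSubring K} {T : Type*}

theorem h66x_smul_apply (a : A) (w : T → K) (t : T) : (a • w) t = (a : K) * w t := rfl

/-- the elimination step: `e w = w - (w t₀ / w₀ t₀) w₀`. -/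
def h66xElim (w₀ : T → K) (t₀ : T) (w : T → K) : T → K :=
  fun t => w t - w t₀ / w₀ t₀ * w₀ t

theorem h66x_elim_apply₀ (w₀ : T → K) (t₀ : T) (hd : w₀ t₀ ≠ 0) (w : T → K) :
    h66xElim w₀ t₀ w t₀ = 0 := by
  unfold h66xElim
  rw [div_mul_cancel₀ _ hd, sub_self]

theorem h66x_div_mem {x y : K} (_hy : y ≠ 0) (h : A.valuation x ≤ A.valuation y) :
    x / y ∈ A := by
  rw [← A.valuation_le_one_iff, map_div₀]
  exact div_le_one_of_le₀ h zero_le

/-- **a finitely generated `A`-submodule of `T → K` is closed**, generators in a finset. -/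
theorem h66x_closed_finset [Finite T] (hA : A ≠ ⊤) :
    ∀ (n : ℕ) (s : Finset (T → K)), s.card ≤ n →
      ∀ f : T → K, h66xAdh A (Submodule.span A (s : Set (T → K)) : Set (T → K)) f →
        f ∈ Submodule.span A (s : Set (T → K)) := by
  classical
  cases nonempty_fintype T
  intro n
  induction n with
  | zero =>
    intro s hs f hf
    have hs0 : s = ∅ := Finset.card_eq_zero.mp (Nat.le_zero.mp hs)
    subst hs0
    rw [Finset.coe_empty, Submodule.span_empty] at hf ⊢
    have h0 : f = 0 := h66x_adh_zero hA (by simpa using hf)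
    rw [h0]
    exact Submodule.zero_mem _
  | succ n ih =>
    intro s hs f hf
    by_cases hall : ∀ w ∈ s, ∀ t, w t = 0
    · have hspan : Submodule.span A (s : Set (T → K)) = ⊥ := by
        rw [Submodule.span_eq_bot]
        intro w hw
        funext t
        exact hall w hw t
      rw [hspan] at hf ⊢
      have h0 : f = 0 := h66x_adh_zero hA (by simpa using hf)
      rw [h0]
      exact Submodule.zero_mem _
    · simp only [not_forall] at hall
      obtain ⟨w₁, hw₁, t₁, hne⟩ := hall
      have hne' : (s ×ˢ (Finset.univ : Finset T)).Nonempty :=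
        ⟨(w₁, t₁), Finset.mem_product.mpr ⟨hw₁, Finset.mem_univ _⟩⟩
      obtain ⟨⟨w₀, t₀⟩, hmem, hmax⟩ := Finset.exists_max_image (s ×ˢ Finset.univ)
        (fun p : (T → K) × T => A.valuation (p.1 p.2)) hne'
      have hw₀ : w₀ ∈ s := (Finset.mem_product.mp hmem).1
      have hmax' : ∀ w ∈ s, ∀ t, A.valuation (w t) ≤ A.valuation (w₀ t₀) := fun w hw t =>
        hmax (w, t) (Finset.mem_product.mpr ⟨hw, Finset.mem_univ t⟩)
      have hd : w₀ t₀ ≠ 0 := by
        intro h0
        have h1 := hmax' w₁ hw₁ t₁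
        rw [h0, map_zero] at h1
        exact hne ((Valuation.zero_iff _).mp (le_antisymm h1 zero_le))
      have hvd : A.valuation (w₀ t₀) ≠ 0 := (Valuation.ne_zero_iff _).mpr hd
      -- the new generators
      set s' : Finset (T → K) := (s.erase w₀).image (h66xElim w₀ t₀) with hs'
      have hcard : s'.card ≤ n := by
        have h1 : s'.card ≤ (s.erase w₀).card := Finset.card_image_le
        have h2 : (s.erase w₀).card = s.card - 1 := Finset.card_erase_of_mem hw₀
        omega
      -- coefficients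
      have hκ : ∀ w ∈ s, w t₀ / w₀ t₀ ∈ A := fun w hw => h66x_div_mem hd (hmax' w hw t₀)
      have hdecomp : ∀ (w : T → K) (hw : w ∈ s),
          w = (⟨w t₀ / w₀ t₀, hκ w hw⟩ : A) • w₀ + h66xElim w₀ t₀ w := by
        intro w hw
        funext t
        rw [Pi.add_apply, h66x_smul_apply]
        unfold h66xElim
        ring
      have hw₀span : w₀ ∈ Submodule.span A (s : Set (T → K)) :=
        Submodule.subset_span (Finset.mem_coe.mpr hw₀)
      have hle' : Submodule.span A (s' : Set (T → K)) ≤ Submodule.span A (s : Set (T → K)) := by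
        rw [Submodule.span_le]
        intro w' hw'
        rw [Finset.mem_coe, hs', Finset.mem_image] at hw'
        obtain ⟨w, hw, rfl⟩ := hw'
        have hws : w ∈ s := Finset.mem_of_mem_erase hw
        have h1 : h66xElim w₀ t₀ w = w - (⟨w t₀ / w₀ t₀, hκ w hws⟩ : A) • w₀ := by
          rw [eq_sub_iff_add_eq, add_comm]
          exact (hdecomp w hws).symm
        rw [h1]
        exact Submodule.sub_mem _ (Submodule.subset_span (Finset.mem_coe.mpr hws))
          (Submodule.smul_mem _ _ hw₀span)
      have hle : Submodule.span A (s : Set (T → K)) ≤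
          Submodule.span A ({w₀} : Set (T → K)) ⊔ Submodule.span A (s' : Set (T → K)) := by
        rw [Submodule.span_le]
        intro w hw
        rw [Finset.mem_coe] at hw
        by_cases hww : w = w₀
        · rw [hww]
          exact Submodule.mem_sup_left (Submodule.subset_span (Set.mem_singleton _))
        · rw [SetLike.mem_coe, hdecomp w hw]
          refine Submodule.add_mem _ (Submodule.mem_sup_left
            (Submodule.smul_mem _ _ (Submodule.subset_span (Set.mem_singleton _)))) ?_
          refine Submodule.mem_sup_right (Submodule.subset_span ?_)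
          rw [Finset.mem_coe, hs', Finset.mem_image]
          exact ⟨w, Finset.mem_erase.mpr ⟨hww, hw⟩, rfl⟩
      have hvan : ∀ g ∈ Submodule.span A (s' : Set (T → K)), g t₀ = 0 := by
        intro g hg
        induction hg using Submodule.span_induction with
        | mem w' hw' =>
          rw [Finset.mem_coe, hs', Finset.mem_image] at hw'
          obtain ⟨w, -, rfl⟩ := hw'
          exact h66x_elim_apply₀ w₀ t₀ hd w
        | zero => rfl
        | add x y _ _ hx hy => rw [Pi.add_apply, hx, hy, add_zero]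
        | smul a x _ hx => rw [h66x_smul_apply, hx, mul_zero]
      -- decomposition of the approximants
      have happ : ∀ c : K, c ≠ 0 → ∃ (b : A) (g' : T → K),
          g' ∈ Submodule.span A (s' : Set (T → K)) ∧
          ∀ t, A.valuation (f t - ((b : K) * w₀ t + g' t)) ≤ A.valuation c := by
        intro c hc
        obtain ⟨g, hg, h1⟩ := hf c hc
        obtain ⟨y, hy, g', hg', rfl⟩ := Submodule.mem_sup.mp (hle hg)
        obtain ⟨b, rfl⟩ := Submodule.mem_span_singleton.mp hy
        exact ⟨b, g', hg', fun t => h1 t⟩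
      -- the coefficient of `w₀`
      have hkey : ∀ (c : K) (b : A) (g' : T → K), g' ∈ Submodule.span A (s' : Set (T → K)) →
          (∀ t, A.valuation (f t - ((b : K) * w₀ t + g' t)) ≤ A.valuation c) →
          A.valuation ((f t₀ / w₀ t₀ - (b : K)) * w₀ t₀) ≤ A.valuation c := by
        intro c b g' hg' h1
        have h2 := h1 t₀
        rw [hvan g' hg', add_zero] at h2
        have e : (f t₀ / w₀ t₀ - (b : K)) * w₀ t₀ = f t₀ - (b : K) * w₀ t₀ := by
          rw [sub_mul, div_mul_cancel₀ _ hd]
        rw [e]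
        exact h2
      have ha : f t₀ / w₀ t₀ ∈ A := by
        obtain ⟨b, g', hg', h1⟩ := happ (w₀ t₀) hd
        have h2 := hkey _ b g' hg' h1
        rw [map_mul] at h2
        have h3 : A.valuation (f t₀ / w₀ t₀ - (b : K)) ≤ 1 := by
          by_contra hcon
          rw [not_le] at hcon
          have := mul_lt_mul_of_pos_right hcon (zero_lt_iff.mpr hvd)
          rw [one_mul] at this
          exact absurd h2 (not_le.mpr this)
        have h4 : f t₀ / w₀ t₀ - (b : K) ∈ A := (A.valuation_le_one_iff _).mp h3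
        have e : f t₀ / w₀ t₀ = (f t₀ / w₀ t₀ - (b : K)) + (b : K) := by ring
        rw [e]
        exact A.add_mem _ _ h4 b.2
      -- the remainder is adherent to the span of the new generators
      have hadh : h66xAdh A (Submodule.span A (s' : Set (T → K)) : Set (T → K))
          (f - (⟨f t₀ / w₀ t₀, ha⟩ : A) • w₀) := by
        intro c hc
        obtain ⟨b, g', hg', h1⟩ := happ c hc
        refine ⟨g', hg', fun t => ?_⟩
        have h2 := hkey c b g' hg' h1
        rw [map_mul] at h2
        have e : (f - (⟨f t₀ / w₀ t₀, ha⟩ : A) • w₀) t - g' t =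
            (f t - ((b : K) * w₀ t + g' t)) - (f t₀ / w₀ t₀ - (b : K)) * w₀ t := by
          rw [Pi.sub_apply, h66x_smul_apply]
          ring
        rw [e]
        refine le_trans (Valuation.map_sub _ _ _) (max_le (h1 t) ?_)
        rw [map_mul]
        exact le_trans (mul_le_mul' le_rfl (hmax' w₀ hw₀ t)) h2
      have hrem := ih s' hcard _ hadh
      have e : f = (⟨f t₀ / w₀ t₀, ha⟩ : A) • w₀ + (f - (⟨f t₀ / w₀ t₀, ha⟩ : A) • w₀) := by
        rw [add_sub_cancel]
      rw [e]
      exact Submodule.add_mem _ (Submodule.smul_mem _ _ hw₀span) (hle' hrem)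

/-- **a finitely generated `A`-submodule of `T → K` is closed.** -/
theorem h66x_closed [Finite T] (hA : A ≠ ⊤) (W : Submodule A (T → K)) (hW : W.FG)
    {f : T → K} (hf : h66xAdh A (W : Set (T → K)) f) : f ∈ W := by
  obtain ⟨s, rfl⟩ := hW
  exact h66x_closed_finset hA s.card s le_rfl f hf

end Elim

section Unit

open Polynomial

variable {K : Type*} [Field K] {A : ValuationSubring K} {T : Type*}

/-- the functions of a subalgebra which is finitely generated as a module take their values
in `A`. -/
theorem h66x_val_le_one (W : Subalgebra A (T → K)) (hW : (Subalgebra.toSubmodule W).FG)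
    {f : T → K} (hf : f ∈ W) (t : T) : A.valuation (f t) ≤ 1 := by
  rw [A.valuation_le_one_iff]
  have h1 : IsIntegral A (⟨f, hf⟩ : W) := by
    have : Module.Finite A W := ⟨(Submodule.fg_top _).mpr hW⟩
    exact IsIntegral.of_finite A _
  have h2 : IsIntegral A f := by
    have := h1.map W.val
    simpa using this
  have h3 : IsIntegral A (f t) := by
    have := h2.map (Pi.evalAlgHom A (fun _ : T => K) t)
    simpa using this
  obtain ⟨y, hy⟩ := (IsIntegrallyClosed.isIntegral_iff (R := A) (K := K)).mp h3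
  rw [← hy]
  exact y.2

/-- **units**: a function of a subalgebra all of whose values are units of `A` is invertible in
the subalgebra. -/
theorem h66x_inv_mem [Finite T] (W : Subalgebra A (T → K)) {u : T → K} (hu : u ∈ W)
    (hval : ∀ t, A.valuation (u t) = 1) : u⁻¹ ∈ W := by
  classical
  cases nonempty_fintype T
  have huA : ∀ t, u t ∈ A := fun t => (A.valuation_le_one_iff _).mp (hval t).le
  have hu0 : ∀ t, u t ≠ 0 := fun t h => by
    have := hval t
    rw [h, map_zero] at this
    exact zero_ne_one this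
  set P : A[X] := ∏ t : T, (X - C (⟨u t, huA t⟩ : A)) with hP
  -- `P (u) = 0`
  have hroot : aeval u P = 0 := by
    funext t
    have h1 : (aeval u P) t = aeval (u t) P := by
      have := Polynomial.aeval_algHom_apply (Pi.evalAlgHom A (fun _ : T => K) t) u P
      simpa using this.symm
    rw [h1, hP, map_prod, Pi.zero_apply]
    refine Finset.prod_eq_zero (Finset.mem_univ t) ?_
    rw [_root_.map_sub, aeval_X, aeval_C]
    exact sub_self _
  -- the constant term is a unit
  have hc0 : IsUnit (P.coeff 0) := by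
    rw [Polynomial.coeff_zero_eq_eval_zero, hP, Polynomial.eval_prod]
    refine IsUnit.prod_univ_iff.mpr fun t => ?_  
    rw [eval_sub, eval_X, eval_C, zero_sub, IsUnit.neg_iff]
    exact (A.valuation_eq_one_iff _).mpr (hval t)
  obtain ⟨a, ha⟩ := hc0
  -- `u * Q (u) + a₀ = 0`
  have hsplit : aeval u P.divX * u + algebraMap A (T → K) (P.coeff 0) = 0 := by
    have h1 := congrArg (aeval u) (Polynomial.divX_mul_X_add P)
    rw [map_add, map_mul, aeval_X, aeval_C, hroot] at h1
    exact h1
  have hinv : u⁻¹ = -(algebraMap A (T → K) (↑a⁻¹ : A) * aeval u P.divX) := by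
    funext t
    have h2 := congrFun hsplit t
    rw [Pi.add_apply, Pi.mul_apply, Pi.zero_apply] at h2
    rw [Pi.inv_apply, Pi.neg_apply, Pi.mul_apply]
    have h3 : (algebraMap A (T → K) (P.coeff 0)) t = ((a : A) : K) := by
      rw [← ha]
      rfl
    have h4 : (algebraMap A (T → K) (↑a⁻¹ : A)) t = ((↑a⁻¹ : A) : K) := rfl
    have h5 : ((a : A) : K) * ((↑a⁻¹ : A) : K) = 1 :=
      congrArg (fun x : A => (x : K)) (Units.mul_inv a)
    rw [h3] at h2
    rw [h4]
    have h6 : (aeval u P.divX) t * u t = -((a : A) : K) := by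
      rw [eq_neg_iff_add_eq_zero]
      exact h2
    refine inv_eq_of_mul_eq_one_left ?_
    linear_combination (-(((↑a⁻¹ : A) : K))) * h6 + h5
  rw [hinv]
  have hQ : aeval u P.divX ∈ W := by
    have h1 := Polynomial.aeval_subalgebra_coe P.divX W (⟨u, hu⟩ : W)
    rw [← h1]
    exact (aeval (⟨u, hu⟩ : W) P.divX).2
  exact W.neg_mem (W.mul_mem (W.algebraMap_mem _) hQ)

end Unit

section Newton

open Polynomial Finset

variable {K : Type*} [Field K] {A : ValuationSubring K} {T : Type*}

theorem h66x_val_le_of_sub {y g : K} {r r' : A.ValueGroup} (hy : A.valuation y ≤ r)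
    (hyg : A.valuation (y - g) ≤ r') (hr' : r' ≤ r) : A.valuation g ≤ r := by
  have e : g = y - (y - g) := by ring
  rw [e]
  exact le_trans (Valuation.map_sub _ _ _) (max_le hy (hyg.trans hr'))

/-- `v (y ^ (k + 2) - g ^ (k + 2)) ≤ v (y - g) * r` for `v y, v g ≤ r ≤ 1`. -/
theorem h66x_pow_sub_pow_le {y g : K} {r : A.ValueGroup} (hr : r ≤ 1)
    (hy : A.valuation y ≤ r) (hg : A.valuation g ≤ r) (k : ℕ) :
    A.valuation (y ^ (k + 2) - g ^ (k + 2)) ≤ A.valuation (y - g) * r := by
  rw [← geom_sum₂_mul y g (k + 2), map_mul, mul_comm]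
  refine mul_le_mul' le_rfl ?_
  refine Valuation.map_sum_le _ fun i hi => ?_
  rw [Finset.mem_range] at hi
  rw [map_mul, map_pow, map_pow]
  have h1 : A.valuation y ^ i * A.valuation g ^ (k + 2 - 1 - i) ≤ r ^ i * r ^ (k + 2 - 1 - i) :=
    mul_le_mul' (pow_le_pow_left₀ zero_le hy i) (pow_le_pow_left₀ zero_le hg _)
  refine h1.trans ?_
  rw [← pow_add]
  have h2 : i + (k + 2 - 1 - i) = k + 1 := by omega
  rw [h2]
  exact pow_le_of_le_one zero_le hr (Nat.succ_ne_zero k)

/-- **Newton**: a function `Y` with small values which is, for every `m`, a root of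
`∑ k < m, γ k * Y ^ k + R * Y ^ m` (`γ k` in the closed subalgebra `W`, `γ 1` with unit values,
`R` with integral values) lies in `W`. -/
theorem h66x_newton [Finite T] (W : Subalgebra A (T → K))
    (hcl : ∀ f : T → K, h66xAdh A (W : Set (T → K)) f → f ∈ W)
    (hint : ∀ f ∈ W, ∀ t, A.valuation (f t) ≤ 1)
    (ρ : K) (hρ1 : A.valuation ρ < 1)
    (hρ : ∀ c : K, c ≠ 0 → ∃ n : ℕ, A.valuation ρ ^ n ≤ A.valuation c)
    (Y : T → K) (hY : ∀ t, A.valuation (Y t) ≤ A.valuation ρ)
    (γ : ℕ → (T → K)) (hγ : ∀ k, γ k ∈ W) (hγ1 : ∀ t, A.valuation (γ 1 t) = 1)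
    (hrel : ∀ m : ℕ, ∃ R : T → K, (∀ t, A.valuation (R t) ≤ 1) ∧
      ∀ t, (∑ k ∈ range m, γ k t * Y t ^ k) + R t * Y t ^ m = 0) : Y ∈ W := by
  classical
  have hγinv : (γ 1)⁻¹ ∈ W := h66x_inv_mem W (hγ 1) hγ1
  have key : ∀ j : ℕ, ∃ g ∈ W, ∀ t, A.valuation (Y t - g t) ≤ A.valuation ρ ^ (j + 1) := by
    intro j
    induction j with
    | zero =>
      refine ⟨0, W.zero_mem, fun t => ?_⟩
      rw [Pi.zero_apply, sub_zero, zero_add, pow_one]
      exact hY t
    | succ j ih =>
      obtain ⟨g, hg, hgY⟩ := ih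
      obtain ⟨R, hR, hrelR⟩ := hrel (j + 2)
      refine ⟨-((γ 1)⁻¹ * (γ 0 + ∑ k ∈ range j, γ (k + 2) * g ^ (k + 2))),
        W.neg_mem (W.mul_mem hγinv (W.add_mem (hγ 0)
          (W.sum_mem fun k _ => W.mul_mem (hγ _) (W.pow_mem hg _)))), fun t => ?_⟩
      have hγ1t : γ 1 t ≠ 0 := fun h => by
        have := hγ1 t
        rw [h, map_zero] at this
        exact zero_ne_one this
      have hgt : A.valuation (g t) ≤ A.valuation ρ :=
        h66x_val_le_of_sub (hY t) (hgY t) (pow_le_of_le_one zero_le hρ1.le (Nat.succ_ne_zero j))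
      -- the relation
      have h1 := hrelR t
      rw [Finset.sum_range_succ', Finset.sum_range_succ'] at h1
      have e : γ 1 t * (Y t - (-((γ 1)⁻¹ * (γ 0 + ∑ k ∈ range j, γ (k + 2) * g ^ (k + 2)))) t) =
          -(∑ k ∈ range j, γ (k + 2) t * (Y t ^ (k + 2) - g t ^ (k + 2))) -
            R t * Y t ^ (j + 2) := by
        rw [Pi.neg_apply, Pi.mul_apply, Pi.inv_apply, Pi.add_apply, Finset.sum_apply]
        simp only [Pi.mul_apply, Pi.pow_apply]
        have h2 : γ 1 t * (Y t - -((γ 1 t)⁻¹ * (γ 0 t + ∑ k ∈ range j, γ (k + 2) t * g t ^ (k + 2))))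
            = γ 1 t * Y t + (γ 0 t + ∑ k ∈ range j, γ (k + 2) t * g t ^ (k + 2)) := by
          field_simp
          ring
        rw [h2]
        simp only [mul_sub, Finset.sum_sub_distrib]
        simp only [zero_add, pow_zero, pow_one, mul_one] at h1
        linear_combination h1
      have h3 : A.valuation (Y t - (-((γ 1)⁻¹ *
          (γ 0 + ∑ k ∈ range j, γ (k + 2) * g ^ (k + 2)))) t) =
          A.valuation (γ 1 t * (Y t - (-((γ 1)⁻¹ *
            (γ 0 + ∑ k ∈ range j, γ (k + 2) * g ^ (k + 2)))) t)) := by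
        rw [map_mul, hγ1 t, one_mul]
      rw [h3, e]
      have hpow : A.valuation ρ ^ (j + 1 + 1) = A.valuation ρ ^ (j + 1) * A.valuation ρ :=
        pow_succ _ _
      refine le_trans (Valuation.map_sub _ _ _) (max_le ?_ ?_)
      · rw [Valuation.map_neg]
        refine Valuation.map_sum_le _ fun k _ => ?_
        rw [map_mul]
        have h4 := h66x_pow_sub_pow_le hρ1.le (hY t) hgt k
        have h5 : A.valuation (Y t - g t) * A.valuation ρ ≤
            A.valuation ρ ^ (j + 1) * A.valuation ρ := mul_le_mul' (hgY t) le_rfl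
        calc A.valuation (γ (k + 2) t) * A.valuation (Y t ^ (k + 2) - g t ^ (k + 2))
            ≤ 1 * A.valuation (Y t ^ (k + 2) - g t ^ (k + 2)) :=
              mul_le_mul' (hint _ (hγ _) t) le_rfl
          _ = A.valuation (Y t ^ (k + 2) - g t ^ (k + 2)) := one_mul _
          _ ≤ A.valuation ρ ^ (j + 1 + 1) := by rw [hpow]; exact h4.trans h5
      · rw [map_mul, map_pow]
        calc A.valuation (R t) * A.valuation (Y t) ^ (j + 2)
            ≤ 1 * A.valuation ρ ^ (j + 2) :=
              mul_le_mul' (hR t) (pow_le_pow_left₀ zero_le (hY t) _)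
          _ = A.valuation ρ ^ (j + 1 + 1) := one_mul _
  refine hcl Y fun c hc => ?_
  obtain ⟨n, hn⟩ := hρ c hc
  obtain ⟨g, hg, hgY⟩ := key n
  refine ⟨g, hg, fun t => (hgY t).trans (le_trans ?_ hn)⟩
  rw [pow_succ]
  calc A.valuation ρ ^ n * A.valuation ρ ≤ A.valuation ρ ^ n * 1 :=
        mul_le_mul' le_rfl hρ1.le
    _ = A.valuation ρ ^ n := mul_one _

end Newton

section Wrap

open Finset

variable {K : Type*} [Field K] {A : ValuationSubring K} {T : Type*}

/-- a subalgebra which is finitely generated as a module is closed. -/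
theorem h66x_closed_subalgebra [Finite T] (hA : A ≠ ⊤) (W : Subalgebra A (T → K))
    (hW : (Subalgebra.toSubmodule W).FG) {f : T → K} (hf : h66xAdh A (W : Set (T → K)) f) :
    f ∈ W :=
  h66x_closed hA (Subalgebra.toSubmodule W) hW hf

/-- **Newton** in a subalgebra which is finitely generated as a module. -/
theorem h66x_newton_fg [Finite T] (hA : A ≠ ⊤) (W : Subalgebra A (T → K))
    (hW : (Subalgebra.toSubmodule W).FG)
    (ρ : K) (hρ1 : A.valuation ρ < 1)
    (hρ : ∀ c : K, c ≠ 0 → ∃ n : ℕ, A.valuation ρ ^ n ≤ A.valuation c)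
    (Y : T → K) (hY : ∀ t, A.valuation (Y t) ≤ A.valuation ρ)
    (γ : ℕ → (T → K)) (hγ : ∀ k, γ k ∈ W) (hγ1 : ∀ t, A.valuation (γ 1 t) = 1)
    (hrel : ∀ m : ℕ, ∃ R : T → K, (∀ t, A.valuation (R t) ≤ 1) ∧
      ∀ t, (∑ k ∈ range m, γ k t * Y t ^ k) + R t * Y t ^ m = 0) : Y ∈ W :=
  h66x_newton W (fun _ hf => h66x_closed_subalgebra hA W hW hf)
    (fun _ hf t => h66x_val_le_one W hW hf t) ρ hρ1 hρ Y hY γ hγ hγ1 hrel

/-- **limits of elements**: a function which is approximated modulo every power of a
topologically nilpotent `ρ` by functions of a closed subalgebra lies in it. -/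
theorem h66x_mem_of_approx [Finite T] (hA : A ≠ ⊤) (W : Subalgebra A (T → K))
    (hW : (Subalgebra.toSubmodule W).FG) (ρ : K)
    (hρ : ∀ c : K, c ≠ 0 → ∃ n : ℕ, A.valuation ρ ^ n ≤ A.valuation c)
    (f : T → K) (hf : ∀ n : ℕ, ∃ g ∈ W, ∀ t, A.valuation (f t - g t) ≤ A.valuation ρ ^ n) :
    f ∈ W := by
  refine h66x_closed_subalgebra hA W hW fun c hc => ?_
  obtain ⟨n, hn⟩ := hρ c hc
  obtain ⟨g, hg, h1⟩ := hf n
  exact ⟨g, hg, fun t => (h1 t).trans hn⟩

end Wrap

end Fermat.Agent.P5
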