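import Mathlib

/-!
# Wave 5, pillar (P), S32 lattice comparison, leaf LC-KEY: the matrix end (helper68)

`V` free of rank two over a commutative ring `T`, `b` a basis indexed by `Fin 2`.

* `h68k_polar`  : `det (X + Y) - det X - det Y = tr X tr Y - tr (X Y)`;
* `h68k_sq`     : `tr X ^ 2 - tr (X X) = 2 det X`;
* `h68k_inv`    : `Y Y' = 1 ⇒ tr X tr Y - tr (X Y) = det Y tr (X Y')`;
* `h68k_exists_comm_det` : if `Sp` spans `End V` over the local ring `T`, some element of the
  additive group generated by the commutators `X Y - Y X` (`X, Y ∈ Sp`) has unit determinant;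
* `h68k_mem_of_trace` : `tr (Z X) ∈ I` for all `X` implies `Z v ∈ I V`.

Mathlib only.
-/

set_option autoImplicit false

open IsLocalRing

noncomputable section

namespace Fermat.Agent.P5

section Mat

variable {T : Type*} [CommRing T]

theorem h68k_m_polar (X Y : Matrix (Fin 2) (Fin 2) T) :
    (X + Y).det - X.det - Y.det = X.trace * Y.trace - (X * Y).trace := by
  simp only [Matrix.det_fin_two, Matrix.trace_fin_two, Matrix.mul_apply, Fin.sum_univ_two,
    Matrix.add_apply]
  ring

theorem h68k_m_sq (X : Matrix (Fin 2) (Fin 2) T) :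
    X.trace ^ 2 - (X * X).trace = 2 * X.det := by
  simp only [Matrix.det_fin_two, Matrix.trace_fin_two, Matrix.mul_apply, Fin.sum_univ_two]
  ring

theorem h68k_m_adj (X Y : Matrix (Fin 2) (Fin 2) T) :
    X.trace * Y.trace - (X * Y).trace = (X * Y.adjugate).trace := by
  rw [Matrix.adjugate_fin_two]
  simp only [Matrix.trace_fin_two, Matrix.mul_apply, Fin.sum_univ_two, Matrix.of_apply,
    Matrix.cons_val', Matrix.cons_val_zero, Matrix.cons_val_one, Matrix.cons_val_fin_one]
  ring

theorem h68k_m_inv (X Y Y' : Matrix (Fin 2) (Fin 2) T) (h : Y * Y' = 1) :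
    X.trace * Y.trace - (X * Y).trace = Y.det * (X * Y').trace := by
  have h1 : Y.det • Y' = Y.adjugate := by
    have h2 : Y.adjugate * (Y * Y') = Y.adjugate := by rw [h, mul_one]
    rw [← mul_assoc, Matrix.adjugate_mul, Matrix.smul_mul, one_mul] at h2
    exact h2
  rw [h68k_m_adj, ← h1, Matrix.mul_smul, Matrix.trace_smul, smul_eq_mul]

end Mat

section End

variable {T : Type*} [CommRing T] {V : Type*} [AddCommGroup V] [Module T V]
  (b : Module.Basis (Fin 2) T V)

theorem h68k_tr (X : Module.End T V) :
    LinearMap.trace T V X = (LinearMap.toMatrixAlgEquiv b X).trace :=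
  LinearMap.trace_eq_matrix_trace T b X

theorem h68k_det (X : Module.End T V) :
    LinearMap.det X = (LinearMap.toMatrixAlgEquiv b X).det :=
  (LinearMap.det_toMatrix b X).symm

include b in
theorem h68k_polar (X Y : Module.End T V) :
    LinearMap.det (X + Y) - LinearMap.det X - LinearMap.det Y =
      LinearMap.trace T V X * LinearMap.trace T V Y - LinearMap.trace T V (X * Y) := by
  rw [h68k_det b, h68k_det b, h68k_det b, h68k_tr b, h68k_tr b, h68k_tr b, map_add, map_mul]
  exact h68k_m_polar _ _

include b in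
theorem h68k_sq (X : Module.End T V) :
    LinearMap.trace T V X ^ 2 - LinearMap.trace T V (X * X) = 2 * LinearMap.det X := by
  rw [h68k_det b, h68k_tr b, h68k_tr b, map_mul]
  exact h68k_m_sq _

include b in
theorem h68k_inv (X Y Y' : Module.End T V) (h : Y * Y' = 1) :
    LinearMap.trace T V X * LinearMap.trace T V Y - LinearMap.trace T V (X * Y) =
      LinearMap.det Y * LinearMap.trace T V (X * Y') := by
  rw [h68k_det b, h68k_tr b, h68k_tr b, h68k_tr b, h68k_tr b, map_mul, map_mul]
  refine h68k_m_inv _ _ _ ?_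
  rw [← map_mul, h, map_one]

/-- the pairing `β(X, Y) = tr X tr Y - tr (X Y)`. -/
def h68kBeta (X Y : Module.End T V) : T :=
  LinearMap.trace T V X * LinearMap.trace T V Y - LinearMap.trace T V (X * Y)

theorem h68kBeta_add_left (X X' Y : Module.End T V) :
    h68kBeta (X + X') Y = h68kBeta X Y + h68kBeta X' Y := by
  unfold h68kBeta
  simp only [map_add, add_mul]
  ring

theorem h68kBeta_add_right (X Y Y' : Module.End T V) :
    h68kBeta X (Y + Y') = h68kBeta X Y + h68kBeta X Y' := by
  unfold h68kBeta
  simp only [map_add, mul_add]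
  ring

theorem h68kBeta_smul_left (r : T) (X Y : Module.End T V) :
    h68kBeta (r • X) Y = r * h68kBeta X Y := by
  unfold h68kBeta
  simp only [map_smul, smul_mul_assoc, smul_eq_mul]
  ring

theorem h68kBeta_smul_right (r : T) (X Y : Module.End T V) :
    h68kBeta X (r • Y) = r * h68kBeta X Y := by
  unfold h68kBeta
  simp only [map_smul, mul_smul_comm, smul_eq_mul]
  ring

theorem h68kBeta_zero_left (Y : Module.End T V) : h68kBeta (0 : Module.End T V) Y = 0 := by
  unfold h68kBeta
  simp

theorem h68kBeta_zero_right (X : Module.End T V) : h68kBeta X (0 : Module.End T V) = 0 := by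
  unfold h68kBeta
  simp

/-- the set of commutators of elements of `Sp`. -/
def h68kComm (Sp : Set (Module.End T V)) : Set (Module.End T V) :=
  {Z | ∃ X ∈ Sp, ∃ Y ∈ Sp, Z = X * Y - Y * X}

theorem h68k_comm_mem_span (Sp : Set (Module.End T V)) (hSp : Submodule.span T Sp = ⊤)
    (X Y : Module.End T V) :
    X * Y - Y * X ∈ Submodule.span T (h68kComm Sp) := by
  have hX : X ∈ Submodule.span T Sp := by rw [hSp]; trivial
  have hY : Y ∈ Submodule.span T Sp := by rw [hSp]; trivial
  induction hX, hY using Submodule.span_induction₂ with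
  | mem_mem x y hx hy => exact Submodule.subset_span ⟨x, hx, y, hy, rfl⟩
  | zero_left y hy => simp
  | zero_right x hx => simp
  | add_left x y z _ _ _ h1 h2 =>
    have : (x + y) * z - z * (x + y) = (x * z - z * x) + (y * z - z * y) := by
      rw [add_mul, mul_add]; abel
    rw [this]
    exact Submodule.add_mem _ h1 h2
  | add_right x y z _ _ _ h1 h2 =>
    have : x * (y + z) - (y + z) * x = (x * y - y * x) + (x * z - z * x) := by
      rw [add_mul, mul_add]; abel
    rw [this]
    exact Submodule.add_mem _ h1 h2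
  | smul_left r x y _ _ h =>
    have : (r • x) * y - y * (r • x) = r • (x * y - y * x) := by
      rw [smul_mul_assoc, mul_smul_comm, smul_sub]
    rw [this]
    exact Submodule.smul_mem _ r h
  | smul_right r x y _ _ h =>
    have : x * (r • y) - (r • y) * x = r • (x * y - y * x) := by
      rw [smul_mul_assoc, mul_smul_comm, smul_sub]
    rw [this]
    exact Submodule.smul_mem _ r h

variable [IsLocalRing T]

include b in
/-- **K1**: a `ℤ`-combination of commutators with unit determinant. -/
theorem h68k_exists_comm_det (Sp : Set (Module.End T V)) (hSp : Submodule.span T Sp = ⊤) :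
    ∃ c ∈ AddSubgroup.closure (h68kComm Sp), LinearMap.det c ∉ maximalIdeal T := by
  by_contra hcon
  have hall : ∀ c ∈ AddSubgroup.closure (h68kComm Sp), LinearMap.det c ∈ maximalIdeal T := by
    intro c hc
    by_contra h
    exact hcon ⟨c, hc, h⟩
  -- β ∈ 𝔪 on the closure
  have h1 : ∀ c ∈ AddSubgroup.closure (h68kComm Sp), ∀ c' ∈ AddSubgroup.closure (h68kComm Sp),
      h68kBeta c c' ∈ maximalIdeal T := by
    intro c hc c' hc'
    have := h68k_polar b c c'
    unfold h68kBeta
    rw [← this]
    exact Ideal.sub_mem _ (Ideal.sub_mem _ (hall _ (AddSubgroup.add_mem _ hc hc')) (hall _ hc))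
      (hall _ hc')
  -- β ∈ 𝔪 on the T-span
  have h2 : ∀ Z ∈ Submodule.span T (h68kComm Sp), ∀ Z' ∈ Submodule.span T (h68kComm Sp),
      h68kBeta Z Z' ∈ maximalIdeal T := by
    intro Z hZ Z' hZ'
    induction hZ, hZ' using Submodule.span_induction₂ with
    | mem_mem x y hx hy =>
      exact h1 x (AddSubgroup.subset_closure hx) y (AddSubgroup.subset_closure hy)
    | zero_left y hy => rw [h68kBeta_zero_left]; exact Ideal.zero_mem _
    | zero_right x hx => rw [h68kBeta_zero_right]; exact Ideal.zero_mem _
    | add_left x y z _ _ _ h1 h2 => rw [h68kBeta_add_left]; exact Ideal.add_mem _ h1 h2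
    | add_right x y z _ _ _ h1 h2 => rw [h68kBeta_add_right]; exact Ideal.add_mem _ h1 h2
    | smul_left r x y _ _ h => rw [h68kBeta_smul_left]; exact Ideal.mul_mem_left _ r h
    | smul_right r x y _ _ h => rw [h68kBeta_smul_right]; exact Ideal.mul_mem_left _ r h
  -- the elementary matrices
  set e := LinearMap.toMatrixAlgEquiv b with he
  set e11 : Module.End T V := e.symm !![1, 0; 0, 0] with he11
  set e12 : Module.End T V := e.symm !![0, 1; 0, 0] with he12
  set e21 : Module.End T V := e.symm !![0, 0; 1, 0] with he21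
  have h3 := h2 _ (h68k_comm_mem_span Sp hSp e11 e12) _ (h68k_comm_mem_span Sp hSp e21 e11)
  have h4 : h68kBeta (e11 * e12 - e12 * e11) (e21 * e11 - e11 * e21) = -1 := by
    unfold h68kBeta
    rw [h68k_tr b, h68k_tr b, h68k_tr b]
    simp only [map_sub, map_mul, ← he, he11, he12, he21, AlgEquiv.apply_symm_apply]
    simp [Matrix.trace_fin_two]
  rw [h4] at h3
  have h5 : (1 : T) ∈ maximalIdeal T := by
    have := Ideal.neg_mem_iff (maximalIdeal T) |>.1 h3
    exact this
  exact (Ideal.ne_top_iff_one (maximalIdeal T)).1 (IsLocalRing.maximalIdeal.isMaximal T).ne_top h5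

omit [IsLocalRing T] in
include b in
/-- **K3**: the trace form detects `I V`. -/
theorem h68k_mem_of_trace (I : Ideal T) (Z : Module.End T V)
    (h : ∀ X : Module.End T V, LinearMap.trace T V (Z * X) ∈ I) (v : V) :
    Z v ∈ I • (⊤ : Submodule T V) := by
  set e := LinearMap.toMatrixAlgEquiv b with he
  have hent : ∀ i j : Fin 2, e Z i j ∈ I := by
    intro i j
    have h1 := h (e.symm (Matrix.single j i (1 : T)))
    rw [h68k_tr b, ← he, map_mul, AlgEquiv.apply_symm_apply, Matrix.trace_mul_single] at h1
    simpa using h1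
  have hrepr : ∀ i : Fin 2, b.repr (Z v) i ∈ I := by
    intro i
    have h1 := LinearMap.toMatrix_mulVec_repr b b Z v
    have h2 : b.repr (Z v) i = ((LinearMap.toMatrix b b Z).mulVec (b.repr v)) i := by
      rw [h1]
    rw [h2, Matrix.mulVec, dotProduct]
    refine Ideal.sum_mem _ fun j _ => ?_
    exact Ideal.mul_mem_right _ _ (hent i j)
  rw [← b.sum_repr (Z v)]
  refine Submodule.sum_mem _ fun i _ => ?_
  exact Submodule.smul_mem_smul (hrepr i) Submodule.mem_top

end End

end Fermat.Agent.P5
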