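import Fermat.Agent.S37.Assembly
import Fermat.Agent.Red.Desc.Final
import Fermat.Agent.Red.CH0
import Fermat.Agent.Red.HKGal
import Fermat.Agent.P5.H97Order

/-!
# Wave 5, pillar (P), leaf LEVEL (helper69, prefix `h69v_`): change of level for `S19`

The geometric core of `S19` works at levels `M` with `auxLevel ℓ ∣ M` (regular charts, no
elliptic points), but `S19` is stated for every level `N` with `ℓ ∤ N`.  This file reduces the
general level to the good level `goodLevel ℓ N = lcm N (auxLevel ℓ)`: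

* `h69vPull h : J₀(N) →+ J₀(M)` for `N ∣ M`: pull-back of divisor classes along the degeneracy
  inclusion `degen h : F_N → F_M`; `h69vPull_galois`: it commutes with `G_ℚ`;
* `h69v_pull_injective_torsion`: at `M = goodLevel ℓ N` it is injective on torsion classes
  (landed `Red.Desc.ifacePullbackInj`, induction on the order);
* `h69vAct N n` : the action of `G_ℚ` on `J₀(N)[n]`; `h69vTor` : the induced injective
  equivariant map `J₀(N)[n] →+ J₀(goodLevel ℓ N)[n]`;
* `h69v_hasOrder_of_injective` : a function order pulls back along an injective equivariant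
  additive map;
* `h69v_hasOrder_level` : a function order for `J₀(goodLevel ℓ N)[n]` gives one for `J₀(N)[n]`;
* `h69v_s19_of_flat` : the conclusion of the frozen `S19` from `h97c_Flat` of `J₀(N)[ℓ ^ k]`.
-/

set_option autoImplicit false
set_option linter.style.haveILetI false
set_option linter.unusedSectionVars false

open AlgebraicCurve ModularCurve

noncomputable section

namespace Fermat.Agent.P5

open Fermat.Agent.S37

/-! ## The pull-back of divisor classes -/

section Pull

/-- the degeneracy inclusion is integral. -/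
theorem h69v_hint {N M : ℕ} [NeZero N] [NeZero M] (h : N ∣ M) :
    (degen h).toRingHom.IsIntegral :=
  (Fermat.Agent.Red.CH0.ifaceDegenInputs N M h).choose

/-- the function field of level `M` has principal divisors. -/
theorem h69v_pd {N M : ℕ} [NeZero N] [NeZero M] (h : N ∣ M) :
    HasPrincipalDivisors Kbar (FF M) :=
  (Fermat.Agent.Red.CH0.ifaceDegenInputs N M h).choose_spec.choose

/-- the fundamental identity along the degeneracy inclusion. -/
theorem h69v_fi {N M : ℕ} [NeZero N] [NeZero M] (h : N ∣ M) :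
    haveI := h69v_pd h
    FundamentalIdentityAlong Kbar (degen h) (h69v_hint h) :=
  (Fermat.Agent.Red.CH0.ifaceDegenInputs N M h).choose_spec.choose_spec

variable {N M : ℕ} [NeZero N] [NeZero M] (h : N ∣ M)

/-- the degeneracy inclusion commutes with the Galois action. -/
theorem h69v_degen_gal (σ : GQ) (u : FF N) : degen h (gal N σ • u) = gal M σ • degen h u :=
  Subtype.ext (by
    rw [coe_degen]
    show _ = coeffMap (σ : Kbar →+* Kbar) ((degen h u : FF M) : LaurentSeries Kbar)
    rw [coe_degen]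
    rfl)

theorem h69v_intertwines (σ : GQ) :
    SemilinearAut.IntertwinesAlong ((degen h : FF N →ₐ[Kbar] FF M) : FF N →+* FF M)
      (gal N σ) (gal M σ) :=
  fun x => (h69v_degen_gal h σ x).symm

/-- pull-back of degree-zero divisors. -/
def h69vDegZero : Divisor.degZero (K := Kbar) (F := FF N) →+
    Divisor.degZero (K := Kbar) (F := FF M) :=
  haveI := h69v_pd h
  ((Divisor.pullbackAlong (degen h) (h69v_hint h)).comp
    (Divisor.degZero (K := Kbar) (F := FF N)).subtype).codRestrict _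
    (fun D => Divisor.pullbackAlong_mem_degZero _ (h69v_hint h) (h69v_fi h) D.2)

theorem h69v_coe_degZero (D : Divisor.degZero (K := Kbar) (F := FF N)) :
    haveI := h69v_pd h
    (h69vDegZero h D : Divisor Kbar (FF M)) =
      Divisor.pullbackAlong (degen h) (h69v_hint h) (D : Divisor Kbar (FF N)) := rfl

/-- **the pull-back `J₀(N) → J₀(M)`.** -/
def h69vPull : JZero N →+ JZero M :=
  QuotientAddGroup.map _ _ (h69vDegZero h) (by
    haveI := h69v_pd h
    rintro ⟨D, hD0⟩ hD
    simp only [AddSubgroup.mem_comap, AddSubgroup.mem_addSubgroupOf] at hD ⊢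
    exact Divisor.mem_principal.2
      (Divisor.isPrincipal_pullbackAlong _ (h69v_hint h) (Divisor.mem_principal.1 hD)))

theorem h69vPull_mk (D : Divisor.degZero (K := Kbar) (F := FF N)) :
    h69vPull h (Pic0.mk D) = Pic0.mk (h69vDegZero h D) := rfl

/-- the pull-back commutes with the Galois action. -/
theorem h69vPull_galois (σ : GQ) (x : JZero N) : h69vPull h (σ • x) = σ • h69vPull h x := by
  haveI := h69v_pd h
  obtain ⟨D, rfl⟩ := Pic0.mk_surjective x
  rw [galois_smul_pic0_def, galois_smul_pic0_def, SemilinearAut.pic0_smul_mk, h69vPull_mk,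
    h69vPull_mk, SemilinearAut.pic0_smul_mk]
  refine congrArg Pic0.mk (Subtype.ext ?_)
  show Divisor.pullbackAlong (degen h) (h69v_hint h) (gal N σ • (D : Divisor Kbar (FF N)))
    = gal M σ • Divisor.pullbackAlong (degen h) (h69v_hint h) (D : Divisor Kbar (FF N))
  exact Fermat.Agent.Red.HKGal.pullbackAlong_smul (degen h) (h69v_hint h) (gal N σ) (gal M σ)
    (h69v_intertwines h σ) _

end Pull

/-! ## Injectivity on torsion at the good level -/

section Inj

variable (ℓ N : ℕ) [NeZero N]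

/-- the pull-back to the good level kills no class of prime order. -/
theorem h69v_pull_inj_prime (r : ℕ) (hr : r.Prime) (x : JZero N) (hx : r • x = 0)
    (hpx : h69vPull (dvd_goodLevel ℓ N) x = 0) : x = 0 := by
  haveI := h69v_pd (dvd_goodLevel ℓ N)
  obtain ⟨D, rfl⟩ := Pic0.mk_surjective x
  rw [pic0_mk_eq_zero_iff]
  have h1 : (r • (D : Divisor Kbar (FF N))).IsPrincipal := by
    have : Pic0.mk (r • D) = 0 := by
      have e : (Pic0.mk (r • D) : JZero N) = r • Pic0.mk D := rfl
      rw [e, hx]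
    rw [pic0_mk_eq_zero_iff] at this
    exact this
  have h2 : (Divisor.pullbackAlong (degen (dvd_goodLevel ℓ N)) (h69v_hint (dvd_goodLevel ℓ N))
      (D : Divisor Kbar (FF N))).IsPrincipal := by
    rw [h69vPull_mk, pic0_mk_eq_zero_iff] at hpx
    exact hpx
  exact Fermat.Agent.Red.Desc.ifacePullbackInj ℓ N (h69v_hint (dvd_goodLevel ℓ N)) r hr
    (D : Divisor Kbar (FF N)) D.2 h1 h2

/-- the pull-back to the good level is injective on torsion classes. -/
theorem h69v_pull_inj_torsion (n : ℕ) : n ≠ 0 → ∀ x : JZero N, n • x = 0 →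
    h69vPull (dvd_goodLevel ℓ N) x = 0 → x = 0 := by
  induction n using induction_on_primes with
  | zero => intro h; exact absurd rfl h
  | one => intro _ x hx _; rwa [one_smul] at hx
  | prime_mul r a hr ih =>
    intro hn x hx hpx
    have ha : a ≠ 0 := fun h => hn (by rw [h, mul_zero])
    have h1 : r • (a • x) = 0 := by rwa [smul_smul]
    have h2 : h69vPull (dvd_goodLevel ℓ N) (a • x) = 0 := by rw [map_nsmul, hpx, smul_zero]
    exact ih ha x (h69v_pull_inj_prime ℓ N r hr (a • x) h1 h2) hpx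

end Inj

/-! ## The torsion subgroups -/

section Tor

/-- the action of `G_ℚ` on `J₀(N)[n]`. -/
def h69vAct (N : ℕ) (n : ℤ) (σ : GQ) (x : ↥(Submodule.torsionBy ℤ (JZero N) n)) :
    ↥(Submodule.torsionBy ℤ (JZero N) n) :=
  ⟨σ • (x : JZero N), by
    have hx := x.2
    rw [Submodule.mem_torsionBy_iff] at hx ⊢
    rw [smul_comm, hx, smul_zero]⟩

@[simp]
theorem h69v_coe_act (N : ℕ) (n : ℤ) (σ : GQ) (x : ↥(Submodule.torsionBy ℤ (JZero N) n)) :
    ((h69vAct N n σ x : ↥(Submodule.torsionBy ℤ (JZero N) n)) : JZero N) = σ • (x : JZero N) :=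
  rfl

variable (ℓ N : ℕ) [NeZero N] (n : ℤ)

/-- the pull-back on `n`-torsion, to the good level. -/
def h69vTor : ↥(Submodule.torsionBy ℤ (JZero N) n) →+
    ↥(Submodule.torsionBy ℤ (JZero (goodLevel ℓ N)) n) where
  toFun x := ⟨h69vPull (dvd_goodLevel ℓ N) (x : JZero N), by
    have hx := x.2
    rw [Submodule.mem_torsionBy_iff] at hx ⊢
    rw [← map_zsmul, hx, map_zero]⟩
  map_zero' := Subtype.ext (map_zero _)
  map_add' x y := Subtype.ext (map_add _ _ _)

@[simp]
theorem h69v_coe_tor (x : ↥(Submodule.torsionBy ℤ (JZero N) n)) :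
    ((h69vTor ℓ N n x : ↥(Submodule.torsionBy ℤ (JZero (goodLevel ℓ N)) n)) :
      JZero (goodLevel ℓ N)) = h69vPull (dvd_goodLevel ℓ N) (x : JZero N) := rfl

theorem h69vTor_act (σ : GQ) (x : ↥(Submodule.torsionBy ℤ (JZero N) n)) :
    h69vTor ℓ N n (h69vAct N n σ x) = h69vAct (goodLevel ℓ N) n σ (h69vTor ℓ N n x) :=
  Subtype.ext (h69vPull_galois (dvd_goodLevel ℓ N) σ (x : JZero N))

theorem h69vTor_injective (hn : n ≠ 0) : Function.Injective (h69vTor ℓ N n) := by
  rw [injective_iff_map_eq_zero]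
  intro x hx
  have h1 : h69vPull (dvd_goodLevel ℓ N) (x : JZero N) = 0 := congrArg Subtype.val hx
  have h2 : n.natAbs • (x : JZero N) = 0 := by
    have hx' := x.2
    rw [Submodule.mem_torsionBy_iff] at hx'
    rcases Int.natAbs_eq n with e | e
    · rw [← natCast_zsmul, ← e]; exact hx'
    · have : (n.natAbs : ℤ) = -n := by omega
      rw [← natCast_zsmul, this, neg_smul, hx', neg_zero]
  exact Subtype.ext
    (h69v_pull_inj_torsion ℓ N n.natAbs (Int.natAbs_ne_zero.mpr hn) (x : JZero N) h2 h1)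

end Tor

/-! ## Function orders -/

section Order

variable {p : ℕ} {M M' : Type} [AddCommGroup M] [AddCommGroup M']
  {act : (AlgebraicClosure ℚ ≃ₐ[ℚ] AlgebraicClosure ℚ) → M → M}
  {act' : (AlgebraicClosure ℚ ≃ₐ[ℚ] AlgebraicClosure ℚ) → M' → M'}

/-- a function order pulls back along an injective equivariant additive map. -/
theorem h69v_hasOrder_of_injective (φ : M' →+ M) (hinj : Function.Injective φ)
    (hφ : ∀ σ x, φ (act' σ x) = act σ (φ x)) (h : h97c_HasOrder p M act) :
    h97c_HasOrder p M' act' := by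
  obtain ⟨𝓗, hfg, heq, hsep, hco⟩ := h
  refine ⟨𝓗.map (h97cPull (p := p) φ), h97c_map_fg _ _ hfg, ?_, ?_, ?_⟩
  · rintro _ ⟨f, hf, rfl⟩ σ x
    show f (φ (act' σ x)) = σ (f (φ x))
    rw [hφ, heq f hf]
  · intro x y hxy
    apply hinj
    exact hsep _ _ fun f hf => hxy _ ⟨f, hf, rfl⟩
  · rintro _ ⟨f, hf, rfl⟩
    have h1 := h97c_Sw_comap (p := p) (C' := 𝓗.map (h97cPull (p := p) φ))
      (D' := 𝓗.map (h97cPull (p := p) φ)) φ φ
      (fun a ha => ⟨a, ha, rfl⟩) (fun b hb => ⟨b, hb, rfl⟩) (hco f hf)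
    refine (iff_of_eq (congrArg _ ?_)).mp h1
    funext x y
    show f (φ x + φ y) = f (φ (x + y))
    rw [map_add]

/-- **LEVEL.**  A function order for `J₀(goodLevel ℓ N)[n]` gives one for `J₀(N)[n]`. -/
theorem h69v_hasOrder_level (ℓ N : ℕ) [NeZero N] (n : ℤ) (hn : n ≠ 0)
    (h : h97c_HasOrder p ↥(Submodule.torsionBy ℤ (JZero (goodLevel ℓ N)) n)
      (h69vAct (goodLevel ℓ N) n)) :
    h97c_HasOrder p ↥(Submodule.torsionBy ℤ (JZero N) n) (h69vAct N n) :=
  h69v_hasOrder_of_injective (h69vTor ℓ N n) (h69vTor_injective ℓ N n hn)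
    (h69vTor_act ℓ N n) h

/-- the conclusion of the frozen `S19` is `h97c_Flat` of `J₀(N)[ℓ ^ k]`. -/
theorem h69v_s19_of_flat (N : ℕ) (ℓ : ℕ) (k : ℕ)
    (h : h97c_Flat ℓ ↥(Submodule.torsionBy ℤ (JZero N) ((ℓ : ℤ) ^ k))
      (h69vAct N ((ℓ : ℤ) ^ k))) :
    ∃ (H : Type) (_ : CommRing H) (_ : HopfAlgebra (GaloisRep.ratLocalizedAt ℓ) H),
      Module.Finite (GaloisRep.ratLocalizedAt ℓ) H ∧ Module.Flat (GaloisRep.ratLocalizedAt ℓ) H ∧
      Coalgebra.IsCocomm (GaloisRep.ratLocalizedAt ℓ) H ∧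
      ∃ e : WithConv (H →ₐ[GaloisRep.ratLocalizedAt ℓ] AlgebraicClosure ℚ) ≃
          ↥(Submodule.torsionBy ℤ (JZero N) ((ℓ : ℤ) ^ k)),
        (∀ f g, e (f * g) = e f + e g) ∧
        ∀ (σ : AlgebraicClosure ℚ ≃ₐ[ℚ] AlgebraicClosure ℚ)
          (f g : WithConv (H →ₐ[GaloisRep.ratLocalizedAt ℓ] AlgebraicClosure ℚ)),
          (∀ h : H, g h = σ (f h)) → ((e g : JZero N)) = σ • (e f : JZero N) := by
  obtain ⟨H, i1, i2, hfin, hflat, hco, e, hadd, hgal⟩ := h
  exact ⟨H, i1, i2, hfin, hflat, hco, e, hadd, fun σ f g hfg =>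
    congrArg Subtype.val (hgal σ f g hfg)⟩

end Order

end Fermat.Agent.P5
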