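import Fermat.Agent.P5.H62DiscChar

/-!
# P5 (wave 5, S19), block GEO-LINK, wiring lemma (helper6): every disc calculus has the bridge

The frozen leaves `H56gLink` (`P5/H56GeoAsm.lean`) and `H4sLinkRawLeaf` assume only the disc
calculus `H37DiscAt A Q t O` at the centres of a chart, while the consumers on the
Riemann–Roch side need the bridge `H37DiscChar A Q O` (`O ⊆ gaussV A M`, in particular the
parameter `t` is Gauss-integral).  At a good level the bridge holds for EVERY disc calculus: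

* `h6g_O_gauss` : `H37DiscAt A Q t O → ∀ f ∈ O, f ∈ gaussV A M`.
  Proof: if `f ∈ O` is not Gauss-integral, then `u₀ = c f` is a Gauss unit for some
  `c ∈ 𝔪_A`; let `a² = c`; then `u = c f - a` is a Gauss unit, regular on the disc, so it is in
  the local ring `h62qO` (`h62q_O_char`), `u = r / s`; the numerator `r` lies in the centre and
  is a Gauss unit, hence has a zero `P` in the disc (`h62q_exists_zero`); there
  `c f(P) = a`, i.e. `a f(P) = 1` with `f(P) ∈ A` (`O_val`): `a` is a unit, contradiction.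
* `h6g_discChar` : `H37DiscAt A Q t O → H37DiscChar A Q O` (`O_char` from `h62q_O_char`).
* `h6g_t_gauss`, `h6g_O_eq` : the parameter is Gauss-integral; `O` is THE local ring `h62qO`.
-/

set_option autoImplicit false
set_option linter.unusedSectionVars false
set_option linter.unusedVariables false
set_option linter.style.longLine false

open AlgebraicCurve ModularCurve IsLocalRing

noncomputable section

namespace Fermat.Agent.P5

open Fermat.Agent.S37 Fermat.Agent.Red Fermat.Agent.Red.GG Fermat.Agent.Red.Match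
  Fermat.Agent.Red.GV Fermat.Agent.S36

variable {M : ℕ} [NeZero M] {A : ValuationSubring Kbar} {ℓ : ℕ}

/-- a nonzero constant whose inverse is not in `A` is a non-unit of `A`. -/
theorem h6g_mem_nonunits {c : Kbar} (hc : c⁻¹ ∉ A) : c ∈ A.nonunits :=
  (ValuationSubring.mem_nonunits_iff_or _).mpr (Or.inr hc)

/-- the product of a non-unit with an element of `A` is a non-unit. -/
theorem h6g_mul_mem_nonunits {a y : Kbar} (hai : a⁻¹ ∉ A) (hy : y ∈ A) :
    a * y ∈ A.nonunits := by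
  rw [ValuationSubring.mem_nonunits_iff_or]
  by_cases h0 : a * y = 0
  · exact Or.inl h0
  · right
    intro h
    apply hai
    have ha0 : a ≠ 0 := left_ne_zero_of_mul h0
    have hy0 : y ≠ 0 := right_ne_zero_of_mul h0
    have e : a⁻¹ = y * (a * y)⁻¹ := by
      rw [mul_inv, ← mul_assoc, mul_comm y, mul_assoc, mul_inv_cancel₀ hy0, mul_one]
    rw [e]
    exact A.mul_mem _ _ hy h

/-- the difference of a Gauss unit and a small constant is a Gauss unit. -/
theorem h6g_unit_sub (hℓ : ℓ.Prime) (hM : ¬ ℓ ∣ M) (hA : A.LiesOverPrime ℓ)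
    {x : FF M} (hx0 : x ≠ 0) (hx : x ∈ gaussV A M) (hxi : x⁻¹ ∈ gaussV A M)
    {a : Kbar} (ha : a ∈ A) (hai : a⁻¹ ∉ A) :
    x - cst M a ∈ gaussV A M ∧ (x - cst M a)⁻¹ ∈ gaussV A M := by
  have hcA : cst M a ∈ gaussV A M := (cst_mem_gaussV_iff A M hA a).mpr ha
  have hcinv : (cst M a)⁻¹ ∉ gaussV A M := by
    intro h
    rw [← map_inv₀] at h
    exact hai ((cst_mem_gaussV_iff A M hA a⁻¹).mp h)
  have h1 : gaussR A M ⟨cst M a, hcA⟩ = 0 :=
    (gaussR_eq_zero_iff A M hℓ hM hA ⟨cst M a, hcA⟩).mpr (Or.inr hcinv)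
  have h2 : gaussR A M ⟨x, hx⟩ ≠ 0 := by
    intro h
    rcases (gaussR_eq_zero_iff A M hℓ hM hA ⟨x, hx⟩).mp h with h3 | h3
    · exact hx0 h3
    · exact h3 hxi
  have hsub : x - cst M a ∈ gaussV A M := sub_mem hx hcA
  refine ⟨hsub, ?_⟩
  by_contra hcon
  have h3 : gaussR A M ⟨x - cst M a, hsub⟩ = 0 :=
    (gaussR_eq_zero_iff A M hℓ hM hA ⟨x - cst M a, hsub⟩).mpr (Or.inr hcon)
  have h4 : (⟨x - cst M a, hsub⟩ : gaussV A M) = ⟨x, hx⟩ - ⟨cst M a, hcA⟩ := rfl
  rw [h4, map_sub, h1, sub_zero] at h3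
  exact h2 h3

/-- **the ring of a disc calculus consists of Gauss-integral functions.** -/
theorem h6g_O_gauss (hℓ : ℓ.Prime) (hM : ¬ ℓ ∣ M) (hA : A.LiesOverPrime ℓ)
    {Q : Place Kbar (FF M)} {t : FF M} {O : Subring (FF M)} (hd : H37DiscAt A Q t O) :
    ∀ f ∈ O, f ∈ gaussV A M := by
  intro f hf
  by_contra hfV
  have hQ : IsFinAt A Q := hd.Q_fin
  have hmax : (h62qCen A hQ).IsMaximal := h62q_cen_isMaximal A hQ
  have hprime : (h62qCen A hQ).IsPrime := hmax.isPrime
  have hf0 : f ≠ 0 := fun h => hfV (h ▸ zero_mem _)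
  obtain ⟨c, hc0, hcu, hcui⟩ := exists_cst_mul_unit A M hℓ hM hA f hf0
  -- `c` is a non-unit of `A`
  have hci : c⁻¹ ∉ A := by
    intro h
    apply hfV
    have h1 : f = cst M c⁻¹ * (cst M c * f) := by
      rw [← mul_assoc, ← map_mul, inv_mul_cancel₀ hc0, map_one, one_mul]
    rw [h1]
    exact mul_mem ((cst_mem_gaussV_iff A M hA c⁻¹).mpr h) hcu
  have hcA : c ∈ A := (A.mem_or_inv_mem c).resolve_right hci
  -- a square root `a` of `c`
  obtain ⟨a, ha⟩ := IsAlgClosed.exists_pow_nat_eq c (n := 2) (by norm_num)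
  have ha2 : a * a = c := by rw [← ha]; ring
  have ha0 : a ≠ 0 := by
    intro h
    rw [h, mul_zero] at ha2
    exact hc0 ha2.symm
  have hai : a⁻¹ ∉ A := by
    intro h
    apply hci
    have : c⁻¹ = a⁻¹ * a⁻¹ := by rw [← ha2, mul_inv]
    rw [this]
    exact A.mul_mem _ _ h h
  have haA : a ∈ A := (A.mem_or_inv_mem a).resolve_right hai
  -- the Gauss unit `u = c f - a`
  have hx0 : cst M c * f ≠ 0 := mul_ne_zero (fun h => hc0 ((map_eq_zero _).mp h)) hf0
  obtain ⟨huV, huiV⟩ := h6g_unit_sub hℓ hM hA hx0 hcu hcui haA hai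
  set u : FF M := cst M c * f - cst M a with hu
  -- the values of `u` on the disc
  have hval : ∀ P, SameRed A P Q → ∃ b ∈ A, ValueAt P f b ∧ ValueAt P u (c * b - a) := by
    intro P hP
    obtain ⟨b, hb, hfb⟩ := hd.O_val f hf P hP
    exact ⟨b, hb, hfb, valueAt_sub (valueAt_mul (valueAt_cst P c) hfb) (valueAt_cst P a)⟩
  have hreg : ∀ P, SameRed A P Q → u ∈ P.toValuationSubring := by
    intro P hP
    obtain ⟨b, -, -, h1⟩ := hval P hP
    exact valueAt_mem h1
  -- `u` lies in the local ring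
  obtain ⟨r, s, hs, hrs⟩ := h62q_O_char A hℓ hM hA hQ u huV hreg
  obtain ⟨hs0, hsinv⟩ := h62q_unit_of_not_mem A hQ hs
  -- the numerator `r` lies in the centre
  have hr : r ∈ h62qCen A hQ := by
    rw [h62q_mem_cen_iff]
    obtain ⟨b, hb, -, hub⟩ := hval Q hd.refl
    have h1 : ValueAt Q (r : FF M) ((c * b - a) * ((h62qEv A hQ s : A) : Kbar)) := by
      rw [← hrs]
      exact valueAt_mul hub (h62q_ev_spec A hQ s)
    rw [h62q_ev_eq A hQ r h1]
    have h5 : (c * b - a) * ((h62qEv A hQ s : A) : Kbar) =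
        a * ((a * b - 1) * ((h62qEv A hQ s : A) : Kbar)) := by rw [← ha2]; ring
    rw [h5]
    exact h6g_mul_mem_nonunits hai (A.mul_mem _ _
      (sub_mem (A.mul_mem _ _ haA hb) A.one_mem) (h62qEv A hQ s).2)
  -- `r` is a Gauss unit
  have hsV : (s : FF M)⁻¹ ∈ gaussV A M :=
    h62q_inv_mem_gaussV A hℓ hM hA _ (h62q_map_le_cen A hQ) hs
  have hrV : (r : FF M)⁻¹ ∈ gaussV A M := by
    rw [← hrs, mul_inv]
    exact mul_mem huiV hsV
  -- a zero of `r` in the disc
  obtain ⟨P, hPQ, hP0⟩ := h62q_exists_zero A hℓ hM hA hQ r hr hrV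
  have hP : IsFinAt A P := (sameRed_isFinAt_iff hPQ).mpr hQ
  have hcen := h62q_cen_eq_of_sameRed A hP hQ hPQ
  have hs' : s ∉ h62qCen A hP := by rw [hcen]; exact hs
  obtain ⟨hsP0, -⟩ := h62q_unit_of_not_mem A hP hs'
  obtain ⟨b, hb, -, hub⟩ := hval P hPQ
  have h1 : ValueAt P (r : FF M) ((c * b - a) * ((h62qEv A hP s : A) : Kbar)) := by
    rw [← hrs]
    exact valueAt_mul hub (h62q_ev_spec A hP s)
  have h2 : (c * b - a) * ((h62qEv A hP s : A) : Kbar) = 0 := valueAt_unique h1 hP0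
  have h3 : c * b - a = 0 := by
    rcases mul_eq_zero.mp h2 with h | h
    · exact h
    · exact absurd h hsP0
  have h4 : a * (a * b - 1) = 0 := by
    rw [← ha2] at h3
    linear_combination h3
  have h5 : a * b = 1 := by
    rcases mul_eq_zero.mp h4 with h | h
    · exact absurd h ha0
    · exact sub_eq_zero.mp h
  have h6 : a⁻¹ = b := inv_eq_of_mul_eq_one_right h5
  exact hai (h6 ▸ hb)

/-- **every disc calculus has the bridge** `H37DiscChar`. -/
theorem h6g_discChar (hℓ : ℓ.Prime) (hM : ¬ ℓ ∣ M) (haux : auxLevel ℓ ∣ M)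
    (hA : A.LiesOverPrime ℓ) {Q : Place Kbar (FF M)} {t : FF M} {O : Subring (FF M)}
    (hd : H37DiscAt A Q t O) : H37DiscChar A Q O where
  O_gauss := h6g_O_gauss hℓ hM hA hd
  O_char := by
    intro f hfV hreg
    have hmax : (h62qCen A hd.Q_fin).IsMaximal := h62q_cen_isMaximal A hd.Q_fin
    have hprime : (h62qCen A hd.Q_fin).IsPrime := hmax.isPrime
    obtain ⟨r, s, hs, hrs⟩ := h62q_O_char A hℓ hM hA hd.Q_fin f hfV hreg
    obtain ⟨hs0, hsinv⟩ := h62q_unit_of_not_mem A hd.Q_fin hs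
    have hsO : (s : FF M) ∈ O := hd.O_model _ s.2
    have hrO : (r : FF M) ∈ O := hd.O_model _ r.2
    have hsi : (s : FF M)⁻¹ ∈ O :=
      hd.O_unit _ hsO _ (h62q_ev_spec A hd.Q_fin s) hs0 hsinv
    have hsne : (s : FF M) ≠ 0 := by
      intro h
      have h1 := h62q_ev_spec A hd.Q_fin s
      rw [h] at h1
      exact hs0 (valueAt_unique h1 (valueAt_zero (v := Q)))
    have e : f = (r : FF M) * (s : FF M)⁻¹ := (eq_mul_inv_iff_mul_eq₀ hsne).mpr hrs
    rw [e]
    exact mul_mem hrO hsi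

/-- the parameter of a disc calculus is Gauss-integral. -/
theorem h6g_t_gauss (hℓ : ℓ.Prime) (hM : ¬ ℓ ∣ M) (hA : A.LiesOverPrime ℓ)
    {Q : Place Kbar (FF M)} {t : FF M} {O : Subring (FF M)} (hd : H37DiscAt A Q t O) :
    t ∈ gaussV A M :=
  h6g_O_gauss hℓ hM hA hd t hd.O_t

/-- the parameters of a chart with disc calculus are Gauss-integral. -/
theorem h6g_chart_t_gauss (hℓ : ℓ.Prime) (hM : ¬ ℓ ∣ M) (hA : A.LiesOverPrime ℓ)
    {g : ℕ} (c : H96Chart M g) (hd : ∀ i, H37DiscAt A (c.Q i) (c.t i) (c.O i)) :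
    ∀ i, c.t i ∈ gaussV A M :=
  fun i => h6g_t_gauss hℓ hM hA (hd i)

/-- the bridge at every centre of a chart with disc calculus. -/
theorem h6g_chart_discChar (hℓ : ℓ.Prime) (hM : ¬ ℓ ∣ M) (haux : auxLevel ℓ ∣ M)
    (hA : A.LiesOverPrime ℓ) {g : ℕ} (c : H96Chart M g)
    (hd : ∀ i, H37DiscAt A (c.Q i) (c.t i) (c.O i)) :
    ∀ i, H37DiscChar A (c.Q i) (c.O i) :=
  fun i => h6g_discChar hℓ hM haux hA (hd i)

/-- the ring of a disc calculus is THE local ring of the finite chart at the centre. -/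
theorem h6g_O_eq (hℓ : ℓ.Prime) (hM : ¬ ℓ ∣ M) (haux : auxLevel ℓ ∣ M)
    (hA : A.LiesOverPrime ℓ) {Q : Place Kbar (FF M)} {t : FF M} {O : Subring (FF M)}
    (hd : H37DiscAt A Q t O) [h𝔫 : (h62qCen A hd.Q_fin).IsPrime] :
    O = h62qO A (h62qCen A hd.Q_fin) := by
  have hc := h6g_discChar hℓ hM haux hA hd
  have hc' : H37DiscChar A Q (h62qO A (h62qCen A hd.Q_fin)) :=
    h62q_discChar A hℓ hM hA hd.Q_fin
  apply le_antisymm
  · intro f hf
    refine hc'.O_char f (hc.O_gauss f hf) fun P hP => ?_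
    obtain ⟨b, -, hb⟩ := hd.O_val f hf P hP
    exact valueAt_mem hb
  · intro f hf
    refine hc.O_char f (hc'.O_gauss f hf) fun P hP => ?_
    obtain ⟨b, -, hb⟩ := h62q_O_val A hd.Q_fin f hf P hP
    exact valueAt_mem hb

end Fermat.Agent.P5
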