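import Fermat.Agent.P5.H75AlgClos

/-!
# Wave 5, pillar (P), block ALG-CLOS (helper75): `K`-valued form

`A` a valuation subring of a field `K`, `S` a finite set, `R` an `A`-subalgebra of `S → K`
consisting of functions with values in `A`.  The statements of `P5/H75AlgClos.lean` in this form:

* `h75c_conductor_K` : `R` point separating ⟹ `c * g ∈ R` for one `c ≠ 0` in `A` and all
  `g : S → K` with values in `A`;
* `h75c_mem_of_congr_K` : a function with values in `A` which is congruent modulo `c` to an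
  element of `R` is in `R` ("`R` is closed");
* `h75c_inv_closed_K` : `R` contains the inverses of its pointwise units;
* `h75c_newton_K` : Newton roots.
-/

set_option autoImplicit false
set_option linter.style.haveILetI false

open Polynomial

namespace Fermat.Agent.P5

variable {K : Type*} [Field K] (A : ValuationSubring K) {S : Type*}

/-- the inclusion of the `A`-valued functions in the `K`-valued functions. -/
def h75cPhi (S : Type*) : (S → A) →ₐ[A] (S → K) := (Algebra.ofId A K).compLeft S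

theorem h75cPhi_apply (g : S → A) (s : S) : h75cPhi A S g s = (g s : K) := rfl

/-- the lift of a function with values in `A`. -/
def h75cLift (f : S → K) (hf : ∀ s, f s ∈ A) : S → A := fun s => ⟨f s, hf s⟩

theorem h75cPhi_lift (f : S → K) (hf : ∀ s, f s ∈ A) : h75cPhi A S (h75cLift A f hf) = f := rfl

theorem h75c_conductor_K [Finite S] (R : Subalgebra A (S → K))
    (hsep : ∀ s s' : S, s ≠ s' → ∃ f ∈ R, (∀ t, f t ∈ A) ∧ f s ≠ f s') :
    ∃ c : K, c ∈ A ∧ c ≠ 0 ∧ ∀ g : S → K, (∀ s, g s ∈ A) → (fun s => c * g s) ∈ R := by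
  have hsep' : ∀ s s' : S, s ≠ s' → ∃ f ∈ R.comap (h75cPhi A S), f s ≠ f s' := by
    intro s s' hne
    obtain ⟨f, hfR, hfA, hf⟩ := hsep s s' hne
    refine ⟨h75cLift A f hfA, ?_, fun h => hf (congrArg Subtype.val h)⟩
    rw [Subalgebra.mem_comap, h75cPhi_lift]
    exact hfR
  obtain ⟨c, hc0, hc⟩ := h75c_conductor (R.comap (h75cPhi A S)) hsep'
  refine ⟨(c : K), c.2, fun h => hc0 (Subtype.ext h), fun g hg => ?_⟩
  have h1 := hc (h75cLift A g hg)
  rw [Subalgebra.mem_comap] at h1
  exact h1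

/-- `R` is closed: a function with values in `A` which is congruent modulo the conductor to
an element of `R` is in `R`. -/
theorem h75c_mem_of_congr_K (R : Subalgebra A (S → K)) (c : K)
    (hc : ∀ g : S → K, (∀ s, g s ∈ A) → (fun s => c * g s) ∈ R)
    (f g : S → K) (hg : g ∈ R) (hfg : ∀ s, ∃ a ∈ A, f s - g s = c * a) : f ∈ R := by
  choose a haA ha using hfg
  have h1 : f = g + fun s => c * a s := by
    funext s
    rw [Pi.add_apply, ← ha s]
    ring
  rw [h1]
  exact R.add_mem hg (hc a haA)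

theorem h75c_inv_closed_K [Finite S] (R : Subalgebra A (S → K)) {u : S → K} (hu : u ∈ R)
    (huA : ∀ s, u s ∈ A) (w : S → K) (hwA : ∀ s, w s ∈ A) (huw : ∀ s, u s * w s = 1) :
    w ∈ R := by
  have h1 : h75cLift A u huA ∈ R.comap (h75cPhi A S) := by
    rw [Subalgebra.mem_comap, h75cPhi_lift]
    exact hu
  have h2 : h75cLift A u huA * h75cLift A w hwA = 1 :=
    funext fun s => Subtype.ext (huw s)
  have h3 := h75c_inv_closed (R.comap (h75cPhi A S)) h1 (h75cLift A w hwA) h2
  rw [Subalgebra.mem_comap] at h3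
  exact h3

/-- **Newton in a function algebra**, `K`-valued form. -/
theorem h75c_newton_K [Finite S] (R : Subalgebra A (S → K))
    (hint : ∀ f ∈ R, ∀ s, f s ∈ A)
    (hsep : ∀ s s' : S, s ≠ s' → ∃ f ∈ R, f s ≠ f s')
    (π : K) (hπ : A.valuation π < 1)
    (hrk : ∀ c ∈ A, c ≠ 0 → ∃ m : ℕ, ∃ a ∈ A, π ^ m = c * a)
    (F : ℕ → Polynomial (S → K)) (hF : ∀ m n, (F m).coeff n ∈ R)
    (y y₀ : S → K) (hy₀ : y₀ ∈ R) (hyy₀ : ∀ s, ∃ a ∈ A, y s - y₀ s = π * a)
    (hroot : ∀ m s, ∃ a ∈ A, ((F m).eval y) s = π ^ m * a)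
    (hder : ∀ m s, ∃ w ∈ A, ((F m).derivative.eval y) s * w = 1) : y ∈ R := by
  classical
  have hπA : π ∈ A := A.mem_of_valuation_le_one π hπ.le
  set π' : A := ⟨π, hπA⟩ with hπ'
  have hπmax : π' ∈ IsLocalRing.maximalIdeal A := (A.valuation_lt_one_iff π').mpr hπ
  have hyA : ∀ s, y s ∈ A := by
    intro s
    obtain ⟨a, haA, ha⟩ := hyy₀ s
    have h1 : y s = y₀ s + π * a := by rw [← ha]; ring
    rw [h1]
    exact A.add_mem _ _ (hint y₀ hy₀ s) (A.mul_mem _ _ hπA haA)
  -- lifts
  have hsep' : ∀ s s' : S, s ≠ s' → ∃ f ∈ R.comap (h75cPhi A S), f s ≠ f s' := by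
    intro s s' hne
    obtain ⟨f, hfR, hf⟩ := hsep s s' hne
    refine ⟨h75cLift A f (hint f hfR), ?_, fun h => hf (congrArg Subtype.val h)⟩
    rw [Subalgebra.mem_comap, h75cPhi_lift]
    exact hfR
  have hlift : ∀ m, ∃ G : Polynomial (S → A), G.map (h75cPhi A S).toRingHom = F m := by
    intro m
    rw [← Polynomial.mem_lifts, Polynomial.lifts_iff_coeff_lifts]
    intro n
    exact ⟨h75cLift A _ (hint _ (hF m n)), rfl⟩
  choose G hG using hlift
  have hGR : ∀ m n, (G m).coeff n ∈ R.comap (h75cPhi A S) := by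
    intro m n
    rw [Subalgebra.mem_comap]
    have h1 : h75cPhi A S ((G m).coeff n) = (F m).coeff n := by
      rw [← hG m, Polynomial.coeff_map]
      rfl
    rw [h1]
    exact hF m n
  have heval : ∀ (P : Polynomial (S → A)) (z : S → A),
      h75cPhi A S (P.eval z) = (P.map (h75cPhi A S).toRingHom).eval (h75cPhi A S z) := by
    intro P z
    rw [Polynomial.eval_map]
    exact (Polynomial.eval₂_at_apply (h75cPhi A S).toRingHom z).symm
  have hy₀' : h75cLift A y₀ (hint y₀ hy₀) ∈ R.comap (h75cPhi A S) := by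
    rw [Subalgebra.mem_comap, h75cPhi_lift]
    exact hy₀
  have hres := h75c_newton (R.comap (h75cPhi A S)) hsep' π' hπmax ?_ G hGR
    (h75cLift A y hyA) (h75cLift A y₀ (hint y₀ hy₀)) hy₀' ?_ ?_ ?_
  · rw [Subalgebra.mem_comap] at hres
    exact hres
  · intro c hc0
    obtain ⟨m, a, haA, ha⟩ := hrk (c : K) c.2 (fun h => hc0 (Subtype.ext h))
    exact ⟨m, ⟨a, haA⟩, Subtype.ext ha⟩
  · intro s
    obtain ⟨a, haA, ha⟩ := hyy₀ s
    exact ⟨⟨a, haA⟩, Subtype.ext ha⟩
  · intro m s
    obtain ⟨a, haA, ha⟩ := hroot m s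
    refine ⟨⟨a, haA⟩, Subtype.ext ?_⟩
    have h1 := congrFun (heval (G m) (h75cLift A y hyA)) s
    rw [hG m, h75cPhi_lift, h75cPhi_apply] at h1
    rw [h1, ha]
    rfl
  · intro m s
    obtain ⟨w, hwA, hw⟩ := hder m s
    have h1 := congrFun (heval (derivative (G m)) (h75cLift A y hyA)) s
    rw [← Polynomial.derivative_map, hG m, h75cPhi_lift, h75cPhi_apply] at h1
    refine IsUnit.of_mul_eq_one (⟨w, hwA⟩ : A) (Subtype.ext ?_)
    change ((eval (h75cLift A y hyA) (derivative (G m)) s : A) : K) * w = 1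
    rw [h1]
    exact hw

end Fermat.Agent.P5
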