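import Fermat.Agent.P5.H96ClosIface
import Fermat.Agent.P5.H75AlgClosK
import Fermat.Agent.P5.H91ClosProd

/-!
# P5 (wave 5, S19), block ALG-CLOS, row CLOS-ADAPT (helper70): the frozen leaves

The exact frozen Props of `P5/H96ClosIface.lean` from the landed files of the block
(`P5/H75AlgClosK.lean`, `P5/H91ClosProd.lean`):

* `h70c_approx   : H96cApprox`   (conductor),
* `h70c_inv      : H96cInv`      (pointwise units are units),
* `h70c_sweedler : H96cSweedler` (Sweedler form in the product algebra),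
* (approximate Newton: see `P5/H70ClosNewton.lean`; the frozen `H96cNewton` is false as stated).

All unconditional.  (`H96cArchQbar` is in `P5/H70ArchQbar.lean`.)
-/

set_option autoImplicit false
set_option linter.style.haveILetI false

open Polynomial

namespace Fermat.Agent.P5

/-- separation in the form used by the landed lemmas. -/
theorem h70c_sep_ne {K : Type} [Field K] {A : ValuationSubring K} {S : Type}
    (R : Subalgebra A (S → K))
    (hsep : ∀ s s' : S, (∀ f ∈ R, f s = f s') → s = s') :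
    ∀ s s' : S, s ≠ s' → ∃ f ∈ R, f s ≠ f s' := by
  intro s s' hne
  by_contra hcon
  refine hne (hsep s s' fun f hf => ?_)
  by_contra h
  exact hcon ⟨f, hf, h⟩

/-- **C-APPROX** (exact frozen Prop). -/
theorem h70c_approx : H96cApprox := by
  intro K _ A S _ R hint hsep
  have hsep' : ∀ s s' : S, s ≠ s' → ∃ f ∈ R, (∀ t, f t ∈ A) ∧ f s ≠ f s' := by
    intro s s' hne
    obtain ⟨f, hf, h⟩ := h70c_sep_ne R hsep s s' hne
    exact ⟨f, hf, hint f hf, h⟩
  obtain ⟨c, hcA, hc0, hc⟩ := h75c_conductor_K A R hsep'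
  refine ⟨c, hcA, hc0, ?_⟩
  rintro f ⟨g, hg, hfg⟩
  exact h75c_mem_of_congr_K A R c hc f g hg hfg

/-- **C-INV** (exact frozen Prop). -/
theorem h70c_inv : H96cInv := by
  intro K _ A S _ R hint u hu hunit
  exact h75c_inv_closed_K A R hu (hint u hu) (fun s => (u s)⁻¹) (fun s => (hunit s).2)
    (fun s => mul_inv_cancel₀ (hunit s).1)

/-- **C-SWEEDLER** (exact frozen Prop). -/
theorem h70c_sweedler : H96cSweedler := by
  intro K _ A S S' R R' F hF
  have hle : h96c_prod A R R' ≤ h91cProd R R' := by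
    unfold h96c_prod
    refine Algebra.adjoin_le ?_
    rintro G (⟨f, hf, rfl⟩ | ⟨f, hf, rfl⟩)
    · exact h91c_fst_mem R R' hf
    · exact h91c_snd_mem R R' hf
  obtain ⟨n, a, b, ha, hb, h⟩ := (h91c_mem_prod_iff R R' F).mp (hle hF)
  exact ⟨n, a, b, ha, hb, fun p => h p.1 p.2⟩

end Fermat.Agent.P5
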