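import Fermat.Agent.P5.H96ClosIface

/-!
# P5 (wave 5, S19), block ALG-CLOS: C-ARCH (helper72)

`h72a_archQbar : H96cArchQbar` — every valuation subring of `ℚ̄` in which a prime number `ℓ` is a
non-unit is archimedean (rank one): for a non-unit `y` and `c ≠ 0` in `A` some power of `y` is
divisible by `c` in `A`.

Mathlib only.  Method: a nonzero `x` algebraic over `ℤ` satisfies a nonzero integral polynomial;
by the ultrametric inequality two of its terms have the same valuation, which gives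
`v(x) ^ m * v(ℓ) ^ e₁ = v(ℓ) ^ e₂` with `m ≥ 1` (`h72a_key`).
-/

set_option autoImplicit false

namespace Fermat.Agent.P5

section general

variable {K : Type} [Field K] (A : ValuationSubring K)

/-- natural numbers have valuation `≤ 1`. -/
theorem h72a_val_natCast_le (n : ℕ) : A.valuation (n : K) ≤ 1 :=
  (A.valuation_le_one_iff _).2 (natCast_mem A n)

/-- integers have valuation `≤ 1`. -/
theorem h72a_val_intCast_le (n : ℤ) : A.valuation (n : K) ≤ 1 :=
  (A.valuation_le_one_iff _).2 (intCast_mem A n)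

/-- a natural number prime to `ℓ` is a unit of `A`. -/
theorem h72a_val_natCast_eq_one {ℓ : ℕ} (hℓ : ℓ.Prime) (hA : (ℓ : K) ∈ A.nonunits) {u : ℕ}
    (hu : ¬ ℓ ∣ u) : A.valuation (u : K) = 1 := by
  have hl : A.valuation (ℓ : K) < 1 := (A.mem_nonunits_iff).1 hA
  rcases lt_or_eq_of_le (h72a_val_natCast_le A u) with h | h
  · exfalso
    have hcop : Nat.Coprime ℓ u := (Nat.Prime.coprime_iff_not_dvd hℓ).2 hu
    have hb : (ℓ : ℤ) * Nat.gcdA ℓ u + (u : ℤ) * Nat.gcdB ℓ u = 1 := by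
      have := Nat.gcd_eq_gcd_ab ℓ u
      rw [hcop] at this
      exact_mod_cast this.symm
    have hbK : (ℓ : K) * ((Nat.gcdA ℓ u : ℤ) : K) + (u : K) * ((Nat.gcdB ℓ u : ℤ) : K) = 1 := by
      have := congrArg (fun z : ℤ => (z : K)) hb
      simpa using this
    have h1 : A.valuation ((ℓ : K) * ((Nat.gcdA ℓ u : ℤ) : K)) < 1 := by
      rw [map_mul]
      calc A.valuation (ℓ : K) * A.valuation ((Nat.gcdA ℓ u : ℤ) : K)
          ≤ A.valuation (ℓ : K) * 1 := mul_le_mul_right (h72a_val_intCast_le A _) _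
        _ = A.valuation (ℓ : K) := mul_one _
        _ < 1 := hl
    have h2 : A.valuation ((u : K) * ((Nat.gcdB ℓ u : ℤ) : K)) < 1 := by
      rw [map_mul]
      calc A.valuation (u : K) * A.valuation ((Nat.gcdB ℓ u : ℤ) : K)
          ≤ A.valuation (u : K) * 1 := mul_le_mul_right (h72a_val_intCast_le A _) _
        _ = A.valuation (u : K) := mul_one _
        _ < 1 := h
    have h3 : A.valuation (1 : K) < 1 := by
      rw [← hbK]
      exact lt_of_le_of_lt (A.valuation.map_add _ _) (max_lt h1 h2)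
    rw [map_one] at h3
    exact lt_irrefl _ h3
  · exact h

/-- the valuation of a nonzero natural number is a power of the valuation of `ℓ`. -/
theorem h72a_val_natCast {ℓ : ℕ} (hℓ : ℓ.Prime) (hA : (ℓ : K) ∈ A.nonunits) {n : ℕ}
    (hn : n ≠ 0) : ∃ e : ℕ, A.valuation (n : K) = A.valuation (ℓ : K) ^ e := by
  obtain ⟨e, u, hu, rfl⟩ := Nat.exists_eq_pow_mul_and_not_dvd hn ℓ hℓ.ne_one
  refine ⟨e, ?_⟩
  rw [Nat.cast_mul, Nat.cast_pow, map_mul, map_pow, h72a_val_natCast_eq_one A hℓ hA hu, mul_one]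

/-- the valuation of a nonzero integer is a power of the valuation of `ℓ`. -/
theorem h72a_val_intCast {ℓ : ℕ} (hℓ : ℓ.Prime) (hA : (ℓ : K) ∈ A.nonunits) {n : ℤ}
    (hn : n ≠ 0) : ∃ e : ℕ, A.valuation (n : K) = A.valuation (ℓ : K) ^ e := by
  obtain ⟨e, he⟩ := h72a_val_natCast A hℓ hA (Int.natAbs_ne_zero.2 hn)
  refine ⟨e, ?_⟩
  rw [← he]
  rcases Int.natAbs_eq n with h | h
  · conv_lhs => rw [h]
    simp
  · conv_lhs => rw [h]
    simp

/-- **Key lemma.**  In characteristic zero, a nonzero element algebraic over `ℤ` has a power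
whose valuation is a quotient of two powers of the valuation of `ℓ`. -/
theorem h72a_key [CharZero K] {ℓ : ℕ} (hℓ : ℓ.Prime) (hA : (ℓ : K) ∈ A.nonunits) {x : K}
    (hx : x ≠ 0) (halg : IsAlgebraic ℤ x) :
    ∃ (m e₁ e₂ : ℕ), 0 < m ∧
      A.valuation x ^ m * A.valuation (ℓ : K) ^ e₁ = A.valuation (ℓ : K) ^ e₂ := by
  classical
  obtain ⟨P, hP0, hP⟩ := halg
  set v := A.valuation with hv
  set f : ℕ → K := fun i => ((P.coeff i : ℤ) : K) * x ^ i with hf
  have hsum : ∑ i ∈ P.support, f i = 0 := by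
    have h1 : Polynomial.aeval x P = ∑ i ∈ P.support, f i := by
      rw [Polynomial.aeval_def, Polynomial.eval₂_eq_sum, Polynomial.sum_def]
      rfl
    rw [← h1, hP]
  have hfne : ∀ i ∈ P.support, v (f i) ≠ 0 := by
    intro i hi
    have hc : P.coeff i ≠ 0 := Polynomial.mem_support_iff.1 hi
    have : f i ≠ 0 := mul_ne_zero (Int.cast_ne_zero.2 hc) (pow_ne_zero _ hx)
    exact (Valuation.ne_zero_iff _).2 this
  have hne : P.support.Nonempty := Polynomial.support_nonempty.2 hP0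
  obtain ⟨j, hj, hjmax⟩ := Finset.exists_max_image P.support (fun i => v (f i)) hne
  -- another index with the same valuation
  have hex : ∃ i ∈ P.support, i ≠ j ∧ v (f i) = v (f j) := by
    by_contra hcon
    push Not at hcon
    have hlt : ∀ i ∈ P.support \ {j}, v (f i) < v (f j) := by
      intro i hi
      rw [Finset.mem_sdiff, Finset.mem_singleton] at hi
      exact lt_of_le_of_ne (hjmax i hi.1) (hcon i hi.1 hi.2)
    have := Valuation.map_sum_eq_of_lt v hj hlt
    rw [hsum, map_zero] at this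
    exact hfne j hj this.symm
  obtain ⟨i, hi, hij, hval⟩ := hex
  -- the general step: from `a < b` in the support with equal valuations
  have step : ∀ a b : ℕ, a ∈ P.support → b ∈ P.support → a < b → v (f a) = v (f b) →
      ∃ (m e₁ e₂ : ℕ), 0 < m ∧ v x ^ m * v (ℓ : K) ^ e₁ = v (ℓ : K) ^ e₂ := by
    intro a b ha hb hab hvab
    obtain ⟨ea, hea⟩ := h72a_val_intCast A hℓ hA (Polynomial.mem_support_iff.1 ha)
    obtain ⟨eb, heb⟩ := h72a_val_intCast A hℓ hA (Polynomial.mem_support_iff.1 hb)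
    refine ⟨b - a, eb, ea, Nat.sub_pos_of_lt hab, ?_⟩
    have hxa : v x ^ a ≠ 0 := pow_ne_zero _ ((Valuation.ne_zero_iff _).2 hx)
    have e1 : v (f a) = v (ℓ : K) ^ ea * v x ^ a := by
      simp only [hf, map_mul, map_pow]
      rw [← hea]
    have e2 : v (f b) = v (ℓ : K) ^ eb * (v x ^ (b - a) * v x ^ a) := by
      simp only [hf, map_mul, map_pow]
      rw [← heb, ← pow_add, Nat.sub_add_cancel hab.le]
    rw [e1, e2, ← mul_assoc] at hvab
    have := mul_right_cancel₀ hxa hvab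
    rw [this, mul_comm]
  rcases lt_or_gt_of_ne hij with h | h
  · exact step i j hi hj h hval
  · exact step j i hj hi h hval.symm

/-- **Archimedean property from the key lemma.** -/
theorem h72a_arch_of_key [CharZero K] {ℓ : ℕ} (hℓ : ℓ.Prime) (hA : (ℓ : K) ∈ A.nonunits)
    (halg : ∀ x : K, IsAlgebraic ℤ x) : H96Arch A := by
  intro y c hy hc hc0
  by_cases hy0 : y = 0
  · exact ⟨1, 0, A.zero_mem, by rw [hy0]; simp⟩
  set v := A.valuation with hv
  have hl : v (ℓ : K) < 1 := (A.mem_nonunits_iff).1 hA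
  have hl0 : v (ℓ : K) ≠ 0 :=
    (Valuation.ne_zero_iff _).2 (Nat.cast_ne_zero.2 hℓ.ne_zero)
  have hyl : v y < 1 := (A.mem_nonunits_iff).1 hy
  have hcl : v c ≤ 1 := (A.valuation_le_one_iff _).2 hc
  have hc0' : v c ≠ 0 := (Valuation.ne_zero_iff _).2 hc0
  -- step 1: a power of `y` is divisible by `ℓ`
  obtain ⟨m, e₁, e₂, hm, hme⟩ := h72a_key A hℓ hA hy0 (halg y)
  have hym : v y ^ m < 1 := pow_lt_one₀ zero_le hyl hm.ne'
  have he : e₁ < e₂ := by
    by_contra hcon
    push Not at hcon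
    have h1 : v (ℓ : K) ^ e₁ ≤ v (ℓ : K) ^ e₂ := pow_le_pow_of_le_one zero_le hl.le hcon
    have h2 : v y ^ m * v (ℓ : K) ^ e₁ < 1 * v (ℓ : K) ^ e₁ :=
      mul_lt_mul_of_pos_right hym (zero_lt_iff.2 (pow_ne_zero _ hl0))
    rw [one_mul, hme] at h2
    exact absurd h1 (not_le.2 h2)
  have hyl' : v y ^ m ≤ v (ℓ : K) := by
    have h3 : v y ^ m * v (ℓ : K) ^ e₁ = v (ℓ : K) ^ (e₂ - e₁) * v (ℓ : K) ^ e₁ := by
      rw [hme, ← pow_add, Nat.sub_add_cancel he.le]
    have h4 := mul_right_cancel₀ (pow_ne_zero _ hl0) h3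
    rw [h4]
    exact pow_le_of_le_one zero_le hl.le (Nat.sub_pos_of_lt he).ne'
  -- step 2: a power of `ℓ` is divisible by `c`
  obtain ⟨k, d₁, d₂, hk, hkd⟩ := h72a_key A hℓ hA hc0 (halg c)
  have hcd : v (ℓ : K) ^ d₂ ≤ v c := by
    rw [← hkd]
    calc v c ^ k * v (ℓ : K) ^ d₁ ≤ v c ^ k * 1 :=
          mul_le_mul_right (pow_le_one₀ zero_le hl.le) _
      _ = v c ^ k := mul_one _
      _ ≤ v c := pow_le_of_le_one zero_le hcl hk.ne'
  -- conclusion
  refine ⟨m * d₂, y ^ (m * d₂) / c, ?_, ?_⟩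
  · rw [← A.valuation_le_one_iff, map_div₀, map_pow]
    rw [div_le_one₀ (zero_lt_iff.2 hc0')]
    calc v y ^ (m * d₂) = (v y ^ m) ^ d₂ := pow_mul _ _ _
      _ ≤ v (ℓ : K) ^ d₂ := pow_le_pow_left' hyl' d₂
      _ ≤ v c := hcd
  · field_simp

end general

/-- **C-ARCH.**  Valuation subrings of `ℚ̄` over a prime number are archimedean. -/
theorem h72a_archQbar : H96cArchQbar := by
  intro A ℓ hℓ hA
  refine h72a_arch_of_key A hℓ hA (fun x => ?_)
  have hq : IsAlgebraic ℚ x := (AlgebraicClosure.isAlgebraic ℚ).isAlgebraic x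
  exact (IsFractionRing.isAlgebraic_iff ℤ ℚ (AlgebraicClosure ℚ)).2 hq

end Fermat.Agent.P5
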