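import Fermat.Agent.P5.H93DescIface
import Fermat.Agent.P5.H34DescArith

/-!
# P5 (wave 5, S19), block ALG-DESC, leaf DESC-APPROX (helper73)

`h73p_approx : H93dApprox` — an element of a valuation subring `A` of `ℚ̄` over `ℓ` that is
fixed by the inertia group and by a Frobenius element is an `ℓ`-adic limit of integers.

Induction on the precision `N`.  One step (`h73p_step`): the Frobenius congruence
`φ a ≡ a ^ ℓ` and `φ a = a` give `ā ^ ℓ = ā` in the residue field, which has characteristic `ℓ`,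
so `ā` is the class of a natural number `n` (`h34d_frob_fixed`); `a - n` is a non-unit fixed
by inertia, hence divisible by `ℓ` in `A` (`h23u_unif`), and the quotient is again fixed by
inertia and by `φ`.
-/

set_option autoImplicit false

noncomputable section

namespace Fermat.Agent.P5

open Fermat.Agent.S37

/-- **One step.**  An element of `A` fixed by inertia and by a Frobenius element is congruent
to a natural number modulo `ℓ A`. -/
theorem h73p_step {ℓ : ℕ} (hℓ : ℓ.Prime) (A : ValuationSubring Kbar)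
    (hA : A.LiesOverPrime ℓ) {φ : GQ} (hφ : A.IsFrobeniusAt φ ℓ) {a : Kbar} (ha : a ∈ A)
    (hI : ∀ ι ∈ A.inertiaSubgroupIn ℚ, ι a = a) (hf : φ a = a) :
    ∃ n : ℕ, (a - (n : Kbar)) / ((ℓ : ℕ) : Kbar) ∈ A := by
  have : Fact ℓ.Prime := ⟨hℓ⟩
  have := h34d_charP hℓ A hA
  have h1 : φ a - a ^ ℓ ∈ A.nonunits := h34d_frob_cong hℓ A hA hφ ha
  have h2 : a ^ ℓ - a ∈ A.nonunits := by
    have e : a ^ ℓ - a = -(φ a - a ^ ℓ) := by rw [hf]; ring
    rw [e]
    exact h34d_nu_neg A h1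
  have h3 : (IsLocalRing.residue A ⟨a, ha⟩) ^ ℓ = IsLocalRing.residue A ⟨a, ha⟩ := by
    rw [← map_pow, ← sub_eq_zero, ← map_sub, IsLocalRing.residue_eq_zero_iff,
      ← ValuationSubring.coe_mem_nonunits_iff]
    exact h2
  obtain ⟨n, hn⟩ := h34d_frob_fixed ℓ h3
  have h4 : IsLocalRing.residue A (⟨a, ha⟩ - (n : A)) = 0 := by
    rw [map_sub, map_natCast, hn, sub_self]
  rw [IsLocalRing.residue_eq_zero_iff, ← ValuationSubring.coe_mem_nonunits_iff] at h4
  have e : (((⟨a, ha⟩ - (n : A) : A)) : Kbar) = a - (n : Kbar) := by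
    push_cast
    rfl
  rw [e] at h4
  refine ⟨n, Fermat.Agent.S36.h23u_unif hℓ A hA ?_ h4⟩
  intro σ hσ
  rw [map_sub, map_natCast, hI σ hσ]

/-- the induction, with the element generalised. -/
theorem h73p_approx_aux {ℓ : ℕ} (hℓ : ℓ.Prime) (A : ValuationSubring Kbar)
    (hA : A.LiesOverPrime ℓ) {φ : GQ} (hφ : A.IsFrobeniusAt φ ℓ) (N : ℕ) :
    ∀ a ∈ A, (∀ ι ∈ A.inertiaSubgroupIn ℚ, ι a = a) → φ a = a →
      ∃ m : ℤ, ∃ b ∈ A, a - (m : Kbar) = (ℓ : Kbar) ^ N * b := by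
  have hℓ0 : ((ℓ : ℕ) : Kbar) ≠ 0 := by exact_mod_cast hℓ.ne_zero
  induction N with
  | zero =>
    intro a ha _ _
    exact ⟨0, a, ha, by simp⟩
  | succ N ih =>
    intro a ha hI hf
    obtain ⟨n, hn⟩ := h73p_step hℓ A hA hφ ha hI hf
    have hI' : ∀ ι ∈ A.inertiaSubgroupIn ℚ,
        ι ((a - (n : Kbar)) / ((ℓ : ℕ) : Kbar)) = (a - (n : Kbar)) / ((ℓ : ℕ) : Kbar) := by
      intro ι hι
      rw [map_div₀, map_sub, map_natCast, map_natCast, hI ι hι]
    have hf' : φ ((a - (n : Kbar)) / ((ℓ : ℕ) : Kbar)) =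
        (a - (n : Kbar)) / ((ℓ : ℕ) : Kbar) := by
      rw [map_div₀, map_sub, map_natCast, map_natCast, hf]
    obtain ⟨m, b, hb, hm⟩ := ih _ hn hI' hf'
    refine ⟨(n : ℤ) + (ℓ : ℤ) * m, b, hb, ?_⟩
    have e : a - (n : Kbar) =
        ((ℓ : ℕ) : Kbar) * ((a - (n : Kbar)) / ((ℓ : ℕ) : Kbar)) := by
      field_simp
    push_cast
    rw [pow_succ]
    linear_combination e + ((ℓ : ℕ) : Kbar) * hm

/-- **DESC-APPROX** (exact frozen Prop `H93dApprox` of `P5/H93DescIface.lean`). -/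
theorem h73p_approx : H93dApprox := by
  intro ℓ A hℓ hA φ hφ a ha hI hf N
  exact h73p_approx_aux hℓ A hA hφ N a ha hI hf

end Fermat.Agent.P5
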