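import Fermat.Agent.P5.H96LawLeaves

/-!
# P5 (wave 5, S19), block GEO-LAW, leaf A2 (helper74): the Newton step

`h74n_newtonStep_of : H96cNewton → H96cArchQbar → H96wNewtonStep`
(`H96wNewtonStep = H96wCramer → H96wAdd`).

From the Cramer step we get coefficient functions `co j ∈ R(S) ⊗ R(S')`; for a point
`p = (x, y)` the function `u_p = bs + ∑ co_j(p) b_j` vanishes at places `E i` in the discs of
the target chart `c'` with `[∑ (E i - Q' i)] = -(x + y)`; hence the coordinate
`Y(p) = X^{c'}_i (-(x + y))` is the value of `t' i` at `E i`.  Finite Taylor expansion of `bs`,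
`b j` at `Q' i` (division property of `c'.O i`) gives, for every `n`,
`∑_{k < n} U_k(p) Y(p)^k = ρ Y(p)^n` with `U_k ∈ R(S) ⊗ R(S')`, `ρ ∈ A`, and `U_1(p)` is a unit
(`H96Link.der_unit` at the constant solution `co0`).  Approximate Newton (`H96cNewton`) concludes.
-/

set_option autoImplicit false
set_option linter.unusedSectionVars false

open AlgebraicCurve ModularCurve

noncomputable section

namespace Fermat.Agent.P5

open Fermat.Agent.S37

/-! ### nonunits of a valuation subring -/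

section Nonunits

variable {K : Type*} [Field K] (V : ValuationSubring K)

theorem h74n_nu_mem {x : K} (h : x ∈ V.nonunits) : x ∈ V := V.nonunits_subset h

theorem h74n_nu_zero : (0 : K) ∈ V.nonunits := by
  rw [ValuationSubring.mem_nonunits_iff, map_zero]
  exact zero_lt_one

theorem h74n_nu_add {x y : K} (hx : x ∈ V.nonunits) (hy : y ∈ V.nonunits) :
    x + y ∈ V.nonunits := by
  rw [ValuationSubring.mem_nonunits_iff] at *
  exact lt_of_le_of_lt (V.valuation.map_add x y) (max_lt hx hy)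

theorem h74n_nu_neg {x : K} (hx : x ∈ V.nonunits) : -x ∈ V.nonunits := by
  rw [ValuationSubring.mem_nonunits_iff] at *
  rwa [Valuation.map_neg]

theorem h74n_nu_sub {x y : K} (hx : x ∈ V.nonunits) (hy : y ∈ V.nonunits) :
    x - y ∈ V.nonunits := by
  rw [sub_eq_add_neg]
  exact h74n_nu_add V hx (h74n_nu_neg V hy)

theorem h74n_nu_mul_left {x y : K} (hx : x ∈ V.nonunits) (hy : y ∈ V) :
    x * y ∈ V.nonunits := by
  rw [ValuationSubring.mem_nonunits_iff] at *
  rw [map_mul]
  have h1 : V.valuation y ≤ 1 := (V.valuation_le_one_iff y).2 hy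
  calc V.valuation x * V.valuation y ≤ V.valuation x * 1 := by gcongr
    _ = V.valuation x := mul_one _
    _ < 1 := hx

theorem h74n_nu_mul_right {x y : K} (hx : x ∈ V) (hy : y ∈ V.nonunits) :
    x * y ∈ V.nonunits := by
  rw [mul_comm]
  exact h74n_nu_mul_left V hy hx

theorem h74n_nu_sum {ι : Type*} (s : Finset ι) (f : ι → K) (h : ∀ i ∈ s, f i ∈ V.nonunits) :
    ∑ i ∈ s, f i ∈ V.nonunits := by
  classical
  induction s using Finset.induction_on with
  | empty => simp [h74n_nu_zero V]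
  | insert a s ha ih =>
    rw [Finset.sum_insert ha]
    exact h74n_nu_add V (h a (Finset.mem_insert_self a s))
      (ih fun i hi => h i (Finset.mem_insert_of_mem hi))

/-- unit plus nonunit is a unit. -/
theorem h74n_unit_add_nu {d e : K} (hd : d ∈ V) (hd0 : d ≠ 0) (hdi : d⁻¹ ∈ V)
    (he : e ∈ V.nonunits) : d + e ≠ 0 ∧ (d + e)⁻¹ ∈ V := by
  have h1 : V.valuation d = 1 := by
    have ha : V.valuation d ≤ 1 := (V.valuation_le_one_iff d).2 hd
    have hb : V.valuation d⁻¹ ≤ 1 := (V.valuation_le_one_iff _).2 hdi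
    rw [map_inv₀] at hb
    have hne : V.valuation d ≠ 0 := (Valuation.ne_zero_iff _).2 hd0
    have hc : 1 ≤ V.valuation d := by
      by_contra hlt
      have hlt' : V.valuation d < 1 := lt_of_not_ge hlt
      have : (1 : ValuationSubring.ValueGroup V) < (V.valuation d)⁻¹ := by
        exact (one_lt_inv₀ (zero_lt_iff.2 hne)).2 hlt'
      exact absurd hb (not_le.2 this)
    exact le_antisymm ha hc
  have h2 : V.valuation e < 1 := (ValuationSubring.mem_nonunits_iff V).1 he
  have h3 : V.valuation (d + e) = 1 := by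
    rw [← h1]
    exact Valuation.map_add_eq_of_lt_left _ (by rw [h1]; exact h2)
  have h4 : d + e ≠ 0 := by
    intro h
    rw [h, map_zero] at h3
    exact zero_ne_one h3
  refine ⟨h4, ?_⟩
  rw [← V.valuation_le_one_iff, map_inv₀, h3, inv_one]

end Nonunits

/-! ### values at a place -/

section Values

variable {M : ℕ}

theorem h74n_cst_add (a b : Kbar) : cst M (a + b) = cst M a + cst M b := map_add _ _ _

theorem h74n_cst_mul (a b : Kbar) : cst M (a * b) = cst M a * cst M b := map_mul _ _ _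

theorem h74n_cst_sub (a b : Kbar) : cst M (a - b) = cst M a - cst M b := map_sub _ _ _

theorem h74n_cst_zero : cst M (0 : Kbar) = 0 := map_zero _

theorem h74n_cst_one : cst M (1 : Kbar) = 1 := map_one _

theorem h74n_cst_sum {ι : Type*} (s : Finset ι) (a : ι → Kbar) :
    cst M (∑ i ∈ s, a i) = ∑ i ∈ s, cst M (a i) := map_sum _ _ _

theorem h74n_va_cst (v : Place Kbar (FF M)) (a : Kbar) : ValueAt v (cst M a) a := by
  unfold ValueAt
  rw [sub_self]
  exact h74n_nu_zero _

theorem h74n_va_mem {v : Place Kbar (FF M)} {f : FF M} {a : Kbar} (h : ValueAt v f a) :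
    f ∈ v.toValuationSubring := by
  have h1 : f = (f - cst M a) + cst M a := by ring
  rw [h1]
  exact add_mem (h74n_nu_mem _ h) (v.algebraMap_mem' a)

theorem h74n_va_add {v : Place Kbar (FF M)} {f₁ f₂ : FF M} {a₁ a₂ : Kbar}
    (h₁ : ValueAt v f₁ a₁) (h₂ : ValueAt v f₂ a₂) : ValueAt v (f₁ + f₂) (a₁ + a₂) := by
  unfold ValueAt at *
  have e : f₁ + f₂ - cst M (a₁ + a₂) = (f₁ - cst M a₁) + (f₂ - cst M a₂) := by
    rw [h74n_cst_add]; ring
  rw [e]
  exact h74n_nu_add _ h₁ h₂

theorem h74n_va_mul {v : Place Kbar (FF M)} {f₁ f₂ : FF M} {a₁ a₂ : Kbar}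
    (h₁ : ValueAt v f₁ a₁) (h₂ : ValueAt v f₂ a₂) : ValueAt v (f₁ * f₂) (a₁ * a₂) := by
  have hf₁ := h74n_va_mem h₁
  unfold ValueAt at *
  have e : f₁ * f₂ - cst M (a₁ * a₂) = f₁ * (f₂ - cst M a₂) + (f₁ - cst M a₁) * cst M a₂ := by
    rw [h74n_cst_mul]; ring
  rw [e]
  exact h74n_nu_add _ (h74n_nu_mul_right _ hf₁ h₂)
    (h74n_nu_mul_left _ h₁ (v.algebraMap_mem' a₂))

theorem h74n_va_pow {v : Place Kbar (FF M)} {f : FF M} {a : Kbar} (h : ValueAt v f a) (n : ℕ) :
    ValueAt v (f ^ n) (a ^ n) := by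
  induction n with
  | zero =>
    simp only [pow_zero]
    have := h74n_va_cst v (1 : Kbar)
    rwa [h74n_cst_one] at this
  | succ n ih =>
    rw [pow_succ, pow_succ]
    exact h74n_va_mul ih h

theorem h74n_va_sum {v : Place Kbar (FF M)} {ι : Type*} (s : Finset ι) (f : ι → FF M)
    (a : ι → Kbar) (h : ∀ i ∈ s, ValueAt v (f i) (a i)) :
    ValueAt v (∑ i ∈ s, f i) (∑ i ∈ s, a i) := by
  classical
  induction s using Finset.induction_on with
  | empty =>
    simp only [Finset.sum_empty]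
    have := h74n_va_cst v (0 : Kbar)
    rwa [h74n_cst_zero] at this
  | insert b s hb ih =>
    rw [Finset.sum_insert hb, Finset.sum_insert hb]
    exact h74n_va_add (h b (Finset.mem_insert_self b s))
      (ih fun i hi => h i (Finset.mem_insert_of_mem hi))

theorem h74n_va_unique {v : Place Kbar (FF M)} {f : FF M} {a b : Kbar}
    (ha : ValueAt v f a) (hb : ValueAt v f b) : a = b := by
  by_contra hab
  have h1 : cst M (b - a) ∈ v.toValuationSubring.nonunits := by
    have e : cst M (b - a) = (f - cst M a) - (f - cst M b) := by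
      rw [h74n_cst_sub]; ring
    rw [e]
    exact h74n_nu_sub _ ha hb
  have hne : b - a ≠ 0 := sub_ne_zero.mpr (Ne.symm hab)
  have h0 : cst M (b - a) ≠ 0 := by
    intro h
    exact hne ((algebraMap Kbar (FF M)).injective (h.trans (map_zero _).symm))
  rw [ValuationSubring.mem_nonunits_iff_or] at h1
  rcases h1 with h1 | h1
  · exact h0 h1
  · apply h1
    have : (cst M (b - a))⁻¹ = cst M (b - a)⁻¹ := (map_inv₀ _ _).symm
    rw [this]
    exact v.algebraMap_mem' _

end Values

/-! ### coordinates of a valid chart -/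

section Coord

variable {M : ℕ} [NeZero M] {g : ℕ} {A : ValuationSubring Kbar} {c : H96Chart M g}

theorem h74n_cls_eq {x x' : JZero M} {P Q : Fin g → Place Kbar (FF M)}
    (h : h96m_IsCls x P Q) (h' : h96m_IsCls x' P Q) : x = x' := by
  obtain ⟨D, hD, rfl⟩ := h
  obtain ⟨D', hD', rfl⟩ := h'
  have : D = D' := Subtype.ext (hD.trans hD'.symm)
  rw [this]

theorem h74n_coord_unique (hc : c.Valid A) {x : JZero M} {i : Fin g} {a a' : Kbar}
    (h : c.IsCoord A x i a) (h' : c.IsCoord A x i a') : a = a' := by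
  obtain ⟨P, hP, hcls, hv⟩ := h
  obtain ⟨P', hP', hcls', hv'⟩ := h'
  have hPP : P = P' := hc.rep_unique x P P' hP hP' hcls hcls'
  subst hPP
  exact h74n_va_unique hv hv'

theorem h74n_X_eq (hc : c.Valid A) {x : JZero M} {i : Fin g} {a : Kbar}
    (h : c.IsCoord A x i a) : h96w_X A c i x = a := by
  classical
  have hex : ∃ a, c.IsCoord A x i a := ⟨a, h⟩
  unfold h96w_X
  rw [dif_pos hex]
  exact h74n_coord_unique hc hex.choose_spec h

/-- the coordinates of a class of `J¹`, with their places. -/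
theorem h74n_X_places (hc : c.Valid A) {x : JZero M} (hx : x ∈ redKerPic M A) :
    ∃ P : Fin g → Place Kbar (FF M), (∀ i, SameRed A (P i) (c.Q i)) ∧ h96m_IsCls x P c.Q ∧
      ∀ i, ValueAt (P i) (c.t i) (h96w_X A c i x) ∧ h96w_X A c i x ∈ A.nonunits := by
  obtain ⟨P, hP, hcls⟩ := hc.rep x hx
  refine ⟨P, hP, hcls, fun i => ?_⟩
  obtain ⟨a, ha, hva⟩ := hc.t_small i (P i) (hP i)
  have hX : h96w_X A c i x = a := h74n_X_eq hc ⟨P, hP, hcls, hva⟩
  rw [hX]
  exact ⟨hva, ha⟩

theorem h74n_X_small (hc : c.Valid A) {x : JZero M} (hx : x ∈ redKerPic M A) (i : Fin g) :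
    h96w_X A c i x ∈ A.nonunits := by
  obtain ⟨P, -, -, h⟩ := h74n_X_places hc hx
  exact (h i).2

/-- the coordinate attached to a representative. -/
theorem h74n_X_of_cls (hc : c.Valid A) {x : JZero M} {P : Fin g → Place Kbar (FF M)}
    (hP : ∀ i, SameRed A (P i) (c.Q i)) (hcls : h96m_IsCls x P c.Q) (i : Fin g) :
    ValueAt (P i) (c.t i) (h96w_X A c i x) ∧ h96w_X A c i x ∈ A.nonunits := by
  obtain ⟨a, ha, hva⟩ := hc.t_small i (P i) (hP i)
  have hX : h96w_X A c i x = a := h74n_X_eq hc ⟨P, hP, hcls, hva⟩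
  rw [hX]
  exact ⟨hva, ha⟩

theorem h74n_X_inj (hc : c.Valid A) {x x' : JZero M} (hx : x ∈ redKerPic M A)
    (hx' : x' ∈ redKerPic M A) (h : ∀ j, h96w_X A c j x = h96w_X A c j x') : x = x' := by
  obtain ⟨P, hP, hcls, hv⟩ := h74n_X_places hc hx
  obtain ⟨P', hP', hcls', hv'⟩ := h74n_X_places hc hx'
  have hPP : P = P' := by
    funext j
    have h1 := (hv j).1
    have h2 := (hv' j).1
    rw [← h j] at h2
    exact hc.t_inj j (P j) (P' j) _ (hP j) (hP' j) h1 h2
  subst hPP
  exact h74n_cls_eq hcls hcls'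

/-- the coordinate algebra is integral-valued. -/
theorem h74n_R_int (hc : c.Valid A) {S : Set (JZero M)} (hS : S ⊆ redKerPic M A) :
    ∀ f ∈ h96w_R A c S, ∀ s, f s ∈ A := by
  intro f hf
  unfold h96w_R at hf
  induction hf using Algebra.adjoin_induction with
  | mem f hf =>
    obtain ⟨j, rfl⟩ := hf
    intro s
    exact h74n_nu_mem _ (h74n_X_small hc (hS s.2) j)
  | algebraMap r =>
    intro s
    exact r.2
  | add f₁ f₂ _ _ h₁ h₂ =>
    intro s
    exact A.add_mem _ _ (h₁ s) (h₂ s)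
  | mul f₁ f₂ _ _ h₁ h₂ =>
    intro s
    exact A.mul_mem _ _ (h₁ s) (h₂ s)

end Coord

/-! ### the product algebra -/

section Prod

variable {K : Type} [Field K] (A : ValuationSubring K) {S S' : Type}
  (R : Subalgebra A (S → K)) (R' : Subalgebra A (S' → K))

theorem h74n_prod_int (hR : ∀ f ∈ R, ∀ s, f s ∈ A) (hR' : ∀ f ∈ R', ∀ s, f s ∈ A) :
    ∀ F ∈ h96c_prod A R R', ∀ p, F p ∈ A := by
  intro F hF
  unfold h96c_prod at hF
  induction hF using Algebra.adjoin_induction with
  | mem F hF =>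
    intro p
    rcases hF with ⟨f, hf, rfl⟩ | ⟨f, hf, rfl⟩
    · exact hR f hf p.1
    · exact hR' f hf p.2
  | algebraMap r =>
    intro p
    exact r.2
  | add f₁ f₂ _ _ h₁ h₂ =>
    intro p
    exact A.add_mem _ _ (h₁ p) (h₂ p)
  | mul f₁ f₂ _ _ h₁ h₂ =>
    intro p
    exact A.mul_mem _ _ (h₁ p) (h₂ p)

theorem h74n_prod_left {f : S → K} (hf : f ∈ R) :
    (fun p : S × S' => f p.1) ∈ h96c_prod A R R' :=
  Algebra.subset_adjoin (Or.inl ⟨f, hf, rfl⟩)

theorem h74n_prod_right {f : S' → K} (hf : f ∈ R') :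
    (fun p : S × S' => f p.2) ∈ h96c_prod A R R' :=
  Algebra.subset_adjoin (Or.inr ⟨f, hf, rfl⟩)

theorem h74n_prod_const {a : K} (ha : a ∈ A) :
    (fun _ : S × S' => a) ∈ h96c_prod A R R' := by
  have h := (h96c_prod A R R').algebraMap_mem ⟨a, ha⟩
  exact h

/-- `p ↦ a₀ + ∑ j, F j p * a j` lies in the product algebra. -/
theorem h74n_prod_lin {ι : Type} [Fintype ι] (F : ι → S × S' → K)
    (hF : ∀ j, F j ∈ h96c_prod A R R') (a₀ : K) (ha₀ : a₀ ∈ A) (a : ι → K)
    (ha : ∀ j, a j ∈ A) :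
    (fun p : S × S' => a₀ + ∑ j, F j p * a j) ∈ h96c_prod A R R' := by
  have h1 : (fun p : S × S' => a₀ + ∑ j, F j p * a j) =
      (fun _ : S × S' => a₀) + ∑ j, F j * (fun _ : S × S' => a j) := by
    funext p
    simp [Finset.sum_apply]
  rw [h1]
  exact add_mem (h74n_prod_const A R R' ha₀)
    (Subalgebra.sum_mem _ fun j _ => mul_mem (hF j) (h74n_prod_const A R R' (ha j)))

end Prod

/-! ### finite Taylor expansion in `c.O i` -/

section Taylor

variable {M : ℕ} [NeZero M] {g : ℕ} {A : ValuationSubring Kbar} {c : H96Chart M g}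

/-- finite Taylor expansion at the centre `Q i` of a function of `O i`. -/
theorem h74n_taylor (hc : c.Valid A) (i : Fin g) (f : FF M) (hf : f ∈ c.O i) (n : ℕ) :
    ∃ (β : ℕ → Kbar) (r : FF M), (∀ k, β k ∈ A) ∧ r ∈ c.O i ∧
      f = ∑ k ∈ Finset.range n, cst M (β k) * c.t i ^ k + c.t i ^ n * r := by
  induction n with
  | zero =>
    refine ⟨fun _ => 0, f, fun _ => A.zero_mem, hf, ?_⟩
    simp
  | succ n ih =>
    obtain ⟨β, r, hβ, hr, hfr⟩ := ih
    obtain ⟨a, ha, hva⟩ := hc.O_val i r hr (c.Q i) (hc.refl i)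
    obtain ⟨h, hh, hrh⟩ := hc.O_div i r hr (c.Q i) (hc.refl i) a 0 hva (hc.t_zero i)
    rw [h74n_cst_zero, sub_zero] at hrh
    have hr' : r = cst M a + c.t i * h := by rw [← hrh]; ring
    refine ⟨Function.update β n a, h, ?_, hh, ?_⟩
    · intro k
      by_cases hk : k = n
      · subst hk
        rw [Function.update_self]
        exact ha
      · rw [Function.update_of_ne hk]
        exact hβ k
    · rw [Finset.sum_range_succ, Function.update_self]
      have hsum : ∑ k ∈ Finset.range n, cst M (Function.update β n a k) * c.t i ^ k =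
          ∑ k ∈ Finset.range n, cst M (β k) * c.t i ^ k := by
        refine Finset.sum_congr rfl fun k hk => ?_
        rw [Function.update_of_ne (ne_of_lt (Finset.mem_range.1 hk))]
      rw [hsum]
      conv_lhs => rw [hfr, hr']
      ring

/-- linear combination of finite Taylor expansions. -/
theorem h74n_comb {ι : Type} [Fintype ι] (n : ℕ) (t bs rs : FF M) (b r : ι → FF M)
    (σ : ℕ → Kbar) (β : ι → ℕ → Kbar) (κ : ι → Kbar)
    (hbs : bs = ∑ k ∈ Finset.range n, cst M (σ k) * t ^ k + t ^ n * rs)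
    (hb : ∀ j, b j = ∑ k ∈ Finset.range n, cst M (β j k) * t ^ k + t ^ n * r j) :
    bs + ∑ j, cst M (κ j) * b j =
      ∑ k ∈ Finset.range n, cst M (σ k + ∑ j, κ j * β j k) * t ^ k +
        t ^ n * (rs + ∑ j, cst M (κ j) * r j) := by
  have h1 : ∑ j, cst M (κ j) * b j =
      ∑ k ∈ Finset.range n, (∑ j, cst M (κ j) * cst M (β j k)) * t ^ k +
        t ^ n * ∑ j, cst M (κ j) * r j := by
    calc ∑ j, cst M (κ j) * b j
        = ∑ j, (∑ k ∈ Finset.range n, cst M (κ j) * cst M (β j k) * t ^ k +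
            t ^ n * (cst M (κ j) * r j)) := by
          refine Finset.sum_congr rfl fun j _ => ?_
          conv_lhs => rw [hb j]
          rw [mul_add, Finset.mul_sum]
          congr 1
          · refine Finset.sum_congr rfl fun k _ => ?_
            ring
          · ring
      _ = ∑ j, ∑ k ∈ Finset.range n, cst M (κ j) * cst M (β j k) * t ^ k +
            ∑ j, t ^ n * (cst M (κ j) * r j) := Finset.sum_add_distrib
      _ = _ := by
          rw [Finset.sum_comm, ← Finset.mul_sum]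
          congr 1
          refine Finset.sum_congr rfl fun k _ => ?_
          rw [Finset.sum_mul]
  rw [h1]
  conv_lhs => rw [hbs]
  have h2 : ∀ k, cst M (σ k + ∑ j, κ j * β j k) * t ^ k =
      cst M (σ k) * t ^ k + (∑ j, cst M (κ j) * cst M (β j k)) * t ^ k := by
    intro k
    rw [h74n_cst_add, h74n_cst_sum, add_mul]
    congr 2
    refine Finset.sum_congr rfl fun j _ => ?_
    rw [h74n_cst_mul]
  simp only [h2, Finset.sum_add_distrib]
  ring

/-- splitting off the first two terms. -/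
theorem h74n_split (n : ℕ) (t R0 : FF M) (V : ℕ → Kbar) :
    ∑ k ∈ Finset.range (n + 2), cst M (V k) * t ^ k + t ^ (n + 2) * R0 =
      cst M (V 0) + cst M (V 1) * t +
        t ^ 2 * (∑ k ∈ Finset.range n, cst M (V (k + 1 + 1)) * t ^ k + t ^ n * R0) := by
  rw [Finset.sum_range_succ', Finset.sum_range_succ', mul_add, Finset.mul_sum]
  have h : ∀ k, cst M (V (k + 1 + 1)) * t ^ (k + 1 + 1) =
      t ^ 2 * (cst M (V (k + 1 + 1)) * t ^ k) := by
    intro k
    ring
  simp only [h, zero_add, pow_zero, pow_one, mul_one]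
  ring

/-- value of a finite Taylor expansion at a place. -/
theorem h74n_va_taylor {v : Place Kbar (FF M)} (n : ℕ) (t R : FF M) (U : ℕ → Kbar) (Y ρ : Kbar)
    (ht : ValueAt v t Y) (hR : ValueAt v R ρ) :
    ValueAt v (∑ k ∈ Finset.range n, cst M (U k) * t ^ k + t ^ n * R)
      (∑ k ∈ Finset.range n, U k * Y ^ k + Y ^ n * ρ) :=
  h74n_va_add
    (h74n_va_sum _ _ _ fun k _ => h74n_va_mul (h74n_va_cst v (U k)) (h74n_va_pow ht k))
    (h74n_va_mul (h74n_va_pow ht n) hR)

end Taylor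

/-! ### the Newton step -/

section Main

/-- **the Newton step, from approximate Newton and the archimedean property.** -/
theorem h74n_add_of (hN : H96cNewton) (hArch : H96cArchQbar) (hC : H96wCramer) : H96wAdd := by
  intro M _ A ℓ hℓ hA g c c' hc hc' hL S S' hSf hS'f hS hS' i
  obtain ⟨L⟩ := hL
  obtain ⟨co, co0, hco, hco0, hcosm, hdbl, hdiv⟩ :=
    hC M A ℓ hℓ hA g c c' hc hc' L S S' hSf hS'f hS hS'
  have : Finite ↥S := hSf.to_subtype
  have : Finite ↥S' := hS'f.to_subtype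
  have hint : ∀ F ∈ h96c_prod A (h96w_R A c S) (h96w_R A c S'), ∀ p, F p ∈ A :=
    h74n_prod_int A _ _ (h74n_R_int hc hS) (h74n_R_int hc hS')
  have hsep : ∀ s s' : ↥S × ↥S',
      (∀ F ∈ h96c_prod A (h96w_R A c S) (h96w_R A c S'), F s = F s') → s = s' := by
    intro s s' h
    have h1 : (s.1 : JZero M) = s'.1 :=
      h74n_X_inj hc (hS s.1.2) (hS s'.1.2) fun j =>
        h _ (h74n_prod_left A (h96w_R A c S) (h96w_R A c S')
          (f := fun x : ↥S => h96w_X A c j (x : JZero M)) (Algebra.subset_adjoin ⟨j, rfl⟩))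
    have h2 : (s.2 : JZero M) = s'.2 :=
      h74n_X_inj hc (hS' s.2.2) (hS' s'.2.2) fun j =>
        h _ (h74n_prod_right A (h96w_R A c S) (h96w_R A c S')
          (f := fun x : ↥S' => h96w_X A c j (x : JZero M)) (Algebra.subset_adjoin ⟨j, rfl⟩))
    exact Prod.ext (Subtype.ext h1) (Subtype.ext h2)
  -- the places `E` of `-(x + y)`
  have hE : ∀ p : ↥S × ↥S', ∃ E : Fin g → Place Kbar (FF M),
      (∀ i, SameRed A (E i) (c'.Q i)) ∧
      (∀ i, ValueAt (E i) (L.bs + ∑ j, cst M (co j p) * L.b j) 0) ∧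
      h96m_IsCls (-((p.1 : JZero M) + (p.2 : JZero M))) E c'.Q := by
    intro p
    obtain ⟨P, hP, hcls⟩ := hc.rep _ (hS p.1.2)
    obtain ⟨P', hP', hcls'⟩ := hc.rep _ (hS' p.2.2)
    obtain ⟨E, hE1, hE2, hE3⟩ :=
      L.step P P' hP hP' (fun j => co j p) (hdiv p P P' hP hP' hcls hcls')
    exact ⟨E, hE1, hE2, hE3 _ _ hcls hcls'⟩
  have hYv : ∀ p : ↥S × ↥S', ∀ E : Fin g → Place Kbar (FF M),
      (∀ i, SameRed A (E i) (c'.Q i)) →
      h96m_IsCls (-((p.1 : JZero M) + (p.2 : JZero M))) E c'.Q →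
      ValueAt (E i) (c'.t i) (h96w_X A c' i (-((p.1 : JZero M) + (p.2 : JZero M)))) ∧
        h96w_X A c' i (-((p.1 : JZero M) + (p.2 : JZero M))) ∈ A.nonunits :=
    fun p E hE1 hE3 => h74n_X_of_cls hc' hE1 hE3 i
  by_cases ht : c'.t i = 0
  · -- degenerate chart: the coordinate vanishes identically
    have hzero : (fun p : ↥S × ↥S' =>
        h96w_X A c' i (-((p.1 : JZero M) + (p.2 : JZero M)))) = 0 := by
      funext p
      obtain ⟨E, hE1, -, hE3⟩ := hE p
      have h1 := (hYv p E hE1 hE3).1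
      rw [ht] at h1
      have h2 : ValueAt (E i) (0 : FF M) 0 := by
        have := h74n_va_cst (E i) (0 : Kbar)
        rwa [h74n_cst_zero] at this
      exact h74n_va_unique h1 h2
    rw [hzero]
    exact zero_mem _
  · refine hN Kbar A (hArch A ℓ hℓ hA) (↥S × ↥S') _ hint hsep _
      (fun p => by
        obtain ⟨E, hE1, -, hE3⟩ := hE p
        exact (hYv p E hE1 hE3).2) (fun n => ?_)
    -- Taylor expansions to the order `n + 2`
    obtain ⟨σ, rs, hσ, hrs, hbs⟩ := h74n_taylor hc' i L.bs (L.bs_mem i).2 (n + 2)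
    have hT : ∀ j, ∃ (β : ℕ → Kbar) (r : FF M), (∀ k, β k ∈ A) ∧ r ∈ c'.O i ∧
        L.b j = ∑ k ∈ Finset.range (n + 2), cst M (β k) * c'.t i ^ k + c'.t i ^ (n + 2) * r :=
      fun j => h74n_taylor hc' i (L.b j) (L.b_mem j i).2 (n + 2)
    choose β r hβ hr hbr using hT
    -- membership of the remainders
    have hRem : ∀ κ : Fin g ⊕ Fin g → Kbar, (∀ j, κ j ∈ A) →
        rs + ∑ j, cst M (κ j) * r j ∈ c'.O i := fun κ hκ =>
      add_mem hrs (Subring.sum_mem _ fun j _ => mul_mem (hc'.O_cst i _ (hκ j)) (hr j))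
    have hV : ∀ κ : Fin g ⊕ Fin g → Kbar, (∀ j, κ j ∈ A) → ∀ k,
        σ k + ∑ j, κ j * β j k ∈ A := fun κ hκ k =>
      A.add_mem _ _ (hσ k) (Subring.sum_mem A.toSubring fun j _ => A.mul_mem _ _ (hκ j) (hβ j k))
    -- the linear coefficient at the constant solution is the unit of `der_unit`
    obtain ⟨hd, hhd, d, hu0, hvd, hd0, hdi⟩ := L.der_unit co0 hdbl i
    have hcomb0 := h74n_comb (n + 2) (c'.t i) L.bs rs L.b r σ β co0 hbs hbr
    obtain ⟨ρ0, -, hρ0⟩ := hc'.O_val i _ (hRem co0 hco0) (c'.Q i) (hc'.refl i)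
    set V : ℕ → Kbar := fun k => σ k + ∑ j, co0 j * β j k with hVdef
    set Rem : FF M := ∑ k ∈ Finset.range n, cst M (V (k + 1 + 1)) * c'.t i ^ k +
      c'.t i ^ n * (rs + ∑ j, cst M (co0 j) * r j) with hRemdef
    have hsplit : L.bs + ∑ j, cst M (co0 j) * L.b j =
        cst M (V 0) + cst M (V 1) * c'.t i + c'.t i ^ 2 * Rem := by
      rw [hcomb0, hRemdef]
      exact h74n_split n (c'.t i) _ V
    have hvRem : ∃ ρ', ValueAt (c'.Q i) Rem ρ' :=
      ⟨_, h74n_va_taylor n (c'.t i) _ (fun k => V (k + 1 + 1)) 0 ρ0 (hc'.t_zero i) hρ0⟩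
    obtain ⟨ρ', hρ'⟩ := hvRem
    have hval1 : ValueAt (c'.Q i) (L.bs + ∑ j, cst M (co0 j) * L.b j)
        (V 0 + V 1 * 0 + 0 ^ 2 * ρ') := by
      rw [hsplit]
      exact h74n_va_add (h74n_va_add (h74n_va_cst _ _)
        (h74n_va_mul (h74n_va_cst _ _) (hc'.t_zero i)))
        (h74n_va_mul (h74n_va_pow (hc'.t_zero i) 2) hρ')
    have hval2 : ValueAt (c'.Q i) (L.bs + ∑ j, cst M (co0 j) * L.b j) (0 * d) := by
      rw [hu0]
      exact h74n_va_mul (hc'.t_zero i) hvd
    have hV0 : V 0 = 0 := by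
      have := h74n_va_unique hval1 hval2
      simpa using this
    have hhd_eq : hd = cst M (V 1) + c'.t i * Rem := by
      have h1 : c'.t i * hd = c'.t i * (cst M (V 1) + c'.t i * Rem) := by
        rw [← hu0, hsplit, hV0, h74n_cst_zero]
        ring
      exact mul_left_cancel₀ ht h1
    have hV1 : V 1 = d := by
      have h1 : ValueAt (c'.Q i) hd (V 1 + 0 * ρ') := by
        rw [hhd_eq]
        exact h74n_va_add (h74n_va_cst _ _) (h74n_va_mul (hc'.t_zero i) hρ')
      have := h74n_va_unique h1 hvd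
      simpa using this
    have hV1A : V 1 ∈ A := hV co0 hco0 1
    refine ⟨n + 1, fun k p => σ k + ∑ j, co j p * β j k, ?_, ?_, ?_⟩
    · intro k
      exact h74n_prod_lin A _ _ co hco (σ k) (hσ k) (fun j => β j k) (fun j => hβ j k)
    · intro p
      beta_reduce
      have hdec : σ 1 + ∑ j, co j p * β j 1 = V 1 + ∑ j, (co j p - co0 j) * β j 1 := by
        simp only [hVdef, sub_mul, Finset.sum_sub_distrib]
        ring
      rw [hdec]
      refine h74n_unit_add_nu A hV1A (hV1 ▸ hd0) (hV1 ▸ hdi) ?_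
      exact h74n_nu_sum A _ _ fun j _ => h74n_nu_mul_left A (hcosm j p) (hβ j 1)
    · intro p
      beta_reduce
      obtain ⟨E, hE1, hE2, hE3⟩ := hE p
      have hY := hYv p E hE1 hE3
      have hcoA : ∀ j, co j p ∈ A := fun j => hint (co j) (hco j) p
      obtain ⟨ρp, hρpA, hρp⟩ := hc'.O_val i _ (hRem (fun j => co j p) hcoA) (E i) (hE1 i)
      have hcomb := h74n_comb (n + 2) (c'.t i) L.bs rs L.b r σ β (fun j => co j p) hbs hbr
      have hv1 := h74n_va_taylor (n + 2) (c'.t i) _ (fun k => σ k + ∑ j, co j p * β j k)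
        _ ρp hY.1 hρp
      rw [← hcomb] at hv1
      have hzero := h74n_va_unique hv1 (hE2 i)
      refine ⟨-(ρp * h96w_X A c' i (-((p.1 : JZero M) + (p.2 : JZero M))) ^ 2), ?_, ?_⟩
      · exact A.neg_mem _ (A.mul_mem _ _ hρpA (pow_mem (h74n_nu_mem A hY.2) 2))
      · have h2 : ∑ k ∈ Finset.range (n + 2), (σ k + ∑ j, co j p * β j k) *
            h96w_X A c' i (-((p.1 : JZero M) + (p.2 : JZero M))) ^ k =
            -(h96w_X A c' i (-((p.1 : JZero M) + (p.2 : JZero M))) ^ (n + 2) * ρp) :=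
          eq_neg_of_add_eq_zero_left hzero
        rw [show n + 1 + 1 = n + 2 from rfl, h2]
        ring

/-- **LEAF A2 (Newton)**, conditional on the two ALG-CLOS interface Props. -/
theorem h74n_newtonStep_of (hN : H96cNewton) (hArch : H96cArchQbar) : H96wNewtonStep :=
  fun hC => h74n_add_of hN hArch hC

end Main

end Fermat.Agent.P5
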