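import Fermat.Agent.P5.H75AlgClosK
import Fermat.Agent.P5.H96ClosIface

/-!
# Wave 5, pillar (P), block ALG-CLOS (helper75): the frozen Props of `H96ClosIface`

* `h75c_approx : H96cApprox`, `h75c_inv : H96cInv` in the exact frozen shapes;
* `H96cNewton` is false as frozen (`d = 0` is allowed: the polynomial is then the constant
  `c 0`, so `c 0 = 0`, `c 1 = 1`, `ρ = 0` satisfy the hypothesis for every `Y`).
  `H75cNewton` is the corrected Prop (sum over `Finset.range (d + 2)`), and
  `h75c_newtonFix : H75cNewton`.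
-/

set_option autoImplicit false

open Polynomial

namespace Fermat.Agent.P5

theorem h75c_sep_of {K : Type*} {S : Type*} [Field K] {A : ValuationSubring K}
    (R : Subalgebra A (S → K))
    (hsep : ∀ s s' : S, (∀ f ∈ R, f s = f s') → s = s') :
    ∀ s s' : S, s ≠ s' → ∃ f ∈ R, f s ≠ f s' := by
  intro s s' hne
  by_contra hcon
  push Not at hcon
  exact hne (hsep s s' hcon)

theorem h75c_approx : H96cApprox := by
  intro K _ A S _ R hint hsep
  have hsep' : ∀ s s' : S, s ≠ s' → ∃ f ∈ R, (∀ t, f t ∈ A) ∧ f s ≠ f s' := by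
    intro s s' hne
    obtain ⟨f, hf, hfs⟩ := h75c_sep_of R hsep s s' hne
    exact ⟨f, hf, hint f hf, hfs⟩
  obtain ⟨c, hcA, hc0, hc⟩ := h75c_conductor_K A R hsep'
  refine ⟨c, hcA, hc0, fun f hf => ?_⟩
  obtain ⟨g, hg, hfg⟩ := hf
  exact h75c_mem_of_congr_K A R c hc f g hg hfg

theorem h75c_inv : H96cInv := by
  intro K _ A S _ R hint u hu hunit
  exact h75c_inv_closed_K A R hu (hint u hu) _ (fun s => (hunit s).2)
    (fun s => mul_inv_cancel₀ (hunit s).1)

/-- **C-NEWTON (approximate), corrected**: the sum runs over `Finset.range (d + 2)`, so that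
the linear term belongs to the polynomial. -/
def H75cNewton : Prop :=
  ∀ (K : Type) [Field K] (A : ValuationSubring K), H96Arch A →
  ∀ (S : Type) [Finite S] (R : Subalgebra A (S → K)),
    (∀ f ∈ R, ∀ s, f s ∈ A) → (∀ s s' : S, (∀ f ∈ R, f s = f s') → s = s') →
    ∀ Y : S → K, (∀ s, Y s ∈ A.nonunits) →
      (∀ n : ℕ, ∃ (d : ℕ) (c : ℕ → S → K), (∀ k, c k ∈ R) ∧
        (∀ s, c 1 s ≠ 0 ∧ (c 1 s)⁻¹ ∈ A) ∧
        ∀ s, ∃ ρ ∈ A, ∑ k ∈ Finset.range (d + 2), c k s * Y s ^ k = ρ * Y s ^ n) →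
      Y ∈ R

theorem h75c_newtonFix : H75cNewton := by
  classical
  intro K _ A hArch S _ R hint hsep Y hY hpoly
  rcases isEmpty_or_nonempty S with hS | hS
  · have h0 : Y = 0 := Subsingleton.elim _ _
    rw [h0]
    exact R.zero_mem
  -- the largest value
  obtain ⟨s₀, hs₀⟩ := Finite.exists_max (fun s => A.valuation (Y s))
  set π : K := Y s₀ with hπdef
  have hπ : A.valuation π < 1 := A.mem_nonunits_iff.mp (hY s₀)
  have hYπ : ∀ s, ∃ a ∈ A, Y s = π * a := by
    intro s
    obtain ⟨a, ha⟩ := (A.valuation_le_iff (Y s) π).mp (hs₀ s)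
    exact ⟨a, a.2, by rw [← ha, mul_comm]⟩
  choose d c hcR hc1 hroot using hpoly
  -- the polynomials
  set F : ℕ → Polynomial (S → K) := fun m =>
    ∑ k ∈ Finset.range (d m + 2), C (c m k) * X ^ k with hFdef
  have hFeval : ∀ m (z : S → K) s,
      ((F m).eval z) s = ∑ k ∈ Finset.range (d m + 2), c m k s * z s ^ k := by
    intro m z s
    simp only [hFdef, Polynomial.eval_finsetSum, Polynomial.eval_mul, Polynomial.eval_C,
      Polynomial.eval_pow, Polynomial.eval_X, Finset.sum_apply, Pi.mul_apply, Pi.pow_apply]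
  have hFder : ∀ m (z : S → K) s,
      ((F m).derivative.eval z) s =
        ∑ k ∈ Finset.range (d m + 2), c m k s * (k : K) * z s ^ (k - 1) := by
    intro m z s
    simp only [hFdef, Polynomial.derivative_sum, Polynomial.derivative_C_mul_X_pow,
      Polynomial.eval_finsetSum, Polynomial.eval_mul, Polynomial.eval_C,
      Polynomial.eval_pow, Polynomial.eval_X, Finset.sum_apply, Pi.mul_apply, Pi.pow_apply,
      Pi.natCast_apply]
  refine h75c_newton_K A R hint (h75c_sep_of R hsep) π hπ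
    (fun c₀ hc₀ hc₀0 => hArch π c₀ (A.mem_nonunits_iff.mpr hπ) hc₀ hc₀0)
    F ?_ Y 0 R.zero_mem ?_ ?_ ?_
  · intro m n
    simp only [hFdef, Polynomial.finsetSum_coeff, Polynomial.coeff_C_mul_X_pow]
    refine Subalgebra.sum_mem _ fun k _ => ?_
    split_ifs
    · exact hcR m k
    · exact R.zero_mem
  · intro s
    obtain ⟨a, haA, ha⟩ := hYπ s
    exact ⟨a, haA, by rw [Pi.zero_apply, sub_zero, ha]⟩
  · intro m s
    obtain ⟨ρ, hρA, hρ⟩ := hroot m s
    obtain ⟨a, haA, ha⟩ := hYπ s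
    refine ⟨ρ * a ^ m, A.mul_mem _ _ hρA (pow_mem haA m), ?_⟩
    rw [hFeval, hρ, ha]
    ring
  · intro m s
    -- the derivative is `c 1 + Y * z`
    have hsplit : ∑ k ∈ Finset.range (d m + 2), c m k s * (k : K) * Y s ^ (k - 1) =
        c m 1 s + Y s * ∑ k ∈ Finset.range (d m),
          c m (k + 2) s * ((k + 2 : ℕ) : K) * Y s ^ k := by
      rw [Finset.sum_range_succ', Finset.sum_range_succ', Finset.mul_sum]
      have h0 : c m 0 s * ((0 : ℕ) : K) * Y s ^ (0 - 1) = 0 := by
        rw [Nat.cast_zero, mul_zero, zero_mul]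
      have h1 : c m (0 + 1) s * ((0 + 1 : ℕ) : K) * Y s ^ (0 + 1 - 1) = c m 1 s := by
        rw [zero_add, Nat.cast_one, mul_one, Nat.sub_self, pow_zero, mul_one]
      rw [h0, h1, add_zero, add_comm]
      congr 1
      refine Finset.sum_congr rfl fun k _ => ?_
      have h2 : k + 1 + 1 - 1 = k + 1 := rfl
      rw [h2, pow_succ]
      ring
    have hYA : ∀ s, Y s ∈ A := fun s => A.mem_of_valuation_le_one _
      (A.mem_nonunits_iff.mp (hY s)).le
    have hzA : (∑ k ∈ Finset.range (d m), c m (k + 2) s * ((k + 2 : ℕ) : K) * Y s ^ k) ∈ A :=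
      sum_mem fun k _ => A.mul_mem _ _ (A.mul_mem _ _ (hint _ (hcR m (k + 2)) s)
        (natCast_mem A _)) (pow_mem (hYA s) k)
    have hv1 : A.valuation (c m 1 s) = 1 := by
      have h1 : A.valuation (c m 1 s) ≤ 1 := (A.valuation_le_one_iff _).mpr (hint _ (hcR m 1) s)
      have h2 : A.valuation ((c m 1 s)⁻¹) ≤ 1 := (A.valuation_le_one_iff _).mpr (hc1 m s).2
      rw [map_inv₀] at h2
      have h3 : A.valuation (c m 1 s) ≠ 0 := (Valuation.ne_zero_iff _).mpr (hc1 m s).1
      have h4 : 1 ≤ A.valuation (c m 1 s) := by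
        have := (inv_le_one₀ (zero_lt_iff.mpr h3)).mp h2
        exact this
      exact le_antisymm h1 h4
    have hv2 : A.valuation (Y s * ∑ k ∈ Finset.range (d m),
        c m (k + 2) s * ((k + 2 : ℕ) : K) * Y s ^ k) < 1 := by
      rw [map_mul]
      exact lt_of_le_of_lt (mul_le_of_le_one_right' ((A.valuation_le_one_iff _).mpr hzA))
        (A.mem_nonunits_iff.mp (hY s))
    have hv : A.valuation (((F m).derivative.eval Y) s) = 1 := by
      rw [hFder, hsplit, Valuation.map_add_eq_of_lt_left _ (by rw [hv1]; exact hv2), hv1]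
    have hne : ((F m).derivative.eval Y) s ≠ 0 := by
      intro h0
      rw [h0, map_zero] at hv
      exact zero_ne_one hv
    refine ⟨(((F m).derivative.eval Y) s)⁻¹, ?_, mul_inv_cancel₀ hne⟩
    refine A.mem_of_valuation_le_one _ ?_
    rw [map_inv₀, hv, inv_one]

end Fermat.Agent.P5
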