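import Fermat.Agent.P5.H74Newton
import Fermat.Agent.P5.H75NewtonFix
import Fermat.Agent.P5.H72Arch

/-!
# P5 (wave 5, S19), block GEO-LAW, leaf A2 (helper74): the Newton step, UNCONDITIONAL

The frozen `H96cNewton` is false (`d = 0`); the corrected approximate Newton is
`H75cNewton` (`h75c_newtonFix`, helper75).  The frozen leaf `H96wNewtonStep = H96wCramer → H96wAdd`
does not mention it:

* `h74n_add_fix : H75cNewton → H96cArchQbar → H96wCramer → H96wAdd`;
* `h74n_newtonStep : H96wNewtonStep` (with `h75c_newtonFix`, `h72a_archQbar`);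
* `h74n_add_of_cramer : H96wCramer → H96wAdd`.
-/

set_option autoImplicit false
set_option linter.unusedSectionVars false

open AlgebraicCurve ModularCurve

noncomputable section

namespace Fermat.Agent.P5

open Fermat.Agent.S37

/-- **the Newton step, from the corrected approximate Newton `H75cNewton`.** -/
theorem h74n_add_fix (hN : H75cNewton) (hArch : H96cArchQbar) (hC : H96wCramer) : H96wAdd := by
  intro M _ A ℓ hℓ hA g c c' hc hc' hL S S' hSf hS'f hS hS' i
  obtain ⟨L⟩ := hL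
  obtain ⟨co, co0, hco, hco0, hcosm, hdbl, hdiv⟩ :=
    hC M A ℓ hℓ hA g c c' hc hc' L S S' hSf hS'f hS hS'
  have : Finite ↥S := hSf.to_subtype
  have : Finite ↥S' := hS'f.to_subtype
  have hint : ∀ F ∈ h96c_prod A (h96w_R A c S) (h96w_R A c S'), ∀ p, F p ∈ A :=
    h74n_prod_int A _ _ (h74n_R_int hc hS) (h74n_R_int hc hS')
  have hsep : ∀ s s' : ↥S × ↥S',
      (∀ F ∈ h96c_prod A (h96w_R A c S) (h96w_R A c S'), F s = F s') → s = s' := by
    intro s s' h
    have h1 : (s.1 : JZero M) = s'.1 :=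
      h74n_X_inj hc (hS s.1.2) (hS s'.1.2) fun j =>
        h _ (h74n_prod_left A (h96w_R A c S) (h96w_R A c S')
          (f := fun x : ↥S => h96w_X A c j (x : JZero M)) (Algebra.subset_adjoin ⟨j, rfl⟩))
    have h2 : (s.2 : JZero M) = s'.2 :=
      h74n_X_inj hc (hS' s.2.2) (hS' s'.2.2) fun j =>
        h _ (h74n_prod_right A (h96w_R A c S) (h96w_R A c S')
          (f := fun x : ↥S' => h96w_X A c j (x : JZero M)) (Algebra.subset_adjoin ⟨j, rfl⟩))
    exact Prod.ext (Subtype.ext h1) (Subtype.ext h2)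
  -- the places `E` of `-(x + y)`
  have hE : ∀ p : ↥S × ↥S', ∃ E : Fin g → Place Kbar (FF M),
      (∀ i, SameRed A (E i) (c'.Q i)) ∧
      (∀ i, ValueAt (E i) (L.bs + ∑ j, cst M (co j p) * L.b j) 0) ∧
      h96m_IsCls (-((p.1 : JZero M) + (p.2 : JZero M))) E c'.Q := by
    intro p
    obtain ⟨P, hP, hcls⟩ := hc.rep _ (hS p.1.2)
    obtain ⟨P', hP', hcls'⟩ := hc.rep _ (hS' p.2.2)
    obtain ⟨E, hE1, hE2, hE3⟩ :=
      L.step P P' hP hP' (fun j => co j p) (hdiv p P P' hP hP' hcls hcls')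
    exact ⟨E, hE1, hE2, hE3 _ _ hcls hcls'⟩
  have hYv : ∀ p : ↥S × ↥S', ∀ E : Fin g → Place Kbar (FF M),
      (∀ i, SameRed A (E i) (c'.Q i)) →
      h96m_IsCls (-((p.1 : JZero M) + (p.2 : JZero M))) E c'.Q →
      ValueAt (E i) (c'.t i) (h96w_X A c' i (-((p.1 : JZero M) + (p.2 : JZero M)))) ∧
        h96w_X A c' i (-((p.1 : JZero M) + (p.2 : JZero M))) ∈ A.nonunits :=
    fun p E hE1 hE3 => h74n_X_of_cls hc' hE1 hE3 i
  by_cases ht : c'.t i = 0
  · -- degenerate chart: the coordinate vanishes identically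
    have hzero : (fun p : ↥S × ↥S' =>
        h96w_X A c' i (-((p.1 : JZero M) + (p.2 : JZero M)))) = 0 := by
      funext p
      obtain ⟨E, hE1, -, hE3⟩ := hE p
      have h1 := (hYv p E hE1 hE3).1
      rw [ht] at h1
      have h2 : ValueAt (E i) (0 : FF M) 0 := by
        have := h74n_va_cst (E i) (0 : Kbar)
        rwa [h74n_cst_zero] at this
      exact h74n_va_unique h1 h2
    rw [hzero]
    exact zero_mem _
  · refine hN Kbar A (hArch A ℓ hℓ hA) (↥S × ↥S') _ hint hsep _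
      (fun p => by
        obtain ⟨E, hE1, -, hE3⟩ := hE p
        exact (hYv p E hE1 hE3).2) (fun n => ?_)
    -- Taylor expansions to the order `n + 2`
    obtain ⟨σ, rs, hσ, hrs, hbs⟩ := h74n_taylor hc' i L.bs (L.bs_mem i).2 (n + 2)
    have hT : ∀ j, ∃ (β : ℕ → Kbar) (r : FF M), (∀ k, β k ∈ A) ∧ r ∈ c'.O i ∧
        L.b j = ∑ k ∈ Finset.range (n + 2), cst M (β k) * c'.t i ^ k + c'.t i ^ (n + 2) * r :=
      fun j => h74n_taylor hc' i (L.b j) (L.b_mem j i).2 (n + 2)
    choose β r hβ hr hbr using hT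
    -- membership of the remainders
    have hRem : ∀ κ : Fin g ⊕ Fin g → Kbar, (∀ j, κ j ∈ A) →
        rs + ∑ j, cst M (κ j) * r j ∈ c'.O i := fun κ hκ =>
      add_mem hrs (Subring.sum_mem _ fun j _ => mul_mem (hc'.O_cst i _ (hκ j)) (hr j))
    have hV : ∀ κ : Fin g ⊕ Fin g → Kbar, (∀ j, κ j ∈ A) → ∀ k,
        σ k + ∑ j, κ j * β j k ∈ A := fun κ hκ k =>
      A.add_mem _ _ (hσ k) (Subring.sum_mem A.toSubring fun j _ => A.mul_mem _ _ (hκ j) (hβ j k))
    -- the linear coefficient at the constant solution is the unit of `der_unit`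
    obtain ⟨hd, hhd, d, hu0, hvd, hd0, hdi⟩ := L.der_unit co0 hdbl i
    have hcomb0 := h74n_comb (n + 2) (c'.t i) L.bs rs L.b r σ β co0 hbs hbr
    obtain ⟨ρ0, -, hρ0⟩ := hc'.O_val i _ (hRem co0 hco0) (c'.Q i) (hc'.refl i)
    set V : ℕ → Kbar := fun k => σ k + ∑ j, co0 j * β j k with hVdef
    set Rem : FF M := ∑ k ∈ Finset.range n, cst M (V (k + 1 + 1)) * c'.t i ^ k +
      c'.t i ^ n * (rs + ∑ j, cst M (co0 j) * r j) with hRemdef
    have hsplit : L.bs + ∑ j, cst M (co0 j) * L.b j =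
        cst M (V 0) + cst M (V 1) * c'.t i + c'.t i ^ 2 * Rem := by
      rw [hcomb0, hRemdef]
      exact h74n_split n (c'.t i) _ V
    have hvRem : ∃ ρ', ValueAt (c'.Q i) Rem ρ' :=
      ⟨_, h74n_va_taylor n (c'.t i) _ (fun k => V (k + 1 + 1)) 0 ρ0 (hc'.t_zero i) hρ0⟩
    obtain ⟨ρ', hρ'⟩ := hvRem
    have hval1 : ValueAt (c'.Q i) (L.bs + ∑ j, cst M (co0 j) * L.b j)
        (V 0 + V 1 * 0 + 0 ^ 2 * ρ') := by
      rw [hsplit]
      exact h74n_va_add (h74n_va_add (h74n_va_cst _ _)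
        (h74n_va_mul (h74n_va_cst _ _) (hc'.t_zero i)))
        (h74n_va_mul (h74n_va_pow (hc'.t_zero i) 2) hρ')
    have hval2 : ValueAt (c'.Q i) (L.bs + ∑ j, cst M (co0 j) * L.b j) (0 * d) := by
      rw [hu0]
      exact h74n_va_mul (hc'.t_zero i) hvd
    have hV0 : V 0 = 0 := by
      have := h74n_va_unique hval1 hval2
      simpa using this
    have hhd_eq : hd = cst M (V 1) + c'.t i * Rem := by
      have h1 : c'.t i * hd = c'.t i * (cst M (V 1) + c'.t i * Rem) := by
        rw [← hu0, hsplit, hV0, h74n_cst_zero]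
        ring
      exact mul_left_cancel₀ ht h1
    have hV1 : V 1 = d := by
      have h1 : ValueAt (c'.Q i) hd (V 1 + 0 * ρ') := by
        rw [hhd_eq]
        exact h74n_va_add (h74n_va_cst _ _) (h74n_va_mul (hc'.t_zero i) hρ')
      have := h74n_va_unique h1 hvd
      simpa using this
    have hV1A : V 1 ∈ A := hV co0 hco0 1
    refine ⟨n, fun k p => σ k + ∑ j, co j p * β j k, ?_, ?_, ?_⟩
    · intro k
      exact h74n_prod_lin A _ _ co hco (σ k) (hσ k) (fun j => β j k) (fun j => hβ j k)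
    · intro p
      beta_reduce
      have hdec : σ 1 + ∑ j, co j p * β j 1 = V 1 + ∑ j, (co j p - co0 j) * β j 1 := by
        simp only [hVdef, sub_mul, Finset.sum_sub_distrib]
        ring
      rw [hdec]
      refine h74n_unit_add_nu A hV1A (hV1 ▸ hd0) (hV1 ▸ hdi) ?_
      exact h74n_nu_sum A _ _ fun j _ => h74n_nu_mul_left A (hcosm j p) (hβ j 1)
    · intro p
      beta_reduce
      obtain ⟨E, hE1, hE2, hE3⟩ := hE p
      have hY := hYv p E hE1 hE3
      have hcoA : ∀ j, co j p ∈ A := fun j => hint (co j) (hco j) p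
      obtain ⟨ρp, hρpA, hρp⟩ := hc'.O_val i _ (hRem (fun j => co j p) hcoA) (E i) (hE1 i)
      have hcomb := h74n_comb (n + 2) (c'.t i) L.bs rs L.b r σ β (fun j => co j p) hbs hbr
      have hv1 := h74n_va_taylor (n + 2) (c'.t i) _ (fun k => σ k + ∑ j, co j p * β j k)
        _ ρp hY.1 hρp
      rw [← hcomb] at hv1
      have hzero := h74n_va_unique hv1 (hE2 i)
      refine ⟨-(ρp * h96w_X A c' i (-((p.1 : JZero M) + (p.2 : JZero M))) ^ 2), ?_, ?_⟩
      · exact A.neg_mem _ (A.mul_mem _ _ hρpA (pow_mem (h74n_nu_mem A hY.2) 2))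
      · have h2 : ∑ k ∈ Finset.range (n + 2), (σ k + ∑ j, co j p * β j k) *
            h96w_X A c' i (-((p.1 : JZero M) + (p.2 : JZero M))) ^ k =
            -(h96w_X A c' i (-((p.1 : JZero M) + (p.2 : JZero M))) ^ (n + 2) * ρp) :=
          eq_neg_of_add_eq_zero_left hzero
        rw [h2]
        ring

/-- **LEAF A2 (Newton)**, unconditional. -/
theorem h74n_newtonStep : H96wNewtonStep :=
  fun hC => h74n_add_fix h75c_newtonFix h72a_archQbar hC

/-- the pointwise group law from the Cramer step. -/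
theorem h74n_add_of_cramer (hC : H96wCramer) : H96wAdd :=
  h74n_newtonStep hC

end Fermat.Agent.P5
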