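import Mathlib

/-!
# Wave 5, pillar (P), block ALG-CLOS (helper75): function algebras on finite sets

Pure algebra (Mathlib only).  `A` a commutative ring (a local domain for the last statement),
`S` a finite set, `R` an `A`-subalgebra of the ring of functions `S → A`.

* `h75c_inv_closed` : `R` contains the inverses of its elements which are units of `S → A`
  (`u` is a root of `∏ s, (T - u s)`, whose constant term is a unit).
* `h75c_conductor` : if `R` separates the points of `S` (and `A` is a domain) then
  `c • (S → A) ⊆ R` for one `c ≠ 0` (Lagrange products).  Hence "closed": a function which is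
  congruent modulo `c` to an element of `R` is in `R`; no topology is needed.
* `h75c_newton_abs` : Newton iteration in an inverse closed subring with a conductor
  (abstract form: commutative ring `B`, subring `R`, `π` in the radical, `c ∣ π ^ m`).
* `h75c_newton` : if `y : S → A` is congruent modulo `π` to an element of `R` and is, for every
  `m`, a root modulo `π ^ m` of a polynomial over `R` with unit derivative at `y`, then `y ∈ R`
  (`π` in the maximal ideal, every non-zero element of `A` divides a power of `π`).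
-/

set_option autoImplicit false
set_option linter.style.haveILetI false

open Polynomial

namespace Fermat.Agent.P5

/-- a polynomial with coefficients in a subring takes values in the subring. -/
theorem h75c_eval_mem {B : Type*} [CommRing B] (R : Subring B) (F : Polynomial B)
    (hF : ∀ n, F.coeff n ∈ R) {z : B} (hz : z ∈ R) : F.eval z ∈ R := by
  rw [Polynomial.eval_eq_sum_range]
  exact R.sum_mem fun n _ => R.mul_mem (hF n) (R.pow_mem hz n)

theorem h75c_derivative_coeff_mem {B : Type*} [CommRing B] (R : Subring B) (F : Polynomial B)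
    (hF : ∀ n, F.coeff n ∈ R) (n : ℕ) : (derivative F).coeff n ∈ R := by
  rw [Polynomial.coeff_derivative]
  exact R.mul_mem (hF _) (R.add_mem (natCast_mem R n) R.one_mem)

/-- **Newton iteration inside an inverse-closed subring with a conductor** (abstract form).
`B` a commutative ring, `R ⊆ B` a subring which contains the inverses of its elements which are
units of `B` and contains `c B`; `π` in the Jacobson radical, `c ∣ π ^ m`; `F` a polynomial
over `R`, `y ∈ B` with `F y ≡ 0` modulo `π ^ m`, `F' y` a unit, and `y ≡ y₀` modulo `π` with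
`y₀ ∈ R`.  Then `y ∈ R`. -/
theorem h75c_newton_abs {B : Type*} [CommRing B] (R : Subring B)
    (hinv : ∀ u ∈ R, ∀ w : B, u * w = 1 → w ∈ R)
    (π c : B) (hrad : ∀ b : B, IsUnit (1 + π * b))
    (hcond : ∀ b : B, c * b ∈ R) (m : ℕ) (hcm : c ∣ π ^ m)
    (F : Polynomial B) (hF : ∀ n, F.coeff n ∈ R)
    (y y₀ : B) (hy₀ : y₀ ∈ R) (hyy₀ : π ∣ y - y₀)
    (hroot : π ^ m ∣ F.eval y) (hder : IsUnit (F.derivative.eval y)) : y ∈ R := by
  -- the final step
  have hfin : ∀ z ∈ R, π ^ m ∣ y - z → y ∈ R := by
    intro z hz hdiv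
    obtain ⟨b, hb⟩ := hcm.trans hdiv
    have h1 : y = z + c * b := by rw [← hb]; ring
    rw [h1]
    exact R.add_mem hz (hcond b)
  rcases Nat.eq_zero_or_pos m with hm0 | hmpos
  · refine hfin y₀ hy₀ ?_
    rw [hm0, pow_zero]
    exact one_dvd _
  -- the iteration
  have key : ∀ n : ℕ, 1 ≤ n → n ≤ m → ∃ z ∈ R, π ^ n ∣ y - z := by
    intro n hn1
    induction n, hn1 using Nat.le_induction with
    | base =>
      intro _
      exact ⟨y₀, hy₀, by rw [pow_one]; exact hyy₀⟩
    | succ n hn ih =>
      intro hnm
      obtain ⟨z, hz, e, he⟩ := ih (by omega)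
      -- `F' z` is a unit
      obtain ⟨k₁, hk₁⟩ := Polynomial.sub_dvd_eval_sub z y (derivative F)
      obtain ⟨d, hd⟩ := hder
      have hFz : (derivative F).eval z = (d : B) * (1 + π * (-(π ^ (n - 1) * e * k₁ * (d⁻¹ : Bˣ)))) := by
        have h1 : (derivative F).eval z = (derivative F).eval y + (z - y) * k₁ := by
          rw [← hk₁]; ring
        have h2 : z - y = -(π ^ n * e) := by rw [← he]; ring
        have h3 : π ^ n = π * π ^ (n - 1) := by
          rw [← pow_succ', Nat.sub_add_cancel hn]
        rw [h1, h2, ← hd, h3]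
        have h4 : (d : B) * ((d⁻¹ : Bˣ) : B) = 1 := d.mul_inv
        linear_combination (π * π ^ (n - 1) * e * k₁) * h4
      have hunit : IsUnit ((derivative F).eval z) := by
        rw [hFz]
        exact d.isUnit.mul (hrad _)
      obtain ⟨w', hw'⟩ := hunit
      set w : B := ((w'⁻¹ : Bˣ) : B) with hwdef
      have hzw : (derivative F).eval z * w = 1 := by
        rw [← hw', hwdef]
        exact w'.mul_inv
      have hwR : w ∈ R :=
        hinv _ (h75c_eval_mem R _ (h75c_derivative_coeff_mem R F hF) hz) w hzw
      refine ⟨z - F.eval z * w, R.sub_mem hz (R.mul_mem (h75c_eval_mem R F hF hz) hwR), ?_⟩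
      obtain ⟨k, hk⟩ := Polynomial.binomExpansion F z (y - z)
      obtain ⟨a, ha⟩ := hroot
      have hy : z + (y - z) = y := by ring
      rw [hy, ha] at hk
      have hnm' : π ^ m = π ^ (n + 1) * π ^ (m - (n + 1)) := by
        rw [← pow_add, Nat.add_sub_cancel' hnm]
      have h2n : π ^ n * π ^ n = π ^ (n + 1) * π ^ (n - 1) := by
        rw [← pow_add, ← pow_add]
        congr 1
        omega
      refine ⟨π ^ (m - (n + 1)) * a * w - k * π ^ (n - 1) * e ^ 2 * w, ?_⟩
      have h5 : y - (z - F.eval z * w) = π ^ m * a * w - k * (π ^ n * π ^ n) * e ^ 2 * w := by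
        have h6 : F.eval z = π ^ m * a - (derivative F).eval z * (y - z) - k * (y - z) ^ 2 := by
          rw [hk]; ring
        linear_combination (1 - (derivative F).eval z * w - k * w * (y - z + π ^ n * e)) * he
          + w * h6 - (π ^ n * e) * hzw
      rw [h5, hnm', h2n]
      ring
  obtain ⟨z, hz, hdiv⟩ := key m hmpos le_rfl
  exact hfin z hz hdiv

/-- **inverse closed**: an `A`-subalgebra of the functions on a finite set contains the inverses
of its elements which are units (`u` is a root of `∏ s, (T - u s)`, with unit constant term). -/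
theorem h75c_inv_closed {A : Type*} [CommRing A] {S : Type*} [Finite S]
    (R : Subalgebra A (S → A)) {u : S → A} (hu : u ∈ R) (w : S → A) (huw : u * w = 1) :
    w ∈ R := by
  classical
  haveI : Fintype S := Fintype.ofFinite S
  set p : A[X] := ∏ s : S, (X - C (u s)) with hp
  have hroot : aeval u p = 0 := by
    funext s₀
    have h1 : (aeval u p) s₀ = aeval (u s₀) p :=
      (Polynomial.aeval_algHom_apply (Pi.evalAlgHom A (fun _ : S => A) s₀) u p).symm
    rw [h1, hp, map_prod, Pi.zero_apply]
    refine Finset.prod_eq_zero (Finset.mem_univ s₀) ?_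
    rw [map_sub, aeval_X, aeval_C, Algebra.algebraMap_self, RingHom.id_apply, sub_self]
  have hcoeff : p.coeff 0 = ∏ s : S, (-(u s)) := by
    rw [Polynomial.coeff_zero_eq_eval_zero, hp, Polynomial.eval_prod]
    refine Finset.prod_congr rfl fun s _ => ?_
    rw [eval_sub, eval_X, eval_C, zero_sub]
  have hunit : p.coeff 0 * ∏ s : S, (-(w s)) = 1 := by
    rw [hcoeff, ← Finset.prod_mul_distrib]
    refine Finset.prod_eq_one fun s _ => ?_
    have h := congrFun huw s
    rw [Pi.mul_apply, Pi.one_apply] at h
    rw [neg_mul_neg, h]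
  have hqR : aeval u (divX p) ∈ R :=
    Algebra.adjoin_le (Set.singleton_subset_iff.mpr hu) (aeval_mem_adjoin_singleton A u)
  have h2 : aeval u (divX p) * u + algebraMap A (S → A) (p.coeff 0) = 0 := by
    rw [← hroot]
    conv_rhs => rw [← Polynomial.divX_mul_X_add p]
    rw [map_add, map_mul, aeval_X, aeval_C]
  have h3 : aeval u (divX p) + (p.coeff 0) • w = 0 := by
    have h4 : (aeval u (divX p) * u + algebraMap A (S → A) (p.coeff 0)) * w = 0 := by
      rw [h2, zero_mul]
    rw [add_mul, mul_assoc, huw, mul_one, ← Algebra.smul_def] at h4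
    exact h4
  have h5 : w = (∏ s : S, (-(w s))) • (-(aeval u (divX p))) := by
    rw [eq_neg_of_add_eq_zero_left h3, neg_neg, smul_smul, mul_comm, hunit, one_smul]
  rw [h5]
  exact R.smul_mem (R.neg_mem hqR) _

/-- **the conductor**: a point separating `A`-subalgebra of the functions on a finite set with
values in a domain `A` contains `c • g` for one `c ≠ 0` and all `g`. -/
theorem h75c_conductor {A : Type*} [CommRing A] [IsDomain A] {S : Type*} [Finite S]
    (R : Subalgebra A (S → A)) (hsep : ∀ s s' : S, s ≠ s' → ∃ f ∈ R, f s ≠ f s') :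
    ∃ c : A, c ≠ 0 ∧ ∀ g : S → A, c • g ∈ R := by
  classical
  haveI : Fintype S := Fintype.ofFinite S
  have hex : ∀ s s' : S, ∃ f ∈ R, s ≠ s' → f s ≠ f s' := by
    intro s s'
    by_cases h : s = s'
    · exact ⟨0, R.zero_mem, fun h' => absurd h h'⟩
    · obtain ⟨f, hf, hne⟩ := hsep s s' h
      exact ⟨f, hf, fun _ => hne⟩
  choose f hfR hf using hex
  set e : S → (S → A) := fun s =>
    ∏ s' ∈ Finset.univ.erase s, (f s s' - algebraMap A (S → A) (f s s' s')) with he
  have heR : ∀ s, e s ∈ R := fun s =>
    R.prod_mem fun s' _ => R.sub_mem (hfR s s') (R.algebraMap_mem _)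
  have heval : ∀ s s₀, e s s₀ = ∏ s' ∈ Finset.univ.erase s, (f s s' s₀ - f s s' s') := by
    intro s s₀
    rw [he]
    simp only [Finset.prod_apply, Pi.sub_apply, Pi.algebraMap_apply, Algebra.algebraMap_self,
      RingHom.id_apply]
  have he0 : ∀ s s₀, s₀ ≠ s → e s s₀ = 0 := by
    intro s s₀ hne
    rw [heval]
    exact Finset.prod_eq_zero (Finset.mem_erase.mpr ⟨hne, Finset.mem_univ _⟩) (sub_self _)
  set d : S → A := fun s => e s s with hd
  have hd0 : ∀ s, d s ≠ 0 := by
    intro s
    rw [hd]
    simp only
    rw [heval, Finset.prod_ne_zero_iff]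
    intro s' hs'
    exact sub_ne_zero.mpr (hf s s' (Finset.ne_of_mem_erase hs').symm)
  refine ⟨∏ s, d s, Finset.prod_ne_zero_iff.mpr fun s _ => hd0 s, fun g => ?_⟩
  have hsum : (∏ s, d s) • g = ∑ s, (g s * ∏ s' ∈ Finset.univ.erase s, d s') • e s := by
    funext s₀
    rw [Finset.sum_apply, Pi.smul_apply, smul_eq_mul,
      Finset.sum_eq_single s₀ (fun s _ hne => by
        rw [Pi.smul_apply, he0 s s₀ hne.symm, smul_zero])
      (fun h => absurd (Finset.mem_univ s₀) h)]
    rw [Pi.smul_apply, smul_eq_mul, ← Finset.mul_prod_erase Finset.univ d (Finset.mem_univ s₀)]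
    ring
  rw [hsum]
  exact R.sum_mem fun s _ => R.smul_mem (heR s) _

/-- **Newton in a function algebra**: `A` a local domain, `π` in its maximal ideal such that
every non-zero element divides a power of `π`, `R` a point separating `A`-subalgebra of the
functions on a finite set `S`.  If `y : S → A` is congruent modulo `π` to an element of `R` and,
for every `m`, is a root modulo `π ^ m` of a polynomial `F m` over `R` with `(F m)' y` a unit,
then `y ∈ R`. -/
theorem h75c_newton {A : Type*} [CommRing A] [IsDomain A] [IsLocalRing A] {S : Type*} [Finite S]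
    (R : Subalgebra A (S → A)) (hsep : ∀ s s' : S, s ≠ s' → ∃ f ∈ R, f s ≠ f s')
    (π : A) (hπ : π ∈ IsLocalRing.maximalIdeal A) (hrk : ∀ c : A, c ≠ 0 → ∃ m, c ∣ π ^ m)
    (F : ℕ → Polynomial (S → A)) (hF : ∀ m n, (F m).coeff n ∈ R)
    (y y₀ : S → A) (hy₀ : y₀ ∈ R) (hyy₀ : ∀ s, π ∣ y s - y₀ s)
    (hroot : ∀ m s, π ^ m ∣ ((F m).eval y) s)
    (hder : ∀ m s, IsUnit (((F m).derivative.eval y) s)) : y ∈ R := by
  classical
  obtain ⟨c, hc0, hc⟩ := h75c_conductor R hsep
  obtain ⟨m, hm⟩ := hrk c hc0
  have hdvd : ∀ (a : A) (g : S → A), (∀ s, a ∣ g s) → algebraMap A (S → A) a ∣ g := by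
    intro a g hg
    choose b hb using hg
    exact ⟨b, funext fun s => by rw [Pi.mul_apply, Pi.algebraMap_apply, Algebra.algebraMap_self,
      RingHom.id_apply, hb s]⟩
  refine h75c_newton_abs R.toSubring (fun u hu w huw => h75c_inv_closed R hu w huw)
    (algebraMap A (S → A) π) (algebraMap A (S → A) c) ?_ ?_ m ?_ (F m) (hF m) y y₀ hy₀ ?_ ?_ ?_
  · intro b
    rw [Pi.isUnit_iff]
    intro s
    have h1 : π * b s ∈ IsLocalRing.maximalIdeal A := Ideal.mul_mem_right _ _ hπ
    have h2 : IsUnit (1 + π * b s) := by
      by_contra h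
      have h3 : 1 + π * b s ∈ IsLocalRing.maximalIdeal A := (IsLocalRing.mem_maximalIdeal _).mpr h
      have h4 : (1 : A) ∈ IsLocalRing.maximalIdeal A := by
        have := Ideal.sub_mem _ h3 h1
        rwa [add_sub_cancel_right] at this
      exact (Ideal.ne_top_iff_one _).mp (IsLocalRing.maximalIdeal.isMaximal A).ne_top h4
    exact h2
  · intro b
    have h1 : algebraMap A (S → A) c * b = c • b := (Algebra.smul_def c b).symm
    rw [h1]
    exact hc b
  · rw [← map_pow]
    exact map_dvd (algebraMap A (S → A)) hm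
  · exact hdvd π _ hyy₀
  · rw [← map_pow]
    exact hdvd _ _ (hroot m)
  · rw [Pi.isUnit_iff]
    exact hder m

end Fermat.Agent.P5
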