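import Fermat.Agent.P5.H96LawTop
import Fermat.Agent.P5.H75LawCramer

/-!
# Wave 5, pillar (P): GEO-LAW is closed

`h75w_lawStatement : H96LawStatement` (frozen Prop of `P5/H96LawIface.lean`): from the
geometric inputs `H96GeoInputs M A`, a local order `H96LocOrder` on every torsion level.
Chain: leaf A1 `h75w_cramer` (helper75), leaf A2 `h74n_newtonStep` (helper74), leaf B
`h96o_orderStep` (helper96), wiring `h96o_law_of_cramer` (helper96).
-/

set_option autoImplicit false

namespace Fermat.Agent.P5

theorem h75w_lawStatement : H96LawStatement :=
  h96o_law_of_cramer h75w_cramer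

end Fermat.Agent.P5
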