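import Fermat.Agent.P5.H57LinkE0
import Fermat.Agent.P5.H81LinkDer
import Fermat.Agent.P5.H75JetRed
import Fermat.Agent.P5.H4LinkLeaf
import Fermat.Agent.P5.H50LinkE0

/-!
# P5 (wave 5, S19), row GEO-LINK: the core of the link (helper75, independent twin)

`M` a good level, `A` a valuation subring of `ℚ̄` over `ℓ`, `r` the reduction map of places,
`c`, `c'` two charts with a disc calculus at every centre, whose rings consist of Gauss-integral
functions, with `2g` pairwise distinct reductions of the centres and non-special reductions of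
`D₀ = ∑ Q i` and `D₁ = ∑ Q' i`.

* `h75k_exists_compl`, `h75k_eq_smul_of_finrank_one` : linear algebra (Mathlib only).
* `h75k_red_sum` : the reduction of an `A`-combination of Gauss-integral functions.
* `h75k_lift_indep` : functions with linearly independent reductions are linearly independent.
* `h75k_linkRaw` : **the raw link data** `H4sLinkRaw A c c'` (`P5/H4Seed.lean`, helper4):
  `E₀ = div w + 2 D₀ + D₁`, `bs = 1 / w`, `b j = bs * f j`, where `w` has exact pole orders
  (`h57e_exists_E0`, helper57) and `1, f j` lift a basis of `L~(r_* (2 D₀ + D₁))`.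
* `H75kGauss` : the bridge DISC-GAUSS as a `Prop` (the ring of a disc calculus consists of
  Gauss-integral functions); nothing is assumed.
* `h75k_linkRawLeaf_of : H13sSemi → H13sBase → H75kGauss → H4sLinkRawLeaf` and
  `h75k_link_of : H13sSemi → H13sBase → H75kGauss → H56gLink` (exact frozen leaves of
  `P5/H4LinkLeaf.lean`, `P5/H56GeoAsm.lean`).
-/

set_option autoImplicit false
set_option linter.unusedSectionVars false
set_option linter.unusedVariables false
set_option linter.style.longLine false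

open AlgebraicCurve ModularCurve

noncomputable section

namespace Fermat.Agent.P5

open Fermat.Agent.S37 Fermat.Agent.Red.GV

/-! ### Linear algebra -/

/-- a subspace of dimension `n + 1` containing `e ≠ 0` has `n` further elements `y j` such that
`(e, y j)` is linearly independent. -/
theorem h75k_exists_compl {k V : Type*} [Field k] [AddCommGroup V] [Module k V]
    (W : Submodule k V) [FiniteDimensional k W] (n : ℕ)
    (hW : Module.finrank k W = n + 1) (e : V) (he : e ∈ W) (he0 : e ≠ 0)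
    {ι : Type*} [Fintype ι] (hι : Fintype.card ι = n) :
    ∃ y : ι → V, (∀ j, y j ∈ W) ∧
      ∀ (a : k) (κ : ι → k), a • e + ∑ j, κ j • y j = 0 → a = 0 ∧ ∀ j, κ j = 0 := by
  classical
  set e' : W := ⟨e, he⟩ with he'
  have he'0 : e' ≠ 0 := fun h => he0 (congrArg Subtype.val h)
  set E : Submodule k W := Submodule.span k {e'} with hE
  have hE1 : Module.finrank k E = 1 := finrank_span_singleton he'0
  have hq : Module.finrank k (W ⧸ E) = n := by
    have h1 := Submodule.finrank_quotient_add_finrank E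
    omega
  let B : Module.Basis (Fin n) k (W ⧸ E) := Module.finBasisOfFinrankEq k (W ⧸ E) hq
  let φ : ι ≃ Fin n := Fintype.equivFinOfCardEq hι
  let B' : Module.Basis ι k (W ⧸ E) := B.reindex φ.symm
  have hsurj : Function.Surjective (E.mkQ) := Submodule.mkQ_surjective E
  choose y hy using fun j : ι => hsurj (B' j)
  refine ⟨fun j => (y j : V), fun j => (y j).2, ?_⟩
  intro a κ h
  have h1 : a • e' + ∑ j, κ j • y j = 0 := by
    apply Subtype.ext
    rw [Submodule.coe_add, Submodule.coe_smul, Submodule.coe_sum, Submodule.coe_zero]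
    simp only [Submodule.coe_smul]
    exact h
  have h2 := congrArg E.mkQ h1
  rw [map_add, map_smul, map_sum, map_zero] at h2
  have h3 : E.mkQ e' = 0 := by
    rw [Submodule.mkQ_apply, Submodule.Quotient.mk_eq_zero]
    exact Submodule.mem_span_singleton_self e'
  rw [h3, smul_zero, zero_add] at h2
  have h4 : ∑ j, κ j • B' j = 0 := by
    rw [← h2]
    refine Finset.sum_congr rfl fun j _ => ?_
    rw [map_smul, hy j]
  have h5 := Fintype.linearIndependent_iff.mp B'.linearIndependent κ h4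
  refine ⟨?_, h5⟩
  have h6 : a • e = 0 := by
    rw [← h]
    simp [h5]
  rcases smul_eq_zero.mp h6 with h7 | h7
  · exact h7
  · exact absurd h7 he0

/-- in a subspace of dimension one containing `e ≠ 0` every element is a multiple of `e`. -/
theorem h75k_eq_smul_of_finrank_one {k V : Type*} [Field k] [AddCommGroup V] [Module k V]
    (W : Submodule k V) (hW : Module.finrank k W = 1) (e : V) (he : e ∈ W) (he0 : e ≠ 0)
    (y : V) (hy : y ∈ W) : ∃ a : k, y = a • e := by
  have he'0 : (⟨e, he⟩ : W) ≠ 0 := fun h => he0 (congrArg Subtype.val h)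
  obtain ⟨a, ha⟩ := (finrank_eq_one_iff_of_nonzero' (⟨e, he⟩ : W) he'0).mp hW ⟨y, hy⟩
  exact ⟨a, (congrArg Subtype.val ha).symm⟩

/-! ### Reduction of combinations -/

section Red

variable {M : ℕ} [NeZero M] {A : ValuationSubring Kbar} {ℓ : ℕ}

/-- the reduction of an `A`-combination of Gauss-integral functions. -/
theorem h75k_red_sum {ι : Type*} [Fintype ι] (hA : A.LiesOverPrime ℓ) (a : ι → Kbar)
    (ha : ∀ i, a i ∈ A) (F : ι → FF M) (hF : ∀ i, F i ∈ gaussV A M)
    (hx : (∑ i, cst M (a i) * F i) ∈ gaussV A M) :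
    h13sRed A M ⟨_, hx⟩ = ∑ i, h13sPi A ⟨a i, ha i⟩ • h13sRed A M ⟨F i, hF i⟩ := by
  have hcV : ∀ i, cst M (a i) ∈ gaussV A M := fun i => h50l_cst_mem hA (ha i)
  have hfe : (⟨_, hx⟩ : gaussV A M) =
      ∑ i, (⟨cst M (a i), hcV i⟩ : gaussV A M) * ⟨F i, hF i⟩ := by
    apply Subtype.ext
    rw [AddSubmonoidClass.coe_finsetSum]
    rfl
  rw [← h50lRed_apply, hfe, map_sum]
  refine Finset.sum_congr rfl fun i _ => ?_
  rw [map_mul, h50lRed_apply, h50lRed_apply, h50l_red_cst hA _ (ha i), Algebra.smul_def]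

/-- the reduction of a product. -/
theorem h75k_red_mul (x y : FF M) (hx : x ∈ gaussV A M) (hy : y ∈ gaussV A M)
    (hxy : x * y ∈ gaussV A M) :
    h13sRed A M ⟨x * y, hxy⟩ = h13sRed A M ⟨x, hx⟩ * h13sRed A M ⟨y, hy⟩ := by
  have e : (⟨x * y, hxy⟩ : gaussV A M) = ⟨x, hx⟩ * ⟨y, hy⟩ := Subtype.ext rfl
  rw [← h50lRed_apply, e, map_mul]
  rfl

/-- the reduction of `1`. -/
theorem h75k_red_one (h1 : (1 : FF M) ∈ gaussV A M) : h13sRed A M ⟨1, h1⟩ = 1 := by
  have e : (⟨1, h1⟩ : gaussV A M) = 1 := Subtype.ext rfl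
  rw [← h50lRed_apply, e, map_one]

/-- **functions with linearly independent reductions are linearly independent.** -/
theorem h75k_lift_indep {ι : Type*} [Fintype ι] (hA : A.LiesOverPrime ℓ)
    (F : ι → FF M) (hF : ∀ i, F i ∈ gaussV A M)
    (hli : ∀ κ : ι → h13sK A, ∑ i, κ i • h13sRed A M ⟨F i, hF i⟩ = 0 → ∀ i, κ i = 0)
    (a : ι → Kbar) (h0 : ∑ i, cst M (a i) * F i = 0) : ∀ i, a i = 0 := by
  classical
  by_contra hne
  push Not at hne
  obtain ⟨i1, hi1⟩ := hne
  obtain ⟨i0, -, hmax⟩ := Finset.exists_max_image Finset.univ (fun i => A.valuation (a i))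
    ⟨i1, Finset.mem_univ i1⟩
  have hv1 : A.valuation (a i1) ≠ 0 := (Valuation.ne_zero_iff _).mpr hi1
  have hv0 : A.valuation (a i0) ≠ 0 := by
    intro h
    have h2 := hmax i1 (Finset.mem_univ i1)
    rw [h] at h2
    exact hv1 (le_antisymm h2 zero_le)
  have ha0 : a i0 ≠ 0 := (Valuation.ne_zero_iff _).mp hv0
  have hcA : ∀ i, a i / a i0 ∈ A := by
    intro i
    rw [← A.valuation_le_one_iff, map_div₀]
    exact div_le_one_of_le₀ (hmax i (Finset.mem_univ i)) zero_le
  have hsum : ∑ i, cst M (a i / a i0) * F i = 0 := by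
    have h1 : ∑ i, cst M (a i / a i0) * F i = cst M (a i0)⁻¹ * ∑ i, cst M (a i) * F i := by
      rw [Finset.mul_sum]
      refine Finset.sum_congr rfl fun i _ => ?_
      rw [div_eq_mul_inv, show cst M (a i * (a i0)⁻¹) = cst M (a i) * cst M (a i0)⁻¹ from
        map_mul _ _ _]
      ring
    rw [h1, h0, mul_zero]
  have hx : (∑ i, cst M (a i / a i0) * F i) ∈ gaussV A M := by
    rw [hsum]
    exact zero_mem _
  have hred := h75k_red_sum hA (fun i => a i / a i0) hcA F hF hx
  have hz : h13sRed A M ⟨_, hx⟩ = 0 := by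
    have e : (⟨_, hx⟩ : gaussV A M) = 0 := Subtype.ext hsum
    rw [← h50lRed_apply, e, map_zero]
  rw [hz] at hred
  have h3 := hli _ hred.symm i0
  have h4 : (⟨a i0 / a i0, hcA i0⟩ : A) = 1 := Subtype.ext (div_self ha0)
  rw [h4] at h3
  have h5 : h13sPi A 1 = 1 := map_one _
  rw [h5] at h3
  exact one_ne_zero h3

end Red

/-! ### Push-forward -/

section Push

variable {M : ℕ} [NeZero M] {A : ValuationSubring Kbar}
  (r : Place Kbar (FF M) → Place (h13sK A) (h13sFt A M))

/-- a divisor vanishing on the fibre of `w` has push-forward `0` at `w`. -/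
theorem h75k_push_eq_zero {E : Divisor Kbar (FF M)} {w : Place (h13sK A) (h13sFt A M)}
    (h : ∀ v, r v = w → E v = 0) : h13sPush r E w = 0 := by
  classical
  rw [h57e_push_apply]
  refine Finset.sum_eq_zero fun v _ => ?_
  split_ifs with hv
  · exact h v hv
  · rfl

end Push

/-! ### The core -/

section Core

variable {ℓ : ℕ} {M : ℕ} [NeZero M] {A : ValuationSubring Kbar} {g : ℕ}

/-- **RED-DIV for `bs`**: the order of the reduction of `bs = 1 / w` at the reductions of the
centres. -/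
theorem h75k_ord_red_bs
    (r : Place Kbar (FF M) → Place (h13sK A) (h13sFt A M)) (hr : H13sIsRed A M r)
    (Q Q' : Fin g → Place Kbar (FF M))
    (hQ : Function.Injective fun i => r (Q i)) (hQ' : Function.Injective fun i => r (Q' i))
    (hQQ' : ∀ i j, r (Q i) ≠ r (Q' j))
    (w : FF M) (hwV : w ∈ gaussV A M) (hwiV : w⁻¹ ∈ gaussV A M)
    (E₀ : Divisor Kbar (FF M)) (hE₀v : ∀ v, E₀ v = v.ord w + h57eD Q Q' v)
    (hE₀out : ∀ v, E₀ v ≠ 0 → ∀ i, r v ≠ r (Q i) ∧ r v ≠ r (Q' i)) :
    (∀ i, (r (Q i)).ord (h13sRed A M ⟨w⁻¹, hwiV⟩) = 2) ∧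
      ∀ i, (r (Q' i)).ord (h13sRed A M ⟨w⁻¹, hwiV⟩) = 1 := by
  classical
  set Dbs : Divisor Kbar (FF M) := h57eD Q Q' - E₀ with hDbs
  have hDbsv : ∀ v : Place Kbar (FF M), Dbs v = v.ord w⁻¹ := by
    intro v
    rw [hDbs, Finsupp.sub_apply, hE₀v, Place.ord_inv]
    ring
  have hrd := hr.2.2 w⁻¹ hwiV (by rw [inv_inv]; exact hwV) Dbs hDbsv
  have hadd : h13sPush r Dbs + h13sPush r E₀ = h13sPush r (h57eD Q Q') := by
    rw [← h57e_push_add, hDbs, sub_add_cancel]
  have hpush : h13sPush r (h57eD Q Q') = h57eD (fun i => r (Q i)) (fun i => r (Q' i)) :=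
    h57e_push_D r Q Q'
  have hz : ∀ i, h13sPush r E₀ (r (Q i)) = 0 := fun i =>
    h75k_push_eq_zero r fun v hv => by
      by_contra hne
      exact (hE₀out v hne i).1 hv
  have hz' : ∀ i, h13sPush r E₀ (r (Q' i)) = 0 := fun i =>
    h75k_push_eq_zero r fun v hv => by
      by_contra hne
      exact (hE₀out v hne i).2 hv
  constructor
  · intro i
    rw [← hrd]
    have h1 := congrArg (fun D : Divisor (h13sK A) (h13sFt A M) => D (r (Q i))) hadd
    simp only [Finsupp.add_apply] at h1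
    rw [hz i, hpush, h57eD_apply_left (P := fun i => r (Q i)) (P' := fun i => r (Q' i))
      hQ hQQ' i] at h1
    linarith
  · intro i
    rw [← hrd]
    have h1 := congrArg (fun D : Divisor (h13sK A) (h13sFt A M) => D (r (Q' i))) hadd
    simp only [Finsupp.add_apply] at h1
    rw [hz' i, hpush, h57eD_apply_right (P := fun i => r (Q i)) (P' := fun i => r (Q' i))
      hQ' hQQ' i] at h1
    linarith

/-- **the raw link data.** -/
theorem h75k_linkRaw (hℓ : ℓ.Prime) (hM : ¬ ℓ ∣ M) (haux : auxLevel ℓ ∣ M)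
    (hA : A.LiesOverPrime ℓ)
    (r : Place Kbar (FF M) → Place (h13sK A) (h13sFt A M)) (hr : H13sIsRed A M r)
    (hBg : H13rBase Kbar (FF M)) (hBs : H13rBase (h13sK A) (h13sFt A M))
    (hg : H13rIsGenus Kbar (FF M) g) (hgs : H13rIsGenus (h13sK A) (h13sFt A M) g)
    (hsemi : H57eSemiAt A M r)
    (c c' : H96Chart M g)
    (hd : ∀ i, H37DiscAt A (c.Q i) (c.t i) (c.O i))
    (hd' : ∀ i, H37DiscAt A (c'.Q i) (c'.t i) (c'.O i))
    (hOV : ∀ i, ∀ f ∈ c.O i, f ∈ gaussV A M)
    (hOV' : ∀ i, ∀ f ∈ c'.O i, f ∈ gaussV A M)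
    (hQ : Function.Injective fun i => r (c.Q i))
    (hQ' : Function.Injective fun i => r (c'.Q i))
    (hQQ' : ∀ i j, r (c.Q i) ≠ r (c'.Q j))
    (hns : h13rL (h13sK A) (h13sFt A M) (h57eSum fun i => r (c.Q i)) = 1)
    (hns' : h13rL (h13sK A) (h13sFt A M) (h57eSum fun i => r (c'.Q i)) = 1) :
    H4sLinkRaw A c c' := by
  classical
  -- `E₀` and `w`
  obtain ⟨w, E₀, hw0, hwV, hwiV, hE₀nn, hE₀v, hE₀out, hwQ, hwQ', -, hlDg, -, -⟩ :=
    h57e_exists_E0 A hℓ hM hA r hr hBg hBs hg hgs hsemi c.Q c'.Q hQ hQ' hQQ' hns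
  obtain ⟨hbsQ, hbsQ'⟩ := h75k_ord_red_bs r hr c.Q c'.Q hQ hQ' hQQ' w hwV hwiV E₀ hE₀v hE₀out
  -- the special fibre
  set Ds : Divisor (h13sK A) (h13sFt A M) :=
    h57eD (fun i => r (c.Q i)) (fun i => r (c'.Q i)) with hDs
  have hpush : h13sPush r (h57eD c.Q c'.Q) = Ds := h57e_push_D r c.Q c'.Q
  have hlDs : h13rL (h13sK A) (h13sFt A M) Ds = 2 * g + 1 := h57e_l_D hBs hgs hns
  have : Module.Finite (h13sK A) ↥(riemannRochSpace Ds) := h78q_finite hBs _
  have h1Ds : (1 : h13sFt A M) ∈ riemannRochSpace Ds := by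
    rw [mem_riemannRochSpace_iff]
    intro v
    right
    rw [Place.ord_one, hDs, h57eD_apply]
    have h1 := h57eSum_nonneg (fun i => r (c.Q i)) v
    have h2 := h57eSum_nonneg (fun i => r (c'.Q i)) v
    simp only [Finsupp.coe_zero, Pi.zero_apply] at h1 h2
    linarith
  -- a basis of `L~(r_* D)` through `1`
  obtain ⟨y, hyD, hyind⟩ := h75k_exists_compl (riemannRochSpace Ds) (2 * g) hlDs 1 h1Ds
    one_ne_zero (ι := Fin g ⊕ Fin g) (by simp [two_mul])
  -- the lifts
  obtain ⟨-, -, -, -, -, -, hb6⟩ := hsemi (h57eD c.Q c'.Q)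
  have hlift := hb6 (by rw [hpush, hlDg, hlDs])
  choose f hfV hfD hfy using fun j => hlift (y j) (by rw [hpush]; exact hyD j)
  -- the functions
  set bs : FF M := w⁻¹ with hbs
  have hbs0 : bs ≠ 0 := inv_ne_zero hw0
  have hbsV : bs ∈ gaussV A M := hwiV
  have hbsiV : bs⁻¹ ∈ gaussV A M := by rw [hbs, inv_inv]; exact hwV
  set b : Fin g ⊕ Fin g → FF M := fun j => bs * f j with hb
  have hbV : ∀ j, b j ∈ gaussV A M := fun j => mul_mem hbsV (hfV j)
  have hDnn : ∀ v, 0 ≤ h57eD c.Q c'.Q v := by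
    intro v
    rw [h57eD_apply]
    have h1 := h57eSum_nonneg c.Q v
    have h2 := h57eSum_nonneg c'.Q v
    simp only [Finsupp.coe_zero, Pi.zero_apply] at h1 h2
    linarith
  have hordbs : ∀ v : Place Kbar (FF M), v.ord bs = h57eD c.Q c'.Q v - E₀ v := by
    intro v
    rw [hbs, Place.ord_inv, hE₀v]
    ring
  have hbsL : bs ∈ riemannRochSpace E₀ := by
    rw [mem_riemannRochSpace_iff]
    intro v
    right
    rw [hordbs]
    have := hDnn v
    omega
  have hbL : ∀ j, b j ∈ riemannRochSpace E₀ := by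
    intro j
    rw [mem_riemannRochSpace_iff]
    intro v
    by_cases hfj : f j = 0
    · left
      show bs * f j = 0
      rw [hfj, mul_zero]
    · right
      show -E₀ v ≤ v.ord (bs * f j)
      rw [Place.ord_mul v hbs0 hfj, hordbs]
      have h1 := ((mem_riemannRochSpace_iff.mp (hfD j)) v).resolve_left hfj
      omega
  have hE : ∀ i v, SameRed A v (c.Q i) → E₀ v = 0 := fun i v hs => by
    by_contra hne
    exact (hE₀out v hne i).1 ((hr.2.1 _ _).mpr hs)
  have hE' : ∀ i v, SameRed A v (c'.Q i) → E₀ v = 0 := fun i v hs => by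
    by_contra hne
    exact (hE₀out v hne i).2 ((hr.2.1 _ _).mpr hs)
  have hmem : ∀ j i, b j ∈ c.O i ∧ b j ∈ c'.O i := fun j =>
    h81n_mem_link hℓ hM haux hA hd hd' hE hE' (hbV j) (hbL j)
  have hbsmem : ∀ i, bs ∈ c.O i ∧ bs ∈ c'.O i :=
    h81n_mem_link hℓ hM haux hA hd hd' hE hE' hbsV hbsL
  set β : h13sFt A M := h13sRed A M ⟨bs, hbsV⟩ with hβ
  have hβ0 : β ≠ 0 := by
    intro h
    rcases (h50l_red_eq_zero_iff hℓ hM hA ⟨bs, hbsV⟩).mp h with h1 | h1
    · exact hbs0 h1
    · exact h1 hbsiV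
  -- the link data
  have hLD : H4rLinkData A c c' b bs := by
    refine ⟨⟨E₀, hE₀nn, hE, hE', hbL, hbsL, ?_⟩, hbs0, ?_⟩
    · intro v
      rw [hordbs, h57eD_apply]
      rfl
    · intro e co h0
      have h1V : (1 : FF M) ∈ gaussV A M := one_mem _
      let F : Option (Fin g ⊕ Fin g) → FF M := fun o => Option.elim o 1 f
      have hF : ∀ o, F o ∈ gaussV A M := by
        intro o
        cases o with
        | none => exact h1V
        | some j => exact hfV j
      have hli : ∀ κ : Option (Fin g ⊕ Fin g) → h13sK A,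
          ∑ o, κ o • h13sRed A M ⟨F o, hF o⟩ = 0 → ∀ o, κ o = 0 := by
        intro κ hκ
        rw [Fintype.sum_option] at hκ
        have h2 : h13sRed A M ⟨F none, hF none⟩ = 1 := h75k_red_one h1V
        have h3 : ∀ j, h13sRed A M ⟨F (some j), hF (some j)⟩ = y j := fun j => hfy j
        rw [h2] at hκ
        simp only [h3] at hκ
        obtain ⟨h4, h5⟩ := hyind (κ none) (fun j => κ (some j)) hκ
        intro o
        cases o with
        | none => exact h4
        | some j => exact h5 j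
      have hsum : ∑ o, cst M (Option.elim o e co) * F o = 0 := by
        rw [Fintype.sum_option]
        have h2 : bs * (cst M e * 1 + ∑ j, cst M (co j) * f j) = 0 := by
          rw [← h0, mul_add, Finset.mul_sum]
          congr 1
          · ring
          · refine Finset.sum_congr rfl fun j _ => ?_
            show bs * (cst M (co j) * f j) = cst M (co j) * (bs * f j)
            ring
        exact (mul_eq_zero.mp h2).resolve_left hbs0
      exact h75k_lift_indep hA F hF hli (fun o => Option.elim o e co) hsum none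
  -- the jets
  obtain ⟨N0, hN0A, hval, hder⟩ := h81n_exists_jets (A := A) hd b (fun j i => (hmem j i).1)
  have hind : ∀ co : Fin g ⊕ Fin g → Kbar, (∀ j, co j ∈ A) →
      ∀ hf : (∑ j, cst M (co j) * b j) ∈ gaussV A M,
        (h13sRed A M ⟨_, hf⟩ = 0 ∨ ∀ i, 2 ≤ (r (c.Q i)).ord (h13sRed A M ⟨_, hf⟩)) →
        ∀ j, co j ∈ A.nonunits := by
    intro co hco hf hcase
    set κ : Fin g ⊕ Fin g → h13sK A := fun j => h13sPi A ⟨co j, hco j⟩ with hκ
    set Y : h13sFt A M := ∑ j, κ j • y j with hY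
    have hredeq : h13sRed A M ⟨_, hf⟩ = β * Y := by
      rw [h75k_red_sum hA co hco b hbV hf, hY, Finset.mul_sum]
      refine Finset.sum_congr rfl fun j _ => ?_
      rw [show h13sRed A M ⟨b j, hbV j⟩ = β * y j from by
        rw [← hfy j]
        exact h75k_red_mul bs (f j) hbsV (hfV j) (hbV j), mul_smul_comm]
    have hYD : Y ∈ riemannRochSpace Ds :=
      Submodule.sum_mem _ fun j _ => Submodule.smul_mem _ _ (hyD j)
    have hκ0 : Y = 0 → ∀ j, κ j = 0 := fun h =>
      (hyind 0 κ (by rw [zero_smul, zero_add]; exact h)).2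
    have hfin : (∀ j, κ j = 0) → ∀ j, co j ∈ A.nonunits := by
      intro h j
      have h2 : (⟨co j, hco j⟩ : A) ∈ IsLocalRing.maximalIdeal A :=
        (IsLocalRing.residue_eq_zero_iff _).mp (h j)
      exact A.mem_nonunits_iff_exists_mem_maximalIdeal.mpr ⟨hco j, h2⟩
    apply hfin
    by_cases hY0 : Y = 0
    · exact hκ0 hY0
    rcases hcase with h0 | h2
    · rw [hredeq] at h0
      rcases mul_eq_zero.mp h0 with h | h
      · exact absurd h hβ0
      · exact absurd h hY0
    · have hYD1 : Y ∈ riemannRochSpace (h57eSum fun i => r (c'.Q i)) := by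
        rw [mem_riemannRochSpace_iff]
        intro v
        right
        by_cases hv : ∃ i, r (c.Q i) = v
        · obtain ⟨i, rfl⟩ := hv
          have h3 := h2 i
          rw [hredeq, Place.ord_mul _ hβ0 hY0, hbsQ i] at h3
          rw [h57eSum_apply_out (fun j h => hQQ' i j h.symm)]
          omega
        · push Not at hv
          have h3 := ((mem_riemannRochSpace_iff.mp hYD) v).resolve_left hY0
          rw [hDs, h57eD_apply, h57eSum_apply_out hv] at h3
          omega
      have h1D1 : (1 : h13sFt A M) ∈ riemannRochSpace (h57eSum fun i => r (c'.Q i)) := by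
        rw [mem_riemannRochSpace_iff]
        intro v
        right
        rw [Place.ord_one]
        have h1 := h57eSum_nonneg (fun i => r (c'.Q i)) v
        simp only [Finsupp.coe_zero, Pi.zero_apply] at h1
        omega
      obtain ⟨a, ha⟩ := h75k_eq_smul_of_finrank_one _ hns' 1 h1D1 one_ne_zero Y hYD1
      exact (hyind (-a) κ (by rw [← hY, ha, neg_smul, neg_add_cancel])).2
  have hunit : N0.det ≠ 0 ∧ (N0.det)⁻¹ ∈ A :=
    h75j_N0_unit hℓ hM hA hr hBg c hd (fun i => hOV i _ (hd i).O_t) hOV b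
      (fun j i => (hmem j i).1) N0 hval hder hind
  -- the derivative of `bs`
  have hbsder : ∀ i, ∃ h ∈ c'.O i, ∃ d : Kbar, bs = c'.t i * h ∧
      ValueAt (c'.Q i) h d ∧ d ≠ 0 ∧ d⁻¹ ∈ A := by
    intro i
    have hordQ' : (c'.Q i).ord bs = 1 := by
      rw [hbs, Place.ord_inv, hwQ' i]
      norm_num
    exact h75j_bsder hℓ hM hA hr hBg (hd' i) (hOV' i _ (hd' i).O_t) (hOV' i) bs
      (hbsmem i).2 hbsV (h81n_valueAt_zero_of_ord_pos hbs0 (by rw [hordQ']; norm_num)) hβ0
      (by rw [hbsQ' i])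
  exact ⟨⟨b, bs, N0, hLD, hmem, hbsmem, hval, hder, hunit, hbsder⟩⟩

end Core

/-! ### The frozen leaves -/

/-- **DISC-GAUSS** (the bridge): the ring of a disc calculus consists of Gauss-integral
functions. -/
def H75kGauss : Prop :=
  ∀ (ℓ : ℕ), ℓ.Prime → ∀ (M : ℕ) [NeZero M], ¬ ℓ ∣ M → auxLevel ℓ ∣ M →
    ∀ A : ValuationSubring Kbar, A.LiesOverPrime ℓ →
    ∀ r : Place Kbar (FF M) → Place (h13sK A) (h13sFt A M), H13sIsRed A M r →
    ∀ (Q : Place Kbar (FF M)) (t : FF M) (O : Subring (FF M)), H37DiscAt A Q t O →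
      ∀ f ∈ O, f ∈ gaussV A M

/-- **GEO-LINK, raw leaf**: the raw link data under the hypotheses of `H56gLink`. -/
theorem h75k_linkRawLeaf_of (hsemi : H13sSemi) (hBs : H13sBase) (hG : H75kGauss) :
    H4sLinkRawLeaf := by
  intro ℓ hℓ M _ hℓM haux A hA r hr g hgG hgS c c' hd hd' hns hns' hne
  exact h75k_linkRaw hℓ hℓM haux hA r hr (h13g_gBase M) (hBs ℓ hℓ M hℓM haux A hA) hgG hgS
    (h57e_semiAt_of hsemi hℓ hℓM haux A hA r hr) c c' hd hd'
    (fun i => hG ℓ hℓ M hℓM haux A hA r hr _ _ _ (hd i))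
    (fun i => hG ℓ hℓ M hℓM haux A hA r hr _ _ _ (hd' i))
    hns.1 hns'.1 hne hns.2 hns'.2

/-- **GEO-LINK**: the frozen leaf `H56gLink`. -/
theorem h75k_link_of (hsemi : H13sSemi) (hBs : H13sBase) (hG : H75kGauss) : H56gLink :=
  h4s_linkLeaf (h75k_linkRawLeaf_of hsemi hBs hG)

end Fermat.Agent.P5
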