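import Mathlib

/-!
# Wave 5, pillar (P), block GEO-DISC (helper76): finite Taylor expansions at a closed point

Abstract commutative algebra (Mathlib only).  `B` a Noetherian domain (a chart of the arithmetic
surface over the inertia ring), `𝔫` a prime of `B` (a closed point of the special fibre), `ℓ, u ∈ 𝔫`
with `𝔫 = (ℓ, u)` locally at `𝔫` (a regular point with local parameter `u`), `A₀` a domain (the
inertia ring), `ι : A₀ → B` the constants, `e : B → A₀` the evaluation at an unramified integral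
point `Q` of the residue disc of `𝔫` with `u (Q) = 0`.

* `h76t_ker_loc` : the kernel of `e` is generated by `u` locally at `𝔫` (Krull intersection).
* `h76t_taylor` : finite Taylor expansion with remainder:
  `s · (b - ∑_{k < m} ι (β k) u ^ k) = r · u ^ m`, `s ∉ 𝔫`.
* `h76t_value` : the value of `b` at any point `φ` of the residue disc:
  `φ b = ∑_{k < m} φ (ι (β k)) x ^ k + ρ x ^ m`, `x = φ u`, `ρ` integral.
* `h76t_point_unique` : two points of the residue disc with the same parameter are equal.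
* `h76t_divdiff` : divided differences are integral.
-/

set_option autoImplicit false
set_option linter.unusedSectionVars false

noncomputable section

namespace Fermat.Agent.P5

section Key

variable {B : Type*} [CommRing B] [IsDomain B] [IsNoetherianRing B]
  {A₀ : Type*} [CommRing A₀] [IsDomain A₀]

/-- the inductive step: an element of the kernel of `e` lies in `(ℓ ^ n, u)` locally. -/
theorem h76t_ker_step (𝔫 : Ideal B) [𝔫.IsPrime] (ℓ u : B)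
    (hgen : ∀ z ∈ 𝔫, ∃ s, s ∉ 𝔫 ∧ s * z ∈ Ideal.span {ℓ, u})
    (e : B →+* A₀) (heℓ : e ℓ ≠ 0) (heu : e u = 0) (hker : ∀ b, e b = 0 → b ∈ 𝔫)
    (n : ℕ) (b : B) (hb : e b = 0) :
    ∃ s c d, s ∉ 𝔫 ∧ s * b = c * ℓ ^ n + d * u := by
  induction n with
  | zero => exact ⟨1, b, 0, fun h => (Ideal.IsPrime.ne_top ‹_›) ((Ideal.eq_top_iff_one _).mpr h),
      by ring⟩
  | succ n ih =>
    obtain ⟨s, c, d, hs, h⟩ := ih
    have hc : e c = 0 := by
      have h1 := congrArg e h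
      rw [map_mul, hb, mul_zero, map_add, map_mul, map_mul, heu, mul_zero, add_zero, map_pow]
        at h1
      rcases mul_eq_zero.mp h1.symm with h2 | h2
      · exact h2
      · exact absurd h2 (pow_ne_zero n heℓ)
    obtain ⟨s', hs', h'⟩ := hgen c (hker c hc)
    obtain ⟨c', d', hcd⟩ := Ideal.mem_span_pair.mp h'
    refine ⟨s' * s, c', d' * ℓ ^ n + s' * d, fun hmem => ?_, ?_⟩
    · rcases Ideal.IsPrime.mem_or_mem ‹_› hmem with h1 | h1
      · exact hs' h1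
      · exact hs h1
    · calc s' * s * b = s' * (s * b) := by ring
        _ = s' * (c * ℓ ^ n + d * u) := by rw [h]
        _ = (s' * c) * ℓ ^ n + s' * d * u := by ring
        _ = (c' * ℓ + d' * u) * ℓ ^ n + s' * d * u := by rw [hcd]
        _ = c' * ℓ ^ (n + 1) + (d' * ℓ ^ n + s' * d) * u := by ring

/-- **the kernel of the evaluation is generated by the parameter, locally.** -/
theorem h76t_ker_loc (𝔫 : Ideal B) [𝔫.IsPrime] (ℓ u : B) (hℓ : ℓ ∈ 𝔫)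
    (hgen : ∀ z ∈ 𝔫, ∃ s, s ∉ 𝔫 ∧ s * z ∈ Ideal.span {ℓ, u})
    (e : B →+* A₀) (heℓ : e ℓ ≠ 0) (heu : e u = 0) (hker : ∀ b, e b = 0 → b ∈ 𝔫)
    (b : B) (hb : e b = 0) : ∃ s r, s ∉ 𝔫 ∧ s * b = r * u := by
  classical
  let R := Localization.AtPrime 𝔫
  have hinj : Function.Injective (algebraMap B R) :=
    IsLocalization.injective R 𝔫.primeCompl_le_nonZeroDivisors
  set I : Ideal R := Ideal.span {algebraMap B R ℓ} with hIdef
  have hI : I ≠ ⊤ := by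
    intro h
    have h1 : algebraMap B R ℓ ∈ IsLocalRing.maximalIdeal R :=
      (IsLocalization.AtPrime.to_map_mem_maximal_iff R 𝔫 ℓ).mpr hℓ
    have hle : I ≤ IsLocalRing.maximalIdeal R := (Ideal.span_singleton_le_iff_mem _).mpr h1
    rw [h] at hle
    exact (IsLocalRing.maximalIdeal.isMaximal R).ne_top (top_le_iff.mp hle)
  set U : Ideal R := Ideal.span {algebraMap B R u} with hUdef
  have hK := Ideal.iInf_pow_smul_eq_bot_of_isLocalRing (R := R) (M := R ⧸ U) I hI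
  have hmem : (Ideal.Quotient.mk U (algebraMap B R b)) ∈
      (⨅ i : ℕ, I ^ i • ⊤ : Submodule R (R ⧸ U)) := by
    rw [Submodule.mem_iInf]
    intro n
    obtain ⟨s, c, d, hs, h⟩ := h76t_ker_step 𝔫 ℓ u hgen e heℓ heu hker n b hb
    have hsu : IsUnit (algebraMap B R s) := IsLocalization.map_units R (⟨s, hs⟩ : 𝔫.primeCompl)
    obtain ⟨si, hsi⟩ := hsu.exists_left_inv
    have e1 : algebraMap B R b = (algebraMap B R ℓ) ^ n * (si * algebraMap B R c) +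
        (si * algebraMap B R d) * algebraMap B R u := by
      have h2 := congrArg (algebraMap B R) h
      simp only [map_mul, map_add, map_pow] at h2
      calc algebraMap B R b = si * (algebraMap B R s * algebraMap B R b) := by
            rw [← mul_assoc, hsi, one_mul]
        _ = _ := by rw [h2]; ring
    have e2 : Ideal.Quotient.mk U (algebraMap B R b) =
        ((algebraMap B R ℓ) ^ n) • Ideal.Quotient.mk U (si * algebraMap B R c) := by
      rw [e1, map_add, map_mul]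
      have h3 : Ideal.Quotient.mk U ((si * algebraMap B R d) * algebraMap B R u) = 0 :=
        Ideal.Quotient.eq_zero_iff_mem.mpr
          (Ideal.mul_mem_left _ _ (Ideal.mem_span_singleton_self _))
      rw [h3, add_zero]
      rfl
    rw [e2]
    exact Submodule.smul_mem_smul (Ideal.pow_mem_pow (Ideal.mem_span_singleton_self _) n)
      Submodule.mem_top
  rw [hK] at hmem
  have hU : algebraMap B R b ∈ U := Ideal.Quotient.eq_zero_iff_mem.mp ((Submodule.mem_bot R).mp hmem)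
  obtain ⟨y, hy⟩ := Ideal.mem_span_singleton'.mp hU
  obtain ⟨r, s, hrs⟩ := IsLocalization.exists_mk'_eq 𝔫.primeCompl y
  refine ⟨s, r, s.2, hinj ?_⟩
  rw [map_mul, map_mul, ← hy, ← hrs]
  rw [← mul_assoc, mul_comm (algebraMap B R (s : B)), IsLocalization.mk'_spec]

end Key

/-! ## Finite Taylor expansions -/

section Taylor

variable {B : Type*} [CommRing B] [IsDomain B] [IsNoetherianRing B]
  {A₀ : Type*} [CommRing A₀] [IsDomain A₀]

/-- **finite Taylor expansion with remainder** at a regular closed point `𝔫 = (ℓ, u)` with an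
integral unramified point `e` in its residue disc, `e u = 0`. -/
theorem h76t_taylor (𝔫 : Ideal B) [𝔫.IsPrime] (ℓ u : B) (hℓ : ℓ ∈ 𝔫)
    (hgen : ∀ z ∈ 𝔫, ∃ s, s ∉ 𝔫 ∧ s * z ∈ Ideal.span {ℓ, u})
    (ι : A₀ →+* B) (e : B →+* A₀) (hι : ∀ a, e (ι a) = a) (heℓ : e ℓ ≠ 0) (heu : e u = 0)
    (hker : ∀ b, e b = 0 → b ∈ 𝔫) (hunit : ∀ s, s ∉ 𝔫 → IsUnit (e s))
    (m : ℕ) (b : B) :
    ∃ (s r : B) (β : ℕ → A₀), s ∉ 𝔫 ∧
      s * (b - ∑ k ∈ Finset.range m, ι (β k) * u ^ k) = r * u ^ m := by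
  induction m with
  | zero =>
    exact ⟨1, b, fun _ => 0, fun h => (Ideal.IsPrime.ne_top ‹_›) ((Ideal.eq_top_iff_one _).mpr h),
      by simp⟩
  | succ m ih =>
    obtain ⟨s, r, β, hs, h⟩ := ih
    obtain ⟨v, hv⟩ := (hunit s hs).exists_left_inv
    set βm : A₀ := v * e r with hβm
    have hz : e (r - s * ι βm) = 0 := by
      rw [map_sub, map_mul, hι, hβm, ← mul_assoc, mul_comm (e s) v, hv, one_mul, sub_self]
    obtain ⟨s', r', hs', h'⟩ := h76t_ker_loc 𝔫 ℓ u hℓ hgen e heℓ heu hker _ hz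
    refine ⟨s' * s, r', Function.update β m βm, fun hmem => ?_, ?_⟩
    · rcases Ideal.IsPrime.mem_or_mem ‹_› hmem with h1 | h1
      · exact hs' h1
      · exact hs h1
    · have hsum : ∑ k ∈ Finset.range (m + 1), ι (Function.update β m βm k) * u ^ k =
          ∑ k ∈ Finset.range m, ι (β k) * u ^ k + ι βm * u ^ m := by
        rw [Finset.sum_range_succ, Function.update_self]
        congr 1
        refine Finset.sum_congr rfl (fun k hk => ?_)
        rw [Function.update_of_ne (Finset.mem_range.mp hk).ne]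
      rw [hsum]
      calc s' * s * (b - (∑ k ∈ Finset.range m, ι (β k) * u ^ k + ι βm * u ^ m))
          = s' * (s * (b - ∑ k ∈ Finset.range m, ι (β k) * u ^ k) - s * ι βm * u ^ m) := by ring
        _ = s' * (r * u ^ m - s * ι βm * u ^ m) := by rw [h]
        _ = s' * (r - s * ι βm) * u ^ m := by ring
        _ = r' * u * u ^ m := by rw [h']
        _ = r' * u ^ (m + 1) := by ring

end Taylor

/-! ## Values at the points of the residue disc -/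

section Values

variable {B : Type*} [CommRing B] [IsDomain B] [IsNoetherianRing B]
  {A₀ : Type*} [CommRing A₀] [IsDomain A₀] {K : Type*} [Field K]

/-- `φ` is a point of the residue disc of `𝔫` with values in the valuation ring `V`. -/
def h76tIsPoint (𝔫 : Ideal B) (V : ValuationSubring K) (φ : B →+* K) : Prop :=
  (∀ b, φ b ∈ V) ∧ ∀ s, s ∉ 𝔫 → φ s ≠ 0 ∧ (φ s)⁻¹ ∈ V

/-- **the Taylor expansion of the values**: the coefficients `β` do not depend on the point. -/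
theorem h76t_value (𝔫 : Ideal B) [𝔫.IsPrime] (ℓ u : B) (hℓ : ℓ ∈ 𝔫)
    (hgen : ∀ z ∈ 𝔫, ∃ s, s ∉ 𝔫 ∧ s * z ∈ Ideal.span {ℓ, u})
    (ι : A₀ →+* B) (e : B →+* A₀) (hι : ∀ a, e (ι a) = a) (heℓ : e ℓ ≠ 0) (heu : e u = 0)
    (hker : ∀ b, e b = 0 → b ∈ 𝔫) (hunit : ∀ s, s ∉ 𝔫 → IsUnit (e s))
    (V : ValuationSubring K) (m : ℕ) (b : B) :
    ∃ β : ℕ → A₀, ∀ φ : B →+* K, h76tIsPoint 𝔫 V φ →
      ∃ ρ ∈ V, φ b = ∑ k ∈ Finset.range m, φ (ι (β k)) * φ u ^ k + ρ * φ u ^ m := by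
  obtain ⟨s, r, β, hs, h⟩ := h76t_taylor 𝔫 ℓ u hℓ hgen ι e hι heℓ heu hker hunit m b
  refine ⟨β, fun φ hφ => ⟨φ r * (φ s)⁻¹, V.mul_mem _ _ (hφ.1 r) (hφ.2 s hs).2, ?_⟩⟩
  have h1 := congrArg φ h
  simp only [map_mul, map_sub, map_sum, map_pow] at h1
  have hs0 := (hφ.2 s hs).1
  have h2 : φ b - ∑ k ∈ Finset.range m, φ (ι (β k)) * φ u ^ k = φ r * (φ s)⁻¹ * φ u ^ m := by
    field_simp
    linear_combination h1
  linear_combination h2

/-- **two points of the residue disc with the same parameter are equal.** -/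
theorem h76t_point_unique (𝔫 : Ideal B) [𝔫.IsPrime] (ℓ u : B) (hℓ : ℓ ∈ 𝔫)
    (hgen : ∀ z ∈ 𝔫, ∃ s, s ∉ 𝔫 ∧ s * z ∈ Ideal.span {ℓ, u})
    (ι : A₀ →+* B) (e : B →+* A₀) (hι : ∀ a, e (ι a) = a) (heℓ : e ℓ ≠ 0) (heu : e u = 0)
    (hker : ∀ b, e b = 0 → b ∈ 𝔫) (hunit : ∀ s, s ∉ 𝔫 → IsUnit (e s))
    (V : ValuationSubring K) (φ φ' : B →+* K) (hφ : h76tIsPoint 𝔫 V φ)
    (hφ' : h76tIsPoint 𝔫 V φ') (hc : ∀ a, φ (ι a) = φ' (ι a)) (hu : φ u = φ' u)
    (hx : ∀ d : K, (∀ m : ℕ, ∃ ρ ∈ V, d = ρ * φ u ^ m) → d = 0) (b : B) :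
    φ b = φ' b := by
  have h0 : φ b - φ' b = 0 := by
    refine hx _ (fun m => ?_)
    obtain ⟨β, hβ⟩ := h76t_value 𝔫 ℓ u hℓ hgen ι e hι heℓ heu hker hunit V m b
    obtain ⟨ρ, hρ, h1⟩ := hβ φ hφ
    obtain ⟨ρ', hρ', h2⟩ := hβ φ' hφ'
    refine ⟨ρ - ρ', sub_mem hρ hρ', ?_⟩
    rw [h1, h2, ← hu]
    have h3 : ∑ k ∈ Finset.range m, φ (ι (β k)) * φ u ^ k =
        ∑ k ∈ Finset.range m, φ' (ι (β k)) * φ u ^ k :=
      Finset.sum_congr rfl (fun k _ => by rw [hc])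
    rw [h3]
    ring
  exact sub_eq_zero.mp h0

/-- **the difference of the values at two points**, in finite Taylor form. -/
theorem h76t_diff (𝔫 : Ideal B) [𝔫.IsPrime] (ℓ u : B) (hℓ : ℓ ∈ 𝔫)
    (hgen : ∀ z ∈ 𝔫, ∃ s, s ∉ 𝔫 ∧ s * z ∈ Ideal.span {ℓ, u})
    (ι : A₀ →+* B) (e : B →+* A₀) (hι : ∀ a, e (ι a) = a) (heℓ : e ℓ ≠ 0) (heu : e u = 0)
    (hker : ∀ b, e b = 0 → b ∈ 𝔫) (hunit : ∀ s, s ∉ 𝔫 → IsUnit (e s))
    (V : ValuationSubring K) (m : ℕ) (b : B) :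
    ∃ β : ℕ → A₀, ∀ φ φ' : B →+* K, h76tIsPoint 𝔫 V φ → h76tIsPoint 𝔫 V φ' →
      (∀ a, φ (ι a) = φ' (ι a)) →
      ∃ ρ ∈ V, ∃ ρ' ∈ V, φ b - φ' b =
        (φ u - φ' u) * (∑ k ∈ Finset.range m, φ (ι (β k)) *
          ∑ i ∈ Finset.range k, φ u ^ i * φ' u ^ (k - 1 - i))
        + ρ * φ u ^ m - ρ' * φ' u ^ m := by
  obtain ⟨β, hβ⟩ := h76t_value 𝔫 ℓ u hℓ hgen ι e hι heℓ heu hker hunit V m b
  refine ⟨β, fun φ φ' hφ hφ' hc => ?_⟩
  obtain ⟨ρ, hρ, h1⟩ := hβ φ hφ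
  obtain ⟨ρ', hρ', h2⟩ := hβ φ' hφ'
  refine ⟨ρ, hρ, ρ', hρ', ?_⟩
  rw [h1, h2]
  have h3 : ∑ k ∈ Finset.range m, φ' (ι (β k)) * φ' u ^ k =
      ∑ k ∈ Finset.range m, φ (ι (β k)) * φ' u ^ k :=
    Finset.sum_congr rfl (fun k _ => by rw [hc])
  rw [h3]
  have h4 : (φ u - φ' u) * (∑ k ∈ Finset.range m, φ (ι (β k)) *
      ∑ i ∈ Finset.range k, φ u ^ i * φ' u ^ (k - 1 - i)) =
      ∑ k ∈ Finset.range m, φ (ι (β k)) * φ u ^ k -
        ∑ k ∈ Finset.range m, φ (ι (β k)) * φ' u ^ k := by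
    rw [Finset.mul_sum, ← Finset.sum_sub_distrib]
    refine Finset.sum_congr rfl (fun k _ => ?_)
    have h5 := (Commute.all (φ u) (φ' u)).geom_sum₂_mul k
    rw [← mul_sub, ← h5]
    ring
  rw [h4]
  ring

/-- **divided differences are integral.** -/
theorem h76t_divdiff (𝔫 : Ideal B) [𝔫.IsPrime] (ℓ u : B) (hℓ : ℓ ∈ 𝔫)
    (hgen : ∀ z ∈ 𝔫, ∃ s, s ∉ 𝔫 ∧ s * z ∈ Ideal.span {ℓ, u})
    (ι : A₀ →+* B) (e : B →+* A₀) (hι : ∀ a, e (ι a) = a) (heℓ : e ℓ ≠ 0) (heu : e u = 0)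
    (hker : ∀ b, e b = 0 → b ∈ 𝔫) (hunit : ∀ s, s ∉ 𝔫 → IsUnit (e s))
    (V : ValuationSubring K) (φ φ' : B →+* K) (hφ : h76tIsPoint 𝔫 V φ)
    (hφ' : h76tIsPoint 𝔫 V φ') (hc : ∀ a, φ (ι a) = φ' (ι a))
    (m : ℕ) (hm : φ u ^ m * (φ u - φ' u)⁻¹ ∈ V) (hm' : φ' u ^ m * (φ u - φ' u)⁻¹ ∈ V)
    (hne : φ u ≠ φ' u) (b : B) :
    (φ b - φ' b) * (φ u - φ' u)⁻¹ ∈ V := by
  obtain ⟨β, hβ⟩ := h76t_diff 𝔫 ℓ u hℓ hgen ι e hι heℓ heu hker hunit V m b
  obtain ⟨ρ, hρ, ρ', hρ', h⟩ := hβ φ φ' hφ hφ' hc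
  have hd : φ u - φ' u ≠ 0 := sub_ne_zero.mpr hne
  have e1 : (φ b - φ' b) * (φ u - φ' u)⁻¹ =
      (∑ k ∈ Finset.range m, φ (ι (β k)) *
          ∑ i ∈ Finset.range k, φ u ^ i * φ' u ^ (k - 1 - i))
        + ρ * (φ u ^ m * (φ u - φ' u)⁻¹) - ρ' * (φ' u ^ m * (φ u - φ' u)⁻¹) := by
    rw [h]
    field_simp
  rw [e1]
  refine sub_mem (add_mem ?_ (V.mul_mem _ _ hρ hm)) (V.mul_mem _ _ hρ' hm')
  refine sum_mem (fun k _ => V.mul_mem _ _ (hφ.1 _) (sum_mem (fun i _ => ?_)))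
  exact V.mul_mem _ _ (pow_mem (hφ.1 u) i) (pow_mem (hφ'.1 u) _)

/-- **interface with the closed function algebras.**  On a family `φ P`, `P ∈ S`, of points of
one residue disc with the same constants: every algebra `R` of functions on `S` which contains the
constants and the parameter `P ↦ φ P u` and is closed (`hclosed`, the `c`-adic form) contains
`P ↦ φ P b` for every chart function `b`, provided the parameters are uniformly topologically
nilpotent (`hnil`; automatic on finite `S` over a rank-one valuation ring). -/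
theorem h76t_eval_mem {S : Type*} (𝔫 : Ideal B) [𝔫.IsPrime] (ℓ u : B) (hℓ : ℓ ∈ 𝔫)
    (hgen : ∀ z ∈ 𝔫, ∃ s, s ∉ 𝔫 ∧ s * z ∈ Ideal.span {ℓ, u})
    (ι : A₀ →+* B) (e : B →+* A₀) (hι : ∀ a, e (ι a) = a) (heℓ : e ℓ ≠ 0) (heu : e u = 0)
    (hker : ∀ b, e b = 0 → b ∈ 𝔫) (hunit : ∀ s, s ∉ 𝔫 → IsUnit (e s))
    (V : ValuationSubring K) (φ : S → (B →+* K)) (hφ : ∀ P, h76tIsPoint 𝔫 V (φ P))
    (R : Subring (S → K))
    (hconst : ∀ a : A₀, (fun P => φ P (ι a)) ∈ R) (hX : (fun P => φ P u) ∈ R)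
    (hnil : ∀ c ∈ V, c ≠ 0 → ∃ m : ℕ, ∀ P, φ P u ^ m * c⁻¹ ∈ V)
    (hclosed : ∀ f : S → K,
      (∀ c ∈ V, c ≠ 0 → ∃ g ∈ R, ∀ P, (f P - g P) * c⁻¹ ∈ V) → f ∈ R)
    (b : B) : (fun P => φ P b) ∈ R := by
  refine hclosed _ (fun c hc hc0 => ?_)
  obtain ⟨m, hm⟩ := hnil c hc hc0
  obtain ⟨β, hβ⟩ := h76t_value 𝔫 ℓ u hℓ hgen ι e hι heℓ heu hker hunit V m b
  refine ⟨fun P => ∑ k ∈ Finset.range m, φ P (ι (β k)) * φ P u ^ k, ?_, fun P => ?_⟩
  · have h1 : (fun P => ∑ k ∈ Finset.range m, φ P (ι (β k)) * φ P u ^ k) =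
        ∑ k ∈ Finset.range m, (fun P => φ P (ι (β k))) * (fun P => φ P u) ^ k := by
      funext P
      simp only [Finset.sum_apply, Pi.mul_apply, Pi.pow_apply]
    rw [h1]
    exact sum_mem (fun k _ => mul_mem (hconst _) (pow_mem hX k))
  · obtain ⟨ρ, hρ, h⟩ := hβ (φ P) (hφ P)
    have h2 : (φ P b - ∑ k ∈ Finset.range m, φ P (ι (β k)) * φ P u ^ k) * c⁻¹ =
        ρ * (φ P u ^ m * c⁻¹) := by
      rw [h]; ring
    rw [h2]
    exact V.mul_mem _ _ hρ (hm P)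

end Values

end Fermat.Agent.P5
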