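import Mathlib

/-!
# Wave 5, pillar (P), block GEO-RR (helper78): pivot elimination over a valuation ring

`K` a field, `A` a valuation subring, `W` a `K`-vector space with a family of coordinate
functionals `φ m : W →ₗ[K] K` such that every nonzero vector has a coordinate of maximal
valuation (e.g. finitely supported coordinates).  Then every finitely generated subspace of `W`
has a basis `b` with pivots `m`: `φ (m i) (b j) = δ_ij` and all coordinates of the `b j` in `A`
(an orthonormal basis for the sup-norm).

* `h78v_pivot` : the statement above, for the span of a finite set.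
* `h78v_coord_mem`, `h78v_coord_pivot` : coordinates of an `A`-combination of the `b j`.
-/

set_option autoImplicit false

namespace Fermat.Agent.P5

open Finset

/-- **Pivot elimination.** -/
theorem h78v_pivot {K W I : Type*} [Field K] [AddCommGroup W] [Module K W]
    (A : ValuationSubring K) (φ : I → W →ₗ[K] K)
    (hmax : ∀ w : W, w ≠ 0 → ∃ m₀ : I, φ m₀ w ≠ 0 ∧
      ∀ m : I, A.valuation (φ m w) ≤ A.valuation (φ m₀ w))
    (S : Finset W) :
    ∃ (n : ℕ) (b : Fin n → W) (m : Fin n → I),
      (∀ i j, φ (m i) (b j) = if i = j then 1 else 0) ∧
      (∀ j m', φ m' (b j) ∈ A) ∧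
      Submodule.span K (Set.range b) = Submodule.span K (S : Set W) := by
  classical
  induction S using Finset.induction_on with
  | empty =>
    refine ⟨0, Fin.elim0, Fin.elim0, fun i => i.elim0, fun j => j.elim0, ?_⟩
    rw [Finset.coe_empty, Submodule.span_empty, Submodule.span_eq_bot]
    rintro x ⟨i, -⟩
    exact i.elim0
  | insert x S hx ih =>
    obtain ⟨n, b, m, hdual, hint, hspan⟩ := ih
    set g : W := x - ∑ j, φ (m j) x • b j with hg
    have hbS : ∀ j, b j ∈ Submodule.span K (S : Set W) := fun j => by
      rw [← hspan]; exact Submodule.subset_span ⟨j, rfl⟩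
    have hsum_mem : (∑ j, φ (m j) x • b j) ∈ Submodule.span K (S : Set W) :=
      Submodule.sum_mem _ fun j _ => Submodule.smul_mem _ _ (hbS j)
    have hle : Submodule.span K (S : Set W) ≤ Submodule.span K ((insert x S : Finset W) : Set W) :=
      Submodule.span_mono (by rw [Finset.coe_insert]; exact Set.subset_insert _ _)
    have hxmem : x ∈ Submodule.span K ((insert x S : Finset W) : Set W) :=
      Submodule.subset_span (by rw [Finset.coe_insert]; exact Set.mem_insert _ _)
    by_cases hg0 : g = 0
    · refine ⟨n, b, m, hdual, hint, ?_⟩
      rw [hspan]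
      refine le_antisymm hle ?_
      rw [Submodule.span_le, Finset.coe_insert]
      intro y hy
      rcases hy with rfl | hy
      · have : y = ∑ j, φ (m j) y • b j := by
          rw [hg, sub_eq_zero] at hg0
          exact hg0
        rw [this]
        exact hsum_mem
      · exact Submodule.subset_span hy
    · obtain ⟨m₀, hm₀, hmx⟩ := hmax g hg0
      set u : K := φ m₀ g with hu
      have hφg : ∀ i, φ (m i) g = 0 := by
        intro i
        rw [hg, map_sub, map_sum]
        have : ∑ j, φ (m i) (φ (m j) x • b j) = φ (m i) x := by
          have h1 : ∀ j, φ (m i) (φ (m j) x • b j) = if i = j then φ (m j) x else 0 := by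
            intro j
            rw [map_smul, hdual i j, smul_eq_mul]
            split_ifs <;> simp
          simp_rw [h1]
          rw [Finset.sum_ite_eq]
          simp
        rw [this, sub_self]
      set bn : W := u⁻¹ • g with hbn
      have hbn_m0 : φ m₀ bn = 1 := by
        rw [hbn, map_smul, smul_eq_mul, ← hu, inv_mul_cancel₀ hm₀]
      have hbn_mi : ∀ i, φ (m i) bn = 0 := by
        intro i
        rw [hbn, map_smul, hφg i, smul_zero]
      have hbn_int : ∀ m', φ m' bn ∈ A := by
        intro m'
        rw [hbn, map_smul, smul_eq_mul, ← A.valuation_le_one_iff, map_mul, map_inv₀]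
        have hv0 : A.valuation u ≠ 0 := (A.valuation.ne_zero_iff).mpr hm₀
        rw [inv_mul_le_iff₀ (zero_lt_iff.mpr hv0), mul_one]
        exact hmx m'
      refine ⟨n + 1, Fin.cons bn (fun j => b j - φ m₀ (b j) • bn), Fin.cons m₀ m, ?_, ?_, ?_⟩
      · intro i j
        refine Fin.cases ?_ (fun i' => ?_) i <;> refine Fin.cases ?_ (fun j' => ?_) j
        · simp only [Fin.cons_zero, if_true]
          exact hbn_m0
        · simp only [Fin.cons_zero, Fin.cons_succ, map_sub, map_smul, hbn_m0, smul_eq_mul, mul_one,
            sub_self]
          rw [if_neg (Fin.succ_ne_zero j').symm]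
        · simp only [Fin.cons_zero, Fin.cons_succ, hbn_mi]
          rw [if_neg (Fin.succ_ne_zero i')]
        · simp only [Fin.cons_succ, map_sub, map_smul, hbn_mi, smul_zero, sub_zero, hdual,
            Fin.succ_inj]
      · intro j m'
        refine Fin.cases ?_ (fun j' => ?_) j
        · simp only [Fin.cons_zero]
          exact hbn_int m'
        · simp only [Fin.cons_succ, map_sub, map_smul, smul_eq_mul]
          exact sub_mem (hint j' m') (mul_mem (hint j' m₀) (hbn_int m'))
      · have hgmem : g ∈ Submodule.span K ((insert x S : Finset W) : Set W) :=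
          Submodule.sub_mem _ hxmem (hle hsum_mem)
        have hbnmem : bn ∈ Submodule.span K ((insert x S : Finset W) : Set W) :=
          Submodule.smul_mem _ _ hgmem
        apply le_antisymm
        · rw [Submodule.span_le]
          rintro y ⟨j, rfl⟩
          refine Fin.cases ?_ (fun j' => ?_) j
          · simp only [Fin.cons_zero]
            exact hbnmem
          · simp only [Fin.cons_succ]
            exact Submodule.sub_mem _ (hle (hbS j')) (Submodule.smul_mem _ _ hbnmem)
        · set T : Submodule K W := Submodule.span K
            (Set.range (Fin.cons bn (fun j => b j - φ m₀ (b j) • bn) : Fin (n + 1) → W)) with hT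
          have hbnT : bn ∈ T := Submodule.subset_span ⟨0, by simp⟩
          have hbT : ∀ j, b j ∈ T := by
            intro j
            have h1 : b j - φ m₀ (b j) • bn ∈ T := Submodule.subset_span ⟨j.succ, by simp⟩
            have h2 : b j = (b j - φ m₀ (b j) • bn) + φ m₀ (b j) • bn := by abel
            rw [h2]
            exact Submodule.add_mem _ h1 (Submodule.smul_mem _ _ hbnT)
          have hST : Submodule.span K (S : Set W) ≤ T := by
            rw [← hspan, Submodule.span_le]
            rintro y ⟨j, rfl⟩
            exact hbT j
          rw [Submodule.span_le, Finset.coe_insert]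
          intro y hy
          rcases hy with rfl | hy
          · have h1 : y = u • bn + ∑ j, φ (m j) y • b j := by
              rw [hbn, smul_smul, mul_inv_cancel₀ hm₀, one_smul, hg]
              abel
            rw [h1]
            exact Submodule.add_mem _ (Submodule.smul_mem _ _ hbnT)
              (Submodule.sum_mem _ fun j _ => Submodule.smul_mem _ _ (hbT j))
          · exact hST (Submodule.subset_span hy)

/-- coordinates of a combination of a pivot family with coefficients in `A`. -/
theorem h78v_coord_mem {K W I : Type*} [Field K] [AddCommGroup W] [Module K W]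
    (A : ValuationSubring K) (φ : I → W →ₗ[K] K) {n : ℕ} (b : Fin n → W)
    (hint : ∀ j m', φ m' (b j) ∈ A) (c : Fin n → K) (hc : ∀ j, c j ∈ A) (m' : I) :
    φ m' (∑ j, c j • b j) ∈ A := by
  rw [map_sum]
  refine A.toSubring.sum_mem fun j _ => ?_
  rw [map_smul, smul_eq_mul]
  exact mul_mem (hc j) (hint j m')

/-- the pivot coordinates of a combination of a pivot family. -/
theorem h78v_coord_pivot {K W I : Type*} [Field K] [AddCommGroup W] [Module K W]
    (φ : I → W →ₗ[K] K) {n : ℕ} (b : Fin n → W) (m : Fin n → I)
    (hdual : ∀ i j, φ (m i) (b j) = if i = j then 1 else 0) (c : Fin n → K) (i : Fin n) :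
    φ (m i) (∑ j, c j • b j) = c i := by
  rw [map_sum]
  have h1 : ∀ j, φ (m i) (c j • b j) = if i = j then c j else 0 := by
    intro j
    rw [map_smul, hdual i j, smul_eq_mul]
    split_ifs <;> simp
  simp_rw [h1]
  rw [Finset.sum_ite_eq]
  simp

end Fermat.Agent.P5
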