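import Fermat.Agent.Red.GV.Bar
import Fermat.Agent.P5.H78Pivot

/-!
# Wave 5, pillar (P), block GEO-RR (helper78): Gauss-orthonormal bases in the modular
function field

`K` a field of characteristic `0`, `A` a valuation subring with residue map `π : A → k`,
`ℓ` a prime non-unit of `A`, `N` prime to `ℓ`, `F_K = FK K N ⊆ K((q))`.

* `h78s_common_den` : a finite family of elements of `F_K` has a common denominator `Dn(j)`,
  `Dn ∈ A[Y]`, `Dn mod 𝔪 ≠ 0`, with numerators in `⊕ K[j] U^i`.
* `h78s_core` : every finitely generated `K`-subspace of `F_K` is spanned by a family `B`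
  which is orthonormal for the Gauss valuation: a combination of the `B j` with coefficients
  in `A`, one of which is a unit, is Gauss-integral with nonzero reduction.
* `h78s_coeff_mem` : if `∑ c j • B j` is Gauss-integral then all `c j ∈ A`.
* `h78s_linearIndependent` : an orthonormal family is linearly independent.
-/

set_option autoImplicit false

open ModularCurve Polynomial

noncomputable section

namespace Fermat.Agent.P5

open Fermat.Agent.S28 Fermat.Agent.Red.GV Fermat.Agent.Red.GV.Asm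

section Coord

variable (K : Type) [Field K] (I : ℕ)

/-- the coordinate functionals on `(K[Y])^I`. -/
def h78sPhi (m : Fin I × ℕ) : (Fin I → Polynomial K) →ₗ[K] K :=
  (Polynomial.lcoeff K m.2).comp (LinearMap.proj m.1)

@[simp]
theorem h78sPhi_apply (m : Fin I × ℕ) (P : Fin I → Polynomial K) :
    h78sPhi K I m P = (P m.1).coeff m.2 := rfl

theorem h78sPhi_max (A : ValuationSubring K) (w : Fin I → Polynomial K) (hw : w ≠ 0) :
    ∃ m₀ : Fin I × ℕ, h78sPhi K I m₀ w ≠ 0 ∧
      ∀ m : Fin I × ℕ, A.valuation (h78sPhi K I m w) ≤ A.valuation (h78sPhi K I m₀ w) := by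
  obtain ⟨i₀, m₀, h0, hmax⟩ := h76_exists_max_coeff A w hw
  exact ⟨(i₀, m₀), h0, fun m => hmax m.1 m.2⟩

theorem h78s_smul_eq (c : K) (z : LaurentSeries K) : c • z = HahnSeries.C c * z :=
  (HahnSeries.C_mul_eq_smul).symm

theorem h78s_evalC_C (x : LaurentSeries K) (c : K) :
    evalC x (Polynomial.C c) = HahnSeries.C c := by
  simp [evalC]

/-- the combination map `P ↦ ∑ P_i(j) U^i`. -/
def h78sPsi (U : LaurentSeries K) : (Fin I → Polynomial K) →ₗ[K] LaurentSeries K where
  toFun P := ∑ i : Fin I, evalC (jK K) (P i) * U ^ (i : ℕ)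
  map_add' P Q := by
    simp only [Pi.add_apply, map_add, add_mul, Finset.sum_add_distrib]
  map_smul' c P := by
    simp only [Pi.smul_apply, RingHom.id_apply]
    rw [h78s_smul_eq, Finset.mul_sum]
    refine Finset.sum_congr rfl fun i _ => ?_
    rw [Polynomial.smul_eq_C_mul, map_mul, h78s_evalC_C, mul_assoc]

theorem h78sPsi_apply (U : LaurentSeries K) (P : Fin I → Polynomial K) :
    h78sPsi K I U P = ∑ i : Fin I, evalC (jK K) (P i) * U ^ (i : ℕ) := rfl

theorem h78sPsi_mul (U : LaurentSeries K) (Q : Polynomial K) (P : Fin I → Polynomial K) :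
    h78sPsi K I U (fun i => Q * P i) = evalC (jK K) Q * h78sPsi K I U P := by
  rw [h78sPsi_apply, h78sPsi_apply, Finset.mul_sum]
  refine Finset.sum_congr rfl fun i _ => ?_
  rw [map_mul, mul_assoc]

end Coord

section Core

variable {K : Type} [Field K] [Algebra ℚ K] (A : ValuationSubring K) {k : Type} [Field k]
  (π : A →+* k) (N ℓ : ℕ) [NeZero N] [Fact ℓ.Prime]

/-- **Common denominators.** -/
theorem h78s_common_den (D : IgusaInput N ℓ) {n : ℕ} (x : Fin n → LaurentSeries K)
    (hx : ∀ l, x l ∈ FK K N) :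
    ∃ (Dn : Polynomial A) (p : Fin n → (Fin D.I → Polynomial K)), Dn.map π ≠ 0 ∧
      ∀ l, evalA A (jK K) Dn * x l = h78sPsi K D.I (UK K D.U) (p l) := by
  classical
  choose D₀ P₀ hD₀ hrep using fun l => exists_rep_K N ℓ D (x l) (hx l)
  set D₁ : Polynomial K := ∏ l, D₀ l with hD₁
  have hD₁0 : D₁ ≠ 0 := Finset.prod_ne_zero_iff.mpr fun l _ => hD₀ l
  have hD₁' : (fun _ : Fin 1 => D₁) ≠ 0 := fun h => hD₁0 (congrFun h 0)
  obtain ⟨a, Dn, ha, ⟨i0, hDn⟩, hDa⟩ := exists_normalize_family_val A π (fun _ : Fin 1 => D₁) hD₁'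
  have hi0 : i0 = 0 := Subsingleton.elim _ _
  subst hi0
  refine ⟨Dn 0, fun l i => Polynomial.C a⁻¹ * ((∏ l' ∈ Finset.univ.erase l, D₀ l') * P₀ l i),
    hDn, fun l => ?_⟩
  have h1 : evalC (jK K) D₁ = HahnSeries.C a * evalA A (jK K) (Dn 0) := by
    rw [← evalC_C_mul_map]
    exact congrArg _ (hDa 0)
  have h2 : evalA A (jK K) (Dn 0) = HahnSeries.C a⁻¹ * evalC (jK K) D₁ := by
    rw [h1, ← mul_assoc, ← map_mul, inv_mul_cancel₀ ha, map_one, one_mul]
  have h3 : D₁ = (∏ l' ∈ Finset.univ.erase l, D₀ l') * D₀ l := by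
    rw [hD₁, mul_comm]
    exact (Finset.mul_prod_erase Finset.univ D₀ (Finset.mem_univ l)).symm
  rw [h2, h78sPsi_mul, h78sPsi_mul, h78s_evalC_C, mul_assoc]
  congr 1
  rw [h3, map_mul, mul_assoc, hrep l, h78sPsi_apply]

variable {A π N ℓ}

/-- Gauss-orthonormal spanning families, unfolded form. -/
theorem h78s_core_aux (hπ : IsResidueMap A π ℓ) (hN : ¬ ℓ ∣ N) {n : ℕ} (x : Fin n → FK K N) :
    ∃ (n' : ℕ) (B : Fin n' → FK K N),
      Submodule.span K (Set.range B) = Submodule.span K (Set.range x) ∧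
      ∀ c : Fin n' → A, (∃ j, π (c j) ≠ 0) →
        ∃ h : (∑ j, algebraMap K (FK K N) (c j : K) * B j) ∈ gaussSubring A π N,
          gaussRed A π N ⟨_, h⟩ ≠ 0 := by
  classical
  obtain ⟨D⟩ := exists_igusaInput N ℓ hN
  obtain ⟨UA, hUA, -, -, hnewton⟩ := exists_UA_newton A π N ℓ hπ D
  obtain ⟨Dn, p, hDn, hp⟩ := h78s_common_den A π N ℓ D (fun l => ((x l : FK K N) : LaurentSeries K))
    (fun l => (x l).2)
  obtain ⟨n', b, m, hdual, hint, hspan⟩ :=
    h78v_pivot A (h78sPhi K D.I) (h78sPhi_max K D.I A) (Finset.univ.image p)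
  have hd0 : evalA A (jK K) Dn ≠ 0 := evalA_ne_zero A π Dn hDn
  -- the comparison map
  set θ : FK K N →ₗ[K] LaurentSeries K :=
    { toFun := fun y => evalA A (jK K) Dn * (y : LaurentSeries K)
      map_add' := fun y z => by
        show evalA A (jK K) Dn * ((y : LaurentSeries K) + (z : LaurentSeries K)) = _
        rw [mul_add]
      map_smul' := fun c y => by
        have h1 : ((c • y : FK K N) : LaurentSeries K) =
            HahnSeries.C c * (y : LaurentSeries K) := by
          rw [Algebra.smul_def]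
          show ((algebraMap K (FK K N) c : FK K N) : LaurentSeries K) * _ = _
          rw [coe_algebraMap_FK]
        rw [h1, RingHom.id_apply, h78s_smul_eq, mul_left_comm] } with hθ
  have hθ_apply : ∀ y : FK K N, θ y = evalA A (jK K) Dn * (y : LaurentSeries K) := fun y => rfl
  have hθ_inj : Function.Injective θ := by
    intro y z hyz
    rw [hθ_apply, hθ_apply] at hyz
    exact Subtype.ext (mul_left_cancel₀ hd0 hyz)
  set Ψ := h78sPsi K D.I (UK K D.U) with hΨ
  have hcomp : Ψ ∘ p = θ ∘ x := by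
    funext l
    exact (hp l).symm
  have hmap : Submodule.map Ψ (Submodule.span K (Set.range b)) =
      Submodule.map θ (Submodule.span K (Set.range x)) := by
    rw [hspan, Finset.coe_image, Finset.coe_univ, Set.image_univ, Submodule.map_span,
      Submodule.map_span, ← Set.range_comp, ← Set.range_comp, hcomp]
  have hex : ∀ j, ∃ y : FK K N, θ y = Ψ (b j) := by
    intro j
    have h1 : Ψ (b j) ∈ Submodule.map Ψ (Submodule.span K (Set.range b)) :=
      Submodule.mem_map_of_mem (Submodule.subset_span ⟨j, rfl⟩)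
    rw [hmap] at h1
    obtain ⟨y, -, hy⟩ := h1
    exact ⟨y, hy⟩
  choose B hB using hex
  have hcompB : θ ∘ B = Ψ ∘ b := funext hB
  refine ⟨n', B, ?_, ?_⟩
  · apply Submodule.map_injective_of_injective hθ_inj
    rw [← hmap, Submodule.map_span, Submodule.map_span, ← Set.range_comp, ← Set.range_comp,
      hcompB]
  · rintro c ⟨j₀, hj₀⟩
    set w : Fin D.I → Polynomial K := ∑ j, (c j : K) • b j with hw
    have hwint : ∀ m', h78sPhi K D.I m' w ∈ A :=
      h78v_coord_mem A (h78sPhi K D.I) b hint (fun j => (c j : K)) (fun j => (c j).2)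
    have hwpiv : h78sPhi K D.I (m j₀) w = (c j₀ : K) :=
      h78v_coord_pivot (h78sPhi K D.I) b m hdual (fun j => (c j : K)) j₀
    have hlift : ∀ i, w i ∈ Polynomial.lifts A.subtype := by
      intro i
      rw [Polynomial.lifts_iff_coeff_lifts]
      intro m'
      exact ⟨⟨_, hwint (i, m')⟩, rfl⟩
    choose PA hPA using fun i => (Polynomial.mem_lifts _).mp (hlift i)
    have hPAne : ∃ i, (PA i).map π ≠ 0 := by
      refine ⟨(m j₀).1, fun h0 => hj₀ ?_⟩
      have h1 : (PA (m j₀).1).coeff (m j₀).2 = c j₀ := by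
        apply Subtype.ext
        have h2 := congrArg (fun q => q.coeff (m j₀).2) (hPA (m j₀).1)
        simp only [Polynomial.coeff_map] at h2
        rw [← hwpiv]
        exact h2
      have h3 := congrArg (fun q => q.coeff (m j₀).2) h0
      simp only [Polynomial.coeff_map, h1, Polynomial.coeff_zero] at h3
      exact h3
    have hred := hnewton PA hPAne
    set f : FK K N := ∑ j, algebraMap K (FK K N) (c j : K) * B j with hf
    have hf' : f = ∑ j, (c j : K) • B j := by
      rw [hf]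
      exact Finset.sum_congr rfl fun j _ => (Algebra.smul_def _ _).symm
    have hemb : embA A (combA A D.I UA PA) =
        evalA A (jK K) Dn * ((f : FK K N) : LaurentSeries K) := by
      rw [← hθ_apply, hf', map_sum, embA_combA, hUA]
      have h1 : ∀ j, θ ((c j : K) • B j) = (c j : K) • Ψ (b j) := by
        intro j
        rw [map_smul, hB j]
      simp_rw [h1]
      have h2 : ∑ j, (c j : K) • Ψ (b j) = Ψ w := by
        rw [hw, map_sum]
        simp_rw [map_smul]
      rw [h2, hΨ, h78sPsi_apply]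
      refine Finset.sum_congr rfl fun i _ => ?_
      rw [evalA_eq_evalC_map, hPA i]
    have hmem : f ∈ gaussSubring A π N :=
      (mem_gaussSubring_iff A π N f).2 ⟨Dn, hDn, combA A D.I UA PA, hemb⟩
    refine ⟨hmem, fun h0 => hred ?_⟩
    have hspec := gaussRed_spec A π N ⟨f, hmem⟩ Dn (combA A D.I UA PA) hDn hemb
    rw [h0, zero_mul] at hspec
    exact hspec.symm

variable (A π N)

/-- a family is orthonormal for the Gauss valuation. -/
def H78sOrtho {n' : ℕ} (B : Fin n' → FK K N) : Prop :=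
  ∀ c : Fin n' → A, (∃ j, π (c j) ≠ 0) →
    ∃ h : (∑ j, algebraMap K (FK K N) (c j : K) * B j) ∈ gaussSubring A π N,
      gaussRed A π N ⟨_, h⟩ ≠ 0

variable {A π N}

omit [NeZero N] in
theorem h78s_ortho_mem {n' : ℕ} {B : Fin n' → FK K N} (hB : H78sOrtho A π N B) (j : Fin n') :
    ∃ h : B j ∈ gaussSubring A π N, gaussRed A π N ⟨_, h⟩ ≠ 0 := by
  classical
  obtain ⟨h, hne⟩ := hB (fun i => if i = j then 1 else 0) ⟨j, by simp⟩
  have h1 : (∑ i, algebraMap K (FK K N) (((if i = j then (1 : A) else 0 : A)) : K) * B i) =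
      B j := by
    rw [Finset.sum_eq_single j]
    · simp
    · intro i _ hij
      simp [hij]
    · intro hj
      exact absurd (Finset.mem_univ j) hj
  have h2 : B j ∈ gaussSubring A π N := h1 ▸ h
  refine ⟨h2, fun h0 => hne ?_⟩
  have h3 : (⟨_, h⟩ : gaussSubring A π N) = ⟨B j, h2⟩ := Subtype.ext h1
  rw [h3]
  exact h0

omit [NeZero N] in
/-- the reduction of a combination with coefficients in `A`. -/
theorem h78s_red_sum {n' : ℕ} {B : Fin n' → FK K N}
    (hB : ∀ j, B j ∈ gaussSubring A π N) (c : Fin n' → A)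
    (h : (∑ j, algebraMap K (FK K N) (c j : K) * B j) ∈ gaussSubring A π N) :
    gaussRed A π N ⟨_, h⟩ = ∑ j, HahnSeries.C (π (c j)) * gaussRed A π N ⟨B j, hB j⟩ := by
  have h1 : (⟨_, h⟩ : gaussSubring A π N) =
      ∑ j, (⟨algebraMap K (FK K N) (c j : K), algebraMap_mem_gaussSubring A π N (c j)⟩ :
        gaussSubring A π N) * ⟨B j, hB j⟩ := by
    apply Subtype.ext
    rw [AddSubmonoidClass.coe_finsetSum]
    rfl
  rw [h1, map_sum]
  refine Finset.sum_congr rfl fun j _ => ?_
  rw [map_mul, gaussRed_algebraMap]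

omit [NeZero N] in
/-- **Integrality of the coordinates.** -/
theorem h78s_coeff_mem (hker : ∀ a : A, π a = 0 ↔ (a : K) ∈ A.nonunits) {n' : ℕ}
    {B : Fin n' → FK K N} (hB : H78sOrtho A π N B) (c : Fin n' → K)
    (hc : (∑ j, algebraMap K (FK K N) (c j) * B j) ∈ gaussSubring A π N) (j : Fin n') :
    c j ∈ A := by
  classical
  by_contra hj
  obtain ⟨j₀, -, hmax⟩ := Finset.exists_max_image Finset.univ (fun i => A.valuation (c i))
    ⟨j, Finset.mem_univ j⟩
  have hj₀ : c j₀ ∉ A := by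
    intro h
    apply hj
    rw [← A.valuation_le_one_iff] at h ⊢
    exact (hmax j (Finset.mem_univ j)).trans h
  have hc0 : c j₀ ≠ 0 := fun h0 => hj₀ (h0 ▸ A.zero_mem)
  have hv0 : A.valuation (c j₀) ≠ 0 := (A.valuation.ne_zero_iff).mpr hc0
  have hnu : (c j₀)⁻¹ ∈ A.nonunits := inv_mem_nonunits_of_notMem A (c j₀) hj₀
  have haA : (c j₀)⁻¹ ∈ A := mem_of_mem_nonunits A _ hnu
  have hmem : ∀ i, (c j₀)⁻¹ * c i ∈ A := by
    intro i
    rw [← A.valuation_le_one_iff, map_mul, map_inv₀, inv_mul_le_iff₀ (zero_lt_iff.mpr hv0),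
      mul_one]
    exact hmax i (Finset.mem_univ i)
  obtain ⟨h, hne⟩ := hB (fun i => ⟨(c j₀)⁻¹ * c i, hmem i⟩) ⟨j₀, by
    have : (⟨(c j₀)⁻¹ * c j₀, hmem j₀⟩ : A) = 1 := Subtype.ext (inv_mul_cancel₀ hc0)
    rw [this, map_one]
    exact one_ne_zero⟩
  apply hne
  have h1 : (⟨_, h⟩ : gaussSubring A π N) =
      (⟨algebraMap K (FK K N) (((⟨(c j₀)⁻¹, haA⟩ : A) : K)),
        algebraMap_mem_gaussSubring A π N ⟨(c j₀)⁻¹, haA⟩⟩ : gaussSubring A π N) * ⟨_, hc⟩ := by
    apply Subtype.ext
    show (∑ i, algebraMap K (FK K N) ((c j₀)⁻¹ * c i) * B i) =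
      algebraMap K (FK K N) (c j₀)⁻¹ * ∑ i, algebraMap K (FK K N) (c i) * B i
    rw [Finset.mul_sum]
    refine Finset.sum_congr rfl fun i _ => ?_
    rw [map_mul, mul_assoc]
  rw [h1, map_mul, gaussRed_algebraMap, (hker ⟨(c j₀)⁻¹, haA⟩).2 hnu, map_zero, zero_mul]

omit [NeZero N] in
/-- an orthonormal family is linearly independent. -/
theorem h78s_linearIndependent (hker : ∀ a : A, π a = 0 ↔ (a : K) ∈ A.nonunits)
    (hA : ∃ s : K, s ∉ A) {n' : ℕ} {B : Fin n' → FK K N} (hB : H78sOrtho A π N B) :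
    LinearIndependent K B := by
  rw [Fintype.linearIndependent_iff]
  intro g hg i
  by_contra hi
  obtain ⟨s, hs⟩ := hA
  have h1 : (∑ j, algebraMap K (FK K N) (s * (g i)⁻¹ * g j) * B j) = 0 := by
    have h2 : ∀ j, algebraMap K (FK K N) (s * (g i)⁻¹ * g j) * B j =
        (s * (g i)⁻¹) • (g j • B j) := by
      intro j
      rw [map_mul, mul_assoc, Algebra.smul_def, Algebra.smul_def]
    simp_rw [h2]
    rw [← Finset.smul_sum, hg, smul_zero]
  have h3 := h78s_coeff_mem hker hB (fun j => s * (g i)⁻¹ * g j)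
    (h1 ▸ (gaussSubring A π N).zero_mem) i
  apply hs
  have h4 : s * (g i)⁻¹ * g i = s := by
    rw [mul_assoc, inv_mul_cancel₀ hi, mul_one]
  rw [← h4]
  exact h3

/-- **Gauss-orthonormal spanning families.** -/
theorem h78s_core (hπ : IsResidueMap A π ℓ) (hN : ¬ ℓ ∣ N) {n : ℕ} (x : Fin n → FK K N) :
    ∃ (n' : ℕ) (B : Fin n' → FK K N),
      Submodule.span K (Set.range B) = Submodule.span K (Set.range x) ∧ H78sOrtho A π N B :=
  h78s_core_aux hπ hN x

end Core

end Fermat.Agent.P5
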