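import Fermat.Agent.P5.H13SFIface
import Fermat.Agent.P5.H78SemiCore
import Fermat.Agent.P5.H78RRLeaves
import Fermat.Agent.P5.H40RRInst

/-!
# Wave 5, pillar (P), block GEO-RR (helper78): the frozen leaf `H13sSemi`

`h78s_semi : H13sBase → H13sSemi` (exact frozen Props of `P5/H13SFIface.lean`): for every
divisor `E` of the generic fibre, `L(E)` has a basis of Gauss-integral functions which is
orthonormal for the Gauss valuation (pivot elimination, `P5/H78SemiCore.lean`); the reductions
lie in `L(r_* E)` by the reduction of principal divisors (field 3 of `H13sIsRed`), and they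
form a basis of `L(r_* E)` as soon as `ℓ(E) = ℓ~(r_* E)`.

The hypothesis `H13sBase` is used only for the finite-dimensionality of `L(r_* E)` in the last
clause.
-/

set_option autoImplicit false

open AlgebraicCurve ModularCurve

noncomputable section

namespace Fermat.Agent.P5

open Fermat.Agent.S37 Fermat.Agent.Red.GV Fermat.Agent.Red.GV.Asm

/-- the push-forward of an effective divisor is effective. -/
theorem h78s_mapDomain_nonneg {α β : Type*} (r : α → β) (G : α →₀ ℤ) (hG : ∀ v, 0 ≤ G v)
    (Q : β) : 0 ≤ Finsupp.mapDomain r G Q := by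
  classical
  rw [Finsupp.mapDomain, Finsupp.sum, Finsupp.finsetSum_apply]
  refine Finset.sum_nonneg fun v _ => ?_
  rw [Finsupp.single_apply]
  split_ifs
  · exact hG v
  · exact le_rfl

/-- the span of a spanning family of a submodule, inside the ambient space. -/
theorem h78s_span_family {K V ι : Type*} [Field K] [AddCommGroup V] [Module K V]
    (L : Submodule K V) (x : ι → L) (hx : Submodule.span K (Set.range x) = ⊤) :
    Submodule.span K (Set.range fun l => ((x l : L) : V)) = L := by
  have h1 : (fun l => ((x l : L) : V)) = L.subtype ∘ x := rfl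
  rw [h1, Set.range_comp, ← Submodule.map_span, hx, Submodule.map_subtype_top]

/-- the valuation ring over `ℓ` is not the whole field. -/
theorem h78s_exists_notMem {ℓ : ℕ} (hℓ : ℓ.Prime) (A : ValuationSubring Kbar)
    (hA : A.LiesOverPrime ℓ) : ∃ s : Kbar, s ∉ A := by
  refine ⟨(ℓ : Kbar)⁻¹, fun h => ?_⟩
  have h0 : (ℓ : Kbar) ≠ 0 := by exact_mod_cast hℓ.ne_zero
  have h1 : (ℓ : Kbar) ∈ A.nonunits := hA
  exact notMem_nonunits_of_inv_mem A (ℓ : Kbar) h h0 h1

/-- **Gauss-orthonormal bases of `L(E)`.** -/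
theorem h78s_basis {ℓ : ℕ} (hℓ : ℓ.Prime) (M : ℕ) [NeZero M] (hM : ¬ ℓ ∣ M)
    (A : ValuationSubring Kbar) (hA : A.LiesOverPrime ℓ) (E : Divisor Kbar (FF M)) :
    ∃ B : Fin (h13rL Kbar (FF M) E) → FF M,
      Submodule.span Kbar (Set.range B) = riemannRochSpace E ∧
      H78sOrtho A (IsLocalRing.residue A) M B := by
  have : Fact ℓ.Prime := ⟨hℓ⟩
  have hπ := isResidueMap_residue A ℓ hA
  have hfin : Module.Finite Kbar (riemannRochSpace E) := h78q_finite (h40r_base_FF M) E
  obtain ⟨n, x, hx⟩ := Module.Finite.exists_fin (R := Kbar) (M := riemannRochSpace E)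
  obtain ⟨n', B, hspan, hortho⟩ :=
    h78s_core (A := A) (π := IsLocalRing.residue A) (N := M) (ℓ := ℓ) hπ hM
      (fun l => ((x l : riemannRochSpace E) : FF M))
  have hspan' : Submodule.span Kbar (Set.range B) = riemannRochSpace E := by
    rw [hspan]
    exact h78s_span_family (riemannRochSpace E) x hx
  have hli : LinearIndependent Kbar B :=
    h78s_linearIndependent hπ.ker_eq (h78s_exists_notMem hℓ A hA) hortho
  have hn : n' = h13rL Kbar (FF M) E := by
    have h1 := finrank_span_eq_card hli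
    rw [Fintype.card_fin] at h1
    rw [← h1, h13rL, hspan']
  subst hn
  exact ⟨B, hspan', hortho⟩

/-- the reduction of a Gauss unit of `L(E)` lies in `L(r_* E)`. -/
theorem h78s_red_mem {ℓ : ℕ} (hℓ : ℓ.Prime) (M : ℕ) [NeZero M] (hM : ¬ ℓ ∣ M)
    (A : ValuationSubring Kbar) (hA : A.LiesOverPrime ℓ)
    (r : Place Kbar (FF M) → Place (h13sK A) (h13sFt A M)) (hr : H13sIsRed A M r)
    (E : Divisor Kbar (FF M)) (f : FF M) (hfE : f ∈ riemannRochSpace E)
    (hf : f ∈ gaussV A M) (hred : gaussR A M ⟨f, hf⟩ ≠ 0) :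
    h13sRed A M ⟨f, hf⟩ ∈ riemannRochSpace (h13sPush r E) := by
  have hf0 : f ≠ 0 := by
    rintro rfl
    apply hred
    have : (⟨0, hf⟩ : gaussV A M) = 0 := rfl
    rw [this, map_zero]
  have hinv : f⁻¹ ∈ gaussV A M := by
    by_contra h
    exact hred ((gaussR_eq_zero_iff A M hℓ hM hA ⟨f, hf⟩).2 (Or.inr h))
  obtain ⟨D, hD, -⟩ := (h40r_base_FF M).pd f hf0
  have hpush := hr.2.2 f hf hinv D hD
  rw [mem_riemannRochSpace_iff]
  intro Q
  right
  rw [← hpush Q]
  have h1 : ∀ v, 0 ≤ (D + E) v := by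
    intro v
    rw [Finsupp.add_apply, hD v]
    rcases (mem_riemannRochSpace_iff.1 hfE) v with h | h
    · exact absurd h hf0
    · linarith
  have h2 := h78s_mapDomain_nonneg r (D + E) h1 Q
  rw [Finsupp.mapDomain_add, Finsupp.add_apply] at h2
  show -(Finsupp.mapDomain r E) Q ≤ (Finsupp.mapDomain r D) Q
  linarith

/-- the residue map is onto. -/
theorem h78s_pi_surjective (A : ValuationSubring Kbar) (γ : h13sK A) :
    ∃ c : A, h13sPi A c = γ :=
  IsLocalRing.residue_surjective (R := A) γ

theorem h78s_incl_injective (A : ValuationSubring Kbar) (M : ℕ) :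
    Function.Injective (h13sIncl A M) := fun _ _ h => Subtype.ext h

theorem h78s_incl_smul (A : ValuationSubring Kbar) (M : ℕ) (γ : h13sK A) (z : h13sFt A M) :
    h13sIncl A M (γ • z) = HahnSeries.C γ * h13sIncl A M z := by
  rw [Algebra.smul_def, map_mul, AlgHom.commutes, algebraMap_laurentSeries_eq_single]
  rfl

theorem h78s_incl_red_sum (A : ValuationSubring Kbar) (M : ℕ) {n : ℕ} (B : Fin n → FF M)
    (hB : ∀ j, B j ∈ gaussV A M) (c : Fin n → A)
    (h : (∑ j, cst M (c j : Kbar) * B j) ∈ gaussV A M) :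
    h13sIncl A M (h13sRed A M ⟨_, h⟩) =
      ∑ j, (HahnSeries.C (h13sPi A (c j)) : LaurentSeries (h13sK A)) *
        h13sIncl A M (h13sRed A M ⟨B j, hB j⟩) :=
  h78s_red_sum (A := A) (π := IsLocalRing.residue A) (N := M) hB c h

/-- the reduction of a combination with coefficients in `A`, in the special fibre field. -/
theorem h78s_red_comb (A : ValuationSubring Kbar) (M : ℕ) {n : ℕ} (B : Fin n → FF M)
    (hB : ∀ j, B j ∈ gaussV A M) (c : Fin n → A)
    (h : (∑ j, cst M (c j : Kbar) * B j) ∈ gaussV A M) :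
    h13sRed A M ⟨_, h⟩ =
      ∑ j, h13sPi A (c j) • h13sRed A M ⟨B j, hB j⟩ := by
  apply h78s_incl_injective A M
  rw [h78s_incl_red_sum A M B hB c h, map_sum]
  exact Finset.sum_congr rfl fun j _ => (h78s_incl_smul A M _ _).symm

/-- the reduction of an orthonormal combination is nonzero. -/
theorem h78s_red_ne_zero (A : ValuationSubring Kbar) (M : ℕ) {n : ℕ} (B : Fin n → FF M)
    (hortho : H78sOrtho A (IsLocalRing.residue A) M B) (c : Fin n → A)
    (hc : ∃ j, h13sPi A (c j) ≠ 0) :
    ∃ h : (∑ j, cst M (c j : Kbar) * B j) ∈ gaussV A M, h13sRed A M ⟨_, h⟩ ≠ 0 := by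
  obtain ⟨h, hne⟩ := hortho c hc
  refine ⟨h, fun h0 => hne ?_⟩
  have h1 := congrArg (h13sIncl A M) h0
  rw [h13sIncl_red, map_zero] at h1
  exact h1

/-- **The frozen leaf `H13sSemi`**, from the basic facts on the special fibre. -/
theorem h78s_semi (hSB : H13sBase) : H13sSemi := by
  classical
  intro ℓ hℓ M _ hM haux A hA r hr E
  have hπ := isResidueMap_residue A ℓ hA
  obtain ⟨B, hspan, hortho⟩ := h78s_basis hℓ M hM A hA E
  have hBmem : ∀ i, B i ∈ riemannRochSpace E := fun i => by
    rw [← hspan]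
    exact Submodule.subset_span ⟨i, rfl⟩
  have hBV : ∀ i, ∃ h : B i ∈ gaussV A M, gaussR A M ⟨_, h⟩ ≠ 0 :=
    fun i => h78s_ortho_mem hortho i
  have hBV' : ∀ i, B i ∈ gaussV A M := fun i => (hBV i).1
  have hredmem : ∀ (i : Fin (h13rL Kbar (FF M) E)) (hi : B i ∈ gaussV A M),
      h13sRed A M ⟨B i, hi⟩ ∈ riemannRochSpace (h13sPush r E) := by
    intro i hi
    obtain ⟨h, hne⟩ := hBV i
    exact h78s_red_mem hℓ M hM A hA r hr E (B i) (hBmem i) hi hne
  refine ⟨B, hBmem, hBV', hredmem, ?_, ?_, ?_⟩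
  · intro c hc i
    exact h78s_coeff_mem hπ.ker_eq hortho c hc i
  · intro f hf
    rw [← hspan] at hf
    obtain ⟨c, hc⟩ := (Submodule.mem_span_range_iff_exists_fun Kbar).1 hf
    refine ⟨c, ?_⟩
    rw [← hc]
    exact Finset.sum_congr rfl fun i _ => Algebra.smul_def _ _
  · intro heq y hy
    have hfinS : Module.Finite (h13sK A) (riemannRochSpace (h13sPush r E)) :=
      h78q_finite (hSB ℓ hℓ M hM haux A hA) _
    set yt : Fin (h13rL Kbar (FF M) E) → riemannRochSpace (h13sPush r E) :=
      fun i => ⟨h13sRed A M ⟨B i, hBV' i⟩, hredmem i (hBV' i)⟩ with hyt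
    have hli : LinearIndependent (h13sK A) yt := by
      rw [Fintype.linearIndependent_iff]
      intro γ hγ i
      by_contra hi
      choose c hc using fun j => h78s_pi_surjective A (γ j)
      obtain ⟨h, hne⟩ := h78s_red_ne_zero A M B hortho c ⟨i, by
        rw [hc i]
        exact hi⟩
      apply hne
      rw [h78s_red_comb A M B hBV' c h]
      have h1 := congrArg (fun z : riemannRochSpace (h13sPush r E) => (z : h13sFt A M)) hγ
      simp only [Submodule.coe_sum, Submodule.coe_smul, Submodule.coe_zero] at h1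
      rw [← h1]
      refine Finset.sum_congr rfl fun j _ => ?_
      rw [hc j]
    have hspanS : Submodule.span (h13sK A) (Set.range yt) = ⊤ :=
      hli.span_eq_top_of_card_eq_finrank' (by
        rw [Fintype.card_fin]
        exact heq)
    have hymem : (⟨y, hy⟩ : riemannRochSpace (h13sPush r E)) ∈
        Submodule.span (h13sK A) (Set.range yt) := by
      rw [hspanS]
      exact Submodule.mem_top
    obtain ⟨γ, hγ⟩ := (Submodule.mem_span_range_iff_exists_fun (h13sK A)).1 hymem
    choose c hc using fun j => h78s_pi_surjective A (γ j)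
    have hfV : (∑ j, cst M (c j : Kbar) * B j) ∈ gaussV A M :=
      Subring.sum_mem _ fun j _ => Subring.mul_mem _
        ((cst_mem_gaussV_iff A M hA _).2 (c j).2) (hBV' j)
    refine ⟨∑ j, cst M (c j : Kbar) * B j, hfV, ?_, ?_⟩
    · refine Submodule.sum_mem _ fun j _ => ?_
      rw [← Algebra.smul_def]
      exact Submodule.smul_mem _ _ (hBmem j)
    · rw [h78s_red_comb A M B hBV' c hfV]
      have h1 := congrArg (fun z : riemannRochSpace (h13sPush r E) => (z : h13sFt A M)) hγ
      simp only [Submodule.coe_sum, Submodule.coe_smul] at h1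
      rw [← h1]
      refine Finset.sum_congr rfl fun j _ => ?_
      rw [hc j]

end Fermat.Agent.P5
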