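import Fermat.Agent.P5.Skeleton
import Fermat.Agent.P5.H98Zp
import Fermat.Agent.P5.H39Arch

/-!
# Wave 5, pillar (P), block TOP-DESC: the assembly `H7dSpan → H98pDescent` (helper7)

`M` a finite abelian group with a continuous `G_ℚ`-action, `A` a valuation subring of `ℚ̄` over
`p`, `G` a local order (`H96LocOrder A act G`), `Λ = A[G]` (`Algebra.adjoin A G`).

* `H7dSpan` : the SPANNING statement, output of the descent proper (inertia-invariants,
  Frobenius descent, density): every `g ∈ G` is an `A`-linear combination of `G_ℚ`-equivariant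
  elements of `Λ`.
* `h7d5_descent_of_span : H7dSpan → H98pDescent` : the order is
  `𝓗 = {f ∈ Λ : f equivariant}`.  It is finitely generated over `ℤ_(p)` (its values are fixed by
  the fixing group of a number field `L` and all their conjugates lie in `A`, so they are integral
  over `ℤ_(p)`; the integral closure of `ℤ_(p)` in `L` is a finite module), it separates points
  (by SPAN), and it is Sweedler-closed over `ℤ_(p)`: write `f (x + y) = ∑ c_jk e_j(x) e_k(y)` in
  a `ℤ_(p)`-basis `e` of `𝓗` with `c_jk ∈ A`; the `c_jk` are Galois-invariant, hence in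
  `ℚ ∩ A = ℤ_(p)`.
-/

set_option autoImplicit false
set_option linter.style.haveILetI false
set_option linter.unusedSectionVars false

open GaloisRep Polynomial

noncomputable section

namespace Fermat.Agent.P5

/-- **SPAN** (the output of the descent proper): for a local order `G` at `A` on a finite
abelian group with continuous Galois action, every `g ∈ G` lies in the `A`-span of the
`G_ℚ`-equivariant elements of `A[G]`. -/
def H7dSpan : Prop :=
  ∀ (p : ℕ) [Fact p.Prime] (M : Type) [AddCommGroup M] [Finite M] (act : H98pGQ → M → M),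
    H98pIsGalAct act →
    ∀ (A : ValuationSubring H98pQb), A.LiesOverPrime p →
    ∀ G : Set (M → H98pQb), H96LocOrder A act G →
    ∀ g ∈ G, g ∈ Submodule.span A
      {f : M → H98pQb | f ∈ Algebra.adjoin A G ∧ ∀ σ x, f (act σ x) = σ (f x)}

/-! ## `ℤ_(p) = ℚ ∩ A` -/

section basics

variable {p : ℕ} (A : ValuationSubring H98pQb)

theorem h7d5_not_dvd_den (hp : p.Prime) (r : ratLocalizedAt p) : ¬ p ∣ (r : ℚ).den := by
  have hcop : Nat.Coprime (r : ℚ).den p := r.2
  exact (Nat.Prime.coprime_iff_not_dvd hp).mp hcop.symm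

/-- the elements of `ℤ_(p)` lie in `A`. -/
theorem h7d5_zp_mem (hp : p.Prime) (hA : A.LiesOverPrime p) (r : ratLocalizedAt p) :
    algebraMap ℚ H98pQb (r : ℚ) ∈ A := by
  have hv : A.valuation (((r : ℚ).den : ℕ) : H98pQb) = 1 :=
    h39q_val_coprime A hp hA (h7d5_not_dvd_den hp r)
  have hinv : ((((r : ℚ).den : ℕ) : H98pQb))⁻¹ ∈ A := by
    rw [← A.valuation_le_one_iff, map_inv₀, hv, inv_one]
  have hq : algebraMap ℚ H98pQb (r : ℚ) =
      (((r : ℚ).num : ℤ) : H98pQb) * ((((r : ℚ).den : ℕ) : H98pQb))⁻¹ := by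
    conv_lhs => rw [← Rat.num_div_den (r : ℚ)]
    rw [map_div₀, map_intCast, map_natCast, div_eq_mul_inv]
  rw [hq]
  exact A.mul_mem _ _ (intCast_mem A _) hinv

/-- `ℚ ∩ A ⊆ ℤ_(p)`. -/
theorem h7d5_rat_mem (hp : p.Prime) (hA : A.LiesOverPrime p) (q : ℚ)
    (hq : algebraMap ℚ H98pQb q ∈ A) : q ∈ ratLocalizedAt p := by
  show q.den.Coprime p
  by_contra hcon
  have hdvd : p ∣ q.den := by
    by_contra h
    exact hcon ((Nat.Prime.coprime_iff_not_dvd hp).mpr h).symm
  have hnum : ¬ p ∣ q.num.natAbs := by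
    intro h
    have h1 : p ∣ Nat.gcd q.num.natAbs q.den := Nat.dvd_gcd h hdvd
    rw [q.reduced] at h1
    exact hp.one_lt.ne' (Nat.dvd_one.mp h1)
  have hvnum : A.valuation ((q.num : ℤ) : H98pQb) = 1 := by
    have h1 := h39q_val_coprime A hp hA hnum
    rcases Int.natAbs_eq q.num with h | h
    · have h2 : ((q.num : ℤ) : H98pQb) = ((q.num.natAbs : ℕ) : H98pQb) :=
        (congrArg (fun z : ℤ => (z : H98pQb)) h).trans (Int.cast_natCast _)
      rw [h2]; exact h1
    · have h2 : ((q.num : ℤ) : H98pQb) = -((q.num.natAbs : ℕ) : H98pQb) :=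
        (congrArg (fun z : ℤ => (z : H98pQb)) h).trans
          ((Int.cast_neg _).trans (congrArg Neg.neg (Int.cast_natCast _)))
      rw [h2, Valuation.map_neg]; exact h1
  obtain ⟨k, hk⟩ := hdvd
  have hvden : A.valuation ((q.den : ℕ) : H98pQb) < 1 := by
    rw [hk]
    push_cast
    rw [map_mul]
    exact mul_lt_one_of_lt_of_le (A.mem_nonunits_iff.mp hA)
      ((A.valuation_le_one_iff _).mpr (natCast_mem A k))
  have hrel : ((q.num : ℤ) : H98pQb) = ((q.den : ℕ) : H98pQb) * algebraMap ℚ H98pQb q := by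
    have h1 : (q.num : ℚ) = (q.den : ℚ) * q := by
      rw [mul_comm]; exact (Rat.mul_den_eq_num q).symm
    have h2 := congrArg (algebraMap ℚ H98pQb) h1
    rwa [map_mul, map_intCast, map_natCast] at h2
  have hlt : A.valuation ((q.num : ℤ) : H98pQb) < 1 := by
    rw [hrel, map_mul]
    exact mul_lt_one_of_lt_of_le hvden ((A.valuation_le_one_iff _).mpr hq)
  rw [hvnum] at hlt
  exact lt_irrefl _ hlt

/-- products of `X - C r`, `r ∈ A`, have coefficients in `A`. -/
theorem h7d5_prod_coeff_mem (s : Multiset H98pQb) (hs : ∀ r ∈ s, r ∈ A) :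
    (s.map fun r => (X : H98pQb[X]) - C r).prod ∈ Polynomial.lifts A.subtype := by
  induction s using Multiset.induction_on with
  | empty =>
    rw [Multiset.map_zero, Multiset.prod_zero]
    exact one_mem _
  | cons a s ih =>
    rw [Multiset.map_cons, Multiset.prod_cons]
    refine mul_mem ?_ (ih fun r hr => hs r (Multiset.mem_cons_of_mem hr))
    have ha : a ∈ A := hs a (Multiset.mem_cons_self a s)
    rw [Polynomial.mem_lifts]
    refine ⟨X - C ⟨a, ha⟩, ?_⟩
    rw [Polynomial.map_sub, Polynomial.map_X, Polynomial.map_C]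
    rfl

/-- an element of `ℚ̄` all of whose conjugates lie in `A` is integral over `ℤ_(p)`. -/
theorem h7d5_isIntegral_of_conj (hp : p.Prime) (hA : A.LiesOverPrime p) (y : H98pQb)
    (hy : ∀ τ : H98pGQ, τ y ∈ A) : IsIntegral (ratLocalizedAt p) y := by
  haveI : IsAlgClosure ℚ H98pQb := ⟨inferInstance, AlgebraicClosure.isAlgebraic ℚ⟩
  haveI : IsGalois ℚ H98pQb := IsAlgClosure.isGalois ℚ H98pQb
  have hyint : IsIntegral ℚ y := Algebra.IsIntegral.isIntegral y
  set m : ℚ[X] := minpoly ℚ y with hm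
  have hmonic : m.Monic := minpoly.monic hyint
  set m' : H98pQb[X] := m.map (algebraMap ℚ H98pQb) with hm'
  have hsplit : m'.Splits := IsAlgClosed.splits m'
  have hroots : ∀ r ∈ m'.roots, r ∈ A := by
    intro r hr
    have h0 : m' ≠ 0 := (hmonic.map _).ne_zero
    have h1 : m'.eval r = 0 := (Polynomial.mem_roots h0).mp hr
    have h2 : Polynomial.aeval r m = 0 := by
      rw [Polynomial.aeval_def, ← Polynomial.eval_map]; exact h1
    obtain ⟨σ, hσ⟩ := minpoly.exists_algEquiv_of_root (K := ℚ) (L := H98pQb)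
      hyint.isAlgebraic h2
    have h3 : r = σ.symm y := by rw [← hσ]; exact (σ.symm_apply_apply r).symm
    rw [h3]
    exact hy σ.symm
  have hprod : m' = (m'.roots.map fun r => (X : H98pQb[X]) - C r).prod := by
    have h1 := hsplit.eq_prod_roots
    rwa [(hmonic.map _).leadingCoeff, map_one, one_mul] at h1
  have hlift : m' ∈ Polynomial.lifts A.subtype := by
    rw [hprod]; exact h7d5_prod_coeff_mem A _ hroots
  have hcoeff : ∀ k, m.coeff k ∈ ratLocalizedAt p := by
    intro k
    refine h7d5_rat_mem A hp hA _ ?_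
    obtain ⟨c, hc⟩ := (Polynomial.lifts_iff_coeff_lifts _).mp hlift k
    have h1 : m'.coeff k = algebraMap ℚ H98pQb (m.coeff k) := Polynomial.coeff_map _ _
    rw [← h1, ← hc]
    exact c.2
  have hmlift : m ∈ Polynomial.lifts (algebraMap (ratLocalizedAt p) ℚ) := by
    rw [Polynomial.lifts_iff_coeff_lifts]
    intro k
    exact ⟨⟨m.coeff k, hcoeff k⟩, rfl⟩
  obtain ⟨q, hq, -, hqm⟩ := Polynomial.lifts_and_degree_eq_and_monic hmlift hmonic
  refine ⟨q, hqm, ?_⟩
  have h1 : Polynomial.aeval y m = 0 := minpoly.aeval ℚ y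
  rw [Polynomial.aeval_def, ← hq, Polynomial.eval₂_map] at h1
  rw [IsScalarTower.algebraMap_eq (ratLocalizedAt p) ℚ H98pQb]
  exact h1

end basics

/-! ## Finite generation -/

section fg

variable (p : ℕ) [Fact p.Prime]

/-- the integral closure of `ℤ_(p)` in the number field `L`, as a `ℤ_(p)`-submodule of `ℚ̄`. -/
def h7d5_intL (L : IntermediateField ℚ H98pQb) : Submodule (ratLocalizedAt p) H98pQb :=
  Submodule.map (L.val.toLinearMap.restrictScalars (ratLocalizedAt p))
    (Subalgebra.toSubmodule (integralClosure (ratLocalizedAt p) L))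

theorem h7d5_mem_intL (L : IntermediateField ℚ H98pQb) {y : H98pQb} (hyL : y ∈ L)
    (hy : IsIntegral (ratLocalizedAt p) y) : y ∈ h7d5_intL p L := by
  haveI : IsScalarTower (ratLocalizedAt p) L H98pQb :=
    IsScalarTower.of_algebraMap_eq (fun _ => rfl)
  refine (Submodule.mem_map).mpr ⟨⟨y, hyL⟩, ?_, rfl⟩
  show (⟨y, hyL⟩ : L) ∈ integralClosure (ratLocalizedAt p) L
  rw [mem_integralClosure_iff]
  have h1 : IsIntegral (ratLocalizedAt p) (algebraMap L H98pQb ⟨y, hyL⟩) := hy
  exact (isIntegral_algebraMap_iff (algebraMap L H98pQb).injective).mp h1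

theorem h7d5_intL_fg (L : IntermediateField ℚ H98pQb) [FiniteDimensional ℚ L] :
    (h7d5_intL p L).FG := by
  haveI := h98p_isFractionRing p
  haveI := h98p_isPID p
  haveI : Module.Finite (ratLocalizedAt p) (integralClosure (ratLocalizedAt p) L) :=
    IsIntegralClosure.finite (ratLocalizedAt p) ℚ L (integralClosure (ratLocalizedAt p) L)
  have h1 : (Subalgebra.toSubmodule (integralClosure (ratLocalizedAt p) L)).FG :=
    (Module.Finite.iff_fg).mp inferInstance
  exact h1.map _

end fg

/-! ## The assembly -/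

section main

variable {p : ℕ} [Fact p.Prime] {M : Type} [AddCommGroup M]

/-- The candidate order: the `G_ℚ`-equivariant elements of `A[G]`. -/
def h7d5_order (A : ValuationSubring H98pQb) (hA : A.LiesOverPrime p) (act : H98pGQ → M → M)
    (G : Set (M → H98pQb)) : Subalgebra (ratLocalizedAt p) (M → H98pQb) where
  carrier := {f | f ∈ Algebra.adjoin A G ∧ ∀ σ x, f (act σ x) = σ (f x)}
  mul_mem' := by
    rintro f g ⟨h1, h2⟩ ⟨h3, h4⟩
    refine ⟨mul_mem h1 h3, fun σ x => ?_⟩
    simp only [Pi.mul_apply, h2 σ x, h4 σ x, map_mul]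
  add_mem' := by
    rintro f g ⟨h1, h2⟩ ⟨h3, h4⟩
    refine ⟨add_mem h1 h3, fun σ x => ?_⟩
    simp only [Pi.add_apply, h2 σ x, h4 σ x, map_add]
  algebraMap_mem' := by
    intro r
    have hr : algebraMap ℚ H98pQb (r : ℚ) ∈ A := h7d5_zp_mem A (Fact.out : p.Prime) hA r
    refine ⟨?_, fun σ x => ?_⟩
    · have h1 : algebraMap (ratLocalizedAt p) (M → H98pQb) r =
          algebraMap A (M → H98pQb) ⟨algebraMap ℚ H98pQb (r : ℚ), hr⟩ := rfl
      rw [h1]
      exact Subalgebra.algebraMap_mem _ _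
    · show algebraMap ℚ H98pQb (r : ℚ) = σ (algebraMap ℚ H98pQb (r : ℚ))
      exact (σ.commutes _).symm

theorem h7d5_mem_order (A : ValuationSubring H98pQb) (hA : A.LiesOverPrime p)
    (act : H98pGQ → M → M) (G : Set (M → H98pQb)) (f : M → H98pQb) :
    f ∈ h7d5_order A hA act G ↔ f ∈ Algebra.adjoin A G ∧ ∀ σ x, f (act σ x) = σ (f x) :=
  Iff.rfl

/-- elements of `A[G]` have values in `A`. -/
theorem h7d5_adjoin_int {A : ValuationSubring H98pQb} {act : H98pGQ → M → M}
    {G : Set (M → H98pQb)} (hG : H96LocOrder A act G) :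
    ∀ f ∈ Algebra.adjoin A G, ∀ x, f x ∈ A := by
  intro f hf
  induction hf using Algebra.adjoin_induction with
  | mem f hf => exact hG.int f hf
  | algebraMap r => intro x; exact r.2
  | add f g _ _ hf hg => intro x; exact A.add_mem _ _ (hf x) (hg x)
  | mul f g _ _ hf hg => intro x; exact A.mul_mem _ _ (hf x) (hg x)

/-- Sweedler closure extends from `G` to `A[G]`. -/
theorem h7d5_comul_adjoin {A : ValuationSubring H98pQb} {act : H98pGQ → M → M}
    {G : Set (M → H98pQb)} (hG : H96LocOrder A act G) :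
    ∀ f ∈ Algebra.adjoin A G, ∃ (ι : Type) (_ : Fintype ι) (a b : ι → M → H98pQb),
      (∀ i, a i ∈ Algebra.adjoin A G) ∧ (∀ i, b i ∈ Algebra.adjoin A G) ∧
      ∀ x y, f (x + y) = ∑ i, a i x * b i y := by
  intro f hf
  induction hf using Algebra.adjoin_induction with
  | mem f hf =>
    obtain ⟨n, a, b, ha, hb, h⟩ := hG.comul f hf
    exact ⟨Fin n, inferInstance, a, b, ha, hb, h⟩
  | algebraMap r =>
    refine ⟨Unit, inferInstance, fun _ => algebraMap A (M → H98pQb) r, fun _ => 1,
      fun _ => Subalgebra.algebraMap_mem _ _, fun _ => one_mem _, fun x y => ?_⟩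
    simp
  | add f g _ _ hf hg =>
    obtain ⟨ι, _, a, b, ha, hb, h⟩ := hf
    obtain ⟨ι', _, a', b', ha', hb', h'⟩ := hg
    refine ⟨ι ⊕ ι', inferInstance, Sum.elim a a', Sum.elim b b', ?_, ?_, fun x y => ?_⟩
    · rintro (i | i)
      · exact ha i
      · exact ha' i
    · rintro (i | i)
      · exact hb i
      · exact hb' i
    · rw [Fintype.sum_sum_type, Pi.add_apply, h x y, h' x y]
      simp only [Sum.elim_inl, Sum.elim_inr]
  | mul f g _ _ hf hg =>
    obtain ⟨ι, _, a, b, ha, hb, h⟩ := hf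
    obtain ⟨ι', _, a', b', ha', hb', h'⟩ := hg
    refine ⟨ι × ι', inferInstance, fun ij => a ij.1 * a' ij.2, fun ij => b ij.1 * b' ij.2,
      fun ij => mul_mem (ha _) (ha' _), fun ij => mul_mem (hb _) (hb' _), fun x y => ?_⟩
    rw [Pi.mul_apply, h x y, h' x y, Finset.sum_mul_sum, Fintype.sum_prod_type]
    refine Finset.sum_congr rfl fun i _ => Finset.sum_congr rfl fun j _ => ?_
    simp only [Pi.mul_apply]
    ring

/-- the order is finitely generated over `ℤ_(p)`. -/
theorem h7d5_order_fg [Finite M] {A : ValuationSubring H98pQb} (hA : A.LiesOverPrime p)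
    {act : H98pGQ → M → M} (hact : H98pIsGalAct act)
    {G : Set (M → H98pQb)} (hG : H96LocOrder A act G) :
    (Subalgebra.toSubmodule (h7d5_order A hA act G)).FG := by
  have hp : p.Prime := Fact.out
  haveI : IsAlgClosure ℚ H98pQb := ⟨inferInstance, AlgebraicClosure.isAlgebraic ℚ⟩
  haveI : IsGalois ℚ H98pQb := IsAlgClosure.isGalois ℚ H98pQb
  obtain ⟨L, hLfin, hL⟩ := hact.cont
  haveI := hLfin
  have hle : Subalgebra.toSubmodule (h7d5_order A hA act G) ≤
      Submodule.pi Set.univ (fun _ : M => h7d5_intL p L) := by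
    intro f hf x _
    obtain ⟨hf1, hf2⟩ := hf
    refine h7d5_mem_intL p L ?_ ?_
    · rw [← InfiniteGalois.fixedField_fixingSubgroup L, IntermediateField.mem_fixedField_iff]
      intro σ hσ
      have h1 : act σ x = x :=
        hL σ (fun y hy => (IntermediateField.mem_fixingSubgroup_iff L σ).mp hσ y hy) x
      rw [← hf2 σ x, h1]
    · refine h7d5_isIntegral_of_conj A hp hA _ (fun τ => ?_)
      rw [← hf2 τ x]
      exact h7d5_adjoin_int hG f hf1 _
  haveI := h98p_isPID p
  exact Submodule.FG.of_le (Submodule.fg_pi fun _ => h7d5_intL_fg p L) hle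

/-- the `A`-span of the order contains `A[G]`. -/
theorem h7d5_adjoin_le_span {A : ValuationSubring H98pQb} (hA : A.LiesOverPrime p)
    {act : H98pGQ → M → M} {G : Set (M → H98pQb)}
    (hspan : ∀ g ∈ G, g ∈ Submodule.span A
      {f : M → H98pQb | f ∈ Algebra.adjoin A G ∧ ∀ σ x, f (act σ x) = σ (f x)}) :
    ∀ f ∈ Algebra.adjoin A G, f ∈ Submodule.span A
      {f : M → H98pQb | f ∈ Algebra.adjoin A G ∧ ∀ σ x, f (act σ x) = σ (f x)} := by
  set S : Set (M → H98pQb) :=
    {f : M → H98pQb | f ∈ Algebra.adjoin A G ∧ ∀ σ x, f (act σ x) = σ (f x)} with hS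
  have hone : (1 : M → H98pQb) ∈ S := (h7d5_order A hA act G).one_mem
  have hmul : ∀ f ∈ S, ∀ g ∈ S, f * g ∈ S := fun f hf g hg =>
    (h7d5_order A hA act G).mul_mem hf hg
  intro f hf
  induction hf using Algebra.adjoin_induction with
  | mem f hf => exact hspan f hf
  | algebraMap r =>
    rw [Algebra.algebraMap_eq_smul_one]
    exact Submodule.smul_mem _ _ (Submodule.subset_span hone)
  | add f g _ _ hf hg => exact add_mem hf hg
  | mul f g _ _ hf hg =>
    have h1 : f * g ∈ Submodule.span A S * Submodule.span A S := Submodule.mul_mem_mul hf hg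
    rw [Submodule.span_mul_span] at h1
    refine Submodule.span_mono ?_ h1
    rintro _ ⟨a, ha, b, hb, rfl⟩
    exact hmul a ha b hb

/-- the order separates the points. -/
theorem h7d5_order_sep {A : ValuationSubring H98pQb} (hA : A.LiesOverPrime p)
    {act : H98pGQ → M → M} {G : Set (M → H98pQb)} (hG : H96LocOrder A act G)
    (hspan : ∀ g ∈ G, g ∈ Submodule.span A
      {f : M → H98pQb | f ∈ Algebra.adjoin A G ∧ ∀ σ x, f (act σ x) = σ (f x)})
    (x y : M) (hxy : ∀ f ∈ h7d5_order A hA act G, f x = f y) : x = y := by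
  refine hG.sep x y fun g hg => ?_
  have h1 := hspan g hg
  refine Submodule.span_induction (p := fun f _ => f x = f y) ?_ ?_ ?_ ?_ h1
  · intro f hf
    exact hxy f hf
  · rfl
  · intro f g _ _ hf hg
    rw [Pi.add_apply, Pi.add_apply, hf, hg]
  · intro a f _ hf
    rw [Pi.smul_apply, Pi.smul_apply, hf]

/-- the order is Sweedler-closed over `ℤ_(p)`. -/
theorem h7d5_order_comul [Finite M] {A : ValuationSubring H98pQb} (hA : A.LiesOverPrime p)
    {act : H98pGQ → M → M} (hact : H98pIsGalAct act)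
    {G : Set (M → H98pQb)} (hG : H96LocOrder A act G)
    (hspan : ∀ g ∈ G, g ∈ Submodule.span A
      {f : M → H98pQb | f ∈ Algebra.adjoin A G ∧ ∀ σ x, f (act σ x) = σ (f x)})
    (f : M → H98pQb) (hf : f ∈ h7d5_order A hA act G) :
    h97c_Sw (h7d5_order A hA act G) (h7d5_order A hA act G) (fun x y => f (x + y)) := by
  have hp : p.Prime := Fact.out
  set 𝓗 := h7d5_order A hA act G with h𝓗
  obtain ⟨n, e, hind, -, -⟩ := h98p_zp_basis p act 𝓗 (h7d5_order_fg hA hact hG)
    (fun f hf => hf.2) (h7d5_order_sep hA hG hspan)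
  -- every element of `A[G]` is an `A`-combination of the basis
  have hcomb : ∀ a ∈ Algebra.adjoin A G, ∃ c : Fin n → H98pQb, (∀ j, c j ∈ A) ∧
      ∀ x, a x = ∑ j, c j * (e j : M → H98pQb) x := by
    intro a ha
    have h1 := h7d5_adjoin_le_span hA hspan a ha
    refine Submodule.span_induction (p := fun a _ => ∃ c : Fin n → H98pQb, (∀ j, c j ∈ A) ∧
      ∀ x, a x = ∑ j, c j * (e j : M → H98pQb) x) ?_ ?_ ?_ ?_ h1
    · intro g hg
      have hg' : g ∈ 𝓗 := hg
      refine ⟨fun j => algebraMap ℚ H98pQb ((e.repr ⟨g, hg'⟩ j : ratLocalizedAt p) : ℚ),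
        fun j => h7d5_zp_mem A hp hA _, fun x => ?_⟩
      have h2 : (⟨g, hg'⟩ : 𝓗) = ∑ j, e.repr ⟨g, hg'⟩ j • e j := (e.sum_repr _).symm
      have h3 : g = ∑ j, e.repr ⟨g, hg'⟩ j • ((e j : 𝓗) : M → H98pQb) := by
        have := congrArg (fun g : 𝓗 => 𝓗.val.toLinearMap g) h2
        simp only [map_sum, map_smul] at this
        exact this
      conv_lhs => rw [h3]
      rw [Finset.sum_apply]
      refine Finset.sum_congr rfl fun j _ => ?_
      rw [Pi.smul_apply, Algebra.smul_def]
      rfl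
    · exact ⟨fun _ => 0, fun _ => A.zero_mem, fun x => by simp⟩
    · intro a b _ _ ha hb
      obtain ⟨c, hc, hc'⟩ := ha
      obtain ⟨d, hd, hd'⟩ := hb
      refine ⟨fun j => c j + d j, fun j => A.add_mem _ _ (hc j) (hd j), fun x => ?_⟩
      rw [Pi.add_apply, hc' x, hd' x, ← Finset.sum_add_distrib]
      refine Finset.sum_congr rfl fun j _ => ?_
      ring
    · intro r a _ ha
      obtain ⟨c, hc, hc'⟩ := ha
      refine ⟨fun j => (r : H98pQb) * c j, fun j => A.mul_mem _ _ r.2 (hc j), fun x => ?_⟩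
      rw [Pi.smul_apply, hc' x, Finset.smul_sum]
      refine Finset.sum_congr rfl fun j _ => ?_
      show (r : H98pQb) * _ = _
      ring
  obtain ⟨ι, _, a, b, ha, hb, hab⟩ := h7d5_comul_adjoin hG f hf.1
  choose ca hca hca' using fun i => hcomb (a i) (ha i)
  choose cb hcb hcb' using fun i => hcomb (b i) (hb i)
  set c : Fin n × Fin n → H98pQb := fun jk => ∑ i, ca i jk.1 * cb i jk.2 with hc
  have hcA : ∀ jk, c jk ∈ A := fun jk =>
    A.toSubring.sum_mem fun i _ => A.mul_mem _ _ (hca i _) (hcb i _)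
  have hF : ∀ x y, f (x + y) =
      ∑ jk : Fin n × Fin n, c jk * ((e jk.1 : M → H98pQb) x * (e jk.2 : M → H98pQb) y) := by
    intro x y
    rw [hab x y, Fintype.sum_prod_type]
    have h1 : ∀ i, a i x * b i y = ∑ j, ∑ k,
        ca i j * cb i k * ((e j : M → H98pQb) x * (e k : M → H98pQb) y) := by
      intro i
      rw [hca' i x, hcb' i y, Finset.sum_mul_sum]
      refine Finset.sum_congr rfl fun j _ => Finset.sum_congr rfl fun k _ => ?_
      ring
    simp only [h1]
    rw [Finset.sum_comm]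
    refine Finset.sum_congr rfl fun j _ => ?_
    rw [Finset.sum_comm]
    refine Finset.sum_congr rfl fun k _ => ?_
    rw [hc, Finset.sum_mul]
  have hinv : ∀ σ : H98pGQ, ∀ jk, σ (c jk) = c jk := by
    intro σ
    have hlin := h98p_indep_prod (fun i => ((e i : 𝓗) : M → H98pQb))
      (fun i => ((e i : 𝓗) : M → H98pQb)) hind hind
    rw [Fintype.linearIndependent_iff] at hlin
    have h0 := hlin (fun jk => σ (c jk) - c jk) (by
      funext xy
      obtain ⟨x, y⟩ := xy
      simp only [Finset.sum_apply, Pi.smul_apply, smul_eq_mul, Pi.zero_apply]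
      have hx : ∀ z : M, act σ (act σ⁻¹ z) = z := fun z => by
        rw [← hact.mul, mul_inv_cancel, hact.one]
      have h1 : f (x + y) = ∑ jk : Fin n × Fin n,
          σ (c jk) * ((e jk.1 : M → H98pQb) x * (e jk.2 : M → H98pQb) y) := by
        have h2 := hF (act σ⁻¹ x) (act σ⁻¹ y)
        have h3 := congrArg σ h2
        rw [← hf.2 σ, hact.add, hx, hx, map_sum] at h3
        rw [h3]
        refine Finset.sum_congr rfl fun jk _ => ?_
        rw [map_mul, map_mul, ← (e jk.1).2.2 σ, ← (e jk.2).2.2 σ, hx, hx]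
      have h4 := hF x y
      simp only [sub_mul, Finset.sum_sub_distrib]
      rw [← h1, ← h4, sub_self])
    intro jk
    exact sub_eq_zero.mp (h0 jk)
  have hrat : ∀ jk, ∃ r : ratLocalizedAt p, algebraMap (ratLocalizedAt p) H98pQb r = c jk := by
    intro jk
    obtain ⟨q, hq⟩ := h98p_fix (c jk) (fun σ => hinv σ jk)
    have hqA : algebraMap ℚ H98pQb q ∈ A := by rw [hq]; exact hcA jk
    exact ⟨⟨q, h7d5_rat_mem A hp hA q hqA⟩, hq⟩
  choose r hr using hrat
  have hsw := h97c_Sw_sum 𝓗 𝓗 (Finset.univ : Finset (Fin n × Fin n))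
    (F := fun jk x y => algebraMap (ratLocalizedAt p) H98pQb (r jk) *
      ((e jk.1 : M → H98pQb) x * (e jk.2 : M → H98pQb) y))
    (fun jk _ => h97c_Sw_smul 𝓗 𝓗 (h97c_Sw_tmul 𝓗 𝓗 (e jk.1).2 (e jk.2).2) (r jk))
  refine (iff_of_eq (congrArg _ ?_)).mp hsw
  funext x y
  rw [hF x y]
  refine Finset.sum_congr rfl fun jk _ => ?_
  rw [hr jk]

/-- **TOP-DESC, assembly**: the spanning statement implies the descent statement. -/
theorem h7d5_descent_of_span (hspan : H7dSpan) : H98pDescent := by
  intro p _ M _ _ act hact A hA G hG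
  have hs := hspan p M act hact A hA G hG
  exact ⟨h7d5_order A hA act G, h7d5_order_fg hA hact hG, fun f hf => hf.2,
    h7d5_order_sep hA hG hs, h7d5_order_comul hA hact hG hs⟩

end main

end Fermat.Agent.P5
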