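import Mathlib

/-!
# P5 (wave 5, S19), block GEO (helper80): Hensel's lemma in a valuation subring of an
algebraically closed field

Mathlib only.  `K` an algebraically closed field, `A` a valuation subring of `K`.

* `h80h_root_unique`  : in any local ring, a polynomial has at most one root congruent to `a₀`
  modulo the maximal ideal when `p'(a₀)` is a unit.
* `h80h_exists_root`  : existence of the root (NO monicity assumption): if `p(a₀) ∈ 𝔪_A` and
  `p'(a₀)` is a unit then `p` has a root `r ∈ A`, `r ≡ a₀`.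
* `h80h_henselian`    : `A` is a henselian local ring.
* `h80h_root_fixed`   : the root is fixed by every ring endomorphism `σ` of `K` preserving `A`,
  `𝔪_A`, the coefficients of `p`, and `a₀` modulo `𝔪_A` (unramified roots: inertia-fixed).
* `h80h_exists_root_fixed` : existence and fixedness together, in `K`-vocabulary.
-/

set_option autoImplicit false
set_option linter.unusedSectionVars false
set_option linter.unusedVariables false
set_option linter.style.longLine false
set_option linter.style.haveILetI false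

open Polynomial IsLocalRing

noncomputable section

namespace Fermat.Agent.P5

/-- in a local ring, unit plus non-unit is a unit. -/
theorem h80h_isUnit_add {R : Type*} [CommRing R] [IsLocalRing R] {u a : R} (hu : IsUnit u)
    (ha : a ∈ maximalIdeal R) : IsUnit (u + a) := by
  by_contra h
  have h1 : u + a ∈ maximalIdeal R := (IsLocalRing.mem_maximalIdeal _).mpr h
  have h2 : u ∈ maximalIdeal R := by
    have := (maximalIdeal R).sub_mem h1 ha
    simpa using this
  exact (IsLocalRing.mem_maximalIdeal _).mp h2 hu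

/-- **uniqueness of the simple root** in a residue class. -/
theorem h80h_root_unique {R : Type*} [CommRing R] [IsLocalRing R] (p : R[X]) (a₀ r r' : R)
    (h1 : IsUnit (p.derivative.eval a₀))
    (hr : p.eval r = 0) (hr' : p.eval r' = 0)
    (hra : r - a₀ ∈ maximalIdeal R) (hra' : r' - a₀ ∈ maximalIdeal R) : r = r' := by
  obtain ⟨k, hk⟩ := Polynomial.binomExpansion p r (r' - r)
  have h2 : r + (r' - r) = r' := by ring
  rw [h2, hr, hr', zero_add] at hk
  have h3 : (p.derivative.eval r + k * (r' - r)) * (r' - r) = 0 := by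
    rw [hk]
    ring
  have h4 : p.derivative.eval r - p.derivative.eval a₀ ∈ maximalIdeal R := by
    obtain ⟨c, hc⟩ := Polynomial.sub_dvd_eval_sub r a₀ p.derivative
    rw [hc]
    exact Ideal.mul_mem_right _ _ hra
  have h5 : r' - r ∈ maximalIdeal R := by
    have := (maximalIdeal R).sub_mem hra' hra
    simpa using this
  have h6 : IsUnit (p.derivative.eval r + k * (r' - r)) := by
    have h7 : p.derivative.eval r + k * (r' - r) = p.derivative.eval a₀ +
        ((p.derivative.eval r - p.derivative.eval a₀) + k * (r' - r)) := by ring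
    rw [h7]
    exact h80h_isUnit_add h1 (Ideal.add_mem _ h4 (Ideal.mul_mem_left _ _ h5))
  have h8 : r' - r = 0 := (h6.mul_right_eq_zero).mp (by rw [mul_comm]; rw [mul_comm] at h3; exact h3)
  exact (sub_eq_zero.mp h8).symm

variable {K : Type*} [Field K]

/-- a product of `X - s`, `s ∈ A`, has coefficients in `A`. -/
theorem h80h_prod_coeff_mem (A : ValuationSubring K) (m : Multiset K) (hm : ∀ s ∈ m, s ∈ A)
    (n : ℕ) : ((m.map (fun s => X - C s)).prod : K[X]).coeff n ∈ A := by
  have h1 : ((m.map (fun s => X - C s)).prod : K[X]) ∈ Polynomial.lifts (algebraMap A K) := by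
    refine Subsemiring.multiset_prod_mem _ _ ?_
    intro q hq
    obtain ⟨s, hs, rfl⟩ := Multiset.mem_map.mp hq
    rw [Polynomial.mem_lifts]
    refine ⟨X - C ⟨s, hm s hs⟩, ?_⟩
    simp
  rw [Polynomial.lifts_iff_coeff_lifts] at h1
  obtain ⟨a, ha⟩ := h1 n
  rw [← ha]
  exact a.2

/-- a root in the maximal ideal of a polynomial `c₀ + c₁ T + ⋯` with `c₀ ∈ 𝔪`, `c₁` a unit. -/
theorem h80h_exists_small_root [IsAlgClosed K] (A : ValuationSubring K) (g : A[X])
    (h0 : g.coeff 0 ∈ maximalIdeal A) (h1 : IsUnit (g.coeff 1)) :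
    ∃ t : A, g.eval t = 0 ∧ t ∈ maximalIdeal A := by
  by_cases hc0 : g.coeff 0 = 0
  · refine ⟨0, ?_, Ideal.zero_mem _⟩
    rw [← Polynomial.coeff_zero_eq_eval_zero]
    exact hc0
  set gK : K[X] := g.map (algebraMap A K) with hgK
  have hinj : Function.Injective (algebraMap A K) := Subtype.val_injective
  have hcoeff : ∀ n, gK.coeff n = ((g.coeff n : A) : K) := fun n => by
    rw [hgK, Polynomial.coeff_map]
    rfl
  have hc0K : gK.coeff 0 ≠ 0 := by
    rw [hcoeff]
    intro h
    exact hc0 (Subtype.ext h)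
  have hc1K : gK.coeff 1 ≠ 0 := by
    rw [hcoeff]
    intro h
    have : g.coeff 1 = 0 := Subtype.ext h
    rw [this] at h1
    exact not_isUnit_zero h1
  have hN : 1 ≤ gK.natDegree := Polynomial.le_natDegree_of_ne_zero hc1K
  set h : K[X] := gK.reverse with hh
  have hcN : h.coeff gK.natDegree = gK.coeff 0 := by
    rw [hh, Polynomial.coeff_reverse, Polynomial.revAt_le le_rfl, Nat.sub_self]
  have hcN1 : h.coeff (gK.natDegree - 1) = gK.coeff 1 := by
    rw [hh, Polynomial.coeff_reverse, Polynomial.revAt_le (Nat.sub_le _ _)]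
    congr 1
    omega
  have htr : gK.natTrailingDegree = 0 := by
    apply Nat.eq_zero_of_le_zero
    exact Polynomial.natTrailingDegree_le_of_ne_zero hc0K
  have hdeg : h.natDegree = gK.natDegree := by
    rw [hh, Polynomial.reverse_natDegree, htr, Nat.sub_zero]
  have hlc : h.leadingCoeff = gK.coeff 0 := by
    rw [Polynomial.leadingCoeff, hdeg, hcN]
  have hsplit := (IsAlgClosed.splits h).eq_prod_roots
  -- some root of `h` is not in `A`
  have hex : ∃ s ∈ h.roots, s ∉ A := by
    by_contra hcon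
    push Not at hcon
    have h2 := h80h_prod_coeff_mem A h.roots hcon (gK.natDegree - 1)
    have h3 : h.coeff (gK.natDegree - 1) =
        gK.coeff 0 * ((h.roots.map (fun s => X - C s)).prod : K[X]).coeff (gK.natDegree - 1) := by
      conv_lhs => rw [hsplit, hlc]
      rw [Polynomial.coeff_C_mul]
    rw [hcN1, hcoeff, hcoeff] at h3
    -- `c₁ = c₀ a` in `A`
    have h4 : g.coeff 1 = g.coeff 0 *
        ⟨((h.roots.map (fun s => X - C s)).prod : K[X]).coeff (gK.natDegree - 1), h2⟩ :=
      Subtype.ext h3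
    have h5 : g.coeff 1 ∈ maximalIdeal A := by
      rw [h4]
      exact Ideal.mul_mem_right _ _ h0
    exact (IsLocalRing.mem_maximalIdeal _).mp h5 h1
  obtain ⟨s, hs, hsA⟩ := hex
  have hs0 : s ≠ 0 := fun h => hsA (h ▸ A.zero_mem)
  have hroot : h.eval s = 0 := (Polynomial.mem_roots'.mp hs).2
  have htA : s⁻¹ ∈ A := (A.mem_or_inv_mem s).resolve_left hsA
  have ht0 : s⁻¹ ≠ 0 := inv_ne_zero hs0
  -- `gK (s⁻¹) = 0`
  have hgt : gK.eval s⁻¹ = 0 := by
    letI : Invertible (s⁻¹ : K) := invertibleOfNonzero ht0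
    have h2 := Polynomial.eval₂_reverse_mul_pow (RingHom.id K) (s⁻¹ : K) gK
    rw [invOf_eq_inv, inv_inv] at h2
    have h3 : Polynomial.eval₂ (RingHom.id K) s gK.reverse = 0 := by
      rw [Polynomial.eval₂_id]
      exact hroot
    rw [h3, zero_mul, Polynomial.eval₂_id] at h2
    exact h2.symm
  refine ⟨⟨s⁻¹, htA⟩, ?_, ?_⟩
  · apply hinj
    rw [map_zero, ← Polynomial.eval₂_hom, ← Polynomial.eval_map]
    exact hgt
  · rw [IsLocalRing.mem_maximalIdeal]
    intro hu
    obtain ⟨w, hw⟩ := hu.exists_right_inv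
    apply hsA
    have h2 : (s⁻¹ : K) * (w : K) = 1 := congrArg (fun z : A => (z : K)) hw
    have h3 : (w : K) = s := by
      have := congrArg (fun z => s * z) h2
      simp only [mul_one] at this
      rw [← mul_assoc, mul_inv_cancel₀ hs0, one_mul] at this
      exact this
    rw [← h3]
    exact w.2

/-- **Hensel's lemma** (existence, no monicity) in a valuation subring of an algebraically
closed field. -/
theorem h80h_exists_root [IsAlgClosed K] (A : ValuationSubring K) (p : A[X]) (a₀ : A)
    (h0 : p.eval a₀ ∈ maximalIdeal A) (h1 : IsUnit (p.derivative.eval a₀)) :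
    ∃ r : A, p.eval r = 0 ∧ r - a₀ ∈ maximalIdeal A := by
  set g : A[X] := p.comp (X + C a₀) with hg
  have hg0 : g.coeff 0 = p.eval a₀ := by
    rw [Polynomial.coeff_zero_eq_eval_zero, hg, Polynomial.eval_comp]
    simp
  have hg1 : g.coeff 1 = p.derivative.eval a₀ := by
    have h2 : g.derivative = p.derivative.comp (X + C a₀) := by
      rw [hg, Polynomial.derivative_comp]
      simp
    have h3 : g.coeff 1 = g.derivative.eval 0 := by
      rw [← Polynomial.coeff_zero_eq_eval_zero, Polynomial.coeff_derivative]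
      simp
    rw [h3, h2, Polynomial.eval_comp]
    simp
  obtain ⟨t, ht, htm⟩ := h80h_exists_small_root A g (hg0 ▸ h0) (hg1 ▸ h1)
  refine ⟨t + a₀, ?_, ?_⟩
  · rw [hg, Polynomial.eval_comp] at ht
    simpa using ht
  · simpa using htm

/-- **`A` is a henselian local ring.** -/
theorem h80h_henselian [IsAlgClosed K] (A : ValuationSubring K) : HenselianLocalRing A where
  is_henselian := fun f _ a₀ h0 h1 => by
    obtain ⟨r, hr, hra⟩ := h80h_exists_root A f a₀ h0 h1
    exact ⟨r, hr, hra⟩

/-- **the simple root is fixed** by every ring endomorphism of `K` preserving `A`, `𝔪_A`, the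
coefficients of `p` and the residue class of `a₀`. -/
theorem h80h_root_fixed (A : ValuationSubring K) (σ : K →+* K)
    (hσA : ∀ x : K, x ∈ A → σ x ∈ A)
    (hσm : ∀ x : K, x ∈ A.nonunits → σ x ∈ A.nonunits)
    (p : A[X]) (hp : ∀ i, σ ((p.coeff i : A) : K) = ((p.coeff i : A) : K))
    (a₀ r : A) (h1 : IsUnit (p.derivative.eval a₀))
    (ha : σ (a₀ : K) - (a₀ : K) ∈ A.nonunits)
    (hr : p.eval r = 0) (hra : r - a₀ ∈ maximalIdeal A) : σ (r : K) = (r : K) := by
  have hmem : ∀ x : A, x ∈ maximalIdeal A ↔ (x : K) ∈ A.nonunits := fun x => by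
    rw [IsLocalRing.mem_maximalIdeal, mem_nonunits_iff, ValuationSubring.mem_nonunits_iff_exists_mem_maximalIdeal]
    constructor
    · intro h
      exact ⟨x.2, (IsLocalRing.mem_maximalIdeal _).mpr h⟩
    · rintro ⟨hx, h⟩
      exact (IsLocalRing.mem_maximalIdeal _).mp h
  -- `σ r` is a root
  have hroot : p.eval (⟨σ (r : K), hσA _ r.2⟩ : A) = 0 := by
    apply Subtype.val_injective
    have h2 : ∀ x : A, ((p.eval x : A) : K) = ∑ i ∈ Finset.range (p.natDegree + 1),
        ((p.coeff i : A) : K) * (x : K) ^ i := fun x => by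
      rw [Polynomial.eval_eq_sum_range]
      push_cast
      rfl
    rw [h2]
    have h3 := congrArg σ (h2 r)
    rw [hr, map_sum] at h3
    simp only [map_mul, map_pow, hp] at h3
    rw [← h3]
    simp
  have hnear : (⟨σ (r : K), hσA _ r.2⟩ : A) - a₀ ∈ maximalIdeal A := by
    rw [hmem]
    have h2 : (((⟨σ (r : K), hσA _ r.2⟩ : A) - a₀ : A) : K) =
        σ ((r : K) - (a₀ : K)) + (σ (a₀ : K) - (a₀ : K)) := by
      push_cast
      rw [map_sub]
      ring
    rw [h2]
    have h3 : σ ((r : K) - (a₀ : K)) ∈ A.nonunits := by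
      apply hσm
      have := (hmem (r - a₀)).mp hra
      simpa using this
    have h4 : ∀ x y : K, x ∈ A.nonunits → y ∈ A.nonunits → x + y ∈ A.nonunits := by
      intro x y hx hy
      rw [ValuationSubring.mem_nonunits_iff_exists_mem_maximalIdeal] at hx hy ⊢
      obtain ⟨hxA, hx⟩ := hx
      obtain ⟨hyA, hy⟩ := hy
      exact ⟨A.add_mem _ _ hxA hyA, (maximalIdeal A).add_mem hx hy⟩
    exact h4 _ _ h3 ha
  have := h80h_root_unique p a₀ _ r h1 hroot hr hnear hra
  exact congrArg (fun z : A => (z : K)) this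

/-- membership in the maximal ideal of `A` in `K`-vocabulary. -/
theorem h80h_mem_maximalIdeal_iff (A : ValuationSubring K) (x : A) :
    x ∈ maximalIdeal A ↔ (x : K) ∈ A.nonunits := by
  rw [ValuationSubring.mem_nonunits_iff_exists_mem_maximalIdeal]
  constructor
  · intro h
    exact ⟨x.2, h⟩
  · rintro ⟨hx, h⟩
    exact h

/-- **Hensel's lemma in `K`-vocabulary**: existence, uniqueness and fixedness of the simple
root of a polynomial with coefficients in `A`. -/
theorem h80h_exists_root_fixed [IsAlgClosed K] (A : ValuationSubring K) (p : K[X])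
    (hpA : ∀ i, p.coeff i ∈ A) (a₀ : K) (ha₀ : a₀ ∈ A) (h0 : p.eval a₀ ∈ A.nonunits)
    (h1 : p.derivative.eval a₀ ∉ A.nonunits) :
    ∃ r : K, r ∈ A ∧ p.eval r = 0 ∧ r - a₀ ∈ A.nonunits ∧
      (∀ r' : K, r' ∈ A → p.eval r' = 0 → r' - a₀ ∈ A.nonunits → r' = r) ∧
      ∀ σ : K →+* K, (∀ x : K, x ∈ A → σ x ∈ A) →
        (∀ x : K, x ∈ A.nonunits → σ x ∈ A.nonunits) →
        (∀ i, σ (p.coeff i) = p.coeff i) → σ a₀ - a₀ ∈ A.nonunits → σ r = r := by
  have hl : p ∈ Polynomial.lifts (algebraMap A K) := by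
    rw [Polynomial.lifts_iff_coeff_lifts]
    intro n
    exact ⟨⟨p.coeff n, hpA n⟩, rfl⟩
  obtain ⟨q, hq⟩ := (Polynomial.mem_lifts p).mp hl
  have hqc : ∀ i, ((q.coeff i : A) : K) = p.coeff i := fun i => by
    rw [← hq, Polynomial.coeff_map]
    rfl
  have hev : ∀ x : A, ((q.eval x : A) : K) = p.eval (x : K) := fun x => by
    rw [← hq, Polynomial.eval_map]
    exact (Polynomial.eval₂_at_apply (p := q) (algebraMap A K) x).symm
  have hdev : ∀ x : A, ((q.derivative.eval x : A) : K) = p.derivative.eval (x : K) := fun x => by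
    rw [← hq, Polynomial.derivative_map, Polynomial.eval_map]
    exact (Polynomial.eval₂_at_apply (p := q.derivative) (algebraMap A K) x).symm
  have h0' : q.eval (⟨a₀, ha₀⟩ : A) ∈ maximalIdeal A := by
    rw [h80h_mem_maximalIdeal_iff, hev]
    exact h0
  have h1' : IsUnit (q.derivative.eval (⟨a₀, ha₀⟩ : A)) := by
    by_contra h
    apply h1
    have h2 : q.derivative.eval (⟨a₀, ha₀⟩ : A) ∈ maximalIdeal A :=
      (IsLocalRing.mem_maximalIdeal _).mpr h
    rw [h80h_mem_maximalIdeal_iff, hdev] at h2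
    exact h2
  obtain ⟨r, hr, hra⟩ := h80h_exists_root A q ⟨a₀, ha₀⟩ h0' h1'
  refine ⟨(r : K), r.2, ?_, ?_, ?_, ?_⟩
  · rw [← hev, hr]
    rfl
  · have := (h80h_mem_maximalIdeal_iff A _).mp hra
    simpa using this
  · intro r' hr'A hr'0 hr'a
    have h2 : q.eval (⟨r', hr'A⟩ : A) = 0 := by
      apply Subtype.val_injective
      rw [hev]
      exact hr'0
    have h3 : (⟨r', hr'A⟩ : A) - ⟨a₀, ha₀⟩ ∈ maximalIdeal A := by
      rw [h80h_mem_maximalIdeal_iff]
      exact hr'a
    have := h80h_root_unique q ⟨a₀, ha₀⟩ _ r h1' h2 hr h3 hra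
    exact congrArg (fun z : A => (z : K)) this
  · intro σ hσA hσm hσp hσa
    exact h80h_root_fixed A σ hσA hσm q (fun i => by rw [hqc]; exact hσp i) ⟨a₀, ha₀⟩ r h1'
      hσa hr hra

end Fermat.Agent.P5
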