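import Mathlib

/-!
# P5 (wave 5, S32), leaf LC-KEY, the `V`-side (helper80, second seat)

Mathlib only.  `T` a commutative ring, `V` a free `T`-module of rank `2`.

* `h80k5_polar`    : `det (X + Y) = det X + det Y + tr X tr Y - tr (X Y)`.
* `h80k5_two_det`  : `tr X ^ 2 - tr (X ^ 2) = 2 det X`.
* `h80k5_trace_form` : if `tr (X Y) ∈ I` for all `Y` then `X V ⊆ I V`.
* `h80k5_exists_unit_det` : `T` local, `S` spanning `End V`: some integer combination of
  commutators of elements of `S` has unit determinant.
-/

set_option autoImplicit false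
set_option linter.unusedSectionVars false
set_option linter.unusedVariables false
set_option linter.style.longLine false
set_option linter.unusedSimpArgs false
set_option linter.unnecessarySimpa false

open IsLocalRing

noncomputable section

namespace Fermat.Agent.P5

section Mat2

variable {T : Type*} [CommRing T]

theorem h80k5_mat_polar (X Y : Matrix (Fin 2) (Fin 2) T) :
    (X + Y).det = X.det + Y.det + X.trace * Y.trace - (X * Y).trace := by
  simp only [Matrix.det_fin_two, Matrix.trace_fin_two, Matrix.mul_apply, Fin.sum_univ_two,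
    Matrix.add_apply]
  ring

theorem h80k5_mat_two_det (X : Matrix (Fin 2) (Fin 2) T) :
    X.trace * X.trace - (X * X).trace = 2 * X.det := by
  simp only [Matrix.det_fin_two, Matrix.trace_fin_two, Matrix.mul_apply, Fin.sum_univ_two]
  ring

end Mat2

section End2

variable {T : Type*} [CommRing T] [Nontrivial T] {V : Type*} [AddCommGroup V] [Module T V]
  [Module.Free T V] [Module.Finite T V]

theorem h80k5_polar (hrank : Module.finrank T V = 2) (X Y : Module.End T V) :
    LinearMap.det (X + Y) = LinearMap.det X + LinearMap.det Y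
      + LinearMap.trace T V X * LinearMap.trace T V Y - LinearMap.trace T V (X * Y) := by
  classical
  let b := Module.finBasisOfFinrankEq T V hrank
  rw [← LinearMap.det_toMatrix b, ← LinearMap.det_toMatrix b, ← LinearMap.det_toMatrix b,
    LinearMap.trace_eq_matrix_trace T b, LinearMap.trace_eq_matrix_trace T b,
    LinearMap.trace_eq_matrix_trace T b, LinearMap.toMatrix_mul, map_add]
  exact h80k5_mat_polar _ _

theorem h80k5_two_det (hrank : Module.finrank T V = 2) (X : Module.End T V) :
    LinearMap.trace T V X * LinearMap.trace T V X - LinearMap.trace T V (X * X)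
      = 2 * LinearMap.det X := by
  classical
  let b := Module.finBasisOfFinrankEq T V hrank
  rw [← LinearMap.det_toMatrix b, LinearMap.trace_eq_matrix_trace T b,
    LinearMap.trace_eq_matrix_trace T b, LinearMap.toMatrix_mul]
  exact h80k5_mat_two_det _

omit [Nontrivial T] in
/-- **the trace form**: `tr (X Y) ∈ I` for all `Y` implies `X V ⊆ I V`. -/
theorem h80k5_trace_form (I : Ideal T) (X : Module.End T V)
    (h : ∀ Y : Module.End T V, LinearMap.trace T V (X * Y) ∈ I) (v : V) :
    X v ∈ I • (⊤ : Submodule T V) := by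
  classical
  let b := Module.Free.chooseBasis T V
  have h1 : ∀ (φ : V →ₗ[T] T) (u : V), φ (X u) ∈ I := by
    intro φ u
    have h2 := h (φ.smulRight u)
    have h3 : X * φ.smulRight u = φ.smulRight (X u) := by
      apply LinearMap.ext
      intro w
      simp [LinearMap.smulRight_apply]
    rw [h3, LinearMap.trace_smulRight] at h2
    exact h2
  have h4 : X v = ∑ i, (b.coord i (X v)) • b i := by
    conv_lhs => rw [← b.sum_repr (X v)]
    rfl
  rw [h4]
  refine Submodule.sum_mem _ fun i _ => ?_
  exact Submodule.smul_mem_smul (h1 (b.coord i) v) Submodule.mem_top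

end End2

section Unit

variable {T : Type*} [CommRing T] [IsLocalRing T] {V : Type*} [AddCommGroup V] [Module T V]
  [Module.Free T V] [Module.Finite T V]

/-- the polar form `β (X, Y) = tr X tr Y - tr (X Y)`. -/
def h80k5Beta (X Y : Module.End T V) : T :=
  LinearMap.trace T V X * LinearMap.trace T V Y - LinearMap.trace T V (X * Y)

omit [IsLocalRing T] [Module.Free T V] [Module.Finite T V] in
theorem h80k5_beta_add_left (X X' Y : Module.End T V) :
    h80k5Beta (X + X') Y = h80k5Beta X Y + h80k5Beta X' Y := by
  unfold h80k5Beta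
  simp only [map_add, add_mul]
  ring

omit [IsLocalRing T] [Module.Free T V] [Module.Finite T V] in
theorem h80k5_beta_smul_left (t : T) (X Y : Module.End T V) :
    h80k5Beta (t • X) Y = t * h80k5Beta X Y := by
  unfold h80k5Beta
  simp only [map_smul, smul_mul_assoc, smul_eq_mul]
  ring

omit [IsLocalRing T] [Module.Free T V] [Module.Finite T V] in
theorem h80k5_beta_add_right (X Y Y' : Module.End T V) :
    h80k5Beta X (Y + Y') = h80k5Beta X Y + h80k5Beta X Y' := by
  unfold h80k5Beta
  simp only [map_add, mul_add]
  ring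

omit [IsLocalRing T] [Module.Free T V] [Module.Finite T V] in
theorem h80k5_beta_smul_right (t : T) (X Y : Module.End T V) :
    h80k5Beta X (t • Y) = t * h80k5Beta X Y := by
  unfold h80k5Beta
  simp only [map_smul, mul_smul_comm, smul_eq_mul]
  ring

/-- **a commutator combination with unit determinant.** -/
theorem h80k5_exists_unit_det (hrank : Module.finrank T V = 2) (S : Set (Module.End T V))
    (hS : Submodule.span T S = ⊤) :
    ∃ X ∈ AddSubgroup.closure {Z : Module.End T V | ∃ a ∈ S, ∃ b ∈ S, Z = a * b - b * a},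
      IsUnit (LinearMap.det X) := by
  classical
  by_contra hcon
  push Not at hcon
  set L : AddSubgroup (Module.End T V) :=
    AddSubgroup.closure {Z : Module.End T V | ∃ a ∈ S, ∃ b ∈ S, Z = a * b - b * a} with hL
  have hm : ∀ X ∈ L, LinearMap.det X ∈ maximalIdeal T := fun X hX =>
    (IsLocalRing.mem_maximalIdeal _).mpr (hcon X hX)
  -- `β ∈ 𝔪` on `L × L`
  have hβL : ∀ X ∈ L, ∀ Y ∈ L, h80k5Beta X Y ∈ maximalIdeal T := by
    intro X hX Y hY
    have h1 := h80k5_polar hrank X Y
    have h2 : h80k5Beta X Y = LinearMap.det (X + Y) - LinearMap.det X - LinearMap.det Y := by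
      unfold h80k5Beta
      rw [h1]
      ring
    rw [h2]
    exact Ideal.sub_mem _ (Ideal.sub_mem _ (hm _ (L.add_mem hX hY)) (hm _ hX)) (hm _ hY)
  -- the span of `L`
  set LT : Submodule T (Module.End T V) := Submodule.span T (L : Set (Module.End T V)) with hLT
  have hβ1 : ∀ X ∈ LT, ∀ Y ∈ L, h80k5Beta X Y ∈ maximalIdeal T := by
    intro X hX Y hY
    refine Submodule.span_induction (p := fun X _ => h80k5Beta X Y ∈ maximalIdeal T)
      (fun X hX => hβL X hX Y hY) ?_ ?_ ?_ hX
    · unfold h80k5Beta
      simp
    · intro X X' _ _ h1 h2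
      rw [h80k5_beta_add_left]
      exact Ideal.add_mem _ h1 h2
    · intro t X _ h1
      rw [h80k5_beta_smul_left]
      exact Ideal.mul_mem_left _ _ h1
  have hβ2 : ∀ X ∈ LT, ∀ Y ∈ LT, h80k5Beta X Y ∈ maximalIdeal T := by
    intro X hX Y hY
    refine Submodule.span_induction (p := fun Y _ => h80k5Beta X Y ∈ maximalIdeal T)
      (fun Y hY => hβ1 X hX Y hY) ?_ ?_ ?_ hY
    · unfold h80k5Beta
      simp
    · intro Y Y' _ _ h1 h2
      rw [h80k5_beta_add_right]
      exact Ideal.add_mem _ h1 h2
    · intro t Y _ h1
      rw [h80k5_beta_smul_right]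
      exact Ideal.mul_mem_left _ _ h1
  -- all commutators are in `LT`
  have hc1 : ∀ A : Module.End T V, ∀ b ∈ S, A * b - b * A ∈ LT := by
    intro A b hb
    have hA : A ∈ Submodule.span T S := by rw [hS]; trivial
    refine Submodule.span_induction (p := fun A _ => A * b - b * A ∈ LT)
      (fun a ha => Submodule.subset_span (AddSubgroup.subset_closure ⟨a, ha, b, hb, rfl⟩))
      ?_ ?_ ?_ hA
    · simp
    · intro A A' _ _ h1 h2
      have h3 : (A + A') * b - b * (A + A') = (A * b - b * A) + (A' * b - b * A') := by
        rw [add_mul, mul_add]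
        abel
      rw [h3]
      exact LT.add_mem h1 h2
    · intro t A _ h1
      have h3 : (t • A) * b - b * (t • A) = t • (A * b - b * A) := by
        rw [smul_mul_assoc, mul_smul_comm, smul_sub]
      rw [h3]
      exact LT.smul_mem _ h1
  have hc2 : ∀ A B : Module.End T V, A * B - B * A ∈ LT := by
    intro A B
    have hB : B ∈ Submodule.span T S := by rw [hS]; trivial
    refine Submodule.span_induction (p := fun B _ => A * B - B * A ∈ LT)
      (fun b hb => hc1 A b hb) ?_ ?_ ?_ hB
    · simp
    · intro B B' _ _ h1 h2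
      have h3 : A * (B + B') - (B + B') * A = (A * B - B * A) + (A * B' - B' * A) := by
        rw [add_mul, mul_add]
        abel
      rw [h3]
      exact LT.add_mem h1 h2
    · intro t B _ h1
      have h3 : A * (t • B) - (t • B) * A = t • (A * B - B * A) := by
        rw [smul_mul_assoc, mul_smul_comm, smul_sub]
      rw [h3]
      exact LT.smul_mem _ h1
  -- the contradiction at `E₁₂`, `E₂₁`
  let b := Module.finBasisOfFinrankEq T V hrank
  let E11 : Module.End T V := Matrix.toLin b b !![1, 0; 0, 0]
  let E12 : Module.End T V := Matrix.toLin b b !![0, 1; 0, 0]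
  let E21 : Module.End T V := Matrix.toLin b b !![0, 0; 1, 0]
  let E22 : Module.End T V := Matrix.toLin b b !![0, 0; 0, 1]
  have h1 := hβ2 _ (hc2 E11 E12) _ (hc2 E22 E21)
  have h2 : h80k5Beta (E11 * E12 - E12 * E11) (E22 * E21 - E21 * E22) = -1 := by
    unfold h80k5Beta
    have e1 : E11 * E12 - E12 * E11 = Matrix.toLin b b !![0, 1; 0, 0] := by
      show Matrix.toLin b b _ * Matrix.toLin b b _ - Matrix.toLin b b _ * Matrix.toLin b b _ = _
      rw [Module.End.mul_eq_comp, Module.End.mul_eq_comp, ← Matrix.toLin_mul,
        ← Matrix.toLin_mul, ← map_sub]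
      congr 1
      ext i j
      fin_cases i <;> fin_cases j <;> simp [Matrix.mul_apply, Fin.sum_univ_two]
    have e2 : E22 * E21 - E21 * E22 = Matrix.toLin b b !![0, 0; 1, 0] := by
      show Matrix.toLin b b _ * Matrix.toLin b b _ - Matrix.toLin b b _ * Matrix.toLin b b _ = _
      rw [Module.End.mul_eq_comp, Module.End.mul_eq_comp, ← Matrix.toLin_mul,
        ← Matrix.toLin_mul, ← map_sub]
      congr 1
      ext i j
      fin_cases i <;> fin_cases j <;> simp [Matrix.mul_apply, Fin.sum_univ_two]
    rw [e1, e2, Module.End.mul_eq_comp, ← Matrix.toLin_mul, Matrix.trace_toLin_eq,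
      Matrix.trace_toLin_eq, Matrix.trace_toLin_eq]
    simp [Matrix.trace_fin_two, Matrix.mul_apply, Fin.sum_univ_two]
  rw [h2] at h1
  have h3 : (1 : T) ∈ maximalIdeal T := by
    have := (maximalIdeal T).neg_mem h1
    simpa using this
  exact (IsLocalRing.mem_maximalIdeal _).mp h3 isUnit_one

end Unit

end Fermat.Agent.P5
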