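import Mathlib

/-!
# Wave 5, pillar (P), block ALG-CLOS (helper81): closed function algebras on finite sets

`K` a field, `A : ValuationSubring K`, `S` a finite type, `B` a subalgebra of `S → K` which is
finitely generated as an `A`-module, `c` a nonzero nonunit of `A` with the archimedean property
`h81k_Arch A c` (every element of `K` is in `c ^ (-k) A` for some `k`).

* `h81k_val_mem`   : the elements of `B` have values in `A`;
* `h81k_inv_mem`   : an element of `B` all of whose values are units of `A` is a unit of `B`;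
* `h81k_closed`    : a finitely generated `A`-submodule of `S → K` contains all its `c`-adic limits;
* `h81k_newton`    : a pointwise root `z` of polynomials over `B` (up to every power of `c`),
  congruent modulo `c` to an element of `B` at which the derivative is a pointwise unit, lies in
  `B`; `h81k_newton_exact` is the case of one polynomial with `P(z) = 0`;
* `h81k_cramer`    : the signed maximal minors of an `n × (n+1)` matrix are in its kernel;
* `h81k_arch_of_liesOver` : `h81k_Arch A ℓ` for a place `A` over `ℓ` of a field algebraic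
  over `ℚ`.

Everything is Mathlib only.
-/

set_option autoImplicit false

open Polynomial

namespace Fermat.Agent.P5

/-- values of the elements of a module-finite function algebra are integral. -/
theorem h81k_val_mem {K : Type*} [Field K] (A : ValuationSubring K) {S : Type*}
    (B : Subalgebra A (S → K)) (hB : (Subalgebra.toSubmodule B).FG)
    {f : S → K} (hf : f ∈ B) (s : S) : f s ∈ A := by
  have h1 : IsIntegral A f := IsIntegral.of_mem_of_fg B hB f hf
  have h2 : IsIntegral A (f s) := by
    have := h1.map (Pi.evalAlgHom A (fun _ : S => K) s)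
    simpa using this
  obtain ⟨y, hy⟩ := IsIntegrallyClosed.isIntegral_iff.mp h2
  rw [← hy]; exact y.2

theorem h81k_aeval_apply {K : Type*} [Field K] (A : ValuationSubring K) {S : Type*}
    (f : S → K) (Q : A[X]) (s : S) : (aeval f Q) s = aeval (f s) Q := by
  have := Polynomial.aeval_algHom_apply (Pi.evalAlgHom A (fun _ : S => K) s) f Q
  simpa using this.symm

theorem h81k_aeval_mem {K : Type*} [Field K] (A : ValuationSubring K) {S : Type*}
    (B : Subalgebra A (S → K)) {f : S → K} (hf : f ∈ B) (Q : A[X]) : aeval f Q ∈ B := by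
  have := Subalgebra.aeval_coe B ⟨f, hf⟩ Q
  simp only at this
  rw [this]
  exact (aeval (⟨f, hf⟩ : B) Q).2

/-- pointwise units of a function algebra are units. -/
theorem h81k_inv_mem {K : Type*} [Field K] (A : ValuationSubring K) {S : Type*} [Finite S]
    (B : Subalgebra A (S → K))
    {f : S → K} (hf : f ∈ B) (hu : ∀ s, A.valuation (f s) = 1) :
    (fun s => (f s)⁻¹) ∈ B := by
  classical
  have : Fintype S := Fintype.ofFinite S
  have hne : ∀ s, f s ≠ 0 := fun s h => by
    have := hu s; rw [h, map_zero] at this; exact zero_ne_one this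
  have hA : ∀ s, f s ∈ A := fun s => A.mem_of_valuation_le_one _ (hu s).le
  have hAi : ∀ s, (f s)⁻¹ ∈ A := fun s =>
    A.mem_of_valuation_le_one _ (by rw [map_inv₀, hu s, inv_one])
  let a : S → A := fun s => ⟨f s, hA s⟩
  let ai : S → A := fun s => ⟨(f s)⁻¹, hAi s⟩
  let Q : A[X] := ∏ s, (X - C (a s))
  have hQ : aeval f Q = 0 := by
    funext s
    rw [h81k_aeval_apply]
    simp only [Q, map_prod, map_sub, aeval_X, aeval_C, Pi.zero_apply]
    apply Finset.prod_eq_zero (Finset.mem_univ s)
    show f s - algebraMap A K (a s) = 0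
    simp [a]
  have hQ2 : aeval f (Q.divX) * f + algebraMap A (S → K) (Q.coeff 0) = 0 := by
    have := congrArg (aeval f) (Polynomial.divX_mul_X_add Q)
    rw [hQ] at this
    simpa using this
  have hq0 : ((Q.coeff 0 : A) : K) = ∏ s, (- f s) := by
    rw [Polynomial.coeff_zero_eq_eval_zero]
    simp only [Q, Polynomial.eval_prod, eval_sub, eval_X, eval_C, zero_sub]
    rw [show ((∏ s, - a s : A) : K) = ∏ s, ((- a s : A) : K) from by
      simp [a]]
    rfl
  let q0i : A := ∏ s, (- ai s)
  have hq0i : (q0i : K) * ((Q.coeff 0 : A) : K) = 1 := by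
    rw [hq0]
    have : (q0i : K) = ∏ s, (- (f s)⁻¹) := by
      simp [q0i, ai]
    rw [this, ← Finset.prod_mul_distrib]
    apply Finset.prod_eq_one
    intro s _
    field_simp [hne s]
  have hg : (fun s => (f s)⁻¹) = -(q0i • aeval f (Q.divX)) := by
    funext s
    have h1 := congrFun hQ2 s
    simp only [Pi.add_apply, Pi.mul_apply, Pi.zero_apply] at h1
    have h2 : (algebraMap A (S → K) (Q.coeff 0)) s = ((Q.coeff 0 : A) : K) := rfl
    rw [h2] at h1
    simp only [Pi.neg_apply, Pi.smul_apply]
    have h3 : q0i • (aeval f Q.divX) s = (q0i : K) * (aeval f Q.divX) s := rfl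
    rw [h3]
    have h4 : (aeval f Q.divX) s = - ((Q.coeff 0 : A) : K) * (f s)⁻¹ := by
      field_simp [hne s]
      linear_combination h1
    rw [h4]
    linear_combination (-(f s)⁻¹) * hq0i
  rw [hg]
  exact B.neg_mem (B.smul_mem (h81k_aeval_mem A B hf _) q0i)

section
variable {K : Type*} [Field K] (A : ValuationSubring K)

/-- the archimedean hypothesis on `c`. -/
def h81k_Arch (c : K) : Prop :=
  c ≠ 0 ∧ A.valuation c < 1 ∧ ∀ x : K, ∃ k : ℕ, A.valuation x * A.valuation c ^ k ≤ 1

variable {A}

theorem h81k_vc_pos {c : K} (hc : h81k_Arch A c) : 0 < A.valuation c :=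
  zero_lt_iff.mpr ((Valuation.ne_zero_iff _).mpr hc.1)

theorem h81k_vc_pow_pos {c : K} (hc : h81k_Arch A c) (k : ℕ) : 0 < A.valuation c ^ k :=
  pow_pos (h81k_vc_pos hc) k

theorem h81k_pow_anti {c : K} (hc : h81k_Arch A c) {k m : ℕ} (h : k ≤ m) :
    A.valuation c ^ m ≤ A.valuation c ^ k :=
  pow_le_pow_right_of_le_one' hc.2.1.le h

theorem h81k_sep {c : K} (hc : h81k_Arch A c) {x : K}
    (hx : ∀ k : ℕ, A.valuation x ≤ A.valuation c ^ k) : x = 0 := by
  by_contra hne
  obtain ⟨k, hk⟩ := hc.2.2 x⁻¹
  rw [map_inv₀] at hk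
  have hvx : A.valuation x ≠ 0 := (Valuation.ne_zero_iff _).mpr hne
  have h1 : A.valuation c ^ k ≤ A.valuation x := by
    have := mul_le_mul_right hk (A.valuation x)
    rwa [← mul_assoc, mul_inv_cancel₀ hvx, one_mul, mul_one] at this
  have h2 : A.valuation c ^ (k + 1) < A.valuation c ^ k := by
    rw [pow_succ]
    calc A.valuation c ^ k * A.valuation c < A.valuation c ^ k * 1 :=
          mul_lt_mul_of_pos_left hc.2.1 (h81k_vc_pow_pos hc k)
      _ = A.valuation c ^ k := mul_one _
  exact absurd (lt_of_le_of_lt (h1.trans (hx (k + 1))) h2) (lt_irrefl _)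

/-- uniform bound over a finite family. -/
theorem h81k_arch_finite {c : K} (hc : h81k_Arch A c) {S : Type*} [Finite S] (x : S → K) :
    ∃ m : ℕ, ∀ s, A.valuation (x s) * A.valuation c ^ m ≤ 1 := by
  classical
  have : Fintype S := Fintype.ofFinite S
  choose k hk using fun s => hc.2.2 (x s)
  refine ⟨Finset.univ.sup k, fun s => ?_⟩
  have h1 : k s ≤ Finset.univ.sup k := Finset.le_sup (Finset.mem_univ s)
  calc A.valuation (x s) * A.valuation c ^ (Finset.univ.sup k)
      ≤ A.valuation (x s) * A.valuation c ^ (k s) :=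
        mul_le_mul_right (h81k_pow_anti hc h1) _
    _ ≤ 1 := hk s

variable (A)

/-- `g` is a `c`-adic limit of elements of `B`. -/
def h81k_Approx {S : Type*} (c : K) (B : Submodule A (S → K)) (g : S → K) : Prop :=
  ∀ k : ℕ, ∃ b ∈ B, ∀ s, A.valuation (g s - b s) ≤ A.valuation c ^ k

variable {A}

theorem h81k_smul_apply {S : Type*} (t : A) (f : S → K) (s : S) :
    (t • f) s = (t : K) * f s := rfl

theorem h81k_closed_zero {c : K} (hc : h81k_Arch A c) {S : Type*}
    {B : Submodule A (S → K)} (hB : ∀ x ∈ B, x = 0) {g : S → K}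
    (hg : h81k_Approx A c B g) : g ∈ B := by
  have : g = 0 := by
    funext s
    apply h81k_sep hc
    intro k
    obtain ⟨b, hb, hbs⟩ := hg k
    have := hbs s
    rw [hB b hb] at this
    simpa using this
  rw [this]; exact B.zero_mem

theorem h81k_closed_aux {c : K} (hc : h81k_Arch A c) {S : Type*} [Finite S] :
    ∀ (n : ℕ) (b : Fin n → (S → K)) (g : S → K),
      h81k_Approx A c (Submodule.span A (Set.range b)) g →
        g ∈ Submodule.span A (Set.range b) := by
  classical
  intro n
  induction n with
  | zero =>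
    intro b g hg
    refine h81k_closed_zero hc ?_ hg
    intro x hx
    have : Set.range b = ∅ := Set.range_eq_empty b
    rw [this, Submodule.span_empty] at hx
    exact hx
  | succ n ih =>
    intro b g hg
    by_cases h0 : ∀ i s, b i s = 0
    · refine h81k_closed_zero hc ?_ hg
      intro x hx
      induction hx using Submodule.span_induction with
      | mem x hx =>
        obtain ⟨i, rfl⟩ := hx
        funext s; exact h0 i s
      | zero => rfl
      | add x y _ _ hx hy => rw [hx, hy, add_zero]
      | smul t x _ hx => rw [hx, smul_zero]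
    · obtain ⟨i1, s0, hi1⟩ : ∃ i s, b i s ≠ 0 := by
        by_contra hcon
        apply h0; intro i s; by_contra h; exact hcon ⟨i, s, h⟩
      obtain ⟨i0, -, hmax⟩ := Finset.exists_max_image Finset.univ
        (fun i => A.valuation (b i s0)) ⟨i1, Finset.mem_univ _⟩
      have hu : b i0 s0 ≠ 0 := by
        intro hu0
        have : A.valuation (b i1 s0) ≤ A.valuation (b i0 s0) := hmax i1 (Finset.mem_univ _)
        rw [hu0, map_zero] at this
        exact hi1 ((Valuation.zero_iff _).mp (le_antisymm this zero_le))
      have hvu : A.valuation (b i0 s0) ≠ 0 := (Valuation.ne_zero_iff _).mpr hu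
      have ha : ∀ i, b i s0 / b i0 s0 ∈ A := by
        intro i
        apply A.mem_of_valuation_le_one
        rw [map_div₀]
        have h1 : A.valuation (b i s0) ≤ A.valuation (b i0 s0) := hmax i (Finset.mem_univ _)
        calc A.valuation (b i s0) / A.valuation (b i0 s0)
            ≤ A.valuation (b i0 s0) / A.valuation (b i0 s0) := by
              rw [div_eq_mul_inv, div_eq_mul_inv]
              exact mul_le_mul_left h1 _
          _ = 1 := div_self hvu
      let a : Fin (n+1) → A := fun i => ⟨b i s0 / b i0 s0, ha i⟩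
      let b' : Fin n → (S → K) := fun j => b (i0.succAbove j) - a (i0.succAbove j) • b i0
      have hβB : b i0 ∈ Submodule.span A (Set.range b) := Submodule.subset_span ⟨i0, rfl⟩
      have hB'B : Submodule.span A (Set.range b') ≤ Submodule.span A (Set.range b) := by
        apply Submodule.span_le.mpr
        rintro _ ⟨j, rfl⟩
        exact Submodule.sub_mem _ (Submodule.subset_span ⟨_, rfl⟩)
          (Submodule.smul_mem _ _ hβB)
      have hB's0 : ∀ y ∈ Submodule.span A (Set.range b'), y s0 = 0 := by
        intro y hy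
        induction hy using Submodule.span_induction with
        | mem x hx =>
          obtain ⟨j, rfl⟩ := hx
          show b (i0.succAbove j) s0 - (a (i0.succAbove j) • b i0) s0 = 0
          rw [h81k_smul_apply]
          show b (i0.succAbove j) s0 - b (i0.succAbove j) s0 / b i0 s0 * b i0 s0 = 0
          field_simp
          ring
        | zero => rfl
        | add x y _ _ hx hy => rw [Pi.add_apply, hx, hy, add_zero]
        | smul t x _ hx => rw [h81k_smul_apply, hx, mul_zero]
      have hdecomp : ∀ x ∈ Submodule.span A (Set.range b),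
          ∃ t : A, ∃ y ∈ Submodule.span A (Set.range b'), x = t • b i0 + y := by
        intro x hx
        induction hx using Submodule.span_induction with
        | mem x hx =>
          obtain ⟨i, rfl⟩ := hx
          rcases Fin.eq_self_or_eq_succAbove i0 i with h | ⟨j, h⟩
          · exact ⟨1, 0, Submodule.zero_mem _, by rw [h]; simp⟩
          · refine ⟨a i, b' j, Submodule.subset_span ⟨j, rfl⟩, ?_⟩
            show b i = a i • b i0 + (b (i0.succAbove j) - a (i0.succAbove j) • b i0)
            rw [← h]; abel
        | zero => exact ⟨0, 0, Submodule.zero_mem _, by simp⟩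
        | add x y _ _ hx hy =>
          obtain ⟨t1, y1, hy1, rfl⟩ := hx
          obtain ⟨t2, y2, hy2, rfl⟩ := hy
          exact ⟨t1 + t2, y1 + y2, Submodule.add_mem _ hy1 hy2, by rw [add_smul]; abel⟩
        | smul r x _ hx =>
          obtain ⟨t1, y1, hy1, rfl⟩ := hx
          exact ⟨r * t1, r • y1, Submodule.smul_mem _ r hy1, by rw [smul_add, mul_smul]⟩
      -- approximations
      have happ : ∀ k : ℕ, ∃ t : A, ∃ y ∈ Submodule.span A (Set.range b'),
          ∀ s, A.valuation (g s - ((t : K) * b i0 s + y s)) ≤ A.valuation c ^ k := by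
        intro k
        obtain ⟨x, hx, hxs⟩ := hg k
        obtain ⟨t, y, hy, rfl⟩ := hdecomp x hx
        exact ⟨t, y, hy, hxs⟩
      choose t y hy hty using happ
      set α : K := g s0 / b i0 s0 with hα
      have hαt : ∀ k, A.valuation (α - t k) * A.valuation (b i0 s0) ≤ A.valuation c ^ k := by
        intro k
        have h1 := hty k s0
        rw [hB's0 _ (hy k), add_zero] at h1
        have h2 : g s0 - (t k : K) * b i0 s0 = (α - t k) * b i0 s0 := by
          rw [hα]; field_simp
        rw [h2, map_mul] at h1
        exact h1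
      obtain ⟨m, hm⟩ := hc.2.2 (b i0 s0)⁻¹
      rw [map_inv₀] at hm
      have hαt' : ∀ k, A.valuation (α - t k) ≤
          A.valuation c ^ k * (A.valuation (b i0 s0))⁻¹ := by
        intro k
        have := mul_le_mul_left (hαt k) (A.valuation (b i0 s0))⁻¹
        rwa [mul_assoc, mul_inv_cancel₀ hvu, mul_one] at this
      have hαA : α ∈ A := by
        have h1 : A.valuation (α - t m) ≤ 1 :=
          (hαt' m).trans (by rw [mul_comm]; exact hm)
        have h2 : α - t m ∈ A := A.mem_of_valuation_le_one _ h1
        have := A.add_mem _ _ h2 (t m).2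
        simpa using this
      obtain ⟨m', hm'⟩ := h81k_arch_finite hc (fun s => b i0 s / b i0 s0)
      have hg' : h81k_Approx A c (Submodule.span A (Set.range b'))
          (g - (⟨α, hαA⟩ : A) • b i0) := by
        intro k
        refine ⟨y (k + m'), hy _, fun s => ?_⟩
        have e : (g - (⟨α, hαA⟩ : A) • b i0) s - y (k + m') s
            = (g s - ((t (k + m') : K) * b i0 s + y (k + m') s))
              + ((t (k + m') : K) - α) * b i0 s := by
          rw [Pi.sub_apply, h81k_smul_apply]
          show g s - α * b i0 s - y (k + m') s = _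
          ring
        rw [e]
        refine (Valuation.map_add _ _ _).trans (max_le ?_ ?_)
        · exact (hty _ s).trans (h81k_pow_anti hc (Nat.le_add_right k m'))
        · rw [map_mul, ← Valuation.map_neg, neg_sub]
          have h1 := hαt' (k + m')
          have h2 := hm' s
          simp only [map_div₀] at h2
          calc A.valuation (α - ↑(t (k + m'))) * A.valuation (b i0 s)
              ≤ (A.valuation c ^ (k + m') * (A.valuation (b i0 s0))⁻¹)
                  * A.valuation (b i0 s) := mul_le_mul_left h1 _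
            _ = A.valuation c ^ k * (A.valuation (b i0 s) / A.valuation (b i0 s0)
                  * A.valuation c ^ m') := by
                rw [pow_add, div_eq_mul_inv]; ac_rfl
            _ ≤ A.valuation c ^ k * 1 := mul_le_mul_right h2 _
            _ = A.valuation c ^ k := mul_one _
      have h3 := hB'B (ih b' _ hg')
      have h4 := Submodule.add_mem _ h3 (Submodule.smul_mem _ (⟨α, hαA⟩ : A) hβB)
      simpa using h4

/-- **closedness**: a finitely generated `A`-submodule of `S → K` (`S` finite) contains all its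
`c`-adic limits. -/
theorem h81k_closed {c : K} (hc : h81k_Arch A c) {S : Type*} [Finite S]
    {B : Submodule A (S → K)} (hB : B.FG) {g : S → K} (hg : h81k_Approx A c B g) : g ∈ B := by
  obtain ⟨n, b, rfl⟩ := Submodule.fg_iff_exists_fin_generating_family.mp hB
  exact h81k_closed_aux hc n b g hg

end

section
variable {K : Type*} [Field K] {A : ValuationSubring K}

/-- Taylor step in a valuation ring. -/
theorem h81k_step {c : K} (P : A[X]) (y z : A) (j m : ℕ)
    (hj : A.valuation ((z : K) - y) ≤ A.valuation c ^ j)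
    (hPz : A.valuation ((P.eval z : A) : K) ≤ A.valuation c ^ m)
    (hP' : A.valuation (((derivative P).eval y : A) : K) = 1) :
    A.valuation (((z : K) - y) + ((P.eval y : A) : K) / (((derivative P).eval y : A) : K))
      ≤ max (A.valuation c ^ m) (A.valuation c ^ (2 * j)) := by
  obtain ⟨k, hk⟩ := Polynomial.binomExpansion P y (z - y)
  rw [add_sub_cancel] at hk
  have hD : (((derivative P).eval y : A) : K) ≠ 0 := by
    intro h; rw [h, map_zero] at hP'; exact zero_ne_one hP'
  have hkK : ((P.eval z : A) : K) = ((P.eval y : A) : K)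
      + (((derivative P).eval y : A) : K) * ((z : K) - y) + (k : K) * ((z : K) - y) ^ 2 := by
    have := congrArg (fun a : A => (a : K)) hk
    simpa using this
  have e : ((z : K) - y) + ((P.eval y : A) : K) / (((derivative P).eval y : A) : K)
      = (((P.eval z : A) : K) - (k : K) * ((z : K) - y) ^ 2)
          / (((derivative P).eval y : A) : K) := by
    rw [hkK]; field_simp; ring
  rw [e, map_div₀, hP', div_one]
  refine (Valuation.map_sub _ _ _).trans (max_le_max hPz ?_)
  rw [map_mul, map_pow, two_mul, pow_add, pow_two]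
  have hk1 : A.valuation (k : K) ≤ 1 := (A.valuation_le_one_iff _).mpr k.2
  calc A.valuation (k : K) * (A.valuation ((z : K) - y) * A.valuation ((z : K) - y))
      ≤ 1 * (A.valuation c ^ j * A.valuation c ^ j) :=
        mul_le_mul' hk1 (mul_le_mul' hj hj)
    _ = A.valuation c ^ j * A.valuation c ^ j := one_mul _

theorem h81k_unit_of_close (Q : A[X]) (y y0 : A)
    (h : A.valuation ((y : K) - y0) < 1)
    (h0 : A.valuation ((Q.eval y0 : A) : K) = 1) :
    A.valuation ((Q.eval y : A) : K) = 1 := by
  obtain ⟨w, hw⟩ := Polynomial.evalSubFactor Q y y0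
  have hwK : ((Q.eval y : A) : K) - ((Q.eval y0 : A) : K) = (w : K) * ((y : K) - y0) := by
    have := congrArg (fun a : A => (a : K)) hw
    simpa using this
  have h1 : A.valuation (((Q.eval y : A) : K) - ((Q.eval y0 : A) : K)) < 1 := by
    rw [hwK, map_mul]
    have hw1 : A.valuation (w : K) ≤ 1 := (A.valuation_le_one_iff _).mpr w.2
    calc A.valuation (w : K) * A.valuation ((y : K) - y0)
        ≤ 1 * A.valuation ((y : K) - y0) := mul_le_mul' hw1 le_rfl
      _ = A.valuation ((y : K) - y0) := one_mul _
      _ < 1 := h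
  have h2 : ((Q.eval y : A) : K)
      = ((Q.eval y0 : A) : K) + (((Q.eval y : A) : K) - ((Q.eval y0 : A) : K)) := by ring
  rw [h2, Valuation.map_add_eq_of_lt_left _ (by rw [h0]; exact h1), h0]

end

section
variable {K : Type*} [Field K] {A : ValuationSubring K}

/-- evaluation at a point, with values in `A`. -/
def h81k_ev {S : Type*} (B : Subalgebra A (S → K)) (hB : (Subalgebra.toSubmodule B).FG)
    (s : S) : ↥B →+* A where
  toFun f := ⟨(f : S → K) s, h81k_val_mem A B hB f.2 s⟩
  map_one' := rfl
  map_mul' _ _ := rfl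
  map_zero' := rfl
  map_add' _ _ := rfl

theorem h81k_ev_coe {S : Type*} (B : Subalgebra A (S → K)) (hB : (Subalgebra.toSubmodule B).FG)
    (s : S) (f : ↥B) : ((h81k_ev B hB s f : A) : K) = (f : S → K) s := rfl

theorem h81k_ev_eval {S : Type*} (B : Subalgebra A (S → K))
    (hB : (Subalgebra.toSubmodule B).FG) (s : S) (P : Polynomial ↥B) (y : ↥B) :
    h81k_ev B hB s (P.eval y) = (P.map (h81k_ev B hB s)).eval (h81k_ev B hB s y) := by
  rw [Polynomial.eval_map, Polynomial.eval₂_hom]

/-- **Newton**: approximate pointwise roots lie in the algebra. -/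
theorem h81k_newton {c : K} (hc : h81k_Arch A c) {S : Type*} [Finite S]
    (B : Subalgebra A (S → K)) (hB : (Subalgebra.toSubmodule B).FG)
    (z : S → A) (y0 : ↥B)
    (hz : ∀ s, A.valuation ((z s : K) - (y0 : S → K) s) ≤ A.valuation c)
    (hP : ∀ m : ℕ, ∃ P : Polynomial ↥B,
      (∀ s, A.valuation ((((P.map (h81k_ev B hB s)).eval (z s) : A)) : K)
        ≤ A.valuation c ^ m) ∧
      (∀ s, A.valuation (((((derivative P).map (h81k_ev B hB s)).eval
        (h81k_ev B hB s y0) : A)) : K) = 1)) :
    (fun s => (z s : K)) ∈ B := by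
  have key : ∀ k : ℕ, ∃ y : ↥B,
      ∀ s, A.valuation ((z s : K) - (y : S → K) s) ≤ A.valuation c ^ (k + 1) := by
    intro k
    induction k with
    | zero => exact ⟨y0, fun s => by simpa using hz s⟩
    | succ k ih =>
      obtain ⟨y, hy⟩ := ih
      obtain ⟨P, hP1, hP2⟩ := hP (k + 2)
      have hclose : ∀ s, A.valuation (((h81k_ev B hB s y : A) : K)
          - ((h81k_ev B hB s y0 : A) : K)) < 1 := by
        intro s
        rw [h81k_ev_coe, h81k_ev_coe]
        have e : (y : S → K) s - (y0 : S → K) s
            = ((z s : K) - (y0 : S → K) s) - ((z s : K) - (y : S → K) s) := by ring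
        rw [e]
        refine lt_of_le_of_lt ((Valuation.map_sub _ _ _).trans (max_le (hz s) ?_)) hc.2.1
        calc A.valuation ((z s : K) - (y : S → K) s) ≤ A.valuation c ^ (k + 1) := hy s
          _ ≤ A.valuation c ^ 1 := h81k_pow_anti hc (Nat.le_add_left 1 k)
          _ = A.valuation c := pow_one _
      have hunit : ∀ s, A.valuation (((((derivative P).map (h81k_ev B hB s)).eval
          (h81k_ev B hB s y) : A)) : K) = 1 := fun s =>
        h81k_unit_of_close _ _ _ (hclose s) (hP2 s)
      have hmapder : ∀ s, (derivative P).map (h81k_ev B hB s)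
          = derivative (P.map (h81k_ev B hB s)) := fun s => (Polynomial.derivative_map _ _).symm
      set D : ↥B := (derivative P).eval y with hD
      have hDs : ∀ s, (D : S → K) s
          = ((((derivative P).map (h81k_ev B hB s)).eval (h81k_ev B hB s y) : A) : K) := by
        intro s
        rw [← h81k_ev_eval, h81k_ev_coe]
      have hDu : ∀ s, A.valuation ((D : S → K) s) = 1 := fun s => by rw [hDs]; exact hunit s
      have hDinv := h81k_inv_mem A B D.2 hDu
      refine ⟨y - P.eval y * ⟨_, hDinv⟩, fun s => ?_⟩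
      have e1 : ((y - P.eval y * ⟨_, hDinv⟩ : ↥B) : S → K) s
          = (y : S → K) s - ((P.eval y : ↥B) : S → K) s * ((D : S → K) s)⁻¹ := rfl
      have e2 : ((P.eval y : ↥B) : S → K) s
          = (((P.map (h81k_ev B hB s)).eval (h81k_ev B hB s y) : A) : K) := by
        rw [← h81k_ev_eval, h81k_ev_coe]
      have hstep := h81k_step (c := c) (P.map (h81k_ev B hB s)) (h81k_ev B hB s y) (z s)
        (k + 1) (k + 2) (by rw [h81k_ev_coe]; exact hy s) (hP1 s)
        (by rw [← hmapder]; exact hunit s)
      rw [← hmapder, ← hDs, ← e2, h81k_ev_coe] at hstep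
      have e3 : (z s : K) - ((y - P.eval y * ⟨_, hDinv⟩ : ↥B) : S → K) s
          = (z s : K) - (y : S → K) s
            + ((P.eval y : ↥B) : S → K) s / (D : S → K) s := by
        rw [e1, div_eq_mul_inv]; ring
      rw [e3]
      refine hstep.trans (max_le le_rfl ?_)
      exact h81k_pow_anti hc (by omega)
  refine h81k_closed hc hB ?_
  intro k
  obtain ⟨y, hy⟩ := key k
  exact ⟨y, y.2, fun s => (hy s).trans (h81k_pow_anti hc (Nat.le_succ k))⟩

/-- **Newton, exact form**: a pointwise root of a polynomial over `B`, congruent modulo `c` to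
an element of `B` at which the derivative is a pointwise unit, lies in `B`. -/
theorem h81k_newton_exact {c : K} (hc : h81k_Arch A c) {S : Type*} [Finite S]
    (B : Subalgebra A (S → K)) (hB : (Subalgebra.toSubmodule B).FG)
    (z : S → A) (y0 : ↥B) (P : Polynomial ↥B)
    (hz : ∀ s, A.valuation ((z s : K) - (y0 : S → K) s) ≤ A.valuation c)
    (hP1 : ∀ s, (P.map (h81k_ev B hB s)).eval (z s) = 0)
    (hP2 : ∀ s, A.valuation (((((derivative P).map (h81k_ev B hB s)).eval
        (h81k_ev B hB s y0) : A)) : K) = 1) :
    (fun s => (z s : K)) ∈ B :=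
  h81k_newton hc B hB z y0 hz (fun m => ⟨P, fun s => by rw [hP1 s]; simp, hP2⟩)

end

theorem h81k_mem_of_isIntegral_int {K : Type*} [Field K] (A : ValuationSubring K) {a : K}
    (h : IsIntegral ℤ a) : a ∈ A := by
  have h1 : IsIntegral A a := h.tower_top
  obtain ⟨y, hy⟩ := IsIntegrallyClosed.isIntegral_iff.mp h1
  rw [← hy]; exact y.2

theorem h81k_val_int_le {K : Type*} [Field K] (A : ValuationSubring K) (n : ℤ) :
    A.valuation (n : K) ≤ 1 := (A.valuation_le_one_iff _).mpr (intCast_mem A n)

/-- an integer prime to `ℓ` is a unit at a place over `ℓ`. -/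
theorem h81k_val_coprime {K : Type*} [Field K] (A : ValuationSubring K) {ℓ : ℕ}
    (hA : ((ℓ : ℕ) : K) ∈ A.nonunits) (hℓ : ℓ.Prime) {m : ℕ} (hm : ¬ ℓ ∣ m) :
    A.valuation ((m : ℕ) : K) = 1 := by
  have hl : A.valuation ((ℓ : ℕ) : K) < 1 := (ValuationSubring.mem_nonunits_iff A).mp hA
  have hcop : IsCoprime (ℓ : ℤ) (m : ℤ) :=
    Nat.Coprime.isCoprime ((Nat.Prime.coprime_iff_not_dvd hℓ).mpr hm)
  obtain ⟨u, w, huw⟩ := hcop
  have hK : (u : K) * (ℓ : K) + (w : K) * (m : K) = 1 := by
    have := congrArg (fun t : ℤ => (t : K)) huw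
    simpa using this
  refine le_antisymm ?_ ?_
  · have := h81k_val_int_le A (m : ℤ)
    simp only [Int.cast_natCast] at this
    exact this
  · by_contra hlt
    rw [not_le] at hlt
    have h1 : A.valuation ((u : K) * (ℓ : K)) < 1 := by
      rw [map_mul]
      calc A.valuation (u : K) * A.valuation ((ℓ : ℕ) : K)
          ≤ 1 * A.valuation ((ℓ : ℕ) : K) := mul_le_mul' (h81k_val_int_le A u) le_rfl
        _ = A.valuation ((ℓ : ℕ) : K) := one_mul _
        _ < 1 := hl
    have h2 : A.valuation ((w : K) * (m : K)) < 1 := by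
      rw [map_mul]
      calc A.valuation (w : K) * A.valuation ((m : ℕ) : K)
          ≤ 1 * A.valuation ((m : ℕ) : K) := mul_le_mul' (h81k_val_int_le A w) le_rfl
        _ = A.valuation ((m : ℕ) : K) := one_mul _
        _ < 1 := hlt
    have h3 : A.valuation (1 : K) < 1 := by
      rw [← hK]
      exact lt_of_le_of_lt (Valuation.map_add _ _ _) (max_lt h1 h2)
    rw [map_one] at h3
    exact lt_irrefl _ h3

/-- **the archimedean property at a place over `ℓ`** of a field algebraic over `ℚ`. -/
theorem h81k_arch_of_liesOver {K : Type*} [Field K] [CharZero K] [Algebra ℚ K]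
    [Algebra.IsAlgebraic ℚ K] (A : ValuationSubring K) {ℓ : ℕ} (hℓ : ℓ.Prime)
    (hA : ((ℓ : ℕ) : K) ∈ A.nonunits) : h81k_Arch A ((ℓ : ℕ) : K) := by
  refine ⟨by exact_mod_cast hℓ.ne_zero, (ValuationSubring.mem_nonunits_iff A).mp hA, ?_⟩
  intro x
  have hx : IsAlgebraic ℤ x :=
    (IsFractionRing.isAlgebraic_iff ℤ ℚ K).mpr (Algebra.IsAlgebraic.isAlgebraic x)
  obtain ⟨d, hd0, hd⟩ := hx.exists_integral_multiple
  have hdx : (d : K) * x ∈ A := by
    have := h81k_mem_of_isIntegral_int A hd
    rwa [zsmul_eq_mul] at this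
  obtain ⟨e, m, hm, hdm⟩ := Nat.exists_eq_pow_mul_and_not_dvd
    (Int.natAbs_ne_zero.mpr hd0) ℓ hℓ.ne_one
  have hvd : A.valuation (d : K) = A.valuation ((ℓ : ℕ) : K) ^ e := by
    have h1 : A.valuation (d : K) = A.valuation ((d.natAbs : ℕ) : K) := by
      rcases Int.natAbs_eq d with h | h
      · conv_lhs => rw [h]
        simp
      · conv_lhs => rw [h]
        simp
    rw [h1, hdm]
    push_cast
    rw [map_mul, map_pow, h81k_val_coprime A hA hℓ hm, mul_one]
  refine ⟨e, ?_⟩
  rw [← hvd, mul_comm, ← map_mul]
  exact (A.valuation_le_one_iff _).mpr hdx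

/-- **Cramer**: the signed maximal minors of an `n × (n+1)` matrix are in its kernel. -/
theorem h81k_cramer {R : Type*} [CommRing R] {n : ℕ} (M : Matrix (Fin n) (Fin (n + 1)) R)
    (i : Fin n) :
    ∑ j : Fin (n + 1), M i j * ((-1) ^ (j : ℕ) * (M.submatrix id j.succAbove).det) = 0 := by
  let N : Matrix (Fin (n + 1)) (Fin (n + 1)) R :=
    Matrix.of fun a b => Fin.cases (motive := fun _ => R) (M i b) (fun k => M k b) a
  have hN0 : ∀ b, N 0 b = M i b := fun b => rfl
  have hNs : ∀ k b, N (Fin.succ k) b = M k b := fun k b => rfl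
  have h0 : N.det = 0 :=
    Matrix.det_zero_of_row_eq (i := 0) (j := i.succ) (Fin.succ_ne_zero i).symm (by
      funext j; rw [hN0, hNs])
  rw [Matrix.det_succ_row_zero] at h0
  rw [← h0]
  apply Finset.sum_congr rfl
  intro j _
  have : N.submatrix Fin.succ j.succAbove = M.submatrix id j.succAbove := by
    ext a b; simp only [Matrix.submatrix_apply, hNs, id]
  rw [this, hN0]
  ring

end Fermat.Agent.P5
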