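import Mathlib

/-!
# P5 (wave 5, pillar (P)), block GEO-RR: cohomology and base change for a two-chart Cech pair
over a discrete valuation ring (helper82)

Mathlib only.  `O` a ring with an element `π` (later a DVR with uniformiser `π`), `V` an
`O`-module (think `V = B[1/j]`, the functions on the overlap of the two charts), `L0 L1` two
`O`-submodules (think `L0 = B(D)`, `L1 = B_∞(D)`).  `H⁰ = L0 ⊓ L1`, `H¹ = V ⧸ (L0 ⊔ L1)`.

* `h82gSat π L` : `L` is `π`-saturated in `V`.
* `h82gLift π L0 L1` : the lifting property (a class modulo `π` common to `L0` and `L1` comes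
  from `L0 ⊓ L1`).
* `h82g_sat_sup_of_lift`, `h82g_lift_of_sat_sup` : lifting property `↔` `H¹` has no `π`-torsion.
* `h82g_fg_quot` : `H¹` is finitely generated (generators `j ^ (-n) e`, `0 < n < d`).
* `h82g_free` : over a DVR a finitely generated module without `π`-torsion is free.
* `h82g_finrank_generic`, `h82g_finrank_special`, `h82g_genus_eq` : the dimension of the `H¹`
  of the generic fibre equals the dimension of the `H¹` of the special fibre.
* `h82g_vanish`, `h82g_lift_of_vanish`, `h82g_lift_red` : if the `H¹` of the special fibre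
  vanishes then `H¹ = 0` and every section of the special fibre lifts.
* `h82g_semicont`, `h82g_finrank_sections`, `h82g_sections_eq` : semicontinuity
  `ℓ(D) ≤ ℓ~(D~)`, with equality under the lifting property.
* `h82g_genus_eq_pair` : GENUS-EQ in the two-chart form.
-/

set_option autoImplicit false
set_option linter.unusedSectionVars false
set_option linter.style.haveILetI false
set_option linter.unusedVariables false

namespace Fermat.Agent.P5

open Module

section Core

variable {O : Type*} [CommRing O] (π : O)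
variable {V : Type*} [AddCommGroup V] [Module O V]

/-- `L` is `π`-saturated in `V`. -/
def h82gSat (L : Submodule O V) : Prop := ∀ v : V, π • v ∈ L → v ∈ L

/-- the lifting property: a class modulo `π` common to `L0` and `L1` comes from `L0 ⊓ L1`. -/
def h82gLift (L0 L1 : Submodule O V) : Prop :=
  ∀ a ∈ L0, ∀ b ∈ L1, (∃ w : V, a - b = π • w) → ∃ c ∈ L0 ⊓ L1, ∃ a' ∈ L0, a = c + π • a'

variable {π}

/-- lifting property `⇒` `V ⧸ (L0 ⊔ L1)` has no `π`-torsion. -/
theorem h82g_sat_sup_of_lift {L0 L1 : Submodule O V} (h1 : h82gSat π L1)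
    (hl : h82gLift π L0 L1) : h82gSat π (L0 ⊔ L1) := by
  intro v hv
  obtain ⟨a, ha, b, hb, hab⟩ := Submodule.mem_sup.mp hv
  obtain ⟨c, hc, a', ha', hca⟩ := hl a ha (-b) (L1.neg_mem hb) ⟨v, by rw [sub_neg_eq_add, hab]⟩
  have h2 : π • (v - a') ∈ L1 := by
    have : π • (v - a') = c + b := by
      rw [smul_sub, ← hab, hca]; abel
    rw [this]
    exact L1.add_mem hc.2 hb
  have h3 := h1 _ h2
  have : v = a' + (v - a') := by abel
  rw [this]
  exact Submodule.add_mem_sup ha' h3

/-- `V ⧸ (L0 ⊔ L1)` has no `π`-torsion `⇒` lifting property. -/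
theorem h82g_lift_of_sat_sup {L0 L1 : Submodule O V} (h : h82gSat π (L0 ⊔ L1)) :
    h82gLift π L0 L1 := by
  intro a ha b hb ⟨w, hw⟩
  have hw' : π • w ∈ L0 ⊔ L1 := by
    rw [← hw, sub_eq_add_neg]
    exact Submodule.add_mem_sup ha (L1.neg_mem hb)
  obtain ⟨a', ha', b', hb', hab⟩ := Submodule.mem_sup.mp (h w hw')
  refine ⟨a - π • a', ⟨L0.sub_mem ha (L0.smul_mem π ha'), ?_⟩, a', ha', by abel⟩
  have : a - π • a' = b + π • b' := by
    have e : π • w = π • a' + π • b' := by rw [← smul_add, hab]
    have e2 : a = b + π • w := by rw [← hw]; abel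
    rw [e2, e]; abel
  rw [this]
  exact L1.add_mem hb (L1.smul_mem π hb')

/-- saturation of an intersection. -/
theorem h82g_sat_inf {L0 L1 : Submodule O V} (h0 : h82gSat π L0) (h1 : h82gSat π L1) :
    h82gSat π (L0 ⊓ L1) := fun v hv => ⟨h0 v hv.1, h1 v hv.2⟩

/-- saturation for powers of `π`. -/
theorem h82g_sat_pow {L : Submodule O V} (h : h82gSat π L) (n : ℕ) (v : V)
    (hv : π ^ n • v ∈ L) : v ∈ L := by
  induction n with
  | zero => simpa using hv
  | succ n ih =>
    apply ih
    apply h
    rwa [smul_smul, ← pow_succ']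

end Core

/-! ## Finite generation of `H¹` -/

section FG

variable {O : Type*} [CommRing O]
variable {V : Type*} [AddCommGroup V] [Module O V]

/-- stability of `L0` under the natural powers of `J`. -/
theorem h82g_pow_mem (J : V ≃ₗ[O] V) (L : Submodule O V) (hJ : ∀ x ∈ L, J x ∈ L)
    (n : ℕ) (x : V) (hx : x ∈ L) : (J ^ (n : ℤ)) x ∈ L := by
  induction n with
  | zero => simpa using hx
  | succ n ih =>
    have : (J ^ ((n + 1 : ℕ) : ℤ)) x = J ((J ^ (n : ℤ)) x) := by
      rw [Nat.cast_succ, add_comm, zpow_add, zpow_one]; rfl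
    rw [this]
    exact hJ _ ih

/-- stability of `L1` under the negative powers of `J`. -/
theorem h82g_neg_pow_mem (J : V ≃ₗ[O] V) (L : Submodule O V) (hJ : ∀ x ∈ L, J.symm x ∈ L)
    (n : ℕ) (x : V) (hx : x ∈ L) : (J ^ (-(n : ℤ))) x ∈ L := by
  induction n with
  | zero => simpa using hx
  | succ n ih =>
    have : (J ^ (-((n + 1 : ℕ) : ℤ))) x = J.symm ((J ^ (-(n : ℤ))) x) := by
      rw [Nat.cast_succ, neg_add, add_comm, zpow_add, zpow_neg_one]; rfl
    rw [this]
    exact hJ _ ih

/-- **finite generation of `H¹ = V ⧸ (L0 ⊔ L1)`**: `L0` is generated over `O[J]` by the finite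
set `E`, `L1` is stable under `J⁻¹`, `V = ⋃ J ^ (-n) L0` and `J ^ (-d) e ∈ L1` for `d` large. -/
theorem h82g_fg_quot (J : V ≃ₗ[O] V) (L0 L1 : Submodule O V) (E : Finset V)
    (hgen : L0 ≤ Submodule.span O {y | ∃ e ∈ E, ∃ n : ℕ, y = (J ^ (n : ℤ)) e})
    (hJ0 : ∀ x ∈ L0, J x ∈ L0) (hE0 : ∀ e ∈ E, e ∈ L0)
    (hJ1 : ∀ x ∈ L1, J.symm x ∈ L1)
    (hexh : ∀ v : V, ∃ n : ℕ, (J ^ (n : ℤ)) v ∈ L0)
    (hE1 : ∀ e ∈ E, ∃ d : ℕ, (J ^ (-(d : ℤ))) e ∈ L1) :
    Module.Finite O (V ⧸ (L0 ⊔ L1)) := by
  classical
  -- a uniform bound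
  obtain ⟨D, hD⟩ : ∃ D : ℕ, ∀ e ∈ E, ∀ n : ℕ, D ≤ n → (J ^ (-(n : ℤ))) e ∈ L1 := by
    choose! d hd using hE1
    refine ⟨E.sup d, fun e he n hn => ?_⟩
    have h1 : d e ≤ n := (Finset.le_sup he).trans hn
    obtain ⟨k, rfl⟩ := Nat.exists_eq_add_of_le h1
    have : (J ^ (-((d e + k : ℕ) : ℤ))) e = (J ^ (-(k : ℤ))) ((J ^ (-(d e : ℤ))) e) := by
      rw [Nat.cast_add, neg_add, add_comm, zpow_add]; rfl
    rw [this]
    exact h82g_neg_pow_mem J L1 hJ1 k _ (hd e he)
  set G : Finset V := (E ×ˢ Finset.range D).image (fun p => (J ^ (-(p.2 : ℤ))) p.1) with hG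
  set T : Submodule O V := L0 ⊔ L1 ⊔ Submodule.span O (G : Set V) with hT
  have hL0T : L0 ≤ T := le_sup_left.trans le_sup_left
  have hL1T : L1 ≤ T := le_sup_right.trans le_sup_left
  have hGT : ∀ g ∈ G, g ∈ T := fun g hg =>
    (le_sup_right : Submodule.span O (G : Set V) ≤ T) (Submodule.subset_span hg)
  -- every integral power of `J` applied to a generator lies in `T`
  have key : ∀ e ∈ E, ∀ m : ℤ, (J ^ m) e ∈ T := by
    intro e he m
    rcases le_or_gt 0 m with hm | hm
    · obtain ⟨n, rfl⟩ := Int.eq_ofNat_of_zero_le hm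
      exact hL0T (h82g_pow_mem J L0 hJ0 n e (hE0 e he))
    · obtain ⟨n, rfl⟩ : ∃ n : ℕ, m = -(n : ℤ) := ⟨m.natAbs, by omega⟩
      rcases le_or_gt D n with hn | hn
      · exact hL1T (hD e he n hn)
      · apply hGT
        rw [hG, Finset.mem_image]
        exact ⟨(e, n), Finset.mem_product.mpr ⟨he, Finset.mem_range.mpr hn⟩, rfl⟩
  have key2 : ∀ x ∈ Submodule.span O {y | ∃ e ∈ E, ∃ n : ℕ, y = (J ^ (n : ℤ)) e},
      ∀ n : ℕ, (J ^ (-(n : ℤ))) x ∈ T := by
    intro x hx n
    induction hx using Submodule.span_induction with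
    | mem y hy =>
      obtain ⟨e, he, k, rfl⟩ := hy
      have : (J ^ (-(n : ℤ))) ((J ^ (k : ℤ)) e) = (J ^ (-(n : ℤ) + k)) e := by
        rw [zpow_add]; rfl
      rw [this]
      exact key e he _
    | zero => rw [map_zero]; exact T.zero_mem
    | add y z _ _ hy hz => rw [map_add]; exact T.add_mem hy hz
    | smul a y _ hy => rw [map_smul]; exact T.smul_mem a hy
  have htop : ∀ v : V, v ∈ T := by
    intro v
    obtain ⟨n, hn⟩ := hexh v
    have h := key2 _ (hgen hn) n
    have e : (J ^ (-(n : ℤ))) ((J ^ (n : ℤ)) v) = v := by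
      have : (J ^ (-(n : ℤ))) ((J ^ (n : ℤ)) v) = (J ^ (-(n : ℤ) + n)) v := by
        rw [zpow_add]; rfl
      rw [this, neg_add_cancel, zpow_zero]; rfl
    rwa [e] at h
  rw [Module.finite_def, Submodule.fg_def]
  refine ⟨(L0 ⊔ L1).mkQ '' (G : Set V), (Finset.finite_toSet G).image _, ?_⟩
  rw [eq_top_iff]
  rintro q -
  obtain ⟨v, rfl⟩ := Submodule.Quotient.mk_surjective _ q
  obtain ⟨l, hl, g, hg, rfl⟩ := Submodule.mem_sup.mp (htop v)
  have : (Submodule.Quotient.mk (l + g) : V ⧸ (L0 ⊔ L1)) = (L0 ⊔ L1).mkQ g := by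
    rw [Submodule.Quotient.mk_add, (Submodule.Quotient.mk_eq_zero _).mpr hl, zero_add]; rfl
  rw [this, ← Submodule.map_span]
  exact Submodule.mem_map_of_mem hg

end FG

/-! ## Over a discrete valuation ring -/

section DVR

variable {O : Type*} [CommRing O] [IsDomain O] [IsDiscreteValuationRing O] {π : O}

/-- no `π`-torsion `⇒` torsion free. -/
theorem h82g_torsionFree (hπ : Irreducible π) (M : Type*) [AddCommGroup M] [Module O M]
    (htf : ∀ m : M, π • m = 0 → m = 0) : Module.IsTorsionFree O M := by
  rw [Module.isTorsionFree_iff_smul_eq_zero]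
  intro r m hrm
  by_cases hr : r = 0
  · exact Or.inl hr
  right
  obtain ⟨n, u, hu⟩ := IsDiscreteValuationRing.associated_pow_irreducible hr hπ
  have h1 : π ^ n • m = 0 := by
    rw [← hu, mul_comm, mul_smul, hrm, smul_zero]
  clear hu hrm
  induction n with
  | zero => simpa using h1
  | succ n ih =>
    apply ih
    apply htf
    rwa [smul_smul, ← pow_succ']

/-- **over a DVR a finitely generated module without `π`-torsion is free.** -/
theorem h82g_free (hπ : Irreducible π) (M : Type*) [AddCommGroup M] [Module O M]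
    [Module.Finite O M] (htf : ∀ m : M, π • m = 0 → m = 0) : Module.Free O M := by
  haveI := h82g_torsionFree hπ M htf
  exact Module.free_of_finite_type_torsion_free'

variable {V : Type*} [AddCommGroup V] [Module O V]

/-- the quotient by a `π`-saturated submodule has no `π`-torsion. -/
theorem h82g_quot_tf {N : Submodule O V} (hsat : h82gSat π N) (m : V ⧸ N) (hm : π • m = 0) :
    m = 0 := by
  obtain ⟨v, rfl⟩ := Submodule.Quotient.mk_surjective _ m
  rw [← Submodule.Quotient.mk_smul, Submodule.Quotient.mk_eq_zero] at hm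
  exact (Submodule.Quotient.mk_eq_zero _).mpr (hsat v hm)

/-- **`H¹` is free** (finitely generated, no `π`-torsion). -/
theorem h82g_quot_free (hπ : Irreducible π) (N : Submodule O V) [Module.Finite O (V ⧸ N)]
    (hsat : h82gSat π N) : Module.Free O (V ⧸ N) :=
  h82g_free hπ _ (h82g_quot_tf hsat)

/-- every element of the fraction field is `c / π ^ k`. -/
theorem h82g_frac (hπ : Irreducible π) {K : Type*} [Field K] [Algebra O K] [IsFractionRing O K]
    (a : K) : ∃ (k : ℕ) (c : O), algebraMap O K (π ^ k) * a = algebraMap O K c := by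
  obtain ⟨x, y, hy, rfl⟩ := IsFractionRing.div_surjective O a
  have hy0 : y ≠ 0 := nonZeroDivisors.ne_zero hy
  obtain ⟨k, u, hu⟩ := IsDiscreteValuationRing.associated_pow_irreducible hy0 hπ
  have hyK : algebraMap O K y ≠ 0 := by
    intro h
    exact hy0 ((IsFractionRing.injective O K) (by rw [h, map_zero]))
  refine ⟨k, (u : O) * x, ?_⟩
  rw [← hu, map_mul, map_mul]
  field_simp

/-- common denominator of a finite family. -/
theorem h82g_frac_family (hπ : Irreducible π) {K : Type*} [Field K] [Algebra O K]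
    [IsFractionRing O K] {ι : Type*} [Fintype ι] (g : ι → K) :
    ∃ (k : ℕ) (c : ι → O), ∀ i, algebraMap O K (π ^ k) * g i = algebraMap O K (c i) := by
  classical
  choose kk cc h using fun i => h82g_frac hπ (g i)
  refine ⟨Finset.univ.sup kk, fun i => π ^ (Finset.univ.sup kk - kk i) * cc i, fun i => ?_⟩
  have hle : kk i ≤ Finset.univ.sup kk := Finset.le_sup (Finset.mem_univ i)
  have : π ^ (Finset.univ.sup kk) = π ^ (Finset.univ.sup kk - kk i) * π ^ kk i := by
    rw [← pow_add, Nat.sub_add_cancel hle]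
  rw [this, map_mul, mul_assoc, h i, ← map_mul]

end DVR

/-! ## The two fibres -/

section Fibres

variable {O : Type*} [CommRing O] [IsDomain O] [IsDiscreteValuationRing O] {π : O}
variable {V : Type*} [AddCommGroup V] [Module O V]

/-- lifts of a basis of the quotient. -/
theorem h82g_basis_lift (N : Submodule O V) {ι : Type*} [Fintype ι]
    (b : Module.Basis ι O (V ⧸ N)) :
    ∃ v : ι → V, (∀ i, (Submodule.Quotient.mk (v i) : V ⧸ N) = b i) ∧
      (∀ x : V, ∃ c : ι → O, x - ∑ i, c i • v i ∈ N) ∧
      (∀ c : ι → O, ∑ i, c i • v i ∈ N → ∀ i, c i = 0) := by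
  choose v hv using fun i => Submodule.Quotient.mk_surjective N (b i)
  refine ⟨v, hv, fun x => ?_, fun c hc => ?_⟩
  · refine ⟨fun i => b.repr (Submodule.Quotient.mk x) i, ?_⟩
    rw [← Submodule.Quotient.mk_eq_zero, Submodule.Quotient.mk_sub]
    have : (Submodule.Quotient.mk (∑ i, (b.repr (Submodule.Quotient.mk x)) i • v i) : V ⧸ N)
        = ∑ i, (b.repr (Submodule.Quotient.mk x)) i • b i := by
      rw [← Submodule.mkQ_apply, map_sum]
      refine Finset.sum_congr rfl fun i _ => ?_
      rw [map_smul, Submodule.mkQ_apply, hv]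
    rw [this, b.sum_repr, sub_self]
  · have h1 : (Submodule.Quotient.mk (∑ i, c i • v i) : V ⧸ N) = ∑ i, c i • b i := by
      rw [← Submodule.mkQ_apply, map_sum]
      refine Finset.sum_congr rfl fun i _ => ?_
      rw [map_smul, Submodule.mkQ_apply, hv]
    have h2 : ∑ i, c i • b i = 0 := by
      rw [← h1]; exact (Submodule.Quotient.mk_eq_zero _).mpr hc
    exact Fintype.linearIndependent_iff.mp b.linearIndependent c h2

/-- elements of the `K`-span of the image of a submodule. -/
theorem h82g_span_generic (hπ : Irreducible π) (N : Submodule O V)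
    {K : Type*} [Field K] [Algebra O K] [IsFractionRing O K]
    {W : Type*} [AddCommGroup W] [Module O W] [Module K W] [IsScalarTower O K W]
    (ι : V →ₗ[O] W) (s : W) (hs : s ∈ Submodule.span K (ι '' (N : Set V))) :
    ∃ (m : ℕ) (x : V), x ∈ N ∧ (π ^ m) • s = ι x := by
  induction hs using Submodule.span_induction with
  | mem y hy =>
    obtain ⟨x, hx, rfl⟩ := hy
    exact ⟨0, x, hx, by simp⟩
  | zero => exact ⟨0, 0, N.zero_mem, by simp⟩
  | add y z _ _ hy hz =>
    obtain ⟨m1, x1, hx1, e1⟩ := hy
    obtain ⟨m2, x2, hx2, e2⟩ := hz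
    refine ⟨m1 + m2, π ^ m2 • x1 + π ^ m1 • x2,
      N.add_mem (N.smul_mem _ hx1) (N.smul_mem _ hx2), ?_⟩
    rw [smul_add, map_add, map_smul, map_smul, ← e1, ← e2, smul_smul, smul_smul, ← pow_add,
      ← pow_add, add_comm m2 m1]
  | smul a y _ hy =>
    obtain ⟨m, x, hx, e⟩ := hy
    obtain ⟨k, c, hc⟩ := h82g_frac hπ (K := K) a
    refine ⟨k + m, c • x, N.smul_mem _ hx, ?_⟩
    rw [map_smul, ← e, pow_add, mul_smul, ← algebraMap_smul K (π ^ k) (π ^ m • a • y),
      smul_comm (π ^ m) a y, smul_smul, hc, algebraMap_smul]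

/-- **the `H¹` of the generic fibre**: its dimension is the rank of `V ⧸ N`. -/
theorem h82g_finrank_generic (hπ : Irreducible π) (N : Submodule O V)
    [Module.Finite O (V ⧸ N)] (hsat : h82gSat π N)
    {K : Type*} [Field K] [Algebra O K] [IsFractionRing O K]
    {W : Type*} [AddCommGroup W] [Module O W] [Module K W] [IsScalarTower O K W]
    (ι : V →ₗ[O] W) (hι : Function.Injective ι)
    (hW : ∀ w : W, ∃ (n : ℕ) (v : V), (π ^ n) • w = ι v) :
    Module.finrank K (W ⧸ Submodule.span K (ι '' (N : Set V))) = Module.finrank O (V ⧸ N) := by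
  classical
  haveI := h82g_quot_free hπ N hsat
  set b := Module.Free.chooseBasis O (V ⧸ N) with hb
  obtain ⟨v, hv, hgen, hind⟩ := h82g_basis_lift N b
  have hπ0 : π ≠ 0 := hπ.ne_zero
  have hπK : ∀ n : ℕ, algebraMap O K (π ^ n) ≠ 0 := fun n h =>
    pow_ne_zero n hπ0 ((IsFractionRing.injective O K) (by rw [h, map_zero]))
  set S := Submodule.span K (ι '' (N : Set V)) with hS
  have hli : LinearIndependent K (fun i => (Submodule.Quotient.mk (ι (v i)) : W ⧸ S)) := by
    rw [Fintype.linearIndependent_iff]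
    intro g hg
    have h1 : ∑ i, g i • ι (v i) ∈ S := by
      rw [← Submodule.Quotient.mk_eq_zero, ← Submodule.mkQ_apply, map_sum, ← hg]
      exact Finset.sum_congr rfl fun i _ => by rw [map_smul, Submodule.mkQ_apply]
    obtain ⟨k, c, hc⟩ := h82g_frac_family hπ g
    obtain ⟨m, x, hx, e⟩ := h82g_span_generic hπ N ι _
      (S.smul_mem (algebraMap O K (π ^ k)) h1)
    have h2 : algebraMap O K (π ^ k) • ∑ i, g i • ι (v i) = ι (∑ i, c i • v i) := by
      rw [Finset.smul_sum, map_sum]
      refine Finset.sum_congr rfl fun i _ => ?_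
      rw [smul_smul, hc, algebraMap_smul, map_smul]
    rw [h2, ← map_smul] at e
    have h3 : π ^ m • ∑ i, c i • v i ∈ N := by rw [hι e]; exact hx
    have h4 : ∑ i, (π ^ m * c i) • v i ∈ N := by
      rw [Finset.smul_sum] at h3
      convert h3 using 2
      rw [mul_smul]
    have h5 := hind _ h4
    intro i
    have h6 : c i = 0 := by
      rcases mul_eq_zero.mp (h5 i) with h | h
      · exact absurd h (pow_ne_zero m hπ0)
      · exact h
    have h7 := hc i
    rw [h6, map_zero] at h7
    rcases mul_eq_zero.mp h7 with h | h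
    · exact absurd h (hπK k)
    · exact h
  have hsp : ⊤ ≤ Submodule.span K
      (Set.range fun i => (Submodule.Quotient.mk (ι (v i)) : W ⧸ S)) := by
    rintro q -
    obtain ⟨w, rfl⟩ := Submodule.Quotient.mk_surjective _ q
    obtain ⟨n, x, hx⟩ := hW w
    obtain ⟨c, hc⟩ := hgen x
    have h1 : algebraMap O K (π ^ n) • (Submodule.Quotient.mk w : W ⧸ S)
        = ∑ i, algebraMap O K (c i) • (Submodule.Quotient.mk (ι (v i)) : W ⧸ S) := by
      have hmem : ι x - ∑ i, c i • ι (v i) ∈ S := by
        have : ι x - ∑ i, c i • ι (v i) = ι (x - ∑ i, c i • v i) := by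
          rw [map_sub, map_sum]
          congr 1
          exact Finset.sum_congr rfl fun i _ => by rw [map_smul]
        rw [this]
        exact Submodule.subset_span ⟨_, hc, rfl⟩
      have e1 : algebraMap O K (π ^ n) • (Submodule.Quotient.mk w : W ⧸ S)
          = Submodule.Quotient.mk (ι x) := by
        rw [← Submodule.Quotient.mk_smul, algebraMap_smul, hx]
      have e2 : ∑ i, algebraMap O K (c i) • (Submodule.Quotient.mk (ι (v i)) : W ⧸ S)
          = Submodule.Quotient.mk (∑ i, c i • ι (v i)) := by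
        rw [← Submodule.mkQ_apply, map_sum]
        refine Finset.sum_congr rfl fun i _ => ?_
        rw [Submodule.mkQ_apply, ← algebraMap_smul K (c i) (ι (v i)),
          Submodule.Quotient.mk_smul]
      rw [e1, e2]
      exact (Submodule.Quotient.eq S).mpr hmem
    have h2 : (Submodule.Quotient.mk w : W ⧸ S)
        = (algebraMap O K (π ^ n))⁻¹ • ∑ i, algebraMap O K (c i) •
            (Submodule.Quotient.mk (ι (v i)) : W ⧸ S) := by
      rw [← h1, smul_smul, inv_mul_cancel₀ (hπK n), one_smul]
    rw [h2]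
    refine Submodule.smul_mem _ _ (Submodule.sum_mem _ fun i _ => Submodule.smul_mem _ _ ?_)
    exact Submodule.subset_span ⟨i, rfl⟩
  rw [Module.finrank_eq_card_basis (Module.Basis.mk hli hsp), Module.finrank_eq_card_basis b]

end Fibres

section Special

variable {O : Type*} [CommRing O] [IsDomain O] [IsDiscreteValuationRing O] {π : O}
variable {V : Type*} [AddCommGroup V] [Module O V]

/-- elements of the `k`-span of the image of a submodule under the reduction map. -/
theorem h82g_span_special (N : Submodule O V)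
    {k : Type*} [Field k] [Algebra O k] (hk : Function.Surjective (algebraMap O k))
    {Vt : Type*} [AddCommGroup Vt] [Module O Vt] [Module k Vt] [IsScalarTower O k Vt]
    (red : V →ₗ[O] Vt) (s : Vt) (hs : s ∈ Submodule.span k (red '' (N : Set V))) :
    ∃ x : V, x ∈ N ∧ s = red x := by
  induction hs using Submodule.span_induction with
  | mem y hy =>
    obtain ⟨x, hx, rfl⟩ := hy
    exact ⟨x, hx, rfl⟩
  | zero => exact ⟨0, N.zero_mem, by simp⟩
  | add y z _ _ hy hz =>
    obtain ⟨x1, hx1, e1⟩ := hy
    obtain ⟨x2, hx2, e2⟩ := hz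
    exact ⟨x1 + x2, N.add_mem hx1 hx2, by rw [map_add, e1, e2]⟩
  | smul a y _ hy =>
    obtain ⟨x, hx, e⟩ := hy
    obtain ⟨c, rfl⟩ := hk a
    exact ⟨c • x, N.smul_mem _ hx, by rw [map_smul, e, algebraMap_smul]⟩

/-- **the `H¹` of the special fibre**: its dimension is the rank of `V ⧸ N`. -/
theorem h82g_finrank_special (hπ : Irreducible π) (N : Submodule O V)
    [Module.Finite O (V ⧸ N)] (hsat : h82gSat π N)
    {k : Type*} [Field k] [Algebra O k] (hk : Function.Surjective (algebraMap O k))
    (hπk : algebraMap O k π = 0)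
    {Vt : Type*} [AddCommGroup Vt] [Module O Vt] [Module k Vt] [IsScalarTower O k Vt]
    (red : V →ₗ[O] Vt) (hred : Function.Surjective red)
    (hker : ∀ v : V, red v = 0 → ∃ w : V, v = π • w) :
    Module.finrank k (Vt ⧸ Submodule.span k (red '' (N : Set V)))
      = Module.finrank O (V ⧸ N) := by
  classical
  haveI := h82g_quot_free hπ N hsat
  set b := Module.Free.chooseBasis O (V ⧸ N) with hb
  obtain ⟨v, hv, hgen, hind⟩ := h82g_basis_lift N b
  have hπ0 : π ≠ 0 := hπ.ne_zero
  set S := Submodule.span k (red '' (N : Set V)) with hS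
  have hli : LinearIndependent k (fun i => (Submodule.Quotient.mk (red (v i)) : Vt ⧸ S)) := by
    rw [Fintype.linearIndependent_iff]
    intro g hg
    choose c hc using fun i => hk (g i)
    have h1 : ∑ i, g i • red (v i) ∈ S := by
      rw [← Submodule.Quotient.mk_eq_zero, ← Submodule.mkQ_apply, map_sum, ← hg]
      exact Finset.sum_congr rfl fun i _ => by rw [map_smul, Submodule.mkQ_apply]
    have h2 : ∑ i, g i • red (v i) = red (∑ i, c i • v i) := by
      rw [map_sum]
      refine Finset.sum_congr rfl fun i _ => ?_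
      rw [map_smul, ← hc i, algebraMap_smul]
    rw [h2] at h1
    obtain ⟨x, hx, e⟩ := h82g_span_special N hk red _ h1
    obtain ⟨w, hw⟩ := hker (∑ i, c i • v i - x) (by rw [map_sub, e, sub_self])
    obtain ⟨d, hd⟩ := hgen w
    have h3 : ∑ i, (c i - π * d i) • v i ∈ N := by
      have : ∑ i, (c i - π * d i) • v i
          = x + π • (w - ∑ i, d i • v i) := by
        have e1 : ∑ i, (c i - π * d i) • v i = ∑ i, c i • v i - π • ∑ i, d i • v i := by
          rw [Finset.smul_sum, ← Finset.sum_sub_distrib]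
          exact Finset.sum_congr rfl fun i _ => by rw [sub_smul, mul_smul]
        rw [e1, smul_sub, ← hw]; abel
      rw [this]
      exact N.add_mem hx (N.smul_mem _ hd)
    have h4 := hind _ h3
    intro i
    have h5 : c i = π * d i := sub_eq_zero.mp (h4 i)
    rw [← hc i, h5, map_mul, hπk, zero_mul]
  have hsp : ⊤ ≤ Submodule.span k
      (Set.range fun i => (Submodule.Quotient.mk (red (v i)) : Vt ⧸ S)) := by
    rintro q -
    obtain ⟨w, rfl⟩ := Submodule.Quotient.mk_surjective _ q
    obtain ⟨x, rfl⟩ := hred w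
    obtain ⟨c, hc⟩ := hgen x
    have hmem : red x - ∑ i, c i • red (v i) ∈ S := by
      have : red x - ∑ i, c i • red (v i) = red (x - ∑ i, c i • v i) := by
        rw [map_sub, map_sum]
        congr 1
        exact Finset.sum_congr rfl fun i _ => by rw [map_smul]
      rw [this]
      exact Submodule.subset_span ⟨_, hc, rfl⟩
    have e2 : ∑ i, algebraMap O k (c i) • (Submodule.Quotient.mk (red (v i)) : Vt ⧸ S)
        = Submodule.Quotient.mk (∑ i, c i • red (v i)) := by
      rw [← Submodule.mkQ_apply, map_sum]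
      refine Finset.sum_congr rfl fun i _ => ?_
      rw [Submodule.mkQ_apply, ← algebraMap_smul k (c i) (red (v i)),
        Submodule.Quotient.mk_smul]
    have h1 : (Submodule.Quotient.mk (red x) : Vt ⧸ S)
        = ∑ i, algebraMap O k (c i) • (Submodule.Quotient.mk (red (v i)) : Vt ⧸ S) := by
      rw [e2]
      exact (Submodule.Quotient.eq S).mpr hmem
    rw [h1]
    refine Submodule.sum_mem _ fun i _ => Submodule.smul_mem _ _ ?_
    exact Submodule.subset_span ⟨i, rfl⟩
  rw [Module.finrank_eq_card_basis (Module.Basis.mk hli hsp), Module.finrank_eq_card_basis b]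

/-- **GENUS-EQ**: the `H¹` of the generic fibre and the `H¹` of the special fibre have the same
dimension, as soon as `V ⧸ N` is finitely generated without `π`-torsion. -/
theorem h82g_genus_eq (hπ : Irreducible π) (N : Submodule O V)
    [Module.Finite O (V ⧸ N)] (hsat : h82gSat π N)
    {K : Type*} [Field K] [Algebra O K] [IsFractionRing O K]
    {W : Type*} [AddCommGroup W] [Module O W] [Module K W] [IsScalarTower O K W]
    (ι : V →ₗ[O] W) (hι : Function.Injective ι)
    (hW : ∀ w : W, ∃ (n : ℕ) (v : V), (π ^ n) • w = ι v)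
    {k : Type*} [Field k] [Algebra O k] (hk : Function.Surjective (algebraMap O k))
    (hπk : algebraMap O k π = 0)
    {Vt : Type*} [AddCommGroup Vt] [Module O Vt] [Module k Vt] [IsScalarTower O k Vt]
    (red : V →ₗ[O] Vt) (hred : Function.Surjective red)
    (hker : ∀ v : V, red v = 0 → ∃ w : V, v = π • w) :
    Module.finrank K (W ⧸ Submodule.span K (ι '' (N : Set V)))
      = Module.finrank k (Vt ⧸ Submodule.span k (red '' (N : Set V))) := by
  rw [h82g_finrank_generic hπ N hsat ι hι hW,
    h82g_finrank_special hπ N hsat hk hπk red hred hker]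

/-- the span of the image of a sum is the sum of the spans. -/
theorem h82g_span_image_sup {R : Type*} [CommRing R] {k : Type*} [Field k]
    {V' : Type*} [AddCommGroup V'] [Module R V']
    {Vt : Type*} [AddCommGroup Vt] [Module R Vt] [Module k Vt]
    (f : V' →ₗ[R] Vt) (L0 L1 : Submodule R V') :
    Submodule.span k (f '' ((L0 ⊔ L1 : Submodule R V') : Set V'))
      = Submodule.span k (f '' (L0 : Set V')) ⊔ Submodule.span k (f '' (L1 : Set V')) := by
  apply le_antisymm
  · rw [Submodule.span_le]
    rintro _ ⟨x, hx, rfl⟩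
    obtain ⟨a, ha, b, hb, rfl⟩ := Submodule.mem_sup.mp hx
    rw [map_add]
    exact Submodule.add_mem_sup (Submodule.subset_span ⟨a, ha, rfl⟩)
      (Submodule.subset_span ⟨b, hb, rfl⟩)
  · rw [sup_le_iff]
    constructor
    · exact Submodule.span_mono (Set.image_mono (fun x hx => (le_sup_left : L0 ≤ L0 ⊔ L1) hx))
    · exact Submodule.span_mono (Set.image_mono (fun x hx => (le_sup_right : L1 ≤ L0 ⊔ L1) hx))

end Special

/-! ## Vanishing of `H¹` and lifting of sections (Nakayama) -/

section Vanish

variable {O : Type*} [CommRing O] [IsLocalRing O] {π : O}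
variable {V : Type*} [AddCommGroup V] [Module O V]

/-- **Nakayama**: if `V ⧸ N` is finitely generated and `V = N + π V` with `π` a non-unit, then
`N = ⊤` (`H¹ = 0` as soon as the `H¹` of the special fibre vanishes). -/
theorem h82g_vanish (hπ : ¬ IsUnit π) (N : Submodule O V) [Module.Finite O (V ⧸ N)]
    (h : ∀ v : V, ∃ x ∈ N, ∃ w : V, v = x + π • w) : N = ⊤ := by
  have hfg : (⊤ : Submodule O (V ⧸ N)).FG := Module.finite_def.mp inferInstance
  have hle : (⊤ : Submodule O (V ⧸ N)) ≤ Ideal.span {π} • (⊤ : Submodule O (V ⧸ N)) := by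
    rintro q -
    obtain ⟨v, rfl⟩ := Submodule.Quotient.mk_surjective _ q
    obtain ⟨x, hx, w, rfl⟩ := h v
    rw [Submodule.Quotient.mk_add, (Submodule.Quotient.mk_eq_zero _).mpr hx, zero_add,
      Submodule.Quotient.mk_smul]
    exact Submodule.smul_mem_smul (Ideal.subset_span rfl) Submodule.mem_top
  have hjac : Ideal.span {π} ≤ (⊥ : Ideal O).jacobson := by
    rw [Ideal.span_singleton_le_iff_mem]
    exact IsLocalRing.maximalIdeal_le_jacobson _ ((IsLocalRing.mem_maximalIdeal π).mpr hπ)
  have h0 := Submodule.eq_bot_of_le_smul_of_le_jacobson_bot _ _ hfg hle hjac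
  rw [eq_top_iff]
  rintro v -
  have : (Submodule.Quotient.mk v : V ⧸ N) ∈ (⊤ : Submodule O (V ⧸ N)) := Submodule.mem_top
  rw [h0, Submodule.mem_bot, Submodule.Quotient.mk_eq_zero] at this
  exact this

/-- **lifting of sections**: if `H¹ = 0` (for instance by `h82g_vanish`) then every class
modulo `π` common to `L0` and `L1` comes from `L0 ⊓ L1`. -/
theorem h82g_lift_of_vanish (L0 L1 : Submodule O V) (h : L0 ⊔ L1 = ⊤) : h82gLift π L0 L1 :=
  h82g_lift_of_sat_sup (fun v _ => by rw [h]; exact Submodule.mem_top)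

/-- the lifting property in terms of a reduction map `red` with kernel `π V`: every element of
`red L0 ∩ red L1` is the reduction of an element of `L0 ⊓ L1`. -/
theorem h82g_lift_red {L0 L1 : Submodule O V} (hl : h82gLift π L0 L1)
    {Vt : Type*} [AddCommGroup Vt] [Module O Vt]
    (red : V →ₗ[O] Vt) (hπred : ∀ v : V, red (π • v) = 0)
    (hker : ∀ v : V, red v = 0 → ∃ w : V, v = π • w)
    (a b : V) (ha : a ∈ L0) (hb : b ∈ L1) (hab : red a = red b) :
    ∃ c ∈ L0 ⊓ L1, red c = red a := by
  obtain ⟨w, hw⟩ := hker (a - b) (by rw [map_sub, hab, sub_self])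
  obtain ⟨c, hc, a', -, e⟩ := hl a ha b hb ⟨w, hw⟩
  exact ⟨c, hc, by rw [e, map_add, hπred, add_zero]⟩

/-- conversely: the lifting property from the reduction map (`L0` saturated). -/
theorem h82g_lift_of_red {L0 L1 : Submodule O V} (h0 : h82gSat π L0)
    {Vt : Type*} [AddCommGroup Vt] [Module O Vt]
    (red : V →ₗ[O] Vt) (hπred : ∀ v : V, red (π • v) = 0)
    (hker : ∀ v : V, red v = 0 → ∃ w : V, v = π • w)
    (h : ∀ a ∈ L0, ∀ b ∈ L1, red a = red b → ∃ c ∈ L0 ⊓ L1, red c = red a) :
    h82gLift π L0 L1 := by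
  intro a ha b hb ⟨w, hw⟩
  have hab : red a = red b := by
    have : red (a - b) = 0 := by rw [hw, hπred]
    rwa [map_sub, sub_eq_zero] at this
  obtain ⟨c, hc, e⟩ := h a ha b hb hab
  obtain ⟨a', ha'⟩ := hker (a - c) (by rw [map_sub, e, sub_self])
  have hmem : π • a' ∈ L0 := by rw [← ha']; exact L0.sub_mem ha hc.1
  exact ⟨c, hc, a', h0 a' hmem, by rw [← ha']; abel⟩

end Vanish

/-! ## Semicontinuity -/

section Semi

variable {O : Type*} [CommRing O] [IsDomain O] [IsDiscreteValuationRing O] {π : O}
variable {V : Type*} [AddCommGroup V] [Module O V]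

/-- **semicontinuity** `ℓ(D) ≤ ℓ~(D~)`: for a finitely generated `π`-saturated submodule `H` of
a module `V` without `π`-torsion (`H = L0 ⊓ L1` the integral sections), the rank of `H` is at most
the dimension of any `k`-subspace of the special fibre containing `red H`. -/
theorem h82g_semicont (hπ : Irreducible π) (hV : ∀ v : V, π • v = 0 → v = 0)
    (H : Submodule O V) (hfg : H.FG) (hsat : h82gSat π H)
    {k : Type*} [Field k] [Algebra O k] (hk : Function.Surjective (algebraMap O k))
    (hπk : algebraMap O k π = 0)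
    {Vt : Type*} [AddCommGroup Vt] [Module O Vt] [Module k Vt] [IsScalarTower O k Vt]
    (red : V →ₗ[O] Vt) (hker : ∀ v : V, red v = 0 → ∃ w : V, v = π • w)
    (T : Submodule k Vt) [Module.Finite k T] (hT : ∀ x ∈ H, red x ∈ T) :
    Module.finrank O H ≤ Module.finrank k T := by
  classical
  haveI : Module.Finite O H := Module.Finite.iff_fg.mpr hfg
  haveI : Module.Free O H := h82g_free hπ H (fun m hm => by
    apply Subtype.ext
    apply hV
    have := congrArg Subtype.val hm
    simpa using this)
  set b := Module.Free.chooseBasis O H with hb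
  rw [Module.finrank_eq_card_basis b]
  have hli : LinearIndependent k
      (fun i => (⟨red (b i : V), hT _ (b i).2⟩ : T)) := by
    rw [Fintype.linearIndependent_iff]
    intro g hg
    choose c hc using fun i => hk (g i)
    have h1 : red (∑ i, c i • (b i : V)) = 0 := by
      have := congrArg Subtype.val hg
      rw [map_sum]
      simp only [Submodule.coe_sum, Submodule.coe_smul, Submodule.coe_zero] at this
      rw [← this]
      refine Finset.sum_congr rfl fun i _ => ?_
      rw [map_smul, ← hc i, algebraMap_smul]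
    obtain ⟨w, hw⟩ := hker _ h1
    have hwH : w ∈ H := by
      apply hsat
      rw [← hw]
      exact H.sum_mem fun i _ => H.smul_mem _ (b i).2
    have h2 : ∑ i, c i • b i = π • (⟨w, hwH⟩ : H) := by
      apply Subtype.ext
      simp only [Submodule.coe_sum, Submodule.coe_smul]
      exact hw
    have h3 : ∑ i, (c i - π * b.repr ⟨w, hwH⟩ i) • b i = 0 := by
      have e1 : ∑ i, (c i - π * b.repr ⟨w, hwH⟩ i) • b i
          = ∑ i, c i • b i - π • ∑ i, b.repr ⟨w, hwH⟩ i • b i := by
        rw [Finset.smul_sum, ← Finset.sum_sub_distrib]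
        exact Finset.sum_congr rfl fun i _ => by rw [sub_smul, mul_smul]
      rw [e1, b.sum_repr, h2, sub_self]
    have h4 := Fintype.linearIndependent_iff.mp b.linearIndependent _ h3
    intro i
    have h5 : c i = π * b.repr ⟨w, hwH⟩ i := sub_eq_zero.mp (h4 i)
    rw [← hc i, h5, map_mul, hπk, zero_mul]
  exact hli.fintype_card_le_finrank

/-- the rank of the integral sections is the dimension of the sections of the generic fibre. -/
theorem h82g_finrank_sections (hπ : Irreducible π) (hV : ∀ v : V, π • v = 0 → v = 0)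
    (H : Submodule O V) (hfg : H.FG)
    {K : Type*} [Field K] [Algebra O K] [IsFractionRing O K]
    {W : Type*} [AddCommGroup W] [Module O W] [Module K W] [IsScalarTower O K W]
    (ι : V →ₗ[O] W) (hι : Function.Injective ι) :
    Module.finrank K (Submodule.span K (ι '' (H : Set V))) = Module.finrank O H := by
  classical
  haveI : Module.Finite O H := Module.Finite.iff_fg.mpr hfg
  haveI : Module.Free O H := h82g_free hπ H (fun m hm => by
    apply Subtype.ext
    apply hV
    have := congrArg Subtype.val hm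
    simpa using this)
  set b := Module.Free.chooseBasis O H with hb
  have hπ0 : π ≠ 0 := hπ.ne_zero
  have hπK : ∀ n : ℕ, algebraMap O K (π ^ n) ≠ 0 := fun n h =>
    pow_ne_zero n hπ0 ((IsFractionRing.injective O K) (by rw [h, map_zero]))
  set S := Submodule.span K (ι '' (H : Set V)) with hS
  have hmem : ∀ i, ι (b i : V) ∈ S := fun i => Submodule.subset_span ⟨_, (b i).2, rfl⟩
  have hli : LinearIndependent K (fun i => (⟨ι (b i : V), hmem i⟩ : S)) := by
    rw [Fintype.linearIndependent_iff]
    intro g hg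
    obtain ⟨n, c, hc⟩ := h82g_frac_family hπ g
    have h1 : ∑ i, g i • ι (b i : V) = 0 := by
      have := congrArg Subtype.val hg
      simpa only [Submodule.coe_sum, Submodule.coe_smul, Submodule.coe_zero] using this
    have h2 : ι (∑ i, c i • (b i : V)) = 0 := by
      have : algebraMap O K (π ^ n) • ∑ i, g i • ι (b i : V) = ι (∑ i, c i • (b i : V)) := by
        rw [Finset.smul_sum, map_sum]
        refine Finset.sum_congr rfl fun i _ => ?_
        rw [smul_smul, hc, algebraMap_smul, map_smul]
      rw [← this, h1, smul_zero]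
    have h3 : ∑ i, c i • (b i : V) = 0 := hι (by rw [h2, map_zero])
    have h4 : ∑ i, c i • b i = 0 := by
      apply Subtype.ext
      simpa only [Submodule.coe_sum, Submodule.coe_smul, Submodule.coe_zero] using h3
    have h5 := Fintype.linearIndependent_iff.mp b.linearIndependent c h4
    intro i
    have h7 := hc i
    rw [h5 i, map_zero] at h7
    rcases mul_eq_zero.mp h7 with h | h
    · exact absurd h (hπK n)
    · exact h
  have hsp : ⊤ ≤ Submodule.span K (Set.range fun i => (⟨ι (b i : V), hmem i⟩ : S)) := by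
    rintro ⟨s, hs⟩ -
    have key : ∀ s (hs : s ∈ S), (⟨s, hs⟩ : S) ∈
        Submodule.span K (Set.range fun i => (⟨ι (b i : V), hmem i⟩ : S)) := by
      intro s hs
      induction hs using Submodule.span_induction with
      | mem y hy =>
        obtain ⟨x, hx, rfl⟩ := hy
        have e : (⟨ι x, Submodule.subset_span ⟨x, hx, rfl⟩⟩ : S)
            = ∑ i, algebraMap O K (b.repr ⟨x, hx⟩ i) • (⟨ι (b i : V), hmem i⟩ : S) := by
          apply Subtype.ext
          simp only [Submodule.coe_sum, Submodule.coe_smul]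
          have h1 : x = ∑ i, b.repr ⟨x, hx⟩ i • (b i : V) := by
            have := congrArg Subtype.val (b.sum_repr ⟨x, hx⟩)
            simp only [Submodule.coe_sum, Submodule.coe_smul] at this
            exact this.symm
          conv_lhs => rw [h1]
          rw [map_sum]
          refine Finset.sum_congr rfl fun i _ => ?_
          rw [map_smul, algebraMap_smul]
        rw [e]
        exact Submodule.sum_mem _ fun i _ => Submodule.smul_mem _ _
          (Submodule.subset_span ⟨i, rfl⟩)
      | zero => exact Submodule.zero_mem _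
      | add y z hy hz h1 h2 =>
        have : (⟨y + z, S.add_mem hy hz⟩ : S) = ⟨y, hy⟩ + ⟨z, hz⟩ := rfl
        rw [this]
        exact Submodule.add_mem _ h1 h2
      | smul a y hy h1 =>
        have : (⟨a • y, S.smul_mem a hy⟩ : S) = a • ⟨y, hy⟩ := rfl
        rw [this]
        exact Submodule.smul_mem _ _ h1
    exact key s hs
  rw [Module.finrank_eq_card_basis (Module.Basis.mk hli hsp), Module.finrank_eq_card_basis b]

end Semi

/-! ## The two-chart form -/

section Pair

variable {O : Type*} [CommRing O] [IsDomain O] [IsDiscreteValuationRing O] {π : O}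
variable {V : Type*} [AddCommGroup V] [Module O V]

/-- **GENUS-EQ, two-chart form**: `L1` saturated, lifting property for `(L0, L1)` (for the
structure sheaf: only constants are regular on the whole special fibre), `V ⧸ (L0 ⊔ L1)`
finitely generated (`h82g_fg_quot`).  Then
`dim_K W ⧸ (K L0 + K L1) = dim_k V~ ⧸ (red L0 + red L1)`. -/
theorem h82g_genus_eq_pair (hπ : Irreducible π) (L0 L1 : Submodule O V)
    [Module.Finite O (V ⧸ (L0 ⊔ L1))] (h1 : h82gSat π L1) (hl : h82gLift π L0 L1)
    {K : Type*} [Field K] [Algebra O K] [IsFractionRing O K]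
    {W : Type*} [AddCommGroup W] [Module O W] [Module K W] [IsScalarTower O K W]
    (ι : V →ₗ[O] W) (hι : Function.Injective ι)
    (hW : ∀ w : W, ∃ (n : ℕ) (v : V), (π ^ n) • w = ι v)
    {k : Type*} [Field k] [Algebra O k] (hk : Function.Surjective (algebraMap O k))
    (hπk : algebraMap O k π = 0)
    {Vt : Type*} [AddCommGroup Vt] [Module O Vt] [Module k Vt] [IsScalarTower O k Vt]
    (red : V →ₗ[O] Vt) (hred : Function.Surjective red)
    (hker : ∀ v : V, red v = 0 → ∃ w : V, v = π • w) :
    Module.finrank K (W ⧸ (Submodule.span K (ι '' (L0 : Set V))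
        ⊔ Submodule.span K (ι '' (L1 : Set V))))
      = Module.finrank k (Vt ⧸ (Submodule.span k (red '' (L0 : Set V))
        ⊔ Submodule.span k (red '' (L1 : Set V)))) := by
  have h := h82g_genus_eq (K := K) (k := k) hπ (L0 ⊔ L1) (h82g_sat_sup_of_lift h1 hl) ι hι hW
    hk hπk red hred hker
  rw [h82g_span_image_sup, h82g_span_image_sup] at h
  exact h

/-- **LIFT-EQ**: under the lifting property the reduction of the integral sections is the whole
space of sections of the special fibre, so `ℓ(D) = ℓ~(D~)`. -/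
theorem h82g_sections_eq (hπ : Irreducible π) (hV : ∀ v : V, π • v = 0 → v = 0)
    (L0 L1 : Submodule O V) (hfg : (L0 ⊓ L1).FG) (h0 : h82gSat π L0) (h1 : h82gSat π L1)
    (hl : h82gLift π L0 L1)
    {k : Type*} [Field k] [Algebra O k] (hk : Function.Surjective (algebraMap O k))
    (hπk : algebraMap O k π = 0)
    {Vt : Type*} [AddCommGroup Vt] [Module O Vt] [Module k Vt] [IsScalarTower O k Vt]
    (red : V →ₗ[O] Vt) (hker : ∀ v : V, red v = 0 → ∃ w : V, v = π • w) :
    Module.finrank k ↥(Submodule.span k (red '' (L0 : Set V))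
        ⊓ Submodule.span k (red '' (L1 : Set V)))
      = Module.finrank O ↥(L0 ⊓ L1) := by
  classical
  have hπred : ∀ v : V, red (π • v) = 0 := fun v => by
    rw [map_smul, ← algebraMap_smul k π (red v), hπk, zero_smul]
  haveI : Module.Finite O ↥(L0 ⊓ L1) := Module.Finite.iff_fg.mpr hfg
  haveI : Module.Free O ↥(L0 ⊓ L1) := h82g_free hπ _ (fun m hm => by
    apply Subtype.ext
    apply hV
    have := congrArg Subtype.val hm
    simpa using this)
  set b := Module.Free.chooseBasis O ↥(L0 ⊓ L1) with hb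
  set T := Submodule.span k (red '' (L0 : Set V)) ⊓ Submodule.span k (red '' (L1 : Set V))
    with hT
  have hmem : ∀ x ∈ L0 ⊓ L1, red x ∈ T := fun x hx =>
    ⟨Submodule.subset_span ⟨x, hx.1, rfl⟩, Submodule.subset_span ⟨x, hx.2, rfl⟩⟩
  have hli : LinearIndependent k
      (fun i => (⟨red (b i : V), hmem _ (b i).2⟩ : T)) := by
    rw [Fintype.linearIndependent_iff]
    intro g hg
    choose c hc using fun i => hk (g i)
    have e1 : red (∑ i, c i • (b i : V)) = 0 := by
      have := congrArg Subtype.val hg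
      rw [map_sum]
      simp only [Submodule.coe_sum, Submodule.coe_smul, Submodule.coe_zero] at this
      rw [← this]
      refine Finset.sum_congr rfl fun i _ => ?_
      rw [map_smul, ← hc i, algebraMap_smul]
    obtain ⟨w, hw⟩ := hker _ e1
    have hwH : w ∈ L0 ⊓ L1 := by
      apply h82g_sat_inf h0 h1
      rw [← hw]
      exact (L0 ⊓ L1).sum_mem fun i _ => (L0 ⊓ L1).smul_mem _ (b i).2
    have h2 : ∑ i, c i • b i = π • (⟨w, hwH⟩ : ↥(L0 ⊓ L1)) := by
      apply Subtype.ext
      simp only [Submodule.coe_sum, Submodule.coe_smul]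
      exact hw
    have h3 : ∑ i, (c i - π * b.repr ⟨w, hwH⟩ i) • b i = 0 := by
      have e1 : ∑ i, (c i - π * b.repr ⟨w, hwH⟩ i) • b i
          = ∑ i, c i • b i - π • ∑ i, b.repr ⟨w, hwH⟩ i • b i := by
        rw [Finset.smul_sum, ← Finset.sum_sub_distrib]
        exact Finset.sum_congr rfl fun i _ => by rw [sub_smul, mul_smul]
      rw [e1, b.sum_repr, h2, sub_self]
    have h4 := Fintype.linearIndependent_iff.mp b.linearIndependent _ h3
    intro i
    have h5 : c i = π * b.repr ⟨w, hwH⟩ i := sub_eq_zero.mp (h4 i)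
    rw [← hc i, h5, map_mul, hπk, zero_mul]
  have hsp : ⊤ ≤ Submodule.span k
      (Set.range fun i => (⟨red (b i : V), hmem _ (b i).2⟩ : T)) := by
    rintro ⟨y, hy⟩ -
    obtain ⟨a, ha, e0⟩ := h82g_span_special L0 hk red y hy.1
    obtain ⟨b', hb', e1⟩ := h82g_span_special L1 hk red y hy.2
    obtain ⟨c, hc, e2⟩ := h82g_lift_red hl red hπred hker a b' ha hb' (e0.symm.trans e1)
    have e3 : (⟨y, hy⟩ : T)
        = ∑ i, algebraMap O k (b.repr ⟨c, hc⟩ i) • (⟨red (b i : V), hmem _ (b i).2⟩ : T) := by
      apply Subtype.ext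
      simp only [Submodule.coe_sum, Submodule.coe_smul]
      have h1 : c = ∑ i, b.repr ⟨c, hc⟩ i • (b i : V) := by
        have := congrArg Subtype.val (b.sum_repr ⟨c, hc⟩)
        simp only [Submodule.coe_sum, Submodule.coe_smul] at this
        exact this.symm
      rw [e0, ← e2]
      conv_lhs => rw [h1]
      rw [map_sum]
      refine Finset.sum_congr rfl fun i _ => ?_
      rw [map_smul, algebraMap_smul]
    rw [e3]
    exact Submodule.sum_mem _ fun i _ => Submodule.smul_mem _ _
      (Submodule.subset_span ⟨i, rfl⟩)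
  rw [Module.finrank_eq_card_basis (Module.Basis.mk hli hsp), Module.finrank_eq_card_basis b]

end Pair

end Fermat.Agent.P5
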