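import Fermat.Agent.P5.H97OrderProd
import Fermat.Agent.P5.H97OrderQuot
import Fermat.Agent.P5.H87FlatOrder

/-!
# Wave 5, pillar (P), block A2 (helper97): closure properties of the Prelude's flatness

`h97c_Flat p M act` is the Prelude's flatness of one finite level (`h97c_isFlatAt_iff`) and the
conclusion of the frozen `S19`.  For `p` prime:

* `h97c_finite_of_hasOrder` : a module with a function order is finite;
* `h97c_flat_iff_hasOrder` : flat `↔` has a function order;
* `h97c_flat_iso`, `h97c_flat_sub`, `h97c_flat_quot`, `h97c_flat_prod`, `h97c_flat_pi` :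
  flatness is stable under equivariant isomorphisms, `G_ℚ`-stable subgroups, quotients by
  `G_ℚ`-stable subgroups, products and finite powers;
* `h97c_flat_subquot` : a `G_ℚ`-subquotient (equivariant additive surjection from a stable
  subgroup) of a flat module is flat.
-/

set_option autoImplicit false
set_option linter.style.haveILetI false
set_option linter.unusedSectionVars false

open GaloisRep Polynomial

noncomputable section

namespace Fermat.Agent.P5

local notation "Qb97" => AlgebraicClosure ℚ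
local notation "GQ97" => (AlgebraicClosure ℚ ≃ₐ[ℚ] AlgebraicClosure ℚ)

section Finite

variable {p : ℕ} {M : Type} [AddCommGroup M] {act : GQ97 → M → M}

/-- a module with a function order is finite. -/
theorem h97c_finite_of_hasOrder (h : h97c_HasOrder p M act) : Finite M := by
  classical
  obtain ⟨𝓗, ho⟩ := h
  obtain ⟨s, hs⟩ := ho.fg
  haveI : Module.Finite (ratLocalizedAt p) 𝓗 :=
    (Module.Finite.iff_fg (N := Subalgebra.toSubmodule 𝓗)).mpr ho.fg
  have hmem : ∀ f ∈ s, f ∈ 𝓗 := fun f hf => by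
    have : f ∈ Submodule.span (ratLocalizedAt p) (s : Set (M → Qb97)) := Submodule.subset_span hf
    rw [hs] at this
    exact this
  -- monic polynomials killing the generators
  have hP : ∀ f : s, ∃ P : (ratLocalizedAt p)[X], P.Monic ∧
      ∀ x : M, Polynomial.eval₂ (algebraMap (ratLocalizedAt p) Qb97) ((f : M → Qb97) x) P = 0 := by
    intro f
    have hint : IsIntegral (ratLocalizedAt p) (⟨f, hmem f f.2⟩ : 𝓗) := IsIntegral.of_finite _ _
    obtain ⟨P, hPm, hP0⟩ := hint
    refine ⟨P, hPm, fun x => ?_⟩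
    have h1 := congrArg ((Pi.evalAlgHom (ratLocalizedAt p) (fun _ : M => Qb97) x).comp 𝓗.val) hP0
    rw [map_zero, ← Polynomial.aeval_def, ← Polynomial.aeval_algHom_apply] at h1
    rw [← Polynomial.aeval_def]
    exact h1
  choose P hPm hP0 using hP
  have hPne : ∀ f : s, (P f).map (algebraMap (ratLocalizedAt p) Qb97) ≠ 0 := fun f =>
    ((hPm f).map _).ne_zero
  let ev : M → ∀ f : s, ((P f).map (algebraMap (ratLocalizedAt p) Qb97)).rootSet Qb97 :=
    fun x f => ⟨(f : M → Qb97) x, by
      rw [Polynomial.mem_rootSet_of_ne (hPne f), Polynomial.aeval_def, Polynomial.eval₂_map]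
      have := hP0 f x
      simpa using this⟩
  haveI : ∀ f : s, Finite (((P f).map (algebraMap (ratLocalizedAt p) Qb97)).rootSet Qb97) :=
    fun f => (Polynomial.rootSet_finite _ _).to_subtype
  refine Finite.of_injective ev fun x y hxy => ho.separates x y fun g hg => ?_
  have key : ∀ g : M → Qb97,
      g ∈ Submodule.span (ratLocalizedAt p) (s : Set (M → Qb97)) → g x = g y := by
    intro g hg'
    induction hg' using Submodule.span_induction with
    | mem f hf =>
      have := congrArg (fun e => ((e ⟨f, hf⟩ :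
        ((P ⟨f, hf⟩).map (algebraMap (ratLocalizedAt p) Qb97)).rootSet Qb97) : Qb97)) hxy
      exact this
    | zero => rfl
    | add f g _ _ hf hg => rw [Pi.add_apply, Pi.add_apply, hf, hg]
    | smul r f _ hf => rw [Pi.smul_apply, Pi.smul_apply, hf]
  exact key g (by rw [hs]; exact hg)

end Finite

section Flat

variable {p : ℕ} [Fact p.Prime] {M : Type} [AddCommGroup M] {act : GQ97 → M → M}

/-- flat `↔` has a function order. -/
theorem h97c_flat_iff_hasOrder : h97c_Flat p M act ↔ h97c_HasOrder p M act := by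
  refine ⟨h97c_hasOrder_of_flat, fun h => ?_⟩
  haveI := h97c_finite_of_hasOrder h
  exact h87x_flat_of_hasOrder p act h

theorem h97c_finite_of_flat (h : h97c_Flat p M act) : Finite M :=
  h97c_finite_of_hasOrder (h97c_hasOrder_of_flat h)

/-- transport along an equivariant additive bijection. -/
theorem h97c_flat_iso {M' : Type} [AddCommGroup M'] {act' : GQ97 → M' → M'}
    (φ : M' ≃+ M) (hφ : ∀ σ x, φ (act' σ x) = act σ (φ x))
    (h : h97c_Flat p M act) : h97c_Flat p M' act' :=
  h97c_flat_iff_hasOrder.mpr (h97c_hasOrder_iso φ hφ (h97c_flat_iff_hasOrder.mp h))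

/-- stable subgroups. -/
theorem h97c_flat_sub (M' : AddSubgroup M) (act' : GQ97 → M' → M')
    (hact : ∀ σ (x : M'), ((act' σ x : M') : M) = act σ (x : M))
    (h : h97c_Flat p M act) : h97c_Flat p M' act' :=
  h97c_flat_iff_hasOrder.mpr (h97c_hasOrder_sub M' act' hact (h97c_flat_iff_hasOrder.mp h))

/-- quotients by stable subgroups. -/
theorem h97c_flat_quot (M' : AddSubgroup M) (act'' : GQ97 → M ⧸ M' → M ⧸ M')
    (hact : ∀ σ x, act'' σ (QuotientAddGroup.mk x) = QuotientAddGroup.mk (act σ x))
    (h : h97c_Flat p M act) : h97c_Flat p (M ⧸ M') act'' := by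
  haveI := h97c_finite_of_flat h
  exact h97c_flat_iff_hasOrder.mpr (h97c_hasOrder_quot M' act'' hact (h97c_flat_iff_hasOrder.mp h))

/-- products. -/
theorem h97c_flat_prod {M₂ : Type} [AddCommGroup M₂] {act₂ : GQ97 → M₂ → M₂}
    (h : h97c_Flat p M act) (h₂ : h97c_Flat p M₂ act₂) :
    h97c_Flat p (M × M₂) (fun σ x => (act σ x.1, act₂ σ x.2)) :=
  h97c_flat_iff_hasOrder.mpr
    (h97c_hasOrder_prod (h97c_flat_iff_hasOrder.mp h) (h97c_flat_iff_hasOrder.mp h₂))

/-- finite powers. -/
theorem h97c_flat_pi (h : h97c_Flat p M act) (r : ℕ) :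
    h97c_Flat p (Fin r → M) (fun σ x i => act σ (x i)) :=
  h97c_flat_iff_hasOrder.mpr (h97c_hasOrder_pi (h97c_flat_iff_hasOrder.mp h) r)

/-- **Subquotients.**  If `M` is flat, `M₁ ≤ M` is a stable subgroup and `φ : M₁ →+ Q` is an
equivariant surjection, then `Q` is flat. -/
theorem h97c_flat_subquot {Q : Type} [AddCommGroup Q] {actQ : GQ97 → Q → Q}
    (M₁ : AddSubgroup M) (hM₁ : ∀ σ, ∀ x ∈ M₁, act σ x ∈ M₁)
    (φ : M₁ →+ Q) (hφs : Function.Surjective φ)
    (hφ : ∀ σ (x : M₁), φ ⟨act σ x, hM₁ σ x x.2⟩ = actQ σ (φ x))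
    (h : h97c_Flat p M act) : h97c_Flat p Q actQ := by
  have h1 : h97c_Flat p M₁ (fun σ x => ⟨act σ x, hM₁ σ x x.2⟩) :=
    h97c_flat_sub M₁ _ (fun σ x => rfl) h
  let e : (M₁ ⧸ φ.ker) ≃+ Q := QuotientAddGroup.quotientKerEquivOfSurjective φ hφs
  have he : ∀ x : M₁, e (QuotientAddGroup.mk x) = φ x := fun x => rfl
  have h2 : h97c_Flat p (M₁ ⧸ φ.ker) (fun σ q => e.symm (actQ σ (e q))) := by
    refine h97c_flat_quot φ.ker _ (fun σ x => ?_) h1
    apply e.injective
    rw [AddEquiv.apply_symm_apply, he, he, hφ]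
  refine h97c_flat_iso e.symm (fun σ x => ?_) h2
  show e.symm (actQ σ x) = e.symm (actQ σ (e (e.symm x)))
  rw [AddEquiv.apply_symm_apply]

end Flat

end Fermat.Agent.P5
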