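import Fermat.Agent.P5.Skeleton
import Fermat.Agent.P5.H97FlatClos
import Fermat.Prelude.Def_CuspForm_HeckeGaloisRepDatum

/-!
# Wave 5, pillar (P), S32: lattice comparison, interface and TOP (helper84)

* `H84LatComp` (frozen Prop, the LATTICE COMPARISON): for a Hecke–Galois datum `H` of level `N`
  away from `S ∋ p` and an ideal `I` of `T` of finite index, the finite level `V / I V` of the
  representation is a `G_ℚ`-subquotient of a finite power of `J₀(N)[p ^ k]` for some `k`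
  (a Galois-stable subgroup `Y` of `J₀(N)[p ^ k] ^ r` and an equivariant additive surjection
  `Y → V / I V`).  Neither `p ∤ N` nor `p ≠ 2` is needed for it.
* `h84l_s32_of` (TOP): flatness of all `J₀(N)[ℓ ^ k]`, `ℓ ∤ N` (the conclusion of S19, in the
  form `h97c_Flat`) and `H84LatComp` imply the exact statement of S32.

Route to `H84LatComp` (pure algebra + landed inputs, no reducedness of the Hecke algebra):
the kernel theorem `h84l_ker_le` (P5/H84LatKer.lean) applied to `R = ℤ[T_ℓ : ℓ ∉ S]`,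
`𝔸 = R[G_ℚ]`, `E = End (J₀(N)[p ^ k])`, `τ g = ` the Hecke polynomial with
`g + d(g) g⁻¹ = τ g` on `J₀(N)[p ^ k]` (weak Chebotarev + Eichler–Shimura on torsion), `lam` =
evaluation in `T`, the annihilator condition being the landed key divisibility `TI_key`.
-/

set_option autoImplicit false
set_option linter.style.haveILetI false

noncomputable section

namespace Fermat.Agent.P5

/-- **LATTICE COMPARISON.** -/
def H84LatComp : Prop :=
  ∀ (p N : ℕ) [NeZero N] (S : Finset ℕ)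
    (𝒪 : Type) [CommRing 𝒪] [IsDomain 𝒪] [IsDiscreteValuationRing 𝒪]
    [IsAdicComplete (IsLocalRing.maximalIdeal 𝒪) 𝒪]
    (θ : CuspForm.heckeAlgebra N 2 (↑S : Set ℕ) →+* IsLocalRing.ResidueField 𝒪)
    (T : Type) [CommRing T] [IsLocalRing T] [IsNoetherianRing T]
    [IsAdicComplete (IsLocalRing.maximalIdeal T) T] [Algebra 𝒪 T] [IsLocalHom (algebraMap 𝒪 T)]
    [Module.Finite 𝒪 T] [Module.Free 𝒪 T],
    p.Prime → (p : 𝒪) ∈ IsLocalRing.maximalIdeal 𝒪 → p ∈ S →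
    (∀ q : ℕ, q.Prime → q ∣ N → q ∈ S) →
    ∀ (H : CuspForm.HeckeGaloisRepDatum N (↑S : Set ℕ) 𝒪 θ T) (I : Ideal T), Finite (T ⧸ I) →
      ∃ (k r : ℕ) (Y : AddSubgroup (Fin r → H98pM N p k))
        (φ : Y →+ (H.ρ.V ⧸ (I • (⊤ : Submodule T H.ρ.V)))),
        ∃ hY : ∀ σ : H98pGQ, ∀ y ∈ Y, (fun i => h98pAct N p k σ (y i)) ∈ Y,
        (∀ (σ : H98pGQ) (y : Y),
          φ ⟨fun i => h98pAct N p k σ ((y : Fin r → H98pM N p k) i), hY σ y y.2⟩ =
            H.ρ.levelAction I σ (φ y)) ∧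
        Function.Surjective φ

/-- The conclusion of S19 (exact frozen shape) gives the flatness of `J₀(N)[ℓ ^ k]` in the form
used by the closure lemmas. -/
theorem h84l_flat_of_s19
    (hS19 : ∀ (p : ℕ) [NeZero p] (ℓ : ℕ) [Fact ℓ.Prime] (_ : ¬ ℓ ∣ p) (k : ℕ),
      ∃ (H : Type) (_ : CommRing H) (_ : HopfAlgebra (GaloisRep.ratLocalizedAt ℓ) H),
        Module.Finite (GaloisRep.ratLocalizedAt ℓ) H ∧
        Module.Flat (GaloisRep.ratLocalizedAt ℓ) H ∧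
        Coalgebra.IsCocomm (GaloisRep.ratLocalizedAt ℓ) H ∧
        ∃ e : WithConv (H →ₐ[GaloisRep.ratLocalizedAt ℓ] AlgebraicClosure ℚ) ≃
            ↥(Submodule.torsionBy ℤ (ModularCurve.JZero p) ((ℓ : ℤ) ^ k)),
          (∀ f g, e (f * g) = e f + e g) ∧
          ∀ (σ : AlgebraicClosure ℚ ≃ₐ[ℚ] AlgebraicClosure ℚ)
            (f g : WithConv (H →ₐ[GaloisRep.ratLocalizedAt ℓ] AlgebraicClosure ℚ)),
            (∀ h : H, g h = σ (f h)) →
              ((e g : ModularCurve.JZero p)) = σ • (e f : ModularCurve.JZero p))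
    (N : ℕ) [NeZero N] (ℓ : ℕ) [Fact ℓ.Prime] (hℓN : ¬ ℓ ∣ N) (k : ℕ) :
    h97c_Flat ℓ (H98pM N ℓ k) (h98pAct N ℓ k) := by
  obtain ⟨H, i1, i2, h1, h2, h3, e, he1, he2⟩ := hS19 N ℓ hℓN k
  exact ⟨H, i1, i2, h1, h2, h3, e, he1, fun σ f g hfg =>
    Subtype.ext (by rw [he2 σ f g hfg, h96m_act_coe])⟩

/-- **TOP for S32.**  Flatness of the torsion of `J₀(N)` (S19) and the lattice comparison imply
the exact statement of S32. -/
theorem h84l_s32_of
    (hflat : ∀ (N : ℕ) [NeZero N] (ℓ : ℕ) [Fact ℓ.Prime], ¬ ℓ ∣ N → ∀ k : ℕ,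
      h97c_Flat ℓ (H98pM N ℓ k) (h98pAct N ℓ k))
    (hcomp : H84LatComp)
    {p : ℕ} {N : ℕ} [NeZero N] {S : Finset ℕ}
    {𝒪 : Type} [CommRing 𝒪] [IsDomain 𝒪] [IsDiscreteValuationRing 𝒪]
    [IsAdicComplete (IsLocalRing.maximalIdeal 𝒪) 𝒪]
    {θ : CuspForm.heckeAlgebra N 2 (↑S : Set ℕ) →+* IsLocalRing.ResidueField 𝒪}
    {T : Type} [CommRing T] [IsLocalRing T] [IsNoetherianRing T]
    [IsAdicComplete (IsLocalRing.maximalIdeal T) T] [Algebra 𝒪 T] [IsLocalHom (algebraMap 𝒪 T)]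
    [Module.Finite 𝒪 T] [Module.Free 𝒪 T]
    [Finite (IsLocalRing.ResidueField 𝒪)] [CharZero 𝒪]
    (hp : p.Prime) (_hp2 : p ≠ 2) (hp𝒪 : (p : 𝒪) ∈ IsLocalRing.maximalIdeal 𝒪) (hpN : ¬ p ∣ N)
    (hpS : p ∈ S) (hNS : ∀ q : ℕ, q.Prime → q ∣ N → q ∈ S)
    (H : CuspForm.HeckeGaloisRepDatum N (↑S : Set ℕ) 𝒪 θ T) :
    H.ρ.IsFlatAt p := by
  haveI : Fact p.Prime := ⟨hp⟩
  rw [h97c_isFlatAt_iff]
  refine ⟨?_, fun I hI => ?_⟩
  · refine Finite.of_surjective (IsLocalRing.ResidueField.map (algebraMap 𝒪 T)) fun y => ?_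
    obtain ⟨x, hx⟩ := H.residue_surjective y
    exact ⟨IsLocalRing.residue 𝒪 x, by rw [IsLocalRing.ResidueField.map_residue]; exact hx⟩
  · obtain ⟨k, r, Y, φ, hY, hφ, hsurj⟩ := hcomp p N S 𝒪 θ T hp hp𝒪 hpS hNS H I hI
    exact h97c_flat_subquot Y hY φ hsurj hφ (h97c_flat_pi (hflat N p hpN k) r)

end Fermat.Agent.P5
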