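import Mathlib

/-!
# Wave 5, pillar (P), S32 lattice comparison: the kernel theorem (helper84)

Pure algebra, no reducedness of the Hecke algebra, no idempotent lifting, no Carayol.

Setting.  `R` is a commutative ring (think: the polynomial ring in the Hecke operators),
`𝔸` a ring (think: the group algebra `R[G]`), `E` a ring (think: the endomorphisms of a finite
level `J₀(N)[p ^ k]`), `α : 𝔸 → E` and `θ : R → E` ring homomorphisms with commuting images,
`τ : 𝔸 → R` a "trace" (any function) for which the polarised Cayley–Hamilton identity holds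
IN `E`:

`α (x y + y x) - θ (τ x) α y - θ (τ y) α x + θ (τ x τ y - τ (x y)) = 0`

(for `𝔸 = R[G]` this follows from `g + d(g) g⁻¹ = θ (τ g)` in `E`).
On the other side `T` is a commutative ring, `V` a free `T`-module of finite rank `≥ 2`,
`β : 𝔸 → End_T V` a ring homomorphism whose image spans `End_T V`, `lam : R → T` and `I` an
ideal of `T` with `tr (β x) ≡ lam (τ x)` mod `I`, and `lam r ∈ I` whenever `θ r = 0`.

**Theorem** (`h84l_ker_le`): if `α x = 0` then `β x V ⊆ I V`.

Proof.  Put `a = θ (τ x)`.  (1) `a α y` is the scalar `θ (τ x τ y - τ (x y))` for all `y`;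
(2) hence `a α u = 0` for every commutator `u`; (3) polarised Cayley–Hamilton for two
commutators `u`, `v`, multiplied by `a`, gives `lam a * tr (β u β v) ∈ I`; (4) commutators of
`End_T V` are `T`-combinations of the `β u`, and `tr ([E_ii, E_ij] [E_ji, E_ii]) = 1`, so
`lam a ∈ I`; (5) the same for `x y` gives `tr (β x Y) ∈ I` for all `Y ∈ End_T V`, i.e. all
matrix coefficients of `β x` lie in `I`.
-/

set_option autoImplicit false

namespace Fermat.Agent.P5

open LinearMap

section Kernel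

variable {R : Type*} [CommRing R] {𝔸 : Type*} [Ring 𝔸] {E : Type*} [Ring E]
  {T : Type*} [CommRing T]
  {V : Type*} [AddCommGroup V] [Module T V] [Module.Free T V] [Module.Finite T V]

/-- The polarised Cayley–Hamilton identity for `(α, τ)` in `E`, with scalars `θ`. -/
def H84lCH (α : 𝔸 →+* E) (θ : R →+* E) (τ : 𝔸 → R) : Prop :=
  ∀ x y : 𝔸, α (x * y + y * x) - θ (τ x) * α y - θ (τ y) * α x
    + θ (τ x * τ y - τ (x * y)) = 0

variable (α : 𝔸 →+* E) (θ : R →+* E) (τ : 𝔸 → R)

/-- Step (1): for `x` in the kernel of `α`, `θ (τ x) * α y` is a scalar. -/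
theorem h84l_scalar (hCH : H84lCH α θ τ) {x : 𝔸} (hx : α x = 0) (y : 𝔸) :
    θ (τ x) * α y = θ (τ x * τ y - τ (x * y)) := by
  have h := hCH x y
  rw [map_add, map_mul, map_mul, hx, zero_mul, mul_zero, add_zero, mul_zero, sub_zero,
    zero_sub] at h
  exact neg_add_eq_zero.mp h

/-- Step (2): for `x` in the kernel of `α`, `θ (τ x)` kills the image of every commutator. -/
theorem h84l_comm_zero (hcomm : ∀ (r : R) (y : 𝔸), Commute (θ r) (α y))
    (hCH : H84lCH α θ τ) {x : 𝔸} (hx : α x = 0) (y y' : 𝔸) :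
    θ (τ x) * α (y * y' - y' * y) = 0 := by
  have h1 := h84l_scalar α θ τ hCH hx y
  have e2 : θ (τ x) * (α y' * α y) = α y' * (θ (τ x) * α y) := by
    rw [← mul_assoc, (hcomm (τ x) y').eq, mul_assoc]
  rw [map_sub, map_mul, map_mul, mul_sub, ← mul_assoc, e2, h1, (hcomm _ y').eq, sub_self]

/-- The set of commutators of `𝔸`. -/
def h84lComm (𝔸 : Type*) [Ring 𝔸] : Set 𝔸 := {u | ∃ y y' : 𝔸, u = y * y' - y' * y}

variable (lam : R →+* T) (β : 𝔸 →+* Module.End T V) (I : Ideal T)

omit [Module.Free T V] [Module.Finite T V] in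
/-- The trace of the image of a commutator vanishes. -/
theorem h84l_trace_comm {u : 𝔸} (hu : u ∈ h84lComm 𝔸) : LinearMap.trace T V (β u) = 0 := by
  obtain ⟨y, y', rfl⟩ := hu
  rw [map_sub, map_mul, map_mul, map_sub, LinearMap.trace_mul_comm, sub_self]

omit [Module.Free T V] [Module.Finite T V] in
/-- Step (3): for `x` in the kernel of `α` and two commutators `u`, `v`:
`lam (τ x) * tr (β u β v) ∈ I`. -/
theorem h84l_trace_comm_mul (hcomm : ∀ (r : R) (y : 𝔸), Commute (θ r) (α y))
    (hCH : H84lCH α θ τ)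
    (htr : ∀ x : 𝔸, LinearMap.trace T V (β x) - lam (τ x) ∈ I)
    (hAnn : ∀ r : R, θ r = 0 → lam r ∈ I)
    {x : 𝔸} (hx : α x = 0) {u v : 𝔸} (hu : u ∈ h84lComm 𝔸) (hv : v ∈ h84lComm 𝔸) :
    lam (τ x) * LinearMap.trace T V (β u * β v) ∈ I := by
  have hu0 : θ (τ x) * α u = 0 := by
    obtain ⟨y, y', rfl⟩ := hu
    exact h84l_comm_zero α θ τ hcomm hCH hx y y'
  have hv0 : θ (τ x) * α v = 0 := by
    obtain ⟨y, y', rfl⟩ := hv
    exact h84l_comm_zero α θ τ hcomm hCH hx y y'
  have h := congrArg (fun φ : E => θ (τ x) * φ) (hCH u v)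
  simp only [mul_zero] at h
  have e3 : θ (τ x) * (θ (τ u) * α v) = θ (τ u) * (θ (τ x) * α v) := by
    rw [← mul_assoc, ← map_mul, mul_comm (τ x) (τ u), map_mul, mul_assoc]
  have e4 : θ (τ x) * (θ (τ v) * α u) = θ (τ v) * (θ (τ x) * α u) := by
    rw [← mul_assoc, ← map_mul, mul_comm (τ x) (τ v), map_mul, mul_assoc]
  rw [mul_add, mul_sub, mul_sub, map_add, map_mul, map_mul, mul_add, ← mul_assoc, hu0, zero_mul,
    ← mul_assoc (θ (τ x)) (α v), hv0, zero_mul, e3, e4, hu0, hv0, mul_zero, mul_zero, add_zero,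
    sub_zero, sub_zero, zero_add, ← map_mul] at h
  have h1 := hAnn _ h
  rw [map_mul, map_sub, map_mul] at h1
  have hu1 : lam (τ u) ∈ I := by
    have := htr u
    rw [h84l_trace_comm β hu, zero_sub] at this
    exact (Ideal.neg_mem_iff I).mp this
  have h2 : lam (τ x) * lam (τ (u * v)) ∈ I := by
    have e : lam (τ x) * lam (τ (u * v)) =
        lam (τ x) * (lam (τ u) * lam (τ v))
          - lam (τ x) * (lam (τ u) * lam (τ v) - lam (τ (u * v))) := by
      ring
    rw [e]
    exact I.sub_mem (I.mul_mem_left _ (I.mul_mem_right _ hu1)) h1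
  have e : lam (τ x) * LinearMap.trace T V (β u * β v) =
      lam (τ x) * (LinearMap.trace T V (β (u * v)) - lam (τ (u * v)))
        + lam (τ x) * lam (τ (u * v)) := by
    have hβ : β (u * v) = β u * β v := map_mul β u v
    rw [hβ]
    ring
  rw [e]
  exact I.add_mem (I.mul_mem_left _ (htr _)) h2

omit [Module.Free T V] [Module.Finite T V] in
/-- Step (4a): the same for `T`-linear combinations of images of commutators. -/
theorem h84l_trace_span_mul (hcomm : ∀ (r : R) (y : 𝔸), Commute (θ r) (α y))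
    (hCH : H84lCH α θ τ)
    (htr : ∀ x : 𝔸, LinearMap.trace T V (β x) - lam (τ x) ∈ I)
    (hAnn : ∀ r : R, θ r = 0 → lam r ∈ I)
    {x : 𝔸} (hx : α x = 0) {Z Z' : Module.End T V}
    (hZ : Z ∈ Submodule.span T (β '' h84lComm 𝔸))
    (hZ' : Z' ∈ Submodule.span T (β '' h84lComm 𝔸)) :
    lam (τ x) * LinearMap.trace T V (Z * Z') ∈ I := by
  induction hZ, hZ' using Submodule.span_induction₂ with
  | mem_mem Z Z' hZ hZ' =>
    obtain ⟨u, hu, rfl⟩ := hZ
    obtain ⟨v, hv, rfl⟩ := hZ'
    exact h84l_trace_comm_mul α θ τ lam β I hcomm hCH htr hAnn hx hu hv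
  | zero_left Z' _ => rw [zero_mul, map_zero, mul_zero]; exact I.zero_mem
  | zero_right Z _ => rw [mul_zero, map_zero, mul_zero]; exact I.zero_mem
  | add_left Z₁ Z₂ Z' _ _ _ h₁ h₂ =>
    rw [add_mul, map_add, mul_add]
    exact I.add_mem h₁ h₂
  | add_right Z Z₁ Z₂ _ _ _ h₁ h₂ =>
    rw [mul_add, map_add, mul_add]
    exact I.add_mem h₁ h₂
  | smul_left r Z Z' _ _ h =>
    rw [smul_mul_assoc, map_smul, smul_eq_mul, mul_left_comm]
    exact I.mul_mem_left _ h
  | smul_right r Z Z' _ _ h =>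
    rw [mul_smul_comm, map_smul, smul_eq_mul, mul_left_comm]
    exact I.mul_mem_left _ h

omit [Module.Free T V] [Module.Finite T V] in
/-- Step (4b): every commutator of `End_T V` is a `T`-linear combination of images of
commutators of `𝔸`. -/
theorem h84l_comm_mem_span (hspan : Submodule.span T (Set.range β) = ⊤)
    (Y Y' : Module.End T V) :
    Y * Y' - Y' * Y ∈ Submodule.span T (β '' h84lComm 𝔸) := by
  have hY : Y ∈ Submodule.span T (Set.range β) := by rw [hspan]; exact Submodule.mem_top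
  have hY' : Y' ∈ Submodule.span T (Set.range β) := by rw [hspan]; exact Submodule.mem_top
  induction hY, hY' using Submodule.span_induction₂ with
  | mem_mem Y Y' hY hY' =>
    obtain ⟨y, rfl⟩ := hY
    obtain ⟨y', rfl⟩ := hY'
    refine Submodule.subset_span ⟨y * y' - y' * y, ⟨y, y', rfl⟩, ?_⟩
    rw [map_sub, map_mul, map_mul]
  | zero_left Y' _ => rw [zero_mul, mul_zero, sub_self]; exact Submodule.zero_mem _
  | zero_right Y _ => rw [zero_mul, mul_zero, sub_self]; exact Submodule.zero_mem _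
  | add_left Y₁ Y₂ Y' _ _ _ h₁ h₂ =>
    have e : (Y₁ + Y₂) * Y' - Y' * (Y₁ + Y₂) = (Y₁ * Y' - Y' * Y₁) + (Y₂ * Y' - Y' * Y₂) := by
      rw [add_mul, mul_add]; abel
    rw [e]
    exact Submodule.add_mem _ h₁ h₂
  | add_right Y Y₁ Y₂ _ _ _ h₁ h₂ =>
    have e : Y * (Y₁ + Y₂) - (Y₁ + Y₂) * Y = (Y * Y₁ - Y₁ * Y) + (Y * Y₂ - Y₂ * Y) := by
      rw [add_mul, mul_add]; abel
    rw [e]
    exact Submodule.add_mem _ h₁ h₂
  | smul_left r Y Y' _ _ h =>
    rw [smul_mul_assoc, mul_smul_comm, ← smul_sub]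
    exact Submodule.smul_mem _ r h
  | smul_right r Y Y' _ _ h =>
    rw [smul_mul_assoc, mul_smul_comm, ← smul_sub]
    exact Submodule.smul_mem _ r h

/-- Step (4c): a pair of commutators of `End_T V` whose product has trace one. -/
theorem h84l_exists_comm_trace_one {ι : Type*} (b : Module.Basis ι T V) {i j : ι}
    (hij : i ≠ j) :
    ∃ Y₁ Y₂ Y₃ Y₄ : Module.End T V,
      LinearMap.trace T V ((Y₁ * Y₂ - Y₂ * Y₁) * (Y₃ * Y₄ - Y₄ * Y₃)) = 1 := by
  classical
  set Eii : Module.End T V := (b.coord i).smulRight (b i) with hEii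
  set Eij : Module.End T V := (b.coord j).smulRight (b i) with hEij
  set Eji : Module.End T V := (b.coord i).smulRight (b j) with hEji
  have hji : b.coord j (b i) = 0 := by
    rw [Module.Basis.coord_apply, Module.Basis.repr_self, Finsupp.single_apply, if_neg hij]
  have hii : b.coord i (b i) = 1 := by
    rw [Module.Basis.coord_apply, Module.Basis.repr_self, Finsupp.single_apply, if_pos rfl]
  have hjj : b.coord j (b j) = 1 := by
    rw [Module.Basis.coord_apply, Module.Basis.repr_self, Finsupp.single_apply, if_pos rfl]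
  have hij' : b.coord i (b j) = 0 := by
    rw [Module.Basis.coord_apply, Module.Basis.repr_self, Finsupp.single_apply,
      if_neg (Ne.symm hij)]
  have c1 : Eii * Eij - Eij * Eii = Eij := by
    apply LinearMap.ext
    intro w
    simp only [LinearMap.sub_apply, Module.End.mul_apply, hEii, hEij, LinearMap.smulRight_apply,
      map_smul, hii, hji, zero_smul, sub_zero, one_smul,
      smul_zero]
  have c2 : Eji * Eii - Eii * Eji = Eji := by
    apply LinearMap.ext
    intro w
    simp only [LinearMap.sub_apply, Module.End.mul_apply, hEii, hEji, LinearMap.smulRight_apply,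
      map_smul, hii, hij', zero_smul, sub_zero, one_smul,
      smul_zero]
  have c3 : Eij * Eji = Eii := by
    apply LinearMap.ext
    intro w
    simp only [Module.End.mul_apply, hEii, hEij, hEji, LinearMap.smulRight_apply, map_smul, hjj,
      one_smul]
  refine ⟨Eii, Eij, Eji, Eii, ?_⟩
  rw [c1, c2, c3, hEii, LinearMap.trace_smulRight, hii]

/-- Step (4): for `x` in the kernel of `α`, `lam (τ x) ∈ I`. -/
theorem h84l_lam_tau_mem (hcomm : ∀ (r : R) (y : 𝔸), Commute (θ r) (α y))
    (hCH : H84lCH α θ τ)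
    (htr : ∀ x : 𝔸, LinearMap.trace T V (β x) - lam (τ x) ∈ I)
    (hAnn : ∀ r : R, θ r = 0 → lam r ∈ I)
    (hspan : Submodule.span T (Set.range β) = ⊤)
    {ι : Type*} (b : Module.Basis ι T V) {i j : ι} (hij : i ≠ j)
    {x : 𝔸} (hx : α x = 0) : lam (τ x) ∈ I := by
  obtain ⟨Y₁, Y₂, Y₃, Y₄, h1⟩ := h84l_exists_comm_trace_one b hij
  have h := h84l_trace_span_mul α θ τ lam β I hcomm hCH htr hAnn hx
    (h84l_comm_mem_span β hspan Y₁ Y₂) (h84l_comm_mem_span β hspan Y₃ Y₄)
  rwa [h1, mul_one] at h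

/-- Step (5a): for `x` in the kernel of `α`, `tr (β x * Y) ∈ I` for every `Y`. -/
theorem h84l_trace_mul_mem (hcomm : ∀ (r : R) (y : 𝔸), Commute (θ r) (α y))
    (hCH : H84lCH α θ τ)
    (htr : ∀ x : 𝔸, LinearMap.trace T V (β x) - lam (τ x) ∈ I)
    (hAnn : ∀ r : R, θ r = 0 → lam r ∈ I)
    (hspan : Submodule.span T (Set.range β) = ⊤)
    {ι : Type*} (b : Module.Basis ι T V) {i j : ι} (hij : i ≠ j)
    {x : 𝔸} (hx : α x = 0) (Y : Module.End T V) :
    LinearMap.trace T V (β x * Y) ∈ I := by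
  have hY : Y ∈ Submodule.span T (Set.range β) := by rw [hspan]; exact Submodule.mem_top
  induction hY using Submodule.span_induction with
  | mem Y hY =>
    obtain ⟨y, rfl⟩ := hY
    have hxy : α (x * y) = 0 := by rw [map_mul, hx, zero_mul]
    have h1 := h84l_lam_tau_mem α θ τ lam β I hcomm hCH htr hAnn hspan b hij hxy
    have h2 := htr (x * y)
    rw [map_mul] at h2
    have e : LinearMap.trace T V (β x * β y) =
        (LinearMap.trace T V (β x * β y) - lam (τ (x * y))) + lam (τ (x * y)) := by ring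
    rw [e]
    exact I.add_mem h2 h1
  | zero => rw [mul_zero, map_zero]; exact I.zero_mem
  | add Y₁ Y₂ _ _ h₁ h₂ =>
    rw [mul_add, map_add]
    exact I.add_mem h₁ h₂
  | smul r Y _ h =>
    rw [mul_smul_comm, map_smul, smul_eq_mul]
    exact I.mul_mem_left _ h

/-- **The kernel theorem.**  If `α x = 0` then `β x` maps `V` into `I V`. -/
theorem h84l_ker_le (hcomm : ∀ (r : R) (y : 𝔸), Commute (θ r) (α y))
    (hCH : H84lCH α θ τ)
    (htr : ∀ x : 𝔸, LinearMap.trace T V (β x) - lam (τ x) ∈ I)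
    (hAnn : ∀ r : R, θ r = 0 → lam r ∈ I)
    (hspan : Submodule.span T (Set.range β) = ⊤)
    {ι : Type*} [Fintype ι] (b : Module.Basis ι T V) {i j : ι} (hij : i ≠ j)
    {x : 𝔸} (hx : α x = 0) (v : V) : β x v ∈ I • (⊤ : Submodule T V) := by
  have hc : ∀ k : ι, b.coord k (β x v) ∈ I := by
    intro k
    have h := h84l_trace_mul_mem α θ τ lam β I hcomm hCH htr hAnn hspan b hij hx
      ((b.coord k).smulRight v)
    have e : β x * (b.coord k).smulRight v = (b.coord k).smulRight (β x v) := by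
      apply LinearMap.ext
      intro w
      simp only [Module.End.mul_apply, LinearMap.smulRight_apply, map_smul]
    rwa [e, LinearMap.trace_smulRight] at h
  rw [← b.sum_repr (β x v)]
  refine Submodule.sum_mem _ fun k _ => ?_
  have := hc k
  rw [Module.Basis.coord_apply] at this
  exact Submodule.smul_mem_smul this Submodule.mem_top

end Kernel

end Fermat.Agent.P5
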