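import Fermat.Agent.P5.H84LatKer

/-!
# Wave 5, pillar (P), S32 lattice comparison: the abstract subquotient (helper84)

Group-algebra form of the kernel theorem and the resulting subquotient statement.

Data: a commutative ring `R` (Hecke polynomials), a group `G`, a ring `E` (endomorphisms of a
finite level `X`), ring/monoid homomorphisms `θ : R → E`, `ρE : G → E` with commuting images, a
function `t : G → R` with the polarised Cayley–Hamilton identity on group elements

`ρE (g h) + ρE (h g) - θ (t g) ρE h - θ (t h) ρE g + θ (t g t h - t (g h)) = 0`,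

(`h84l_CH_of_inv`: it follows from `ρE g + δ g * ρE g⁻¹ = θ (t g)` with `δ` central and
multiplicative); a representation `ρ : G → End_T V` on a free module of finite rank `≥ 2` whose
image spans `End_T V`, `lam : R → T`, an ideal `I` of finite index with `tr ρ g ≡ lam (t g)` and
`lam (ker θ) ⊆ I`.

* `h84l_group_ker` : if `∑ θ (c g) ρE g = 0` in `E` then `∑ lam (c g) ρ g` maps `V` into `I V`
  (in the form: `h84lAlpha x = 0 → h84lBeta x v ∈ I V` for `x : R[G]`);
* `h84l_subquot` : if moreover `E` embeds additively and `G`-equivariantly in `κ → X` (`κ`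
  finite), then `V / I V` is an equivariant quotient of a `G`-stable subgroup of `Fin r → X`.
-/

set_option autoImplicit false
set_option linter.style.haveILetI false
set_option linter.unusedSectionVars false

noncomputable section

namespace Fermat.Agent.P5

open MonoidAlgebra

section CHGroup

variable {R : Type*} [CommRing R] {G : Type*} [Group G] {E : Type*} [Ring E]

/-- The polarised Cayley–Hamilton identity on group elements follows from
`ρE g + δ g * ρE g⁻¹ = θ (t g)` with `δ` central and multiplicative. -/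
theorem h84l_CH_of_inv (θ : R →+* E) (ρE : G →* E)
    (hcomm : ∀ (r : R) (g : G), Commute (θ r) (ρE g)) (t : G → R) (δ : G → E)
    (hδc : ∀ (g : G) (e : E), Commute (δ g) e)
    (hδm : ∀ g h, δ (g * h) = δ g * δ h)
    (hinv : ∀ g, ρE g + δ g * ρE g⁻¹ = θ (t g)) (g h : G) :
    ρE (g * h) + ρE (h * g) - θ (t g) * ρE h - θ (t h) * ρE g
      + θ (t g * t h - t (g * h)) = 0 := by
  have hg : θ (t g) - ρE g = δ g * ρE g⁻¹ := by rw [← hinv g]; abel
  have hh : θ (t h) - ρE h = δ h * ρE h⁻¹ := by rw [← hinv h]; abel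
  have hgh : θ (t (g * h)) - ρE (g * h) = δ (g * h) * ρE (g * h)⁻¹ := by
    rw [← hinv (g * h)]; abel
  have key : (θ (t h) - ρE h) * (θ (t g) - ρE g) = θ (t (g * h)) - ρE (g * h) := by
    rw [hg, hh, hgh, mul_inv_rev, map_mul, hδm]
    calc δ h * ρE h⁻¹ * (δ g * ρE g⁻¹) = δ h * (ρE h⁻¹ * δ g) * ρE g⁻¹ := by
          simp only [mul_assoc]
      _ = δ h * (δ g * ρE h⁻¹) * ρE g⁻¹ := by rw [(hδc g (ρE h⁻¹)).eq]
      _ = (δ h * δ g) * (ρE h⁻¹ * ρE g⁻¹) := by simp only [mul_assoc]
      _ = δ g * δ h * (ρE h⁻¹ * ρE g⁻¹) := by rw [(hδc g (δ h)).eq]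
  have e1 : θ (t h) * θ (t g) = θ (t g) * θ (t h) := by
    rw [← map_mul, ← map_mul, mul_comm]
  have e2 : ρE h * θ (t g) = θ (t g) * ρE h := ((hcomm (t g) h).eq).symm
  have e3 : θ (t (g * h)) = ρE (g * h) + (θ (t h) * θ (t g) - θ (t h) * ρE g
      - ρE h * θ (t g) + ρE h * ρE g) := by
    have : θ (t (g * h)) = ρE (g * h) + (θ (t h) - ρE h) * (θ (t g) - ρE g) := by
      rw [key]; abel
    rw [this, sub_mul, mul_sub, mul_sub]
    abel
  have e4 : θ (t g * t h - t (g * h)) = θ (t g) * θ (t h) - θ (t (g * h)) := by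
    rw [map_sub, map_mul]
  rw [e4, e3, e1, e2, map_mul ρE h g]
  abel

end CHGroup

section Quot

variable {R : Type*} [CommRing R] {G : Type*} [Group G] {E : Type*} [Ring E]
  {T : Type*} [CommRing T]
  {V : Type*} [AddCommGroup V] [Module T V] [Module.Free T V] [Module.Finite T V]

variable (θ : R →+* E) (ρE : G →* E) (hcomm : ∀ (r : R) (g : G), Commute (θ r) (ρE g))
  (t : G → R)

/-- The action of the group algebra on the finite level. -/
def h84lAlpha : MonoidAlgebra R G →+* E := MonoidAlgebra.liftNCRingHom θ ρE hcomm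

theorem h84lAlpha_single (g : G) (r : R) :
    h84lAlpha θ ρE hcomm (single g r) = θ r * ρE g :=
  MonoidAlgebra.liftNCRingHom_single θ ρE hcomm g r

/-- The trace function on the group algebra. -/
def h84lTau : MonoidAlgebra R G →+ R := MonoidAlgebra.liftNC (AddMonoidHom.id R) t

theorem h84lTau_single (g : G) (r : R) : h84lTau t (single g r) = r * t g :=
  MonoidAlgebra.liftNC_single (AddMonoidHom.id R) t g r

theorem h84lAlpha_comm (r : R) (y : MonoidAlgebra R G) :
    Commute (θ r) (h84lAlpha θ ρE hcomm y) := by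
  induction y using MonoidAlgebra.induction_linear with
  | zero => rw [map_zero]; exact Commute.zero_right _
  | add x y hx hy => rw [map_add]; exact hx.add_right hy
  | single g s =>
    rw [h84lAlpha_single]
    exact (((Commute.all r s).map θ)).mul_right (hcomm r g)

/-- Polarised Cayley–Hamilton on the group algebra from the group elements. -/
theorem h84l_CH_groupAlgebra
    (hCH : ∀ g h : G, ρE (g * h) + ρE (h * g) - θ (t g) * ρE h - θ (t h) * ρE g
      + θ (t g * t h - t (g * h)) = 0) :
    H84lCH (h84lAlpha θ ρE hcomm) θ (fun x => h84lTau t x) := by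
  intro x y
  induction x using MonoidAlgebra.induction_linear with
  | zero => simp
  | add x₁ x₂ h₁ h₂ =>
    have e : (h84lAlpha θ ρE hcomm) ((x₁ + x₂) * y + y * (x₁ + x₂))
        - θ (h84lTau t (x₁ + x₂)) * (h84lAlpha θ ρE hcomm) y
        - θ (h84lTau t y) * (h84lAlpha θ ρE hcomm) (x₁ + x₂)
        + θ (h84lTau t (x₁ + x₂) * h84lTau t y - h84lTau t ((x₁ + x₂) * y)) =
      ((h84lAlpha θ ρE hcomm) (x₁ * y + y * x₁)
        - θ (h84lTau t x₁) * (h84lAlpha θ ρE hcomm) y
        - θ (h84lTau t y) * (h84lAlpha θ ρE hcomm) x₁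
        + θ (h84lTau t x₁ * h84lTau t y - h84lTau t (x₁ * y))) +
      ((h84lAlpha θ ρE hcomm) (x₂ * y + y * x₂)
        - θ (h84lTau t x₂) * (h84lAlpha θ ρE hcomm) y
        - θ (h84lTau t y) * (h84lAlpha θ ρE hcomm) x₂
        + θ (h84lTau t x₂ * h84lTau t y - h84lTau t (x₂ * y))) := by
      simp only [add_mul, mul_add, map_add, map_sub, map_mul]
      abel
    exact e.trans (by rw [h₁, h₂, add_zero])
  | single g r =>
    induction y using MonoidAlgebra.induction_linear with
    | zero => simp
    | add y₁ y₂ h₁ h₂ =>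
      have e : (h84lAlpha θ ρE hcomm) (single g r * (y₁ + y₂) + (y₁ + y₂) * single g r)
          - θ (h84lTau t (single g r)) * (h84lAlpha θ ρE hcomm) (y₁ + y₂)
          - θ (h84lTau t (y₁ + y₂)) * (h84lAlpha θ ρE hcomm) (single g r)
          + θ (h84lTau t (single g r) * h84lTau t (y₁ + y₂)
              - h84lTau t (single g r * (y₁ + y₂))) =
        ((h84lAlpha θ ρE hcomm) (single g r * y₁ + y₁ * single g r)
          - θ (h84lTau t (single g r)) * (h84lAlpha θ ρE hcomm) y₁
          - θ (h84lTau t y₁) * (h84lAlpha θ ρE hcomm) (single g r)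
          + θ (h84lTau t (single g r) * h84lTau t y₁ - h84lTau t (single g r * y₁))) +
        ((h84lAlpha θ ρE hcomm) (single g r * y₂ + y₂ * single g r)
          - θ (h84lTau t (single g r)) * (h84lAlpha θ ρE hcomm) y₂
          - θ (h84lTau t y₂) * (h84lAlpha θ ρE hcomm) (single g r)
          + θ (h84lTau t (single g r) * h84lTau t y₂ - h84lTau t (single g r * y₂))) := by
        simp only [add_mul, mul_add, map_add, map_sub, map_mul]
        abel
      exact e.trans (by rw [h₁, h₂, add_zero])
    | single h s =>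
      have h1 : (h84lAlpha θ ρE hcomm) (single g r * single h s) = θ (r * s) * ρE (g * h) := by
        rw [single_mul_single, h84lAlpha_single]
      have h2 : (h84lAlpha θ ρE hcomm) (single h s * single g r) = θ (r * s) * ρE (h * g) := by
        rw [single_mul_single, h84lAlpha_single, mul_comm s r]
      have h3 : θ (h84lTau t (single g r)) * (h84lAlpha θ ρE hcomm) (single h s) =
          θ (r * s) * (θ (t g) * ρE h) := by
        rw [h84lTau_single, h84lAlpha_single, ← mul_assoc, ← map_mul, ← mul_assoc, ← map_mul]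
        congr 2
        ring
      have h4 : θ (h84lTau t (single h s)) * (h84lAlpha θ ρE hcomm) (single g r) =
          θ (r * s) * (θ (t h) * ρE g) := by
        rw [h84lTau_single, h84lAlpha_single, ← mul_assoc, ← map_mul, ← mul_assoc, ← map_mul]
        congr 2
        ring
      have h5 : θ (h84lTau t (single g r) * h84lTau t (single h s)
          - h84lTau t (single g r * single h s)) = θ (r * s) * θ (t g * t h - t (g * h)) := by
        rw [single_mul_single, h84lTau_single, h84lTau_single, h84lTau_single, ← map_mul]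
        congr 1
        ring
      rw [map_add, h1, h2, h3, h4, h5, ← mul_add, ← mul_sub, ← mul_sub, ← mul_add, hCH g h,
        mul_zero]

variable (lam : R →+* T) (ρ : G →* Module.End T V) (I : Ideal T)

/-- The scalars of `R` acting on `V` through `lam`. -/
def h84lLamEnd : R →+* Module.End T V := (algebraMap T (Module.End T V)).comp lam

omit [Module.Free T V] [Module.Finite T V] in
theorem h84lLamEnd_comm (r : R) (g : G) : Commute (h84lLamEnd (V := V) lam r) (ρ g) := by
  rw [h84lLamEnd, RingHom.comp_apply]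
  exact Algebra.commute_algebraMap_left _ _

/-- The action of the group algebra on `V`. -/
def h84lBeta : MonoidAlgebra R G →+* Module.End T V :=
  MonoidAlgebra.liftNCRingHom (h84lLamEnd lam) ρ (h84lLamEnd_comm lam ρ)

omit [Module.Free T V] [Module.Finite T V] in
theorem h84lBeta_single (g : G) (r : R) :
    h84lBeta lam ρ (single g r) = lam r • ρ g := by
  rw [h84lBeta, MonoidAlgebra.liftNCRingHom_single, h84lLamEnd, RingHom.comp_apply,
    Algebra.smul_def]

omit [Module.Free T V] [Module.Finite T V] in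
theorem h84lBeta_single_one (g : G) : h84lBeta lam ρ (single g 1) = ρ g := by
  rw [h84lBeta_single, map_one, one_smul]

omit [Module.Free T V] [Module.Finite T V] in
theorem h84l_trace_groupAlgebra
    (htr : ∀ g : G, LinearMap.trace T V (ρ g) - lam (t g) ∈ I) (x : MonoidAlgebra R G) :
    LinearMap.trace T V (h84lBeta lam ρ x) - lam (h84lTau t x) ∈ I := by
  induction x using MonoidAlgebra.induction_linear with
  | zero => simp
  | add x y hx hy =>
    rw [map_add, map_add, map_add, map_add, add_sub_add_comm]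
    exact I.add_mem hx hy
  | single g r =>
    rw [h84lBeta_single, h84lTau_single, map_smul, map_mul, smul_eq_mul, ← mul_sub]
    exact I.mul_mem_left _ (htr g)

omit [Module.Free T V] [Module.Finite T V] in
theorem h84l_span_groupAlgebra (hspan : Submodule.span T (Set.range ρ) = ⊤) :
    Submodule.span T (Set.range (h84lBeta lam ρ)) = ⊤ := by
  rw [eq_top_iff, ← hspan]
  refine Submodule.span_mono ?_
  rintro _ ⟨g, rfl⟩
  exact ⟨single g 1, h84lBeta_single_one lam ρ g⟩

/-- **Kernel theorem, group-algebra form.** -/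
theorem h84l_group_ker
    (hCH : ∀ g h : G, ρE (g * h) + ρE (h * g) - θ (t g) * ρE h - θ (t h) * ρE g
      + θ (t g * t h - t (g * h)) = 0)
    (htr : ∀ g : G, LinearMap.trace T V (ρ g) - lam (t g) ∈ I)
    (hAnn : ∀ r : R, θ r = 0 → lam r ∈ I)
    (hspan : Submodule.span T (Set.range ρ) = ⊤)
    {ι : Type*} [Fintype ι] (b : Module.Basis ι T V) {i j : ι} (hij : i ≠ j)
    {x : MonoidAlgebra R G} (hx : h84lAlpha θ ρE hcomm x = 0) (v : V) :
    h84lBeta lam ρ x v ∈ I • (⊤ : Submodule T V) :=
  h84l_ker_le (h84lAlpha θ ρE hcomm) θ (fun x => h84lTau t x) lam (h84lBeta lam ρ) I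
    (h84lAlpha_comm θ ρE hcomm) (h84l_CH_groupAlgebra θ ρE hcomm t hCH)
    (h84l_trace_groupAlgebra t lam ρ I htr) hAnn (h84l_span_groupAlgebra lam ρ hspan) b hij hx v

end Quot

section Subquot

variable {R : Type*} [CommRing R] {G : Type*} [Group G] {E : Type*} [Ring E]
  {T : Type*} [CommRing T]
  {V : Type*} [AddCommGroup V] [Module T V] [Module.Free T V] [Module.Finite T V]
  {X : Type*} [AddCommGroup X] {κ : Type*}

/-- A representative in `T` of a class modulo `I`. -/
def h84lRep (I : Ideal T) (w : T ⧸ I) : T := (Ideal.Quotient.mk_surjective w).choose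

theorem h84lRep_spec (I : Ideal T) (w : T ⧸ I) : Ideal.Quotient.mk I (h84lRep I w) = w :=
  (Ideal.Quotient.mk_surjective w).choose_spec

theorem h84lRep_sub_mem (I : Ideal T) (c : T) : h84lRep I (Ideal.Quotient.mk I c) - c ∈ I := by
  rw [← Ideal.Quotient.eq]
  exact h84lRep_spec I _

omit [Module.Free T V] [Module.Finite T V] in
/-- Scalars congruent modulo `I` act in the same way on `V / I V`. -/
theorem h84l_mk_smul_congr (I : Ideal T) {c c' : T} (h : c - c' ∈ I) (v : V) :
    (Submodule.mkQ (I • (⊤ : Submodule T V))) (c • v) =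
      (Submodule.mkQ (I • (⊤ : Submodule T V))) (c' • v) := by
  rw [← sub_eq_zero, ← map_sub, ← sub_smul, Submodule.mkQ_apply, Submodule.Quotient.mk_eq_zero]
  exact Submodule.smul_mem_smul h Submodule.mem_top

variable (θ : R →+* E) (ρE : G →* E)
  (t : G → R) (lam : R →+* T) (ρ : G →* Module.End T V) (I : Ideal T)

/-- **The abstract subquotient theorem.** -/
theorem h84l_subquot (hcomm : ∀ (r : R) (g : G), Commute (θ r) (ρE g))
    (hCH : ∀ g h : G, ρE (g * h) + ρE (h * g) - θ (t g) * ρE h - θ (t h) * ρE g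
      + θ (t g * t h - t (g * h)) = 0)
    (htr : ∀ g : G, LinearMap.trace T V (ρ g) - lam (t g) ∈ I)
    (hAnn : ∀ r : R, θ r = 0 → lam r ∈ I)
    (hspan : Submodule.span T (Set.range ρ) = ⊤)
    {ι : Type*} [Fintype ι] (b : Module.Basis ι T V) {i j : ι} (hij : i ≠ j)
    [Finite (T ⧸ I)] [Finite κ]
    (act : G → X → X) (ev : E →+ (κ → X)) (hev : Function.Injective ev)
    (hact : ∀ (g : G) (φ : E) (k : κ), ev (ρE g * φ) k = act g (ev φ k)) :
    ∃ (r : ℕ) (Y : AddSubgroup (Fin r → X)) (φ : Y →+ (V ⧸ (I • (⊤ : Submodule T V)))),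
      ∃ hY : ∀ g : G, ∀ y ∈ Y, (fun m => act g (y m)) ∈ Y,
      (∀ (g : G) (y : Y) (h : I • (⊤ : Submodule T V) ≤ (I • (⊤ : Submodule T V)).comap (ρ g)),
        φ ⟨fun m => act g ((y : Fin r → X) m), hY g y y.2⟩ =
          Submodule.mapQ _ _ (ρ g) h (φ y)) ∧
      Function.Surjective φ := by
  classical
  letI : Fintype (T ⧸ I) := Fintype.ofFinite _
  let e : Fin (Nat.card ((T ⧸ I) × κ)) ≃ (T ⧸ I) × κ := (Finite.equivFin _).symm
  set α := h84lAlpha θ ρE hcomm with hα
  set β := h84lBeta lam ρ with hβ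
  set mkQ : V →ₗ[T] (V ⧸ (I • (⊤ : Submodule T V))) := Submodule.mkQ _ with hmkQ
  let Ψ : ((T ⧸ I) → MonoidAlgebra R G) →+ (Fin (Nat.card ((T ⧸ I) × κ)) → X) :=
    { toFun := fun x m => ev (α (x (e m).1)) (e m).2
      map_zero' := by funext m; simp
      map_add' := fun x y => by funext m; simp }
  let ψ : ((T ⧸ I) → MonoidAlgebra R G) →+ (V ⧸ (I • (⊤ : Submodule T V))) :=
    { toFun := fun x => ∑ w, mkQ (h84lRep I w • β (x w) (b i))
      map_zero' := by simp
      map_add' := fun x y => by simp [Finset.sum_add_distrib] }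
  have hΨ : ∀ x m, Ψ x m = ev (α (x (e m).1)) (e m).2 := fun _ _ => rfl
  have hψ : ∀ x, ψ x = ∑ w, mkQ (h84lRep I w • β (x w) (b i)) := fun _ => rfl
  -- the kernel theorem
  have hker0 : ∀ x : MonoidAlgebra R G, α x = 0 → mkQ (β x (b i)) = 0 := by
    intro x hx
    rw [hmkQ, Submodule.mkQ_apply, Submodule.Quotient.mk_eq_zero]
    exact h84l_group_ker θ ρE hcomm t lam ρ I hCH htr hAnn hspan b hij hx (b i)
  have hker : Ψ.rangeRestrict.ker ≤ ψ.ker := by
    intro x hx
    rw [AddMonoidHom.ker_rangeRestrict, AddMonoidHom.mem_ker] at hx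
    rw [AddMonoidHom.mem_ker, hψ]
    refine Finset.sum_eq_zero fun w _ => ?_
    have h0 : α (x w) = 0 := by
      apply hev
      rw [map_zero]
      funext k
      have := congrFun hx (e.symm (w, k))
      rw [hΨ, Equiv.apply_symm_apply] at this
      exact this
    rw [map_smul, hker0 _ h0, smul_zero]
  have hsurjΨ : Function.Surjective Ψ.rangeRestrict := Ψ.rangeRestrict_surjective
  let φ : Ψ.range →+ (V ⧸ (I • (⊤ : Submodule T V))) :=
    Ψ.rangeRestrict.liftOfRightInverse (Function.surjInv hsurjΨ)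
      (Function.rightInverse_surjInv hsurjΨ) ⟨ψ, hker⟩
  have hφ : ∀ x, φ (Ψ.rangeRestrict x) = ψ x := fun x =>
    AddMonoidHom.liftOfRightInverse_comp_apply _ _ _ ⟨ψ, hker⟩ x
  -- the action on the group algebra
  have hαg : ∀ (g : G) (x : MonoidAlgebra R G), α (single g 1 * x) = ρE g * α x := by
    intro g x
    rw [map_mul, hα, h84lAlpha_single, map_one, one_mul]
  have hβg : ∀ (g : G) (x : MonoidAlgebra R G), β (single g 1 * x) = ρ g * β x := by
    intro g x
    rw [map_mul, hβ, h84lBeta_single_one]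
  have hΨg : ∀ (g : G) (x : (T ⧸ I) → MonoidAlgebra R G),
      (fun m => act g (Ψ x m)) = Ψ (fun w => single g 1 * x w) := by
    intro g x
    funext m
    rw [hΨ, hΨ, hαg, hact]
  have hY : ∀ g : G, ∀ y ∈ Ψ.range, (fun m => act g (y m)) ∈ Ψ.range := by
    rintro g _ ⟨x, rfl⟩
    exact ⟨_, (hΨg g x).symm⟩
  refine ⟨_, Ψ.range, φ, hY, ?_, ?_⟩
  · rintro g ⟨_, x, rfl⟩ h
    have e1 : (⟨fun m => act g (Ψ x m), hY g _ ⟨x, rfl⟩⟩ : Ψ.range) =
        Ψ.rangeRestrict (fun w => single g 1 * x w) := Subtype.ext (hΨg g x)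
    have e2 : (⟨Ψ x, ⟨x, rfl⟩⟩ : Ψ.range) = Ψ.rangeRestrict x := rfl
    rw [e1, e2, hφ, hφ, hψ, hψ, map_sum]
    refine Finset.sum_congr rfl fun w _ => ?_
    rw [hmkQ, Submodule.mkQ_apply, Submodule.mkQ_apply, Submodule.mapQ_apply, hβg,
      Module.End.mul_apply, map_smul]
  · intro q
    obtain ⟨v, rfl⟩ := Submodule.mkQ_surjective _ q
    -- every vector is `Y (b i)` with `Y` in the span of the image of `β`
    have hv : v ∈ Submodule.span T (Set.range fun x : MonoidAlgebra R G => β x (b i)) := by
      have hY0 : (b.coord i).smulRight v ∈ Submodule.span T (Set.range β) := by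
        rw [hβ, h84l_span_groupAlgebra lam ρ hspan]
        exact Submodule.mem_top
      have h1 := Submodule.apply_mem_span_image_of_mem_span
        (LinearMap.applyₗ (R := T) (M := V) (M₂ := V) (b i)) hY0
      have h2 : (LinearMap.applyₗ (R := T) (M := V) (M₂ := V) (b i)) ((b.coord i).smulRight v)
          = v := by
        rw [LinearMap.applyₗ_apply_apply, LinearMap.smulRight_apply, Module.Basis.coord_apply,
          Module.Basis.repr_self, Finsupp.single_apply, if_pos rfl, one_smul]
      rw [h2] at h1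
      refine Submodule.span_mono ?_ h1
      rintro _ ⟨_, ⟨x, rfl⟩, rfl⟩
      exact ⟨x, rfl⟩
    have hrange : ∀ u : V, u ∈ Submodule.span T
        (Set.range fun x : MonoidAlgebra R G => β x (b i)) → mkQ u ∈ ψ.range := by
      intro u hu
      induction hu using Submodule.closure_induction with
      | zero => rw [map_zero]; exact ψ.range.zero_mem
      | add x y _ _ hx hy => rw [map_add]; exact ψ.range.add_mem hx hy
      | smul_mem c u hu =>
        obtain ⟨x, rfl⟩ := hu
        refine ⟨Pi.single (Ideal.Quotient.mk I c) x, ?_⟩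
        rw [hψ, Finset.sum_eq_single (Ideal.Quotient.mk I c)]
        · rw [Pi.single_eq_same]
          exact h84l_mk_smul_congr I (h84lRep_sub_mem I c) _
        · intro w _ hw
          rw [Pi.single_eq_of_ne hw, map_zero, LinearMap.zero_apply, smul_zero, map_zero]
        · intro h
          exact absurd (Finset.mem_univ _) h
    obtain ⟨x, hx⟩ := hrange v hv
    exact ⟨Ψ.rangeRestrict x, by rw [hφ]; exact hx⟩

end Subquot



end Fermat.Agent.P5
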