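import Fermat.Agent.P5.H85SFDictS
import Fermat.Agent.P5.H26PushPole

/-!
# Wave 5, pillar (P), block GEO-GENUS: the leaf `H26sDictSF` (helper85)

`h85f_dictSF : H26sDictSF` (exact frozen Prop of `P5/H26PushPole.lean`), UNCONDITIONAL:
DICT-S in the vocabulary of the special fibre, from the landed `h85f_dictS_incl`.
-/

set_option autoImplicit false

open AlgebraicCurve ModularCurve

noncomputable section

namespace Fermat.Agent.P5

open Fermat.Agent.S37 Fermat.Agent.Red.GV Fermat.Agent.Red

/-- **the leaf `H26sDictSF`** of the genus wiring. -/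
theorem h85f_dictSF : H26sDictSF := by
  intro ℓ hℓ M _ hM haux A hA E hE n y hy
  refine (h85f_dictS_incl A M hℓ hM haux hA E (fun Q => ?_) n y).mp hy
  rw [hE Q, max_comm]
  rfl

end Fermat.Agent.P5
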