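import Mathlib

/-!
# Wave 5, pillar (P): a Hopf algebra structure on an algebra of functions on a group (helper87)

Abstract setting (no Galois theory): `R` a commutative ring, `K` a field with `R → K` injective,
`M` an additive commutative group, `A` a commutative `R`-algebra with an algebra homomorphism
`ι : A →ₐ[R] (M → K)`.  Evaluation maps

* `h87yMu2 ι : A ⊗ A → (M × M → K)`, `a ⊗ b ↦ ((x, y) ↦ ι a x * ι b y)`,
* `h87yMu3 ι : A ⊗ (A ⊗ A) → (M × (M × M) → K)`.

If `μ₂`, `μ₃` are injective, `ι a (x + y)` is in the image of `μ₂` (Sweedler form), `ι a 0` is in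
`R` and `x ↦ ι a (-x)` is in the image of `ι`, then `A` is a cocommutative Hopf algebra over `R`
with `μ₂ (comul a) (x, y) = ι a (x + y)`, `counit a = ι a 0`, `ι (antipode a) x = ι a (-x)`
(`h87y_hopf`).
-/

set_option autoImplicit false
set_option linter.unusedSectionVars false
set_option linter.unusedVariables false

open TensorProduct

noncomputable section

namespace Fermat.Agent.P5

section Abstract

variable {R K A M : Type} [CommRing R] [Field K] [Algebra R K] [CommRing A] [Algebra R A]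

/-- pull-back of functions along a map. -/
def h87yPull (R : Type) {K : Type} [CommRing R] [Field K] [Algebra R K] {X Y : Type}
    (g : X → Y) : (Y → K) →ₐ[R] (X → K) :=
  AlgHom.pi (fun x => Pi.evalAlgHom R (fun _ : Y => K) (g x))

@[simp] theorem h87yPull_apply {X Y : Type} (g : X → Y) (f : Y → K) (x : X) :
    h87yPull R g f x = f (g x) := rfl

/-- `a ⊗ b ↦ ((x, y) ↦ ι a x * ι b y)`. -/
def h87yMu2 (ι : A →ₐ[R] (M → K)) : A ⊗[R] A →ₐ[R] (M × M → K) :=
  Algebra.TensorProduct.productMap ((h87yPull R Prod.fst).comp ι) ((h87yPull R Prod.snd).comp ι)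

@[simp] theorem h87yMu2_tmul (ι : A →ₐ[R] (M → K)) (a b : A) (xy : M × M) :
    h87yMu2 ι (a ⊗ₜ b) xy = ι a xy.1 * ι b xy.2 := rfl

/-- `a ⊗ t ↦ ((x, yz) ↦ ι a x * μ₂ t yz)`. -/
def h87yMu3 (ι : A →ₐ[R] (M → K)) : A ⊗[R] (A ⊗[R] A) →ₐ[R] (M × (M × M) → K) :=
  Algebra.TensorProduct.productMap ((h87yPull R Prod.fst).comp ι)
    ((h87yPull R Prod.snd).comp (h87yMu2 ι))

@[simp] theorem h87yMu3_tmul (ι : A →ₐ[R] (M → K)) (a : A) (t : A ⊗[R] A)
    (xyz : M × (M × M)) :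
    h87yMu3 ι (a ⊗ₜ t) xyz = ι a xyz.1 * h87yMu2 ι t xyz.2 := rfl

variable [AddCommGroup M] (ι : A →ₐ[R] (M → K))

/-! ### Comultiplication -/

/-- `a ↦ ((x, y) ↦ ι a (x + y))`. -/
def h87yDelta0 : A →ₐ[R] (M × M → K) :=
  (h87yPull R (fun xy : M × M => xy.1 + xy.2)).comp ι

@[simp] theorem h87yDelta0_apply (a : A) (xy : M × M) :
    h87yDelta0 ι a xy = ι a (xy.1 + xy.2) := rfl

theorem h87y_delta0_mem
    (hΔ : ∀ a : A, ∃ t : A ⊗[R] A, ∀ x y, h87yMu2 ι t (x, y) = ι a (x + y)) (a : A) :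
    h87yDelta0 ι a ∈ (h87yMu2 ι).range := by
  obtain ⟨t, ht⟩ := hΔ a
  refine ⟨t, ?_⟩
  funext xy
  exact ht xy.1 xy.2

/-- the comultiplication. -/
def h87yComul (hμ₂ : Function.Injective (h87yMu2 ι))
    (hΔ : ∀ a : A, ∃ t : A ⊗[R] A, ∀ x y, h87yMu2 ι t (x, y) = ι a (x + y)) :
    A →ₐ[R] A ⊗[R] A :=
  ((AlgEquiv.ofInjective (h87yMu2 ι) hμ₂).symm : (h87yMu2 ι).range →ₐ[R] A ⊗[R] A).comp
    ((h87yDelta0 ι).codRestrict (h87yMu2 ι).range (h87y_delta0_mem ι hΔ))

theorem h87yMu2_comul (hμ₂ : Function.Injective (h87yMu2 ι))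
    (hΔ : ∀ a : A, ∃ t : A ⊗[R] A, ∀ x y, h87yMu2 ι t (x, y) = ι a (x + y)) (a : A) :
    h87yMu2 ι (h87yComul ι hμ₂ hΔ a) = h87yDelta0 ι a := by
  have h := (AlgEquiv.ofInjective (h87yMu2 ι) hμ₂).apply_symm_apply
    ((h87yDelta0 ι).codRestrict (h87yMu2 ι).range (h87y_delta0_mem ι hΔ) a)
  exact congrArg Subtype.val h

theorem h87yMu2_comul_apply (hμ₂ : Function.Injective (h87yMu2 ι))
    (hΔ : ∀ a : A, ∃ t : A ⊗[R] A, ∀ x y, h87yMu2 ι t (x, y) = ι a (x + y)) (a : A)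
    (x y : M) : h87yMu2 ι (h87yComul ι hμ₂ hΔ a) (x, y) = ι a (x + y) := by
  rw [h87yMu2_comul]; rfl

/-! ### Counit -/

/-- `a ↦ ι a 0`. -/
def h87yEps0 : A →ₐ[R] K := (Pi.evalAlgHom R (fun _ : M => K) 0).comp ι

@[simp] theorem h87yEps0_apply (a : A) : h87yEps0 ι a = ι a 0 := rfl

theorem h87y_eps0_mem (hε : ∀ a : A, ∃ r : R, algebraMap R K r = ι a 0) (a : A) :
    h87yEps0 ι a ∈ (Algebra.ofId R K).range := by
  obtain ⟨r, hr⟩ := hε a
  exact ⟨r, hr⟩

/-- the counit. -/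
def h87yCounit (hRK : Function.Injective (algebraMap R K))
    (hε : ∀ a : A, ∃ r : R, algebraMap R K r = ι a 0) : A →ₐ[R] R :=
  ((AlgEquiv.ofInjective (Algebra.ofId R K) hRK).symm : (Algebra.ofId R K).range →ₐ[R] R).comp
    ((h87yEps0 ι).codRestrict (Algebra.ofId R K).range (h87y_eps0_mem ι hε))

theorem h87y_counit_apply (hRK : Function.Injective (algebraMap R K))
    (hε : ∀ a : A, ∃ r : R, algebraMap R K r = ι a 0) (a : A) :
    algebraMap R K (h87yCounit ι hRK hε a) = ι a 0 := by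
  have h := (AlgEquiv.ofInjective (Algebra.ofId R K) hRK).apply_symm_apply
    ((h87yEps0 ι).codRestrict (Algebra.ofId R K).range (h87y_eps0_mem ι hε) a)
  exact congrArg Subtype.val h

/-! ### The coalgebra axioms -/

section Axioms

variable (hμ₂ : Function.Injective (h87yMu2 ι))
  (hRK : Function.Injective (algebraMap R K))
  (hΔ : ∀ a : A, ∃ t : A ⊗[R] A, ∀ x y, h87yMu2 ι t (x, y) = ι a (x + y))
  (hε : ∀ a : A, ∃ r : R, algebraMap R K r = ι a 0)

theorem h87y_mu3_map_id_comul :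
    (h87yMu3 ι).comp (Algebra.TensorProduct.map (AlgHom.id R A) (h87yComul ι hμ₂ hΔ)) =
      (h87yPull R (fun xyz : M × (M × M) => (xyz.1, xyz.2.1 + xyz.2.2))).comp (h87yMu2 ι) := by
  apply Algebra.TensorProduct.ext'
  intro a b
  funext xyz
  rw [AlgHom.comp_apply, Algebra.TensorProduct.map_tmul, h87yMu3_tmul, AlgHom.comp_apply,
    h87yPull_apply, h87yMu2_tmul]
  rw [show (xyz.2 : M × M) = (xyz.2.1, xyz.2.2) from rfl, h87yMu2_comul_apply]
  rfl

theorem h87y_mu3_assoc_tmul (s : A ⊗[R] A) (b : A) (xyz : M × (M × M)) :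
    h87yMu3 ι ((Algebra.TensorProduct.assoc R R R A A A) (s ⊗ₜ b)) xyz =
      h87yMu2 ι s (xyz.1, xyz.2.1) * ι b xyz.2.2 := by
  induction s using TensorProduct.induction_on with
  | zero => simp
  | tmul a₁ a₂ =>
    rw [Algebra.TensorProduct.assoc_tmul, h87yMu3_tmul, h87yMu2_tmul, h87yMu2_tmul]
    ring
  | add s₁ s₂ h₁ h₂ =>
    rw [TensorProduct.add_tmul, map_add, map_add, map_add, Pi.add_apply, Pi.add_apply, h₁, h₂]
    ring

theorem h87y_mu3_assoc_map_comul_id :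
    (h87yMu3 ι).comp ((Algebra.TensorProduct.assoc R R R A A A).toAlgHom.comp
      (Algebra.TensorProduct.map (h87yComul ι hμ₂ hΔ) (AlgHom.id R A))) =
      (h87yPull R (fun xyz : M × (M × M) => (xyz.1 + xyz.2.1, xyz.2.2))).comp (h87yMu2 ι) := by
  apply Algebra.TensorProduct.ext'
  intro a b
  funext xyz
  rw [AlgHom.comp_apply, AlgHom.comp_apply, Algebra.TensorProduct.map_tmul]
  show h87yMu3 ι ((Algebra.TensorProduct.assoc R R R A A A)
    (h87yComul ι hμ₂ hΔ a ⊗ₜ[R] b)) xyz = _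
  rw [h87y_mu3_assoc_tmul, h87yMu2_comul_apply, AlgHom.comp_apply, h87yPull_apply, h87yMu2_tmul]

theorem h87y_coassoc (hμ₃ : Function.Injective (h87yMu3 ι)) :
    (Algebra.TensorProduct.assoc R R R A A A).toAlgHom.comp
      ((Algebra.TensorProduct.map (h87yComul ι hμ₂ hΔ) (.id R A)).comp (h87yComul ι hμ₂ hΔ)) =
      (Algebra.TensorProduct.map (.id R A) (h87yComul ι hμ₂ hΔ)).comp (h87yComul ι hμ₂ hΔ) := by
  apply AlgHom.ext
  intro a
  apply hμ₃
  have h1 := congrArg (fun φ => φ (h87yComul ι hμ₂ hΔ a)) (h87y_mu3_assoc_map_comul_id ι hμ₂ hΔ)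
  have h2 := congrArg (fun φ => φ (h87yComul ι hμ₂ hΔ a)) (h87y_mu3_map_id_comul ι hμ₂ hΔ)
  simp only [AlgHom.comp_apply] at h1 h2
  rw [AlgHom.comp_apply, AlgHom.comp_apply, AlgHom.comp_apply, h1, h2]
  funext xyz
  rw [h87yPull_apply, h87yPull_apply, h87yMu2_comul_apply, h87yMu2_comul_apply, add_assoc]

theorem h87y_lid_map_counit :
    ι.comp ((Algebra.TensorProduct.lid R A).toAlgHom.comp
      (Algebra.TensorProduct.map (h87yCounit ι hRK hε) (AlgHom.id R A))) =
      (h87yPull R (fun y : M => ((0 : M), y))).comp (h87yMu2 ι) := by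
  apply Algebra.TensorProduct.ext'
  intro a b
  funext y
  rw [AlgHom.comp_apply, AlgHom.comp_apply, Algebra.TensorProduct.map_tmul]
  show ι ((Algebra.TensorProduct.lid R A) (h87yCounit ι hRK hε a ⊗ₜ[R] b)) y = _
  rw [Algebra.TensorProduct.lid_tmul, map_smul, Pi.smul_apply, Algebra.smul_def,
    h87y_counit_apply, AlgHom.comp_apply, h87yPull_apply, h87yMu2_tmul]

theorem h87y_rid_map_counit :
    ι.comp ((Algebra.TensorProduct.rid R R A).toAlgHom.comp
      (Algebra.TensorProduct.map (AlgHom.id R A) (h87yCounit ι hRK hε))) =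
      (h87yPull R (fun x : M => (x, (0 : M)))).comp (h87yMu2 ι) := by
  apply Algebra.TensorProduct.ext'
  intro a b
  funext x
  rw [AlgHom.comp_apply, AlgHom.comp_apply, Algebra.TensorProduct.map_tmul]
  show ι ((Algebra.TensorProduct.rid R R A) (a ⊗ₜ[R] h87yCounit ι hRK hε b)) x = _
  rw [Algebra.TensorProduct.rid_tmul, map_smul, Pi.smul_apply, Algebra.smul_def,
    h87y_counit_apply, AlgHom.comp_apply, h87yPull_apply, h87yMu2_tmul]
  exact mul_comm _ _

theorem h87y_rTensor (hι : Function.Injective ι) :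
    (Algebra.TensorProduct.map (h87yCounit ι hRK hε) (.id R A)).comp (h87yComul ι hμ₂ hΔ) =
      (Algebra.TensorProduct.lid R A).symm := by
  apply AlgHom.ext
  intro a
  apply (Algebra.TensorProduct.lid R A).injective
  apply hι
  have h1 := congrArg (fun φ => φ (h87yComul ι hμ₂ hΔ a)) (h87y_lid_map_counit ι hRK hε)
  simp only [AlgHom.comp_apply] at h1
  rw [AlgHom.comp_apply]
  refine Eq.trans h1 ?_
  funext y
  rw [h87yPull_apply, h87yMu2_comul_apply, zero_add]
  exact congrArg (fun c => ι c y) ((Algebra.TensorProduct.lid R A).apply_symm_apply a).symm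

theorem h87y_lTensor (hι : Function.Injective ι) :
    (Algebra.TensorProduct.map (.id R A) (h87yCounit ι hRK hε)).comp (h87yComul ι hμ₂ hΔ) =
      (Algebra.TensorProduct.rid R R A).symm := by
  apply AlgHom.ext
  intro a
  apply (Algebra.TensorProduct.rid R R A).injective
  apply hι
  have h1 := congrArg (fun φ => φ (h87yComul ι hμ₂ hΔ a)) (h87y_rid_map_counit ι hRK hε)
  simp only [AlgHom.comp_apply] at h1
  rw [AlgHom.comp_apply]
  refine Eq.trans h1 ?_
  funext x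
  rw [h87yPull_apply, h87yMu2_comul_apply, add_zero]
  exact congrArg (fun c => ι c x) ((Algebra.TensorProduct.rid R R A).apply_symm_apply a).symm

/-- the bialgebra structure. -/
@[reducible] def h87yBialgebra (hμ₃ : Function.Injective (h87yMu3 ι))
    (hι : Function.Injective ι) : Bialgebra R A :=
  Bialgebra.ofAlgHom (h87yComul ι hμ₂ hΔ) (h87yCounit ι hRK hε)
    (h87y_coassoc ι hμ₂ hΔ hμ₃) (h87y_rTensor ι hμ₂ hRK hΔ hε hι)
    (h87y_lTensor ι hμ₂ hRK hΔ hε hι)

end Axioms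

end Abstract

end Fermat.Agent.P5
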