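import Fermat.Agent.P5.H87Indep

/-!
# Wave 5, pillar (P): the bridge `function order ⇒ flat`, part 1 (helper87)

`R = ℤ_(p) = GaloisRep.ratLocalizedAt p`, `M` a set with an action `act : G_ℚ → M → M`.
`H` is an `R`-subalgebra of `M → ℚ̄`, finitely generated as an `R`-module, consisting of
`G_ℚ`-equivariant functions.

* `h87x_free`, `h87x_finite`, `h87x_torsionFree` : `H` is a finite free `R`-module;
* `h87x_basis_indep` : an `R`-basis of `H` is `ℚ̄`-linearly independent;
* `h87xMu2`, `h87xMu3` : the evaluation maps `H ⊗ H → (M × M → ℚ̄)`,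
  `H ⊗ (H ⊗ H) → (M × (M × M) → ℚ̄)`; `h87xMu2_injective`, `h87xMu3_injective`.
-/

set_option autoImplicit false
set_option linter.unusedSectionVars false
set_option linter.unusedVariables false

open TensorProduct GaloisRep

noncomputable section

namespace Fermat.Agent.P5

local notation "Qb" => AlgebraicClosure ℚ
local notation "GQ" => (AlgebraicClosure ℚ ≃ₐ[ℚ] AlgebraicClosure ℚ)

section Basics

variable (p : ℕ) {M : Type} (H : Subalgebra (ratLocalizedAt p) (M → Qb))

theorem h87x_algebraMap_injective :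
    Function.Injective (algebraMap (ratLocalizedAt p) Qb) := by
  intro a b hab
  apply Subtype.ext
  exact (algebraMap ℚ Qb).injective hab

theorem h87x_torsionFree : Module.IsTorsionFree (ratLocalizedAt p) H := by
  refine Module.IsTorsionFree.of_smul_eq_zero (fun r f hrf => ?_)
  by_cases hr : r = 0
  · exact Or.inl hr
  right
  apply Subtype.ext
  funext x
  have h := congrFun (congrArg Subtype.val hrf) x
  have h2 : algebraMap (ratLocalizedAt p) Qb r * (f : M → Qb) x = 0 := by
    rw [← Algebra.smul_def]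
    exact h
  rcases mul_eq_zero.mp h2 with h3 | h3
  · exact absurd ((map_eq_zero_iff _ (h87x_algebraMap_injective p)).mp h3) hr
  · exact h3

theorem h87x_finite (hfg : (Subalgebra.toSubmodule H).FG) :
    Module.Finite (ratLocalizedAt p) H :=
  Module.Finite.of_fg hfg

theorem h87x_free (hfg : (Subalgebra.toSubmodule H).FG) :
    Module.Free (ratLocalizedAt p) H := by
  have h1 := h87x_isPrincipalIdealRing p
  have h2 := h87x_torsionFree p H
  have h3 := h87x_finite p H hfg
  exact Module.free_of_finite_type_torsion_free'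

/-- an `R`-basis of `H` is `ℚ̄`-linearly independent (as functions). -/
theorem h87x_basis_indep (act : GQ → M → M) (hsurj : ∀ σ, Function.Surjective (act σ))
    (heq : ∀ f ∈ H, ∀ σ x, f (act σ x) = σ (f x))
    {ι : Type} [Fintype ι] (b : Module.Basis ι (ratLocalizedAt p) H) :
    LinearIndependent Qb (fun i => ((b i : H) : M → Qb)) := by
  have hR : LinearIndependent (ratLocalizedAt p) (fun i => ((b i : H) : M → Qb)) := by
    have := b.linearIndependent.map' (Subalgebra.val H).toLinearMap
      (LinearMap.ker_eq_bot.mpr Subtype.val_injective)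
    exact this
  have hF := h87x_isFractionRing p
  have hQ : LinearIndependent ℚ (fun i => ((b i : H) : M → Qb)) :=
    (LinearIndependent.iff_fractionRing (ratLocalizedAt p) ℚ).mp hR
  exact h87x_artin act hsurj _ (fun i σ x => heq _ (b i).2 σ x) hQ

end Basics

/-! ## Evaluation maps on tensor powers -/

section Maps

variable (p : ℕ) {M : Type} (H : Subalgebra (ratLocalizedAt p) (M → Qb))

/-- pull-back of functions along a map. -/
def h87xPull {X Y : Type} (g : X → Y) : (Y → Qb) →ₐ[ratLocalizedAt p] (X → Qb) :=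
  AlgHom.pi (fun x => Pi.evalAlgHom (ratLocalizedAt p) (fun _ : Y => Qb) (g x))

@[simp] theorem h87xPull_apply {X Y : Type} (g : X → Y) (f : Y → Qb) (x : X) :
    h87xPull p g f x = f (g x) := rfl

/-- `a ⊗ b ↦ ((x, y) ↦ a x * b y)`. -/
def h87xMu2 : H ⊗[ratLocalizedAt p] H →ₐ[ratLocalizedAt p] (M × M → Qb) :=
  Algebra.TensorProduct.productMap ((h87xPull p Prod.fst).comp H.val)
    ((h87xPull p Prod.snd).comp H.val)

@[simp] theorem h87xMu2_tmul (a b : H) (xy : M × M) :
    h87xMu2 p H (a ⊗ₜ b) xy = (a : M → Qb) xy.1 * (b : M → Qb) xy.2 := rfl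

/-- `a ⊗ t ↦ ((x, yz) ↦ a x * μ₂ t yz)`. -/
def h87xMu3 : H ⊗[ratLocalizedAt p] (H ⊗[ratLocalizedAt p] H) →ₐ[ratLocalizedAt p]
    (M × (M × M) → Qb) :=
  Algebra.TensorProduct.productMap ((h87xPull p Prod.fst).comp H.val)
    ((h87xPull p Prod.snd).comp (h87xMu2 p H))

@[simp] theorem h87xMu3_tmul (a : H) (t : H ⊗[ratLocalizedAt p] H) (xyz : M × (M × M)) :
    h87xMu3 p H (a ⊗ₜ t) xyz = (a : M → Qb) xyz.1 * h87xMu2 p H t xyz.2 := rfl

theorem h87x_smul_one_injective :
    Function.Injective (fun r : ratLocalizedAt p => r • (1 : Qb)) := by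
  intro a b hab
  apply h87x_algebraMap_injective p
  simpa [Algebra.smul_def] using hab

theorem h87x_restrict {X ι : Type} [Fintype ι] (v : ι → X → Qb)
    (hv : LinearIndependent Qb v) : LinearIndependent (ratLocalizedAt p) v := by
  rw [Fintype.linearIndependent_iff] at hv ⊢
  intro c hc i
  have h := hv (fun i => algebraMap (ratLocalizedAt p) Qb (c i)) (by
    funext x
    have h1 := congrFun hc x
    simp only [Finset.sum_apply, Pi.zero_apply, Algebra.smul_def] at h1
    simp only [Finset.sum_apply, Pi.smul_apply, Pi.zero_apply, smul_eq_mul]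
    exact h1) i
  exact (map_eq_zero_iff _ (h87x_algebraMap_injective p)).mp h

theorem h87xMu2_basis {ι : Type} [Fintype ι] (b : Module.Basis ι (ratLocalizedAt p) H) :
    (fun ij => h87xMu2 p H ((b.tensorProduct b) ij)) =
      (fun ij : ι × ι => fun xy : M × M =>
        ((b ij.1 : H) : M → Qb) xy.1 * ((b ij.2 : H) : M → Qb) xy.2) := by
  funext ij
  funext xy
  rw [Module.Basis.tensorProduct_apply', h87xMu2_tmul]

theorem h87xMu3_basis {ι : Type} [Fintype ι] (b : Module.Basis ι (ratLocalizedAt p) H) :
    (fun ijk => h87xMu3 p H ((b.tensorProduct (b.tensorProduct b)) ijk)) =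
      (fun ijk : ι × (ι × ι) => fun xyz : M × (M × M) =>
        ((b ijk.1 : H) : M → Qb) xyz.1 *
          (((b ijk.2.1 : H) : M → Qb) xyz.2.1 * ((b ijk.2.2 : H) : M → Qb) xyz.2.2)) := by
  funext ijk
  funext xyz
  rw [Module.Basis.tensorProduct_apply', h87xMu3_tmul, Module.Basis.tensorProduct_apply',
    h87xMu2_tmul]

theorem h87xMu2_injective (act : GQ → M → M) (hsurj : ∀ σ, Function.Surjective (act σ))
    (heq : ∀ f ∈ H, ∀ σ x, f (act σ x) = σ (f x))
    (hfg : (Subalgebra.toSubmodule H).FG) : Function.Injective (h87xMu2 p H) := by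
  have hfree := h87x_free p H hfg
  have hfin := h87x_finite p H hfg
  set b := Module.Free.chooseBasis (ratLocalizedAt p) H with hb
  have hφ := h87x_basis_indep p H act hsurj heq b
  have h2 := h87x_prod_indep _ _ hφ hφ
  have h3 := h87x_restrict p _ h2
  exact h87x_inj_of_basis (h87xMu2 p H) (b.tensorProduct b) (by rw [h87xMu2_basis]; exact h3)

theorem h87xMu3_injective (act : GQ → M → M) (hsurj : ∀ σ, Function.Surjective (act σ))
    (heq : ∀ f ∈ H, ∀ σ x, f (act σ x) = σ (f x))
    (hfg : (Subalgebra.toSubmodule H).FG) : Function.Injective (h87xMu3 p H) := by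
  have hfree := h87x_free p H hfg
  have hfin := h87x_finite p H hfg
  set b := Module.Free.chooseBasis (ratLocalizedAt p) H with hb
  have hφ := h87x_basis_indep p H act hsurj heq b
  have h2 := h87x_prod_indep _ _ hφ hφ
  have h23 := h87x_prod_indep _ _ hφ h2
  have h3 := h87x_restrict p _ h23
  exact h87x_inj_of_basis (h87xMu3 p H) (b.tensorProduct (b.tensorProduct b))
    (by rw [h87xMu3_basis]; exact h3)

end Maps

end Fermat.Agent.P5
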