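import Mathlib

/-!
# Wave 5, pillar (P): the points of a function order are evaluations (helper87)

Abstract (Mathlib only).  `A` a commutative `R`-algebra, free of rank `n ≤ |M|`, with an algebra
homomorphism `ι : A →ₐ[R] (M → K)` separating the points of the finite set `M`.  Then every
`R`-algebra homomorphism `A → K` is the evaluation at a point of `M` (`h87z_points`): the
`|M|` evaluations and a further homomorphism would be `|M| + 1` linearly independent elements
(Dedekind) of the `n`-dimensional `K`-vector space `Hom_R (A, K)`.
-/

set_option autoImplicit false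
set_option linter.unusedSectionVars false
set_option linter.unusedVariables false
set_option linter.style.haveILetI false

noncomputable section

namespace Fermat.Agent.P5

section Points

variable {R K A M : Type} [CommRing R] [Field K] [Algebra R K] [CommRing A] [Algebra R A]

/-- the coercion `Hom_R (A, K) → (A → K)`, as a `K`-linear map. -/
def h87zCoe : (A →ₗ[R] K) →ₗ[K] (A → K) where
  toFun f := f
  map_add' _ _ := rfl
  map_smul' _ _ := rfl

theorem h87z_points [Finite M] (ι : A →ₐ[R] (M → K))
    (hsep : ∀ x y : M, (∀ a : A, ι a x = ι a y) → x = y)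
    (n : ℕ) (b : Module.Basis (Fin n) R A) (hn : n ≤ Nat.card M) (φ : A →ₐ[R] K) :
    ∃ x : M, ∀ a : A, φ a = ι a x := by
  classical
  by_contra hcon
  have hcon' : ∀ x : M, ∃ a : A, φ a ≠ ι a x := by
    intro x
    by_contra h
    exact hcon ⟨x, fun a => by by_contra h'; exact h ⟨a, h'⟩⟩
  haveI := Fintype.ofFinite M
  let ψ : Option M → (A →ₐ[R] K) :=
    fun o => o.elim φ (fun x => (Pi.evalAlgHom R (fun _ : M => K) x).comp ι)
  have hψinj : Function.Injective (fun o => ((ψ o : A →ₐ[R] K) : A →* K)) := by
    intro o o' h
    have h' : ∀ a, ψ o a = ψ o' a := fun a => congrArg (fun f : A →* K => f a) h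
    rcases o with _ | x <;> rcases o' with _ | y
    · rfl
    · exfalso
      obtain ⟨a, ha⟩ := hcon' y
      exact ha (h' a)
    · exfalso
      obtain ⟨a, ha⟩ := hcon' x
      exact ha (h' a).symm
    · exact congrArg some (hsep x y h')
  have h1 : LinearIndependent K (fun o => (⇑(ψ o) : A → K)) :=
    (linearIndependent_monoidHom A K).comp _ hψinj
  have h2 : LinearIndependent K (fun o => (ψ o).toLinearMap) :=
    LinearIndependent.of_comp h87zCoe h1
  have e : (Fin n → K) ≃ₗ[K] (A →ₗ[R] K) := b.constr K
  haveI : Module.Finite K (A →ₗ[R] K) := Module.Finite.equiv e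
  have h3 := h2.fintype_card_le_finrank
  have h4 : Module.finrank K (A →ₗ[R] K) = n := by
    rw [← e.finrank_eq, Module.finrank_fin_fun]
  rw [h4, Fintype.card_option, ← Nat.card_eq_fintype_card] at h3
  omega

end Points

end Fermat.Agent.P5
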