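import Fermat.Agent.P5.H87Hopf
import Fermat.Agent.P5.H87Points
import Fermat.Agent.P5.H87Maps
import Fermat.Agent.P5.H98Zp

/-!
# Wave 5, pillar (P): adapter `function order ⇒ flat` (helper87)

`R = ℤ_(p) = GaloisRep.ratLocalizedAt p` (`p` prime), `M` a finite additive commutative group with
a map `act : G_ℚ → M → M`, `H` an `R`-subalgebra of `M → ℚ̄` which is

* finitely generated as an `R`-module (`hfg`),
* made of equivariant functions (`heq`),
* separating the points of `M` (`hsep`),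
* closed under `f ↦ ((x, y) ↦ f (x + y))` in Sweedler form (`hcomul`).

Then `H` is a finite flat cocommutative Hopf algebra over `R` whose group of `ℚ̄`-points is `M`,
`G_ℚ`-equivariantly: `h87x_flat_of_order` (the body of `GaloisRepAdic.IsFlatAt` at one level, and
of the conclusion of the frozen statement S19).
-/

set_option autoImplicit false
set_option linter.unusedSectionVars false
set_option linter.unusedVariables false
set_option linter.style.haveILetI false

open TensorProduct GaloisRep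

noncomputable section

namespace Fermat.Agent.P5

local notation "Qb" => AlgebraicClosure ℚ
local notation "GQ" => (AlgebraicClosure ℚ ≃ₐ[ℚ] AlgebraicClosure ℚ)

section Order

variable (p : ℕ) {M : Type} [AddCommGroup M] (act : GQ → M → M)
  (H : Subalgebra (ratLocalizedAt p) (M → Qb))

theorem h87x_mu2_eq : h87yMu2 (R := ratLocalizedAt p) (K := Qb) H.val = h87xMu2 p H := rfl

theorem h87x_mu3_eq : h87yMu3 (R := ratLocalizedAt p) (K := Qb) H.val = h87xMu3 p H := rfl

/-- Sweedler closure gives the comultiplication on the level of tensors. -/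
theorem h87x_delta
    (hcomul : ∀ f ∈ H, ∃ (n : ℕ) (a b : Fin n → M → Qb), (∀ i, a i ∈ H) ∧ (∀ i, b i ∈ H) ∧
      ∀ x y, f (x + y) = ∑ i, a i x * b i y) (a : H) :
    ∃ t : H ⊗[ratLocalizedAt p] H, ∀ x y,
      h87yMu2 (R := ratLocalizedAt p) (K := Qb) H.val t (x, y) = H.val a (x + y) := by
  obtain ⟨n, u, v, hu, hv, huv⟩ := hcomul a.1 a.2
  refine ⟨∑ i, (⟨u i, hu i⟩ : H) ⊗ₜ[ratLocalizedAt p] (⟨v i, hv i⟩ : H), fun x y => ?_⟩
  rw [map_sum, Finset.sum_apply]
  exact (huv x y).symm

/-- an order is closed under `f ↦ f (k • ·)`. -/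
theorem h87x_nsmul_mem
    (hcomul : ∀ f ∈ H, ∃ (n : ℕ) (a b : Fin n → M → Qb), (∀ i, a i ∈ H) ∧ (∀ i, b i ∈ H) ∧
      ∀ x y, f (x + y) = ∑ i, a i x * b i y)
    (hε : ∀ f ∈ H, ∃ r : ratLocalizedAt p, algebraMap (ratLocalizedAt p) Qb r = f 0)
    (k : ℕ) : ∀ f ∈ H, (fun x : M => f (k • x)) ∈ H := by
  induction k with
  | zero =>
    intro f hf
    obtain ⟨r, hr⟩ := hε f hf
    have h1 : (fun x : M => f ((0 : ℕ) • x)) = algebraMap (ratLocalizedAt p) (M → Qb) r := by
      funext x
      rw [zero_smul, ← hr]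
      rfl
    rw [h1]
    exact Subalgebra.algebraMap_mem H r
  | succ k ih =>
    intro f hf
    obtain ⟨n, u, v, hu, hv, huv⟩ := hcomul f hf
    have h1 : (fun x : M => f ((k + 1) • x)) =
        ∑ i, (fun x : M => u i (k • x)) * v i := by
      funext x
      rw [succ_nsmul, huv, Finset.sum_apply]
      rfl
    rw [h1]
    exact Subalgebra.sum_mem H (fun i _ => Subalgebra.mul_mem H (ih _ (hu i)) (hv i))

/-- an order on a finite group is closed under `f ↦ f (- ·)`. -/
theorem h87x_neg_mem [Finite M]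
    (hcomul : ∀ f ∈ H, ∃ (n : ℕ) (a b : Fin n → M → Qb), (∀ i, a i ∈ H) ∧ (∀ i, b i ∈ H) ∧
      ∀ x y, f (x + y) = ∑ i, a i x * b i y)
    (hε : ∀ f ∈ H, ∃ r : ratLocalizedAt p, algebraMap (ratLocalizedAt p) Qb r = f 0)
    (f : M → Qb) (hf : f ∈ H) : (fun x : M => f (-x)) ∈ H := by
  have hpos : 0 < Nat.card M := Nat.card_pos
  have h1 : (fun x : M => f (-x)) = (fun x : M => f ((Nat.card M - 1) • x)) := by
    funext x
    congr 1
    have h2 : (Nat.card M - 1) • x + x = 0 := by
      rw [← succ_nsmul, Nat.sub_add_cancel hpos]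
      exact card_nsmul_eq_zero'
    exact (eq_neg_of_add_eq_zero_left h2).symm
  rw [h1]
  exact h87x_nsmul_mem p H hcomul hε _ f hf

/-- **Adapter: a function order gives a finite flat group scheme.** -/
theorem h87x_flat_of_order [Fact p.Prime] [Finite M]
    (hfg : (Subalgebra.toSubmodule H).FG)
    (heq : ∀ f ∈ H, ∀ σ x, f (act σ x) = σ (f x))
    (hsep : ∀ x y : M, (∀ f ∈ H, f x = f y) → x = y)
    (hcomul : ∀ f ∈ H, ∃ (n : ℕ) (a b : Fin n → M → Qb), (∀ i, a i ∈ H) ∧ (∀ i, b i ∈ H) ∧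
      ∀ x y, f (x + y) = ∑ i, a i x * b i y) :
    ∃ (Hh : Type) (_ : CommRing Hh) (_ : HopfAlgebra (ratLocalizedAt p) Hh),
      Module.Finite (ratLocalizedAt p) Hh ∧
      Module.Flat (ratLocalizedAt p) Hh ∧
      Coalgebra.IsCocomm (ratLocalizedAt p) Hh ∧
      ∃ e : WithConv (Hh →ₐ[ratLocalizedAt p] Qb) ≃ M,
        (∀ f g, e (f * g) = e f + e g) ∧
        ∀ (σ : GQ) (f g : WithConv (Hh →ₐ[ratLocalizedAt p] Qb)),
          (∀ h : Hh, g h = σ (f h)) → e g = act σ (e f) := by
  have hsurj : ∀ σ, Function.Surjective (act σ) :=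
    fun σ => h98p_act_surjective (F := ℚ) act H heq hsep σ
  have hadd := h98p_act_add (F := ℚ) act H heq hsep hcomul
  have hzero : ∀ σ, act σ 0 = 0 := by
    intro σ
    have h := hadd σ 0 0
    rw [add_zero] at h
    exact left_eq_add.mp h
  have hμ₂ : Function.Injective (h87yMu2 (R := ratLocalizedAt p) (K := Qb) H.val) := by
    rw [h87x_mu2_eq]
    exact h87xMu2_injective p H act hsurj heq hfg
  have hμ₃ : Function.Injective (h87yMu3 (R := ratLocalizedAt p) (K := Qb) H.val) := by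
    rw [h87x_mu3_eq]
    exact h87xMu3_injective p H act hsurj heq hfg
  have hRK := h87x_algebraMap_injective p
  have hε' : ∀ f ∈ H, ∃ r : ratLocalizedAt p, algebraMap (ratLocalizedAt p) Qb r = f 0 :=
    fun f hf => h98p_zp_eval_fixed p act H hfg heq 0 hzero f hf
  have hε : ∀ a : H, ∃ r : ratLocalizedAt p, algebraMap (ratLocalizedAt p) Qb r = H.val a 0 :=
    fun a => hε' a.1 a.2
  have hΔ := h87x_delta p H hcomul
  have hι : Function.Injective H.val := Subtype.val_injective
  have hS : ∀ a : H, ∃ a' : H, ∀ x, H.val a' x = H.val a (-x) :=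
    fun a => ⟨⟨_, h87x_neg_mem p H hcomul hε' a.1 a.2⟩, fun x => rfl⟩
  have hsep' : ∀ x y : M, (∀ a : H, H.val a x = H.val a y) → x = y :=
    fun x y h => hsep x y (fun f hf => h ⟨f, hf⟩)
  obtain ⟨n, b, -, -, hn⟩ := h98p_zp_basis p act H hfg heq hsep
  have hpts : ∀ φ : H →ₐ[ratLocalizedAt p] Qb, ∃ x : M, ∀ a : H, φ a = H.val a x :=
    fun φ => h87z_points H.val hsep' n b hn.le φ
  haveI hfin : Module.Finite (ratLocalizedAt p) H := h87x_finite p H hfg
  haveI hfree : Module.Free (ratLocalizedAt p) H := h87x_free p H hfg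
  haveI hflat : Module.Flat (ratLocalizedAt p) H := inferInstance
  exact h87y_flat_abstract (R := ratLocalizedAt p) (K := Qb) H.val hμ₂ hRK hΔ hε hμ₃ hι hS
    hsep' hpts (fun (σ : GQ) (z : Qb) => σ z) act (fun σ a x => heq a.1 a.2 σ x)

end Order

end Fermat.Agent.P5
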