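import Fermat.Agent.P5.H87Coalg

/-!
# Wave 5, pillar (P): antipode, Hopf algebra, cocommutativity, points (helper87)

Continuation of `H87Coalg.lean` (same abstract setting).  Main results:

* `h87yHopf` : the Hopf algebra structure on `A`;
* `h87y_isCocomm` : it is cocommutative;
* `h87y_flat_abstract` : the package `∃ Hh, CommRing, HopfAlgebra, Finite ∧ Flat ∧ IsCocomm ∧
  ∃ e : WithConv (Hh →ₐ[R] K) ≃ M, additive ∧ equivariant` in the shape of the Prelude
  (`GaloisRep.IsFlatAt`, frozen statement S19).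
-/

set_option autoImplicit false
set_option linter.unusedSectionVars false
set_option linter.unusedVariables false
set_option linter.style.haveILetI false

open TensorProduct

noncomputable section

namespace Fermat.Agent.P5

section Abstract

variable {R K A M : Type} [CommRing R] [Field K] [Algebra R K] [CommRing A] [Algebra R A]
  [AddCommGroup M] (ι : A →ₐ[R] (M → K))

/-! ### Antipode -/

/-- `a ↦ (x ↦ ι a (-x))`. -/
def h87yNeg0 : A →ₐ[R] (M → K) := (h87yPull R (fun x : M => -x)).comp ι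

@[simp] theorem h87yNeg0_apply (a : A) (x : M) : h87yNeg0 ι a x = ι a (-x) := rfl

theorem h87y_neg0_mem (hS : ∀ a : A, ∃ a' : A, ∀ x, ι a' x = ι a (-x)) (a : A) :
    h87yNeg0 ι a ∈ ι.range := by
  obtain ⟨a', ha'⟩ := hS a
  refine ⟨a', ?_⟩
  funext x
  exact ha' x

/-- the antipode. -/
def h87yAntipode (hι : Function.Injective ι)
    (hS : ∀ a : A, ∃ a' : A, ∀ x, ι a' x = ι a (-x)) : A →ₐ[R] A :=
  ((AlgEquiv.ofInjective ι hι).symm : ι.range →ₐ[R] A).comp
    ((h87yNeg0 ι).codRestrict ι.range (h87y_neg0_mem ι hS))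

theorem h87y_antipode_apply (hι : Function.Injective ι)
    (hS : ∀ a : A, ∃ a' : A, ∀ x, ι a' x = ι a (-x)) (a : A) (x : M) :
    ι (h87yAntipode ι hι hS a) x = ι a (-x) := by
  have h := (AlgEquiv.ofInjective ι hι).apply_symm_apply
    ((h87yNeg0 ι).codRestrict ι.range (h87y_neg0_mem ι hS) a)
  exact congrFun (congrArg Subtype.val h) x

section Axioms

variable (hμ₂ : Function.Injective (h87yMu2 ι))
  (hRK : Function.Injective (algebraMap R K))
  (hΔ : ∀ a : A, ∃ t : A ⊗[R] A, ∀ x y, h87yMu2 ι t (x, y) = ι a (x + y))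
  (hε : ∀ a : A, ∃ r : R, algebraMap R K r = ι a 0)
  (hμ₃ : Function.Injective (h87yMu3 ι))
  (hι : Function.Injective ι)
  (hS : ∀ a : A, ∃ a' : A, ∀ x, ι a' x = ι a (-x))

theorem h87y_lift_antipode_id :
    ι.comp (Algebra.TensorProduct.lift (h87yAntipode ι hι hS) (AlgHom.id R A)
      (fun _ _ => Commute.all _ _)) =
      (h87yPull R (fun x : M => (-x, x))).comp (h87yMu2 ι) := by
  apply Algebra.TensorProduct.ext'
  intro a b
  funext x
  rw [AlgHom.comp_apply, Algebra.TensorProduct.lift_tmul, map_mul, Pi.mul_apply,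
    h87y_antipode_apply, AlgHom.comp_apply, h87yPull_apply, h87yMu2_tmul]
  rfl

theorem h87y_lift_id_antipode :
    ι.comp (Algebra.TensorProduct.lift (AlgHom.id R A) (h87yAntipode ι hι hS)
      (fun _ _ => Commute.all _ _)) =
      (h87yPull R (fun x : M => (x, -x))).comp (h87yMu2 ι) := by
  apply Algebra.TensorProduct.ext'
  intro a b
  funext x
  rw [AlgHom.comp_apply, Algebra.TensorProduct.lift_tmul, map_mul, Pi.mul_apply,
    h87y_antipode_apply, AlgHom.comp_apply, h87yPull_apply, h87yMu2_tmul]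
  rfl

theorem h87y_antipode_left :
    (Algebra.TensorProduct.lift (h87yAntipode ι hι hS) (AlgHom.id R A)
      (fun _ _ => Commute.all _ _)).comp (h87yComul ι hμ₂ hΔ) =
      (Algebra.ofId R A).comp (h87yCounit ι hRK hε) := by
  apply AlgHom.ext
  intro a
  apply hι
  have h1 := congrArg (fun φ => φ (h87yComul ι hμ₂ hΔ a)) (h87y_lift_antipode_id ι hι hS)
  simp only [AlgHom.comp_apply] at h1
  rw [AlgHom.comp_apply]
  refine Eq.trans h1 ?_
  funext x
  rw [h87yPull_apply, h87yMu2_comul_apply, neg_add_cancel, AlgHom.comp_apply,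
    Algebra.ofId_apply, AlgHom.commutes, Pi.algebraMap_apply, h87y_counit_apply]

theorem h87y_antipode_right :
    (Algebra.TensorProduct.lift (AlgHom.id R A) (h87yAntipode ι hι hS)
      (fun _ _ => Commute.all _ _)).comp (h87yComul ι hμ₂ hΔ) =
      (Algebra.ofId R A).comp (h87yCounit ι hRK hε) := by
  apply AlgHom.ext
  intro a
  apply hι
  have h1 := congrArg (fun φ => φ (h87yComul ι hμ₂ hΔ a)) (h87y_lift_id_antipode ι hι hS)
  simp only [AlgHom.comp_apply] at h1
  rw [AlgHom.comp_apply]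
  refine Eq.trans h1 ?_
  funext x
  rw [h87yPull_apply, h87yMu2_comul_apply, add_neg_cancel, AlgHom.comp_apply,
    Algebra.ofId_apply, AlgHom.commutes, Pi.algebraMap_apply, h87y_counit_apply]

/-- the Hopf algebra structure. -/
@[reducible] def h87yHopf : HopfAlgebra R A :=
  letI : Bialgebra R A := h87yBialgebra ι hμ₂ hRK hΔ hε hμ₃ hι
  HopfAlgebra.ofAlgHom (h87yAntipode ι hι hS)
    (h87y_antipode_left ι hμ₂ hRK hΔ hε hι hS)
    (h87y_antipode_right ι hμ₂ hRK hΔ hε hι hS)

/-! ### Cocommutativity -/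

theorem h87yMu2_comm (t : A ⊗[R] A) (x y : M) :
    h87yMu2 ι (TensorProduct.comm R A A t) (x, y) = h87yMu2 ι t (y, x) := by
  induction t using TensorProduct.induction_on with
  | zero => simp
  | tmul a b =>
    rw [TensorProduct.comm_tmul, h87yMu2_tmul, h87yMu2_tmul]
    exact mul_comm _ _
  | add s₁ s₂ h₁ h₂ =>
    rw [map_add, map_add, map_add, Pi.add_apply, Pi.add_apply, h₁, h₂]

theorem h87y_comm_comul (a : A) :
    TensorProduct.comm R A A (h87yComul ι hμ₂ hΔ a) = h87yComul ι hμ₂ hΔ a := by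
  apply hμ₂
  funext xy
  rw [show xy = (xy.1, xy.2) from rfl, h87yMu2_comm, h87yMu2_comul_apply, h87yMu2_comul_apply,
    add_comm]

theorem h87y_isCocomm :
    letI : HopfAlgebra R A := h87yHopf ι hμ₂ hRK hΔ hε hμ₃ hι hS
    Coalgebra.IsCocomm R A := by
  let _ : HopfAlgebra R A := h87yHopf ι hμ₂ hRK hΔ hε hμ₃ hι hS
  refine ⟨?_⟩
  apply LinearMap.ext
  intro a
  exact h87y_comm_comul ι hμ₂ hΔ a

end Axioms

/-! ### Points -/

/-- evaluation at `x`. -/
def h87yEv (x : M) : A →ₐ[R] K := (Pi.evalAlgHom R (fun _ : M => K) x).comp ι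

@[simp] theorem h87yEv_apply (x : M) (a : A) : h87yEv ι x a = ι a x := rfl

theorem h87y_lift_ev (x y : M) (t : A ⊗[R] A) :
    Algebra.TensorProduct.lift (h87yEv ι x) (h87yEv ι y) (fun _ _ => Commute.all _ _) t =
      h87yMu2 ι t (x, y) := by
  induction t using TensorProduct.induction_on with
  | zero => simp
  | tmul a b =>
    rw [Algebra.TensorProduct.lift_tmul, h87yMu2_tmul]
    rfl
  | add s₁ s₂ h₁ h₂ =>
    rw [map_add, map_add, Pi.add_apply, h₁, h₂]

theorem h87y_lift_ev_comul (hμ₂ : Function.Injective (h87yMu2 ι))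
    (hΔ : ∀ a : A, ∃ t : A ⊗[R] A, ∀ x y, h87yMu2 ι t (x, y) = ι a (x + y))
    (x y : M) (c : A) :
    Algebra.TensorProduct.lift (h87yEv ι x) (h87yEv ι y) (fun _ _ => Commute.all _ _)
      (h87yComul ι hμ₂ hΔ c) = ι c (x + y) := by
  rw [h87y_lift_ev, h87yMu2_comul_apply]

theorem h87y_ev_injective (hsep : ∀ x y : M, (∀ a : A, ι a x = ι a y) → x = y) :
    Function.Injective (fun x : M => (WithConv.toConv (h87yEv ι x) : WithConv (A →ₐ[R] K))) := by
  intro x y hxy
  apply hsep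
  intro a
  have h := congrArg (fun φ : WithConv (A →ₐ[R] K) => φ.ofConv a) hxy
  exact h

theorem h87y_ev_surjective (hpts : ∀ φ : A →ₐ[R] K, ∃ x : M, ∀ a : A, φ a = ι a x) :
    Function.Surjective
      (fun x : M => (WithConv.toConv (h87yEv ι x) : WithConv (A →ₐ[R] K))) := by
  intro φ
  obtain ⟨x, hx⟩ := hpts φ.ofConv
  refine ⟨x, ?_⟩
  apply WithConv.ext
  apply AlgHom.ext
  intro a
  exact (hx a).symm

/-- the points of `A` with values in `K` are the elements of `M`. -/
def h87yPts (hsep : ∀ x y : M, (∀ a : A, ι a x = ι a y) → x = y)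
    (hpts : ∀ φ : A →ₐ[R] K, ∃ x : M, ∀ a : A, φ a = ι a x) :
    WithConv (A →ₐ[R] K) ≃ M :=
  (Equiv.ofBijective _ ⟨h87y_ev_injective ι hsep, h87y_ev_surjective ι hpts⟩).symm

theorem h87yPts_ev (hsep : ∀ x y : M, (∀ a : A, ι a x = ι a y) → x = y)
    (hpts : ∀ φ : A →ₐ[R] K, ∃ x : M, ∀ a : A, φ a = ι a x) (x : M) :
    h87yPts ι hsep hpts (WithConv.toConv (h87yEv ι x)) = x :=
  (Equiv.ofBijective _ ⟨h87y_ev_injective ι hsep, h87y_ev_surjective ι hpts⟩).symm_apply_apply x

theorem h87y_ev_pts (hsep : ∀ x y : M, (∀ a : A, ι a x = ι a y) → x = y)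
    (hpts : ∀ φ : A →ₐ[R] K, ∃ x : M, ∀ a : A, φ a = ι a x) (f : WithConv (A →ₐ[R] K)) :
    WithConv.toConv (h87yEv ι (h87yPts ι hsep hpts f)) = f :=
  (Equiv.ofBijective _ ⟨h87y_ev_injective ι hsep, h87y_ev_surjective ι hpts⟩).apply_symm_apply f

theorem h87y_pts_apply (hsep : ∀ x y : M, (∀ a : A, ι a x = ι a y) → x = y)
    (hpts : ∀ φ : A →ₐ[R] K, ∃ x : M, ∀ a : A, φ a = ι a x) (f : WithConv (A →ₐ[R] K))
    (a : A) : f.ofConv a = ι a (h87yPts ι hsep hpts f) := by
  have h := congrArg (fun φ : WithConv (A →ₐ[R] K) => φ.ofConv a) (h87y_ev_pts ι hsep hpts f)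
  exact h.symm

theorem h87y_pts_eq (hsep : ∀ x y : M, (∀ a : A, ι a x = ι a y) → x = y)
    (hpts : ∀ φ : A →ₐ[R] K, ∃ x : M, ∀ a : A, φ a = ι a x) (f : WithConv (A →ₐ[R] K))
    (x : M) (h : ∀ a : A, f.ofConv a = ι a x) : h87yPts ι hsep hpts f = x := by
  apply hsep
  intro a
  rw [← h87y_pts_apply ι hsep hpts f a, h a]

/-! ### The package -/

/-- **Abstract adapter.**  A finite flat algebra of functions `A ↪ (M → K)` on an additive
commutative group `M`, closed under translation (Sweedler form), inversion, with `f 0 ∈ R`,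
separating the points of `M`, all of whose `K`-points are evaluations, and such that the evaluation
maps on `A ⊗ A` and `A ⊗ A ⊗ A` are injective, is a cocommutative Hopf algebra whose group of
`K`-points is `M`, compatibly with any family of symmetries. -/
theorem h87y_flat_abstract [Module.Finite R A] [Module.Flat R A]
    (hμ₂ : Function.Injective (h87yMu2 ι))
    (hRK : Function.Injective (algebraMap R K))
    (hΔ : ∀ a : A, ∃ t : A ⊗[R] A, ∀ x y, h87yMu2 ι t (x, y) = ι a (x + y))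
    (hε : ∀ a : A, ∃ r : R, algebraMap R K r = ι a 0)
    (hμ₃ : Function.Injective (h87yMu3 ι))
    (hι : Function.Injective ι)
    (hS : ∀ a : A, ∃ a' : A, ∀ x, ι a' x = ι a (-x))
    (hsep : ∀ x y : M, (∀ a : A, ι a x = ι a y) → x = y)
    (hpts : ∀ φ : A →ₐ[R] K, ∃ x : M, ∀ a : A, φ a = ι a x)
    {G : Type} (gal : G → K → K) (act : G → M → M)
    (heq : ∀ (σ : G) (a : A) (x : M), ι a (act σ x) = gal σ (ι a x)) :
    ∃ (Hh : Type) (_ : CommRing Hh) (_ : HopfAlgebra R Hh),
      Module.Finite R Hh ∧ Module.Flat R Hh ∧ Coalgebra.IsCocomm R Hh ∧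
      ∃ e : WithConv (Hh →ₐ[R] K) ≃ M,
        (∀ f g : WithConv (Hh →ₐ[R] K), e (f * g) = e f + e g) ∧
        ∀ (σ : G) (f g : WithConv (Hh →ₐ[R] K)), (∀ h : Hh, g h = gal σ (f h)) →
          e g = act σ (e f) := by
  have hfin : Module.Finite R A := inferInstance
  have hflat : Module.Flat R A := inferInstance
  refine ⟨A, inferInstance, h87yHopf ι hμ₂ hRK hΔ hε hμ₃ hι hS, hfin,
    hflat, h87y_isCocomm ι hμ₂ hRK hΔ hε hμ₃ hι hS, h87yPts ι hsep hpts, ?_, ?_⟩
  · intro f g
    apply h87y_pts_eq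
    intro c
    have hf : f.ofConv = h87yEv ι (h87yPts ι hsep hpts f) :=
      AlgHom.ext (h87y_pts_apply ι hsep hpts f)
    have hg : g.ofConv = h87yEv ι (h87yPts ι hsep hpts g) :=
      AlgHom.ext (h87y_pts_apply ι hsep hpts g)
    refine Eq.trans (@AlgHom.convMul_apply R K A _ _ _
      (h87yHopf ι hμ₂ hRK hΔ hε hμ₃ hι hS).toBialgebra _ f g c) ?_
    have key := h87y_lift_ev_comul ι hμ₂ hΔ (h87yPts ι hsep hpts f) (h87yPts ι hsep hpts g) c
    rw [← hf, ← hg] at key
    exact key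
  · intro σ f g hfg
    apply h87y_pts_eq
    intro a
    rw [heq, ← h87y_pts_apply ι hsep hpts f a]
    exact hfg a

end Abstract

end Fermat.Agent.P5
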