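import Fermat.Agent.P5.H87Ring

/-!
# Wave 5, pillar (P): independence lemmas for Galois-equivariant functions (helper87)

* `h87x_artin` : `ℚ`-linearly independent `G_ℚ`-equivariant functions `M → ℚ̄` are
  `ℚ̄`-linearly independent (no continuity needed; `act σ` surjective for every `σ`);
* `h87x_prod_indep` : products `u i x * v j y` of two linearly independent families of functions
  are linearly independent functions on `X × Y`.
-/

set_option autoImplicit false

noncomputable section

namespace Fermat.Agent.P5

/-- products of linearly independent families of functions are linearly independent. -/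
theorem h87x_prod_indep {K : Type} [Field K] {X Y ι κ : Type} [Fintype ι] [Fintype κ]
    (u : ι → X → K) (v : κ → Y → K) (hu : LinearIndependent K u) (hv : LinearIndependent K v) :
    LinearIndependent K (fun ij : ι × κ => fun xy : X × Y => u ij.1 xy.1 * v ij.2 xy.2) := by
  classical
  rw [Fintype.linearIndependent_iff] at hu hv ⊢
  intro c hc
  have key : ∀ (y : Y) (i : ι), ∑ j, c (i, j) * v j y = 0 := by
    intro y
    apply hu (fun i => ∑ j, c (i, j) * v j y)
    funext x
    have h := congrFun hc (x, y)
    simp only [Finset.sum_apply, Pi.smul_apply, smul_eq_mul, Pi.zero_apply] at h ⊢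
    rw [Fintype.sum_prod_type] at h
    rw [← h]
    refine Finset.sum_congr rfl (fun i _ => ?_)
    rw [Finset.sum_mul]
    refine Finset.sum_congr rfl (fun j _ => ?_)
    ring
  rintro ⟨i, j⟩
  apply hv (fun j => c (i, j))
  funext y
  have h := key y i
  simp only [Finset.sum_apply, Pi.smul_apply, smul_eq_mul, Pi.zero_apply]
  exact h

/-- an algebra homomorphism mapping a finite basis to a linearly independent family is
injective (stated for semirings, so that no instance has to be re-synthesised). -/
theorem h87x_inj_of_basis {R A W ι : Type} [CommSemiring R] [Semiring A] [Algebra R A]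
    [Semiring W] [Algebra R W] [Fintype ι] (f : A →ₐ[R] W) (B : Module.Basis ι R A)
    (h : LinearIndependent R (fun i => f (B i))) : Function.Injective f := by
  classical
  intro t₁ t₂ ht
  have e1 : ∀ t : A, f t = ∑ i, B.repr t i • f (B i) := by
    intro t
    conv_lhs => rw [← B.sum_repr t]
    rw [map_sum]
    refine Finset.sum_congr rfl (fun i _ => ?_)
    rw [map_smul]
  rw [e1 t₁, e1 t₂] at ht
  have h2 := Fintype.linearIndependent_iffₛ.mp h (fun i => B.repr t₁ i) (fun i => B.repr t₂ i) ht
  apply B.repr.injective
  ext i
  exact h2 i

/-- **Artin's lemma for equivariant functions**: `ℚ`-linearly independent `G_ℚ`-equivariant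
functions `M → ℚ̄` are `ℚ̄`-linearly independent. -/
theorem h87x_artin {M ι : Type} [Fintype ι]
    (act : (AlgebraicClosure ℚ ≃ₐ[ℚ] AlgebraicClosure ℚ) → M → M)
    (hsurj : ∀ σ, Function.Surjective (act σ))
    (f : ι → M → AlgebraicClosure ℚ) (heq : ∀ i σ x, f i (act σ x) = σ (f i x))
    (hQ : LinearIndependent ℚ f) : LinearIndependent (AlgebraicClosure ℚ) f := by
  classical
  rw [Fintype.linearIndependent_iff]
  have main : ∀ n : ℕ, ∀ g : ι → AlgebraicClosure ℚ,
      (Finset.univ.filter (fun i => g i ≠ 0)).card ≤ n → ∑ i, g i • f i = 0 → ∀ i, g i = 0 := by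
    intro n
    induction n with
    | zero =>
      intro g hcard _ i
      by_contra hi
      have : i ∈ Finset.univ.filter (fun i => g i ≠ 0) := by simp [hi]
      have h0 : (Finset.univ.filter (fun i => g i ≠ 0)) = ∅ :=
        Finset.card_eq_zero.mp (Nat.le_zero.mp hcard)
      rw [h0] at this
      exact absurd this (Finset.notMem_empty i)
    | succ n ih =>
      intro g hcard hrel
      by_contra hne
      obtain ⟨i₀, hi₀⟩ := not_forall.mp hne
      set c : ι → AlgebraicClosure ℚ := fun i => g i / g i₀ with hc
      have hc0 : c i₀ = 1 := div_self hi₀
      have hcrel : ∀ y, ∑ i, c i * f i y = 0 := by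
        intro y
        have h := congrFun hrel y
        simp only [Finset.sum_apply, Pi.smul_apply, smul_eq_mul, Pi.zero_apply] at h
        have : ∑ i, c i * f i y = (g i₀)⁻¹ * ∑ i, g i * f i y := by
          rw [Finset.mul_sum]
          refine Finset.sum_congr rfl (fun i _ => ?_)
          simp only [hc]
          field_simp
        rw [this, h, mul_zero]
      -- all `c i` are fixed by Galois
      have hfix : ∀ (σ : AlgebraicClosure ℚ ≃ₐ[ℚ] AlgebraicClosure ℚ) (i : ι), σ (c i) = c i := by
        intro σ
        have hd := ih (fun i => σ (c i) - c i) ?_ ?_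
        · intro i
          exact sub_eq_zero.mp (hd i)
        · -- support
          have hsub : (Finset.univ.filter (fun i => σ (c i) - c i ≠ 0)) ⊆
              (Finset.univ.filter (fun i => g i ≠ 0)).erase i₀ := by
            intro i hi
            rw [Finset.mem_filter] at hi
            rw [Finset.mem_erase, Finset.mem_filter]
            refine ⟨?_, Finset.mem_univ _, ?_⟩
            · rintro rfl
              apply hi.2
              rw [hc0, map_one, sub_self]
            · intro hgi
              apply hi.2
              have : c i = 0 := by simp only [hc, hgi, zero_div]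
              rw [this, map_zero, sub_self]
          have h1 := Finset.card_le_card hsub
          have h2 : i₀ ∈ Finset.univ.filter (fun i => g i ≠ 0) := by simp [hi₀]
          rw [Finset.card_erase_of_mem h2] at h1
          omega
        · funext y
          obtain ⟨x, rfl⟩ := hsurj σ y
          simp only [Finset.sum_apply, Pi.smul_apply, smul_eq_mul, Pi.zero_apply]
          have h1 : ∑ i, σ (c i) * f i (act σ x) = 0 := by
            have : ∑ i, σ (c i) * f i (act σ x) = σ (∑ i, c i * f i x) := by
              rw [map_sum]
              refine Finset.sum_congr rfl (fun i _ => ?_)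
              rw [map_mul, heq]
            rw [this, hcrel x, map_zero]
          have h2 := hcrel (act σ x)
          calc ∑ i, (σ (c i) - c i) * f i (act σ x)
              = ∑ i, σ (c i) * f i (act σ x) - ∑ i, c i * f i (act σ x) := by
                rw [← Finset.sum_sub_distrib]
                refine Finset.sum_congr rfl (fun i _ => ?_)
                ring
            _ = 0 := by rw [h1, h2, sub_zero]
      -- hence rational
      have hrat : ∀ i, ∃ r : ℚ, algebraMap ℚ (AlgebraicClosure ℚ) r = c i :=
        fun i => h87x_rational_of_fixed (c i) (fun σ => hfix σ i)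
      choose r hr using hrat
      have hQrel : ∑ i, r i • f i = 0 := by
        funext y
        simp only [Finset.sum_apply, Pi.smul_apply, Pi.zero_apply]
        rw [← hcrel y]
        refine Finset.sum_congr rfl (fun i _ => ?_)
        rw [← hr i, Algebra.smul_def]
      have hr0 := (Fintype.linearIndependent_iff.mp hQ) r hQrel i₀
      have : c i₀ = 0 := by rw [← hr i₀, hr0, map_zero]
      rw [hc0] at this
      exact one_ne_zero this
  intro g hrel i
  exact main _ g le_rfl hrel i

end Fermat.Agent.P5
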