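import Mathlib
import Fermat.Prelude.Def_GaloisRep_Flat

/-!
# Wave 5, pillar (P): the ring `ℤ_(p) = GaloisRep.ratLocalizedAt p` (helper87)

Generic facts used by the bridge `function order ⇒ flat` (`H87HopfBridge.lean`):
* `h87x_isPrincipalIdealRing` : `ratLocalizedAt p` is a principal ideal ring (every `p`);
* `h87x_mem_of_isIntegral` : a rational number which is integral over `ratLocalizedAt p` lies in it;
* `h87x_rational_of_fixed` : an element of `ℚ̄` fixed by the whole Galois group is rational.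
-/

set_option autoImplicit false

noncomputable section

namespace Fermat.Agent.P5

open GaloisRep

/-- the integers are in `ℤ_(p)`. -/
theorem h87x_int_mem (p : ℕ) (n : ℤ) : (n : ℚ) ∈ ratLocalizedAt p := by
  show ((n : ℚ)).den.Coprime p
  rw [Rat.den_intCast]
  exact Nat.coprime_one_left p

/-- the inverse of the denominator of an element of `ℤ_(p)` is in `ℤ_(p)`. -/
theorem h87x_inv_den_mem (p : ℕ) {q : ℚ} (hq : q ∈ ratLocalizedAt p) :
    ((q.den : ℚ))⁻¹ ∈ ratLocalizedAt p := by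
  show (((q.den : ℚ))⁻¹).den.Coprime p
  rw [Rat.inv_natCast_den_of_pos q.den_pos]
  exact hq

/-- `ℤ_(p)` is a principal ideal ring. -/
theorem h87x_isPrincipalIdealRing (p : ℕ) : IsPrincipalIdealRing (ratLocalizedAt p) := by
  refine ⟨fun I => ?_⟩
  set J : Ideal ℤ := Ideal.comap (Int.castRingHom (ratLocalizedAt p)) I with hJ
  obtain ⟨g, hg⟩ := (IsPrincipalIdealRing.principal J).principal
  refine ⟨⟨((g : ℤ) : ratLocalizedAt p), ?_⟩⟩
  apply le_antisymm
  · intro x hx
    -- `x = num / den`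
    have hden : ((x : ℚ).den : ℚ) ≠ 0 := by exact_mod_cast (x : ℚ).den_nz
    set u : ratLocalizedAt p := ⟨((x : ℚ).den : ℚ)⁻¹, h87x_inv_den_mem p x.2⟩ with hu
    have hxd : x * (((x : ℚ).den : ℤ) : ratLocalizedAt p) = (((x : ℚ).num : ℤ) : ratLocalizedAt p) := by
      apply Subtype.ext
      push_cast
      exact Rat.mul_den_eq_num (x : ℚ)
    have hnum : (x : ℚ).num ∈ J := by
      rw [hJ, Ideal.mem_comap]
      show (((x : ℚ).num : ℤ) : ratLocalizedAt p) ∈ I
      rw [← hxd]
      exact I.mul_mem_right _ hx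
    rw [hg] at hnum
    obtain ⟨m, hm⟩ := Submodule.mem_span_singleton.mp hnum
    rw [Submodule.mem_span_singleton]
    refine ⟨(m : ratLocalizedAt p) * u, ?_⟩
    apply Subtype.ext
    have hm' : ((m : ℤ) : ℚ) * (g : ℚ) = ((x : ℚ).num : ℚ) := by
      have := congrArg (fun z : ℤ => (z : ℚ)) hm
      simpa [smul_eq_mul] using this
    have hx' : (x : ℚ) = ((x : ℚ).num : ℚ) * ((x : ℚ).den : ℚ)⁻¹ := by
      rw [← div_eq_mul_inv, Rat.num_div_den]
    show (((m : ratLocalizedAt p) * u) • ((g : ℤ) : ratLocalizedAt p) : ratLocalizedAt p).1 = x.1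
    rw [smul_eq_mul]
    push_cast
    rw [hx', ← hm']
    ring
  · rw [Submodule.span_singleton_le_iff_mem]
    have : g ∈ J := by rw [hg]; exact Submodule.mem_span_singleton_self g
    exact this

/-- `ℚ` is the fraction field of `ℤ_(p)`. -/
theorem h87x_isFractionRing (p : ℕ) : IsFractionRing (ratLocalizedAt p) ℚ := by
  refine IsFractionRing.of_field (R := ratLocalizedAt p) (K := ℚ) (fun z => ?_)
  refine ⟨⟨(z.num : ℚ), h87x_int_mem p z.num⟩, ⟨((z.den : ℤ) : ℚ), h87x_int_mem p z.den⟩, ?_⟩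
  show z = (z.num : ℚ) / ((z.den : ℤ) : ℚ)
  push_cast
  exact (Rat.num_div_den z).symm

/-- a rational number which is integral over `ℤ_(p)` lies in `ℤ_(p)`. -/
theorem h87x_mem_of_isIntegral (p : ℕ) {q : ℚ} (hq : IsIntegral (ratLocalizedAt p) q) :
    q ∈ ratLocalizedAt p := by
  have h1 := h87x_isPrincipalIdealRing p
  have h2 := h87x_isFractionRing p
  obtain ⟨y, hy⟩ := (IsIntegrallyClosed.isIntegral_iff (R := ratLocalizedAt p) (K := ℚ)).mp hq
  rw [← hy]
  exact y.2

/-- an element of `ℚ̄` fixed by the whole Galois group is rational. -/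
theorem h87x_rational_of_fixed (x : AlgebraicClosure ℚ)
    (hx : ∀ g : AlgebraicClosure ℚ ≃ₐ[ℚ] AlgebraicClosure ℚ, g x = x) :
    ∃ r : ℚ, algebraMap ℚ (AlgebraicClosure ℚ) r = x :=
  have hA : Algebra.IsAlgebraic ℚ (AlgebraicClosure ℚ) := AlgebraicClosure.isAlgebraic ℚ
  have hC : IsAlgClosure ℚ (AlgebraicClosure ℚ) := ⟨inferInstance, inferInstance⟩
  have hN : Normal ℚ (AlgebraicClosure ℚ) := IsAlgClosure.normal ℚ (AlgebraicClosure ℚ)
  have hG : IsGalois ℚ (AlgebraicClosure ℚ) := ⟨⟩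
  (InfiniteGalois.mem_range_algebraMap_iff_fixed (k := ℚ) (K := AlgebraicClosure ℚ) x).mpr hx

end Fermat.Agent.P5
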