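import Fermat.Agent.S24.DiffPlace

/-!
# Wave 5 (P), S4 helper lemma (helper88): the valuation ring of a place is a maximal proper
valuation subring (`h88r_place_eq_of_le`).
-/

set_option autoImplicit false

open AlgebraicCurve

namespace Fermat.Agent.P5

/-- the valuation ring of a place is a maximal proper subring: a valuation subring `W ≠ ⊤`
containing it is equal to it. -/
theorem h88r_place_eq_of_le {K F : Type*} [Field K] [Field F] [Algebra K F] (v : Place K F)
    (W : ValuationSubring F) (hW : W ≠ ⊤) (h : v.toValuationSubring ≤ W) :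
    v.toValuationSubring = W := by
  refine le_antisymm h fun y hy => ?_
  by_contra hyv
  apply hW
  have hy0 : y ≠ 0 := fun h0 => hyv (h0 ▸ v.toValuationSubring.zero_mem)
  have hord : v.ord y < 0 := by
    by_contra hle
    rw [not_lt] at hle
    exact hyv ((Fermat.Agent.S24.DiffPlace.ord_nonneg_iff_mem v).mp hle)
  -- a uniformiser
  obtain ⟨π, hπ⟩ := IsDiscreteValuationRing.exists_irreducible v.toValuationSubring
  have hπ0 : (π : F) ≠ 0 := fun h0 => hπ.ne_zero (Subtype.ext h0)
  have hπW : (π : F) ∈ W := h π.2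
  -- `π ^ (ord y)` is `y` times a unit
  obtain ⟨u, hu⟩ := v.exists_unit_mul_zpow hy0 hπ
  have hui : (((u⁻¹ : v.toValuationSubringˣ) : v.toValuationSubring) : F) ∈ W :=
    h ((u⁻¹ : v.toValuationSubringˣ) : v.toValuationSubring).2
  have huu : (((u⁻¹ : v.toValuationSubringˣ) : v.toValuationSubring) : F) *
      ((u : v.toValuationSubring) : F) = 1 := by
    have h0 : ((u⁻¹ : v.toValuationSubringˣ) : v.toValuationSubring) *
        (u : v.toValuationSubring) = 1 := Units.inv_mul u
    have h1 := congrArg (Subtype.val) h0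
    exact h1
  have hpow : (π : F) ^ (v.ord y) ∈ W := by
    have h1 : (π : F) ^ (v.ord y) =
        (((u⁻¹ : v.toValuationSubringˣ) : v.toValuationSubring) : F) * y := by
      conv_rhs => rw [hu]
      rw [← mul_assoc, huu, one_mul]
    rw [h1]
    exact mul_mem hui hy
  have hπiW : (π : F)⁻¹ ∈ W := by
    obtain ⟨k, hk⟩ := Int.eq_ofNat_of_zero_le (show 0 ≤ -(v.ord y) - 1 by omega)
    have h3 : (π : F)⁻¹ = (π : F) ^ k * (π : F) ^ (v.ord y) := by
      rw [← zpow_natCast, ← hk, ← zpow_add₀ hπ0]
      have : -(v.ord y) - 1 + v.ord y = -1 := by ring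
      rw [this, zpow_neg_one]
    rw [h3]
    exact mul_mem (pow_mem hπW k) hpow
  -- every element lies in `W`
  rw [eq_top_iff]
  intro z _
  rcases eq_or_ne z 0 with rfl | hz0
  · exact W.zero_mem
  obtain ⟨w, hz⟩ := v.exists_unit_mul_zpow hz0 hπ
  have hw : ((w : v.toValuationSubring) : F) ∈ W := h (w : v.toValuationSubring).2
  rw [hz]
  refine mul_mem hw ?_
  obtain ⟨k, hk | hk⟩ := (v.ord z).eq_nat_or_neg
  · rw [hk, zpow_natCast]; exact pow_mem hπW k
  · rw [hk, zpow_neg, zpow_natCast, ← inv_pow]; exact pow_mem hπiW k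

end Fermat.Agent.P5
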