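import Fermat.Agent.P5.H88RedDivFinal
import Fermat.Agent.P5.H40SFBase
import Fermat.Agent.P5.H26GenusTop
import Fermat.Agent.P5.H85SFDict26

/-!
# Wave 5, pillar (P), block GEO-RR: the special-fibre package, unconditional (helper88)

All four frozen leaves of `P5/H13SFIface.lean` about the special fibre as theorems:

* `h88r_redDiv : H13sRedDiv` (S4; `P5/H88RedDivFinal.lean`),
* `h88r_sBase : H13sBase` (= `h40b_sBase`, helper40, at `h88r_redDiv`),
* `h88r_sSemi : H13sSemi` (= `h55s_semi`, helper55),
* `h88r_sGenus : H13sGenus` (= `h26s_genus_top`, helper26, with `h40b_zerosSF` of helper40 and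
  `h85f_dictS26` of helper85).
-/

set_option autoImplicit false

namespace Fermat.Agent.P5

/-- **SF-BASE**, unconditional. -/
theorem h88r_sBase : H13sBase := h40b_sBase h88r_redDiv

/-- **SEMI**, unconditional. -/
theorem h88r_sSemi : H13sSemi := h55s_semi h88r_sBase

/-- **GENUS**, unconditional: both fibres have the same weak genus. -/
theorem h88r_sGenus : H13sGenus :=
  h26s_genus_top h88r_sBase h88r_redDiv h40b_zerosSF h85f_dictS26

end Fermat.Agent.P5
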