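import Fermat.Agent.P5.H88RedDivIface
import Fermat.Agent.P5.H60RedOrd
import Fermat.Agent.P5.H40RRInst
import Fermat.Agent.Red.Nz.Dict

/-!
# Wave 5, pillar (P), leaf S4 (RED-DIV in place form), part A: the generic side (helper88)

* `h88r_centre` : the centre of a place on a chart (kernel of the reduction hom) is a closed
  point at which the place is centred.
* `h88r_centre_unique` : a closed point at which a place is centred is the kernel of the
  reduction hom.
* `h88r_redHom_eq` : two places centred at the same closed point have the same reduction hom.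
* `h88r_lift_fin`, `h88r_lift_inf` : every closed point of a chart (good level) is the centre of
  a place of the generic fibre.
-/

set_option autoImplicit false
set_option linter.unusedSectionVars false

open AlgebraicCurve ModularCurve IsLocalRing

noncomputable section

namespace Fermat.Agent.P5

open Fermat.Agent.S37 Fermat.Agent.Red.GV Fermat.Agent.Red.Match Fermat.Agent.Red
  Fermat.Agent.Red.Nz

variable {M : ℕ} [NeZero M] {A : ValuationSubring Kbar} {ℓ : ℕ}

/-- the reduction hom of a chart at a place is surjective. -/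
theorem h88r_redHom_surjective (R : Subring (FF M)) (hR : ∀ a : Kbar, a ∈ A → cst M a ∈ R)
    (v : Place Kbar (FF M)) (hval : ∀ f : R, ∃ a : A, ValueAt v (f : FF M) (a : Kbar)) :
    Function.Surjective (redHom A R v hval) := by
  intro c
  obtain ⟨a, rfl⟩ := IsLocalRing.residue_surjective c
  exact ⟨⟨cst M (a : Kbar), hR _ a.2⟩, redHom_cst A R v hval a _⟩

/-- the kernel of the reduction hom: the values lie in `𝔪_A`. -/
theorem h88r_mem_ker_iff (R : Subring (FF M))
    (v : Place Kbar (FF M)) (hval : ∀ f : R, ∃ a : A, ValueAt v (f : FF M) (a : Kbar)) (f : R) :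
    f ∈ RingHom.ker (redHom A R v hval) ↔
      ((valHom A R v hval f : A) : Kbar) ∈ A.nonunits := by
  rw [RingHom.mem_ker]
  unfold redHom
  rw [RingHom.comp_apply, IsLocalRing.residue_eq_zero_iff,
    ← ValuationSubring.coe_mem_nonunits_iff]

/-- **the centre of a place on a chart.** -/
theorem h88r_centre (R : Subring (FF M)) (hR : ∀ a : Kbar, a ∈ A → cst M a ∈ R)
    (v : Place Kbar (FF M)) (hval : ∀ f : R, ∃ a : A, ValueAt v (f : FF M) (a : Kbar)) :
    (RingHom.ker (redHom A R v hval)).IsMaximal ∧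
      maxExt A R ≤ RingHom.ker (redHom A R v hval) ∧
      CenteredAt A R (RingHom.ker (redHom A R v hval)) v := by
  refine ⟨RingHom.ker_isMaximal_of_surjective _ (h88r_redHom_surjective R hR v hval), ?_,
    hval, ?_⟩
  · unfold maxExt
    rw [Ideal.span_le]
    rintro x ⟨a, ha, hxa⟩
    show x ∈ RingHom.ker (redHom A R v hval)
    rw [h88r_mem_ker_iff]
    have h1 : ValueAt v (x : FF M) a := by
      rw [hxa]
      exact valueAt_cst v a
    rw [valHom_eq A R v hval x h1]
    exact ha
  · intro f hf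
    exact ⟨_, (h88r_mem_ker_iff R v hval f).mp hf, valHom_spec A R v hval f⟩

/-- **uniqueness of the centre.** -/
theorem h88r_centre_unique (R : Subring (FF M)) (hR : ∀ a : Kbar, a ∈ A → cst M a ∈ R)
    (v : Place Kbar (FF M)) (hval : ∀ f : R, ∃ a : A, ValueAt v (f : FF M) (a : Kbar))
    (n : Ideal R) (hn : n.IsMaximal) (hc : CenteredAt A R n v) :
    n = RingHom.ker (redHom A R v hval) := by
  have hmax := (h88r_centre R hR v hval).1
  refine hn.eq_of_le hmax.ne_top fun f hf => ?_
  rw [h88r_mem_ker_iff]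
  obtain ⟨a, ha, hfa⟩ := hc.2 f hf
  rw [valHom_eq A R v hval f hfa]
  exact ha

/-- two places centred at the same closed point have the same reduction hom. -/
theorem h88r_redHom_eq (R : Subring (FF M)) (hR : ∀ a : Kbar, a ∈ A → cst M a ∈ R)
    (v w : Place Kbar (FF M)) (hv : ∀ f : R, ∃ a : A, ValueAt v (f : FF M) (a : Kbar))
    (hw : ∀ f : R, ∃ a : A, ValueAt w (f : FF M) (a : Kbar))
    (h : RingHom.ker (redHom A R v hv) = RingHom.ker (redHom A R w hw)) :
    redHom A R v hv = redHom A R w hw := by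
  ext f
  set a : A := valHom A R v hv f with ha
  set c : R := ⟨cst M (a : Kbar), hR _ a.2⟩ with hc
  have h1 : f - c ∈ RingHom.ker (redHom A R v hv) := by
    rw [RingHom.mem_ker, map_sub, hc, redHom_cst]
    unfold redHom
    rw [RingHom.comp_apply, sub_self]
  rw [h, RingHom.mem_ker, map_sub, hc, redHom_cst, sub_eq_zero] at h1
  rw [h1]
  unfold redHom
  rw [RingHom.comp_apply]

/-! ### Lifting closed points to places -/

open Classical in
/-- the finite set of places centred at `n` in the support of `div x`. -/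
theorem h88r_exists_T (R : Subring (FF M)) (n : Ideal R) (x : FF M) (hx : x ≠ 0) :
    ∃ T₀ : Finset (Place Kbar (FF M)), (∀ v ∈ T₀, CenteredAt A R n v) ∧
      (∀ v : Place Kbar (FF M), CenteredAt A R n v → v.ord x ≠ 0 → v ∈ T₀) := by
  obtain ⟨D, hD, -⟩ := (h40r_base_FF M).pd x hx
  refine ⟨D.support.filter (fun v => CenteredAt A R n v), fun v hv =>
    (Finset.mem_filter.mp hv).2, fun v hv h0 => ?_⟩
  refine Finset.mem_filter.mpr ⟨Finsupp.mem_support_iff.mpr ?_, hv⟩
  rw [hD]
  exact h0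

/-- **LIFT, finite chart**: every closed point is the centre of a place. -/
theorem h88r_lift_fin (hℓ : ℓ.Prime) (hM : ¬ ℓ ∣ M) (haux : auxLevel ℓ ∣ M)
    (hA : A.LiesOverPrime ℓ)
    (n : Ideal (modelFin M A)) (hn : n.IsMaximal) (hmax : maxExt A (modelFin M A) ≤ n) :
    ∃ v : Place Kbar (FF M), CenteredAt A (modelFin M A) n v := by
  have hle := h89_map_le (jB M) n hmax
  obtain ⟨t', ht'n, ht'0, ht'V, hprin⟩ := h60p_exists_unif_fin hℓ hM haux hA n hn hle
  have hRV := modelFin_le_gaussV A M hℓ hM hA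
  have ht'VV : ((t' : GG.chart M A (jB M)) : FF M) ∈ gaussV A M := hRV t'.2
  obtain ⟨T₀, hT₀c, hT₀all⟩ := h88r_exists_T (A := A) (modelFin M A) n
    ((t' : GG.chart M A (jB M)) : FF M) ht'0
  have h1 := h60p_redOrd_places_fin hℓ hM haux hA n hn hmax t' ht'n ht'0 ht'V hprin
    ((t' : GG.chart M A (jB M)) : FF M) ht'0 ht'VV ht'V T₀ hT₀c hT₀all
  have hnP : n.IsPrime := hn.isPrime
  have h2 : H60pRedOrd A (modelFin M A) n ((⟨(t' : FF M), t'.2⟩ : modelFin M A) : FF M)
      ((⟨(t' : FF M), t'.2⟩ : modelFin M A) : FF M) 1 :=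
    h60p_redOrd_unif hRV n (⟨(t' : FF M), t'.2⟩ : modelFin M A) ht'0
  have h3 := h60p_redOrd_unique_fin hℓ hM hA n hnP hmax (⟨(t' : FF M), t'.2⟩ : modelFin M A)
    ht'n ht'0 ht'V h1 h2
  by_contra hne
  have hT : T₀ = ∅ := by
    rw [Finset.eq_empty_iff_forall_notMem]
    intro v hv
    exact hne ⟨v, hT₀c v hv⟩
  rw [hT, Finset.sum_empty] at h3
  exact zero_ne_one h3

/-- **LIFT, chart at infinity**: every closed point is the centre of a place. -/
theorem h88r_lift_inf (hℓ : ℓ.Prime) (hM : ¬ ℓ ∣ M) (haux : auxLevel ℓ ∣ M)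
    (hA : A.LiesOverPrime ℓ)
    (n : Ideal (modelInf M A)) (hn : n.IsMaximal) (hmax : maxExt A (modelInf M A) ≤ n) :
    ∃ v : Place Kbar (FF M), CenteredAt A (modelInf M A) n v := by
  have hle := h89_map_le (jB M)⁻¹ n hmax
  obtain ⟨t', ht'n, ht'0, ht'V, hprin⟩ := h60p_exists_unif_inf hℓ hM haux hA n hn hle
  have hRV := modelInf_le_gaussV A M hℓ hM hA
  have ht'VV : ((t' : GG.chart M A (jB M)⁻¹) : FF M) ∈ gaussV A M := hRV t'.2
  obtain ⟨T₀, hT₀c, hT₀all⟩ := h88r_exists_T (A := A) (modelInf M A) n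
    ((t' : GG.chart M A (jB M)⁻¹) : FF M) ht'0
  have h1 := h60p_redOrd_places_inf hℓ hM haux hA n hn hmax t' ht'n ht'0 ht'V hprin
    ((t' : GG.chart M A (jB M)⁻¹) : FF M) ht'0 ht'VV ht'V T₀ hT₀c hT₀all
  have hnP : n.IsPrime := hn.isPrime
  have h2 : H60pRedOrd A (modelInf M A) n ((⟨(t' : FF M), t'.2⟩ : modelInf M A) : FF M)
      ((⟨(t' : FF M), t'.2⟩ : modelInf M A) : FF M) 1 :=
    h60p_redOrd_unif hRV n (⟨(t' : FF M), t'.2⟩ : modelInf M A) ht'0
  have h3 := h60p_redOrd_unique_inf hℓ hM hA n hnP hmax (⟨(t' : FF M), t'.2⟩ : modelInf M A)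
    ht'n ht'0 ht'V h1 h2
  by_contra hne
  have hT : T₀ = ∅ := by
    rw [Finset.eq_empty_iff_forall_notMem]
    intro v hv
    exact hne ⟨v, hT₀c v hv⟩
  rw [hT, Finset.sum_empty] at h3
  exact zero_ne_one h3

end Fermat.Agent.P5
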