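import Fermat.Agent.PT.Glob.H55InertVal

/-!
# Wave 5, pillar (P), block ALG-DESC, leaf (ii) (helper89): `A ∩ ℚ̄^I` is a DVR with uniformiser `p`

`A` a valuation subring of `ℚ̄` over the prime `p`, `I = A.inertiaSubgroupIn ℚ`.

* `h89p_inertDVR` : every non-zero `x ∈ A` fixed by `I` is `p ^ n * u` with `u` a unit of `A`
  fixed by `I` (adapter of the landed `h55v_kInertVal`, S55).
* `h89p_inertDVR'` : the same for every non-zero `x ∈ ℚ̄` fixed by `I`, with `n : ℤ`.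
* `h89p_not_nonunit` : a unit of `A` is not in the maximal ideal.
* `h89p_inert_small` : an `I`-fixed element of the maximal ideal of `A` is divisible by `p` in
  `A ∩ ℚ̄^I`.
-/

set_option autoImplicit false

namespace Fermat.Agent.P5

open Fermat.Agent.PT.Glob

local notation "Qb89" => AlgebraicClosure ℚ

/-- a unit of `A` is not in the maximal ideal. -/
theorem h89p_not_nonunit (A : ValuationSubring Qb89) {u : Qb89} (_hu : u ∈ A) (hu' : u⁻¹ ∈ A)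
    (hu0 : u ≠ 0) : u ∉ A.nonunits := by
  intro h
  rw [ValuationSubring.mem_nonunits_iff_exists_mem_maximalIdeal] at h
  obtain ⟨huA, hmax⟩ := h
  have hunit : IsUnit (⟨u, huA⟩ : A) := by
    refine ⟨⟨⟨u, huA⟩, ⟨u⁻¹, hu'⟩, ?_, ?_⟩, rfl⟩
    · apply Subtype.ext
      show u * u⁻¹ = 1
      exact mul_inv_cancel₀ hu0
    · apply Subtype.ext
      show u⁻¹ * u = 1
      exact inv_mul_cancel₀ hu0
  exact (IsLocalRing.mem_maximalIdeal _).mp hmax hunit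

/-- `I`-fixed non-zero elements are `p ^ j * unit`, `j : ℤ`, with an `I`-fixed unit. -/
theorem h89p_inertDVR' (p : ℕ) (hp : p.Prime) (A : ValuationSubring Qb89)
    (hA : A.LiesOverPrime p) (x : Qb89) (hx0 : x ≠ 0)
    (hfix : ∀ σ ∈ A.inertiaSubgroupIn ℚ, σ x = x) :
    ∃ (j : ℤ) (u : Qb89), u ∈ A ∧ u⁻¹ ∈ A ∧ (∀ σ ∈ A.inertiaSubgroupIn ℚ, σ u = u) ∧
      x = (p : Qb89) ^ j * u := by
  obtain ⟨j, u, hu, hu', hxu⟩ := h55v_kInertVal p hp A hA x hx0 hfix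
  have hp0 : ((p : ℕ) : Qb89) ≠ 0 := by exact_mod_cast hp.ne_zero
  have hpj0 : ((p : ℕ) : Qb89) ^ j ≠ 0 := zpow_ne_zero _ hp0
  refine ⟨j, u, hu, hu', fun σ hσ => ?_, hxu⟩
  have h1 : σ x = (p : Qb89) ^ j * σ u := by
    rw [hxu, map_mul, map_zpow₀, map_natCast]
  rw [hfix σ hσ, hxu] at h1
  exact (mul_left_cancel₀ hpj0 h1).symm

/-- **leaf (ii).**  Non-zero `I`-fixed elements of `A` are `p ^ n * unit` with an `I`-fixed
unit of `A`. -/
theorem h89p_inertDVR (p : ℕ) (hp : p.Prime) (A : ValuationSubring Qb89)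
    (hA : A.LiesOverPrime p) (x : Qb89) (hxA : x ∈ A) (hx0 : x ≠ 0)
    (hfix : ∀ σ ∈ A.inertiaSubgroupIn ℚ, σ x = x) :
    ∃ (n : ℕ) (u : Qb89), u ∈ A ∧ u⁻¹ ∈ A ∧ (∀ σ ∈ A.inertiaSubgroupIn ℚ, σ u = u) ∧
      x = (p : Qb89) ^ n * u := by
  obtain ⟨j, u, hu, hu', hufix, hxu⟩ := h89p_inertDVR' p hp A hA x hx0 hfix
  have hp0 : ((p : ℕ) : Qb89) ≠ 0 := by exact_mod_cast hp.ne_zero
  have hpA : ((p : ℕ) : Qb89) ∈ A := natCast_mem A p
  have hpnon : ((p : ℕ) : Qb89) ∈ A.nonunits := hA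
  rcases le_or_gt 0 j with hj | hj
  · obtain ⟨n, rfl⟩ := Int.eq_ofNat_of_zero_le hj
    exact ⟨n, u, hu, hu', hufix, by rw [hxu, zpow_natCast]⟩
  · exfalso
    -- `p⁻¹ = p ^ (-j - 1) * x * u⁻¹ ∈ A`
    obtain ⟨m, hm⟩ : ∃ m : ℕ, -j - 1 = (m : ℤ) := ⟨(-j - 1).toNat, by omega⟩
    have hu0 : u ≠ 0 := by
      rintro rfl
      rw [mul_zero] at hxu
      exact hx0 hxu
    have e : ((p : ℕ) : Qb89)⁻¹ = (p : Qb89) ^ m * x * u⁻¹ := by
      rw [hxu, ← zpow_natCast, ← hm]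
      have h2 : ((p : ℕ) : Qb89) ^ (-j - 1) * ((p : Qb89) ^ j * u) * u⁻¹ =
          (p : Qb89) ^ (-j - 1) * (p : Qb89) ^ j := by
        field_simp
      rw [h2, ← zpow_add₀ hp0]
      have h3 : -j - 1 + j = -1 := by ring
      rw [h3, zpow_neg_one]
    have hinv : ((p : ℕ) : Qb89)⁻¹ ∈ A := by
      rw [e]
      exact mul_mem (mul_mem (pow_mem hpA m) hxA) hu'
    exact h89p_not_nonunit A hpA hinv hp0 hpnon

/-- an `I`-fixed element of the maximal ideal of `A` is `p` times an `I`-fixed element of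
`A`. -/
theorem h89p_inert_small (p : ℕ) (hp : p.Prime) (A : ValuationSubring Qb89)
    (hA : A.LiesOverPrime p) (x : Qb89) (hx : x ∈ A.nonunits)
    (hfix : ∀ σ ∈ A.inertiaSubgroupIn ℚ, σ x = x) :
    ∃ y : Qb89, y ∈ A ∧ (∀ σ ∈ A.inertiaSubgroupIn ℚ, σ y = y) ∧ x = (p : Qb89) * y := by
  have hxA : x ∈ A := A.nonunits_subset hx
  by_cases hx0 : x = 0
  · exact ⟨0, A.zero_mem, fun σ _ => map_zero σ, by rw [hx0, mul_zero]⟩
  obtain ⟨n, u, hu, hu', hufix, hxu⟩ := h89p_inertDVR p hp A hA x hxA hx0 hfix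
  have hpA : ((p : ℕ) : Qb89) ∈ A := natCast_mem A p
  rcases Nat.eq_zero_or_pos n with hn | hn
  · exfalso
    rw [hn, pow_zero, one_mul] at hxu
    rw [hxu] at hx hx0
    exact h89p_not_nonunit A hu hu' hx0 hx
  · obtain ⟨n', rfl⟩ := Nat.exists_eq_succ_of_ne_zero hn.ne'
    refine ⟨(p : Qb89) ^ n' * u, mul_mem (pow_mem hpA n') hu, fun σ hσ => ?_, ?_⟩
    · rw [map_mul, map_pow, map_natCast, hufix σ hσ]
    · rw [hxu, pow_succ]
      ring

end Fermat.Agent.P5
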