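import Mathlib

/-!
# Wave 5 (pillar P), block ALG-CLOS (helper8): closed function algebras on finite sets

`K` a field, `O` a valuation subring of `K` with a nonzero nonunit, `S` a finite set.  Functions
`S → K` carry the topology of uniform `O`-adic convergence; we never use a topology, only the
relation "`f - g` is pointwise divisible by `c`".

* `h8k_closed` : **every `O`-submodule of `S → K` is closed**: if for every `c ≠ 0` there is
  `g ∈ L` with `f s - g s ∈ c O` for all `s`, then `f ∈ L`  (`h8k_closed'`: `c ∈ O` only).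
* `h8k_inv_mem` : **units**: a function of an `O`-subalgebra `L` which is a unit of `O` at every
  point is invertible in `L`  (`h8k_exists_inv`: the same for `u : L`).
* `h8k_ev O L hL s : L →+* O` : the value at `s` (`hL` : the functions of `L` are `O`-valued).
* `h8k_newton_abs`, `h8k_newton_step`, `h8k_root_compare` : abstract Newton iteration.
* `h8k_newton` : **Newton**: `O` of rank one, `y : S → 𝔪`; if for every `m` there is `F ∈ L[Y]`
  with linear coefficient a pointwise unit and `F(y) ∈ y ^ m O` pointwise, then `y ∈ L`.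
* `h8k_minor`, `h8k_mulVec_minor`, `h8k_kernel_unique`, `h8k_cramer` : **Cramer**: an
  `n × (n+1)` matrix over `L` with a maximal minor which is a pointwise unit has a kernel vector
  in `L` with coordinate `1` at this minor; pointwise the kernel is a line.

Everything is proved from Mathlib alone.
-/

set_option autoImplicit false
set_option linter.style.haveILetI false
set_option linter.unusedSectionVars false

open Module Polynomial IsLocalRing

noncomputable section

namespace Fermat.Agent.P5

section Closed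

variable {K : Type*} [Field K] (O : ValuationSubring K)

/-- common denominators in a valuation ring. -/
theorem h8k_common_den {ι : Type*} (T : Finset ι) (x : ι → K) :
    ∃ d : K, d ∈ O ∧ d ≠ 0 ∧ ∀ i ∈ T, d * x i ∈ O := by
  classical
  induction T using Finset.induction_on with
  | empty => exact ⟨1, O.one_mem, one_ne_zero, fun i hi => absurd hi (Finset.notMem_empty i)⟩
  | insert a T ha ih =>
    obtain ⟨d, hd, hd0, hdx⟩ := ih
    by_cases h : x a ∈ O
    · refine ⟨d, hd, hd0, fun i hi => ?_⟩
      rcases Finset.mem_insert.mp hi with rfl | hi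
      · exact mul_mem hd h
      · exact hdx i hi
    · have hx0 : x a ≠ 0 := fun h0 => h (h0 ▸ O.zero_mem)
      have hinv : (x a)⁻¹ ∈ O := (O.mem_or_inv_mem (x a)).resolve_left h
      refine ⟨d * (x a)⁻¹, mul_mem hd hinv, mul_ne_zero hd0 (inv_ne_zero hx0), fun i hi => ?_⟩
      rcases Finset.mem_insert.mp hi with rfl | hi
      · rw [mul_assoc, inv_mul_cancel₀ hx0, mul_one]
        exact hd
      · have : d * (x a)⁻¹ * x i = (x a)⁻¹ * (d * x i) := by ring
        rw [this]
        exact mul_mem hinv (hdx i hi)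

/-- an element divisible by every nonzero element is zero. -/
theorem h8k_eq_zero_of_forall_dvd (hO : ∃ m : K, m ∈ O ∧ m ≠ 0 ∧ m⁻¹ ∉ O) {x : K}
    (hx : ∀ c : K, c ≠ 0 → ∃ h ∈ O, x = c * h) : x = 0 := by
  by_contra hx0
  obtain ⟨m, hm, hm0, hminv⟩ := hO
  obtain ⟨h, hh, e⟩ := hx (x * m) (mul_ne_zero hx0 hm0)
  apply hminv
  have h1 : m * h = 1 := by
    have : x * (m * h) = x * 1 := by rw [mul_one, ← mul_assoc]; exact e.symm
    exact mul_left_cancel₀ hx0 this
  have h2 : m⁻¹ = h := by
    rw [← mul_one m⁻¹, ← h1, ← mul_assoc, inv_mul_cancel₀ hm0, one_mul]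
  rw [h2]
  exact hh

variable {S : Type*} [Finite S]

/-- **Closedness.**  Every `O`-submodule of the functions on a finite set is closed for the
uniform `O`-adic convergence. -/
theorem h8k_closed (hO : ∃ m : K, m ∈ O ∧ m ≠ 0 ∧ m⁻¹ ∉ O) (L : Submodule O (S → K))
    (f : S → K)
    (hf : ∀ c : K, c ≠ 0 → ∃ g ∈ L, ∀ s, ∃ h ∈ O, f s - g s = c * h) : f ∈ L := by
  classical
  haveI : Fintype S := Fintype.ofFinite S
  -- a basis of the span of `L`, made of elements of `L`, extended to a basis of `S → K`
  obtain ⟨b, hbL, hspan, hli⟩ := exists_linearIndependent K (L : Set (S → K))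
  have hli' : LinearIndepOn K id b := hli
  let B := Basis.extend hli'
  haveI : Finite ↑(hli'.extend (Set.subset_univ b)) := Module.Finite.finite_basis B
  haveI : Fintype ↑(hli'.extend (Set.subset_univ b)) := Fintype.ofFinite _
  -- the coordinates are combinations of the evaluations
  have hcoord : ∀ (i : ↑(hli'.extend (Set.subset_univ b))) (w : S → K),
      B.coord i w = ∑ s, w s * B.coord i (fun j => if s = j then 1 else 0) := by
    intro i w
    rw [LinearMap.pi_apply_eq_sum_univ (B.coord i) w]
    rfl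
  -- a common denominator
  obtain ⟨d, hd, hd0, hden⟩ := h8k_common_den O
    (Finset.univ : Finset (↑(hli'.extend (Set.subset_univ b)) × S))
    (fun p => B.coord p.1 (fun j => if p.2 = j then 1 else 0))
  have hint : ∀ (i : ↑(hli'.extend (Set.subset_univ b))) (c : K) (w : S → K),
      (∀ s, ∃ h ∈ O, w s = c * h) → ∃ h ∈ O, d * B.coord i w = c * h := by
    intro i c w hw
    choose h hh e using hw
    refine ⟨∑ s, h s * (d * B.coord i (fun j => if s = j then 1 else 0)),
      sum_mem fun s _ => mul_mem (hh s) (hden (i, s) (Finset.mem_univ _)), ?_⟩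
    rw [hcoord, Finset.mul_sum, Finset.mul_sum]
    refine Finset.sum_congr rfl fun s _ => ?_
    rw [e s]
    ring
  -- the coordinates outside `b` vanish on `L`
  have hzero : ∀ (i : ↑(hli'.extend (Set.subset_univ b))), (i : S → K) ∉ b →
      ∀ g ∈ L, B.coord i g = 0 := by
    intro i hi g hg
    have hle : Submodule.span K b ≤ LinearMap.ker (B.coord i) := by
      rw [Submodule.span_le]
      intro x hx
      have hx' : x ∈ hli'.extend (Set.subset_univ b) := Basis.subset_extend hli' hx
      have e : B ⟨x, hx'⟩ = x := Basis.extend_apply_self hli' ⟨x, hx'⟩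
      show B.coord i x = 0
      rw [← e, Basis.coord_apply, Basis.repr_self, Finsupp.single_apply, if_neg]
      rintro rfl
      exact hi hx
    have hg' : g ∈ Submodule.span K b := by
      rw [hspan]
      exact Submodule.subset_span hg
    exact hle hg'
  -- the approximation at `d`
  obtain ⟨g, hg, hfg⟩ := hf d hd0
  have hmain : f - g ∈ L := by
    rw [← Basis.sum_repr B (f - g)]
    refine L.sum_mem fun i _ => ?_
    by_cases hi : (i : S → K) ∈ b
    · -- integral coefficient
      obtain ⟨h, hh, e⟩ := hint i d (f - g) hfg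
      have e' : B.repr (f - g) i = h := by
        rw [← Basis.coord_apply]
        exact mul_left_cancel₀ hd0 e
      rw [e', Basis.extend_apply_self]
      have := L.smul_mem (⟨h, hh⟩ : O) (hbL hi)
      exact this
    · -- zero coefficient
      have e' : B.repr (f - g) i = 0 := by
        rw [← Basis.coord_apply, map_sub, hzero i hi g hg, sub_zero]
        have h0 : d * B.coord i f = 0 := by
          apply h8k_eq_zero_of_forall_dvd O hO
          intro c hc
          obtain ⟨g', hg', hfg'⟩ := hf c hc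
          obtain ⟨h, hh, e⟩ := hint i c (f - g') hfg'
          refine ⟨h, hh, ?_⟩
          rw [← e, map_sub, hzero i hi g' hg', sub_zero]
        exact (mul_eq_zero.mp h0).resolve_left hd0
      rw [e', zero_smul]
      exact L.zero_mem
  have := L.add_mem hmain hg
  rwa [sub_add_cancel] at this

end Closed

section Unit

variable {K : Type*} [Field K] (O : ValuationSubring K) {S : Type*} [Finite S]

/-- the value at a point of a polynomial in a function. -/
theorem h8k_aeval_apply (u : S → K) (Q : Polynomial O) (s : S) :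
    (Polynomial.aeval u Q) s = Polynomial.aeval (u s) Q :=
  (Polynomial.aeval_algHom_apply (Pi.evalAlgHom O (fun _ : S => K) s) u Q).symm

/-- polynomials in an element of a subalgebra. -/
theorem h8k_aeval_mem (L : Subalgebra O (S → K)) {u : S → K} (hu : u ∈ L) (Q : Polynomial O) :
    Polynomial.aeval u Q ∈ L := by
  have h := Subalgebra.aeval_coe L (⟨u, hu⟩ : L) Q
  have e : ((⟨u, hu⟩ : L) : S → K) = u := rfl
  rw [e] at h
  rw [h]
  exact (Polynomial.aeval (⟨u, hu⟩ : L) Q).2

/-- **Units.**  A function of a subalgebra which is a unit of `O` at every point is invertible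
in the subalgebra. -/
theorem h8k_inv_mem (L : Subalgebra O (S → K)) {u : S → K} (hu : u ∈ L)
    (hunit : ∀ s, u s ≠ 0 ∧ u s ∈ O ∧ (u s)⁻¹ ∈ O) : (fun s => (u s)⁻¹) ∈ L := by
  classical
  haveI : Fintype S := Fintype.ofFinite S
  let uO : S → O := fun s => ⟨u s, (hunit s).2.1⟩
  let vO : S → O := fun s => ⟨(u s)⁻¹, (hunit s).2.2⟩
  have huv : ∀ s, uO s * vO s = 1 := fun s =>
    Subtype.ext (mul_inv_cancel₀ (hunit s).1)
  let P : Polynomial O := ∏ s, (Polynomial.X - Polynomial.C (uO s))
  have hP : ∀ s, Polynomial.aeval (u s) P = 0 := by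
    intro s
    simp only [P, map_prod, map_sub, Polynomial.aeval_X, Polynomial.aeval_C]
    apply Finset.prod_eq_zero (Finset.mem_univ s)
    show u s - algebraMap O K (uO s) = 0
    exact sub_self _
  have ha0 : P.coeff 0 = ∏ s, (- uO s) := by
    rw [Polynomial.coeff_zero_eq_eval_zero]
    simp [P, Polynomial.eval_prod]
  let b0 : O := ∏ s, (- vO s)
  have hab : P.coeff 0 * b0 = 1 := by
    rw [ha0, ← Finset.prod_mul_distrib]
    apply Finset.prod_eq_one
    intro s _
    rw [neg_mul_neg]
    exact huv s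
  have hw := h8k_aeval_mem O L hu P.divX
  have hmem : (-b0) • Polynomial.aeval u P.divX ∈ L := L.smul_mem hw _
  have e : (fun s => (u s)⁻¹) = (-b0) • Polynomial.aeval u P.divX := by
    funext s
    have h1 : Polynomial.aeval (u s) P.divX * u s + algebraMap O K (P.coeff 0) = 0 := by
      have := hP s
      rw [← Polynomial.divX_mul_X_add P] at this
      simpa using this
    have h2 : (algebraMap O K (P.coeff 0)) * (algebraMap O K b0) = 1 := by
      rw [← map_mul, hab, map_one]
    show (u s)⁻¹ = (algebraMap O K (-b0)) * (Polynomial.aeval u P.divX) s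
    rw [h8k_aeval_apply, map_neg]
    have hu0 := (hunit s).1
    have h3 : Polynomial.aeval (u s) P.divX = - algebraMap O K (P.coeff 0) * (u s)⁻¹ := by
      have : Polynomial.aeval (u s) P.divX * u s = - algebraMap O K (P.coeff 0) :=
        eq_neg_of_add_eq_zero_left h1
      rw [← this, mul_assoc, mul_inv_cancel₀ hu0, mul_one]
    rw [h3]
    have : -(algebraMap O K) b0 * (-(algebraMap O K) (P.coeff 0) * (u s)⁻¹) =
        ((algebraMap O K (P.coeff 0)) * (algebraMap O K b0)) * (u s)⁻¹ := by ring
    rw [this, h2, one_mul]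
  rw [e]
  exact hmem

end Unit

section NewtonAbs

variable {R : Type*} [CommRing R] {O : Type*} [CommRing O] [IsLocalRing O]
  {S : Type*} (ev : S → (R →+* O))

/-- one Newton step in a commutative ring. -/
theorem h8k_newton_step (F : R[X]) (z w : R) (hw : F.derivative.eval z * w = 1) :
    ∃ k : R, F.eval (z - F.eval z * w) = k * (F.eval z) ^ 2 := by
  obtain ⟨k, hk⟩ := Polynomial.binomExpansion F z (-(F.eval z * w))
  refine ⟨k * w ^ 2, ?_⟩
  rw [sub_eq_add_neg, hk]
  have : eval z F + eval z (derivative F) * -(eval z F * w) =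
      eval z F * (1 - eval z (derivative F) * w) := by ring
  rw [this, hw]
  ring

/-- the derivative at a point of the maximal ideal is a unit. -/
theorem h8k_deriv_isUnit (P : O[X]) (h1 : IsUnit (P.coeff 1)) {z : O}
    (hz : z ∈ maximalIdeal O) : IsUnit (P.derivative.eval z) := by
  obtain ⟨k, hk⟩ := Polynomial.evalSubFactor P.derivative z 0
  have e0 : P.derivative.eval 0 = P.coeff 1 := by
    rw [← Polynomial.coeff_zero_eq_eval_zero, Polynomial.coeff_derivative]
    simp
  rw [e0, sub_zero] at hk
  have e : P.derivative.eval z = P.coeff 1 + k * z := by rw [← hk]; ring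
  rw [e]
  by_contra hnu
  have h2 : P.coeff 1 + k * z ∈ maximalIdeal O := (mem_maximalIdeal _).2 hnu
  have h3 : P.coeff 1 ∈ maximalIdeal O := by
    have := (maximalIdeal O).sub_mem h2 ((maximalIdeal O).mul_mem_left k hz)
    rwa [add_sub_cancel_right] at this
  exact ((mem_maximalIdeal _).1 h3) h1

/-- comparison of two approximate roots in the maximal ideal. -/
theorem h8k_root_compare (P : O[X]) (h1 : IsUnit (P.coeff 1)) {y z c : O}
    (hy : y ∈ maximalIdeal O) (hz : z ∈ maximalIdeal O)
    (hcy : c ∣ P.eval y) (hcz : c ∣ P.eval z) : c ∣ z - y := by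
  obtain ⟨k, hk⟩ := Polynomial.binomExpansion P y (z - y)
  rw [add_sub_cancel] at hk
  have hU : IsUnit (P.derivative.eval y + k * (z - y)) := by
    by_contra hnu
    have h2 : P.derivative.eval y + k * (z - y) ∈ maximalIdeal O := (mem_maximalIdeal _).2 hnu
    have h3 : P.derivative.eval y ∈ maximalIdeal O := by
      have := (maximalIdeal O).sub_mem h2
        ((maximalIdeal O).mul_mem_left k ((maximalIdeal O).sub_mem hz hy))
      rwa [add_sub_cancel_right] at this
    exact ((mem_maximalIdeal _).1 h3) (h8k_deriv_isUnit P h1 hy)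
  have e : P.eval z - P.eval y = (P.derivative.eval y + k * (z - y)) * (z - y) := by
    rw [hk]; ring
  have h4 : c ∣ (P.derivative.eval y + k * (z - y)) * (z - y) := by
    rw [← e]
    exact dvd_sub hcz hcy
  exact (hU.dvd_mul_left).1 h4

/-- **abstract Newton iteration**: `R` a ring of functions with values in the local ring `O`
(`ev s`, `s : S`), in which the pointwise units are invertible.  If the linear coefficient of `F`
is a pointwise unit and the constant coefficient is pointwise in the maximal ideal, then for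
every `n` there is `z ∈ R`, pointwise in the maximal ideal, with `F(z) ∈ F(0)^(2^n) R`. -/
theorem h8k_newton_abs (hinv : ∀ u : R, (∀ s, IsUnit (ev s u)) → ∃ w : R, u * w = 1)
    (F : R[X]) (h1 : ∀ s, IsUnit (ev s (F.coeff 1)))
    (h0 : ∀ s, ev s (F.coeff 0) ∈ maximalIdeal O) (n : ℕ) :
    ∃ z : R, (∀ s, ev s z ∈ maximalIdeal O) ∧ ∃ k : R, F.eval z = k * (F.coeff 0) ^ (2 ^ n) := by
  induction n with
  | zero =>
    refine ⟨0, fun s => ?_, 1, ?_⟩
    · rw [map_zero]; exact (maximalIdeal O).zero_mem
    · rw [← Polynomial.coeff_zero_eq_eval_zero]; simp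
  | succ n ih =>
    obtain ⟨z, hz, k, hk⟩ := ih
    -- the derivative at `z` is a pointwise unit
    have hder : ∀ s, IsUnit (ev s (F.derivative.eval z)) := by
      intro s
      have e : ev s (F.derivative.eval z) = (F.map (ev s)).derivative.eval (ev s z) := by
        rw [Polynomial.derivative_map, Polynomial.eval_map, ← Polynomial.eval₂_at_apply]
      rw [e]
      apply h8k_deriv_isUnit _ _ (hz s)
      rw [Polynomial.coeff_map]
      exact h1 s
    obtain ⟨w, hw⟩ := hinv _ hder
    obtain ⟨k', hk'⟩ := h8k_newton_step F z w hw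
    refine ⟨z - F.eval z * w, fun s => ?_, k' * k ^ 2, ?_⟩
    · rw [map_sub, map_mul]
      refine (maximalIdeal O).sub_mem (hz s) ((maximalIdeal O).mul_mem_right _ ?_)
      rw [hk, map_mul, map_pow]
      refine (maximalIdeal O).mul_mem_left _ ?_
      exact Ideal.pow_mem_of_mem _ (h0 s) _ (by positivity)
    · rw [hk', hk]
      ring

end NewtonAbs

section Newton

variable {K : Type*} [Field K] (O : ValuationSubring K) {S : Type*} [Finite S]

/-- closedness, with approximations only for the nonzero elements of `O`. -/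
theorem h8k_closed' (hO : ∃ m : K, m ∈ O ∧ m ≠ 0 ∧ m⁻¹ ∉ O) (L : Submodule O (S → K))
    (f : S → K)
    (hf : ∀ c : O, c ≠ 0 → ∃ g ∈ L, ∀ s, ∃ h : O, f s - g s = (c : K) * (h : K)) : f ∈ L := by
  apply h8k_closed O hO L f
  intro c hc
  by_cases hcO : c ∈ O
  · obtain ⟨g, hg, h⟩ := hf ⟨c, hcO⟩ (fun h0 => hc (congrArg Subtype.val h0))
    refine ⟨g, hg, fun s => ?_⟩
    obtain ⟨k, hk⟩ := h s
    exact ⟨k, k.2, hk⟩
  · have hinv : c⁻¹ ∈ O := (O.mem_or_inv_mem c).resolve_left hcO
    obtain ⟨g, hg, h⟩ := hf 1 one_ne_zero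
    refine ⟨g, hg, fun s => ?_⟩
    obtain ⟨k, hk⟩ := h s
    refine ⟨c⁻¹ * k, mul_mem hinv k.2, ?_⟩
    rw [hk, ← mul_assoc, mul_inv_cancel₀ hc]
    simp

/-- evaluation at a point of the functions of a subalgebra of `O`-valued functions. -/
def h8k_ev (L : Subalgebra O (S → K)) (hL : ∀ g ∈ L, ∀ s, g s ∈ O) (s : S) : ↥L →+* ↥O :=
  RingHom.codRestrict ((Pi.evalRingHom (fun _ : S => K) s).comp L.val.toRingHom) O
    (fun g => hL g.1 g.2 s)

theorem h8k_ev_coe (L : Subalgebra O (S → K)) (hL : ∀ g ∈ L, ∀ s, g s ∈ O) (s : S) (g : ↥L) :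
    ((h8k_ev O L hL s g : O) : K) = (g : S → K) s := rfl

/-- the pointwise units of a subalgebra of `O`-valued functions are invertible. -/
theorem h8k_exists_inv (L : Subalgebra O (S → K)) (hL : ∀ g ∈ L, ∀ s, g s ∈ O) (u : ↥L)
    (hu : ∀ s, IsUnit (h8k_ev O L hL s u)) : ∃ w : ↥L, u * w = 1 := by
  have hunit : ∀ s, (u : S → K) s ≠ 0 ∧ (u : S → K) s ∈ O ∧ ((u : S → K) s)⁻¹ ∈ O := by
    intro s
    obtain ⟨b, hb⟩ := isUnit_iff_exists_inv.1 (hu s)
    have hb' : (u : S → K) s * (b : K) = 1 := by
      have := congrArg Subtype.val hb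
      rw [← h8k_ev_coe O L hL s u]
      exact this
    have h0 : (u : S → K) s ≠ 0 := left_ne_zero_of_mul_eq_one hb'
    refine ⟨h0, hL _ u.2 s, ?_⟩
    have e : ((u : S → K) s)⁻¹ = (b : K) := by
      rw [← mul_one ((u : S → K) s)⁻¹, ← hb', ← mul_assoc, inv_mul_cancel₀ h0, one_mul]
    rw [e]
    exact b.2
  refine ⟨⟨_, h8k_inv_mem O L u.2 hunit⟩, ?_⟩
  apply Subtype.ext
  funext s
  show (u : S → K) s * ((u : S → K) s)⁻¹ = 1
  exact mul_inv_cancel₀ (hunit s).1

/-- **Newton.**  `L` a subalgebra of `O`-valued functions on a finite set, `O` of rank one,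
`y` a function with values in the maximal ideal.  If for every `m` there is a polynomial `F`
over `L`, with linear coefficient a pointwise unit, such that `F(y) ∈ y ^ m O` pointwise, then
`y ∈ L`. -/
theorem h8k_newton (hO : ∃ m : K, m ∈ O ∧ m ≠ 0 ∧ m⁻¹ ∉ O)
    (hrank : ∀ x : O, x ∈ maximalIdeal O → ∀ c : O, c ≠ 0 → ∃ n : ℕ, c ∣ x ^ n)
    (L : Subalgebra O (S → K)) (hL : ∀ g ∈ L, ∀ s, g s ∈ O)
    (y : S → O) (hy : ∀ s, y s ∈ maximalIdeal O)
    (hF : ∀ m : ℕ, ∃ F : Polynomial ↥L, (∀ s, IsUnit (h8k_ev O L hL s (F.coeff 1))) ∧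
      ∀ s, (y s) ^ m ∣ (F.map (h8k_ev O L hL s)).eval (y s)) :
    (fun s => ((y s : O) : K)) ∈ L := by
  classical
  haveI : Fintype S := Fintype.ofFinite S
  -- uniform exponents
  have huni : ∀ (x : S → O), (∀ s, x s ∈ maximalIdeal O) → ∀ c : O, c ≠ 0 →
      ∃ n : ℕ, ∀ s, ∀ n' : ℕ, n ≤ n' → c ∣ x s ^ n' := by
    intro x hx c hc
    choose n hn using fun s => hrank (x s) (hx s) c hc
    refine ⟨∑ s, n s, fun s n' hn' => ?_⟩
    have h1 : n s ≤ n' :=
      (Finset.single_le_sum (fun _ _ => Nat.zero_le _) (Finset.mem_univ s)).trans hn'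
    exact (hn s).trans (pow_dvd_pow _ h1)
  apply h8k_closed' O hO (Subalgebra.toSubmodule L)
  intro c hc
  obtain ⟨m, hm⟩ := huni y hy c hc
  obtain ⟨F, hF1, hFy⟩ := hF (m + 1)
  -- the constant coefficient is pointwise in the maximal ideal
  have hF0 : ∀ s, h8k_ev O L hL s (F.coeff 0) ∈ maximalIdeal O := by
    intro s
    obtain ⟨k, hk⟩ := Polynomial.evalSubFactor (F.map (h8k_ev O L hL s)) (y s) 0
    rw [← Polynomial.coeff_zero_eq_eval_zero, Polynomial.coeff_map, sub_zero] at hk
    have h1 : (F.map (h8k_ev O L hL s)).eval (y s) ∈ maximalIdeal O := by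
      obtain ⟨t, ht⟩ := hFy s
      rw [ht]
      exact (maximalIdeal O).mul_mem_right _ (Ideal.pow_mem_of_mem _ (hy s) _ (Nat.succ_pos m))
    have e : h8k_ev O L hL s (F.coeff 0) = (F.map (h8k_ev O L hL s)).eval (y s) - k * y s := by
      rw [← hk]; ring
    rw [e]
    exact (maximalIdeal O).sub_mem h1 ((maximalIdeal O).mul_mem_left _ (hy s))
  obtain ⟨N, hN⟩ := huni (fun s => h8k_ev O L hL s (F.coeff 0)) hF0 c hc
  obtain ⟨z, hz, k, hk⟩ := h8k_newton_abs (h8k_ev O L hL) (h8k_exists_inv O L hL) F hF1 hF0 N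
  refine ⟨(z : S → K), z.2, fun s => ?_⟩
  have hcz : c ∣ (F.map (h8k_ev O L hL s)).eval (h8k_ev O L hL s z) := by
    rw [Polynomial.eval_map, Polynomial.eval₂_at_apply, hk, map_mul, map_pow]
    exact Dvd.dvd.mul_left (hN s _ (Nat.lt_two_pow_self).le) _
  have hcy : c ∣ (F.map (h8k_ev O L hL s)).eval (y s) :=
    (hm s _ (Nat.le_succ m)).trans (hFy s)
  have h1 : IsUnit ((F.map (h8k_ev O L hL s)).coeff 1) := by
    rw [Polynomial.coeff_map]; exact hF1 s
  obtain ⟨h, hh⟩ := h8k_root_compare (F.map (h8k_ev O L hL s)) h1 (hy s) (hz s) hcy hcz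
  refine ⟨-h, ?_⟩
  have e : ((y s : O) : K) - (z : S → K) s = -(((h8k_ev O L hL s z - y s : O)) : K) := by
    rw [← h8k_ev_coe O L hL s z]
    push_cast
    ring
  rw [e, hh]
  push_cast
  ring

end Newton

section CramerAbs

variable {R : Type*} [CommRing R] {n : ℕ}

/-- the signed maximal minors of an `n × (n+1)` matrix. -/
def h8k_minor (M : Matrix (Fin n) (Fin (n + 1)) R) (j : Fin (n + 1)) : R :=
  (-1) ^ (j : ℕ) * (M.submatrix id j.succAbove).det

/-- **Cramer**: the vector of the signed maximal minors is in the kernel. -/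
theorem h8k_mulVec_minor (M : Matrix (Fin n) (Fin (n + 1)) R) :
    M.mulVec (h8k_minor M) = 0 := by
  funext i
  let N : Matrix (Fin (n + 1)) (Fin (n + 1)) R := Matrix.of (Fin.cons (M i) M)
  have hN0 : N 0 = M i := rfl
  have hNs : ∀ k : Fin n, N k.succ = M k := fun k => rfl
  have hdet : N.det = 0 :=
    Matrix.det_zero_of_row_eq (i := 0) (j := i.succ) (Fin.succ_ne_zero i).symm
      (by rw [hN0, hNs])
  rw [Matrix.det_succ_row_zero] at hdet
  show ∑ j, M i j * h8k_minor M j = 0
  rw [← hdet]
  refine Finset.sum_congr rfl fun j _ => ?_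
  have e : N.submatrix Fin.succ j.succAbove = M.submatrix id j.succAbove := by
    ext a b
    rfl
  rw [e]
  show M i j * ((-1) ^ (j : ℕ) * _) = (-1) ^ (j : ℕ) * N 0 j * _
  rw [hN0]
  ring

/-- uniqueness of the kernel vector when a maximal minor is not zero. -/
theorem h8k_kernel_unique {F : Type*} [Field F] (M : Matrix (Fin n) (Fin (n + 1)) F)
    (j₀ : Fin (n + 1)) (hdet : (M.submatrix id j₀.succAbove).det ≠ 0)
    (c c' : Fin (n + 1) → F) (hc : M.mulVec c = 0) (hc' : M.mulVec c' = 0)
    (h : c j₀ = c' j₀) : c = c' := by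
  have hd : M.mulVec (c - c') = 0 := by rw [Matrix.mulVec_sub, hc, hc', sub_zero]
  have hd0 : (c - c') j₀ = 0 := by rw [Pi.sub_apply, h, sub_self]
  have h1 : (M.submatrix id j₀.succAbove).mulVec (fun k => (c - c') (j₀.succAbove k)) = 0 := by
    funext i
    have := congrFun hd i
    simp only [Matrix.mulVec, dotProduct, Pi.zero_apply] at this ⊢
    rw [Fin.sum_univ_succAbove _ j₀, hd0, mul_zero, zero_add] at this
    exact this
  have h2 := Matrix.eq_zero_of_mulVec_eq_zero hdet h1
  funext j
  have h3 : (c - c') j = 0 := by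
    rcases Fin.eq_self_or_eq_succAbove j₀ j with rfl | ⟨k, rfl⟩
    · exact hd0
    · exact congrFun h2 k
  exact sub_eq_zero.mp h3

end CramerAbs

section Cramer

variable {K : Type*} [Field K] (O : ValuationSubring K) {S : Type*} [Finite S] {n : ℕ}

/-- **Cramer in a subalgebra of `O`-valued functions.**  If a maximal minor of an
`n × (n+1)` matrix over `L` is a pointwise unit, the kernel contains a vector of `L` with
coordinate `1` at this minor. -/
theorem h8k_cramer (L : Subalgebra O (S → K)) (hL : ∀ g ∈ L, ∀ s, g s ∈ O)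
    (M : Matrix (Fin n) (Fin (n + 1)) ↥L) (j₀ : Fin (n + 1))
    (hunit : ∀ s, IsUnit (h8k_ev O L hL s (M.submatrix id j₀.succAbove).det)) :
    ∃ c : Fin (n + 1) → ↥L, c j₀ = 1 ∧ M.mulVec c = 0 := by
  have hu : ∀ s, IsUnit (h8k_ev O L hL s (h8k_minor M j₀)) := by
    intro s
    unfold h8k_minor
    rw [map_mul, map_pow, map_neg, map_one]
    exact ((isUnit_one.neg).pow _).mul (hunit s)
  obtain ⟨w, hw⟩ := h8k_exists_inv O L hL _ hu
  refine ⟨fun j => w * h8k_minor M j, (mul_comm _ _).trans hw, ?_⟩
  have e : (fun j => w * h8k_minor M j) = w • h8k_minor M := by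
    funext j
    rfl
  rw [e, Matrix.mulVec_smul, h8k_mulVec_minor, smul_zero]

end Cramer

end Fermat.Agent.P5
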