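import Fermat.Agent.Red.Nz.Final
import Fermat.Agent.Red.GateGoodMain
import Fermat.Agent.LGC.H62Done
import Fermat.Agent.S37.Inertia
import Fermat.Agent.Red.BC.Main

/-!
# P5 (wave 5, S19), block GEO-DISC, leaf DISC-PT (helper90): points with prescribed coordinate

At a good level `M` (`ℓ ∤ M`, `auxLevel ℓ ∣ M`), `A` a valuation subring of `ℚ̄` over `ℓ`:

* `h90dCentre hv` : the closed point of the finite chart at which the finite place `v` is centred
  (kernel of the reduction homomorphism), with `h90d_centre_isMaximal`, `h90d_maxExt_le`,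
  `h90d_centeredAt`, and the dictionary `h90d_sameRed_of_centeredAt` (a place centred at the
  centre of `v` has the same reduction as `v`).
* `h90d_exists_zero` : **ZERO**: a Gauss unit `x` of the finite chart lying in a closed point `n`
  has a zero at a place centred at `n` (contrapositive of the landed local unit lemma
  `h89_redUnitAt`, i.e. of the local factorisation `h26_local_factor`).
* `h90d_exists_param` : a RATIONAL local parameter at every closed point of the special fibre.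
* `h90d_inj_chart` : a local parameter is injective on the residue disc.
* `h90d_exists_value` : **DISC-PT**: a Gauss unit `t` of the finite chart with `t (Q) ∈ 𝔪_A`
  takes EVERY value `x ∈ 𝔪_A` at some place `P` of the residue disc of `Q`;
  `h90d_exists_value_frac` : the same for a fraction `t = r / s`, `s` a unit at `Q`.
-/

set_option autoImplicit false
set_option linter.unusedSectionVars false
set_option linter.style.haveILetI false

open AlgebraicCurve ModularCurve IsLocalRing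

noncomputable section

namespace Fermat.Agent.P5

open Fermat.Agent.S37 Fermat.Agent.Red Fermat.Agent.Red.Match Fermat.Agent.Red.Nz
  Fermat.Agent.Red.GV

variable {M : ℕ} [NeZero M] {A : ValuationSubring Kbar} {ℓ : ℕ}

/-- the closed point of the finite chart at which the finite place `v` is centred. -/
def h90dCentre {v : Place Kbar (FF M)} (hv : IsFinAt A v) : Ideal (modelFin M A) :=
  RingHom.ker (rdFin hv)

theorem h90d_mem_centre {v : Place Kbar (FF M)} (hv : IsFinAt A v) (f : modelFin M A) :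
    f ∈ h90dCentre hv ↔ ((evFin hv f : A) : Kbar) ∈ A.nonunits := by
  unfold h90dCentre
  rw [RingHom.mem_ker, rdFin_apply, IsLocalRing.residue_eq_zero_iff,
    ← ValuationSubring.coe_mem_nonunits_iff]

theorem h90d_rdFin_surjective {v : Place Kbar (FF M)} (hv : IsFinAt A v) :
    Function.Surjective (rdFin hv) := by
  intro c
  obtain ⟨a, rfl⟩ := IsLocalRing.residue_surjective c
  exact ⟨⟨cst M (a : Kbar), cst_mem_modelAt M A (jB M) a.2⟩,
    redHom_cst A (modelFin M A) v _ a _⟩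

theorem h90d_centre_isMaximal {v : Place Kbar (FF M)} (hv : IsFinAt A v) :
    (h90dCentre hv).IsMaximal :=
  RingHom.ker_isMaximal_of_surjective (rdFin hv) (h90d_rdFin_surjective hv)

theorem h90d_maxExt_le {v : Place Kbar (FF M)} (hv : IsFinAt A v) :
    maxExt A (modelFin M A) ≤ h90dCentre hv := by
  unfold maxExt
  rw [Ideal.span_le]
  rintro x ⟨a, ha, hxa⟩
  rw [SetLike.mem_coe, h90d_mem_centre]
  have h1 : ValueAt v (x : FF M) a := by
    rw [hxa]
    exact valueAt_cst v a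
  have h2 := valueAt_unique (evFin_spec hv x) h1
  rw [h2]
  exact ha

theorem h90d_centeredAt {v : Place Kbar (FF M)} (hv : IsFinAt A v) :
    CenteredAt A (modelFin M A) (h90dCentre hv) v :=
  ⟨fun f => ⟨evFin hv f, evFin_spec hv f⟩,
    fun f hf => ⟨_, (h90d_mem_centre hv f).mp hf, evFin_spec hv f⟩⟩

/-- a place centred at the centre of `v` has the same reduction as `v`. -/
theorem h90d_sameRed_of_centeredAt {v w : Place Kbar (FF M)} (hv : IsFinAt A v)
    (hw : CenteredAt A (modelFin M A) (h90dCentre hv) w) : SameRed A w v := by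
  have hwf : IsFinAt A w := h89_isFinAt_of_centeredAt hw
  refine Or.inl ⟨hwf, hv, fun f hf => ?_⟩
  set c : A := evFin hv ⟨f, hf⟩ with hc
  have hcm : cst M (c : Kbar) ∈ modelFin M A := cst_mem_modelAt M A (jB M) c.2
  have hmem : (⟨f, hf⟩ - ⟨cst M (c : Kbar), hcm⟩ : modelFin M A) ∈ h90dCentre hv := by
    rw [h90d_mem_centre]
    have h1 : ValueAt v (((⟨f, hf⟩ - ⟨cst M (c : Kbar), hcm⟩ : modelFin M A) :
        modelFin M A) : FF M) ((c : Kbar) - (c : Kbar)) :=
      valueAt_sub (evFin_spec hv ⟨f, hf⟩) (valueAt_cst v _)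
    rw [valueAt_unique (evFin_spec hv _) h1, sub_self]
    exact A.nonunits.zero_mem
  obtain ⟨a, ha, hwa⟩ := hw.2 _ hmem
  have hwa' : ValueAt w (f - cst M (c : Kbar)) a := hwa
  have hwf' : ValueAt w f (a + (c : Kbar)) := by
    have := valueAt_add hwa' (valueAt_cst w (c : Kbar))
    rwa [sub_add_cancel] at this
  refine ⟨a + c, c, A.add_mem _ _ (ValuationSubring.nonunits_subset ha) c.2, c.2, hwf',
    evFin_spec hv ⟨f, hf⟩, ?_⟩
  rw [add_sub_cancel_right]
  exact ha

/-! ### ZERO: a Gauss unit lying in a closed point has a zero in the residue disc -/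

omit [NeZero M] in
/-- a function with a nonzero value at a place has order zero there. -/
theorem h90d_ord_eq_zero {v : Place Kbar (FF M)} {f : FF M} {c : Kbar}
    (h : ValueAt v f c) (hc : c ≠ 0) : v.ord f = 0 := by
  have hnu := valueAt_ne_zero_not_mem_nonunits h hc
  rw [ValuationSubring.mem_nonunits_iff_or, not_or, not_not] at hnu
  have h1 : 0 ≤ v.ord f := (Fermat.Agent.S24.DiffPlace.ord_nonneg_iff_mem v).mpr (valueAt_mem h)
  have h2 : 0 ≤ v.ord f⁻¹ := (Fermat.Agent.S24.DiffPlace.ord_nonneg_iff_mem v).mpr hnu.2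
  rw [v.ord_inv] at h2
  omega

/-- a Gauss-small element of the finite chart lies in `𝔪_A · chart`. -/
theorem h90d_mem_maxExt_of_gaussSmall (hℓ : ℓ.Prime) (hM : ¬ ℓ ∣ M) (hA : A.LiesOverPrime ℓ)
    (z : modelFin M A) (hz : GaussSmall A M (z : FF M)) : z ∈ maxExt A (modelFin M A) := by
  obtain ⟨hzV, hz0⟩ := hz
  obtain ⟨c, x', -, hc, hx', hzx⟩ :=
    exists_eq_cst_mul_of_gaussR_eq_zero_fin A M hℓ hM hA ⟨(z : FF M), hzV⟩ z.2 hz0
  have hcA : c ∈ A := ValuationSubring.nonunits_subset hc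
  have h1 : z = (⟨cst M c, cst_mem_modelAt M A (jB M) hcA⟩ : modelFin M A) * ⟨x', hx'⟩ :=
    Subtype.ext hzx
  rw [h1]
  exact Ideal.mul_mem_right _ _ (Ideal.subset_span ⟨c, hc, rfl⟩)

/-- **ZERO.**  At a good level, an element `x` of a closed point `n` of the finite chart which
is a Gauss unit has a zero at a place centred at `n`. -/
theorem h90d_exists_zero (hℓ : ℓ.Prime) (hM : ¬ ℓ ∣ M) (haux : auxLevel ℓ ∣ M)
    (hA : A.LiesOverPrime ℓ) (n : Ideal (modelFin M A)) (hn : n.IsMaximal)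
    (hmax : maxExt A (modelFin M A) ≤ n) (x : modelFin M A) (hxn : x ∈ n)
    (hx0 : (x : FF M) ≠ 0) (hxiV : (x : FF M)⁻¹ ∈ gaussV A M) :
    ∃ v : Place Kbar (FF M), CenteredAt A (modelFin M A) n v ∧ ValueAt v (x : FF M) 0 := by
  by_contra hno'
  have hno : ∀ v : Place Kbar (FF M), CenteredAt A (modelFin M A) n v →
      ¬ ValueAt v (x : FF M) 0 := fun v hv h => hno' ⟨v, hv, h⟩
  have hxV : (x : FF M) ∈ gaussV A M := modelFin_le_gaussV A M hℓ hM hA x.2
  have hdz : LocDegZero A (modelFin M A) n (x : FF M) := by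
    refine ⟨∅, fun v hv => absurd hv (Finset.notMem_empty v), fun v hv hord => ?_, by simp⟩
    exfalso
    obtain ⟨a, ha⟩ := hv.1 x
    by_cases ha0 : (a : Kbar) = 0
    · rw [ha0] at ha
      exact hno v hv ha
    · exact hord (h90d_ord_eq_zero ha ha0)
  obtain ⟨⟨hC, -⟩, -, ⟨hS, -⟩, -, ⟨hU, -⟩⟩ := GG.gatePieces ℓ hℓ M hM haux A hA
  obtain ⟨a, b, ha, hb, hsmall⟩ : RedUnitAt A (modelFin M A) n (x : FF M) :=
    h89_redUnitAt hℓ hM hA (jB M) hC hU hS n hn hmax (x : FF M) hx0 hxV hxiV hdz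
  have h1 : (x * b - a : modelFin M A) ∈ maxExt A (modelFin M A) :=
    h90d_mem_maxExt_of_gaussSmall hℓ hM hA _ hsmall
  have h2 : x * b - a ∈ n := hmax h1
  have h3 : x * b ∈ n := Ideal.mul_mem_right _ _ hxn
  exact ha (by simpa using n.sub_mem h3 h2)

/-! ### Gauss units of the chart -/

/-- an element of the finite chart outside `𝔪_A · chart` is a Gauss unit. -/
theorem h90d_gaussUnit (hℓ : ℓ.Prime) (hM : ¬ ℓ ∣ M) (hA : A.LiesOverPrime ℓ)
    (x : modelFin M A) (hx : x ∉ maxExt A (modelFin M A)) :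
    (x : FF M) ≠ 0 ∧ (x : FF M)⁻¹ ∈ gaussV A M := by
  have hxV : (x : FF M) ∈ gaussV A M := modelFin_le_gaussV A M hℓ hM hA x.2
  have h1 : ¬ GaussSmall A M (x : FF M) :=
    fun h => hx (h90d_mem_maxExt_of_gaussSmall hℓ hM hA x h)
  have h2 : gaussR A M ⟨(x : FF M), hxV⟩ ≠ 0 := fun h => h1 ⟨hxV, h⟩
  rw [Ne, gaussR_eq_zero_iff A M hℓ hM hA, not_or, not_not] at h2
  exact h2

/-- `𝔪_A · chart` in the two vocabularies. -/
theorem h90d_maxExt_eq_map :
    (maxExt A (modelFin M A) : Ideal (GG.chart M A (jB M))) =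
      (maximalIdeal A).map (algebraMap A (GG.chart M A (jB M))) := by
  apply le_antisymm
  · unfold maxExt
    rw [Ideal.span_le]
    rintro x ⟨a, ha, hxa⟩
    have h1 : x = algebraMap A (GG.chart M A (jB M)) ⟨a, ValuationSubring.nonunits_subset ha⟩ :=
      Subtype.ext hxa
    rw [h1]
    exact Ideal.mem_map_of_mem _ (ValuationSubring.coe_mem_nonunits_iff.mp ha)
  · exact h89_map_le (jB M) _ le_rfl

/-! ### A rational local parameter at every closed point of the special fibre -/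

/-- **rational local parameter** at a closed point of the special fibre of the finite chart. -/
theorem h90d_exists_param (hℓ : ℓ.Prime) (hM : ¬ ℓ ∣ M) (haux : auxLevel ℓ ∣ M)
    (hA : A.LiesOverPrime ℓ) (𝔰 : Ideal (GG.chart M A (jB M))) (h𝔰max : 𝔰.IsMaximal)
    (h𝔪𝔰 : (maximalIdeal A).map (algebraMap A (GG.chart M A (jB M))) ≤ 𝔰) :
    ∃ u : GG.chart M A (jB M), IsRat (u : FF M) ∧
      Fermat.Agent.LGC.h62l_LP
        ((maximalIdeal A).map (algebraMap A (GG.chart M A (jB M)))) 𝔰 u ∧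
      u ∉ (maximalIdeal A).map (algebraMap A (GG.chart M A (jB M))) := by
  haveI : NeZero ℓ := ⟨hℓ.ne_zero⟩
  haveI h𝔰p : 𝔰.IsPrime := h𝔰max.isPrime
  haveI hded : IsDedekindDomain (GG.chart M A (jB M) ⧸
      (maximalIdeal A).map (algebraMap A (GG.chart M A (jB M)))) :=
    Fermat.Agent.LGC.h13l_hded_fin M A hℓ hM haux hA
  have hnf : ¬ IsField (GG.chart M A (jB M) ⧸
      (maximalIdeal A).map (algebraMap A (GG.chart M A (jB M)))) :=
    Fermat.Agent.LGC.h13l_hnf_fin M A hℓ hM hA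
  haveI h𝔪prime : ((maximalIdeal A).map (algebraMap A (GG.chart M A (jB M)))).IsPrime :=
    (Ideal.Quotient.isDomain_iff_prime _).mp hded.toIsDomain
  obtain ⟨t, ht, -, s, hs, hall⟩ := h3_exists_local_uniformizer
    ((maximalIdeal A).map (algebraMap A (GG.chart M A (jB M)))) hnf 𝔰 h𝔪𝔰
  have ht₁ : Fermat.Agent.LGC.h62l_LP
      ((maximalIdeal A).map (algebraMap A (GG.chart M A (jB M)))) 𝔰 t :=
    ⟨ht, fun y hy => ⟨s, hs, hall y hy⟩⟩
  have hne : ¬ 𝔰 ≤ (maximalIdeal A).map (algebraMap A (GG.chart M A (jB M))) := by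
    intro hle'
    have h1 : (maximalIdeal A).map (algebraMap A (GG.chart M A (jB M))) = 𝔰 :=
      le_antisymm h𝔪𝔰 hle'
    apply hnf
    have h2 : ((maximalIdeal A).map (algebraMap A (GG.chart M A (jB M)))).IsMaximal :=
      h1 ▸ h𝔰max
    exact (Ideal.Quotient.maximal_ideal_iff_isField_quotient _).mp h2
  have h𝔪A : ∀ a ∈ maximalIdeal A, algebraMap A (GG.chart M A (jB M)) a ∈
      (maximalIdeal A).map (algebraMap A (GG.chart M A (jB M))) :=
    fun a ha => Ideal.mem_map_of_mem _ ha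
  obtain ⟨u, huR, hu⟩ := Fermat.Agent.LGC.h62l_exists_LP_mem
    ((maximalIdeal A).map (algebraMap A (GG.chart M A (jB M)))) 𝔰 h𝔪𝔰 hne h𝔪A (Fermat.Agent.LGC.h62i_R A M)
    (Fermat.Agent.LGC.h62d_span A M hℓ hM hA) (Fermat.Agent.LGC.h62d_res A M 𝔰 h𝔰max h𝔪𝔰)
    (Fermat.Agent.LGC.h62d_sep A hℓ hA) ht₁
  refine ⟨u, (Fermat.Agent.LGC.h62i_mem_R A M u).mp huR, hu, fun hum => hne fun y hy => ?_⟩
  obtain ⟨s', hs', hsy⟩ := hu.2 y hy
  have h1 : s' * y ∈ (maximalIdeal A).map (algebraMap A (GG.chart M A (jB M))) := by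
    refine (sup_le ?_ le_rfl : Ideal.span {u} ⊔ _ ≤ _) hsy
    rw [Ideal.span_le]
    rintro _ rfl
    exact hum
  rcases h𝔪prime.mem_or_mem h1 with h | h
  · exact absurd (h𝔪𝔰 h) hs'
  · exact h

/-! ### A local parameter is injective on the residue disc -/

theorem h90d_coe_algebraMap (a : A) :
    ((algebraMap A (GG.chart M A (jB M)) a : GG.chart M A (jB M)) : FF M) = cst M (a : Kbar) :=
  rfl

/-- **a local parameter is injective on the residue disc** (chart form). -/
theorem h90d_inj_chart (hℓ : ℓ.Prime) (hM : ¬ ℓ ∣ M) (haux : auxLevel ℓ ∣ M)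
    (hA : A.LiesOverPrime ℓ) (𝔰 : Ideal (GG.chart M A (jB M))) (h𝔰max : 𝔰.IsMaximal)
    (h𝔪𝔰 : (maximalIdeal A).map (algebraMap A (GG.chart M A (jB M))) ≤ 𝔰)
    (u : GG.chart M A (jB M))
    (hu : Fermat.Agent.LGC.h62l_LP
      ((maximalIdeal A).map (algebraMap A (GG.chart M A (jB M)))) 𝔰 u)
    (i k : GG.ChartPlace M (jB M))
    (hi : h26Centered (GG.chart M A (jB M)) (GG.chartVal M (jB M)) 𝔰 i)
    (hk : h26Centered (GG.chart M A (jB M)) (GG.chartVal M (jB M)) 𝔰 k)
    (a : Kbar) (hia : ValueAt i.1 (u : FF M) a) (hka : ValueAt k.1 (u : FF M) a) : i = k := by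
  haveI h𝔰p : 𝔰.IsPrime := h𝔰max.isPrime
  obtain ⟨⟨hC, -⟩, -, ⟨hS, -⟩, -, -⟩ := GG.gatePieces ℓ hℓ M hM haux A hA
  obtain ⟨φ, hφ, hfg⟩ := hS i 𝔰 h𝔰max h𝔪𝔰 hi
  have hker : RingHom.ker (φ : GG.chart M A (jB M) →+* A) ≤ 𝔰 := fun b hb =>
    hi b ((hφ b).mp (RingHom.mem_ker.mp hb))
  have hloc := h26_section_local 𝔰 φ hker
  have hprin := h26_local_ker_principal (maximalIdeal A) 𝔰 u hu.1 hu.2 h𝔪𝔰 φ hloc hker hfg
  -- the value of `u` at `i` is `φ u`
  have hφu : ((φ u : A) : Kbar) = a := by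
    have h0 : φ (u - algebraMap A (GG.chart M A (jB M)) (φ u)) = 0 := by
      rw [map_sub, AlgHom.commutes]
      exact sub_self _
    have h1 := (hφ _).mp h0
    rw [GG.chartVal, GG.h71_adicValuation_lt_one_iff_valueAt] at h1
    have h1' : ValueAt i.1 ((u : FF M) - cst M ((φ u : A) : Kbar)) 0 := h1
    have h2 := valueAt_add h1' (valueAt_cst i.1 ((φ u : A) : Kbar))
    rw [sub_add_cancel, zero_add] at h2
    exact valueAt_unique h2 hia
  apply hC.hinj
  intro b hb
  have hbker : b ∈ RingHom.ker (φ : GG.chart M A (jB M) →+* A) :=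
    RingHom.mem_ker.mpr ((hφ b).mpr hb)
  obtain ⟨s, hs, hsb⟩ := hprin b hbker
  obtain ⟨c, hc⟩ := Ideal.mem_span_singleton'.mp hsb
  have hvs : GG.chartVal M (jB M) k (s : FF M) = 1 :=
    le_antisymm (hC.hB s s.2 k) (not_lt.mp fun h => hs (hk s h))
  have hvc : GG.chartVal M (jB M) k (c : FF M) ≤ 1 := hC.hB c c.2 k
  have hvu : GG.chartVal M (jB M) k ((u : FF M) - cst M ((φ u : A) : Kbar)) < 1 := by
    rw [GG.chartVal, GG.h71_adicValuation_lt_one_iff_valueAt, hφu]
    have := valueAt_sub hka (valueAt_cst k.1 a)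
    rwa [sub_self] at this
  have hprod : (c : FF M) * ((u : FF M) - cst M ((φ u : A) : Kbar)) = (s : FF M) * (b : FF M) :=
    congrArg (fun z : GG.chart M A (jB M) => (z : FF M)) hc
  have h3 : GG.chartVal M (jB M) k ((s : FF M) * (b : FF M)) < 1 := by
    rw [← hprod, map_mul]
    calc GG.chartVal M (jB M) k (c : FF M) *
          GG.chartVal M (jB M) k ((u : FF M) - cst M ((φ u : A) : Kbar))
        ≤ 1 * GG.chartVal M (jB M) k ((u : FF M) - cst M ((φ u : A) : Kbar)) :=
          mul_le_mul_left hvc _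
      _ < 1 := by rw [one_mul]; exact hvu
  rw [map_mul, hvs, one_mul] at h3
  exact h3

/-! ### DISC-PT: every small value is taken on the residue disc -/

/-- a Gauss unit of the finite chart does not lie in `𝔪_A · chart`. -/
theorem h90d_not_mem_maxExt (hℓ : ℓ.Prime) (hM : ¬ ℓ ∣ M) (hA : A.LiesOverPrime ℓ)
    (x : modelFin M A) (hx0 : (x : FF M) ≠ 0) (hxiV : (x : FF M)⁻¹ ∈ gaussV A M) :
    x ∉ maxExt A (modelFin M A) := by
  intro hx
  have hR : modelFin M A ≤ gaussV A M := modelFin_le_gaussV A M hℓ hM hA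
  have h1 := h89_maxExt_le_ker (modelFin M A) hR hx
  rw [RingHom.mem_ker, h89_red_apply] at h1
  rcases (gaussR_eq_zero_iff A M hℓ hM hA _).mp h1 with h | h
  · exact hx0 h
  · exact h hxiV

/-- **DISC-PT.**  At a good level, a Gauss unit `t` of the finite chart whose value at the
finite place `Q` lies in `𝔪_A` takes every value `x ∈ 𝔪_A` on the residue disc of `Q`. -/
theorem h90d_exists_value (hℓ : ℓ.Prime) (hM : ¬ ℓ ∣ M) (haux : auxLevel ℓ ∣ M)
    (hA : A.LiesOverPrime ℓ) {Q : Place Kbar (FF M)} (hQ : IsFinAt A Q) {t : FF M}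
    (ht : t ∈ modelFin M A) (ht0 : t ≠ 0) (htV : t⁻¹ ∈ gaussV A M) {a0 : Kbar}
    (ha0 : a0 ∈ A.nonunits) (hQt : ValueAt Q t a0) {x : Kbar} (hx : x ∈ A.nonunits) :
    ∃ P : Place Kbar (FF M), SameRed A P Q ∧ ValueAt P t x := by
  have hxA : x ∈ A := ValuationSubring.nonunits_subset hx
  have hcm : cst M x ∈ modelFin M A := cst_mem_modelAt M A (jB M) hxA
  have hcmax : (⟨cst M x, hcm⟩ : modelFin M A) ∈ maxExt A (modelFin M A) :=
    Ideal.subset_span ⟨x, hx, rfl⟩
  have hyn : (⟨t, ht⟩ - ⟨cst M x, hcm⟩ : modelFin M A) ∈ h90dCentre hQ := by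
    rw [h90d_mem_centre]
    have h1 : ValueAt Q (((⟨t, ht⟩ - ⟨cst M x, hcm⟩ : modelFin M A) : modelFin M A) : FF M)
        (a0 - x) := valueAt_sub hQt (valueAt_cst Q x)
    rw [valueAt_unique (evFin_spec hQ _) h1]
    exact GalI.sub_mem_nonunits A ha0 hx
  have hynm : (⟨t, ht⟩ - ⟨cst M x, hcm⟩ : modelFin M A) ∉ maxExt A (modelFin M A) := by
    intro h
    have h2 : (⟨t, ht⟩ : modelFin M A) ∈ maxExt A (modelFin M A) := by
      have := (maxExt A (modelFin M A)).add_mem h hcmax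
      rwa [sub_add_cancel] at this
    exact h90d_not_mem_maxExt hℓ hM hA ⟨t, ht⟩ ht0 htV h2
  obtain ⟨hy0, hyV⟩ := h90d_gaussUnit hℓ hM hA _ hynm
  obtain ⟨P, hPc, hP0⟩ := h90d_exists_zero hℓ hM haux hA (h90dCentre hQ)
    (h90d_centre_isMaximal hQ) (h90d_maxExt_le hQ) _ hyn hy0 hyV
  refine ⟨P, h90d_sameRed_of_centeredAt hQ hPc, ?_⟩
  have hP0' : ValueAt P (t - cst M x) 0 := hP0
  have := valueAt_add hP0' (valueAt_cst P x)
  rwa [sub_add_cancel, zero_add] at this

/-- a function of the chart outside the closed point `n` has a nonzero value at every place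
centred at `n`. -/
theorem h90d_value_ne_zero {n : Ideal (modelFin M A)} (hn : n.IsMaximal)
    {P : Place Kbar (FF M)} (hP : CenteredAt A (modelFin M A) n P) {s : modelFin M A}
    (hs : s ∉ n) {b : Kbar} (hb : ValueAt P (s : FF M) b) : b ≠ 0 := by
  obtain ⟨c, i, hi, hci⟩ := hn.exists_inv hs
  obtain ⟨a, ha, hia⟩ := hP.2 i hi
  obtain ⟨cv, hcv⟩ := hP.1 c
  rintro rfl
  have h1 : ValueAt P (((c * s + i : modelFin M A) : modelFin M A) : FF M)
      ((cv : Kbar) * 0 + a) := valueAt_add (valueAt_mul hcv hb) hia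
  rw [hci] at h1
  have h2 : (cv : Kbar) * 0 + a = 1 := valueAt_unique h1 (valueAt_one P)
  rw [mul_zero, zero_add] at h2
  rw [h2, ValuationSubring.mem_nonunits_iff, map_one] at ha
  exact lt_irrefl _ ha

/-- **DISC-PT, fraction form.**  The same for `t = r / s` with `r, s` in the finite chart and
`s` a unit at the centre of `Q` (i.e. for the Gauss units of the local ring of the model at the
closed point of `Q`). -/
theorem h90d_exists_value_frac (hℓ : ℓ.Prime) (hM : ¬ ℓ ∣ M) (haux : auxLevel ℓ ∣ M)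
    (hA : A.LiesOverPrime ℓ) {Q : Place Kbar (FF M)} (hQ : IsFinAt A Q) {t : FF M}
    (r s : modelFin M A) (hs : s ∉ h90dCentre hQ) (hts : t * (s : FF M) = (r : FF M))
    (ht0 : t ≠ 0) (htV : t⁻¹ ∈ gaussV A M) {a0 : Kbar}
    (ha0 : a0 ∈ A.nonunits) (hQt : ValueAt Q t a0) {x : Kbar} (hx : x ∈ A.nonunits) :
    ∃ P : Place Kbar (FF M), SameRed A P Q ∧ ValueAt P t x := by
  have hn := h90d_centre_isMaximal hQ
  have hsm : s ∉ maxExt A (modelFin M A) := fun h => hs (h90d_maxExt_le hQ h)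
  obtain ⟨hs0, hsV⟩ := h90d_gaussUnit hℓ hM hA s hsm
  have hr0 : (r : FF M) ≠ 0 := by rw [← hts]; exact mul_ne_zero ht0 hs0
  have hrV : (r : FF M)⁻¹ ∈ gaussV A M := by
    rw [← hts, mul_inv]
    exact (gaussV A M).mul_mem htV hsV
  have hrm := h90d_not_mem_maxExt hℓ hM hA r hr0 hrV
  have hxA : x ∈ A := ValuationSubring.nonunits_subset hx
  have hcm : cst M x ∈ modelFin M A := cst_mem_modelAt M A (jB M) hxA
  have hcmax : (⟨cst M x, hcm⟩ : modelFin M A) * s ∈ maxExt A (modelFin M A) :=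
    Ideal.mul_mem_right _ _ (Ideal.subset_span ⟨x, hx, rfl⟩)
  have hynm : (r - ⟨cst M x, hcm⟩ * s : modelFin M A) ∉ maxExt A (modelFin M A) := by
    intro h
    apply hrm
    have := (maxExt A (modelFin M A)).add_mem h hcmax
    rwa [sub_add_cancel] at this
  have hyn : (r - ⟨cst M x, hcm⟩ * s : modelFin M A) ∈ h90dCentre hQ := by
    rw [h90d_mem_centre]
    have hsQ := evFin_spec hQ s
    have hr : ValueAt Q (r : FF M) (a0 * ((evFin hQ s : A) : Kbar)) := by
      rw [← hts]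
      exact valueAt_mul hQt hsQ
    have h1 : ValueAt Q (((r - ⟨cst M x, hcm⟩ * s : modelFin M A) : modelFin M A) : FF M)
        (a0 * ((evFin hQ s : A) : Kbar) - x * ((evFin hQ s : A) : Kbar)) :=
      valueAt_sub hr (valueAt_mul (valueAt_cst Q x) hsQ)
    rw [valueAt_unique (evFin_spec hQ _) h1, ← sub_mul]
    exact GalI.mul_mem_nonunits_left A (GalI.sub_mem_nonunits A ha0 hx) (evFin hQ s).2
  obtain ⟨hy0, hyV⟩ := h90d_gaussUnit hℓ hM hA _ hynm
  obtain ⟨P, hPc, hP0⟩ := h90d_exists_zero hℓ hM haux hA (h90dCentre hQ) hn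
    (h90d_maxExt_le hQ) _ hyn hy0 hyV
  refine ⟨P, h90d_sameRed_of_centeredAt hQ hPc, ?_⟩
  obtain ⟨b, hb⟩ := hPc.1 s
  have hb0 : (b : Kbar) ≠ 0 := h90d_value_ne_zero hn hPc hs hb
  have hP0' : ValueAt P ((r : FF M) - cst M x * (s : FF M)) 0 := hP0
  have hr : ValueAt P (r : FF M) (0 + x * (b : Kbar)) := by
    have := valueAt_add hP0' (valueAt_mul (valueAt_cst P x) hb)
    rwa [sub_add_cancel] at this
  have ht : t = (r : FF M) * (s : FF M)⁻¹ := by
    rw [← hts, mul_assoc, mul_inv_cancel₀ hs0, mul_one]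
  have h3 := valueAt_mul hr (valueAt_inv hb hb0)
  rw [← ht, zero_add, mul_assoc, mul_inv_cancel₀ hb0, mul_one] at h3
  exact h3

end Fermat.Agent.P5
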