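import Fermat.Agent.P5.H37DiscChar
import Fermat.Agent.Red.GV.BarGalois
import Fermat.Agent.Red.MatchLoc
import Fermat.Agent.S37.Inertia
import Fermat.Agent.Red.Nz.Dict
import Fermat.Agent.S24.DegLe

/-!
# P5 (wave 5, S19), block GEO-DISC, leaf DISC-PT (helper90): surjectivity of the coordinate

In the frozen vocabulary of `P5/H37DiscIface.lean` + `P5/H37DiscChar.lean` (no charts):

* `h90e_surj` : for a disc calculus `H37DiscAt A Q t O` with the bridge `H37DiscChar A Q O`, if the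
  parameter `t` is a Gauss unit, then `t` maps the residue disc of `Q` ONTO `𝔪_A`: for every
  `x ∈ 𝔪_A` there is a place `P` with the same reduction as `Q` and `t (P) = x`.
  [If `t - x` had no zero in the disc, `(t - x)⁻¹` would be Gauss-integral and regular on the
  disc, hence in `O` by `O_char`, with value `-1 / x ∉ A` at `Q`, against `O_val`.]
* `h90e_bij` : together with `t_small` and `t_inj`: `P ↦ t (P)` is a bijection from the residue
  disc of `Q` onto `𝔪_A`.

* `h90e_param_unit` : the parameter of a disc calculus with the bridge is AUTOMATICALLY a Gauss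
  unit (`t ≠ 0`, `t⁻¹ ∈ gaussV`), so `h90e_surj'` / `h90e_bij'` have no hypothesis on `t`.

The unconditional chart forms (`t` in the finite chart, or a fraction of the local ring) are
`h90d_exists_value`, `h90d_exists_value_frac` of `P5/H90DiscPt.lean`.
-/

set_option autoImplicit false
set_option linter.unusedSectionVars false

open AlgebraicCurve ModularCurve

noncomputable section

namespace Fermat.Agent.P5

open Fermat.Agent.S37 Fermat.Agent.Red Fermat.Agent.Red.Match Fermat.Agent.Red.GV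

variable {M : ℕ} [NeZero M] {A : ValuationSubring Kbar} {ℓ : ℕ}

/-- `t - x` is a Gauss unit for a Gauss unit `t` and `x ∈ 𝔪_A`. -/
theorem h90e_sub_cst_unit (hℓ : ℓ.Prime) (hM : ¬ ℓ ∣ M) (hA : A.LiesOverPrime ℓ)
    {t : FF M} (ht0 : t ≠ 0) (htV : t⁻¹ ∈ gaussV A M) {x : Kbar} (hx : x ∈ A.nonunits) :
    t - cst M x ≠ 0 ∧ (t - cst M x)⁻¹ ∈ gaussV A M := by
  have hnx : -x ∈ A.nonunits := GalI.neg_mem_nonunits A hx
  obtain ⟨h0, hV⟩ := one_add_cst_mul_inv_mem_gaussV A M hℓ hM hA (-x) hnx t⁻¹ htV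
  have hfac : t - cst M x = t * (1 + cst M (-x) * t⁻¹) := by
    have h1 : cst M (-x) = -cst M x := by simp only [cst, map_neg]
    rw [h1, mul_add, mul_one, neg_mul, mul_neg, mul_comm (cst M x) t⁻¹, ← mul_assoc,
      mul_inv_cancel₀ ht0, one_mul, sub_eq_add_neg]
  rw [hfac]
  refine ⟨mul_ne_zero ht0 h0, ?_⟩
  rw [mul_inv]
  exact (gaussV A M).mul_mem htV hV

/-- **DISC-PT (surjectivity of the coordinate).** -/
theorem h90e_surj (hℓ : ℓ.Prime) (hM : ¬ ℓ ∣ M) (hA : A.LiesOverPrime ℓ)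
    {Q : Place Kbar (FF M)} {t : FF M} {O : Subring (FF M)}
    (hd : H37DiscAt A Q t O) (hc : H37DiscChar A Q O) (ht0 : t ≠ 0)
    (htV : t⁻¹ ∈ gaussV A M) {x : Kbar} (hx : x ∈ A.nonunits) :
    ∃ P : Place Kbar (FF M), SameRed A P Q ∧ ValueAt P t x := by
  by_contra hno
  have hno' : ∀ P : Place Kbar (FF M), SameRed A P Q → ¬ ValueAt P t x :=
    fun P hP h => hno ⟨P, hP, h⟩
  have hx0 : x ≠ 0 := by
    rintro rfl
    exact hno' Q hd.refl hd.t_zero
  obtain ⟨hw0, hwV⟩ := h90e_sub_cst_unit hℓ hM hA ht0 htV hx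
  -- `(t - x)⁻¹` is regular on the disc
  have hreg : ∀ P, SameRed A P Q → (t - cst M x)⁻¹ ∈ P.toValuationSubring := by
    intro P hP
    obtain ⟨a, -, ha⟩ := hd.t_small P hP
    have hax : a - x ≠ 0 := by
      intro h
      rw [sub_eq_zero] at h
      rw [h] at ha
      exact hno' P hP ha
    exact valueAt_mem (valueAt_inv (valueAt_sub ha (valueAt_cst P x)) hax)
  have hwO : (t - cst M x)⁻¹ ∈ O := hc.O_char _ hwV hreg
  obtain ⟨b, hb, hQb⟩ := hd.O_val _ hwO Q hd.refl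
  have hQ1 : ValueAt Q (t - cst M x) (0 - x) := valueAt_sub hd.t_zero (valueAt_cst Q x)
  have h1 := valueAt_mul hQb hQ1
  rw [inv_mul_cancel₀ hw0] at h1
  have h2 : b * (0 - x) = 1 := valueAt_unique h1 (valueAt_one Q)
  have h3 : b * (0 - x) ∈ A.nonunits := by
    rw [zero_sub]
    exact GalI.mul_mem_nonunits_right A hb (GalI.neg_mem_nonunits A hx)
  rw [h2, ValuationSubring.mem_nonunits_iff, map_one] at h3
  exact lt_irrefl _ h3

/-- **the coordinate is a bijection from the residue disc onto `𝔪_A`.** -/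
theorem h90e_bij (hℓ : ℓ.Prime) (hM : ¬ ℓ ∣ M) (hA : A.LiesOverPrime ℓ)
    {Q : Place Kbar (FF M)} {t : FF M} {O : Subring (FF M)}
    (hd : H37DiscAt A Q t O) (hc : H37DiscChar A Q O) (ht0 : t ≠ 0)
    (htV : t⁻¹ ∈ gaussV A M) {x : Kbar} (hx : x ∈ A.nonunits) :
    ∃! P : Place Kbar (FF M), SameRed A P Q ∧ ValueAt P t x := by
  obtain ⟨P, hP, hPx⟩ := h90e_surj hℓ hM hA hd hc ht0 htV hx
  exact ⟨P, ⟨hP, hPx⟩, fun P' h => hd.t_inj P' P x h.1 hP h.2 hPx⟩

/-! ### The parameter of a disc with the bridge is a Gauss unit -/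

/-- the parameter of a disc calculus is not zero (otherwise `j` would be constant). -/
theorem h90e_param_ne_zero {Q : Place Kbar (FF M)} {t : FF M} {O : Subring (FF M)}
    (hd : H37DiscAt A Q t O) : t ≠ 0 := by
  rintro rfl
  have hjO : jB M ∈ O := hd.O_model _ (Fermat.Agent.Red.Nz.h89_jB_mem_modelFin M A)
  obtain ⟨a, -, ha⟩ := hd.O_val _ hjO Q hd.refl
  obtain ⟨h, -, hh⟩ := hd.O_div _ hjO Q hd.refl a 0 ha hd.t_zero
  have hcst : cst M (0 : Kbar) = 0 := by simp only [cst, map_zero]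
  rw [hcst, sub_zero, zero_mul, sub_eq_zero] at hh
  have htr : Transcendental Kbar (jB M) := Fermat.Agent.S24.transcendental_jBar M
  apply htr
  rw [hh]
  exact isAlgebraic_algebraMap a

/-- **the parameter of a disc calculus with the bridge is a Gauss unit.** -/
theorem h90e_param_unit (hℓ : ℓ.Prime) (hM : ¬ ℓ ∣ M) (hA : A.LiesOverPrime ℓ)
    {Q : Place Kbar (FF M)} {t : FF M} {O : Subring (FF M)}
    (hd : H37DiscAt A Q t O) (hc : H37DiscChar A Q O) :
    t ≠ 0 ∧ t⁻¹ ∈ gaussV A M := by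
  have ht0 := h90e_param_ne_zero hd
  refine ⟨ht0, ?_⟩
  obtain ⟨c, hc0, hcV, hciV⟩ := exists_cst_mul_unit A M hℓ hM hA t ht0
  have hcst0 : cst M c ≠ 0 := by
    simpa only [cst, ne_eq, map_eq_zero] using hc0
  -- `c t` is regular on the disc, hence in `O`
  have hreg : ∀ P, SameRed A P Q → cst M c * t ∈ P.toValuationSubring := by
    intro P hP
    obtain ⟨a, -, ha⟩ := hd.t_small P hP
    exact valueAt_mem (valueAt_mul (valueAt_cst P c) ha)
  have hO : cst M c * t ∈ O := hc.O_char _ hcV hreg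
  have hQv : ValueAt Q (cst M c * t) (c * 0) := valueAt_mul (valueAt_cst Q c) hd.t_zero
  obtain ⟨h, hhO, hh⟩ := hd.O_div _ hO Q hd.refl (c * 0) 0 hQv hd.t_zero
  have hcst : cst M (0 : Kbar) = 0 := by simp only [cst, map_zero]
  rw [mul_zero, hcst, sub_zero, sub_zero, mul_comm t h] at hh
  have hhc : h = cst M c := (mul_right_cancel₀ ht0 hh).symm
  rw [hhc] at hhO
  obtain ⟨a, haA, ha⟩ := hd.O_val _ hhO Q hd.refl
  have hca : a = c := valueAt_unique ha (valueAt_cst Q c)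
  rw [hca] at haA
  -- `t⁻¹ = c (c t)⁻¹`
  have h1 : t⁻¹ = cst M c * (cst M c * t)⁻¹ := by
    rw [mul_inv, ← mul_assoc, mul_inv_cancel₀ hcst0, one_mul]
  rw [h1]
  exact (gaussV A M).mul_mem ((cst_mem_gaussV_iff A M hA c).mpr haA) hciV

/-- **DISC-PT**, no hypothesis on the parameter. -/
theorem h90e_surj' (hℓ : ℓ.Prime) (hM : ¬ ℓ ∣ M) (hA : A.LiesOverPrime ℓ)
    {Q : Place Kbar (FF M)} {t : FF M} {O : Subring (FF M)}
    (hd : H37DiscAt A Q t O) (hc : H37DiscChar A Q O) {x : Kbar} (hx : x ∈ A.nonunits) :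
    ∃ P : Place Kbar (FF M), SameRed A P Q ∧ ValueAt P t x :=
  h90e_surj hℓ hM hA hd hc (h90e_param_unit hℓ hM hA hd hc).1
    (h90e_param_unit hℓ hM hA hd hc).2 hx

/-- **the coordinate of a disc with the bridge is a bijection onto `𝔪_A`.** -/
theorem h90e_bij' (hℓ : ℓ.Prime) (hM : ¬ ℓ ∣ M) (hA : A.LiesOverPrime ℓ)
    {Q : Place Kbar (FF M)} {t : FF M} {O : Subring (FF M)}
    (hd : H37DiscAt A Q t O) (hc : H37DiscChar A Q O) {x : Kbar} (hx : x ∈ A.nonunits) :
    ∃! P : Place Kbar (FF M), SameRed A P Q ∧ ValueAt P t x :=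
  h90e_bij hℓ hM hA hd hc (h90e_param_unit hℓ hM hA hd hc).1
    (h90e_param_unit hℓ hM hA hd hc).2 hx

end Fermat.Agent.P5
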