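import Fermat.Agent.P5.Top
import Fermat.Agent.P5.H96Law
import Fermat.Agent.P5.H87Adapter
import Fermat.Agent.P5.H69LevelTop
import Fermat.Agent.P5.H98DescFin
import Fermat.Agent.P5.H56GeoAsm
import Fermat.Agent.P5.H62DiscFinal
import Fermat.Agent.P5.H60RedDivTop
import Fermat.Agent.P5.H40SFBase
import Fermat.Agent.P5.H59InfFin
import Fermat.Agent.P5.H4RepLeaf
import Fermat.Agent.P5.H69GeoAdapt
import Fermat.Agent.P5.H4LinkLeaf
import Fermat.Agent.P5.H26GenusTop

/-!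
# Wave 5, pillar (P): the integration wire for S19 (helper92, prefix `h92p_`)

Every step below is a landed theorem; nothing is assumed.

* `h92p_s19_of_geo : H69vGeoGood → S19` (the exact frozen type of S19):
  `h98p_s19_of h87x_adapter h98f_descent h96o_law (h69v_level_of_geo hGeo)`.
* `h92p_geoGood_of : H13sGenus → H56gLink → H69vGeoGood` : the assembly `h56g_geoGood` of
  helper56 fed with the landed leaves `h62q_discExists`, `h60q_redDiv`, `h40b_sBase`,
  `h59i_infFin`, `h4r_repLeaf`, `h69g_lift`.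
* `h92p_geoGood_of_atoms : H26sZerosSF → H26sDictS → H4sLinkRawLeaf → H69vGeoGood` : the same
  with `h26s_genus_top` and `h4s_linkLeaf`.
* `h92p_s19_of_atoms` : S19 from the three atoms.
-/

set_option autoImplicit false

open ModularCurve

noncomputable section

namespace Fermat.Agent.P5

/-- S19 (exact frozen type) from GEO at good levels. -/
theorem h92p_s19_of_geo (hGeo : H69vGeoGood)
    (p : ℕ) [NeZero p] (ℓ : ℕ) [Fact ℓ.Prime] (hℓp : ¬ ℓ ∣ p) (k : ℕ) :
    ∃ (H : Type) (_ : CommRing H) (_ : HopfAlgebra (GaloisRep.ratLocalizedAt ℓ) H),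
      Module.Finite (GaloisRep.ratLocalizedAt ℓ) H ∧ Module.Flat (GaloisRep.ratLocalizedAt ℓ) H ∧
      Coalgebra.IsCocomm (GaloisRep.ratLocalizedAt ℓ) H ∧
      ∃ e : WithConv (H →ₐ[GaloisRep.ratLocalizedAt ℓ] AlgebraicClosure ℚ) ≃
          ↥(Submodule.torsionBy ℤ (JZero p) ((ℓ : ℤ) ^ k)),
        (∀ f g, e (f * g) = e f + e g) ∧
        ∀ (σ : AlgebraicClosure ℚ ≃ₐ[ℚ] AlgebraicClosure ℚ)
          (f g : WithConv (H →ₐ[GaloisRep.ratLocalizedAt ℓ] AlgebraicClosure ℚ)),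
          (∀ h : H, g h = σ (f h)) → ((e g : JZero p)) = σ • (e f : JZero p) :=
  h98p_s19_of h87x_adapter h98f_descent h96o_law (h69v_level_of_geo hGeo) p ℓ hℓp k

/-- GEO at good levels from the two open leaves GENUS and LINK. -/
theorem h92p_geoGood_of (hGen : H13sGenus) (hLink : H56gLink) : H69vGeoGood :=
  h56g_geoGood h62q_discExists (h40b_sBase h60q_redDiv) h60q_redDiv hGen h59i_infFin
    h4r_repLeaf hLink h69g_lift

/-- GEO at good levels from the three open atoms. -/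
theorem h92p_geoGood_of_atoms (hZ : H26sZerosSF) (hDS : H26sDictS) (hraw : H4sLinkRawLeaf) :
    H69vGeoGood :=
  h92p_geoGood_of (h26s_genus_top (h40b_sBase h60q_redDiv) h60q_redDiv hZ hDS)
    (h4s_linkLeaf hraw)

/-- S19 (exact frozen type) from the three open atoms. -/
theorem h92p_s19_of_atoms (hZ : H26sZerosSF) (hDS : H26sDictS) (hraw : H4sLinkRawLeaf)
    (p : ℕ) [NeZero p] (ℓ : ℕ) [Fact ℓ.Prime] (hℓp : ¬ ℓ ∣ p) (k : ℕ) :
    ∃ (H : Type) (_ : CommRing H) (_ : HopfAlgebra (GaloisRep.ratLocalizedAt ℓ) H),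
      Module.Finite (GaloisRep.ratLocalizedAt ℓ) H ∧ Module.Flat (GaloisRep.ratLocalizedAt ℓ) H ∧
      Coalgebra.IsCocomm (GaloisRep.ratLocalizedAt ℓ) H ∧
      ∃ e : WithConv (H →ₐ[GaloisRep.ratLocalizedAt ℓ] AlgebraicClosure ℚ) ≃
          ↥(Submodule.torsionBy ℤ (JZero p) ((ℓ : ℤ) ^ k)),
        (∀ f g, e (f * g) = e f + e g) ∧
        ∀ (σ : AlgebraicClosure ℚ ≃ₐ[ℚ] AlgebraicClosure ℚ)
          (f g : WithConv (H →ₐ[GaloisRep.ratLocalizedAt ℓ] AlgebraicClosure ℚ)),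
          (∀ h : H, g h = σ (f h)) → ((e g : JZero p)) = σ • (e f : JZero p) :=
  h92p_s19_of_geo (h92p_geoGood_of_atoms hZ hDS hraw) p ℓ hℓp k

end Fermat.Agent.P5
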