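import Fermat.Agent.P5.H93DescIface
import Fermat.Agent.P5.H96ClosIface

/-!
# P5 ALG-DESC (helper93): general algebra for the descent

* `h93d_star` : the semilinear action of `G_ℚ` on functions `X → ℚ̄`, with its calculus;
* `h93d_coef_fixed` : coefficients of an invariant function in an independent family of
  invariant functions are fixed;
* `h93d_zl_mem`, `h93d_mem_zl` : `ℚ ∩ A = ℤ_(ℓ)`;
* `h93d_bound` : finitely many elements of `ℚ̄` are multiplied into `A` by a power of `ℓ`.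
-/

set_option autoImplicit false
set_option linter.style.haveILetI false
set_option linter.unusedSectionVars false
set_option linter.unusedVariables false

open AlgebraicCurve ModularCurve

noncomputable section

namespace Fermat.Agent.P5

open Fermat.Agent.S37

/-! ## The semilinear action on functions -/

section star

variable {X : Type}

/-- `(τ ⋆ f) x = τ (f (τ⁻¹ x))`. -/
def h93d_star (act : GQ → X → X) (τ : GQ) (f : X → Kbar) : X → Kbar :=
  fun x => τ (f (act τ⁻¹ x))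

variable (act : GQ → X → X)

@[simp] theorem h93d_star_apply (τ : GQ) (f : X → Kbar) (x : X) :
    h93d_star act τ f x = τ (f (act τ⁻¹ x)) := rfl

theorem h93d_star_add (τ : GQ) (f g : X → Kbar) :
    h93d_star act τ (f + g) = h93d_star act τ f + h93d_star act τ g := by
  funext x
  simp

theorem h93d_star_smul (τ : GQ) (c : Kbar) (f : X → Kbar) :
    h93d_star act τ (c • f) = τ c • h93d_star act τ f := by
  funext x
  simp

theorem h93d_star_sum {ι : Type} (s : Finset ι) (τ : GQ) (f : ι → X → Kbar) :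
    h93d_star act τ (∑ i ∈ s, f i) = ∑ i ∈ s, h93d_star act τ (f i) := by
  funext x
  simp [Finset.sum_apply]

variable {act}

theorem h93d_act_inv_act (hone : ∀ x, act 1 x = x)
    (hmul : ∀ σ τ x, act (σ * τ) x = act σ (act τ x)) (τ : GQ) (x : X) :
    act τ⁻¹ (act τ x) = x := by
  rw [← hmul, inv_mul_cancel, hone]

theorem h93d_act_act_inv (hone : ∀ x, act 1 x = x)
    (hmul : ∀ σ τ x, act (σ * τ) x = act σ (act τ x)) (τ : GQ) (x : X) :
    act τ (act τ⁻¹ x) = x := by
  rw [← hmul, mul_inv_cancel, hone]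

theorem h93d_star_one (hone : ∀ x, act 1 x = x) (f : X → Kbar) : h93d_star act 1 f = f := by
  funext x
  simp [hone]

theorem h93d_star_mul (hmul : ∀ σ τ x, act (σ * τ) x = act σ (act τ x)) (σ τ : GQ)
    (f : X → Kbar) : h93d_star act (σ * τ) f = h93d_star act σ (h93d_star act τ f) := by
  funext x
  simp [mul_inv_rev, hmul]

theorem h93d_star_pow (hone : ∀ x, act 1 x = x)
    (hmul : ∀ σ τ x, act (σ * τ) x = act σ (act τ x)) (φ : GQ) (f : X → Kbar) (n : ℕ) :
    h93d_star act (φ ^ (n + 1)) f = h93d_star act φ (h93d_star act (φ ^ n) f) := by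
  rw [pow_succ', h93d_star_mul hmul]

/-- `τ ⋆ f = f` iff `f` is `τ`-equivariant. -/
theorem h93d_star_eq_iff (hone : ∀ x, act 1 x = x)
    (hmul : ∀ σ τ x, act (σ * τ) x = act σ (act τ x)) (τ : GQ) (f : X → Kbar) :
    h93d_star act τ f = f ↔ ∀ x, f (act τ x) = τ (f x) := by
  constructor
  · intro h x
    have h1 := congrFun h (act τ x)
    simp only [h93d_star_apply, h93d_act_inv_act hone hmul] at h1
    exact h1.symm
  · intro h
    funext x
    have h1 := h (act τ⁻¹ x)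
    rw [h93d_act_act_inv hone hmul] at h1
    simp only [h93d_star_apply]
    exact h1.symm

/-- Coefficients of an equivariant function in an independent family of equivariant functions
are fixed. -/
theorem h93d_coef_fixed {n : ℕ} (u : Fin n → X → Kbar) (hu : LinearIndependent Kbar u) (τ : GQ)
    (huτ : ∀ i x, u i (act τ x) = τ (u i x)) (c : Fin n → Kbar) (f : X → Kbar)
    (hf : f = ∑ i, c i • u i) (hfτ : ∀ x, f (act τ x) = τ (f x)) (i : Fin n) : τ (c i) = c i := by
  have key : ∑ i, (τ⁻¹ (c i) - c i) • u i = 0 := by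
    funext x
    have h1 := hfτ x
    rw [hf] at h1
    simp only [Finset.sum_apply, Pi.smul_apply, smul_eq_mul, map_sum, map_mul] at h1
    have h2 : ∑ i, (c i - τ (c i)) * τ (u i x) = 0 := by
      simp only [sub_mul, Finset.sum_sub_distrib]
      rw [sub_eq_zero, ← h1]
      exact Finset.sum_congr rfl fun i _ => by rw [huτ]
    have h3 := congrArg (τ⁻¹ : GQ) h2
    simp only [map_sum, map_mul, map_sub, map_zero, AlgEquiv.aut_inv, AlgEquiv.symm_apply_apply]
      at h3
    simp only [Finset.sum_apply, Pi.smul_apply, smul_eq_mul, Pi.zero_apply]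
    rw [← h3]
    exact Finset.sum_congr rfl fun i _ => by rw [AlgEquiv.aut_inv]
  have h4 := (Fintype.linearIndependent_iff.mp hu) _ key i
  have h5 : τ⁻¹ (c i) = c i := sub_eq_zero.mp h4
  have h6 := congrArg τ h5
  rw [AlgEquiv.aut_inv, AlgEquiv.apply_symm_apply] at h6
  exact h6.symm

end star

/-! ## `ℚ ∩ A = ℤ_(ℓ)` -/

section zl

variable {ℓ : ℕ} {A : ValuationSubring Kbar}

theorem h93d_natCast_unit (hℓ : ℓ.Prime) (hA : A.LiesOverPrime ℓ) {d : ℕ} (hd : d.Coprime ℓ) :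
    ((d : Kbar))⁻¹ ∈ A := by
  have h1 : A.valuation (d : Kbar) ≤ 1 := (A.valuation_le_one_iff _).mpr (natCast_mem A d)
  have h2 : A.valuation (ℓ : Kbar) < 1 := (A.mem_nonunits_iff).mp hA
  rw [← A.valuation_le_one_iff, map_inv₀]
  by_contra hcon
  have h3 : A.valuation (d : Kbar) < 1 := by
    rcases lt_or_eq_of_le h1 with h | h
    · exact h
    · exfalso
      apply hcon
      rw [h, inv_one]
  -- Bezout
  have hb : (1 : ℤ) = d * Int.gcdA d ℓ + ℓ * Int.gcdB d ℓ := by
    have := Int.gcd_eq_gcd_ab (d : ℤ) (ℓ : ℤ)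
    rw [Int.gcd_natCast_natCast, Nat.Coprime.gcd_eq_one hd] at this
    exact_mod_cast this
  have hb' : (1 : Kbar) = (d : Kbar) * ((Int.gcdA d ℓ : ℤ) : Kbar) +
      (ℓ : Kbar) * ((Int.gcdB d ℓ : ℤ) : Kbar) := by
    have := congrArg (fun z : ℤ => (z : Kbar)) hb
    simpa using this
  have hu : ∀ z : ℤ, A.valuation ((z : ℤ) : Kbar) ≤ 1 := fun z =>
    (A.valuation_le_one_iff _).mpr (intCast_mem A z)
  have h5 : A.valuation (1 : Kbar) < 1 := by
    rw [hb']
    refine lt_of_le_of_lt (Valuation.map_add _ _ _) (max_lt ?_ ?_)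
    · rw [map_mul]
      exact lt_of_le_of_lt (mul_le_of_le_one_right' (hu _)) h3
    · rw [map_mul]
      exact lt_of_le_of_lt (mul_le_of_le_one_right' (hu _)) h2
  rw [map_one] at h5
  exact lt_irrefl _ h5

/-- `ℤ_(ℓ) ⊆ A`. -/
theorem h93d_zl_mem (hℓ : ℓ.Prime) (hA : A.LiesOverPrime ℓ) {r : ℚ}
    (hr : r ∈ GaloisRep.ratLocalizedAt ℓ) : ((r : ℚ) : Kbar) ∈ A := by
  have h1 : ((r : ℚ) : Kbar) = ((r.num : ℤ) : Kbar) * ((r.den : ℕ) : Kbar)⁻¹ := by
    rw [Rat.cast_def, div_eq_mul_inv]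
  rw [h1]
  exact A.mul_mem _ _ (intCast_mem A _) (h93d_natCast_unit hℓ hA hr)

/-- `ℚ ∩ A ⊆ ℤ_(ℓ)`. -/
theorem h93d_mem_zl (hℓ : ℓ.Prime) (hA : A.LiesOverPrime ℓ) {r : ℚ}
    (hr : ((r : ℚ) : Kbar) ∈ A) : r ∈ GaloisRep.ratLocalizedAt ℓ := by
  show r.den.Coprime ℓ
  rw [Nat.coprime_comm, Nat.Prime.coprime_iff_not_dvd hℓ]
  intro hdvd
  have hnum : ¬ ℓ ∣ r.num.natAbs := by
    intro h
    have := Nat.dvd_gcd h hdvd
    rw [r.reduced] at this
    exact hℓ.one_lt.ne' (Nat.dvd_one.mp this)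
  have hcop : (r.num.natAbs).Coprime ℓ := by
    rw [Nat.coprime_comm, Nat.Prime.coprime_iff_not_dvd hℓ]
    exact hnum
  have h1 : ((r.num.natAbs : ℕ) : Kbar)⁻¹ ∈ A := h93d_natCast_unit hℓ hA hcop
  have h2 : A.valuation ((r.num.natAbs : ℕ) : Kbar) = 1 := by
    have ha : A.valuation ((r.num.natAbs : ℕ) : Kbar) ≤ 1 :=
      (A.valuation_le_one_iff _).mpr (natCast_mem A _)
    have hb : A.valuation (((r.num.natAbs : ℕ) : Kbar)⁻¹) ≤ 1 := (A.valuation_le_one_iff _).mpr h1
    rw [map_inv₀] at hb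
    have h0 : A.valuation ((r.num.natAbs : ℕ) : Kbar) ≠ 0 := by
      intro h0
      rw [h0, inv_zero] at hb
      rw [h0] at ha
      have hne : ((r.num.natAbs : ℕ) : Kbar) ≠ 0 := by
        have : r.num.natAbs ≠ 0 := fun h => hnum (h ▸ dvd_zero ℓ)
        exact_mod_cast this
      exact hne ((Valuation.zero_iff _).mp h0)
    have hc : 1 ≤ A.valuation ((r.num.natAbs : ℕ) : Kbar) := by
      rwa [inv_le_one₀ (zero_lt_iff.mpr h0)] at hb
    exact le_antisymm ha hc
  have h3 : A.valuation ((r.num : ℤ) : Kbar) = 1 := by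
    rcases Int.natAbs_eq r.num with h | h
    · have e : ((r.num : ℤ) : Kbar) = ((r.num.natAbs : ℕ) : Kbar) := by
        have := congrArg (fun z : ℤ => (z : Kbar)) h
        simpa only [Int.cast_natCast] using this
      rw [e, h2]
    · have e : ((r.num : ℤ) : Kbar) = -((r.num.natAbs : ℕ) : Kbar) := by
        have := congrArg (fun z : ℤ => (z : Kbar)) h
        simpa only [Int.cast_neg, Int.cast_natCast] using this
      rw [e, Valuation.map_neg, h2]
  have h4 : A.valuation ((r.den : ℕ) : Kbar) < 1 := by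
    obtain ⟨d', hd'⟩ := hdvd
    rw [hd']
    push_cast
    rw [map_mul]
    have h2' : A.valuation (ℓ : Kbar) < 1 := (A.mem_nonunits_iff).mp hA
    exact lt_of_le_of_lt (mul_le_of_le_one_right' ((A.valuation_le_one_iff _).mpr
      (natCast_mem A d'))) h2'
  have h5 : ((r : ℚ) : Kbar) * ((r.den : ℕ) : Kbar) = ((r.num : ℤ) : Kbar) := by
    have hden : ((r.den : ℕ) : Kbar) ≠ 0 := by exact_mod_cast r.den_ne_zero
    rw [Rat.cast_def]
    field_simp
  have h6 := congrArg A.valuation h5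
  rw [map_mul, h3] at h6
  have h7 : A.valuation ((r : ℚ) : Kbar) ≤ 1 := (A.valuation_le_one_iff _).mpr hr
  have h8 : A.valuation ((r : ℚ) : Kbar) * A.valuation ((r.den : ℕ) : Kbar) < 1 :=
    lt_of_le_of_lt (mul_le_of_le_one_left' h7) h4
  rw [h6] at h8
  exact lt_irrefl _ h8

end zl

/-! ## Bounded denominators -/

section bound

variable {ℓ : ℕ} {A : ValuationSubring Kbar}

theorem h93d_pow_mem (ℓ : ℕ) (A : ValuationSubring Kbar) (n : ℕ) : ((ℓ : Kbar)) ^ n ∈ A :=
  A.pow_mem (natCast_mem A ℓ) n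

theorem h93d_bound_one (hℓ : ℓ.Prime) (hA : A.LiesOverPrime ℓ) (harch : H96Arch A) (z : Kbar) :
    ∃ M : ℕ, ∀ M' : ℕ, M ≤ M' → (ℓ : Kbar) ^ M' * z ∈ A := by
  by_cases hz : z ∈ A
  · exact ⟨0, fun M' _ => A.mul_mem _ _ (h93d_pow_mem ℓ A M') hz⟩
  · have hz0 : z ≠ 0 := fun h => hz (h ▸ A.zero_mem)
    have hzi : z⁻¹ ∈ A := (A.mem_or_inv_mem z).resolve_left hz
    obtain ⟨n, a, ha, hna⟩ := harch (ℓ : Kbar) z⁻¹ hA hzi (inv_ne_zero hz0)
    refine ⟨n, fun M' hM' => ?_⟩
    obtain ⟨k, rfl⟩ := Nat.exists_eq_add_of_le hM'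
    have h1 : (ℓ : Kbar) ^ (n + k) * z = (ℓ : Kbar) ^ k * a := by
      rw [pow_add, hna]
      field_simp
    rw [h1]
    exact A.mul_mem _ _ (h93d_pow_mem ℓ A k) ha

/-- Finitely many elements of `ℚ̄` are multiplied into `A` by one power of `ℓ`. -/
theorem h93d_bound (hℓ : ℓ.Prime) (hA : A.LiesOverPrime ℓ) (harch : H96Arch A)
    {ι : Type} [Finite ι] (z : ι → Kbar) :
    ∃ M : ℕ, ∀ i, (ℓ : Kbar) ^ M * z i ∈ A := by
  classical
  haveI := Fintype.ofFinite ι
  choose m hm using fun i => h93d_bound_one hℓ hA harch (z i)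
  refine ⟨Finset.univ.sup m, fun i => hm i _ (Finset.le_sup (Finset.mem_univ i))⟩

end bound

end Fermat.Agent.P5
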