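import Fermat.Agent.P5.H96LawIface
import Fermat.Agent.P5.H97Order
import Fermat.Prelude.Def_EllipticCurve_FrobeniusTrace

/-!
# P5 (wave 5, S19): block ALG-DESC, frozen interface (helper93)

Descent of the local order (`H96LocOrder`, over a valuation subring `A` of `ℚ̄` above `ℓ`) to a
function order over `ℤ_(ℓ)` (`h97c_HasOrder`).

The order is `𝓗 = {f ∈ Algebra.adjoin A G | f is G_ℚ-equivariant}`.  The key lemma is
`Algebra.adjoin A G ⊆ A-span 𝓗`; it is proved with an EXPLICIT Frobenius trace and an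
approximation argument, no lattice theory:

* `H93Act act`     : `act` is a continuous action of `G_ℚ` on `X` by additive maps
  (continuity is NECESSARY: the descent is false for a discontinuous character on `ℤ/3`);
* `H93DescStatement` : TARGET of ALG-DESC;
* `H93dSep`    : leaf DESC-SEP.  For a continuous action on a finite set the equivariant
  functions separate the points (Galois correspondence);
* `H93dApprox` : leaf DESC-APPROX.  An element of `A` fixed by the inertia group and by a
  Frobenius element is `ℓ`-adically approximated by integers (`ℓ` is a uniformizer of the inertia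
  field, the residue classes fixed by Frobenius are the classes of integers);
* `H93dTrace`  : leaf DESC-TRACE.  For `n > 0` a primitive root of unity `ζ` of order `ℓ ^ n - 1`
  has `φ ζ = ζ ^ ℓ`, is fixed by inertia, and the Vandermonde matrix of the nodes
  `ζ ^ (ℓ ^ j)`, `j < n`, is invertible over `A` (first row of the inverse = `b`).
-/

set_option autoImplicit false

open AlgebraicCurve ModularCurve

noncomputable section

namespace Fermat.Agent.P5

open Fermat.Agent.S37

/-- `act` is a continuous action of `G_ℚ` on `X` by additive maps. -/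
structure H93Act {X : Type} [AddCommGroup X] (act : GQ → X → X) : Prop where
  one : ∀ x, act 1 x = x
  mul : ∀ σ τ x, act (σ * τ) x = act σ (act τ x)
  add : ∀ σ x y, act σ (x + y) = act σ x + act σ y
  cont : ∃ L : IntermediateField ℚ Kbar, FiniteDimensional ℚ L ∧
    ∀ σ : GQ, (∀ a ∈ L, σ a = a) → ∀ x, act σ x = x

/-- **TARGET of ALG-DESC**: a local order descends to a function order over `ℤ_(ℓ)`. -/
def H93DescStatement : Prop :=
  ∀ (ℓ : ℕ) [Fact ℓ.Prime] (A : ValuationSubring Kbar), A.LiesOverPrime ℓ →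
    ∀ (X : Type) [AddCommGroup X] [Finite X] (act : GQ → X → X), H93Act act →
      ∀ G : Set (X → Kbar), H96LocOrder A act G → h97c_HasOrder ℓ X act

/-- **DESC-SEP.**  Equivariant functions separate the points of a finite set with a continuous
action of `G_ℚ`. -/
def H93dSep : Prop :=
  ∀ (X : Type) [Finite X] (act : GQ → X → X),
    (∀ x, act 1 x = x) → (∀ σ τ x, act (σ * τ) x = act σ (act τ x)) →
    (∃ L : IntermediateField ℚ Kbar, FiniteDimensional ℚ L ∧
      ∀ σ : GQ, (∀ a ∈ L, σ a = a) → ∀ x, act σ x = x) →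
    ∀ x y : X, (∀ f : X → Kbar, (∀ σ z, f (act σ z) = σ (f z)) → f x = f y) → x = y

/-- **DESC-APPROX.**  Elements of `A` fixed by inertia and by a Frobenius element are
`ℓ`-adic limits of integers. -/
def H93dApprox : Prop :=
  ∀ (ℓ : ℕ) (A : ValuationSubring Kbar), ℓ.Prime → A.LiesOverPrime ℓ →
    ∀ φ : GQ, A.IsFrobeniusAt φ ℓ →
      ∀ a ∈ A, (∀ ι ∈ A.inertiaSubgroupIn ℚ, ι a = a) → φ a = a →
        ∀ N : ℕ, ∃ m : ℤ, ∃ b ∈ A, a - (m : Kbar) = (ℓ : Kbar) ^ N * b

/-- **DESC-TRACE.**  The unit Vandermonde of the Frobenius orbit of a primitive root of unity of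
order `ℓ ^ n - 1`. -/
def H93dTrace : Prop :=
  ∀ (ℓ : ℕ) (A : ValuationSubring Kbar), ℓ.Prime → A.LiesOverPrime ℓ →
    ∀ φ : GQ, A.IsFrobeniusAt φ ℓ → ∀ n : ℕ, 0 < n →
      ∃ (ζ : Kbar) (b : Fin n → Kbar), ζ ∈ A ∧ (∀ i, b i ∈ A) ∧ φ ζ = ζ ^ ℓ ∧
        ζ ^ (ℓ ^ n) = ζ ∧ (∀ ι ∈ A.inertiaSubgroupIn ℚ, ι ζ = ζ) ∧
        ∀ j : Fin n, ∑ i : Fin n, b i * (ζ ^ (ℓ ^ (j : ℕ))) ^ (i : ℕ) =
          if (j : ℕ) = 0 then 1 else 0

end Fermat.Agent.P5
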