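import Fermat.Agent.P5.H93DescTrace
import Fermat.Agent.P5.H98Zp
import Fermat.Agent.P5.H51ClosFinal
import Fermat.Agent.P5.H72Arch
import Fermat.Agent.Bridge.Frobenius

/-!
# P5 ALG-DESC (helper93): the key lemma `Algebra.adjoin A G ≤ A-span (equivariant part)`

* `h93d_basis` : a `ℚ̄`-basis of all functions consisting of equivariant functions (DESC-SEP);
* `h93d_adjoin_int`, `h93d_adjoin_comul` : the algebra generated by a local order is
  integral-valued and closed under `f ↦ f (x + y)` in Sweedler form;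
* `h93d_Sφ_le` : the approximation step (DESC-APPROX + conductor);
* `h93d_key` : the key lemma.
-/

set_option autoImplicit false
set_option linter.style.haveILetI false
set_option linter.unusedSectionVars false
set_option linter.unusedVariables false

open AlgebraicCurve ModularCurve

noncomputable section

namespace Fermat.Agent.P5

open Fermat.Agent.S37

/-! ## A basis of equivariant functions -/

section basis

variable {X : Type} [Finite X] {act : GQ → X → X}

/-- the `ℚ`-algebra of equivariant functions. -/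
def h93d_E (act : GQ → X → X) : Subalgebra ℚ (X → Kbar) where
  carrier := {f | ∀ σ x, f (act σ x) = σ (f x)}
  mul_mem' := by
    intro f g hf hg σ x
    simp only [Pi.mul_apply, map_mul, hf σ x, hg σ x]
  add_mem' := by
    intro f g hf hg σ x
    simp only [Pi.add_apply, map_add, hf σ x, hg σ x]
  algebraMap_mem' := by
    intro r σ x
    show algebraMap ℚ Kbar r = σ (algebraMap ℚ Kbar r)
    rw [AlgEquiv.commutes]

theorem h93d_mem_E (f : X → Kbar) : f ∈ h93d_E act ↔ ∀ σ x, f (act σ x) = σ (f x) := Iff.rfl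

theorem h93d_basis (hSep : H93dSep) (hone : ∀ x, act 1 x = x)
    (hmul : ∀ σ τ x, act (σ * τ) x = act σ (act τ x))
    (hcont : ∃ L : IntermediateField ℚ Kbar, FiniteDimensional ℚ L ∧
      ∀ σ : GQ, (∀ a ∈ L, σ a = a) → ∀ x, act σ x = x) :
    ∃ (r : ℕ) (u : Fin r → X → Kbar), (∀ i σ x, u i (act σ x) = σ (u i x)) ∧
      LinearIndependent Kbar u ∧ Submodule.span Kbar (Set.range u) = ⊤ := by
  classical
  have hsep : ∀ x y : X, (∀ f ∈ h93d_E act, f x = f y) → x = y := fun x y h =>
    hSep X act hone hmul hcont x y fun f hf => h f hf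
  have htop : Submodule.span Kbar ((h93d_E act : Subalgebra ℚ (X → Kbar)) : Set (X → Kbar)) = ⊤ :=
    h98p_order_span (h93d_E act) hsep
  obtain ⟨b, hbE, hbspan, hbli⟩ :=
    exists_linearIndependent Kbar ((h93d_E act : Subalgebra ℚ (X → Kbar)) : Set (X → Kbar))
  haveI : Finite b := hbli.finite
  let e := (Finite.equivFin b).symm
  refine ⟨Nat.card b, fun i => ((e i : b) : X → Kbar), fun i σ x => hbE (e i).2 σ x, ?_, ?_⟩
  · exact hbli.comp e e.injective
  · rw [← htop, ← hbspan]
    congr 1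
    ext f
    constructor
    · rintro ⟨i, rfl⟩
      exact (e i).2
    · intro hf
      refine ⟨e.symm ⟨f, hf⟩, ?_⟩
      show ((e (e.symm ⟨f, hf⟩) : b) : X → Kbar) = f
      rw [Equiv.apply_symm_apply]

end basis

/-! ## The algebra generated by a local order -/

section adjoin

variable {ℓ : ℕ} {A : ValuationSubring Kbar} {X : Type} [AddCommGroup X] [Finite X]
  {act : GQ → X → X} {G : Set (X → Kbar)}

theorem h93d_adjoin_int (hG : H96LocOrder A act G) :
    ∀ f ∈ Algebra.adjoin A G, ∀ x, f x ∈ A := by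
  intro f hf
  induction hf using Algebra.adjoin_induction with
  | mem f hf => exact hG.int f hf
  | algebraMap r => exact fun x => r.2
  | add f g _ _ hf hg => exact fun x => A.add_mem _ _ (hf x) (hg x)
  | mul f g _ _ hf hg => exact fun x => A.mul_mem _ _ (hf x) (hg x)

theorem h93d_adjoin_sep (hG : H96LocOrder A act G) :
    ∀ x y : X, (∀ f ∈ Algebra.adjoin A G, f x = f y) → x = y := fun x y h =>
  hG.sep x y fun f hf => h f (Algebra.subset_adjoin hf)

/-- pull back along the addition. -/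
def h93d_pull (A : ValuationSubring Kbar) (X : Type) [AddCommGroup X] :
    (X → Kbar) →ₐ[A] (X × X → Kbar) where
  toFun f := fun p => f (p.1 + p.2)
  map_one' := rfl
  map_mul' _ _ := rfl
  map_zero' := rfl
  map_add' _ _ := rfl
  commutes' _ := rfl

theorem h93d_adjoin_comul (hG : H96LocOrder A act G) :
    ∀ f ∈ Algebra.adjoin A G, ∃ (n : ℕ) (a b : Fin n → X → Kbar),
      (∀ i, a i ∈ Algebra.adjoin A G) ∧ (∀ i, b i ∈ Algebra.adjoin A G) ∧
      ∀ x y, f (x + y) = ∑ i, a i x * b i y := by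
  intro f hf
  have h1 : Algebra.adjoin A G ≤
      (h96c_prod A (Algebra.adjoin A G) (Algebra.adjoin A G)).comap (h93d_pull A X) := by
    refine Algebra.adjoin_le fun g hg => ?_
    obtain ⟨n, a, b, ha, hb, hab⟩ := hG.comul g hg
    show h93d_pull A X g ∈ h96c_prod A (Algebra.adjoin A G) (Algebra.adjoin A G)
    have h2 : h93d_pull A X g = ∑ i, (fun p : X × X => a i p.1) * (fun p : X × X => b i p.2) := by
      funext p
      simp only [Finset.sum_apply, Pi.mul_apply]
      exact hab p.1 p.2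
    rw [h2]
    refine Subalgebra.sum_mem _ fun i _ => Subalgebra.mul_mem _ ?_ ?_
    · exact Algebra.subset_adjoin (Or.inl ⟨a i, ha i, rfl⟩)
    · exact Algebra.subset_adjoin (Or.inr ⟨b i, hb i, rfl⟩)
  obtain ⟨n, a, b, ha, hb, hab⟩ := h51c_sweedler Kbar A X X _ _ _ (h1 hf)
  exact ⟨n, a, b, ha, hb, fun x y => hab (x, y)⟩

/-- the equivariant part of the algebra. -/
def h93d_H (A : ValuationSubring Kbar) (act : GQ → X → X) (G : Set (X → Kbar)) :
    Set (X → Kbar) :=
  {h | h ∈ Algebra.adjoin A G ∧ ∀ σ x, h (act σ x) = σ (h x)}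

/-- **The approximation step.** -/
theorem h93d_Sφ_le (hAp : H93dApprox) (hℓ : ℓ.Prime) (hA : A.LiesOverPrime ℓ)
    (hG : H96LocOrder A act G) (φ : GQ) (hφ : A.IsFrobeniusAt φ ℓ)
    {r : ℕ} (u : Fin r → X → Kbar) (huE : ∀ i σ x, u i (act σ x) = σ (u i x))
    (hu : LinearIndependent Kbar u) (huT : Submodule.span Kbar (Set.range u) = ⊤) :
    ∀ f ∈ h93d_Sφ A act G φ, f ∈ Submodule.span A (h93d_H A act G) := by
  classical
  intro f hf
  obtain ⟨hfI, hfφ, hfι⟩ := hf
  have harch : H96Arch A := h72a_archQbar A ℓ hℓ hA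
  have hℓ0 : (ℓ : Kbar) ≠ 0 := by exact_mod_cast hℓ.ne_zero
  -- coefficients
  have hfs : f ∈ Submodule.span Kbar (Set.range u) := by rw [huT]; trivial
  obtain ⟨c, hc⟩ := (Submodule.mem_span_range_iff_exists_fun Kbar).mp hfs
  have hcφ : ∀ i, φ (c i) = c i := fun i =>
    h93d_coef_fixed u hu φ (fun i x => huE i φ x) c f hc.symm hfφ i
  have hcι : ∀ ι ∈ A.inertiaSubgroupIn ℚ, ∀ i, ι (c i) = c i := fun ι hι i =>
    h93d_coef_fixed u hu ι (fun i x => huE i ι x) c f hc.symm (hfι ι hι) i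
  obtain ⟨M, hM⟩ := h93d_bound hℓ hA harch c
  -- conductor
  obtain ⟨c0, hc0A, hc0, hcond⟩ := h51c_approx Kbar A X (Algebra.adjoin A G)
    (h93d_adjoin_int hG) (h93d_adjoin_sep hG)
  obtain ⟨N, hN⟩ := h93d_bound hℓ hA harch (fun p : Fin r × X => u p.1 p.2 / c0)
  -- approximation
  have hap : ∀ i, ∃ m : ℤ, ∃ b ∈ A, (ℓ : Kbar) ^ M * c i - (m : Kbar) = (ℓ : Kbar) ^ (N + M) * b := by
    intro i
    refine hAp ℓ A hℓ hA φ hφ _ (hM i) (fun ι hι => ?_) ?_ (N + M)
    · rw [map_mul, map_pow, map_natCast, hcι ι hι]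
    · rw [map_mul, map_pow, map_natCast, hcφ]
  choose m b hbA hmb using hap
  have hcb : ∀ i, c i = ((m i : ℤ) : Kbar) / (ℓ : Kbar) ^ M + (ℓ : Kbar) ^ N * b i := by
    intro i
    have h1 := hmb i
    have hp : (ℓ : Kbar) ^ M ≠ 0 := pow_ne_zero _ hℓ0
    field_simp
    rw [pow_add] at h1
    linear_combination h1
  -- the pieces
  let q : Fin r → ℚ := fun i => (m i : ℚ) / (ℓ : ℚ) ^ M
  have hq : ∀ i, ((q i : ℚ) : Kbar) = ((m i : ℤ) : Kbar) / (ℓ : Kbar) ^ M := by
    intro i
    simp only [q]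
    push_cast
    rfl
  let f' : X → Kbar := ∑ i, ((q i : ℚ) : Kbar) • u i
  let v : Fin r → X → Kbar := fun i => ((ℓ : Kbar) ^ N) • u i
  have hf'E : ∀ σ x, f' (act σ x) = σ (f' x) := by
    intro σ x
    simp only [f', Finset.sum_apply, Pi.smul_apply, smul_eq_mul, map_sum, map_mul, map_ratCast,
      huE]
  have hvE : ∀ i σ x, v i (act σ x) = σ (v i x) := by
    intro i σ x
    simp only [v, Pi.smul_apply, smul_eq_mul, map_mul, map_pow, map_natCast, huE]
  have hw : ∀ i x, ∃ a ∈ A, (ℓ : Kbar) ^ N * u i x = c0 * a := by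
    intro i x
    refine ⟨_, hN (i, x), ?_⟩
    show (ℓ : Kbar) ^ N * u i x = c0 * ((ℓ : Kbar) ^ N * (u i x / c0))
    field_simp
  have hvI : ∀ i, v i ∈ Algebra.adjoin A G := by
    intro i
    refine hcond _ ⟨0, Subalgebra.zero_mem _, fun s => ?_⟩
    obtain ⟨a, ha, hae⟩ := hw i s
    exact ⟨a, ha, by simpa [v] using hae⟩
  have hdecomp : ∀ x, f x = f' x + ∑ i, b i * v i x := by
    intro x
    rw [← hc]
    simp only [f', v, Finset.sum_apply, Pi.smul_apply, smul_eq_mul, ← Finset.sum_add_distrib]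
    refine Finset.sum_congr rfl fun i _ => ?_
    rw [hq, hcb i]
    ring
  have hf'I : f' ∈ Algebra.adjoin A G := by
    refine hcond _ ⟨f, hfI, fun s => ?_⟩
    choose a ha hae using fun i => hw i s
    refine ⟨-∑ i, b i * a i, A.neg_mem _ (A.toSubring.sum_mem fun i _ =>
      A.mul_mem _ _ (hbA i) (ha i)), ?_⟩
    rw [hdecomp s, sub_add_cancel_left, mul_neg, Finset.mul_sum]
    congr 1
    refine Finset.sum_congr rfl fun i _ => ?_
    show b i * ((ℓ : Kbar) ^ N * u i s) = c0 * (b i * a i)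
    rw [hae i]
    ring
  have hfeq : f = f' + ∑ i, (⟨b i, hbA i⟩ : A) • v i := by
    funext x
    rw [hdecomp x]
    simp only [Pi.add_apply, Finset.sum_apply]
    rfl
  rw [hfeq]
  refine Submodule.add_mem _ (Submodule.subset_span ⟨hf'I, hf'E⟩)
    (Submodule.sum_mem _ fun i _ => Submodule.smul_mem _ _
      (Submodule.subset_span ⟨hvI i, hvE i⟩))

end adjoin

end Fermat.Agent.P5
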