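import Fermat.Agent.P5.H93DescKey

/-!
# P5 ALG-DESC (helper93): assembly

`h93d_desc_of : H93dSep → H93dApprox → H93dTrace → H93DescStatement`.

The order is `𝓗 = {f ∈ Algebra.adjoin A G | f equivariant}` (`h93d_order`).
* `h93d_key` : `Algebra.adjoin A G ≤ A-span 𝓗`;
* `h93d_order_sep`, `h93d_order_fg`, `h93d_order_comul`.
-/

set_option autoImplicit false
set_option linter.style.haveILetI false
set_option linter.unusedSectionVars false
set_option linter.unusedVariables false

open AlgebraicCurve ModularCurve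
open scoped Pointwise

noncomputable section

namespace Fermat.Agent.P5

open Fermat.Agent.S37

section top

variable {ℓ : ℕ} {A : ValuationSubring Kbar} {X : Type} [AddCommGroup X] [Finite X]
  {act : GQ → X → X} {G : Set (X → Kbar)}

theorem h93d_zl_smul_apply (r : GaloisRep.ratLocalizedAt ℓ) (g : X → Kbar) (x : X) :
    (r • g) x = ((r : ℚ) : Kbar) * g x := by
  rw [Pi.smul_apply, Algebra.smul_def]
  rfl

theorem h93d_H_one : (1 : X → Kbar) ∈ h93d_H A act G :=
  ⟨Subalgebra.one_mem _, fun σ x => by simp⟩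

theorem h93d_H_mul {f g : X → Kbar} (hf : f ∈ h93d_H A act G) (hg : g ∈ h93d_H A act G) :
    f * g ∈ h93d_H A act G :=
  ⟨Subalgebra.mul_mem _ hf.1 hg.1, fun σ x => by
    simp only [Pi.mul_apply, map_mul, hf.2 σ x, hg.2 σ x]⟩

theorem h93d_H_add {f g : X → Kbar} (hf : f ∈ h93d_H A act G) (hg : g ∈ h93d_H A act G) :
    f + g ∈ h93d_H A act G :=
  ⟨Subalgebra.add_mem _ hf.1 hg.1, fun σ x => by
    simp only [Pi.add_apply, map_add, hf.2 σ x, hg.2 σ x]⟩

/-- **The key lemma.** -/
theorem h93d_key (hSep : H93dSep) (hAp : H93dApprox) (hTr : H93dTrace) (hℓ : ℓ.Prime)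
    (hA : A.LiesOverPrime ℓ) (hact : H93Act act) (hG : H96LocOrder A act G) :
    ∀ f ∈ Algebra.adjoin A G, f ∈ Submodule.span A (h93d_H A act G) := by
  obtain ⟨φ, hφ⟩ := Fermat.Agent.Bridge.existsFrob A ℓ hℓ hA
  obtain ⟨r, u, huE, hu, huT⟩ := h93d_basis hSep hact.one hact.mul hact.cont
  have hS : h93d_Sφ A act G φ ⊆ (Submodule.span A (h93d_H A act G) : Set (X → Kbar)) :=
    fun f hf => h93d_Sφ_le hAp hℓ hA hG φ hφ u huE hu huT f hf
  have hGs : ∀ g ∈ G, g ∈ Submodule.span A (h93d_H A act G) := fun g hg =>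
    (Submodule.span_le.mpr hS) (h93d_gen_mem_span hTr hℓ hA hact.one hact.mul hG φ hφ g hg)
  have hmulS : (h93d_H A act G) * (h93d_H A act G) ⊆ h93d_H A act G := by
    rintro _ ⟨f, hf, g, hg, rfl⟩
    exact h93d_H_mul hf hg
  intro f hf
  induction hf using Algebra.adjoin_induction with
  | mem f hf => exact hGs f hf
  | algebraMap a =>
    rw [Algebra.algebraMap_eq_smul_one]
    exact Submodule.smul_mem _ _ (Submodule.subset_span h93d_H_one)
  | add f g _ _ hf hg => exact Submodule.add_mem _ hf hg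
  | mul f g _ _ hf hg =>
    have h1 := Submodule.mul_mem_mul hf hg
    rw [Submodule.span_mul_span] at h1
    exact Submodule.span_mono hmulS h1

/-- the order. -/
def h93d_order (hℓ : ℓ.Prime) (hA : A.LiesOverPrime ℓ) (act : GQ → X → X)
    (G : Set (X → Kbar)) : Subalgebra (GaloisRep.ratLocalizedAt ℓ) (X → Kbar) where
  carrier := h93d_H A act G
  mul_mem' := h93d_H_mul
  add_mem' := h93d_H_add
  algebraMap_mem' := by
    intro r
    refine ⟨?_, fun σ x => ?_⟩
    · have h1 : algebraMap (GaloisRep.ratLocalizedAt ℓ) (X → Kbar) r =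
          algebraMap A (X → Kbar) ⟨((r : ℚ) : Kbar), h93d_zl_mem hℓ hA r.2⟩ := rfl
      rw [h1]
      exact Subalgebra.algebraMap_mem _ _
    · show ((r : ℚ) : Kbar) = σ ((r : ℚ) : Kbar)
      rw [map_ratCast]

theorem h93d_mem_order (hℓ : ℓ.Prime) (hA : A.LiesOverPrime ℓ) (f : X → Kbar) :
    f ∈ h93d_order hℓ hA act G ↔ f ∈ h93d_H A act G := Iff.rfl

theorem h93d_order_sep (hSep : H93dSep) (hAp : H93dApprox) (hTr : H93dTrace) (hℓ : ℓ.Prime)
    (hA : A.LiesOverPrime ℓ) (hact : H93Act act) (hG : H96LocOrder A act G) (x y : X)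
    (h : ∀ f ∈ h93d_order hℓ hA act G, f x = f y) : x = y := by
  have hall : ∀ f ∈ Submodule.span A (h93d_H A act G), f x = f y := by
    intro f hf
    induction hf using Submodule.span_induction with
    | mem f hf => exact h f hf
    | zero => rfl
    | add f g _ _ hf hg => rw [Pi.add_apply, Pi.add_apply, hf, hg]
    | smul a f _ hf => rw [Pi.smul_apply, Pi.smul_apply, hf]
  exact hG.sep x y fun g hg =>
    hall g (h93d_key hSep hAp hTr hℓ hA hact hG g (Algebra.subset_adjoin hg))

theorem h93d_order_fg [Fact ℓ.Prime] (hSep : H93dSep) (hℓ : ℓ.Prime)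
    (hA : A.LiesOverPrime ℓ) (hact : H93Act act) (hG : H96LocOrder A act G) :
    (Subalgebra.toSubmodule (h93d_order hℓ hA act G)).FG := by
  classical
  haveI := Fintype.ofFinite X
  have harch : H96Arch A := h72a_archQbar A ℓ hℓ hA
  have hℓ0 : (ℓ : Kbar) ≠ 0 := by exact_mod_cast hℓ.ne_zero
  obtain ⟨r, u, huE, hu, huT⟩ := h93d_basis hSep hact.one hact.mul hact.cont
  let B : Module.Basis (Fin r) Kbar (X → Kbar) := Module.Basis.mk hu huT.ge
  have hB : ∀ i, B i = u i := fun i => Module.Basis.mk_apply hu huT.ge i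
  obtain ⟨M, hM⟩ := h93d_bound hℓ hA harch
    (fun p : X × Fin r => B.repr (Pi.single p.1 (1 : Kbar)) p.2)
  let w : Fin r → X → Kbar := fun i => ((ℓ : Kbar) ^ M)⁻¹ • u i
  have hle : Subalgebra.toSubmodule (h93d_order hℓ hA act G) ≤
      Submodule.span (GaloisRep.ratLocalizedAt ℓ) (Set.range w) := by
    intro f hf
    have hfI : f ∈ Algebra.adjoin A G := hf.1
    have hfE : ∀ σ x, f (act σ x) = σ (f x) := hf.2
    have hsum : f = ∑ i, B.repr f i • u i := by
      conv_lhs => rw [← B.sum_repr f]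
      exact Finset.sum_congr rfl fun i _ => by rw [hB]
    have hfix : ∀ i, ∀ σ : GQ, σ (B.repr f i) = B.repr f i := fun i σ =>
      h93d_coef_fixed u hu σ (fun i x => huE i σ x) (fun i => B.repr f i) f hsum (hfE σ) i
    have hrepr : ∀ i, B.repr f i = ∑ x, f x * B.repr (Pi.single x (1 : Kbar)) i := by
      intro i
      have h1 : f = ∑ x, f x • (Pi.single x (1 : Kbar) : X → Kbar) := by
        funext y
        simp [Finset.sum_apply, Pi.single_apply]
      conv_lhs => rw [h1]
      simp only [map_sum, map_smul, Finsupp.coe_finsetSum, Finsupp.coe_smul, Finset.sum_apply,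
        Pi.smul_apply, smul_eq_mul]
    have hmem : ∀ i, (ℓ : Kbar) ^ M * B.repr f i ∈ A := by
      intro i
      rw [hrepr i, Finset.mul_sum]
      refine A.toSubring.sum_mem fun x _ => ?_
      have h2 : (ℓ : Kbar) ^ M * (f x * B.repr (Pi.single x (1 : Kbar)) i) =
          f x * ((ℓ : Kbar) ^ M * B.repr (Pi.single x (1 : Kbar)) i) := by ring
      rw [h2]
      exact A.mul_mem _ _ (h93d_adjoin_int hG f hfI x) (hM (x, i))
    have hq : ∀ i, ∃ q : ℚ, ((q : ℚ) : Kbar) = (ℓ : Kbar) ^ M * B.repr f i := by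
      intro i
      obtain ⟨q, hq⟩ := h98p_fix (B.repr f i) (hfix i)
      refine ⟨(ℓ : ℚ) ^ M * q, ?_⟩
      push_cast
      rw [← hq]
      rfl
    choose q hq using hq
    have hqz : ∀ i, q i ∈ GaloisRep.ratLocalizedAt ℓ := fun i =>
      h93d_mem_zl hℓ hA (by rw [hq i]; exact hmem i)
    have hf2 : f = ∑ i, (⟨q i, hqz i⟩ : GaloisRep.ratLocalizedAt ℓ) • w i := by
      conv_lhs => rw [hsum]
      refine Finset.sum_congr rfl fun i _ => ?_
      funext x
      rw [h93d_zl_smul_apply]
      show B.repr f i * u i x = ((q i : ℚ) : Kbar) * (((ℓ : Kbar) ^ M)⁻¹ * u i x)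
      rw [hq i]
      have hp : (ℓ : Kbar) ^ M ≠ 0 := pow_ne_zero _ hℓ0
      field_simp
    rw [hf2]
    exact Submodule.sum_mem _ fun i _ => Submodule.smul_mem _ _ (Submodule.subset_span ⟨i, rfl⟩)
  haveI : IsNoetherianRing (GaloisRep.ratLocalizedAt ℓ) :=
    Fermat.Agent.Red.ModelO.h85_isNoetherianRing_ratLocalizedAt ℓ
  haveI hN : IsNoetherian (GaloisRep.ratLocalizedAt ℓ)
      (Submodule.span (GaloisRep.ratLocalizedAt ℓ) (Set.range w)) :=
    isNoetherian_span_of_finite _ (Set.finite_range w)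
  have h1 := (isNoetherian_def.mp hN)
    ((Subalgebra.toSubmodule (h93d_order hℓ hA act G)).comap
      (Submodule.span (GaloisRep.ratLocalizedAt ℓ) (Set.range w)).subtype)
  have h2 := h1.map (Submodule.span (GaloisRep.ratLocalizedAt ℓ) (Set.range w)).subtype
  rw [Submodule.map_comap_subtype, inf_eq_right.mpr hle] at h2
  exact h2

theorem h93d_order_comul [Fact ℓ.Prime] (hSep : H93dSep) (hAp : H93dApprox) (hTr : H93dTrace)
    (hℓ : ℓ.Prime) (hA : A.LiesOverPrime ℓ) (hact : H93Act act) (hG : H96LocOrder A act G) :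
    ∀ f ∈ h93d_order hℓ hA act G,
      h97c_Sw (h93d_order hℓ hA act G) (h93d_order hℓ hA act G) (fun x y => f (x + y)) := by
  classical
  have hfg := h93d_order_fg hSep hℓ hA hact hG
  have hsep := h93d_order_sep hSep hAp hTr hℓ hA hact hG
  have heq : ∀ f ∈ h93d_order hℓ hA act G, ∀ σ x, f (act σ x) = σ (f x) := fun f hf => hf.2
  obtain ⟨n, bas, hli, hspan, -⟩ := h98p_zp_basis ℓ act (h93d_order hℓ hA act G) hfg heq hsep
  let ub : Fin n → X → Kbar := fun i => ((bas i : h93d_order hℓ hA act G) : X → Kbar)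
  have hubH : ∀ i, ub i ∈ h93d_H A act G := fun i => (bas i).2
  -- the `A`-span of the order is the `A`-span of the basis
  have hle : Submodule.span A (h93d_H A act G) ≤ Submodule.span A (Set.range ub) := by
    refine Submodule.span_le.mpr fun h hh => ?_
    have h1 : (⟨h, hh⟩ : h93d_order hℓ hA act G) = ∑ i, bas.repr ⟨h, hh⟩ i • bas i :=
      (bas.sum_repr _).symm
    have h2 : h = ∑ i, (⟨((bas.repr ⟨h, hh⟩ i : GaloisRep.ratLocalizedAt ℓ) : ℚ),
        h93d_zl_mem hℓ hA (bas.repr ⟨h, hh⟩ i).2⟩ : A) • ub i := by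
      have h3 := congrArg (fun g : h93d_order hℓ hA act G => (g : X → Kbar)) h1
      simp only [AddSubmonoidClass.coe_finsetSum] at h3
      refine h3.trans (Finset.sum_congr rfl fun i _ => ?_)
      funext x
      show ((bas.repr ⟨h, hh⟩ i) • ((bas i : h93d_order hℓ hA act G) : X → Kbar)) x = _
      rw [h93d_zl_smul_apply]
      rfl
    rw [SetLike.mem_coe, h2]
    exact Submodule.sum_mem _ fun i _ => Submodule.smul_mem _ _ (Submodule.subset_span ⟨i, rfl⟩)
  intro f hf
  obtain ⟨k, a, b, ha, hb, hab⟩ := h93d_adjoin_comul hG f hf.1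
  have hα : ∀ j, ∃ α : Fin n → A, ∑ i, α i • ub i = a j := fun j =>
    (Submodule.mem_span_range_iff_exists_fun A).mp
      (hle (h93d_key hSep hAp hTr hℓ hA hact hG (a j) (ha j)))
  choose α hα using hα
  let d : Fin n → X → Kbar := fun i => ∑ j, α j i • b j
  have hdI : ∀ i, d i ∈ Algebra.adjoin A G := fun i =>
    Subalgebra.sum_mem _ fun j _ => Subalgebra.smul_mem _ (hb j) _
  have hfd : ∀ x y, f (x + y) = ∑ i, ub i x * d i y := by
    intro x y
    rw [hab]
    have h1 : ∀ j, a j x = ∑ i, ((α j i : A) : Kbar) * ub i x := by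
      intro j
      rw [← hα j]
      simp only [Finset.sum_apply]
      rfl
    have h2 : ∀ i, d i y = ∑ j, ((α j i : A) : Kbar) * b j y := by
      intro i
      simp only [d, Finset.sum_apply]
      rfl
    simp only [h1, h2, Finset.sum_mul, Finset.mul_sum]
    rw [Finset.sum_comm]
    refine Finset.sum_congr rfl fun i _ => Finset.sum_congr rfl fun j _ => ?_
    ring
  have hdE : ∀ i σ y, d i (act σ y) = σ (d i y) := by
    intro i σ y
    have key : ∑ i, (d i (act σ y) - σ (d i y)) • ub i = 0 := by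
      funext x
      simp only [Finset.sum_apply, Pi.smul_apply, smul_eq_mul, Pi.zero_apply, sub_mul,
        Finset.sum_sub_distrib]
      rw [sub_eq_zero]
      have hx : act σ (act σ⁻¹ x) = x := h93d_act_act_inv hact.one hact.mul σ x
      have e1 : ∑ i, d i (act σ y) * ub i x = f (x + act σ y) := by
        rw [hfd]
        exact Finset.sum_congr rfl fun i _ => mul_comm _ _
      have e2 : f (x + act σ y) = σ (f (act σ⁻¹ x + y)) := by
        rw [← hf.2 σ, hact.add, hx]
      rw [e1, e2, hfd, map_sum]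
      refine Finset.sum_congr rfl fun i _ => ?_
      rw [map_mul, ← (hubH i).2 σ, hx, mul_comm]
    have h4 := (Fintype.linearIndependent_iff.mp hli) _ key i
    exact sub_eq_zero.mp h4
  exact ⟨n, ub, d, hubH, fun i => ⟨hdI i, hdE i⟩, hfd⟩

/-- **ALG-DESC from its three leaves.** -/
theorem h93d_desc_of (hSep : H93dSep) (hAp : H93dApprox) (hTr : H93dTrace) :
    H93DescStatement := by
  intro ℓ _ A hA X _ _ act hact G hG
  have hℓ : ℓ.Prime := Fact.out
  exact ⟨h93d_order hℓ hA act G,
    { fg := h93d_order_fg hSep hℓ hA hact hG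
      equivariant := fun f hf => hf.2
      separates := h93d_order_sep hSep hAp hTr hℓ hA hact hG
      comul := h93d_order_comul hSep hAp hTr hℓ hA hact hG }⟩

end top

end Fermat.Agent.P5
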