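import Fermat.Agent.P5.H93DescAlg

/-!
# P5 ALG-DESC (helper93): the Frobenius trace

`g ∈ G` (a generator of the local order), `φ` a Frobenius element at `A`.  The orbit of `g` under
`φ` is finite (`h93d_orbit`); with `n > 0`, `φ ^ n ⋆ g = g` and `ζ` a primitive root of unity of
order `ℓ ^ n - 1` the traces `T i = ∑_{j < n} ζ ^ (i ℓ ^ j) • (φ ^ j ⋆ g)` lie in the algebra,
are equivariant for `φ` and for the inertia group, and `g = ∑ b i • T i` (`h93d_gen_mem_span`).
-/

set_option autoImplicit false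
set_option linter.style.haveILetI false
set_option linter.unusedSectionVars false
set_option linter.unusedVariables false

open AlgebraicCurve ModularCurve

noncomputable section

namespace Fermat.Agent.P5

open Fermat.Agent.S37

section orbit

variable {X : Type} [Finite X] {act : GQ → X → X}

/-- The orbit of a function under the powers of `φ` is finite. -/
theorem h93d_orbit (hone : ∀ x, act 1 x = x)
    (hmul : ∀ σ τ x, act (σ * τ) x = act σ (act τ x)) (φ : GQ) (g : X → Kbar) :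
    ∃ n : ℕ, 0 < n ∧ h93d_star act (φ ^ n) g = g := by
  classical
  let R : Set Kbar := ⋃ y : X, (minpoly ℚ (g y)).rootSet Kbar
  have hR : R.Finite := Set.finite_iUnion fun y => Polynomial.rootSet_finite _ _
  have hS : {f : X → Kbar | ∀ x, f x ∈ R}.Finite := Set.Finite.pi' fun _ => hR
  have hmem : ∀ j : ℕ, h93d_star act (φ ^ j) g ∈ {f : X → Kbar | ∀ x, f x ∈ R} := by
    intro j x
    refine Set.mem_iUnion.mpr ⟨act (φ ^ j)⁻¹ x, ?_⟩
    have hint : IsIntegral ℚ (g (act (φ ^ j)⁻¹ x)) :=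
      ((AlgebraicClosure.isAlgebraic ℚ).isAlgebraic _).isIntegral
    rw [Polynomial.mem_rootSet]
    refine ⟨minpoly.ne_zero hint, ?_⟩
    rw [h93d_star_apply, Polynomial.aeval_algHom_apply, minpoly.aeval, map_zero]
  obtain ⟨a, b, hab, heq⟩ := Set.Finite.exists_lt_map_eq_of_forall_mem hmem hS
  refine ⟨b - a, Nat.sub_pos_of_lt hab, ?_⟩
  have hb : φ ^ b = φ ^ a * φ ^ (b - a) := by
    rw [← pow_add]
    congr 1
    omega
  rw [hb, h93d_star_mul hmul] at heq
  have h1 := congrArg (h93d_star act (φ ^ a)⁻¹) heq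
  rw [← h93d_star_mul hmul, ← h93d_star_mul hmul, inv_mul_cancel, h93d_star_one hone,
    h93d_star_one hone] at h1
  exact h1.symm

end orbit

section trace

variable {ℓ : ℕ} {A : ValuationSubring Kbar} {X : Type} [AddCommGroup X] [Finite X]
  {act : GQ → X → X} {G : Set (X → Kbar)}

/-- scalar multiplication by an element of `A` on functions. -/
theorem h93d_smul_eq (a : Kbar) (ha : a ∈ A) (f : X → Kbar) :
    ((⟨a, ha⟩ : A) • f : X → Kbar) = a • f := by
  funext x
  rfl

theorem h93d_smul_mem_adjoin (a : Kbar) (ha : a ∈ A) {f : X → Kbar}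
    (hf : f ∈ Algebra.adjoin A G) : a • f ∈ Algebra.adjoin A G := by
  rw [← h93d_smul_eq a ha f]
  exact Subalgebra.smul_mem _ hf _

/-- The set of elements of the algebra which are equivariant for `φ` and for inertia. -/
def h93d_Sφ (A : ValuationSubring Kbar) (act : GQ → X → X) (G : Set (X → Kbar)) (φ : GQ) :
    Set (X → Kbar) :=
  {f | f ∈ Algebra.adjoin A G ∧ (∀ x, f (act φ x) = φ (f x)) ∧
    ∀ ι ∈ A.inertiaSubgroupIn ℚ, ∀ x, f (act ι x) = ι (f x)}

/-- **The trace step.** -/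
theorem h93d_gen_mem_span (hTr : H93dTrace) (hℓ : ℓ.Prime) (hA : A.LiesOverPrime ℓ)
    (hone : ∀ x, act 1 x = x) (hmul : ∀ σ τ x, act (σ * τ) x = act σ (act τ x))
    (hG : H96LocOrder A act G) (φ : GQ) (hφ : A.IsFrobeniusAt φ ℓ) (g : X → Kbar)
    (hg : g ∈ G) : g ∈ Submodule.span A (h93d_Sφ A act G φ) := by
  classical
  obtain ⟨n, hn, hgn⟩ := h93d_orbit hone hmul φ g
  obtain ⟨ζ, b, hζA, hbA, hφζ, hζn, hιζ, hb⟩ := hTr ℓ A hℓ hA φ hφ n hn
  have hφD : φ ∈ A.decompositionSubgroup ℚ := hφ.mem_decompositionSubgroup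
  -- the translates
  let gs : ℕ → X → Kbar := fun j => h93d_star act (φ ^ j) g
  have hgsG : ∀ j, gs j ∈ G := fun j =>
    hG.decomp g hg (φ ^ j) (Subgroup.pow_mem _ hφD j)
  have hgs0 : gs 0 = g := by
    show h93d_star act (φ ^ 0) g = g
    rw [pow_zero, h93d_star_one hone]
  have hgsn : gs n = g := hgn
  have hgs_succ : ∀ j, gs (j + 1) = h93d_star act φ (gs j) := fun j =>
    h93d_star_pow hone hmul φ g j
  -- the nodes
  let z : ℕ → Kbar := fun j => ζ ^ (ℓ ^ j)
  have hz0 : z 0 = ζ := by simp [z]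
  have hzn : z n = ζ := hζn
  have hzA : ∀ j, z j ∈ A := fun j => A.pow_mem hζA _
  have hz_succ : ∀ j, φ (z j) = z (j + 1) := by
    intro j
    show φ (ζ ^ (ℓ ^ j)) = ζ ^ (ℓ ^ (j + 1))
    rw [map_pow, hφζ, ← pow_mul, pow_succ']
  have hzι : ∀ ι ∈ A.inertiaSubgroupIn ℚ, ∀ j, ι (z j) = z j := by
    intro ι hι j
    show ι (ζ ^ (ℓ ^ j)) = ζ ^ (ℓ ^ j)
    rw [map_pow, hιζ ι hι]
  -- the traces
  let F : ℕ → ℕ → X → Kbar := fun i j => (z j ^ i) • gs j
  let T : ℕ → X → Kbar := fun i => ∑ j ∈ Finset.range n, F i j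
  have hFn : ∀ i, F i n = F i 0 := by
    intro i
    show (z n ^ i) • gs n = (z 0 ^ i) • gs 0
    rw [hzn, hz0, hgsn, hgs0]
  have hTmem : ∀ i, T i ∈ Algebra.adjoin A G := by
    intro i
    refine Subalgebra.sum_mem _ fun j _ => ?_
    exact h93d_smul_mem_adjoin _ (A.pow_mem (hzA j) i) (Algebra.subset_adjoin (hgsG j))
  have hTφ : ∀ i, h93d_star act φ (T i) = T i := by
    intro i
    show h93d_star act φ (∑ j ∈ Finset.range n, F i j) = ∑ j ∈ Finset.range n, F i j
    rw [h93d_star_sum]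
    have h1 : ∀ j, h93d_star act φ (F i j) = F i (j + 1) := by
      intro j
      show h93d_star act φ ((z j ^ i) • gs j) = (z (j + 1) ^ i) • gs (j + 1)
      rw [h93d_star_smul, map_pow, hz_succ, hgs_succ]
    simp only [h1]
    have h2 := Finset.sum_range_succ' (F i) n
    have h3 := Finset.sum_range_succ (F i) n
    rw [h3, hFn i] at h2
    exact add_right_cancel h2.symm
  have hTι : ∀ i, ∀ ι ∈ A.inertiaSubgroupIn ℚ, ∀ x, T i (act ι x) = ι (T i x) := by
    intro i ι hι x
    show (∑ j ∈ Finset.range n, F i j) (act ι x) = ι ((∑ j ∈ Finset.range n, F i j) x)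
    simp only [Finset.sum_apply, map_sum]
    refine Finset.sum_congr rfl fun j _ => ?_
    show z j ^ i * gs j (act ι x) = ι (z j ^ i * gs j x)
    rw [map_mul, map_pow, hzι ι hι, hG.inert (gs j) (hgsG j) ι hι]
  have hTS : ∀ i, T i ∈ h93d_Sφ A act G φ := fun i =>
    ⟨hTmem i, (h93d_star_eq_iff hone hmul φ _).mp (hTφ i), hTι i⟩
  -- inversion
  have hinv : g = ∑ i : Fin n, (⟨b i, hbA i⟩ : A) • T (i : ℕ) := by
    have h1 : ∀ i : Fin n, ((⟨b i, hbA i⟩ : A) • T (i : ℕ) : X → Kbar) =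
        ∑ j ∈ Finset.range n, (b i * z j ^ (i : ℕ)) • gs j := by
      intro i
      rw [h93d_smul_eq]
      show b i • ∑ j ∈ Finset.range n, (z j ^ (i : ℕ)) • gs j = _
      rw [Finset.smul_sum]
      exact Finset.sum_congr rfl fun j _ => by rw [smul_smul]
    simp only [h1]
    rw [Finset.sum_comm]
    have h2 : ∀ j ∈ Finset.range n, ∑ i : Fin n, (b i * z j ^ (i : ℕ)) • gs j =
        (if j = 0 then (1 : Kbar) else 0) • gs j := by
      intro j hj
      rw [← Finset.sum_smul]
      congr 1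
      exact hb ⟨j, Finset.mem_range.mp hj⟩
    rw [Finset.sum_congr rfl h2]
    simp only [ite_smul, one_smul, zero_smul]
    rw [Finset.sum_ite_eq' (Finset.range n) 0 gs, if_pos (Finset.mem_range.mpr hn), hgs0]
  rw [hinv]
  exact Submodule.sum_mem _ fun i _ => Submodule.smul_mem _ _ (Submodule.subset_span (hTS i))

end trace

end Fermat.Agent.P5
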