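import Fermat.Agent.P5.H88RedDiv
import Fermat.Agent.P5.H60Place
import Fermat.Agent.P5.H94Surj

/-!
# Wave 5, pillar (P), block GEO-RR-SF, leaf S4 = RED-DIV: the unconditional statement (helper94)

`h94s_redDiv : H13sRedDiv` (`P5/H13SFIface.lean`), from the assembly `h88r_redDiv_of`
(helper88, `P5/H88RedDiv.lean`), PLACE `h60q_place` (helper60, `P5/H60Place.lean`) and SURJ
`h94s_surj_of_place` (`P5/H94Surj.lean`).
-/

set_option autoImplicit false

namespace Fermat.Agent.P5

/-- **SURJ**, unconditional. -/
theorem h94s_surjTop : H88rSurj :=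
  h94s_surj_of_place h60q_place

/-- **RED-DIV**, unconditional: the reduction map of places exists at every good level. -/
theorem h94s_redDiv : H13sRedDiv :=
  h88r_redDiv_of h60q_place h94s_surjTop

end Fermat.Agent.P5
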