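import Mathlib

/-!
# P5 (wave 5), S32 lattice comparison: Cayley–Hamilton algebras of degree two (helper95)

Mathlib only.

* `H95mCH c t` : `E` is a Cayley–Hamilton algebra of degree `2` over `T` with trace `t`
  (`2 c = 1`): `t (x y) = t (y x)` and `x² - t(x) x + c (t(x)² - t(x²)) = 0` for all `x`.
* `h95m_ch_injective` : a Cayley–Hamilton algebra of degree `2` with a surjective, trace
  compatible homomorphism `ρ : E → M₂(T)` is `M₂(T)`: `ρ` is injective.
  (No completeness, no reducedness: the kernel is nil, the idempotent `e₁₁` lifts by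
  `3 e² - 2 e³`, the corners `e₁ E e₁`, `e₂ E e₂` are `T e₁`, `T e₂` by the polarised
  Cayley–Hamilton identity, and `E = T e₁ + T a + T b + T e₂`.)
* `h95m_transfer`, `h95m_transfer_sum` : `G` a group, `ρ : G → M₂(T)` with `T`-span `M₂(T)`,
  `σ : G → End_T X` such that every `g` satisfies `g² - tr ρ(g) g + det ρ(g) = 0` on `X`:
  every `T`-linear relation between the `ρ g` holds between the `σ g`.
  (The polarised identities on `X` follow from the identities at group elements and the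
  `2 × 2` trace identity `tr A tr B = tr (A B) + tr (adj B · A)`.)
* `h95m_exists_hom` : hence `X` is a module over `M₂(T)`: there is a homomorphism of
  `T`-algebras `Φ : M₂(T) → End_T X` with `Φ (ρ g) = σ g`.
-/

set_option autoImplicit false
set_option linter.unusedVariables false
set_option linter.unusedSectionVars false

open Matrix

namespace Fermat.Agent.P5

section CH1

variable {T : Type*} [CommRing T] {E : Type*} [Ring E] [Algebra T E]

/-- a Cayley–Hamilton algebra of degree `2` with trace `t` (`c = 1/2`). -/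
structure H95mCH (c : T) (t : E →ₗ[T] T) : Prop where
  two : 2 * c = 1
  comm : ∀ x y : E, t (x * y) = t (y * x)
  ch : ∀ x : E, x * x - t x • x + (c * (t x ^ 2 - t (x * x))) • (1 : E) = 0

variable {c : T} {t : E →ₗ[T] T}

/-- in the corner of an idempotent of trace-one complement, `z² = t(z) z`. -/
theorem h95m_sq_of_corner (h : H95mCH c t) (e₂ : E) (ht₂ : t e₂ = 1) (z : E)
    (hz : e₂ * z = 0) : z * z = t z • z := by
  have h1 := h.ch z
  have h2 : e₂ * (z * z - t z • z + (c * (t z ^ 2 - t (z * z))) • (1 : E)) = 0 := by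
    rw [h1, mul_zero]
  rw [mul_add, mul_sub, ← mul_assoc, hz, zero_mul, mul_smul_comm, hz, smul_zero, sub_zero,
    zero_add, mul_smul_comm, mul_one] at h2
  have h3 := congrArg t h2
  rw [map_smul, ht₂, smul_eq_mul, mul_one, map_zero] at h3
  rw [h3, zero_smul, add_zero] at h1
  exact sub_eq_zero.mp h1

/-- the corner `e₁ E e₁` is `T e₁`. -/
theorem h95m_corner (h : H95mCH c t) (e₁ e₂ : E) (h12 : e₂ * e₁ = 0)
    (he₁ : e₁ * e₁ = e₁) (ht₁ : t e₁ = 1) (ht₂ : t e₂ = 1) (y : E)
    (hy₁ : e₁ * y = y) (hy₂ : y * e₁ = y) : y = t y • e₁ := by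
  have hz : e₂ * y = 0 := by rw [← hy₁, ← mul_assoc, h12, zero_mul]
  have h1 := h95m_sq_of_corner h e₂ ht₂ y hz
  have hz' : e₂ * (y + e₁) = 0 := by rw [mul_add, hz, h12, add_zero]
  have h2 := h95m_sq_of_corner h e₂ ht₂ (y + e₁) hz'
  rw [map_add, ht₁] at h2
  have h3 : (y + e₁) * (y + e₁) = y * y + y + y + e₁ := by
    rw [add_mul, mul_add, mul_add, hy₂, hy₁, he₁]
    abel
  rw [h3, h1, add_smul, smul_add, smul_add, one_smul, one_smul] at h2
  -- t y • y + y + y + e₁ = t y • y + t y • e₁ + (y + e₁)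
  have h4 : y = t y • e₁ := by
    have := congrArg (fun w => w - t y • y - y - e₁) h2
    beta_reduce at this
    have l : t y • y + y + y + e₁ - t y • y - y - e₁ = y := by abel
    have r : t y • y + t y • e₁ + (y + e₁) - t y • y - y - e₁ = t y • e₁ := by abel
    rw [l, r] at this
    exact this
  exact h4

/-- elements of the kernel of a trace-compatible homomorphism square to zero. -/
theorem h95m_ker_sq (h : H95mCH c t) (ρ : E →ₐ[T] Matrix (Fin 2) (Fin 2) T)
    (htr : ∀ x, Matrix.trace (ρ x) = t x) (n : E) (hn : ρ n = 0) : n * n = 0 := by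
  have h1 := h.ch n
  have t1 : t n = 0 := by rw [← htr, hn, Matrix.trace_zero]
  have t2 : t (n * n) = 0 := by rw [← htr, map_mul, hn, mul_zero, Matrix.trace_zero]
  rw [t1, t2] at h1
  simpa using h1

/-- lifting an idempotent through a square-zero defect: `3 x² - 2 x³`. -/
theorem h95m_lift_idem (x : E) (hn : (x * x - x) * (x * x - x) = 0) :
    (3 * x ^ 2 - 2 * x ^ 3) * (3 * x ^ 2 - 2 * x ^ 3) = 3 * x ^ 2 - 2 * x ^ 3 := by
  have key : (3 * x ^ 2 - 2 * x ^ 3) * (3 * x ^ 2 - 2 * x ^ 3) - (3 * x ^ 2 - 2 * x ^ 3)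
      = - ((x * x - x) * (x * x - x)) * ((3 - 2 * x) * (1 + 2 * x)) := by
    noncomm_ring
  rw [hn, neg_zero, zero_mul] at key
  exact sub_eq_zero.mp key

/-- **a Cayley–Hamilton algebra of degree `2` which maps onto `M₂(T)` compatibly with the
traces is `M₂(T)`.** -/
theorem h95m_ch_injective (h : H95mCH c t) (ρ : E →ₐ[T] Matrix (Fin 2) (Fin 2) T)
    (hρ : Function.Surjective ρ) (htr : ∀ x, Matrix.trace (ρ x) = t x) :
    Function.Injective ρ := by
  -- the matrix units
  obtain ⟨x₀, hx₀⟩ := hρ (Matrix.single 0 0 1)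
  obtain ⟨a₀, ha₀⟩ := hρ (Matrix.single 0 1 1)
  obtain ⟨b₀, hb₀⟩ := hρ (Matrix.single 1 0 1)
  have hE11 : (Matrix.single (0 : Fin 2) (0 : Fin 2) (1 : T)) * Matrix.single 0 0 1
      = Matrix.single 0 0 1 := by
    rw [Matrix.single_mul_single_same, mul_one]
  -- the idempotent `e₁`
  have hn : (x₀ * x₀ - x₀) * (x₀ * x₀ - x₀) = 0 := by
    apply h95m_ker_sq h ρ htr
    rw [map_sub, map_mul, hx₀, hE11, sub_self]
  obtain ⟨e₁, he₁def⟩ : ∃ e : E, e = 3 * x₀ ^ 2 - 2 * x₀ ^ 3 := ⟨_, rfl⟩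
  have he₁ : e₁ * e₁ = e₁ := by rw [he₁def]; exact h95m_lift_idem x₀ hn
  have hS2 : (Matrix.single (0 : Fin 2) (0 : Fin 2) (1 : T)) ^ 2 = Matrix.single 0 0 1 := by
    rw [pow_two, hE11]
  have hS3 : (Matrix.single (0 : Fin 2) (0 : Fin 2) (1 : T)) ^ 3 = Matrix.single 0 0 1 := by
    rw [pow_succ, hS2, hE11]
  have hρe₁ : ρ e₁ = Matrix.single 0 0 1 := by
    rw [he₁def, map_sub, map_mul, map_mul, map_pow, map_pow, hx₀, hS2, hS3, map_ofNat,
      map_ofNat]
    have h3 : (3 : Matrix (Fin 2) (Fin 2) T) = 2 + 1 := by norm_num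
    rw [h3, add_mul, one_mul]
    abel
  obtain ⟨e₂, he₂def⟩ : ∃ e : E, e = 1 - e₁ := ⟨_, rfl⟩
  have he₂ : e₂ * e₂ = e₂ := by
    have : (1 - e₁) * (1 - e₁) = 1 - e₁ - e₁ + e₁ * e₁ := by noncomm_ring
    rw [he₂def, this, he₁]
    abel
  have h12 : e₁ * e₂ = 0 := by rw [he₂def, mul_sub, mul_one, he₁, sub_self]
  have h21 : e₂ * e₁ = 0 := by rw [he₂def, sub_mul, one_mul, he₁, sub_self]
  have hsum : e₁ + e₂ = 1 := by rw [he₂def]; abel
  have ht₁ : t e₁ = 1 := by
    rw [← htr, hρe₁, Matrix.trace_single_eq_same]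
  have ht1 : t (1 : E) = 2 := by
    rw [← htr, map_one, Matrix.trace_one, Fintype.card_fin]
    norm_num
  have ht₂ : t e₂ = 1 := by
    rw [he₂def, map_sub, ht1, ht₁]
    norm_num
  have hρe₂ : ρ e₂ = Matrix.single 1 1 1 := by
    rw [he₂def, map_sub, map_one, hρe₁]
    ext i j
    fin_cases i <;> fin_cases j <;> simp [Matrix.single]
  -- the off-diagonal units
  obtain ⟨a, hadef⟩ : ∃ a : E, a = e₁ * a₀ * e₂ := ⟨_, rfl⟩
  obtain ⟨b, hbdef⟩ : ∃ b : E, b = e₂ * b₀ * e₁ := ⟨_, rfl⟩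
  have hρa : ρ a = Matrix.single 0 1 1 := by
    rw [hadef, map_mul, map_mul, hρe₁, ha₀, hρe₂, Matrix.single_mul_single_same,
      Matrix.single_mul_single_same, mul_one, mul_one]
  have hρb : ρ b = Matrix.single 1 0 1 := by
    rw [hbdef, map_mul, map_mul, hρe₂, hb₀, hρe₁, Matrix.single_mul_single_same,
      Matrix.single_mul_single_same, mul_one, mul_one]
  have hab : a * b = e₁ := by
    have h1 : a * b = t (a * b) • e₁ := by
      apply h95m_corner h e₁ e₂ h21 he₁ ht₁ ht₂
      · rw [hadef]; simp only [← mul_assoc, he₁]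
      · rw [hbdef]; simp only [mul_assoc, he₁]
    have h2 : t (a * b) = 1 := by
      rw [← htr, map_mul, hρa, hρb, Matrix.single_mul_single_same, mul_one,
        Matrix.trace_single_eq_same]
    rw [h1, h2, one_smul]
  have hba : b * a = e₂ := by
    have h1 : b * a = t (b * a) • e₂ := by
      apply h95m_corner h e₂ e₁ h12 he₂ ht₂ ht₁
      · rw [hbdef]; simp only [← mul_assoc, he₂]
      · rw [hadef]; simp only [mul_assoc, he₂]
    have h2 : t (b * a) = 1 := by
      rw [← htr, map_mul, hρa, hρb, Matrix.single_mul_single_same, mul_one,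
        Matrix.trace_single_eq_same]
    rw [h1, h2, one_smul]
  -- the kernel is zero
  rw [injective_iff_map_eq_zero]
  intro x hx
  have hker : ∀ u v : E, t (u * x * v) = 0 := by
    intro u v
    rw [← htr, map_mul, map_mul, hx, mul_zero, zero_mul, Matrix.trace_zero]
  have c11 : e₁ * x * e₁ = 0 := by
    have := h95m_corner h e₁ e₂ h21 he₁ ht₁ ht₂ (e₁ * x * e₁)
      (by simp only [← mul_assoc, he₁]) (by simp only [mul_assoc, he₁])
    rw [this, hker, zero_smul]
  have c22 : e₂ * x * e₂ = 0 := by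
    have := h95m_corner h e₂ e₁ h12 he₂ ht₂ ht₁ (e₂ * x * e₂)
      (by simp only [← mul_assoc, he₂]) (by simp only [mul_assoc, he₂])
    rw [this, hker, zero_smul]
  have hbe₁ : b * e₁ = b := by rw [hbdef]; simp only [mul_assoc, he₁]
  have hae₂ : a * e₂ = a := by rw [hadef]; simp only [mul_assoc, he₂]
  have c12 : e₁ * x * e₂ = 0 := by
    have h1 : e₁ * x * e₂ = (e₁ * (x * b) * e₁) * a := by
      rw [← hba]
      simp only [mul_assoc]
      rw [← mul_assoc b e₁ a, hbe₁]
    have h2 := h95m_corner h e₁ e₂ h21 he₁ ht₁ ht₂ (e₁ * (x * b) * e₁)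
      (by simp only [← mul_assoc, he₁]) (by simp only [mul_assoc, he₁])
    have h3 : t (e₁ * (x * b) * e₁) = 0 := by
      have := hker e₁ (b * e₁)
      simpa only [mul_assoc] using this
    rw [h1, h2, h3, zero_smul, zero_mul]
  have c21 : e₂ * x * e₁ = 0 := by
    have h1 : e₂ * x * e₁ = (e₂ * (x * a) * e₂) * b := by
      rw [← hab]
      simp only [mul_assoc]
      rw [← mul_assoc a e₂ b, hae₂]
    have h2 := h95m_corner h e₂ e₁ h12 he₂ ht₂ ht₁ (e₂ * (x * a) * e₂)
      (by simp only [← mul_assoc, he₂]) (by simp only [mul_assoc, he₂])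
    have h3 : t (e₂ * (x * a) * e₂) = 0 := by
      have := hker e₂ (a * e₂)
      simpa only [mul_assoc] using this
    rw [h1, h2, h3, zero_smul, zero_mul]
  have hx' : x = e₁ * x * e₁ + e₁ * x * e₂ + e₂ * x * e₁ + e₂ * x * e₂ := by
    have h1 : (e₁ + e₂) * x * (e₁ + e₂) = x := by rw [hsum, one_mul, mul_one]
    have h2 : (e₁ + e₂) * x * (e₁ + e₂)
        = e₁ * x * e₁ + e₁ * x * e₂ + e₂ * x * e₁ + e₂ * x * e₂ := by
      noncomm_ring
    exact h1.symm.trans h2
  rw [hx', c11, c12, c21, c22]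
  simp

end CH1

/-! ## Matrices of size two -/

section Mat

variable {T : Type*} [CommRing T]

/-- `tr A · tr B = tr (A B) + tr (adj B · A)` for `2 × 2` matrices. -/
theorem h95m_trace_identity (A B : Matrix (Fin 2) (Fin 2) T) :
    trace A * trace B = trace (A * B) + trace (adjugate B * A) := by
  simp only [Matrix.trace_fin_two, Matrix.adjugate_fin_two, Matrix.mul_apply, Fin.sum_univ_two,
    Matrix.of_apply, Matrix.cons_val', Matrix.cons_val_zero, Matrix.cons_val_one,
    Matrix.empty_val', Matrix.cons_val_fin_one]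
  ring

/-- `c (tr A² - tr (A²)) = det A` for `2 c = 1`. -/
theorem h95m_det_eq (c : T) (hc : 2 * c = 1) (A : Matrix (Fin 2) (Fin 2) T) :
    c * (trace A ^ 2 - trace (A * A)) = det A := by
  have : trace A ^ 2 - trace (A * A) = 2 * det A := by
    simp only [Matrix.trace_fin_two, Matrix.det_fin_two, Matrix.mul_apply, Fin.sum_univ_two]
    ring
  rw [this, ← mul_assoc, mul_comm c 2, hc, one_mul]

/-- Cayley–Hamilton for `2 × 2` matrices, in trace form. -/
theorem h95m_ch_matrix (c : T) (hc : 2 * c = 1) (A : Matrix (Fin 2) (Fin 2) T) :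
    A * A - trace A • A + (c * (trace A ^ 2 - trace (A * A))) • (1 : Matrix (Fin 2) (Fin 2) T)
      = 0 := by
  rw [h95m_det_eq c hc]
  ext i j
  fin_cases i <;> fin_cases j <;>
    simp [Matrix.mul_apply, Fin.sum_univ_two, Matrix.trace_fin_two, Matrix.det_fin_two] <;> ring

end Mat

/-! ## The transfer -/

section CH2

variable {T : Type*} [CommRing T] {G : Type*} [Group G]
  {X : Type*} [AddCommGroup X] [Module T X]

/-- the polarised Cayley–Hamilton form on `M₂(T) × End X`. -/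
def h95mB (y y' : Matrix (Fin 2) (Fin 2) T × Module.End T X) : Module.End T X :=
  y.2 * y'.2 + y'.2 * y.2 - trace y.1 • y'.2 - trace y'.1 • y.2
    + (trace y.1 * trace y'.1 - trace (y.1 * y'.1)) • (1 : Module.End T X)

theorem h95mB_comm (y y' : Matrix (Fin 2) (Fin 2) T × Module.End T X) :
    h95mB y y' = h95mB y' y := by
  unfold h95mB
  rw [Matrix.trace_mul_comm y.1 y'.1, mul_comm (trace y.1) (trace y'.1)]
  abel

theorem h95mB_zero_left (y' : Matrix (Fin 2) (Fin 2) T × Module.End T X) :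
    h95mB 0 y' = 0 := by
  unfold h95mB
  simp

theorem h95mB_add_left (y₁ y₂ y' : Matrix (Fin 2) (Fin 2) T × Module.End T X) :
    h95mB (y₁ + y₂) y' = h95mB y₁ y' + h95mB y₂ y' := by
  unfold h95mB
  simp only [Prod.fst_add, Prod.snd_add, add_mul, mul_add, Matrix.trace_add, add_smul, smul_add,
    sub_smul]
  abel

theorem h95mB_smul_left (a : T) (y y' : Matrix (Fin 2) (Fin 2) T × Module.End T X) :
    h95mB (a • y) y' = a • h95mB y y' := by
  unfold h95mB
  simp only [Prod.smul_fst, Prod.smul_snd, Matrix.trace_smul, smul_eq_mul, smul_mul_assoc,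
    mul_smul_comm, smul_add, smul_sub, mul_smul, mul_assoc, ← mul_sub]
  congr 1
  congr 1
  rw [smul_comm]

/-- the operator form of the Cayley–Hamilton identity at a group element. -/
theorem h95m_op (ρ : G →* Matrix (Fin 2) (Fin 2) T) (σ : G →* Module.End T X)
    (hCH : ∀ g : G, σ g * σ g - trace (ρ g) • σ g + det (ρ g) • (1 : Module.End T X) = 0)
    (g : G) : σ g + det (ρ g) • σ g⁻¹ = trace (ρ g) • (1 : Module.End T X) := by
  have h1 := congrArg (fun w => σ g⁻¹ * w) (hCH g)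
  beta_reduce at h1
  have h2 : σ g⁻¹ * σ g = 1 := by rw [← map_mul, inv_mul_cancel, map_one]
  rw [mul_add, mul_sub, ← mul_assoc, h2, one_mul, mul_smul_comm, h2, mul_smul_comm, mul_one,
    mul_zero] at h1
  have h3 : σ g + det (ρ g) • σ g⁻¹ - trace (ρ g) • (1 : Module.End T X) = 0 := by
    rw [← h1]; abel
  exact sub_eq_zero.mp h3

/-- the polarised identity at a pair of group elements. -/
theorem h95mB_group (ρ : G →* Matrix (Fin 2) (Fin 2) T) (σ : G →* Module.End T X)
    (hCH : ∀ g : G, σ g * σ g - trace (ρ g) • σ g + det (ρ g) • (1 : Module.End T X) = 0)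
    (g h : G) : h95mB (ρ g, σ g) (ρ h, σ h) = 0 := by
  unfold h95mB
  simp only
  have og := h95m_op ρ σ hCH g
  have oh := h95m_op ρ σ hCH h
  have ou := h95m_op ρ σ hCH (h⁻¹ * g)
  -- `t_g σ_h` and `t_h σ_g`
  have e1 : trace (ρ g) • σ h = σ g * σ h + det (ρ g) • σ (g⁻¹ * h) := by
    have := congrArg (fun w => w * σ h) og
    beta_reduce at this
    rw [add_mul, smul_mul_assoc, smul_mul_assoc, one_mul, ← map_mul σ g⁻¹ h] at this
    exact this.symm
  have e2 : trace (ρ h) • σ g = σ h * σ g + det (ρ h) • σ (h⁻¹ * g) := by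
    have := congrArg (fun w => w * σ g) oh
    beta_reduce at this
    rw [add_mul, smul_mul_assoc, smul_mul_assoc, one_mul, ← map_mul σ h⁻¹ g] at this
    exact this.symm
  -- the determinant is multiplicative
  have hdet : det (ρ h) * det (ρ (h⁻¹ * g)) = det (ρ g) := by
    rw [← Matrix.det_mul, ← map_mul, mul_inv_cancel_left]
  have hinv : (h⁻¹ * g)⁻¹ = g⁻¹ * h := by rw [_root_.mul_inv_rev, inv_inv]
  rw [hinv] at ou
  have e3 : det (ρ h) • σ (h⁻¹ * g) + det (ρ g) • σ (g⁻¹ * h)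
      = (det (ρ h) * trace (ρ (h⁻¹ * g))) • (1 : Module.End T X) := by
    rw [mul_smul, ← ou, smul_add, smul_smul, hdet]
  -- the trace identity
  have hadj : adjugate (ρ h) = det (ρ h) • ρ h⁻¹ := by
    have h1 : adjugate (ρ h) * ρ h = det (ρ h) • (1 : Matrix (Fin 2) (Fin 2) T) :=
      Matrix.adjugate_mul _
    have h2 : ρ h * ρ h⁻¹ = 1 := by rw [← map_mul, mul_inv_cancel, map_one]
    calc adjugate (ρ h) = adjugate (ρ h) * (ρ h * ρ h⁻¹) := by rw [h2, mul_one]
      _ = (adjugate (ρ h) * ρ h) * ρ h⁻¹ := by rw [mul_assoc]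
      _ = det (ρ h) • ρ h⁻¹ := by rw [h1, Matrix.smul_mul, one_mul]
  have htr : trace (ρ g) * trace (ρ h) - trace (ρ g * ρ h)
      = det (ρ h) * trace (ρ (h⁻¹ * g)) := by
    rw [h95m_trace_identity (ρ g) (ρ h), hadj, Matrix.smul_mul, Matrix.trace_smul, smul_eq_mul,
      ← map_mul, ← map_mul]
    ring
  rw [htr, ← e3, e1, e2]
  abel

/-- the pairs `(ρ g, σ g)`. -/
def h95mS (ρ : G →* Matrix (Fin 2) (Fin 2) T) (σ : G →* Module.End T X) :
    Set (Matrix (Fin 2) (Fin 2) T × Module.End T X) :=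
  Set.range (fun g => (ρ g, σ g))

/-- the polarised identity on the span of the pairs `(ρ g, σ g)`. -/
theorem h95mB_span (ρ : G →* Matrix (Fin 2) (Fin 2) T) (σ : G →* Module.End T X)
    (hCH : ∀ g : G, σ g * σ g - trace (ρ g) • σ g + det (ρ g) • (1 : Module.End T X) = 0)
    (y y' : Matrix (Fin 2) (Fin 2) T × Module.End T X)
    (hy : y ∈ Submodule.span T (h95mS ρ σ)) (hy' : y' ∈ Submodule.span T (h95mS ρ σ)) :
    h95mB y y' = 0 := by
  have step : ∀ h : G, ∀ z ∈ Submodule.span T (h95mS ρ σ), h95mB z (ρ h, σ h) = 0 := by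
    intro h z hz
    induction hz using Submodule.span_induction with
    | mem z hz =>
      obtain ⟨g, rfl⟩ := hz
      exact h95mB_group ρ σ hCH g h
    | zero => exact h95mB_zero_left _
    | add z₁ z₂ _ _ h1 h2 => rw [h95mB_add_left, h1, h2, add_zero]
    | smul a z _ h1 => rw [h95mB_smul_left, h1, smul_zero]
  induction hy' using Submodule.span_induction with
  | mem z hz =>
    obtain ⟨h, rfl⟩ := hz
    exact step h y hy
  | zero => rw [h95mB_comm, h95mB_zero_left]
  | add z₁ z₂ _ _ h1 h2 => rw [h95mB_comm, h95mB_add_left, h95mB_comm z₁, h95mB_comm z₂, h1, h2,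
      add_zero]
  | smul a z _ h1 => rw [h95mB_comm, h95mB_smul_left, h95mB_comm z, h1, smul_zero]

/-- the Cayley–Hamilton identity on the span of the pairs `(ρ g, σ g)`. -/
theorem h95m_ch_span (c : T) (hc : 2 * c = 1)
    (ρ : G →* Matrix (Fin 2) (Fin 2) T) (σ : G →* Module.End T X)
    (hCH : ∀ g : G, σ g * σ g - trace (ρ g) • σ g + det (ρ g) • (1 : Module.End T X) = 0)
    (y : Matrix (Fin 2) (Fin 2) T × Module.End T X)
    (hy : y ∈ Submodule.span T (h95mS ρ σ)) :
    y.2 * y.2 - trace y.1 • y.2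
      + (c * (trace y.1 ^ 2 - trace (y.1 * y.1))) • (1 : Module.End T X) = 0 := by
  have h := h95mB_span ρ σ hCH y y hy hy
  unfold h95mB at h
  have e : (2 : T) * (c * (trace y.1 ^ 2 - trace (y.1 * y.1)))
      = trace y.1 * trace y.1 - trace (y.1 * y.1) := by
    rw [← mul_assoc, hc, one_mul, pow_two]
  have h2 : (2 : T) • (y.2 * y.2 - trace y.1 • y.2
      + (c * (trace y.1 ^ 2 - trace (y.1 * y.1))) • (1 : Module.End T X)) = 0 := by
    rw [smul_add, smul_sub, smul_smul, smul_smul, e, two_smul, two_mul, add_smul, ← h]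
    abel
  have h3 := congrArg (fun w => c • w) h2
  beta_reduce at h3
  rw [smul_smul, mul_comm c 2, hc, one_smul, smul_zero] at h3
  exact h3

/-- the pairs `(ρ g, σ g)` form a submonoid, so the algebra they generate is their span. -/
theorem h95m_adjoin_eq_span (ρ : G →* Matrix (Fin 2) (Fin 2) T) (σ : G →* Module.End T X) :
    Subalgebra.toSubmodule (Algebra.adjoin T (h95mS ρ σ)) = Submodule.span T (h95mS ρ σ) := by
  rw [Algebra.adjoin_eq_span]
  congr 1
  have : h95mS ρ σ = ((MonoidHom.mrange (MonoidHom.prod ρ σ) :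
      Submonoid (Matrix (Fin 2) (Fin 2) T × Module.End T X)) : Set _) := by
    ext y
    simp [h95mS]
  rw [this, Submonoid.closure_eq]

/-- the algebra generated by the pairs `(ρ g, σ g)`. -/
def h95mE (ρ : G →* Matrix (Fin 2) (Fin 2) T) (σ : G →* Module.End T X) :
    Subalgebra T (Matrix (Fin 2) (Fin 2) T × Module.End T X) :=
  Algebra.adjoin T (h95mS ρ σ)

theorem h95m_mem_E (ρ : G →* Matrix (Fin 2) (Fin 2) T) (σ : G →* Module.End T X)
    (z : Matrix (Fin 2) (Fin 2) T × Module.End T X) :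
    z ∈ h95mE ρ σ ↔ z ∈ Submodule.span T (h95mS ρ σ) := by
  rw [← h95m_adjoin_eq_span ρ σ]
  exact Iff.rfl

/-- the first projection of `h95mE`. -/
def h95mFst (ρ : G →* Matrix (Fin 2) (Fin 2) T) (σ : G →* Module.End T X) :
    h95mE ρ σ →ₐ[T] Matrix (Fin 2) (Fin 2) T :=
  (AlgHom.fst T (Matrix (Fin 2) (Fin 2) T) (Module.End T X)).comp (h95mE ρ σ).val

/-- the second projection of `h95mE`. -/
def h95mSnd (ρ : G →* Matrix (Fin 2) (Fin 2) T) (σ : G →* Module.End T X) :
    h95mE ρ σ →ₐ[T] Module.End T X :=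
  (AlgHom.snd T (Matrix (Fin 2) (Fin 2) T) (Module.End T X)).comp (h95mE ρ σ).val

theorem h95m_fst_surjective (ρ : G →* Matrix (Fin 2) (Fin 2) T) (σ : G →* Module.End T X)
    (hspan : Submodule.span T (Set.range ρ) = ⊤) : Function.Surjective (h95mFst ρ σ) := by
  intro m
  have hm : m ∈ Submodule.map (LinearMap.fst T (Matrix (Fin 2) (Fin 2) T) (Module.End T X))
      (Submodule.span T (h95mS ρ σ)) := by
    rw [Submodule.map_span]
    have : (LinearMap.fst T (Matrix (Fin 2) (Fin 2) T) (Module.End T X)) '' (h95mS ρ σ)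
        = Set.range ρ := by
      ext z
      simp [h95mS]
    rw [this, hspan]
    exact Submodule.mem_top
  obtain ⟨z, hz, rfl⟩ := hm
  exact ⟨⟨z, (h95m_mem_E ρ σ z).mpr hz⟩, rfl⟩

/-- **the algebra generated by the pairs `(ρ g, σ g)` is `M₂(T)`.** -/
theorem h95m_fst_injective (c : T) (hc : 2 * c = 1)
    (ρ : G →* Matrix (Fin 2) (Fin 2) T) (σ : G →* Module.End T X)
    (hspan : Submodule.span T (Set.range ρ) = ⊤)
    (hCH : ∀ g : G, σ g * σ g - trace (ρ g) • σ g + det (ρ g) • (1 : Module.End T X) = 0) :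
    Function.Injective (h95mFst ρ σ) := by
  let t : h95mE ρ σ →ₗ[T] T :=
    (Matrix.traceLinearMap (Fin 2) T T).comp
      ((LinearMap.fst T (Matrix (Fin 2) (Fin 2) T) (Module.End T X)).comp
        (h95mE ρ σ).val.toLinearMap)
  have ht : ∀ x : h95mE ρ σ,
      t x = trace (x : Matrix (Fin 2) (Fin 2) T × Module.End T X).1 := fun _ => rfl
  have hch : H95mCH c t := by
    refine ⟨hc, fun x y => ?_, fun x => ?_⟩
    · rw [ht, ht]
      exact Matrix.trace_mul_comm _ _
    · apply Subtype.ext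
      apply Prod.ext
      · have := h95m_ch_matrix c hc (x : Matrix (Fin 2) (Fin 2) T × Module.End T X).1
        simpa [ht] using this
      · have := h95m_ch_span c hc ρ σ hCH x ((h95m_mem_E ρ σ _).mp x.2)
        simpa [ht] using this
  exact h95m_ch_injective hch (h95mFst ρ σ) (h95m_fst_surjective ρ σ hspan) (fun x => rfl)

/-- **the transfer**: if the `T`-span of `ρ(G)` is `M₂(T)` and every `g ∈ G` satisfies its
Cayley–Hamilton identity on `X`, then every relation between the `ρ g` holds between the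
`σ g`. -/
theorem h95m_transfer (c : T) (hc : 2 * c = 1)
    (ρ : G →* Matrix (Fin 2) (Fin 2) T) (σ : G →* Module.End T X)
    (hspan : Submodule.span T (Set.range ρ) = ⊤)
    (hCH : ∀ g : G, σ g * σ g - trace (ρ g) • σ g + det (ρ g) • (1 : Module.End T X) = 0)
    (y : Matrix (Fin 2) (Fin 2) T × Module.End T X)
    (hy : y ∈ Submodule.span T (h95mS ρ σ)) (h1 : y.1 = 0) : y.2 = 0 := by
  have hinj := h95m_fst_injective c hc ρ σ hspan hCH
  have hy0 : (⟨y, (h95m_mem_E ρ σ y).mpr hy⟩ : h95mE ρ σ) = 0 := by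
    apply hinj
    rw [map_zero]
    exact h1
  have := congrArg
    (fun w : h95mE ρ σ => (w : Matrix (Fin 2) (Fin 2) T × Module.End T X).2) hy0
  simpa using this

/-- **the `M₂(T)`-module structure on `X`**: a homomorphism of `T`-algebras
`Φ : M₂(T) → End_T X` with `Φ (ρ g) = σ g`. -/
theorem h95m_exists_hom (c : T) (hc : 2 * c = 1)
    (ρ : G →* Matrix (Fin 2) (Fin 2) T) (σ : G →* Module.End T X)
    (hspan : Submodule.span T (Set.range ρ) = ⊤)
    (hCH : ∀ g : G, σ g * σ g - trace (ρ g) • σ g + det (ρ g) • (1 : Module.End T X) = 0) :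
    ∃ Φ : Matrix (Fin 2) (Fin 2) T →ₐ[T] Module.End T X, ∀ g : G, Φ (ρ g) = σ g := by
  let e : h95mE ρ σ ≃ₐ[T] Matrix (Fin 2) (Fin 2) T :=
    AlgEquiv.ofBijective (h95mFst ρ σ)
      ⟨h95m_fst_injective c hc ρ σ hspan hCH, h95m_fst_surjective ρ σ hspan⟩
  refine ⟨(h95mSnd ρ σ).comp (e.symm : Matrix (Fin 2) (Fin 2) T →ₐ[T] h95mE ρ σ), fun g => ?_⟩
  have hg : ((ρ g, σ g) : Matrix (Fin 2) (Fin 2) T × Module.End T X) ∈ h95mE ρ σ :=
    Algebra.subset_adjoin ⟨g, rfl⟩
  have h1 : e ⟨(ρ g, σ g), hg⟩ = ρ g := rfl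
  have h2 : e.symm (ρ g) = ⟨(ρ g, σ g), hg⟩ := by
    apply e.injective
    rw [AlgEquiv.apply_symm_apply, h1]
  change h95mSnd ρ σ (e.symm (ρ g)) = σ g
  rw [h2]
  rfl

/-- the transfer, for finite sums. -/
theorem h95m_transfer_sum (c : T) (hc : 2 * c = 1)
    (ρ : G →* Matrix (Fin 2) (Fin 2) T) (σ : G →* Module.End T X)
    (hspan : Submodule.span T (Set.range ρ) = ⊤)
    (hCH : ∀ g : G, σ g * σ g - trace (ρ g) • σ g + det (ρ g) • (1 : Module.End T X) = 0)
    (s : Finset G) (a : G → T) (h : ∑ g ∈ s, a g • ρ g = 0) : ∑ g ∈ s, a g • σ g = 0 := by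
  have hy : (∑ g ∈ s, a g • ((ρ g, σ g) : Matrix (Fin 2) (Fin 2) T × Module.End T X))
      ∈ Submodule.span T (h95mS ρ σ) :=
    Submodule.sum_mem _ (fun g _ => Submodule.smul_mem _ _ (Submodule.subset_span ⟨g, rfl⟩))
  have h1 := h95m_transfer c hc ρ σ hspan hCH _ hy (by
    rw [Prod.fst_sum]
    simpa using h)
  rw [Prod.snd_sum] at h1
  simpa using h1

end CH2

end Fermat.Agent.P5
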