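import Fermat.Agent.P5.H96LawIface
import Fermat.Agent.P5.H96ClosIface

/-!
# P5 (wave 5, S19): block GEO-LAW, frozen LEAVES (sub-architect helper96)

Chain: `H96wCramer` (leaf A1) → `H96wAdd` (leaf A2: `H96wCramer → H96wAdd`) →
`H96LawStatement` (leaf B: `H96wAdd → H96LawStatement`).

* `h96w_X A c i x` : the `i`-th coordinate of `x ∈ J¹` in the chart `c` (junk value `0` when `x`
  has no coordinate).
* `h96w_R A c S` : the `A`-algebra of functions on the finite set `S ⊆ J¹` generated by the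
  coordinates.
* `H96wCramer` : for a link `c → c'` and finite `S, S' ⊆ J¹` there are coefficient functions
  `co j ∈ R(S) ⊗ R(S')` such that `bs + ∑ co_j(x, y) b_j` vanishes on `D_x + D_y` (in the
  DIVISION form required by `H96Link.step`), congruent modulo the maximal ideal to the constant
  solution `co0` at the centre.
* `H96wAdd` : `(x, y) ↦ X^{c'}_i (-(x + y))` lies in `R(S) ⊗ R(S')`.
-/

set_option autoImplicit false

open AlgebraicCurve ModularCurve

noncomputable section

namespace Fermat.Agent.P5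

open Fermat.Agent.S37

variable {M : ℕ} [NeZero M] {g : ℕ}

open Classical in
/-- the `i`-th coordinate of `x` in the chart `c` (junk value `0` if there is none). -/
def h96w_X (A : ValuationSubring Kbar) (c : H96Chart M g) (i : Fin g) (x : JZero M) : Kbar :=
  if h : ∃ a, c.IsCoord A x i a then h.choose else 0

/-- the algebra of functions on `S` generated over `A` by the coordinates of the chart `c`. -/
def h96w_R (A : ValuationSubring Kbar) (c : H96Chart M g) (S : Set (JZero M)) :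
    Subalgebra A (↥S → Kbar) :=
  Algebra.adjoin A (Set.range fun j : Fin g => fun x : ↥S => h96w_X A c j (x : JZero M))

/-- **LEAF A1 (Cramer).** -/
def H96wCramer : Prop :=
  ∀ (M : ℕ) [NeZero M] (A : ValuationSubring Kbar) (ℓ : ℕ), ℓ.Prime → A.LiesOverPrime ℓ →
  ∀ (g : ℕ) (c c' : H96Chart M g), c.Valid A → c'.Valid A → ∀ L : H96Link A c c',
  ∀ (S S' : Set (JZero M)), S.Finite → S'.Finite → S ⊆ redKerPic M A → S' ⊆ redKerPic M A →
    ∃ (co : Fin g ⊕ Fin g → (↥S × ↥S' → Kbar)) (co0 : Fin g ⊕ Fin g → Kbar),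
      (∀ j, co j ∈ h96c_prod A (h96w_R A c S) (h96w_R A c S')) ∧
      (∀ j, co0 j ∈ A) ∧
      (∀ j p, co j p - co0 j ∈ A.nonunits) ∧
      (∀ i, ∃ h ∈ c.O i, L.bs + ∑ j, cst M (co0 j) * L.b j = c.t i * c.t i * h) ∧
      ∀ (p : ↥S × ↥S') (P P' : Fin g → Place Kbar (FF M)),
        (∀ i, SameRed A (P i) (c.Q i)) → (∀ i, SameRed A (P' i) (c.Q i)) →
        h96m_IsCls (p.1 : JZero M) P c.Q → h96m_IsCls (p.2 : JZero M) P' c.Q →
        ∀ i, ∃ h ∈ c.O i, ∃ a a', ValueAt (P i) (c.t i) a ∧ ValueAt (P' i) (c.t i) a' ∧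
          L.bs + ∑ j, cst M (co j p) * L.b j = (c.t i - cst M a) * (c.t i - cst M a') * h

/-- **TARGET of leaves A1 + A2 (the pointwise group law).** -/
def H96wAdd : Prop :=
  ∀ (M : ℕ) [NeZero M] (A : ValuationSubring Kbar) (ℓ : ℕ), ℓ.Prime → A.LiesOverPrime ℓ →
  ∀ (g : ℕ) (c c' : H96Chart M g), c.Valid A → c'.Valid A → Nonempty (H96Link A c c') →
  ∀ (S S' : Set (JZero M)), S.Finite → S'.Finite → S ⊆ redKerPic M A → S' ⊆ redKerPic M A →
  ∀ i : Fin g,
    (fun p : ↥S × ↥S' => h96w_X A c' i (-((p.1 : JZero M) + (p.2 : JZero M)))) ∈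
      h96c_prod A (h96w_R A c S) (h96w_R A c S')

/-- **LEAF A2 (Newton).** -/
def H96wNewtonStep : Prop := H96wCramer → H96wAdd

/-- **LEAF B (order bookkeeping).** -/
def H96wOrderStep : Prop := H96wAdd → H96LawStatement

end Fermat.Agent.P5
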