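import Mathlib
import Fermat.Agent.P5.H96ClosIface

/-!
# P5 / GEO-LAW: Sweedler calculus over a valuation subring (helper96)

`h96o_Sw A R R' F` : the function of two variables `F` is a finite sum of products `a(x) b(y)`,
`a ∈ R`, `b ∈ R'`.  Closure properties, and `h96o_sw_of_mem_prod` (elements of `h96c_prod`).
-/

set_option autoImplicit false

namespace Fermat.Agent.P5

variable {K : Type} [Field K] (A : ValuationSubring K) {X Y : Type}

/-- Sweedler form. -/
def h96o_Sw (R : Subalgebra A (X → K)) (R' : Subalgebra A (Y → K)) (F : X → Y → K) : Prop :=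
  ∃ (ι : Type) (_ : Fintype ι) (a : ι → X → K) (b : ι → Y → K),
    (∀ i, a i ∈ R) ∧ (∀ i, b i ∈ R') ∧ ∀ x y, F x y = ∑ i, a i x * b i y

variable {A} {R : Subalgebra A (X → K)} {R' : Subalgebra A (Y → K)}

theorem h96o_sw_tmul {a : X → K} {b : Y → K} (ha : a ∈ R) (hb : b ∈ R') :
    h96o_Sw A R R' (fun x y => a x * b y) :=
  ⟨Unit, inferInstance, fun _ => a, fun _ => b, fun _ => ha, fun _ => hb, fun x y => by simp⟩

theorem h96o_sw_zero : h96o_Sw A R R' (fun _ _ => 0) :=
  ⟨Empty, inferInstance, fun e => e.elim, fun e => e.elim, fun e => e.elim, fun e => e.elim,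
    fun x y => by simp⟩

theorem h96o_sw_congr {F G : X → Y → K} (hF : h96o_Sw A R R' F) (h : ∀ x y, G x y = F x y) :
    h96o_Sw A R R' G := by
  obtain ⟨ι, inst, a, b, ha, hb, hab⟩ := hF
  exact ⟨ι, inst, a, b, ha, hb, fun x y => (h x y).trans (hab x y)⟩

theorem h96o_sw_add {F G : X → Y → K} (hF : h96o_Sw A R R' F) (hG : h96o_Sw A R R' G) :
    h96o_Sw A R R' (fun x y => F x y + G x y) := by
  obtain ⟨ι, inst, a, b, ha, hb, hab⟩ := hF
  obtain ⟨κ, inst', a', b', ha', hb', hab'⟩ := hG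
  refine ⟨ι ⊕ κ, inferInstance, Sum.elim a a', Sum.elim b b', ?_, ?_, fun x y => ?_⟩
  · rintro (i | i)
    · exact ha i
    · exact ha' i
  · rintro (i | i)
    · exact hb i
    · exact hb' i
  · show F x y + G x y = ∑ i : ι ⊕ κ, Sum.elim a a' i x * Sum.elim b b' i y
    rw [Fintype.sum_sum_type, hab, hab']
    simp

theorem h96o_sw_mul {F G : X → Y → K} (hF : h96o_Sw A R R' F) (hG : h96o_Sw A R R' G) :
    h96o_Sw A R R' (fun x y => F x y * G x y) := by
  obtain ⟨ι, inst, a, b, ha, hb, hab⟩ := hF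
  obtain ⟨κ, inst', a', b', ha', hb', hab'⟩ := hG
  refine ⟨ι × κ, inferInstance, fun p => a p.1 * a' p.2, fun p => b p.1 * b' p.2,
    fun p => R.mul_mem (ha p.1) (ha' p.2), fun p => R'.mul_mem (hb p.1) (hb' p.2), fun x y => ?_⟩
  show F x y * G x y = ∑ p : ι × κ, (a p.1 * a' p.2) x * (b p.1 * b' p.2) y
  rw [hab, hab', Finset.sum_mul_sum, Fintype.sum_prod_type]
  refine Finset.sum_congr rfl fun i _ => Finset.sum_congr rfl fun j _ => ?_
  simp only [Pi.mul_apply]
  ring

theorem h96o_sw_sum {κ : Type} (s : Finset κ) {F : κ → X → Y → K}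
    (hF : ∀ k ∈ s, h96o_Sw A R R' (F k)) :
    h96o_Sw A R R' (fun x y => ∑ k ∈ s, F k x y) := by
  classical
  induction s using Finset.induction_on with
  | empty => exact h96o_sw_congr h96o_sw_zero fun x y => by simp
  | insert k s hk ih =>
    have h1 := h96o_sw_add (hF k (Finset.mem_insert_self k s))
      (ih fun j hj => hF j (Finset.mem_insert_of_mem hj))
    exact h96o_sw_congr h1 fun x y => by rw [Finset.sum_insert hk]

theorem h96o_sw_const (r : A) : h96o_Sw A R R' (fun _ _ => (r : K)) := by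
  have h1 : (fun _ : X => (r : K)) ∈ R := by
    have := R.algebraMap_mem r
    exact this
  have h2 : (fun _ : Y => (1 : K)) ∈ R' := R'.one_mem
  exact h96o_sw_congr (h96o_sw_tmul h1 h2) fun x y => by simp

/-- elements of the product algebra are in Sweedler form. -/
theorem h96o_sw_of_mem_prod {F : X × Y → K} (hF : F ∈ h96c_prod A R R') :
    h96o_Sw A R R' (fun x y => F (x, y)) := by
  unfold h96c_prod at hF
  induction hF using Algebra.adjoin_induction with
  | mem f hf =>
    rcases hf with ⟨a, ha, rfl⟩ | ⟨b, hb, rfl⟩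
    · exact h96o_sw_congr (h96o_sw_tmul ha R'.one_mem) fun x y => by simp
    · exact h96o_sw_congr (h96o_sw_tmul R.one_mem hb) fun x y => by simp
  | algebraMap r => exact h96o_sw_const r
  | add f g _ _ hf hg => exact h96o_sw_add hf hg
  | mul f g _ _ hf hg => exact h96o_sw_mul hf hg

/-- from the `Fintype` form to the `Fin n` form. -/
theorem h96o_sw_fin {F : X → Y → K} (hF : h96o_Sw A R R' F) :
    ∃ (n : ℕ) (a : Fin n → X → K) (b : Fin n → Y → K),
      (∀ i, a i ∈ R) ∧ (∀ i, b i ∈ R') ∧ ∀ x y, F x y = ∑ i, a i x * b i y := by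
  obtain ⟨ι, inst, a, b, ha, hb, hab⟩ := hF
  let e := Fintype.equivFin ι
  refine ⟨Fintype.card ι, fun i => a (e.symm i), fun i => b (e.symm i), fun i => ha _,
    fun i => hb _, fun x y => ?_⟩
  rw [hab]
  exact (Equiv.sum_comp e.symm fun i => a i x * b i y).symm

end Fermat.Agent.P5
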