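import Fermat.Agent.P5.H96LawBasic
import Fermat.Agent.P5.H96LawSw

/-!
# P5 / GEO-LAW, leaf B: the local order from the pointwise group law (helper96)

`h96o_orderStep : H96wOrderStep` (`= H96wAdd → H96LawStatement`).

Generators on `T = J₀(M)[m]`: the idempotents `1_{c₀ + J¹}` and the coordinate functions
`y ↦ X^c_i (ε (y - c₀))`, `ε = ± 1`, `c ∈ 𝒞`, `c₀` inertia-fixed.
-/

set_option autoImplicit false

open AlgebraicCurve ModularCurve

noncomputable section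

namespace Fermat.Agent.P5

open Fermat.Agent.S37

variable {M : ℕ} [NeZero M] {g : ℕ} {A : ValuationSubring Kbar}

/-- the torsion module. -/
abbrev h96o_T (M : ℕ) [NeZero M] (m : ℤ) : Type := ↥(Submodule.torsionBy ℤ (JZero M) m)

open Classical in
/-- the idempotent of the residue class of `c₀`. -/
def h96o_gIdem (A : ValuationSubring Kbar) (m : ℤ) (c₀ : JZero M) : h96o_T M m → Kbar :=
  fun y => if (y : JZero M) - c₀ ∈ redKerPic M A then 1 else 0

/-- the coordinate generator `y ↦ X^c_i (ε (y - c₀))`. -/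
def h96o_gSign (A : ValuationSubring Kbar) (m : ℤ) (ε : ℤˣ) (c : H96Chart M g) (i : Fin g)
    (c₀ : JZero M) : h96o_T M m → Kbar :=
  fun y => h96w_X A c i ((ε : ℤ) • ((y : JZero M) - c₀))

/-- the generating set of the local order. -/
def h96o_G (A : ValuationSubring Kbar) (m : ℤ) (𝒞 : Set (H96Chart M g)) :
    Set (h96o_T M m → Kbar) :=
  {f | ∃ c₀ : JZero M, (∀ σ ∈ A.inertiaSubgroupIn ℚ, σ • c₀ = c₀) ∧
    (f = h96o_gIdem A m c₀ ∨ ∃ c ∈ 𝒞, ∃ (i : Fin g) (ε : ℤˣ), f = h96o_gSign A m ε c i c₀)}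

theorem h96o_units_smul_mem_iff (ε : ℤˣ) (z : JZero M) :
    (ε : ℤ) • z ∈ redKerPic M A ↔ z ∈ redKerPic M A := by
  rcases Int.units_eq_one_or ε with h | h
  · rw [h]; simp
  · rw [h]; simp

theorem h96o_conj_mem {τ σ : GQ} (hτ : τ ∈ A.decompositionSubgroup ℚ)
    (hσ : σ ∈ A.inertiaSubgroupIn ℚ) : τ⁻¹ * σ * τ ∈ A.inertiaSubgroupIn ℚ := by
  obtain ⟨i', hi', rfl⟩ := hσ
  refine ⟨(⟨τ, hτ⟩ : A.decompositionSubgroup ℚ)⁻¹ * i' * (⟨τ, hτ⟩ : A.decompositionSubgroup ℚ),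
    ?_, rfl⟩
  have hn : (A.inertiaSubgroup ℚ).Normal := by
    unfold ValuationSubring.inertiaSubgroup
    exact MonoidHom.normal_ker _
  have := hn.conj_mem i' hi' (⟨τ, hτ⟩ : A.decompositionSubgroup ℚ)⁻¹
  simpa using this

theorem h96o_smul_fixed {τ : GQ} (hτ : τ ∈ A.decompositionSubgroup ℚ) {c₀ : JZero M}
    (hc₀ : ∀ σ ∈ A.inertiaSubgroupIn ℚ, σ • c₀ = c₀) :
    ∀ σ ∈ A.inertiaSubgroupIn ℚ, σ • (τ • c₀) = τ • c₀ := by
  intro σ hσ
  have h1 := hc₀ _ (h96o_conj_mem hτ hσ)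
  have h2 : σ • τ • c₀ = τ • ((τ⁻¹ * σ * τ) • c₀) := by
    rw [← mul_smul, ← mul_smul]
    congr 1
    group
  rw [h2, h1]

/-- `J¹` is stable under inertia (both directions). -/
theorem h96o_inert_mem_iff (hI : ∀ σ ∈ A.inertiaSubgroupIn ℚ, ∀ x : JZero M,
    σ • x - x ∈ redKerPic M A) {σ : GQ} (hσ : σ ∈ A.inertiaSubgroupIn ℚ) (x : JZero M) :
    σ • x ∈ redKerPic M A ↔ x ∈ redKerPic M A := by
  have h := hI σ hσ x
  constructor
  · intro h1
    have : x = σ • x - (σ • x - x) := by abel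
    rw [this]
    exact sub_mem h1 h
  · intro h1
    have : σ • x = (σ • x - x) + x := by abel
    rw [this]
    exact add_mem h h1

theorem h96o_decomp_mem_iff (hD : ∀ τ ∈ A.decompositionSubgroup ℚ, ∀ x ∈ redKerPic M A,
    τ • x ∈ redKerPic M A) {τ : GQ} (hτ : τ ∈ A.decompositionSubgroup ℚ) (x : JZero M) :
    τ • x ∈ redKerPic M A ↔ x ∈ redKerPic M A := by
  constructor
  · intro h1
    have := hD τ⁻¹ (inv_mem hτ) _ h1
    rwa [inv_smul_smul] at this
  · exact hD τ hτ x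

theorem h96o_smul_zsmul (τ : GQ) (n : ℤ) (z : JZero M) : τ • (n • z) = n • (τ • z) :=
  map_zsmul (DistribSMul.toAddMonoidHom (JZero M) τ) n z

theorem h96o_smul_sub' (τ : GQ) (y z : JZero M) : τ • (y - z) = τ • y - τ • z :=
  map_sub (DistribSMul.toAddMonoidHom (JZero M) τ) y z

/-! ### the fields `int`, `inert`, `decomp`, `sep` -/

section Fields

variable {m : ℤ} {𝒞 : Set (H96Chart M g)}

theorem h96o_G_int (hV : ∀ c ∈ 𝒞, c.Valid A) :
    ∀ f ∈ h96o_G A m 𝒞, ∀ y, f y ∈ A := by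
  rintro f ⟨c₀, -, rfl | ⟨c, hc, i, ε, rfl⟩⟩ y
  · unfold h96o_gIdem
    split_ifs
    · exact A.one_mem
    · exact A.zero_mem
  · exact h96o_X_mem (hV c hc) _ i

theorem h96o_G_inert (hV : ∀ c ∈ 𝒞, c.Valid A)
    (hI : ∀ σ ∈ A.inertiaSubgroupIn ℚ, ∀ x : JZero M, σ • x - x ∈ redKerPic M A) :
    ∀ f ∈ h96o_G A m 𝒞, ∀ σ ∈ A.inertiaSubgroupIn ℚ, ∀ y, f (h96m_act M m σ y) = σ (f y) := by
  rintro f ⟨c₀, hc₀, rfl | ⟨c, hc, i, ε, rfl⟩⟩ σ hσ y
  · unfold h96o_gIdem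
    have h1 : ((h96m_act M m σ y : h96o_T M m) : JZero M) - c₀ = σ • ((y : JZero M) - c₀) := by
      rw [h96m_act_coe, h96o_smul_sub', hc₀ σ hσ]
    rw [h1]
    by_cases h2 : (y : JZero M) - c₀ ∈ redKerPic M A
    · rw [if_pos ((h96o_inert_mem_iff hI hσ _).2 h2), if_pos h2, map_one]
    · rw [if_neg (fun h => h2 ((h96o_inert_mem_iff hI hσ _).1 h)), if_neg h2, map_zero]
  · unfold h96o_gSign
    have h1 : (ε : ℤ) • (((h96m_act M m σ y : h96o_T M m) : JZero M) - c₀) =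
        σ • ((ε : ℤ) • ((y : JZero M) - c₀)) := by
      rw [h96m_act_coe, h96o_smul_zsmul, h96o_smul_sub', hc₀ σ hσ]
    rw [h1]
    exact h96o_X_inert (hV c hc) hσ _ i

theorem h96o_G_decomp (hV : ∀ c ∈ 𝒞, c.Valid A)
    (hDec : ∀ τ ∈ A.decompositionSubgroup ℚ, ∀ c ∈ 𝒞, ∃ cτ ∈ 𝒞,
      ∀ (x : JZero M) (i : Fin g) (a : Kbar), c.IsCoord A x i a → cτ.IsCoord A (τ • x) i (τ a))
    (hD : ∀ τ ∈ A.decompositionSubgroup ℚ, ∀ x ∈ redKerPic M A, τ • x ∈ redKerPic M A) :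
    ∀ f ∈ h96o_G A m 𝒞, ∀ τ ∈ A.decompositionSubgroup ℚ,
      (fun y => τ (f (h96m_act M m τ⁻¹ y))) ∈ h96o_G A m 𝒞 := by
  rintro f ⟨c₀, hc₀, rfl | ⟨c, hc, i, ε, rfl⟩⟩ τ hτ
  · refine ⟨τ • c₀, h96o_smul_fixed hτ hc₀, Or.inl ?_⟩
    funext y
    unfold h96o_gIdem
    have h1 : ((h96m_act M m τ⁻¹ y : h96o_T M m) : JZero M) - c₀ =
        τ⁻¹ • ((y : JZero M) - τ • c₀) := by
      rw [h96m_act_coe, h96o_smul_sub', inv_smul_smul]
    rw [h1]
    by_cases h2 : (y : JZero M) - τ • c₀ ∈ redKerPic M A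
    · rw [if_pos ((h96o_decomp_mem_iff hD (inv_mem hτ) _).2 h2), if_pos h2, map_one]
    · rw [if_neg (fun h => h2 ((h96o_decomp_mem_iff hD (inv_mem hτ) _).1 h)), if_neg h2,
        map_zero]
  · obtain ⟨cτ, hcτ, htr⟩ := hDec τ hτ c hc
    refine ⟨τ • c₀, h96o_smul_fixed hτ hc₀, Or.inr ⟨cτ, hcτ, i, ε, ?_⟩⟩
    funext y
    unfold h96o_gSign
    have h1 : (ε : ℤ) • ((y : JZero M) - τ • c₀) =
        τ • ((ε : ℤ) • (((h96m_act M m τ⁻¹ y : h96o_T M m) : JZero M) - c₀)) := by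
      rw [h96m_act_coe, h96o_smul_zsmul, h96o_smul_sub', smul_inv_smul]
    rw [h1]
    exact (h96o_X_transport (hV c hc) (hV cτ hcτ) htr
      (fun x hx => (h96o_decomp_mem_iff hD hτ x).1 hx) _ i).symm

theorem h96o_G_sep (hV : ∀ c ∈ 𝒞, c.Valid A) (hne : ∃ c, c ∈ 𝒞)
    (hL : ∀ y : JZero M, ∃ c₀ : JZero M, (∀ σ ∈ A.inertiaSubgroupIn ℚ, σ • c₀ = c₀) ∧
      y - c₀ ∈ redKerPic M A) :
    ∀ y y' : h96o_T M m, (∀ f ∈ h96o_G A m 𝒞, f y = f y') → y = y' := by
  intro y y' h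
  obtain ⟨c₀, hc₀, hy⟩ := hL (y : JZero M)
  obtain ⟨c, hc⟩ := hne
  have h1 := h (h96o_gIdem A m c₀) ⟨c₀, hc₀, Or.inl rfl⟩
  unfold h96o_gIdem at h1
  rw [if_pos hy] at h1
  have hy' : (y' : JZero M) - c₀ ∈ redKerPic M A := by
    by_contra hn
    rw [if_neg hn] at h1
    exact one_ne_zero h1
  have h2 : (y : JZero M) - c₀ = (y' : JZero M) - c₀ := by
    refine h96o_X_inj (hV c hc) hy hy' fun i => ?_
    have h3 := h (h96o_gSign A m 1 c i c₀) ⟨c₀, hc₀, Or.inr ⟨c, hc, i, 1, rfl⟩⟩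
    unfold h96o_gSign at h3
    simpa using h3
  exact Subtype.ext (sub_left_injective h2)

end Fields

/-! ### the field `comul` -/

section Comul

variable {m : ℤ} {𝒞 : Set (H96Chart M g)}

theorem h96o_gIdem_mem_adjoin {c₀ : JZero M} (hc₀ : ∀ σ ∈ A.inertiaSubgroupIn ℚ, σ • c₀ = c₀) :
    h96o_gIdem A m c₀ ∈ Algebra.adjoin A (h96o_G A m 𝒞) :=
  Algebra.subset_adjoin ⟨c₀, hc₀, Or.inl rfl⟩

theorem h96o_gSign_mem_adjoin {c₀ : JZero M} (hc₀ : ∀ σ ∈ A.inertiaSubgroupIn ℚ, σ • c₀ = c₀)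
    {c : H96Chart M g} (hc : c ∈ 𝒞) (i : Fin g) (ε : ℤˣ) :
    h96o_gSign A m ε c i c₀ ∈ Algebra.adjoin A (h96o_G A m 𝒞) :=
  Algebra.subset_adjoin ⟨c₀, hc₀, Or.inr ⟨c, hc, i, ε, rfl⟩⟩

theorem h96o_fixed_sub {c₀ c₁ : JZero M} (hc₀ : ∀ σ ∈ A.inertiaSubgroupIn ℚ, σ • c₀ = c₀)
    (hc₁ : ∀ σ ∈ A.inertiaSubgroupIn ℚ, σ • c₁ = c₁) :
    ∀ σ ∈ A.inertiaSubgroupIn ℚ, σ • (c₀ - c₁) = c₀ - c₁ := by
  intro σ hσ
  rw [h96o_smul_sub', hc₀ σ hσ, hc₁ σ hσ]

open Classical in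
/-- the pull-back of a function on `S` along `y ↦ δ (y - c₁)`, extended by `0`. -/
def h96o_pull (m : ℤ) (δ : ℤˣ) (c₁ : JZero M) (S : Set (JZero M)) (α : ↥S → Kbar) :
    h96o_T M m → Kbar :=
  fun y => if h : (δ : ℤ) • ((y : JZero M) - c₁) ∈ S then α ⟨_, h⟩ else 0

theorem h96o_pull_pos {δ : ℤˣ} {c₁ : JZero M} {S : Set (JZero M)} (α : ↥S → Kbar)
    {y : h96o_T M m} (h : (δ : ℤ) • ((y : JZero M) - c₁) ∈ S) :
    h96o_pull m δ c₁ S α y = α ⟨_, h⟩ := by
  unfold h96o_pull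
  rw [dif_pos h]

theorem h96o_pull_neg {δ : ℤˣ} {c₁ : JZero M} {S : Set (JZero M)} (α : ↥S → Kbar)
    {y : h96o_T M m} (h : (δ : ℤ) • ((y : JZero M) - c₁) ∉ S) :
    h96o_pull m δ c₁ S α y = 0 := by
  unfold h96o_pull
  rw [dif_neg h]

/-- pull-backs of elements of `h96w_R` lie in the algebra generated by `h96o_G`. -/
theorem h96o_pull_mem {c : H96Chart M g} (hc : c ∈ 𝒞) {c₁ : JZero M}
    (hc₁ : ∀ σ ∈ A.inertiaSubgroupIn ℚ, σ • c₁ = c₁) (δ : ℤˣ) (S : Set (JZero M))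
    (hS : ∀ y : h96o_T M m, (δ : ℤ) • ((y : JZero M) - c₁) ∈ S ↔
      (y : JZero M) - c₁ ∈ redKerPic M A)
    {α : ↥S → Kbar} (hα : α ∈ h96w_R A c S) :
    h96o_pull m δ c₁ S α ∈ Algebra.adjoin A (h96o_G A m 𝒞) := by
  unfold h96w_R at hα
  induction hα using Algebra.adjoin_induction with
  | mem f hf =>
    obtain ⟨j, rfl⟩ := hf
    have h1 : h96o_pull m δ c₁ S (fun x : ↥S => h96w_X A c j (x : JZero M)) =
        h96o_gSign A m δ c j c₁ := by
      funext y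
      by_cases h : (δ : ℤ) • ((y : JZero M) - c₁) ∈ S
      · rw [h96o_pull_pos _ h]
        rfl
      · rw [h96o_pull_neg _ h]
        have h2 : (δ : ℤ) • ((y : JZero M) - c₁) ∉ redKerPic M A := fun h3 =>
          h ((hS y).2 ((h96o_units_smul_mem_iff δ _).1 h3))
        exact (h96o_X_of_not_mem c h2 j).symm
    rw [h1]
    exact h96o_gSign_mem_adjoin hc₁ hc j δ
  | algebraMap r =>
    have h1 : h96o_pull m δ c₁ S (algebraMap A (↥S → Kbar) r) = r • h96o_gIdem A m c₁ := by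
      funext y
      by_cases h : (δ : ℤ) • ((y : JZero M) - c₁) ∈ S
      · rw [h96o_pull_pos _ h]
        show (r : Kbar) = r • h96o_gIdem A m c₁ y
        unfold h96o_gIdem
        rw [if_pos ((hS y).1 h)]
        show (r : Kbar) = (r : Kbar) * 1
        rw [mul_one]
      · rw [h96o_pull_neg _ h]
        show (0 : Kbar) = r • h96o_gIdem A m c₁ y
        unfold h96o_gIdem
        rw [if_neg (fun h3 => h ((hS y).2 h3))]
        show (0 : Kbar) = (r : Kbar) * 0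
        rw [mul_zero]
    rw [h1]
    exact Subalgebra.smul_mem _ (h96o_gIdem_mem_adjoin hc₁) r
  | add f f' _ _ hf hf' =>
    have h1 : h96o_pull m δ c₁ S (f + f') = h96o_pull m δ c₁ S f + h96o_pull m δ c₁ S f' := by
      funext y
      by_cases h : (δ : ℤ) • ((y : JZero M) - c₁) ∈ S
      · rw [Pi.add_apply, h96o_pull_pos _ h, h96o_pull_pos _ h, h96o_pull_pos _ h]
        rfl
      · rw [Pi.add_apply, h96o_pull_neg _ h, h96o_pull_neg _ h, h96o_pull_neg _ h, add_zero]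
    rw [h1]
    exact add_mem hf hf'
  | mul f f' _ _ hf hf' =>
    have h1 : h96o_pull m δ c₁ S (f * f') = h96o_pull m δ c₁ S f * h96o_pull m δ c₁ S f' := by
      funext y
      by_cases h : (δ : ℤ) • ((y : JZero M) - c₁) ∈ S
      · rw [Pi.mul_apply, h96o_pull_pos _ h, h96o_pull_pos _ h, h96o_pull_pos _ h]
        rfl
      · rw [Pi.mul_apply, h96o_pull_neg _ h, h96o_pull_neg _ h, h96o_pull_neg _ h, mul_zero]
    rw [h1]
    exact mul_mem hf hf'

open Classical in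
/-- **one residue class, idempotents**. -/
theorem h96o_sw_idem {c₀ c₁ : JZero M} (hc₀ : ∀ σ ∈ A.inertiaSubgroupIn ℚ, σ • c₀ = c₀)
    (hc₁ : ∀ σ ∈ A.inertiaSubgroupIn ℚ, σ • c₁ = c₁) :
    h96o_Sw A (Algebra.adjoin A (h96o_G A m 𝒞)) (Algebra.adjoin A (h96o_G A m 𝒞))
      (fun y y' : h96o_T M m => if (y : JZero M) - c₁ ∈ redKerPic M A then
        h96o_gIdem A m c₀ (y + y') else 0) := by
  refine h96o_sw_congr (h96o_sw_tmul (h96o_gIdem_mem_adjoin (m := m) (𝒞 := 𝒞) hc₁)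
    (h96o_gIdem_mem_adjoin (m := m) (𝒞 := 𝒞) (h96o_fixed_sub hc₀ hc₁))) fun y y' => ?_
  unfold h96o_gIdem
  by_cases h1 : (y : JZero M) - c₁ ∈ redKerPic M A
  · rw [if_pos h1, if_pos h1, one_mul]
    have h2 : ((y + y' : h96o_T M m) : JZero M) - c₀ =
        ((y : JZero M) - c₁) + ((y' : JZero M) - (c₀ - c₁)) := by
      push_cast
      abel
    by_cases h3 : (y' : JZero M) - (c₀ - c₁) ∈ redKerPic M A
    · rw [if_pos h3, if_pos (by rw [h2]; exact add_mem h1 h3)]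
    · rw [if_neg h3, if_neg]
      intro h4
      apply h3
      have : (y' : JZero M) - (c₀ - c₁) =
          (((y + y' : h96o_T M m) : JZero M) - c₀) - ((y : JZero M) - c₁) := by
        rw [h2]; abel
      rw [this]
      exact sub_mem h4 h1
  · rw [if_neg h1, if_neg h1, zero_mul]

open Classical in
/-- **one residue class, coordinates**: the only place where the group law is used. -/
theorem h96o_sw_sign [Finite (h96o_T M m)] (hAdd : H96wAdd) {ℓ : ℕ} (hℓ : ℓ.Prime)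
    (hA : A.LiesOverPrime ℓ) (hV : ∀ c ∈ 𝒞, c.Valid A)
    (hLink : ∀ c' ∈ 𝒞, ∃ c ∈ 𝒞, Nonempty (H96Link A c c'))
    {c' : H96Chart M g} (hc' : c' ∈ 𝒞) (i : Fin g) (ε : ℤˣ)
    {c₀ c₁ : JZero M} (hc₀ : ∀ σ ∈ A.inertiaSubgroupIn ℚ, σ • c₀ = c₀)
    (hc₁ : ∀ σ ∈ A.inertiaSubgroupIn ℚ, σ • c₁ = c₁) :
    h96o_Sw A (Algebra.adjoin A (h96o_G A m 𝒞)) (Algebra.adjoin A (h96o_G A m 𝒞))
      (fun y y' : h96o_T M m => if (y : JZero M) - c₁ ∈ redKerPic M A then
        h96o_gSign A m ε c' i c₀ (y + y') else 0) := by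
  obtain ⟨c, hc, hlink⟩ := hLink c' hc'
  set δ : ℤˣ := -ε with hδ
  set c₁' : JZero M := c₀ - c₁ with hc₁'
  have hfix' : ∀ σ ∈ A.inertiaSubgroupIn ℚ, σ • c₁' = c₁' := h96o_fixed_sub hc₀ hc₁
  set S : Set (JZero M) :=
    {z | z ∈ redKerPic M A ∧ ∃ y : h96o_T M m, z = (δ : ℤ) • ((y : JZero M) - c₁)} with hSdef
  set S' : Set (JZero M) :=
    {z | z ∈ redKerPic M A ∧ ∃ y : h96o_T M m, z = (δ : ℤ) • ((y : JZero M) - c₁')} with hS'def
  have hSfin : S.Finite :=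
    (Set.finite_range fun y : h96o_T M m => (δ : ℤ) • ((y : JZero M) - c₁)).subset
      (by rintro z ⟨-, y, rfl⟩; exact ⟨y, rfl⟩)
  have hS'fin : S'.Finite :=
    (Set.finite_range fun y : h96o_T M m => (δ : ℤ) • ((y : JZero M) - c₁')).subset
      (by rintro z ⟨-, y, rfl⟩; exact ⟨y, rfl⟩)
  have hSsub : S ⊆ redKerPic M A := fun z hz => hz.1
  have hS'sub : S' ⊆ redKerPic M A := fun z hz => hz.1
  have hS : ∀ y : h96o_T M m, (δ : ℤ) • ((y : JZero M) - c₁) ∈ S ↔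
      (y : JZero M) - c₁ ∈ redKerPic M A := fun y =>
    ⟨fun h => (h96o_units_smul_mem_iff δ _).1 h.1,
      fun h => ⟨(h96o_units_smul_mem_iff δ _).2 h, y, rfl⟩⟩
  have hS' : ∀ y : h96o_T M m, (δ : ℤ) • ((y : JZero M) - c₁') ∈ S' ↔
      (y : JZero M) - c₁' ∈ redKerPic M A := fun y =>
    ⟨fun h => (h96o_units_smul_mem_iff δ _).1 h.1,
      fun h => ⟨(h96o_units_smul_mem_iff δ _).2 h, y, rfl⟩⟩
  have hF := hAdd M A ℓ hℓ hA g c c' (hV c hc) (hV c' hc') hlink S S' hSfin hS'fin hSsub hS'sub i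
  obtain ⟨ι, inst, a, b, ha, hb, hab⟩ := h96o_sw_of_mem_prod hF
  refine ⟨ι, inst, fun k => h96o_pull m δ c₁ S (a k), fun k => h96o_pull m δ c₁' S' (b k),
    fun k => h96o_pull_mem hc hc₁ δ S hS (ha k), fun k => h96o_pull_mem hc hfix' δ S' hS' (hb k),
    fun y y' => ?_⟩
  beta_reduce
  have hsum : ((y + y' : h96o_T M m) : JZero M) - c₀ =
      ((y : JZero M) - c₁) + ((y' : JZero M) - c₁') := by
    rw [hc₁']
    push_cast
    abel
  by_cases h1 : (y : JZero M) - c₁ ∈ redKerPic M A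
  · rw [if_pos h1]
    by_cases h3 : (y' : JZero M) - c₁' ∈ redKerPic M A
    · have e1 := (hS y).2 h1
      have e2 := (hS' y').2 h3
      have h4 := hab ⟨_, e1⟩ ⟨_, e2⟩
      have h5 : ∀ k, h96o_pull m δ c₁ S (a k) y * h96o_pull m δ c₁' S' (b k) y' =
          a k ⟨_, e1⟩ * b k ⟨_, e2⟩ := fun k => by
        rw [h96o_pull_pos _ e1, h96o_pull_pos _ e2]
      rw [Finset.sum_congr rfl fun k _ => h5 k, ← h4]
      unfold h96o_gSign
      congr 1
      rw [hsum]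
      show (ε : ℤ) • (((y : JZero M) - c₁) + ((y' : JZero M) - c₁')) =
        -((δ : ℤ) • ((y : JZero M) - c₁) + (δ : ℤ) • ((y' : JZero M) - c₁'))
      have hδ' : (δ : ℤ) = -(ε : ℤ) := by rw [hδ]; simp
      rw [hδ', neg_smul, neg_smul, zsmul_add]
      abel
    · have h5 : ∀ k, h96o_pull m δ c₁ S (a k) y * h96o_pull m δ c₁' S' (b k) y' = 0 :=
        fun k => by
          rw [h96o_pull_neg (b k) (fun h => h3 ((hS' y').1 h)), mul_zero]
      rw [Finset.sum_congr rfl fun k _ => h5 k, Finset.sum_const_zero]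
      unfold h96o_gSign
      refine h96o_X_of_not_mem c' ?_ i
      intro h6
      apply h3
      have h7 := (h96o_units_smul_mem_iff ε _).1 h6
      have : (y' : JZero M) - c₁' =
          (((y + y' : h96o_T M m) : JZero M) - c₀) - ((y : JZero M) - c₁) := by
        rw [hsum]; abel
      rw [this]
      exact sub_mem h7 h1
  · rw [if_neg h1]
    have h5 : ∀ k, h96o_pull m δ c₁ S (a k) y * h96o_pull m δ c₁' S' (b k) y' = 0 :=
      fun k => by
        rw [h96o_pull_neg (a k) (fun h => h1 ((hS y).1 h)), zero_mul]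
    rw [Finset.sum_congr rfl fun k _ => h5 k, Finset.sum_const_zero]

open Classical in
/-- partition into residue classes. -/
theorem h96o_sw_partition [Finite (h96o_T M m)]
    (hL : ∀ y : JZero M, ∃ c₀ : JZero M, (∀ σ ∈ A.inertiaSubgroupIn ℚ, σ • c₀ = c₀) ∧
      y - c₀ ∈ redKerPic M A)
    (f : h96o_T M m → Kbar)
    (h : ∀ c₁ : JZero M, (∀ σ ∈ A.inertiaSubgroupIn ℚ, σ • c₁ = c₁) →
      h96o_Sw A (Algebra.adjoin A (h96o_G A m 𝒞)) (Algebra.adjoin A (h96o_G A m 𝒞))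
        (fun y y' : h96o_T M m => if (y : JZero M) - c₁ ∈ redKerPic M A then f (y + y')
          else 0)) :
    h96o_Sw A (Algebra.adjoin A (h96o_G A m 𝒞)) (Algebra.adjoin A (h96o_G A m 𝒞))
      (fun y y' : h96o_T M m => f (y + y')) := by
  let s : Setoid (h96o_T M m) :=
    { r := fun y y' => (y : JZero M) - (y' : JZero M) ∈ redKerPic M A
      iseqv :=
        { refl := fun y => by
            show (y : JZero M) - (y : JZero M) ∈ redKerPic M A
            rw [sub_self]; exact zero_mem _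
          symm := fun {y y'} hyy => by
            show (y' : JZero M) - (y : JZero M) ∈ redKerPic M A
            have h1 : (y' : JZero M) - (y : JZero M) = -((y : JZero M) - (y' : JZero M)) := by
              abel
            rw [h1]; exact neg_mem hyy
          trans := fun {y y' y''} h1 h2 => by
            show (y : JZero M) - (y'' : JZero M) ∈ redKerPic M A
            have h3 : (y : JZero M) - (y'' : JZero M) =
                ((y : JZero M) - (y' : JZero M)) + ((y' : JZero M) - (y'' : JZero M)) := by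
              abel
            rw [h3]; exact add_mem h1 h2 } }
  have : Finite (Quotient s) := Quotient.finite s
  let _ : Fintype (Quotient s) := Fintype.ofFinite _
  let lam : Quotient s → JZero M := fun q => (hL ((Quotient.out q : h96o_T M m) : JZero M)).choose
  have hlam_fix : ∀ q, ∀ σ ∈ A.inertiaSubgroupIn ℚ, σ • lam q = lam q := fun q =>
    (hL ((Quotient.out q : h96o_T M m) : JZero M)).choose_spec.1
  have hlam_mem : ∀ q, ((Quotient.out q : h96o_T M m) : JZero M) - lam q ∈ redKerPic M A :=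
    fun q => (hL ((Quotient.out q : h96o_T M m) : JZero M)).choose_spec.2
  have hiff : ∀ (y : h96o_T M m) (q : Quotient s),
      (y : JZero M) - lam q ∈ redKerPic M A ↔ q = Quotient.mk s y := by
    intro y q
    constructor
    · intro h1
      have h2 : (y : JZero M) - ((Quotient.out q : h96o_T M m) : JZero M) ∈ redKerPic M A := by
        have : (y : JZero M) - ((Quotient.out q : h96o_T M m) : JZero M) =
            ((y : JZero M) - lam q) - (((Quotient.out q : h96o_T M m) : JZero M) - lam q) := by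
          abel
        rw [this]
        exact sub_mem h1 (hlam_mem q)
      have h3 : Quotient.mk s y = Quotient.mk s (Quotient.out q) := Quotient.sound h2
      rw [h3, Quotient.out_eq]
    · rintro rfl
      have h2 : (y : JZero M) -
          ((Quotient.out (Quotient.mk s y) : h96o_T M m) : JZero M) ∈ redKerPic M A := by
        have h3 : s.r (Quotient.out (Quotient.mk s y)) y := Quotient.exact (Quotient.out_eq _)
        exact s.iseqv.symm h3
      have : (y : JZero M) - lam (Quotient.mk s y) =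
          ((y : JZero M) - ((Quotient.out (Quotient.mk s y) : h96o_T M m) : JZero M)) +
            (((Quotient.out (Quotient.mk s y) : h96o_T M m) : JZero M) -
              lam (Quotient.mk s y)) := by
        abel
      rw [this]
      exact add_mem h2 (hlam_mem _)
  have hsum := h96o_sw_sum (A := A) (R := Algebra.adjoin A (h96o_G A m 𝒞))
    (R' := Algebra.adjoin A (h96o_G A m 𝒞)) (Finset.univ : Finset (Quotient s))
    (F := fun q => fun y y' : h96o_T M m =>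
      if (y : JZero M) - lam q ∈ redKerPic M A then f (y + y') else 0)
    (fun q _ => h (lam q) (hlam_fix q))
  refine h96o_sw_congr hsum fun y y' => ?_
  rw [Finset.sum_eq_single (Quotient.mk s y)]
  · rw [if_pos ((hiff y _).2 rfl)]
  · intro q _ hq
    rw [if_neg (fun h1 => hq ((hiff y q).1 h1))]
  · intro h1
    exact absurd (Finset.mem_univ _) h1

theorem h96o_G_comul [Finite (h96o_T M m)] (hAdd : H96wAdd) {ℓ : ℕ} (hℓ : ℓ.Prime)
    (hA : A.LiesOverPrime ℓ) (hV : ∀ c ∈ 𝒞, c.Valid A)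
    (hLink : ∀ c' ∈ 𝒞, ∃ c ∈ 𝒞, Nonempty (H96Link A c c'))
    (hL : ∀ y : JZero M, ∃ c₀ : JZero M, (∀ σ ∈ A.inertiaSubgroupIn ℚ, σ • c₀ = c₀) ∧
      y - c₀ ∈ redKerPic M A) :
    ∀ f ∈ h96o_G A m 𝒞, ∃ (n : ℕ) (a b : Fin n → h96o_T M m → Kbar),
      (∀ i, a i ∈ Algebra.adjoin A (h96o_G A m 𝒞)) ∧
      (∀ i, b i ∈ Algebra.adjoin A (h96o_G A m 𝒞)) ∧
      ∀ x y, f (x + y) = ∑ i, a i x * b i y := by
  rintro f ⟨c₀, hc₀, rfl | ⟨c', hc', i, ε, rfl⟩⟩
  · exact h96o_sw_fin (h96o_sw_partition hL _ fun c₁ hc₁ => h96o_sw_idem hc₀ hc₁)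
  · exact h96o_sw_fin (h96o_sw_partition hL _ fun c₁ hc₁ =>
      h96o_sw_sign hAdd hℓ hA hV hLink hc' i ε hc₀ hc₁)

end Comul

/-- **LEAF B**: the local order from the pointwise group law. -/
theorem h96o_orderStep : H96wOrderStep := by
  intro hAdd M _ A ℓ hℓ hA hGeo m hfin
  obtain ⟨g, 𝒞, hne, hV, hLink, hDec, hLift, hI, hD⟩ := hGeo
  have : Finite (h96o_T M m) := hfin
  exact ⟨h96o_G A m 𝒞,
    { int := h96o_G_int hV
      inert := h96o_G_inert hV hI
      decomp := h96o_G_decomp hV hDec hD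
      sep := h96o_G_sep hV hne hLift
      comul := h96o_G_comul hAdd hℓ hA hV hLink hLift }⟩

end Fermat.Agent.P5
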