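import Fermat.Agent.P5.H96LawOrder
import Fermat.Agent.P5.H74NewtonFix

/-!
# P5 / GEO-LAW: wiring (helper96)

`h96o_law_of_cramer : H96wCramer → H96LawStatement`, from leaf A2 (`h74n_newtonStep`, helper74)
and leaf B (`h96o_orderStep`).
-/

set_option autoImplicit false

namespace Fermat.Agent.P5

/-- GEO-LAW modulo the Cramer leaf. -/
theorem h96o_law_of_cramer : H96wCramer → H96LawStatement :=
  fun h => h96o_orderStep (h74n_newtonStep h)

end Fermat.Agent.P5
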