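import Fermat.Agent.P5.H47DescIface
import Fermat.Agent.P5.H98Zp

/-!
# Wave 5, pillar (P), block ALG-DESC, D-ASM (helper97): basic lemmas

`A` a valuation subring of `ℚ̄` lying over the prime `p`.

* `h97d_intCast_mem`, `h97d_inv_mem_of_not_dvd`, `h97d_zp_mem` : `ℤ_(p) ⊆ A`;
* `h97d_rat_mem_zp` : `A ∩ ℚ ⊆ ℤ_(p)`;
* `h97d_exists_pow_mul_mem` : for every `z : ℚ̄` some `p ^ a * z` lies in `A`;
* the twist `h97dTw act τ f = τ ∘ f ∘ act τ⁻¹`, a ring automorphism of the functions, with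
  `h97d_tw_eq_self_iff` (a function is fixed by the twists iff it is equivariant).
-/

set_option autoImplicit false
set_option linter.style.haveILetI false
set_option linter.unusedSectionVars false

open GaloisRep

noncomputable section

namespace Fermat.Agent.P5

section Val

variable {p : ℕ} {A : ValuationSubring H98pQb}

theorem h97d_intCast_mem (A : ValuationSubring H98pQb) (m : ℤ) : (m : H98pQb) ∈ A :=
  intCast_mem A m

theorem h97d_natCast_mem (A : ValuationSubring H98pQb) (m : ℕ) : (m : H98pQb) ∈ A :=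
  natCast_mem A m

/-- integers prime to `p` are units of `A`. -/
theorem h97d_inv_mem_of_not_dvd (hp : p.Prime) (hA : A.LiesOverPrime p) {m : ℤ}
    (hm : ¬ (p : ℤ) ∣ m) : ((m : H98pQb))⁻¹ ∈ A := by
  rcases A.mem_or_inv_mem (m : H98pQb) with h | h
  · by_contra hinv
    -- `m` is a non-unit of `A`
    have hm0 : (m : H98pQb) ≠ 0 := by
      intro h0
      apply hinv
      rw [h0, inv_zero]
      exact A.zero_mem
    have hv : A.valuation (m : H98pQb) < 1 := by
      have h1 : A.valuation (m : H98pQb) ≤ 1 := (A.valuation_le_one_iff _).mpr h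
      refine lt_of_le_of_ne h1 fun h2 => hinv ?_
      have h3 : A.valuation ((m : H98pQb))⁻¹ = 1 := by
        rw [map_inv₀, h2, inv_one]
      exact (A.valuation_le_one_iff _).mp h3.le
    have hvp : A.valuation (p : H98pQb) < 1 := hA
    have hcop : IsCoprime (p : ℤ) m :=
      (Prime.coprime_iff_not_dvd (Nat.prime_iff_prime_int.mp hp)).mpr hm
    obtain ⟨a, b, hab⟩ := hcop
    have h4 : A.valuation ((a : H98pQb) * (p : H98pQb) + (b : H98pQb) * (m : H98pQb)) < 1 := by
      refine Valuation.map_add_lt _ ?_ ?_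
      · rw [map_mul]
        exact mul_lt_one_of_nonneg_of_lt_one_right
          ((A.valuation_le_one_iff _).mpr (h97d_intCast_mem A a)) zero_le' hvp
      · rw [map_mul]
        exact mul_lt_one_of_nonneg_of_lt_one_right
          ((A.valuation_le_one_iff _).mpr (h97d_intCast_mem A b)) zero_le' hv
    have h5 : (a : H98pQb) * (p : H98pQb) + (b : H98pQb) * (m : H98pQb) = 1 := by
      have := congrArg (fun z : ℤ => (z : H98pQb)) hab
      push_cast at this
      exact this
    rw [h5, map_one] at h4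
    exact lt_irrefl _ h4
  · exact h

/-- `ℤ_(p) ⊆ A`. -/
theorem h97d_zp_mem (hp : p.Prime) (hA : A.LiesOverPrime p) (r : ratLocalizedAt p) :
    algebraMap (ratLocalizedAt p) H98pQb r ∈ A := by
  have h1 : algebraMap (ratLocalizedAt p) H98pQb r = algebraMap ℚ H98pQb (r : ℚ) := rfl
  have h2 : ((r : ℚ).den).Coprime p := r.2
  have h3 : ¬ (p : ℤ) ∣ ((r : ℚ).den : ℤ) := by
    intro hdvd
    have h4 : p ∣ (r : ℚ).den := by exact_mod_cast hdvd
    have := Nat.Coprime.eq_one_of_dvd h2.symm h4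
    exact hp.one_lt.ne' this
  have h5 := h97d_inv_mem_of_not_dvd hp hA h3
  have h6 : algebraMap ℚ H98pQb (r : ℚ) =
      ((r : ℚ).num : H98pQb) * ((((r : ℚ).den : ℤ) : H98pQb))⁻¹ := by
    rw [eq_ratCast, Rat.cast_def, div_eq_mul_inv]
    simp
  rw [h1, h6]
  exact A.mul_mem _ _ (h97d_intCast_mem A _) h5

/-- `A ∩ ℚ ⊆ ℤ_(p)`. -/
theorem h97d_rat_mem_zp (hp : p.Prime) (hA : A.LiesOverPrime p) (q : ℚ)
    (hq : algebraMap ℚ H98pQb q ∈ A) : q ∈ ratLocalizedAt p := by
  show (q.den).Coprime p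
  by_contra hcop
  have hdvd : p ∣ q.den := by
    by_contra h
    exact hcop ((Nat.Prime.coprime_iff_not_dvd hp).mpr h).symm
  have hnum : ¬ (p : ℤ) ∣ q.num := by
    intro h
    have h1 : p ∣ q.num.natAbs := by
      have := Int.natAbs_dvd_natAbs.mpr h
      simpa using this
    have h2 : p ∣ Nat.gcd q.num.natAbs q.den := Nat.dvd_gcd h1 hdvd
    rw [q.reduced] at h2
    exact hp.one_lt.ne' (Nat.dvd_one.mp h2)
  have h3 := h97d_inv_mem_of_not_dvd hp hA hnum
  -- `1 / den = q / num ∈ A`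
  have hden0 : (q.den : H98pQb) ≠ 0 := by exact_mod_cast q.den_ne_zero
  have hnum0 : (q.num : H98pQb) ≠ 0 := by
    intro h0
    apply hnum
    have : q.num = 0 := by exact_mod_cast h0
    rw [this]
    exact dvd_zero _
  have h4 : ((q.den : H98pQb))⁻¹ = algebraMap ℚ H98pQb q * ((q.num : H98pQb))⁻¹ := by
    rw [eq_ratCast, Rat.cast_def]
    field_simp
  have h5 : ((q.den : H98pQb))⁻¹ ∈ A := by
    rw [h4]
    exact A.mul_mem _ _ hq h3
  -- but `den ∈ p A`
  obtain ⟨d, hd⟩ := hdvd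
  have h6 : (p : H98pQb) * ((d : H98pQb) * ((q.den : H98pQb))⁻¹) = 1 := by
    have : (q.den : H98pQb) = (p : H98pQb) * (d : H98pQb) := by rw [hd]; push_cast; rfl
    rw [← mul_assoc, ← this, mul_inv_cancel₀ hden0]
  have hvp : A.valuation (p : H98pQb) < 1 := hA
  have h7 : A.valuation ((d : H98pQb) * ((q.den : H98pQb))⁻¹) ≤ 1 :=
    (A.valuation_le_one_iff _).mpr (A.mul_mem _ _ (h97d_natCast_mem A d) h5)
  have h8 := congrArg A.valuation h6
  rw [map_mul, map_one] at h8
  have h9 : A.valuation (p : H98pQb) * A.valuation ((d : H98pQb) * ((q.den : H98pQb))⁻¹) < 1 :=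
    mul_lt_one_of_nonneg_of_lt_one_left zero_le' hvp h7
  rw [h8] at h9
  exact lt_irrefl _ h9

/-- every element of `ℚ̄` is in `p ^ (-a) A` for some `a`. -/
theorem h97d_exists_pow_mul_mem (hp : p.Prime) (hA : A.LiesOverPrime p) (z : H98pQb) :
    ∃ a : ℕ, (p : H98pQb) ^ a * z ∈ A := by
  have halg : IsAlgebraic ℚ z := (AlgebraicClosure.isAlgebraic ℚ).isAlgebraic z
  have halgZ : IsAlgebraic ℤ z := (IsFractionRing.isAlgebraic_iff ℤ ℚ H98pQb).mpr halg
  obtain ⟨y, hy0, hy⟩ := halgZ.exists_integral_multiple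
  -- `y • z ∈ A`
  have h1 : IsIntegral A (y • z) := hy.tower_top
  obtain ⟨w, hw⟩ := IsIntegrallyClosed.isIntegral_iff.mp h1
  have h2 : (y : H98pQb) * z ∈ A := by
    have : (y : H98pQb) * z = y • z := by rw [zsmul_eq_mul]
    rw [this, ← hw]
    exact w.2
  -- write `y = p ^ a * m`, `p ∤ m`
  have hpZ : Prime (p : ℤ) := Nat.prime_iff_prime_int.mp hp
  obtain ⟨a, m, hm, hym⟩ :=
    WfDvdMonoid.max_power_factor hy0 hpZ.irreducible
  have hm' : ¬ (p : ℤ) ∣ m := hm
  refine ⟨a, ?_⟩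
  have h3 := h97d_inv_mem_of_not_dvd hp hA hm'
  have hm0 : (m : H98pQb) ≠ 0 := by
    intro h0
    apply hm'
    have : m = 0 := by exact_mod_cast h0
    rw [this]
    exact dvd_zero _
  have h4 : (p : H98pQb) ^ a * z = ((m : H98pQb))⁻¹ * ((y : H98pQb) * z) := by
    rw [hym]
    push_cast
    field_simp
  rw [h4]
  exact A.mul_mem _ _ h3 h2

end Val

/-! ## The twist -/

section Twist

variable {M : Type} (act : H98pGQ → M → M)

/-- the twist `τ ⋆ f = τ ∘ f ∘ act τ⁻¹`. -/
def h97dTw (τ : H98pGQ) : (M → H98pQb) →+* (M → H98pQb) where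
  toFun f := fun x => τ (f (act τ⁻¹ x))
  map_one' := by funext x; simp
  map_mul' f g := by funext x; simp
  map_zero' := by funext x; simp
  map_add' f g := by funext x; simp

@[simp] theorem h97dTw_apply (τ : H98pGQ) (f : M → H98pQb) (x : M) :
    h97dTw act τ f x = τ (f (act τ⁻¹ x)) := rfl

theorem h97dTw_const (τ : H98pGQ) (c : H98pQb) :
    h97dTw act τ (fun _ => c) = fun _ => τ c := rfl

theorem h97dTw_smul (τ : H98pGQ) (c : H98pQb) (f : M → H98pQb) :
    h97dTw act τ (c • f) = τ c • h97dTw act τ f := by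
  funext x
  simp

variable {act}

/-- an equivariant function is fixed by the twists. -/
theorem h97d_tw_of_equivariant (h1 : ∀ x, act 1 x = x)
    (hmul : ∀ σ τ x, act (σ * τ) x = act σ (act τ x)) {f : M → H98pQb}
    (hf : ∀ σ x, f (act σ x) = σ (f x)) (τ : H98pGQ) : h97dTw act τ f = f := by
  funext x
  rw [h97dTw_apply, ← hf, ← hmul, mul_inv_cancel, h1]

/-- a function fixed by the twists is equivariant. -/
theorem h97d_equivariant_of_tw (h1 : ∀ x, act 1 x = x)
    (hmul : ∀ σ τ x, act (σ * τ) x = act σ (act τ x)) {f : M → H98pQb}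
    (hf : ∀ τ, h97dTw act τ f = f) (σ : H98pGQ) (x : M) : f (act σ x) = σ (f x) := by
  have h2 := congrFun (hf σ) (act σ x)
  rw [h97dTw_apply, ← hmul, inv_mul_cancel, h1] at h2
  exact h2.symm

end Twist

end Fermat.Agent.P5
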