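import Fermat.Agent.P5.H98DescSpanIface
import Fermat.Agent.P5.H1DescCoef
import Fermat.Agent.P5.H54DescFG
import Fermat.Agent.P5.H97DescBasic

/-!
# Wave 5, pillar (P), row DESC-FIN (helper97): `H98dSpan → H98pDescent`

The order is `𝓗 = h98dEq act A G`, the `G_ℚ`-equivariant elements of `A[G]`, a subalgebra over
`ℤ_(p)`:

* finitely generated: `h54d_fg_order` (helper54);
* separating + Sweedler-closed: `h1d_isOrder_of_span` (helper1), from SPAN (`G ⊆ A · 𝓗`).

`h97d_fin : H98dSpan → H98pDescent`, `h97d_fin' : H47dGlobBasis → H98dSpan → H98pDescent`.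
-/

set_option autoImplicit false
set_option linter.style.haveILetI false
set_option linter.unusedSectionVars false

open GaloisRep

noncomputable section

namespace Fermat.Agent.P5

/-- the equivariant elements of `A[G]`, as a subalgebra over `ℤ_(p)`. -/
def h97dOrd (p : ℕ) (hp : p.Prime) {M : Type} (act : H98pGQ → M → M)
    (A : ValuationSubring H98pQb) (hA : A.LiesOverPrime p) (G : Set (M → H98pQb)) :
    Subalgebra (ratLocalizedAt p) (M → H98pQb) where
  carrier := h98dEq act A G
  mul_mem' := fun {f g} hf hg =>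
    ⟨Subalgebra.mul_mem _ hf.1 hg.1, fun σ x => by
      rw [Pi.mul_apply, Pi.mul_apply, hf.2, hg.2, map_mul]⟩
  one_mem' := ⟨Subalgebra.one_mem _, fun σ x => by
    rw [Pi.one_apply, Pi.one_apply, map_one]⟩
  add_mem' := fun {f g} hf hg =>
    ⟨Subalgebra.add_mem _ hf.1 hg.1, fun σ x => by
      rw [Pi.add_apply, Pi.add_apply, hf.2, hg.2, map_add]⟩
  zero_mem' := ⟨Subalgebra.zero_mem _, fun σ x => by
    rw [Pi.zero_apply, Pi.zero_apply, map_zero]⟩
  algebraMap_mem' := fun r => by
    refine ⟨?_, fun σ x => ?_⟩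
    · have h1 : algebraMap (ratLocalizedAt p) (M → H98pQb) r =
          algebraMap A (M → H98pQb) ⟨algebraMap (ratLocalizedAt p) H98pQb r,
            h97d_zp_mem hp hA r⟩ := by
        funext x
        rfl
      rw [h1]
      exact Subalgebra.algebraMap_mem _ _
    · have h1 : ∀ y : M, algebraMap (ratLocalizedAt p) (M → H98pQb) r y =
          algebraMap ℚ H98pQb (r : ℚ) := fun _ => rfl
      rw [h1, h1, AlgEquiv.commutes]

theorem h97d_mem_ord {p : ℕ} {hp : p.Prime} {M : Type} {act : H98pGQ → M → M}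
    {A : ValuationSubring H98pQb} {hA : A.LiesOverPrime p} {G : Set (M → H98pQb)}
    {f : M → H98pQb} :
    f ∈ h97dOrd p hp act A hA G ↔
      f ∈ Algebra.adjoin A G ∧ ∀ (σ : H98pGQ) (x : M), f (act σ x) = σ (f x) :=
  Iff.rfl

/-- the order of the descent. -/
theorem h97d_isOrder (hSpan : H98dSpan) (p : ℕ) [hp : Fact p.Prime] (M : Type) [AddCommGroup M]
    [Finite M] (act : H98pGQ → M → M) (hact : H98pIsGalAct act)
    (A : ValuationSubring H98pQb) (hA : A.LiesOverPrime p)
    (G : Set (M → H98pQb)) (hG : H96LocOrder A act G) :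
    h97c_IsOrder p M act (h97dOrd p hp.out act A hA G) := by
  have heq : ∀ f ∈ h97dOrd p hp.out act A hA G, ∀ σ x, f (act σ x) = σ (f x) :=
    fun f hf => hf.2
  have hsub : ∀ f ∈ h97dOrd p hp.out act A hA G, f ∈ Algebra.adjoin A G := fun f hf => hf.1
  exact h1d_isOrder_of_span act A hA G hG.sep hG.comul hact.add _
    (h54d_fg_order act hact A hA G hG.int _ heq hsub) heq hsub
    (fun g hg => hSpan p M act hact A hA G hG g (Algebra.subset_adjoin hg))

/-- **DESC-FIN.** -/
theorem h97d_fin (hSpan : H98dSpan) : H98pDescent := by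
  intro p hp M _ _ act hact A hA G hG
  exact ⟨_, h97d_isOrder hSpan p M act hact A hA G hG⟩

/-- **DESC-FIN**, in the announced shape. -/
theorem h97d_fin' (_hGlob : H47dGlobBasis) (hSpan : H98dSpan) : H98pDescent :=
  h97d_fin hSpan

end Fermat.Agent.P5
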