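import Fermat.Agent.P5.H97DescBasic

/-!
# Wave 5, pillar (P), block ALG-DESC, D-ASM (helper97): lemmas for the assembly

* decomposition and inertia groups of a valuation subring `A` of `ℚ̄`: `h97d_decomp_mem`
  (`τ A ⊆ A`), `h97d_inertia_conj` (inertia is normal in the decomposition group),
  `h97d_decomp_our` (`τ` preserves the inertia ring `h47dOur A`);
* `h97d_repr_tw` : coordinates of a twisted function in a basis of twist-fixed functions;
* `h97dSw` : Sweedler forms over a subalgebra, any base ring, with the calculus;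
* `h97d_fg_of_le` : submodules of finitely generated modules over a noetherian ring.
-/

set_option autoImplicit false
set_option linter.style.haveILetI false
set_option linter.unusedSectionVars false

open GaloisRep
open scoped Pointwise

noncomputable section

namespace Fermat.Agent.P5

section Groups

variable (A : ValuationSubring H98pQb)

theorem h97d_decomp_mem {τ : H98pGQ} (hτ : τ ∈ A.decompositionSubgroup ℚ) {x : H98pQb}
    (hx : x ∈ A) : τ x ∈ A := by
  have h1 := ValuationSubring.smul_mem_pointwise_smul τ x A hx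
  rw [MulAction.mem_stabilizer_iff.mp hτ] at h1
  exact h1

theorem h97d_inertia_le_decomp {σ : H98pGQ} (hσ : σ ∈ A.inertiaSubgroupIn ℚ) :
    σ ∈ A.decompositionSubgroup ℚ := by
  obtain ⟨s, -, rfl⟩ := hσ
  exact s.2

theorem h97d_inertia_conj {τ σ : H98pGQ} (hτ : τ ∈ A.decompositionSubgroup ℚ)
    (hσ : σ ∈ A.inertiaSubgroupIn ℚ) : τ⁻¹ * σ * τ ∈ A.inertiaSubgroupIn ℚ := by
  obtain ⟨s, hs, rfl⟩ := hσ
  refine ⟨(⟨τ, hτ⟩ : A.decompositionSubgroup ℚ)⁻¹ * s * ⟨τ, hτ⟩, ?_, rfl⟩
  have hn : (A.inertiaSubgroup ℚ).Normal := MonoidHom.normal_ker _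
  have := hn.conj_mem s hs (⟨τ, hτ⟩ : A.decompositionSubgroup ℚ)⁻¹
  simpa using this

/-- the decomposition group preserves the inertia ring. -/
theorem h97d_decomp_our {τ : H98pGQ} (hτ : τ ∈ A.decompositionSubgroup ℚ) {c : H98pQb}
    (hc : c ∈ h47dOur A) : τ c ∈ h47dOur A := by
  refine ⟨h97d_decomp_mem A hτ hc.1, fun σ hσ => ?_⟩
  have h1 := hc.2 _ (h97d_inertia_conj A hτ hσ)
  have h2 : σ (τ c) = τ ((τ⁻¹ * σ * τ) c) := by
    simp only [AlgEquiv.mul_apply]
    rw [← AlgEquiv.mul_apply τ τ⁻¹, mul_inv_cancel, AlgEquiv.one_apply]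
  rw [h2, h1]

theorem h97d_our_le (A : ValuationSubring H98pQb) {c : H98pQb} (hc : c ∈ h47dOur A) : c ∈ A :=
  hc.1

end Groups

section Repr

variable {M : Type} {ι : Type} [Fintype ι] (act : H98pGQ → M → M)

/-- coordinates of a twist in a basis of twist-fixed functions. -/
theorem h97d_repr_tw (β : Module.Basis ι H98pQb (M → H98pQb)) (τ : H98pGQ)
    (hβ : ∀ j, h97dTw act τ (β j) = β j) (f : M → H98pQb) (j : ι) :
    β.repr (h97dTw act τ f) j = τ (β.repr f j) := by
  have h1 : f = ∑ i, β.repr f i • β i := (β.sum_repr f).symm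
  have h2 : h97dTw act τ f = ∑ i, τ (β.repr f i) • β i := by
    conv_lhs => rw [h1]
    rw [map_sum]
    refine Finset.sum_congr rfl fun i _ => ?_
    rw [h97dTw_smul, hβ]
  rw [h2, β.repr_sum_self]

/-- a function and a basis fixed by a twist: the coordinates are fixed. -/
theorem h97d_repr_fixed (β : Module.Basis ι H98pQb (M → H98pQb)) (τ : H98pGQ)
    (hβ : ∀ j, h97dTw act τ (β j) = β j) {f : M → H98pQb} (hf : h97dTw act τ f = f) (j : ι) :
    τ (β.repr f j) = β.repr f j := by
  rw [← h97d_repr_tw act β τ hβ f j, hf]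

end Repr

section Sw

variable {R : Type} [CommRing R] [Algebra R H98pQb] {M : Type}

/-- `F` is a finite sum of products `a i x * b i y` with `a i, b i ∈ C`. -/
def h97dSw (C : Subalgebra R (M → H98pQb)) (F : M → M → H98pQb) : Prop :=
  ∃ (n : ℕ) (a b : Fin n → M → H98pQb),
    (∀ i, a i ∈ C) ∧ (∀ i, b i ∈ C) ∧ ∀ x y, F x y = ∑ i, a i x * b i y

variable (C : Subalgebra R (M → H98pQb))

theorem h97dSw_zero : h97dSw C (fun _ _ => 0) :=
  ⟨0, fun i => i.elim0, fun i => i.elim0, fun i => i.elim0, fun i => i.elim0,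
    fun _ _ => by simp⟩

theorem h97dSw_tmul {a b : M → H98pQb} (ha : a ∈ C) (hb : b ∈ C) :
    h97dSw C (fun x y => a x * b y) :=
  ⟨1, fun _ => a, fun _ => b, fun _ => ha, fun _ => hb, fun _ _ => by simp⟩

theorem h97dSw_add {F G : M → M → H98pQb} (hF : h97dSw C F) (hG : h97dSw C G) :
    h97dSw C (fun x y => F x y + G x y) := by
  obtain ⟨n, a, b, ha, hb, hab⟩ := hF
  obtain ⟨n', a', b', ha', hb', hab'⟩ := hG
  refine ⟨n + n', Fin.append a a', Fin.append b b', ?_, ?_, ?_⟩
  · intro i
    refine Fin.addCases (fun j => ?_) (fun j => ?_) i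
    · rw [Fin.append_left]; exact ha j
    · rw [Fin.append_right]; exact ha' j
  · intro i
    refine Fin.addCases (fun j => ?_) (fun j => ?_) i
    · rw [Fin.append_left]; exact hb j
    · rw [Fin.append_right]; exact hb' j
  · intro x y
    show F x y + G x y = _
    rw [Fin.sum_univ_add, hab, hab']
    simp only [Fin.append_left, Fin.append_right]

theorem h97dSw_sum {ι : Type} (s : Finset ι) {F : ι → M → M → H98pQb}
    (hF : ∀ i ∈ s, h97dSw C (F i)) : h97dSw C (fun x y => ∑ i ∈ s, F i x y) := by
  classical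
  induction s using Finset.induction_on with
  | empty =>
    have := h97dSw_zero C
    refine (iff_of_eq (congrArg _ ?_)).mp this
    funext x y
    simp
  | insert i s hi ih =>
    have h1 := h97dSw_add C (hF i (Finset.mem_insert_self i s))
      (ih fun j hj => hF j (Finset.mem_insert_of_mem hj))
    refine (iff_of_eq (congrArg _ ?_)).mp h1
    funext x y
    rw [Finset.sum_insert hi]

theorem h97dSw_mul_tmul {F : M → M → H98pQb} (hF : h97dSw C F) {a b : M → H98pQb}
    (ha : a ∈ C) (hb : b ∈ C) : h97dSw C (fun x y => F x y * (a x * b y)) := by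
  obtain ⟨n, a', b', ha', hb', hab'⟩ := hF
  refine ⟨n, fun i => a' i * a, fun i => b' i * b, fun i => mul_mem (ha' i) ha,
    fun i => mul_mem (hb' i) hb, fun x y => ?_⟩
  show F x y * (a x * b y) = _
  rw [hab', Finset.sum_mul]
  refine Finset.sum_congr rfl fun i _ => ?_
  simp only [Pi.mul_apply]
  ring

theorem h97dSw_mul {F G : M → M → H98pQb} (hF : h97dSw C F) (hG : h97dSw C G) :
    h97dSw C (fun x y => F x y * G x y) := by
  obtain ⟨n, a, b, ha, hb, hab⟩ := hG
  have h1 := h97dSw_sum C (Finset.univ : Finset (Fin n))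
    (F := fun i x y => F x y * (a i x * b i y))
    (fun i _ => h97dSw_mul_tmul C hF (ha i) (hb i))
  refine (iff_of_eq (congrArg _ ?_)).mp h1
  funext x y
  rw [hab, Finset.mul_sum]

theorem h97dSw_const (r : R) :
    h97dSw C (fun _ _ => algebraMap R H98pQb r) := by
  have := h97dSw_tmul C (Subalgebra.algebraMap_mem C r) (one_mem C)
  refine (iff_of_eq (congrArg _ ?_)).mp this
  funext x y
  simp [Algebra.algebraMap_eq_smul_one]

/-- Sweedler closure passes from generators to the generated algebra. -/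
theorem h97dSw_adjoin [AddCommGroup M] (G : Set (M → H98pQb))
    (hG : ∀ f ∈ G, h97dSw (Algebra.adjoin R G) (fun x y => f (x + y)))
    {f : M → H98pQb} (hf : f ∈ Algebra.adjoin R G) :
    h97dSw (Algebra.adjoin R G) (fun x y => f (x + y)) := by
  induction hf using Algebra.adjoin_induction with
  | mem f hf => exact hG f hf
  | algebraMap r =>
    have := h97dSw_const (Algebra.adjoin R G) r
    exact this
  | add f g _ _ hf hg => exact h97dSw_add _ hf hg
  | mul f g _ _ hf hg => exact h97dSw_mul _ hf hg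

end Sw

section FG

/-- submodules of a finitely generated module over a noetherian ring. -/
theorem h97d_fg_of_le {R V : Type*} [CommRing R] [IsNoetherianRing R] [AddCommGroup V]
    [Module R V] {N N' : Submodule R V} (hN : N.FG) (hle : N' ≤ N) : N'.FG := by
  haveI : IsNoetherian R N := isNoetherian_of_fg_of_noetherian _ hN
  have h1 : N' = (N'.comap N.subtype).map N.subtype := by
    rw [Submodule.map_comap_subtype, inf_of_le_right hle]
  rw [h1]
  exact (IsNoetherian.noetherian _).map _

end FG

end Fermat.Agent.P5
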