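import Fermat.Agent.P5.H97DescLemmas

/-!
# Wave 5, pillar (P), block ALG-DESC, leaf (iv) (helper97): Sweedler forms descend

`h97d_sw` : let `Hh` be a function order over `ℤ_(p)` (finitely generated, equivariant,
separating) and `f` an equivariant function such that `f (x + y) = ∑ i, a i x * b i y` with
`a i`, `b i` in the `A`-span of `Hh`, `A` a valuation subring of `ℚ̄` over `p`.  Then
`(x, y) ↦ f (x + y)` has a Sweedler form over `Hh`.

Proof: a `ℤ_(p)`-basis `u` of `Hh` is a `ℚ̄`-basis of the functions (`h98p_zp_basis`), the products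
`u j x * u k y` are `ℚ̄`-independent (`h98p_indep_prod`); the coefficients `c j k` of
`f (x + y)` lie in `A`, are Galois-fixed by equivariance, hence rational, hence in
`A ∩ ℚ = ℤ_(p)`.
-/

set_option autoImplicit false
set_option linter.style.haveILetI false
set_option linter.unusedSectionVars false

open GaloisRep

noncomputable section

namespace Fermat.Agent.P5

theorem h97d_sw (p : ℕ) [Fact p.Prime] {M : Type} [AddCommGroup M] [Finite M]
    (act : H98pGQ → M → M) (hact : H98pIsGalAct act)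
    (A : ValuationSubring H98pQb) (hA : A.LiesOverPrime p)
    (Hh : Subalgebra (ratLocalizedAt p) (M → H98pQb))
    (hfg : (Subalgebra.toSubmodule Hh).FG)
    (heq : ∀ f ∈ Hh, ∀ s x, f (act s x) = s (f x))
    (hsep : ∀ x y, (∀ f ∈ Hh, f x = f y) → x = y)
    (f : M → H98pQb) (hf : ∀ s x, f (act s x) = s (f x))
    (n : ℕ) (a b : Fin n → M → H98pQb)
    (ha : ∀ i, a i ∈ Submodule.span A (Hh : Set (M → H98pQb)))
    (hb : ∀ i, b i ∈ Submodule.span A (Hh : Set (M → H98pQb)))
    (hab : ∀ x y, f (x + y) = ∑ i, a i x * b i y) :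
    h97c_Sw Hh Hh (fun x y => f (x + y)) := by
  classical
  have hp : p.Prime := Fact.out
  obtain ⟨m, u, huind, -, -⟩ := h98p_zp_basis p act Hh hfg heq hsep
  set u' : Fin m → M → H98pQb := fun j => ((u j : Hh) : M → H98pQb) with hu'
  -- the `A`-span of `Hh` is the `A`-span of the basis
  have hspan : Submodule.span A (Hh : Set (M → H98pQb)) ≤ Submodule.span A (Set.range u') := by
    rw [Submodule.span_le]
    intro h hh
    have h1 : (⟨h, hh⟩ : Hh) = ∑ j, u.repr ⟨h, hh⟩ j • u j := (u.sum_repr _).symm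
    have h2 : h = ∑ j, (⟨algebraMap (ratLocalizedAt p) H98pQb (u.repr ⟨h, hh⟩ j),
        h97d_zp_mem hp hA _⟩ : A) • u' j := by
      have h3 := congrArg (fun k : Hh => (k : M → H98pQb)) h1
      simp only [AddSubmonoidClass.coe_finsetSum] at h3
      refine h3.trans (Finset.sum_congr rfl fun j _ => ?_)
      funext x
      rw [Subalgebra.coe_smul, Pi.smul_apply, Pi.smul_apply, Algebra.smul_def, Algebra.smul_def]
      rfl
    rw [SetLike.mem_coe, h2]
    exact Submodule.sum_mem _ fun j _ =>
      Submodule.smul_mem _ _ (Submodule.subset_span ⟨j, rfl⟩)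
  have hcoef : ∀ g ∈ Submodule.span A (Hh : Set (M → H98pQb)),
      ∃ c : Fin m → A, ∀ x, g x = ∑ j, (c j : H98pQb) * u' j x := by
    intro g hg
    obtain ⟨c, hc⟩ := (Submodule.mem_span_range_iff_exists_fun A).mp (hspan hg)
    refine ⟨c, fun x => ?_⟩
    rw [← hc]
    simp only [Finset.sum_apply]
    rfl
  choose α hα using fun i => hcoef (a i) (ha i)
  choose β hβ using fun i => hcoef (b i) (hb i)
  -- the coefficients
  set c : Fin m → Fin m → H98pQb := fun j k => ∑ i, (α i j : H98pQb) * (β i k : H98pQb) with hc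
  have hcA : ∀ j k, c j k ∈ A := fun j k =>
    A.toSubring.sum_mem fun i _ => A.mul_mem _ _ (α i j).2 (β i k).2
  have hF : ∀ x y, f (x + y) = ∑ jk : Fin m × Fin m, c jk.1 jk.2 * (u' jk.1 x * u' jk.2 y) := by
    intro x y
    rw [hab, Fintype.sum_prod_type]
    have e1 : ∀ i, a i x * b i y =
        ∑ j, ∑ k, (α i j : H98pQb) * (β i k : H98pQb) * (u' j x * u' k y) := by
      intro i
      rw [hα, hβ, Finset.sum_mul_sum]
      exact Finset.sum_congr rfl fun j _ => Finset.sum_congr rfl fun k _ => by ring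
    rw [Finset.sum_congr rfl (fun i _ => e1 i), Finset.sum_comm]
    refine Finset.sum_congr rfl fun j _ => ?_
    rw [Finset.sum_comm]
    refine Finset.sum_congr rfl fun k _ => ?_
    show _ = (∑ i, (α i j : H98pQb) * (β i k : H98pQb)) * _
    rw [Finset.sum_mul]
  -- the coefficients are Galois-fixed
  have hact_inv : ∀ (σ : H98pGQ) (x : M), act σ (act σ⁻¹ x) = x := by
    intro σ x
    rw [← hact.mul, mul_inv_cancel, hact.one]
  have hW := h98p_indep_prod u' u' huind huind
  have hfix : ∀ (σ : H98pGQ) (j k : Fin m), σ (c j k) = c j k := by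
    intro σ j k
    have h0 : ∑ jk : Fin m × Fin m, (σ (c jk.1 jk.2) - c jk.1 jk.2) •
        (fun xy : M × M => u' jk.1 xy.1 * u' jk.2 xy.2) = 0 := by
      funext xy
      obtain ⟨x', y'⟩ := xy
      simp only [Finset.sum_apply, Pi.smul_apply, smul_eq_mul, Pi.zero_apply]
      have e1 : f (x' + y') = ∑ jk : Fin m × Fin m, c jk.1 jk.2 * (u' jk.1 x' * u' jk.2 y') :=
        hF x' y'
      have e2 : f (x' + y') =
          ∑ jk : Fin m × Fin m, σ (c jk.1 jk.2) * (u' jk.1 x' * u' jk.2 y') := by
        have h1 : f (x' + y') = σ (f (act σ⁻¹ x' + act σ⁻¹ y')) := by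
          rw [← hf σ, hact.add, hact_inv, hact_inv]
        rw [h1, hF, map_sum]
        refine Finset.sum_congr rfl fun jk _ => ?_
        rw [map_mul, map_mul, ← heq _ (u jk.1).2, ← heq _ (u jk.2).2, hact_inv, hact_inv]
      have e3 : ∑ jk : Fin m × Fin m, (σ (c jk.1 jk.2) - c jk.1 jk.2) *
          (u' jk.1 x' * u' jk.2 y') =
          ∑ jk : Fin m × Fin m, σ (c jk.1 jk.2) * (u' jk.1 x' * u' jk.2 y') -
            ∑ jk : Fin m × Fin m, c jk.1 jk.2 * (u' jk.1 x' * u' jk.2 y') := by
        rw [← Finset.sum_sub_distrib]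
        refine Finset.sum_congr rfl fun jk _ => ?_
        ring
      rw [e3, ← e1, ← e2, sub_self]
    have h1 := (Fintype.linearIndependent_iff.mp hW) _ h0 (j, k)
    exact sub_eq_zero.mp h1
  -- hence in `ℤ_(p)`
  have hr : ∀ j k, ∃ r : ratLocalizedAt p, algebraMap (ratLocalizedAt p) H98pQb r = c j k := by
    intro j k
    obtain ⟨q, hq⟩ := h98p_fix (c j k) fun σ => hfix σ j k
    have hqA : algebraMap ℚ H98pQb q ∈ A := by rw [hq]; exact hcA j k
    exact ⟨⟨q, h97d_rat_mem_zp hp hA q hqA⟩, hq⟩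
  choose r hr using hr
  refine ⟨m, u', fun j => ∑ k, r j k • u' k, fun j => (u j).2,
    fun j => Subalgebra.sum_mem _ fun k _ => Subalgebra.smul_mem _ (u k).2 _, fun x y => ?_⟩
  show f (x + y) = _
  rw [hF, Fintype.sum_prod_type]
  refine Finset.sum_congr rfl fun j _ => ?_
  simp only [Finset.sum_apply, Finset.mul_sum]
  refine Finset.sum_congr rfl fun k _ => ?_
  have h1 : (r j k • u' k) y = c j k * u' k y := by
    rw [Pi.smul_apply, Algebra.smul_def, hr]
  rw [h1]
  ring

end Fermat.Agent.P5
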