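import Fermat.Agent.P5.H47DescIface

/-!
# Wave 5, pillar (P), row DESC-ASM: the intermediate frozen Prop SPAN (helper98)

`H47dAsm` (`H47dGlobBasis → H47dCoord → H98pDescent`) is split at the statement

* `H98dSpan` : for a local order `G` at `A`, every element of `A[G]` is an `A`-linear
  combination of `G_ℚ`-equivariant elements of `A[G]`.

`DESC-SPAN` (helper98): `H47dGlobBasis → H47dCoord → H98dSpan`.
`DESC-FIN`  (helper97): `H47dGlobBasis → H98dSpan → H98pDescent` (the order is
`𝓗 = {f ∈ A[G] | f equivariant}`; finitely generated by boundedness of the coordinates,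
separating by SPAN, Sweedler by SPAN and the coefficient argument).
-/

set_option autoImplicit false

noncomputable section

namespace Fermat.Agent.P5

/-- the `G_ℚ`-equivariant elements of `A[G]`. -/
def h98dEq {M : Type} (act : H98pGQ → M → M) (A : ValuationSubring H98pQb)
    (G : Set (M → H98pQb)) : Set (M → H98pQb) :=
  {f | f ∈ Algebra.adjoin A G ∧ ∀ (σ : H98pGQ) (x : M), f (act σ x) = σ (f x)}

/-- **SPAN.** -/
def H98dSpan : Prop :=
  ∀ (p : ℕ) [Fact p.Prime] (M : Type) [AddCommGroup M] [Finite M] (act : H98pGQ → M → M),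
    H98pIsGalAct act →
    ∀ (A : ValuationSubring H98pQb), A.LiesOverPrime p →
    ∀ G : Set (M → H98pQb), H96LocOrder A act G →
    ∀ g ∈ Algebra.adjoin A G, g ∈ Submodule.span A (h98dEq act A G)

end Fermat.Agent.P5
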