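import Fermat.Agent.P5.H98DescBasic
import Fermat.Agent.P5.H98DescSpanIface

/-!
# Wave 5, pillar (P), row DESC-SPAN (helper98): `H47dGlobBasis → H47dCoord → H98dSpan`

`N :=` coordinate vectors, in the equivariant basis `e`, of the ring `B^ur = h98dBur A G`.
-/

set_option autoImplicit false
set_option linter.style.haveILetI false
set_option linter.unusedSectionVars false

open GaloisRep

noncomputable section

namespace Fermat.Agent.P5

section span

variable {M : Type} [AddCommGroup M] [Finite M]

/-- the `ℚ̄`-span of a separating subring of functions is everything. -/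
theorem h98e_span_top (B : Subring (M → H98pQb))
    (hsep : ∀ x y : M, (∀ f ∈ B, f x = f y) → x = y) :
    Submodule.span H98pQb (B : Set (M → H98pQb)) = ⊤ := by
  have h := h98p_order_span (R := ℤ) (K := H98pQb) (M := M) (subalgebraOfSubring B)
    (fun x y hxy => hsep x y fun f hf => hxy f hf)
  exact h

/-- **Bound.** In a basis `e` of the functions, the coordinates of `A`-valued functions are
bounded: `p ^ a * c i ∈ A` for a uniform `a`. -/
theorem h98e_bound (p : ℕ) [Fact p.Prime] (A : ValuationSubring H98pQb)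
    (hA : A.LiesOverPrime p) {n : ℕ} (e : Fin n → M → H98pQb)
    (he_li : LinearIndependent H98pQb e)
    (he_sp : Submodule.span H98pQb (Set.range e) = ⊤) :
    ∃ a : ℕ, ∀ a' : ℕ, a ≤ a' → ∀ (f : M → H98pQb), (∀ x, f x ∈ A) →
      ∀ c : Fin n → H98pQb, f = ∑ i, c i • e i → ∀ i, (p : H98pQb) ^ a' * c i ∈ A := by
  classical
  haveI := Fintype.ofFinite M
  have hpA : (p : H98pQb) ∈ A := A.nonunits_le hA
  choose lam hlam using fun x : M => h98d_exists_coord e he_sp (Pi.single x (1 : H98pQb))
  obtain ⟨a, ha⟩ := h98d_pow_mul_mem_fin p A hA (fun k : M × Fin n => lam k.1 k.2)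
  refine ⟨a, fun a' ha' f hf c hc i => ?_⟩
  have hf1 : f = ∑ x, f x • Pi.single x (1 : H98pQb) := by
    funext z
    simp [Finset.sum_apply, Pi.single_apply]
  have hf2 : f = ∑ i, (∑ x, f x * lam x i) • e i := by
    conv_lhs => rw [hf1]
    have : ∀ x, f x • Pi.single x (1 : H98pQb) = ∑ i, (f x * lam x i) • e i := by
      intro x
      rw [hlam x, Finset.smul_sum]
      refine Finset.sum_congr rfl fun i _ => ?_
      rw [smul_smul]
    simp only [this]
    rw [Finset.sum_comm]
    refine Finset.sum_congr rfl fun i _ => ?_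
    rw [Finset.sum_smul]
  have hc' : c = fun i => ∑ x, f x * lam x i := by
    refine h98d_coord_unique e he_li ?_
    rw [← hc, ← hf2]
  rw [hc']
  show (p : H98pQb) ^ a' * ∑ x, f x * lam x i ∈ A
  rw [Finset.mul_sum]
  refine A.toSubring.sum_mem fun x _ => ?_
  obtain ⟨d, rfl⟩ := Nat.exists_eq_add_of_le ha'
  have h1 : (p : H98pQb) ^ (a + d) * (f x * lam x i) =
      ((p : H98pQb) ^ d * f x) * ((p : H98pQb) ^ a * lam x i) := by
    rw [pow_add]; ring
  rw [h1]
  exact A.mul_mem _ _ (A.mul_mem _ _ (A.pow_mem hpA d) (hf x)) (ha (x, i))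

/-- **Conductor.** `p ^ a • e i ∈ B^ur` for a uniform `a`. -/
theorem h98e_conductor (p : ℕ) [Fact p.Prime] (act : H98pGQ → M → M)
    (hact : H98pIsGalAct act) (A : ValuationSubring H98pQb)
    (hA : A.LiesOverPrime p) (G : Set (M → H98pQb)) (hG : H96LocOrder A act G)
    {n : ℕ} (e : Fin n → M → H98pQb)
    (he_eq : ∀ i σ x, e i (act σ x) = σ (e i x)) :
    ∃ a : ℕ, ∀ a' : ℕ, a ≤ a' → ∀ i, (p : H98pQb) ^ a' • e i ∈ h98dBur A G := by
  classical
  have hpA : (p : H98pQb) ∈ A := A.nonunits_le hA
  have hpow_our : ∀ d : ℕ, (p : H98pQb) ^ d ∈ h47dOur A := fun d =>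
    ⟨A.pow_mem hpA d, fun σ _ => by rw [map_pow, map_natCast]⟩
  -- a basis of the functions inside `B^ur`
  have hsp : Submodule.span H98pQb ((h98dBur A G : Subring (M → H98pQb)) : Set (M → H98pQb))
      = ⊤ :=
    h98e_span_top _ fun x y hxy => hG.sep x y fun f hf => hxy f (h98d_mem_bur_of_mem hf)
  obtain ⟨b, hbB, hbsp, hbli⟩ := exists_linearIndependent H98pQb
    ((h98dBur A G : Subring (M → H98pQb)) : Set (M → H98pQb))
  haveI : Finite b := hbli.finite
  haveI := Fintype.ofFinite b
  have hbsp' : Submodule.span H98pQb (Set.range (Subtype.val : b → M → H98pQb)) = ⊤ := by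
    rw [Subtype.range_coe, hbsp, hsp]
  choose t ht using fun i : Fin n => h98d_exists_coord (Subtype.val : b → M → H98pQb) hbsp' (e i)
  -- the coordinates are fixed by inertia
  have htfix : ∀ i β, ∀ σ ∈ A.inertiaSubgroupIn ℚ, σ (t i β) = t i β := by
    intro i β σ hσ
    exact h98d_coord_fixed (Subtype.val : b → M → H98pQb) act σ hbli
      (fun β' => h98d_bur_inert hact hG (hbB β'.2) hσ)
      (h98dTw_eq_self hact (fun x => he_eq i σ x)) (ht i) β
  obtain ⟨a, ha⟩ := h98d_pow_mul_mem_fin p A hA (fun k : Fin n × b => t k.1 k.2)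
  refine ⟨a, fun a' ha' i => ?_⟩
  obtain ⟨d, rfl⟩ := Nat.exists_eq_add_of_le ha'
  have h1 : (p : H98pQb) ^ (a + d) • e i =
      ∑ β : b, ((p : H98pQb) ^ d * ((p : H98pQb) ^ a * t i β)) • (β : M → H98pQb) := by
    conv_lhs => rw [ht i]
    rw [Finset.smul_sum]
    refine Finset.sum_congr rfl fun β _ => ?_
    rw [smul_smul, pow_add]
    congr 1
    ring
  rw [h1]
  refine Subring.sum_mem _ fun β _ => ?_
  refine h98d_smul_mem_bur ?_ (hbB β.2)
  refine (h47dOur A).mul_mem (hpow_our d) ⟨ha (i, β), fun σ hσ => ?_⟩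
  rw [map_mul, map_pow, map_natCast, htfix i β σ hσ]

/-- the `A`-span of the equivariant elements of `A[G]` is closed under multiplication. -/
theorem h98e_span_mul (act : H98pGQ → M → M) (A : ValuationSubring H98pQb)
    (G : Set (M → H98pQb)) {f g : M → H98pQb}
    (hf : f ∈ Submodule.span A (h98dEq act A G)) (hg : g ∈ Submodule.span A (h98dEq act A G)) :
    f * g ∈ Submodule.span A (h98dEq act A G) := by
  have hS : ∀ u ∈ h98dEq act A G, ∀ v ∈ h98dEq act A G, u * v ∈ h98dEq act A G := by
    intro u hu v hv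
    refine ⟨Subalgebra.mul_mem _ hu.1 hv.1, fun σ x => ?_⟩
    rw [Pi.mul_apply, Pi.mul_apply, hu.2, hv.2, map_mul]
  induction hf using Submodule.span_induction with
  | zero => rw [zero_mul]; exact Submodule.zero_mem _
  | add u v _ _ hu hv => rw [add_mul]; exact Submodule.add_mem _ hu hv
  | smul c u _ hu => rw [smul_mul_assoc]; exact Submodule.smul_mem _ c hu
  | mem u hu =>
    induction hg using Submodule.span_induction with
    | zero => rw [mul_zero]; exact Submodule.zero_mem _
    | add v w _ _ hv hw => rw [mul_add]; exact Submodule.add_mem _ hv hw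
    | smul c v _ hv => rw [mul_smul_comm]; exact Submodule.smul_mem _ c hv
    | mem v hv => exact Submodule.subset_span (hS u hu v hv)

/-- **DESC-SPAN.** -/
theorem h98e_span (hGlob : H47dGlobBasis) (hCoord : H47dCoord) : H98dSpan := by
  intro p hp M _ _ act hact A hA G hG
  classical
  obtain ⟨n, e, he_eq, he_li, he_sp⟩ := hGlob M act hact
  have hpA : (p : H98pQb) ∈ A := A.nonunits_le hA
  have hpow_our : ∀ d : ℕ, (p : H98pQb) ^ d ∈ h47dOur A := fun d =>
    ⟨A.pow_mem hpA d, fun σ _ => by rw [map_pow, map_natCast]⟩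
  have he_tw : ∀ (τ : H98pGQ) i, h98dTw act τ (e i) = e i := fun τ i =>
    h98dTw_eq_self hact (fun x => he_eq i τ x)
  obtain ⟨a1, ha1⟩ := h98e_bound p A hA e he_li he_sp
  obtain ⟨a2, ha2⟩ := h98e_conductor p act hact A hA G hG e he_eq
  set a := max a1 a2 with ha
  -- the set of coordinate vectors of `B^ur`
  set N : Set (Fin n → H98pQb) := {v | ∑ i, v i • e i ∈ h98dBur A G} with hN
  have key := hCoord p hp.out A hA n N a
    (by
      intro v w hv hw
      show ∑ i, (v + w) i • e i ∈ h98dBur A G
      have : ∑ i, (v + w) i • e i = ∑ i, v i • e i + ∑ i, w i • e i := by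
        rw [← Finset.sum_add_distrib]
        exact Finset.sum_congr rfl fun i _ => by rw [Pi.add_apply, add_smul]
      rw [this]
      exact Subring.add_mem _ hv hw)
    (by
      intro c hc v hv
      show ∑ i, (c * v i) • e i ∈ h98dBur A G
      have : ∑ i, (c * v i) • e i = c • ∑ i, v i • e i := by
        rw [Finset.smul_sum]
        exact Finset.sum_congr rfl fun i _ => by rw [smul_smul]
      rw [this]
      exact h98d_smul_mem_bur hc hv)
    (by
      intro v hv i
      have hv' : ∑ i, v i • e i ∈ h98dBur A G := hv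
      refine ⟨ha1 a (le_max_left _ _) _ (h98d_bur_int hG hv') v rfl i, fun σ hσ => ?_⟩
      have hfix := h98d_coord_fixed e act σ he_li (he_tw σ) (h98d_bur_inert hact hG hv' hσ)
        (c := v) rfl i
      rw [map_mul, map_pow, map_natCast, hfix])
    (by
      intro v hv
      choose w hw hvw using hv
      show ∑ i, v i • e i ∈ h98dBur A G
      refine Subring.sum_mem _ fun i _ => ?_
      have : v i • e i = w i • ((p : H98pQb) ^ a • e i) := by
        rw [hvw i, smul_smul, mul_comm]
      rw [this]
      exact h98d_smul_mem_bur (hw i) (ha2 a (le_max_right _ _) i))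
    (by
      intro τ hτ v hv
      show ∑ i, τ (v i) • e i ∈ h98dBur A G
      rw [← h98d_tw_coord e act τ (he_tw τ) v]
      exact h98d_bur_decomp hG hv hτ)
  -- every element of `B^ur` is in the span
  have hbur : ∀ f ∈ h98dBur A G, f ∈ Submodule.span A (h98dEq act A G) := by
    intro f hf
    obtain ⟨v, hv⟩ := h98d_exists_coord e he_sp f
    have hvN : v ∈ N := by
      show ∑ i, v i • e i ∈ h98dBur A G
      rw [← hv]; exact hf
    obtain ⟨k, c, w, hc, hw, hwq, hvw⟩ := key v hvN
    have hf' : f = ∑ j, (⟨c j, (hc j).1⟩ : A) • (∑ i, w j i • e i) := by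
      rw [hv]
      have h1 : ∀ j, ((⟨c j, (hc j).1⟩ : A) • (∑ i, w j i • e i) : M → H98pQb) =
          ∑ i, (c j * w j i) • e i := by
        intro j
        rw [Finset.smul_sum]
        refine Finset.sum_congr rfl fun i _ => ?_
        funext x
        simp [Algebra.smul_def, mul_assoc]
      simp only [h1]
      rw [Finset.sum_comm]
      refine Finset.sum_congr rfl fun i _ => ?_
      rw [hvw i, Finset.sum_smul]
    rw [hf']
    refine Submodule.sum_mem _ fun j _ => Submodule.smul_mem _ _ (Submodule.subset_span ?_)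
    refine ⟨h98d_bur_le_adjoin (hw j), fun σ x => ?_⟩
    simp only [Finset.sum_apply, Pi.smul_apply, smul_eq_mul, map_sum, map_mul]
    refine Finset.sum_congr rfl fun i _ => ?_
    obtain ⟨q, hq⟩ := hwq j i
    rw [he_eq, ← hq, σ.commutes]
  -- hence every element of `A[G]`
  intro g hg
  induction hg using Algebra.adjoin_induction with
  | mem g hg => exact hbur g (h98d_mem_bur_of_mem hg)
  | algebraMap r =>
    have h1 : (1 : M → H98pQb) ∈ Submodule.span A (h98dEq act A G) :=
      hbur 1 (Subring.one_mem _)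
    have h2 := Submodule.smul_mem _ r h1
    have h3 : r • (1 : M → H98pQb) = algebraMap A (M → H98pQb) r := by
      rw [Algebra.smul_def, mul_one]
    rw [h3] at h2
    exact h2
  | add f g _ _ hf hg => exact Submodule.add_mem _ hf hg
  | mul f g _ _ hf hg => exact h98e_span_mul act A G hf hg

end span

end Fermat.Agent.P5
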