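import Fermat.Agent.P5.H97DescFin
import Fermat.Agent.P5.H98DescSpan
import Fermat.Agent.P5.H94Glob
import Fermat.Agent.P5.H47DescCoord

/-!
# Wave 5, pillar (P), row TOP-DESC closed (helper97): `h97d_descent : H98pDescent`

Assembly of D-GLOB (`h94g_globBasis`, helper94), D-COORD (`h47d_coord`, helper47), DESC-SPAN
(`h98e_span`, helper98) and DESC-FIN (`h97d_fin`, helper97; leaves of helper1 and helper54).
-/

set_option autoImplicit false

namespace Fermat.Agent.P5

/-- **SPAN**, unconditional. -/
theorem h97d_span : H98dSpan :=
  h98e_span h94g_globBasis h47d_coord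

/-- **ALG-DESC**, unconditional. -/
theorem h97d_descent : H98pDescent :=
  h97d_fin h97d_span

end Fermat.Agent.P5
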