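import Fermat.Agent.P5.H97Order

/-!
# Wave 5, pillar (P), block A2 (helper97): function orders, part 2

* `h97c_hasOrder_of_flat` : a flat module (Prelude shape `h97c_Flat`) has a function order
  (the image of the Hopf algebra in the functions on its points; global twin of FL-A1);
* `h97c_hasOrder_prod` : the product of two modules with orders has an order;
* `h97c_hasOrder_unit`, `h97c_hasOrder_pi` : finite powers `Fin r → M`.
-/

set_option autoImplicit false
set_option linter.style.haveILetI false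
set_option linter.unusedSectionVars false

open GaloisRep

noncomputable section

namespace Fermat.Agent.P5

local notation "Qb97" => AlgebraicClosure ℚ
local notation "GQ97" => (AlgebraicClosure ℚ ≃ₐ[ℚ] AlgebraicClosure ℚ)

/-! ## From a Hopf algebra to a function order -/

section OfFlat

variable {p : ℕ} {M : Type} [AddCommGroup M] {H : Type} [CommRing H]
  [HopfAlgebra (ratLocalizedAt p) H]
  (e : WithConv (H →ₐ[ratLocalizedAt p] Qb97) ≃ M)

/-- the evaluation functions `Φ h x = (e⁻¹ x) h`. -/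
def h97cPhi : H →ₐ[ratLocalizedAt p] (M → Qb97) :=
  Pi.algHom (ratLocalizedAt p) (fun _ : M => Qb97) (fun x => (e.symm x).ofConv)

theorem h97cPhi_apply (h : H) (x : M) : h97cPhi e h x = (e.symm x).ofConv h := rfl

/-- the composite of a point with a Galois automorphism. -/
def h97cComp (σ : GQ97) (f : WithConv (H →ₐ[ratLocalizedAt p] Qb97)) :
    WithConv (H →ₐ[ratLocalizedAt p] Qb97) :=
  WithConv.toConv
    { toRingHom := (σ : Qb97 →+* Qb97).comp f.ofConv.toRingHom
      commutes' := fun r => by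
        show σ (f.ofConv (algebraMap _ H r)) = algebraMap _ Qb97 r
        rw [AlgHom.commutes]
        exact σ.commutes (r : ℚ) }

theorem h97cComp_apply (σ : GQ97) (f : WithConv (H →ₐ[ratLocalizedAt p] Qb97)) (h : H) :
    (h97cComp σ f) h = σ (f h) := rfl

variable {e} in
theorem h97cPhi_act {act : GQ97 → M → M}
    (hact : ∀ (σ : GQ97) (f g : WithConv (H →ₐ[ratLocalizedAt p] Qb97)),
      (∀ h : H, g h = σ (f h)) → e g = act σ (e f))
    (σ : GQ97) (h : H) (x : M) :
    h97cPhi e h (act σ x) = σ (h97cPhi e h x) := by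
  have h1 : e (h97cComp σ (e.symm x)) = act σ x := by
    rw [hact σ (e.symm x) (h97cComp σ (e.symm x)) (fun h => rfl), Equiv.apply_symm_apply]
  have h2 : e.symm (act σ x) = h97cComp σ (e.symm x) := by
    rw [← h1, Equiv.symm_apply_apply]
  rw [h97cPhi_apply, h2, h97cPhi_apply]
  rfl

/-- the Sweedler form of `(x, y) ↦ lift (e⁻¹ x) (e⁻¹ y) t`. -/
theorem h97c_Sw_lift (t : TensorProduct (ratLocalizedAt p) H H) :
    h97c_Sw (h97cPhi e).range (h97cPhi e).range (fun x y =>
      Algebra.TensorProduct.lift (e.symm x).ofConv (e.symm y).ofConv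
        (fun _ _ => Commute.all _ _) t) := by
  induction t using TensorProduct.induction_on with
  | zero =>
    have := h97c_Sw_zero (h97cPhi e).range (h97cPhi e).range
    refine (iff_of_eq (congrArg _ ?_)).mp this
    funext x y
    rw [map_zero]
  | tmul a b =>
    have := h97c_Sw_tmul (h97cPhi e).range (h97cPhi e).range
      (a := h97cPhi e a) (b := h97cPhi e b) ⟨a, rfl⟩ ⟨b, rfl⟩
    refine (iff_of_eq (congrArg _ ?_)).mp this
    funext x y
    rw [Algebra.TensorProduct.lift_tmul]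
    rfl
  | add t t' ht ht' =>
    have := h97c_Sw_add _ _ ht ht'
    refine (iff_of_eq (congrArg _ ?_)).mp this
    funext x y
    rw [map_add]

variable {e} in
theorem h97c_Sw_Phi (hmul : ∀ f g : WithConv (H →ₐ[ratLocalizedAt p] Qb97),
      e (f * g) = e f + e g) (h : H) :
    h97c_Sw (h97cPhi e).range (h97cPhi e).range (fun x y => h97cPhi e h (x + y)) := by
  have := h97c_Sw_lift e (Coalgebra.comul h)
  refine (iff_of_eq (congrArg _ ?_)).mp this
  funext x y
  have h1 : e.symm (x + y) = e.symm x * e.symm y := by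
    apply e.injective
    rw [hmul, Equiv.apply_symm_apply, Equiv.apply_symm_apply, Equiv.apply_symm_apply]
  rw [h97cPhi_apply, h1]
  exact (AlgHom.convMul_apply (e.symm x) (e.symm y) h).symm

end OfFlat

/-- **Flat ⇒ function order.** -/
theorem h97c_hasOrder_of_flat {p : ℕ} {M : Type} [AddCommGroup M] {act : GQ97 → M → M}
    (h : h97c_Flat p M act) : h97c_HasOrder p M act := by
  obtain ⟨H, hCR, hHopf, hfin, -, -, e, hmul, hact⟩ := h
  refine ⟨(h97cPhi e).range, ?_, ?_, ?_, ?_⟩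
  · have h1 : Subalgebra.toSubmodule (h97cPhi e).range =
        (⊤ : Submodule (ratLocalizedAt p) H).map (h97cPhi e).toLinearMap := by
      ext f
      simp [AlgHom.mem_range]
    rw [h1]
    exact (Module.Finite.fg_top).map _
  · rintro _ ⟨h, rfl⟩ σ x
    exact h97cPhi_act hact σ h x
  · intro x y hxy
    apply e.symm.injective
    apply WithConv.ext
    refine AlgHom.ext fun h => ?_
    exact hxy (h97cPhi e h) ⟨h, rfl⟩
  · rintro _ ⟨h, rfl⟩
    exact h97c_Sw_Phi hmul h

/-! ## Products -/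

section Prod

variable {p : ℕ} {M₁ M₂ : Type} [AddCommGroup M₁] [AddCommGroup M₂]

/-- induction principle for the join of two subalgebras of a commutative algebra. -/
theorem h97c_sup_induction {X : Type} (S T : Subalgebra (ratLocalizedAt p) (X → Qb97))
    {P : (X → Qb97) → Prop}
    (hmul : ∀ a ∈ S, ∀ b ∈ T, P (a * b)) (hadd : ∀ f g, P f → P g → P (f + g))
    {f : X → Qb97} (hf : f ∈ S ⊔ T) : P f := by
  have h1 : f ∈ Subalgebra.toSubmodule S * Subalgebra.toSubmodule T := by
    rw [Subalgebra.mul_toSubmodule]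
    exact hf
  exact Submodule.mul_induction_on h1 hmul hadd

theorem h97c_hasOrder_prod {act₁ : GQ97 → M₁ → M₁} {act₂ : GQ97 → M₂ → M₂}
    (h₁ : h97c_HasOrder p M₁ act₁) (h₂ : h97c_HasOrder p M₂ act₂) :
    h97c_HasOrder p (M₁ × M₂) (fun σ x => (act₁ σ x.1, act₂ σ x.2)) := by
  obtain ⟨𝓗₁, hfg₁, heq₁, hsep₁, hco₁⟩ := h₁
  obtain ⟨𝓗₂, hfg₂, heq₂, hsep₂, hco₂⟩ := h₂
  set S : Subalgebra (ratLocalizedAt p) (M₁ × M₂ → Qb97) :=
    𝓗₁.map (h97cPull (p := p) (Prod.fst : M₁ × M₂ → M₁)) with hS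
  set T : Subalgebra (ratLocalizedAt p) (M₁ × M₂ → Qb97) :=
    𝓗₂.map (h97cPull (p := p) (Prod.snd : M₁ × M₂ → M₂)) with hT
  have hSle : S ≤ S ⊔ T := le_sup_left
  have hTle : T ≤ S ⊔ T := le_sup_right
  refine ⟨S ⊔ T, ?_, ?_, ?_, ?_⟩
  · rw [← Subalgebra.mul_toSubmodule]
    exact (h97c_map_fg _ _ hfg₁).mul (h97c_map_fg _ _ hfg₂)
  · intro f hf
    refine h97c_sup_induction S T (P := fun f => ∀ σ (x : M₁ × M₂),
      f (act₁ σ x.1, act₂ σ x.2) = σ (f x)) ?_ ?_ hf
    · rintro _ ⟨a, ha, rfl⟩ _ ⟨b, hb, rfl⟩ σ x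
      show a (act₁ σ x.1) * b (act₂ σ x.2) = σ (a x.1 * b x.2)
      rw [heq₁ a ha, heq₂ b hb, map_mul]
    · intro f g hf hg σ x
      rw [Pi.add_apply, Pi.add_apply, hf, hg, map_add]
  · rintro ⟨x₁, x₂⟩ ⟨y₁, y₂⟩ hxy
    have e1 : x₁ = y₁ := hsep₁ _ _ fun f hf =>
      hxy (h97cPull (p := p) (Prod.fst : M₁ × M₂ → M₁) f) (hSle ⟨f, hf, rfl⟩)
    have e2 : x₂ = y₂ := hsep₂ _ _ fun f hf =>
      hxy (h97cPull (p := p) (Prod.snd : M₁ × M₂ → M₂) f) (hTle ⟨f, hf, rfl⟩)
    rw [e1, e2]
  · intro f hf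
    refine h97c_sup_induction S T (P := fun f => h97c_Sw (S ⊔ T) (S ⊔ T)
      (fun x y => f (x + y))) ?_ ?_ hf
    · rintro _ ⟨a, ha, rfl⟩ _ ⟨b, hb, rfl⟩
      have ha' : h97c_Sw (S ⊔ T) (S ⊔ T) (fun x y : M₁ × M₂ => a (x.1 + y.1)) :=
        h97c_Sw_comap (p := p) (Prod.fst : M₁ × M₂ → M₁) (Prod.fst : M₁ × M₂ → M₁)
          (fun c hc => hSle ⟨c, hc, rfl⟩) (fun c hc => hSle ⟨c, hc, rfl⟩) (hco₁ a ha)
      have hb' : h97c_Sw (S ⊔ T) (S ⊔ T) (fun x y : M₁ × M₂ => b (x.2 + y.2)) :=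
        h97c_Sw_comap (p := p) (Prod.snd : M₁ × M₂ → M₂) (Prod.snd : M₁ × M₂ → M₂)
          (fun c hc => hTle ⟨c, hc, rfl⟩) (fun c hc => hTle ⟨c, hc, rfl⟩) (hco₂ b hb)
      exact h97c_Sw_mul _ _ ha' hb'
    · intro f g hf hg
      exact h97c_Sw_add _ _ hf hg

end Prod

/-! ## Finite powers -/

section Pi

variable {p : ℕ}

/-- a one-point module has an order (the constants). -/
theorem h97c_hasOrder_unit (M : Type) [AddCommGroup M] [Subsingleton M] (act : GQ97 → M → M) :
    h97c_HasOrder p M act := by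
  refine ⟨⊥, ?_, ?_, ?_, ?_⟩
  · rw [Algebra.toSubmodule_bot, Submodule.one_eq_span]
    exact Submodule.fg_span_singleton _
  · intro f hf σ x
    obtain ⟨r, rfl⟩ := Algebra.mem_bot.mp hf
    exact (σ.commutes (r : ℚ)).symm
  · intro x y _
    exact Subsingleton.elim x y
  · intro f hf
    obtain ⟨r, rfl⟩ := Algebra.mem_bot.mp hf
    exact h97c_Sw_const ⊥ ⊥ r

/-- finite powers of a module with an order have an order. -/
theorem h97c_hasOrder_pi {M : Type} [AddCommGroup M] {act : GQ97 → M → M}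
    (h : h97c_HasOrder p M act) (r : ℕ) :
    h97c_HasOrder p (Fin r → M) (fun σ x i => act σ (x i)) := by
  induction r with
  | zero => exact h97c_hasOrder_unit _ _
  | succ r ih =>
    have h1 := h97c_hasOrder_prod h ih
    let φ : (Fin (r + 1) → M) ≃+ M × (Fin r → M) :=
      { toFun := fun f => (f 0, Fin.tail f)
        invFun := fun x => Fin.cons x.1 x.2
        left_inv := fun f => Fin.cons_self_tail f
        right_inv := fun x => by simp
        map_add' := fun f g => rfl }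
    refine h97c_hasOrder_iso φ (fun σ x => ?_) h1
    rfl

end Pi

end Fermat.Agent.P5
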