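import Fermat.Agent.P5.H97PlaceAbs
import Fermat.Agent.P5.H88RedDiv
import Fermat.Agent.P5.H40SFData
import Fermat.Agent.P5.H36SFField

/-!
# Wave 5, pillar (P), block GEO-RR, leaf PLACE (twin, helper97): `h97p_place : H88rPlace`

The place of the special fibre at a closed point `n` of a chart `R` (`modelFin` or `modelInf`)
is the localisation of the reduced chart at `n` (`P5/H97PlaceAbs.lean`).  Inputs (all landed):

* `h36v_field` : every element of the special fibre field is a reduction;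
* `h60p_exists_unif_fin/_inf` : local uniformisers; `h60p_redDiv_fin/_inf` : local conservation
  of number (`RedUnitAt` of `x * t' ^ (-d)`, `d = ∑ ord_v x` over the places centred at `n`);
* `h60p_mem_of_gaussSmall_fin/_inf` : the kernel of the reduction on a chart;
* `h88r_exists_T` : the finite set of centred places in the support of a principal divisor.
-/

set_option autoImplicit false
set_option linter.style.haveILetI false
set_option linter.unusedSectionVars false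
set_option linter.unusedVariables false

open AlgebraicCurve ModularCurve IsLocalRing

noncomputable section

namespace Fermat.Agent.P5

open Fermat.Agent.S37 Fermat.Agent.Red.GV Fermat.Agent.Red.Match Fermat.Agent.Red
  Fermat.Agent.Red.Nz

variable {M : ℕ} [NeZero M] {A : ValuationSubring Kbar} {ℓ : ℕ}

/-- the reduction on a chart. -/
def h97pRho (R : Subring (FF M)) (hRV : R ≤ gaussV A M) : R →+* h13sFt A M :=
  (h40fRed A M).comp (Subring.inclusion hRV)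

theorem h97pRho_apply (R : Subring (FF M)) (hRV : R ≤ gaussV A M) (a : R) :
    h97pRho R hRV a = h13sRed A M ⟨(a : FF M), hRV a.2⟩ := rfl

/-- the reduction of an integral power of a Gauss unit. -/
theorem h97p_red_zpow (u : gaussV A M) (hui : (u : FF M)⁻¹ ∈ gaussV A M)
    (hu0 : (u : FF M) ≠ 0) (e : ℤ) (he : (u : FF M) ^ e ∈ gaussV A M) :
    h40fRed A M ⟨(u : FF M) ^ e, he⟩ = (h40fRed A M u) ^ e := by
  have h1 : u * ⟨(u : FF M)⁻¹, hui⟩ = 1 := Subtype.ext (mul_inv_cancel₀ hu0)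
  have h2 : h40fRed A M u * h40fRed A M ⟨(u : FF M)⁻¹, hui⟩ = 1 := by
    rw [← map_mul, h1, map_one]
  have h3 : h40fRed A M ⟨(u : FF M)⁻¹, hui⟩ = (h40fRed A M u)⁻¹ :=
    eq_inv_of_mul_eq_one_right h2
  obtain ⟨m, rfl | rfl⟩ := e.eq_nat_or_neg
  · have h4 : (⟨(u : FF M) ^ (m : ℤ), he⟩ : gaussV A M) = u ^ m := by
      apply Subtype.ext
      show (u : FF M) ^ (m : ℤ) = ((u ^ m : gaussV A M) : FF M)
      rw [zpow_natCast]
      rfl
    rw [h4, map_pow, zpow_natCast]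
  · have h4 : (⟨(u : FF M) ^ (-(m : ℤ)), he⟩ : gaussV A M) =
        (⟨(u : FF M)⁻¹, hui⟩ : gaussV A M) ^ m := by
      apply Subtype.ext
      show (u : FF M) ^ (-(m : ℤ)) = (((⟨(u : FF M)⁻¹, hui⟩ : gaussV A M) ^ m : gaussV A M) : FF M)
      rw [zpow_neg, zpow_natCast, ← inv_pow]
      rfl
    rw [h4, map_pow, h3, zpow_neg, zpow_natCast, inv_pow]

/-- the data of the abstract core at a closed point of a chart. -/
theorem h97p_data (hℓ : ℓ.Prime) (hM : ¬ ℓ ∣ M) (haux : auxLevel ℓ ∣ M)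
    (hA : A.LiesOverPrime ℓ)
    (R : Subring (FF M)) (hRV : R ≤ gaussV A M)
    (n : Ideal R) [hn : n.IsPrime]
    (hker : ∀ z : R, GaussSmall A M (z : FF M) → z ∈ n)
    (t' : R) (ht'n : t' ∈ n) (ht'0 : (t' : FF M) ≠ 0) (ht'V : (t' : FF M)⁻¹ ∈ gaussV A M)
    (hord : ∀ (x : FF M), x ≠ 0 → x ∈ gaussV A M → x⁻¹ ∈ gaussV A M →
      ∀ T₀ : Finset (Place Kbar (FF M)), (∀ v ∈ T₀, CenteredAt A R n v) →
      (∀ v : Place Kbar (FF M), CenteredAt A R n v → v.ord x ≠ 0 → v ∈ T₀) →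
      RedUnitAt A R n (x * (t' : FF M) ^ (-(∑ v ∈ T₀, v.ord x)))) :
    H97pData (h97pRho R hRV).range (n.primeCompl.map (h97pRho R hRV)) (h97pRho R hRV t') := by
  have hτ0 : h97pRho R hRV t' ≠ 0 := by
    intro h0
    have h1 : h40fRed A M ⟨(t' : FF M), hRV t'.2⟩ = 0 := h0
    rw [h40fRed_eq_zero_iff A M hℓ hM hA] at h1
    rcases h1 with h1 | h1
    · exact ht'0 h1
    · exact h1 ht'V
  refine ⟨?_, ⟨t', rfl⟩, hτ0, ?_, ?_⟩
  · rintro _ ⟨b, -, rfl⟩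
    exact ⟨b, rfl⟩
  · intro y hy
    obtain ⟨x, hx⟩ := h36v_field ℓ hℓ M hM haux A hA y
    have hx' : h40fRed A M x ≠ 0 := by
      intro h0
      apply hy
      rw [← hx]
      exact h0
    rw [Ne, h40fRed_eq_zero_iff A M hℓ hM hA, not_or, not_not] at hx'
    obtain ⟨hx0, hxi⟩ := hx'
    obtain ⟨T₀, hT₀c, hT₀all⟩ := h88r_exists_T (A := A) R n (x : FF M) hx0
    obtain ⟨a, b, ha, hb, hzV, hz0⟩ := hord (x : FF M) hx0 x.2 hxi T₀ hT₀c hT₀all
    set d : ℤ := ∑ v ∈ T₀, v.ord (x : FF M) with hd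
    have htV : (t' : FF M) ^ (-d) ∈ gaussV A M := h26_zpow_mem _ (hRV t'.2) ht'V _
    refine ⟨d, h97pRho R hRV a, ⟨a, ha, rfl⟩, h97pRho R hRV b, ⟨b, hb, rfl⟩, ?_⟩
    have h1 : (⟨(x : FF M) * (t' : FF M) ^ (-d) * (b : FF M) - (a : FF M), hzV⟩ : gaussV A M) =
        x * ⟨(t' : FF M) ^ (-d), htV⟩ * ⟨(b : FF M), hRV b.2⟩ - ⟨(a : FF M), hRV a.2⟩ := rfl
    have h2 : h40fRed A M (x * ⟨(t' : FF M) ^ (-d), htV⟩ * ⟨(b : FF M), hRV b.2⟩ -
        ⟨(a : FF M), hRV a.2⟩) = 0 := by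
      rw [← h1]
      exact (h88r_red_eq_zero_iff _).mpr hz0
    rw [map_sub, map_mul, map_mul, sub_eq_zero,
      h97p_red_zpow ⟨(t' : FF M), hRV t'.2⟩ ht'V ht'0 (-d) htV] at h2
    rw [← hx]
    exact h2
  · rintro _ ⟨a, rfl⟩ _ ⟨b, hb, rfl⟩ he
    apply hb
    have h1 : h97pRho R hRV (b - t' * a) = 0 := by
      rw [map_sub, map_mul, he, sub_self]
    have h2 : GaussSmall A M (((b - t' * a : R) : R) : FF M) :=
      ⟨hRV (b - t' * a : R).2, (h88r_red_eq_zero_iff _).mp h1⟩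
    have h3 := hker _ h2
    have h4 : b = (b - t' * a) + t' * a := by ring
    show b ∈ n
    rw [h4]
    exact n.add_mem h3 (n.mul_mem_right _ ht'n)

/-- the constants lie in the reduced chart. -/
theorem h97p_const (R : Subring (FF M)) (hRV : R ≤ gaussV A M)
    (hcst : ∀ a : Kbar, a ∈ A → cst M a ∈ R) (c : h13sK A) :
    algebraMap (h13sK A) (h13sFt A M) c ∈ (h97pRho R hRV).range := by
  obtain ⟨a, rfl⟩ := h40f_pi_surjective A c
  refine ⟨⟨cst M (a : Kbar), hcst _ a.2⟩, ?_⟩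
  exact h40fRed_cst A M a

/-- **PLACE at a closed point of a chart**, generic form. -/
theorem h97p_place_gen (hℓ : ℓ.Prime) (hM : ¬ ℓ ∣ M) (haux : auxLevel ℓ ∣ M)
    (hA : A.LiesOverPrime ℓ)
    (R : Subring (FF M)) (hRV : R ≤ gaussV A M) (hcst : ∀ a : Kbar, a ∈ A → cst M a ∈ R)
    (n : Ideal R) [hn : n.IsPrime]
    (hker : ∀ z : R, GaussSmall A M (z : FF M) → z ∈ n)
    (t' : R) (ht'n : t' ∈ n) (ht'0 : (t' : FF M) ≠ 0) (ht'V : (t' : FF M)⁻¹ ∈ gaussV A M)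
    (hord : ∀ (x : FF M), x ≠ 0 → x ∈ gaussV A M → x⁻¹ ∈ gaussV A M →
      ∀ T₀ : Finset (Place Kbar (FF M)), (∀ v ∈ T₀, CenteredAt A R n v) →
      (∀ v : Place Kbar (FF M), CenteredAt A R n v → v.ord x ≠ 0 → v ∈ T₀) →
      RedUnitAt A R n (x * (t' : FF M) ^ (-(∑ v ∈ T₀, v.ord x)))) :
    ∃ Q : Place (h13sK A) (h13sFt A M), H88rAt A M R n Q ∧ H88rOrdAt A M R n Q := by
  have hD := h97p_data hℓ hM haux hA R hRV n hker t' ht'n ht'0 ht'V hord
  have hk := h97p_const R hRV hcst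
  refine ⟨h97pPlace hD hk, ?_, ?_⟩
  · intro y
    rw [h97p_mem_place hD hk]
    constructor
    · rintro ⟨_, ⟨a, rfl⟩, _, ⟨b, hb, rfl⟩, e⟩
      exact ⟨a, b, hRV a.2, hRV b.2, hb, e⟩
    · rintro ⟨a, b, ha, hb, hbn, e⟩
      exact ⟨_, ⟨a, rfl⟩, _, ⟨b, hbn, rfl⟩, e⟩
  · intro x hx hx0 hxi T₀ hT₀c hT₀all
    obtain ⟨a, b, ha, hb, hzV, hz0⟩ := hord x hx0 hx hxi T₀ hT₀c hT₀all
    set d : ℤ := ∑ v ∈ T₀, v.ord x with hd
    have htV : (t' : FF M) ^ (-d) ∈ gaussV A M := h26_zpow_mem _ (hRV t'.2) ht'V _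
    have h1 : (⟨x * (t' : FF M) ^ (-d) * (b : FF M) - (a : FF M), hzV⟩ : gaussV A M) =
        ⟨x, hx⟩ * ⟨(t' : FF M) ^ (-d), htV⟩ * ⟨(b : FF M), hRV b.2⟩ - ⟨(a : FF M), hRV a.2⟩ :=
      rfl
    have h2 : h40fRed A M (⟨x, hx⟩ * ⟨(t' : FF M) ^ (-d), htV⟩ * ⟨(b : FF M), hRV b.2⟩ -
        ⟨(a : FF M), hRV a.2⟩) = 0 := by
      rw [← h1]
      exact (h88r_red_eq_zero_iff _).mpr hz0
    rw [map_sub, map_mul, map_mul, sub_eq_zero,
      h97p_red_zpow ⟨(t' : FF M), hRV t'.2⟩ ht'V ht'0 (-d) htV] at h2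
    exact h97p_ord hD hk (a := h97pRho R hRV a) (b := h97pRho R hRV b) ⟨a, ha, rfl⟩
      ⟨b, hb, rfl⟩ h2

/-- **PLACE** (twin of the leaf of `P5/H88RedDivIface.lean`). -/
theorem h97p_place : H88rPlace := by
  intro ℓ hℓ M _ hM haux A hA
  refine ⟨fun n hn hmax => ?_, fun n hn hmax => ?_⟩
  · have hle := h89_map_le (jB M) n hmax
    obtain ⟨t', ht'n, ht'0, ht'V, hprin⟩ := h60p_exists_unif_fin hℓ hM haux hA n hn hle
    haveI hnP : n.IsPrime := hn.isPrime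
    exact h97p_place_gen hℓ hM haux hA (modelFin M A) (modelFin_le_gaussV A M hℓ hM hA)
      (fun a ha => h88r_cst_fin a ha) n
      (fun z hz => hmax (h60p_mem_of_gaussSmall_fin hℓ hM hA z hz))
      (⟨(t' : FF M), t'.2⟩ : modelFin M A) ht'n ht'0 ht'V
      (fun x hx0 hxV hxiV T₀ hT₀c hT₀all =>
        h60p_redDiv_fin hℓ hM haux hA n hn hmax t' ht'n ht'0 ht'V hprin x hx0 hxV hxiV T₀
          hT₀c hT₀all)
  · have hle := h89_map_le (jB M)⁻¹ n hmax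
    obtain ⟨t', ht'n, ht'0, ht'V, hprin⟩ := h60p_exists_unif_inf hℓ hM haux hA n hn hle
    haveI hnP : n.IsPrime := hn.isPrime
    exact h97p_place_gen hℓ hM haux hA (modelInf M A) (modelInf_le_gaussV A M hℓ hM hA)
      (fun a ha => cst_mem_modelAt M A _ ha) n
      (fun z hz => hmax (h60p_mem_of_gaussSmall_inf hℓ hM hA z hz))
      (⟨(t' : FF M), t'.2⟩ : modelInf M A) ht'n ht'0 ht'V
      (fun x hx0 hxV hxiV T₀ hT₀c hT₀all =>
        h60p_redDiv_inf hℓ hM haux hA n hn hmax t' ht'n ht'0 ht'V hprin x hx0 hxV hxiV T₀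
          hT₀c hT₀all)

end Fermat.Agent.P5
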