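import Mathlib
import Fermat.Prelude.Def_AlgebraicCurve_DivisorClassGroup

/-!
# Wave 5, pillar (P), block GEO-RR, leaf PLACE (twin, helper97): the abstract core

`F` a field, `Rt` a subring (the reduced chart), `S` a submonoid (the reductions of the
functions of the chart which do not vanish at the closed point), `τ` (the reduction of a local
uniformiser).  Hypotheses `H97pData Rt S τ`: every `y ≠ 0` of `F` is `τ ^ d * a / b` with
`a, b ∈ S`, and no element of `S` is divisible by `τ` in `Rt`.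

Then the set of fractions `a / b`, `a ∈ Rt`, `b ∈ S`, is a valuation subring of `F` which is a
discrete valuation ring with uniformiser `τ` (`h97pVal`, `h97p_dvr`), it defines a place
(`h97pPlace`), and the order of `τ ^ d * a / b` (`a, b ∈ S`) at this place is `d` (`h97p_ord`).
-/

set_option autoImplicit false
set_option linter.style.haveILetI false
set_option linter.unusedSectionVars false

noncomputable section

namespace Fermat.Agent.P5

open AlgebraicCurve

section Core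

variable {F : Type*} [Field F]

/-- the hypotheses of the abstract core. -/
structure H97pData (Rt : Subring F) (S : Submonoid F) (τ : F) : Prop where
  S_le : ∀ b ∈ S, b ∈ Rt
  tau_mem : τ ∈ Rt
  tau_ne : τ ≠ 0
  fact : ∀ y : F, y ≠ 0 → ∃ d : ℤ, ∃ a ∈ S, ∃ b ∈ S, y * τ ^ (-d) * b = a
  not_dvd : ∀ a ∈ Rt, ∀ b ∈ S, b ≠ τ * a

variable {Rt : Subring F} {S : Submonoid F} {τ : F}

theorem h97p_ne_zero (h : H97pData Rt S τ) {b : F} (hb : b ∈ S) : b ≠ 0 := by
  intro h0
  exact h.not_dvd 0 Rt.zero_mem b hb (by rw [h0, mul_zero])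

/-- comparison of exponents. -/
theorem h97p_le_of (h : H97pData Rt S τ) {y : F} {d d' : ℤ} {a b a' b' : F}
    (ha : a ∈ S) (hb : b ∈ S) (ha' : a' ∈ Rt) (hb' : b' ∈ S)
    (e : y * τ ^ (-d) * b = a) (e' : y * τ ^ (-d') * b' = a') : d' ≤ d := by
  by_contra hlt
  rw [not_le] at hlt
  obtain ⟨m, hm⟩ := Int.eq_ofNat_of_zero_le (show (0 : ℤ) ≤ d' - d - 1 by omega)
  have h1 : τ ^ (-d) = τ ^ (-d') * (τ * τ ^ m) := by
    have h0 : τ * τ ^ (d' - d - 1) = τ ^ (1 + (d' - d - 1)) := by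
      rw [zpow_add₀ h.tau_ne, zpow_one]
    rw [← zpow_natCast τ m, ← hm, h0, ← zpow_add₀ h.tau_ne]
    congr 1
    ring
  have h2 : a * b' = τ * (τ ^ m * a' * b) := by
    rw [← e, ← e', h1]
    ring
  exact h.not_dvd _ (Rt.mul_mem (Rt.mul_mem (Rt.pow_mem h.tau_mem m) ha') (h.S_le _ hb))
    _ (S.mul_mem ha hb') h2

/-- uniqueness of the exponent. -/
theorem h97p_exp_unique (h : H97pData Rt S τ) {y : F} {d d' : ℤ} {a b a' b' : F}
    (ha : a ∈ S) (hb : b ∈ S) (ha' : a' ∈ S) (hb' : b' ∈ S)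
    (e : y * τ ^ (-d) * b = a) (e' : y * τ ^ (-d') * b' = a') : d = d' :=
  le_antisymm (h97p_le_of h ha' hb' (h.S_le _ ha) hb e' e)
    (h97p_le_of h ha hb (h.S_le _ ha') hb' e e')

/-- the local ring of fractions, as a valuation subring. -/
def h97pVal (h : H97pData Rt S τ) : ValuationSubring F where
  carrier := {y | ∃ a ∈ Rt, ∃ b ∈ S, y * b = a}
  mul_mem' := by
    rintro y y' ⟨a, ha, b, hb, e⟩ ⟨a', ha', b', hb', e'⟩
    exact ⟨a * a', Rt.mul_mem ha ha', b * b', S.mul_mem hb hb', by rw [← e, ← e']; ring⟩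
  one_mem' := ⟨1, Rt.one_mem, 1, S.one_mem, by rw [mul_one]⟩
  add_mem' := by
    rintro y y' ⟨a, ha, b, hb, e⟩ ⟨a', ha', b', hb', e'⟩
    exact ⟨a * b' + a' * b,
      Rt.add_mem (Rt.mul_mem ha (h.S_le _ hb')) (Rt.mul_mem ha' (h.S_le _ hb)),
      b * b', S.mul_mem hb hb', by rw [← e, ← e']; ring⟩
  zero_mem' := ⟨0, Rt.zero_mem, 1, S.one_mem, by rw [zero_mul]⟩
  neg_mem' := by
    rintro y ⟨a, ha, b, hb, e⟩
    exact ⟨-a, Rt.neg_mem ha, b, hb, by rw [← e]; ring⟩
  mem_or_inv_mem' := by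
    intro y
    by_cases hy : y = 0
    · left
      rw [hy]
      exact ⟨0, Rt.zero_mem, 1, S.one_mem, by rw [zero_mul]⟩
    · obtain ⟨d, a, ha, b, hb, e⟩ := h.fact y hy
      rcases le_or_gt 0 d with hd | hd
      · left
        obtain ⟨m, hm⟩ := Int.eq_ofNat_of_zero_le hd
        refine ⟨a * τ ^ m, Rt.mul_mem (h.S_le _ ha) (Rt.pow_mem h.tau_mem m), b, hb, ?_⟩
        have h1 : τ ^ (-d) * τ ^ d = 1 := by
          rw [← zpow_add₀ h.tau_ne, neg_add_cancel, zpow_zero]
        have h2 : a * τ ^ m = y * b * (τ ^ (-d) * τ ^ d) := by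
          rw [← e, ← zpow_natCast τ m, ← hm]
          ring
        rw [h2, h1, mul_one]
      · right
        obtain ⟨m, hm⟩ := Int.eq_ofNat_of_zero_le (show (0 : ℤ) ≤ -d by omega)
        refine ⟨b * τ ^ m, Rt.mul_mem (h.S_le _ hb) (Rt.pow_mem h.tau_mem m), a, ha, ?_⟩
        rw [← e, ← zpow_natCast τ m, ← hm]
        field_simp

theorem h97p_mem_val (h : H97pData Rt S τ) {y : F} :
    y ∈ h97pVal h ↔ ∃ a ∈ Rt, ∃ b ∈ S, y * b = a :=
  Iff.rfl

/-- elements of the local ring have non-negative exponent. -/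
theorem h97p_exp_nonneg (h : H97pData Rt S τ) {y : F} (hy : y ∈ h97pVal h) {d : ℤ} {a b : F}
    (ha : a ∈ S) (hb : b ∈ S) (e : y * τ ^ (-d) * b = a) : 0 ≤ d := by
  obtain ⟨a', ha', b', hb', e'⟩ := hy
  refine h97p_le_of h ha hb ha' hb' e ?_
  rw [neg_zero, zpow_zero, mul_one]
  exact e'

/-- the uniformiser, in the local ring. -/
def h97pPi (h : H97pData Rt S τ) : h97pVal h :=
  ⟨τ, ⟨τ, h.tau_mem, 1, S.one_mem, mul_one τ⟩⟩

/-- the unit `a / b`, `a, b ∈ S`. -/
def h97pUnit (h : H97pData Rt S τ) {a b : F} (ha : a ∈ S) (hb : b ∈ S) : (h97pVal h)ˣ where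
  val := ⟨a / b, ⟨a, h.S_le _ ha, b, hb, div_mul_cancel₀ a (h97p_ne_zero h hb)⟩⟩
  inv := ⟨b / a, ⟨b, h.S_le _ hb, a, ha, div_mul_cancel₀ b (h97p_ne_zero h ha)⟩⟩
  val_inv := by
    apply Subtype.ext
    show a / b * (b / a) = 1
    have := h97p_ne_zero h ha
    have := h97p_ne_zero h hb
    field_simp
  inv_val := by
    apply Subtype.ext
    show b / a * (a / b) = 1
    have := h97p_ne_zero h ha
    have := h97p_ne_zero h hb
    field_simp

theorem h97pUnit_coe (h : H97pData Rt S τ) {a b : F} (ha : a ∈ S) (hb : b ∈ S) :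
    (((h97pUnit h ha hb : (h97pVal h)ˣ) : h97pVal h) : F) = a / b := rfl

/-- the factorisation `y = (a / b) * τ ^ d`. -/
theorem h97p_eq_of (h : H97pData Rt S τ) {y : F} {d : ℤ} {a b : F}
    (hb : b ∈ S) (e : y * τ ^ (-d) * b = a) : y = a / b * τ ^ d := by
  have hb0 := h97p_ne_zero h hb
  have h1 : τ ^ (-d) * τ ^ d = 1 := by
    rw [← zpow_add₀ h.tau_ne, neg_add_cancel, zpow_zero]
  rw [← e]
  field_simp
  rw [mul_assoc, h1, mul_one]

theorem h97p_pi_not_isUnit (h : H97pData Rt S τ) : ¬ IsUnit (h97pPi h) := by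
  intro hu
  obtain ⟨z, hz⟩ := isUnit_iff_exists_inv.mp hu
  obtain ⟨a, ha, b, hb, e⟩ := z.2
  have h1 : τ * (z : F) = 1 := congrArg Subtype.val hz
  refine h.not_dvd a ha b hb ?_
  rw [← e, ← mul_assoc, h1, one_mul]

theorem h97p_pi_irreducible (h : H97pData Rt S τ) : Irreducible (h97pPi h) := by
  rw [irreducible_iff]
  refine ⟨h97p_pi_not_isUnit h, fun x y hxy => ?_⟩
  have hxyF : τ = (x : F) * (y : F) := congrArg Subtype.val hxy
  have hx0 : (x : F) ≠ 0 := by
    intro h0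
    rw [h0, zero_mul] at hxyF
    exact h.tau_ne hxyF
  have hy0 : (y : F) ≠ 0 := by
    intro h0
    rw [h0, mul_zero] at hxyF
    exact h.tau_ne hxyF
  obtain ⟨d, a, ha, b, hb, e⟩ := h.fact _ hx0
  obtain ⟨d', a', ha', b', hb', e'⟩ := h.fact _ hy0
  have hd := h97p_exp_nonneg h x.2 ha hb e
  have hd' := h97p_exp_nonneg h y.2 ha' hb' e'
  have e1 : τ * τ ^ (-(d + d')) * (b * b') = a * a' := by
    have h1 : τ ^ (-(d + d')) = τ ^ (-d) * τ ^ (-d') := by
      rw [neg_add, zpow_add₀ h.tau_ne]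
    have h2 : (x : F) * τ ^ (-d) * b * ((y : F) * τ ^ (-d') * b') =
        ((x : F) * (y : F)) * (τ ^ (-d) * τ ^ (-d')) * (b * b') := by ring
    rw [← e, ← e', h1, h2, ← hxyF]
  have e2 : τ * τ ^ (-(1 : ℤ)) * 1 = 1 := by
    rw [mul_one, zpow_neg, zpow_one, mul_inv_cancel₀ h.tau_ne]
  have h3 : d + d' = 1 :=
    h97p_exp_unique h (S.mul_mem ha ha') (S.mul_mem hb hb') S.one_mem S.one_mem e1 e2
  rcases (show d = 0 ∨ d' = 0 by omega) with h0 | h0
  · left
    have h4 := h97p_eq_of h hb e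
    rw [h0, zpow_zero, mul_one] at h4
    have h5 : x = ((h97pUnit h ha hb : (h97pVal h)ˣ) : h97pVal h) := Subtype.ext h4
    rw [h5]
    exact Units.isUnit _
  · right
    have h4 := h97p_eq_of h hb' e'
    rw [h0, zpow_zero, mul_one] at h4
    have h5 : y = ((h97pUnit h ha' hb' : (h97pVal h)ˣ) : h97pVal h) := Subtype.ext h4
    rw [h5]
    exact Units.isUnit _

/-- the local ring is a discrete valuation ring. -/
theorem h97p_dvr (h : H97pData Rt S τ) : IsDiscreteValuationRing (h97pVal h) := by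
  refine IsDiscreteValuationRing.ofHasUnitMulPowIrreducibleFactorization
    ⟨h97pPi h, h97p_pi_irreducible h, fun {x} hx => ?_⟩
  have hx0 : (x : F) ≠ 0 := fun h0 => hx (Subtype.ext h0)
  obtain ⟨d, a, ha, b, hb, e⟩ := h.fact _ hx0
  obtain ⟨m, hm⟩ := Int.eq_ofNat_of_zero_le (h97p_exp_nonneg h x.2 ha hb e)
  refine ⟨m, h97pUnit h ha hb, ?_⟩
  apply Subtype.ext
  have h4 := h97p_eq_of h hb e
  rw [hm, zpow_natCast] at h4
  show τ ^ m * (a / b) = (x : F)
  rw [h4, mul_comm]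

end Core

section PlaceSec

variable {k F : Type*} [Field k] [Field F] [Algebra k F]
  {Rt : Subring F} {S : Submonoid F} {τ : F}

/-- the place defined by the local ring. -/
def h97pPlace (h : H97pData Rt S τ) (hk : ∀ c : k, algebraMap k F c ∈ Rt) : Place k F where
  toValuationSubring := h97pVal h
  algebraMap_mem' := fun c => ⟨_, hk c, 1, S.one_mem, mul_one _⟩
  ne_top' := by
    intro htop
    have h1 : τ⁻¹ ∈ h97pVal h := by
      rw [htop]
      exact ValuationSubring.mem_top _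
    obtain ⟨a, ha, b, hb, e⟩ := h1
    refine h.not_dvd a ha b hb ?_
    rw [← e, ← mul_assoc, mul_inv_cancel₀ h.tau_ne, one_mul]
  isPrincipalIdealRing' := by
    haveI := h97p_dvr h
    infer_instance

theorem h97pPlace_val (h : H97pData Rt S τ) (hk : ∀ c : k, algebraMap k F c ∈ Rt) :
    (h97pPlace h hk).toValuationSubring = h97pVal h := rfl

theorem h97p_mem_place (h : H97pData Rt S τ) (hk : ∀ c : k, algebraMap k F c ∈ Rt) {y : F} :
    y ∈ (h97pPlace h hk).toValuationSubring ↔ ∃ a ∈ Rt, ∃ b ∈ S, y * b = a :=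
  Iff.rfl

/-- **the order at the place** of `τ ^ d * a / b`, `a, b ∈ S`, is `d`. -/
theorem h97p_ord (h : H97pData Rt S τ) (hk : ∀ c : k, algebraMap k F c ∈ Rt) {y : F} {d : ℤ}
    {a b : F} (ha : a ∈ S) (hb : b ∈ S) (e : y * τ ^ (-d) * b = a) :
    (h97pPlace h hk).ord y = d := by
  have h1 := (h97pPlace h hk).ord_unit_smul_zpow (h97pUnit h ha hb)
    (π := h97pPi h) (h97p_pi_irreducible h) d
  have h2 : y = a / b * τ ^ d := h97p_eq_of h hb e
  rw [h2]
  exact h1

end PlaceSec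

end Fermat.Agent.P5
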