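import Fermat.Agent.P5.Skeleton
import Fermat.Agent.P5.H97FlatClos

/-!
# Wave 5, pillar (P), row TOP-A2 (helper97): `H98pSubquot`

`h97c_subquot : H98pSubquot` — flatness passes to Galois-subquotients of finite powers
(`h97c_flat_pi` + `h97c_flat_subquot` of `P5/H97FlatClos.lean`).  The continuity hypotheses
`H98pIsGalAct` and the finiteness hypotheses are not needed.
-/

set_option autoImplicit false

namespace Fermat.Agent.P5

theorem h97c_subquot : H98pSubquot := by
  intro p _ M W _ _ _ _ actM actW _ _ hflat r X φ hX hφ hsurj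
  have hpi := h97c_flat_pi (p := p) hflat r
  exact h97c_flat_subquot (p := p) (M := Fin r → M) (act := fun σ x i => actM σ (x i))
    (actQ := actW) X hX φ hsurj
    (fun σ x => hφ σ x ⟨fun i => actM σ ((x : Fin r → M) i), hX σ x x.2⟩ (fun _ => rfl)) hpi

end Fermat.Agent.P5
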