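import Fermat.Agent.P5.H47DescIface
import Fermat.Agent.P5.H98Zp
import Fermat.Agent.P5.H72Arch
import Fermat.Agent.P5.H70ClosAdapt

/-!
# Wave 5, pillar (P), row DESC-ASM (helper98): basics — twists, coordinates, arithmetic of `A`, the ring `B^ur`

`twist τ f = τ ∘ f ∘ act τ⁻¹`; coordinates of functions in a `ℚ̄`-basis of functions fixed by the
twists; bounds for the coordinates of `A`-valued functions (`A` archimedean).
-/

set_option autoImplicit false
set_option linter.style.haveILetI false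
set_option linter.unusedSectionVars false

open GaloisRep

noncomputable section

namespace Fermat.Agent.P5

/-! ## Twists -/

/-- the twist `f ↦ τ ∘ f ∘ act τ⁻¹`. -/
def h98dTw {M : Type} (act : H98pGQ → M → M) (τ : H98pGQ) (f : M → H98pQb) : M → H98pQb :=
  fun x => τ (f (act τ⁻¹ x))

section tw

variable {M : Type} (act : H98pGQ → M → M) (τ : H98pGQ)

theorem h98dTw_apply (f : M → H98pQb) (x : M) : h98dTw act τ f x = τ (f (act τ⁻¹ x)) := rfl

theorem h98dTw_add (f g : M → H98pQb) :
    h98dTw act τ (f + g) = h98dTw act τ f + h98dTw act τ g := by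
  funext x; simp [h98dTw]

theorem h98dTw_mul (f g : M → H98pQb) :
    h98dTw act τ (f * g) = h98dTw act τ f * h98dTw act τ g := by
  funext x; simp [h98dTw]

theorem h98dTw_neg (f : M → H98pQb) : h98dTw act τ (-f) = -h98dTw act τ f := by
  funext x; simp [h98dTw]

theorem h98dTw_zero : h98dTw act τ (0 : M → H98pQb) = 0 := by
  funext x; simp [h98dTw]

theorem h98dTw_one : h98dTw act τ (1 : M → H98pQb) = 1 := by
  funext x; simp [h98dTw]

theorem h98dTw_const (c : H98pQb) : h98dTw act τ (fun _ => c) = fun _ => τ c := rfl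

theorem h98dTw_smul (c : H98pQb) (f : M → H98pQb) :
    h98dTw act τ (c • f) = τ c • h98dTw act τ f := by
  funext x; simp [h98dTw]

theorem h98dTw_sum {ι : Type} (s : Finset ι) (f : ι → M → H98pQb) :
    h98dTw act τ (∑ i ∈ s, f i) = ∑ i ∈ s, h98dTw act τ (f i) := by
  classical
  induction s using Finset.induction_on with
  | empty => simp [h98dTw_zero]
  | insert a s ha ih => rw [Finset.sum_insert ha, Finset.sum_insert ha, h98dTw_add, ih]

variable {act τ} [AddCommGroup M]

theorem h98d_act_inv (hact : H98pIsGalAct act) (x : M) : act τ (act τ⁻¹ x) = x := by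
  rw [← hact.mul, mul_inv_cancel, hact.one]

theorem h98d_act_inv' (hact : H98pIsGalAct act) (x : M) : act τ⁻¹ (act τ x) = x := by
  rw [← hact.mul, inv_mul_cancel, hact.one]

theorem h98dTw_eq_self (hact : H98pIsGalAct act) {f : M → H98pQb}
    (hf : ∀ x, f (act τ x) = τ (f x)) : h98dTw act τ f = f := by
  funext x
  rw [h98dTw_apply, ← hf, h98d_act_inv hact]

theorem h98d_equiv_of_tw (hact : H98pIsGalAct act) {f : M → H98pQb}
    (hf : h98dTw act τ f = f) (x : M) : f (act τ x) = τ (f x) := by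
  have := congrFun hf (act τ x)
  rw [h98dTw_apply, h98d_act_inv' hact] at this
  exact this.symm

end tw

/-! ## Coordinates -/

section coord

variable {M ι : Type} [Fintype ι] (b : ι → M → H98pQb)

theorem h98d_exists_coord (hsp : Submodule.span H98pQb (Set.range b) = ⊤) (f : M → H98pQb) :
    ∃ c : ι → H98pQb, f = ∑ i, c i • b i := by
  have hf : f ∈ Submodule.span H98pQb (Set.range b) := by rw [hsp]; trivial
  obtain ⟨c, hc⟩ := (Submodule.mem_span_range_iff_exists_fun H98pQb).mp hf
  exact ⟨c, hc.symm⟩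

theorem h98d_coord_unique (hli : LinearIndependent H98pQb b) {c c' : ι → H98pQb}
    (h : ∑ i, c i • b i = ∑ i, c' i • b i) : c = c' := by
  have h0 : ∑ i, (c i - c' i) • b i = 0 := by
    simp only [sub_smul, Finset.sum_sub_distrib, h, sub_self]
  funext i
  exact sub_eq_zero.mp (Fintype.linearIndependent_iff.mp hli _ h0 i)

/-- coordinates of a function fixed by a twist, in a basis fixed by the twist, are fixed. -/
theorem h98d_coord_fixed (act : H98pGQ → M → M) (τ : H98pGQ)
    (hli : LinearIndependent H98pQb b) (hb : ∀ i, h98dTw act τ (b i) = b i)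
    {f : M → H98pQb} (hf : h98dTw act τ f = f) {c : ι → H98pQb} (hc : f = ∑ i, c i • b i)
    (i : ι) : τ (c i) = c i := by
  have h1 : h98dTw act τ f = ∑ i, τ (c i) • b i := by
    rw [hc, h98dTw_sum]
    refine Finset.sum_congr rfl fun i _ => ?_
    rw [h98dTw_smul, hb]
  rw [hf, hc] at h1
  exact (congrFun (h98d_coord_unique b hli h1) i).symm

/-- the twist acts on coordinates coefficientwise. -/
theorem h98d_tw_coord (act : H98pGQ → M → M) (τ : H98pGQ)
    (hb : ∀ i, h98dTw act τ (b i) = b i) (c : ι → H98pQb) :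
    h98dTw act τ (∑ i, c i • b i) = ∑ i, τ (c i) • b i := by
  rw [h98dTw_sum]
  refine Finset.sum_congr rfl fun i _ => ?_
  rw [h98dTw_smul, hb]

end coord

/-! ## Arithmetic of `A` -/

section arith

variable (p : ℕ) [hp : Fact p.Prime] (A : ValuationSubring H98pQb) (hA : A.LiesOverPrime p)

include hA in
/-- every algebraic number becomes `A`-integral after multiplication by a power of `p`. -/
theorem h98d_pow_mul_mem (c : H98pQb) : ∃ a : ℕ, ∀ a' : ℕ, a ≤ a' → (p : H98pQb) ^ a' * c ∈ A := by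
  have hpA : (p : H98pQb) ∈ A := A.nonunits_le hA
  have harch := h72a_archQbar A p hp.out hA
  have key : ∃ a : ℕ, (p : H98pQb) ^ a * c ∈ A := by
    by_cases hc : c ∈ A
    · exact ⟨0, by simpa using hc⟩
    · have hc0 : c ≠ 0 := fun h => hc (h ▸ A.zero_mem)
      have hci : c⁻¹ ∈ A := (A.mem_or_inv_mem c).resolve_left hc
      obtain ⟨n, a, ha, hna⟩ := harch (p : H98pQb) c⁻¹ hA hci (inv_ne_zero hc0)
      refine ⟨n, ?_⟩
      rw [hna, mul_comm c⁻¹ a, mul_assoc, inv_mul_cancel₀ hc0, mul_one]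
      exact ha
  obtain ⟨a, ha⟩ := key
  refine ⟨a, fun a' ha' => ?_⟩
  obtain ⟨d, rfl⟩ := Nat.exists_eq_add_of_le ha'
  rw [pow_add, mul_comm ((p : H98pQb) ^ a) _, mul_assoc]
  exact A.mul_mem _ _ (A.pow_mem hpA d) ha

include hA in
theorem h98d_pow_mul_mem_fin {κ : Type} [Finite κ] (c : κ → H98pQb) :
    ∃ a : ℕ, ∀ k, (p : H98pQb) ^ a * c k ∈ A := by
  classical
  haveI := Fintype.ofFinite κ
  choose a ha using fun k => h98d_pow_mul_mem p A hA (c k)
  exact ⟨Finset.univ.sup a, fun k => ha k _ (Finset.le_sup (Finset.mem_univ k))⟩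

include hA in
/-- `ℤ_(p) ⊆ A`. -/
theorem h98d_zp_mem (r : ratLocalizedAt p) : ((r : ℚ) : H98pQb) ∈ A := by
  have hden : (r : ℚ).den.Coprime p := r.2
  have hnd : ¬ p ∣ (r : ℚ).den := fun h =>
    (Nat.Prime.coprime_iff_not_dvd hp.out).mp hden.symm h
  have hv : A.valuation (((r : ℚ).den : ℕ) : H98pQb) = 1 :=
    h72a_val_natCast_eq_one A hp.out hA hnd
  rw [← A.valuation_le_one_iff, Rat.cast_def, map_div₀, hv, div_one]
  exact h72a_val_intCast_le A _

include hA in
/-- `A ∩ ℚ ⊆ ℤ_(p)`. -/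
theorem h98d_rat_mem_zp (x : ℚ) (hx : (x : H98pQb) ∈ A) : x ∈ ratLocalizedAt p := by
  show x.den.Coprime p
  rw [Nat.coprime_comm, Nat.Prime.coprime_iff_not_dvd hp.out]
  intro hdvd
  have hnum : ¬ p ∣ x.num.natAbs := by
    intro h
    have h4 : p ∣ Nat.gcd x.num.natAbs x.den := Nat.dvd_gcd h hdvd
    rw [x.reduced] at h4
    exact hp.out.one_lt.ne' (Nat.dvd_one.mp h4)
  have hvn : A.valuation ((x.num.natAbs : ℕ) : H98pQb) = 1 :=
    h72a_val_natCast_eq_one A hp.out hA hnum
  have hvn' : A.valuation ((x.num : ℤ) : H98pQb) = 1 := by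
    rcases Int.natAbs_eq x.num with h | h
    · rw [h]; simpa using hvn
    · rw [h]; simpa using hvn
  have hl : A.valuation (p : H98pQb) < 1 := (A.mem_nonunits_iff).1 hA
  obtain ⟨d, hd⟩ := hdvd
  have hvd : A.valuation ((x.den : ℕ) : H98pQb) < 1 := by
    rw [hd, Nat.cast_mul, map_mul]
    calc A.valuation (p : H98pQb) * A.valuation (d : H98pQb)
        ≤ A.valuation (p : H98pQb) * 1 := mul_le_mul_right (h72a_val_natCast_le A d) _
      _ = A.valuation (p : H98pQb) := mul_one _
      _ < 1 := hl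
  have hx1 : A.valuation (x : H98pQb) ≤ 1 := (A.valuation_le_one_iff _).2 hx
  have hmul : (x : H98pQb) * ((x.den : ℕ) : H98pQb) = ((x.num : ℤ) : H98pQb) := by
    have h := Rat.mul_den_eq_num x
    have := congrArg (fun q : ℚ => (q : H98pQb)) h
    push_cast at this
    exact this
  have h5 : A.valuation ((x.num : ℤ) : H98pQb) < 1 := by
    rw [← hmul, map_mul]
    calc A.valuation (x : H98pQb) * A.valuation ((x.den : ℕ) : H98pQb)
        ≤ 1 * A.valuation ((x.den : ℕ) : H98pQb) := mul_le_mul_left hx1 _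
      _ = A.valuation ((x.den : ℕ) : H98pQb) := one_mul _
      _ < 1 := hvd
  rw [hvn'] at h5
  exact lt_irrefl _ h5

end arith

/-! ## Decomposition and inertia -/

section gal

variable (A : ValuationSubring H98pQb)

/-- the decomposition group preserves `A`. -/
theorem h98d_decomp_mem {τ : H98pGQ} (hτ : τ ∈ A.decompositionSubgroup ℚ) {a : H98pQb}
    (ha : a ∈ A) : τ a ∈ A :=
  (((⟨τ, hτ⟩ : A.decompositionSubgroup ℚ) • (⟨a, ha⟩ : A) : A)).2

/-- the inertia group is normalised by the decomposition group. -/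
theorem h98d_conj_mem {τ σ : H98pGQ} (hτ : τ ∈ A.decompositionSubgroup ℚ)
    (hσ : σ ∈ A.inertiaSubgroupIn ℚ) : τ * σ * τ⁻¹ ∈ A.inertiaSubgroupIn ℚ := by
  obtain ⟨i', hi', rfl⟩ := hσ
  refine ⟨(⟨τ, hτ⟩ : A.decompositionSubgroup ℚ) * i' * (⟨τ, hτ⟩ : A.decompositionSubgroup ℚ)⁻¹,
    ?_, rfl⟩
  have hn : (A.inertiaSubgroup ℚ).Normal := by
    unfold ValuationSubring.inertiaSubgroup
    exact MonoidHom.normal_ker _
  exact hn.conj_mem i' hi' ⟨τ, hτ⟩

/-- the decomposition group preserves the inertia ring. -/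
theorem h98d_decomp_our {τ : H98pGQ} (hτ : τ ∈ A.decompositionSubgroup ℚ) {c : H98pQb}
    (hc : c ∈ h47dOur A) : τ c ∈ h47dOur A := by
  refine ⟨h98d_decomp_mem A hτ hc.1, fun σ hσ => ?_⟩
  have hτ' : τ⁻¹ ∈ A.decompositionSubgroup ℚ := (A.decompositionSubgroup ℚ).inv_mem hτ
  have h1 := h98d_conj_mem A hτ' hσ
  rw [inv_inv] at h1
  have h2 := hc.2 _ h1
  have h3 : (τ⁻¹ * σ * τ) c = τ⁻¹ (σ (τ c)) := rfl
  rw [h3] at h2
  have h4 := congrArg τ h2
  have h5 : τ (τ⁻¹ (σ (τ c))) = σ (τ c) := by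
    show (τ * τ⁻¹) (σ (τ c)) = σ (τ c)
    rw [mul_inv_cancel]; rfl
  rw [h5] at h4
  exact h4

theorem h98d_our_le : ∀ c ∈ h47dOur A, c ∈ A := fun _ hc => hc.1

theorem h98d_rat_mem_our {q : ℚ} (hq : (algebraMap ℚ H98pQb q) ∈ A) :
    algebraMap ℚ H98pQb q ∈ h47dOur A :=
  ⟨hq, fun σ _ => σ.commutes q⟩

end gal

/-! ## The ring `B^ur` -/

section bur

variable {M : Type} [AddCommGroup M] (act : H98pGQ → M → M) (A : ValuationSubring H98pQb)
  (G : Set (M → H98pQb))

/-- constant functions with value in the inertia ring. -/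
def h98dCst (M : Type) (A : ValuationSubring H98pQb) : Set (M → H98pQb) :=
  {f | ∃ c ∈ h47dOur A, f = fun _ => c}

/-- `B^ur`: the ring generated by the constants of the inertia ring and `G`. -/
def h98dBur : Subring (M → H98pQb) := Subring.closure (h98dCst M A ∪ G)

variable {act A G}

theorem h98d_cst_mem_bur {c : H98pQb} (hc : c ∈ h47dOur A) :
    (fun _ : M => c) ∈ h98dBur A G :=
  Subring.subset_closure (Or.inl ⟨c, hc, rfl⟩)

theorem h98d_mem_bur_of_mem {g : M → H98pQb} (hg : g ∈ G) : g ∈ h98dBur A G :=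
  Subring.subset_closure (Or.inr hg)

theorem h98d_smul_mem_bur {c : H98pQb} (hc : c ∈ h47dOur A) {f : M → H98pQb}
    (hf : f ∈ h98dBur A G) : c • f ∈ h98dBur A G := by
  have : c • f = (fun _ : M => c) * f := by
    funext x; simp
  rw [this]
  exact (h98dBur A G).mul_mem (h98d_cst_mem_bur hc) hf

/-- values in `A`. -/
theorem h98d_bur_int (hG : H96LocOrder A act G) {f : M → H98pQb} (hf : f ∈ h98dBur A G)
    (x : M) : f x ∈ A := by
  induction hf using Subring.closure_induction with
  | mem f hf =>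
    rcases hf with ⟨c, hc, rfl⟩ | hf
    · exact hc.1
    · exact hG.int f hf x
  | zero => exact A.zero_mem
  | one => exact A.one_mem
  | add f g _ _ hf hg => exact A.add_mem _ _ hf hg
  | neg f _ hf => exact A.neg_mem _ hf
  | mul f g _ _ hf hg => exact A.mul_mem _ _ hf hg

/-- fixed by the twists of the inertia group. -/
theorem h98d_bur_inert (hact : H98pIsGalAct act) (hG : H96LocOrder A act G) {f : M → H98pQb}
    (hf : f ∈ h98dBur A G) {σ : H98pGQ} (hσ : σ ∈ A.inertiaSubgroupIn ℚ) :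
    h98dTw act σ f = f := by
  induction hf using Subring.closure_induction with
  | mem f hf =>
    rcases hf with ⟨c, hc, rfl⟩ | hf
    · rw [h98dTw_const, hc.2 σ hσ]
    · exact h98dTw_eq_self hact (fun x => hG.inert f hf σ hσ x)
  | zero => exact h98dTw_zero act σ
  | one => exact h98dTw_one act σ
  | add f g _ _ hf hg => rw [h98dTw_add, hf, hg]
  | neg f _ hf => rw [h98dTw_neg, hf]
  | mul f g _ _ hf hg => rw [h98dTw_mul, hf, hg]

/-- stable under the twists of the decomposition group. -/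
theorem h98d_bur_decomp (hG : H96LocOrder A act G) {f : M → H98pQb}
    (hf : f ∈ h98dBur A G) {τ : H98pGQ} (hτ : τ ∈ A.decompositionSubgroup ℚ) :
    h98dTw act τ f ∈ h98dBur A G := by
  induction hf using Subring.closure_induction with
  | mem f hf =>
    rcases hf with ⟨c, hc, rfl⟩ | hf
    · rw [h98dTw_const]
      exact h98d_cst_mem_bur (h98d_decomp_our A hτ hc)
    · exact h98d_mem_bur_of_mem (hG.decomp f hf τ hτ)
  | zero => rw [h98dTw_zero]; exact Subring.zero_mem _
  | one => rw [h98dTw_one]; exact Subring.one_mem _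
  | add f g _ _ hf hg => rw [h98dTw_add]; exact Subring.add_mem _ hf hg
  | neg f _ hf => rw [h98dTw_neg]; exact Subring.neg_mem _ hf
  | mul f g _ _ hf hg => rw [h98dTw_mul]; exact Subring.mul_mem _ hf hg

/-- `B^ur ⊆ A[G]`. -/
theorem h98d_bur_le_adjoin {f : M → H98pQb} (hf : f ∈ h98dBur A G) :
    f ∈ Algebra.adjoin A G := by
  induction hf using Subring.closure_induction with
  | mem f hf =>
    rcases hf with ⟨c, hc, rfl⟩ | hf
    · exact (Algebra.adjoin A G).algebraMap_mem ⟨c, hc.1⟩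
    · exact Algebra.subset_adjoin hf
  | zero => exact Subalgebra.zero_mem _
  | one => exact Subalgebra.one_mem _
  | add f g _ _ hf hg => exact Subalgebra.add_mem _ hf hg
  | neg f _ hf => exact Subalgebra.neg_mem _ hf
  | mul f g _ _ hf hg => exact Subalgebra.mul_mem _ hf hg

end bur

end Fermat.Agent.P5
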