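import Fermat.Agent.P5.H98Zp

/-!
# Wave 5, pillar (P), row TOP-POINTS: points of a function order are evaluations (helper98)

* `h98q_algHom_pi_eval` : a `K`-linear multiplicative unital map `(M → K) → K` (`M` finite,
  `K` a field) is the evaluation at a point;
* `h98q_points_of_basis` : if an `R`-subalgebra `𝓗` of `M → K` has an `R`-basis which is a
  `K`-basis of all functions, every `R`-algebra homomorphism `𝓗 → K` is `f ↦ f x`;
* `h98q_zp_points` : for function orders over `ℤ_(p)` in `M → ℚ̄` (finitely generated,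
  equivariant, separating): existence and uniqueness of the point.
-/

set_option autoImplicit false
set_option linter.style.haveILetI false

namespace Fermat.Agent.P5

/-- A `K`-linear, multiplicative, unital map `(M → K) → K` is an evaluation. -/
theorem h98q_algHom_pi_eval {K M : Type*} [Field K] [Finite M] (Φ : (M → K) →ₗ[K] K)
    (hone : Φ 1 = 1) (hmul : ∀ f g, Φ (f * g) = Φ f * Φ g) :
    ∃ x : M, ∀ f : M → K, Φ f = f x := by
  classical
  haveI := Fintype.ofFinite M
  have hsum : ∀ f : M → K, f = ∑ y, f y • Pi.single y (1 : K) := by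
    intro f
    funext z
    simp [Finset.sum_apply, Pi.single_apply]
  have hΦ : ∀ f : M → K, Φ f = ∑ y, f y * Φ (Pi.single y (1 : K)) := by
    intro f
    conv_lhs => rw [hsum f]
    rw [map_sum]
    refine Finset.sum_congr rfl fun y _ => ?_
    rw [map_smul, smul_eq_mul]
  -- some indicator has nonzero image
  have hex : ∃ x : M, Φ (Pi.single x (1 : K)) ≠ 0 := by
    by_contra hcon
    have hall : ∀ x : M, Φ (Pi.single x (1 : K)) = 0 := by
      intro x
      by_contra hx
      exact hcon ⟨x, hx⟩
    have h1 := hΦ 1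
    rw [hone] at h1
    simp only [hall, mul_zero, Finset.sum_const_zero] at h1
    exact one_ne_zero h1
  obtain ⟨x, hx⟩ := hex
  -- its image is `1`, the others are `0`
  have hidem : Φ (Pi.single x (1 : K)) = 1 := by
    have h2 : Φ (Pi.single x (1 : K)) * Φ (Pi.single x (1 : K)) = Φ (Pi.single x (1 : K)) := by
      rw [← hmul]
      congr 1
      funext z
      by_cases hz : z = x
      · subst hz
        simp
      · simp [Pi.single_eq_of_ne hz]
    have h3 : Φ (Pi.single x (1 : K)) * (Φ (Pi.single x (1 : K)) - 1) = 0 := by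
      rw [mul_sub, h2, mul_one, sub_self]
    rcases mul_eq_zero.mp h3 with h | h
    · exact absurd h hx
    · exact sub_eq_zero.mp h
  have hzero : ∀ y : M, y ≠ x → Φ (Pi.single y (1 : K)) = 0 := by
    intro y hy
    have h4 : Φ (Pi.single y (1 : K)) * Φ (Pi.single x (1 : K)) = 0 := by
      rw [← hmul]
      have : (Pi.single y (1 : K) * Pi.single x (1 : K) : M → K) = 0 := by
        funext z
        by_cases hz : z = x
        · subst hz
          simp [Pi.single_eq_of_ne (Ne.symm hy)]
        · simp [Pi.single_eq_of_ne hz]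
      rw [this, map_zero]
    rw [hidem, mul_one] at h4
    exact h4
  refine ⟨x, fun f => ?_⟩
  rw [hΦ f, Finset.sum_eq_single x]
  · rw [hidem, mul_one]
  · intro y _ hy
    rw [hzero y hy, mul_zero]
  · intro h
    exact absurd (Finset.mem_univ x) h

/-- Points of a subalgebra with a good basis are evaluations. -/
theorem h98q_points_of_basis {R K M : Type*} [CommRing R] [Field K] [Algebra R K] [Finite M]
    (𝓗 : Subalgebra R (M → K)) {n : ℕ} (b : Module.Basis (Fin n) R 𝓗)
    (hli : LinearIndependent K (fun i => ((b i : 𝓗) : M → K)))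
    (hsp : Submodule.span K (Set.range fun i => ((b i : 𝓗) : M → K)) = ⊤)
    (φ : 𝓗 →ₐ[R] K) : ∃ x : M, ∀ f : 𝓗, φ f = (f : M → K) x := by
  classical
  let B : Module.Basis (Fin n) K (M → K) := Module.Basis.mk hli hsp.ge
  have hB : ∀ i, B i = ((b i : 𝓗) : M → K) := fun i => by
    simp [B]
  let Φ : (M → K) →ₗ[K] K := B.constr K (fun i => φ (b i))
  have hΦb : ∀ i, Φ ((b i : 𝓗) : M → K) = φ (b i) := fun i => by
    rw [← hB i]
    exact B.constr_basis K _ i
  -- `Φ` extends `φ`
  have hΦφ : ∀ f : 𝓗, Φ (f : M → K) = φ f := by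
    intro f
    have h1 : f = ∑ i, b.repr f i • b i := (b.sum_repr f).symm
    have h2 : (f : M → K) = ∑ i, algebraMap R K (b.repr f i) • ((b i : 𝓗) : M → K) := by
      have h3 := congrArg (fun g : 𝓗 => 𝓗.val.toLinearMap g) h1
      simp only [map_sum, map_smul] at h3
      rw [show (f : M → K) = 𝓗.val.toLinearMap f from rfl, h3]
      refine Finset.sum_congr rfl fun i _ => ?_
      funext x
      simp [Algebra.smul_def]
    rw [h2, map_sum]
    conv_rhs => rw [h1, map_sum]
    refine Finset.sum_congr rfl fun i _ => ?_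
    rw [map_smul, hΦb, map_smul, smul_eq_mul, Algebra.smul_def]
  have hone : Φ 1 = 1 := by
    have := hΦφ 1
    rw [map_one] at this
    exact this
  -- multiplicativity, by bilinearity on the basis
  have hmul : ∀ f g : M → K, Φ (f * g) = Φ f * Φ g := by
    intro f g
    have hf : f ∈ Submodule.span K (Set.range fun i => ((b i : 𝓗) : M → K)) := by
      rw [hsp]; trivial
    have hg : g ∈ Submodule.span K (Set.range fun i => ((b i : 𝓗) : M → K)) := by
      rw [hsp]; trivial
    induction hf using Submodule.span_induction with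
    | zero => simp
    | add u v _ _ hu hv => rw [add_mul, map_add, map_add, hu, hv, add_mul]
    | smul c u _ hu => rw [smul_mul_assoc, map_smul, map_smul, hu, smul_eq_mul, smul_eq_mul,
        mul_assoc]
    | mem u hu =>
      obtain ⟨i, rfl⟩ := hu
      induction hg using Submodule.span_induction with
      | zero => simp
      | add u v _ _ hu hv => rw [mul_add, map_add, map_add, hu, hv, mul_add]
      | smul c u _ hu => rw [mul_smul_comm, map_smul, map_smul, hu, smul_eq_mul, smul_eq_mul,
          mul_left_comm]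
      | mem v hv =>
        obtain ⟨j, rfl⟩ := hv
        have h5 : (((b i : 𝓗) : M → K) * ((b j : 𝓗) : M → K)) = ((b i * b j : 𝓗) : M → K) := rfl
        simp only [] at h5 ⊢
        rw [h5, hΦφ, map_mul, hΦb, hΦb]
  obtain ⟨x, hx⟩ := h98q_algHom_pi_eval Φ hone hmul
  exact ⟨x, fun f => by rw [← hΦφ f, hx]⟩

section zp

local notation "Qb98" => (AlgebraicClosure ℚ)
local notation "GQ98" => (AlgebraicClosure ℚ ≃ₐ[ℚ] AlgebraicClosure ℚ)

variable (p : ℕ) [Fact p.Prime] {M : Type*} [Finite M]

/-- **Points of a function order over `ℤ_(p)` are evaluations**, at a unique point. -/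
theorem h98q_zp_points (act : GQ98 → M → M)
    (𝓗 : Subalgebra (GaloisRep.ratLocalizedAt p) (M → Qb98))
    (hfg : (Subalgebra.toSubmodule 𝓗).FG)
    (heq : ∀ f ∈ 𝓗, ∀ σ x, f (act σ x) = σ (f x))
    (hsep : ∀ x y, (∀ f ∈ 𝓗, f x = f y) → x = y)
    (φ : 𝓗 →ₐ[GaloisRep.ratLocalizedAt p] Qb98) :
    ∃! x : M, ∀ f : 𝓗, φ f = (f : M → Qb98) x := by
  obtain ⟨n, b, hli, hsp, -⟩ := h98p_zp_basis p act 𝓗 hfg heq hsep
  obtain ⟨x, hx⟩ := h98q_points_of_basis 𝓗 b hli hsp φ
  refine ⟨x, hx, fun y hy => ?_⟩
  refine hsep y x fun f hf => ?_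
  exact (hy ⟨f, hf⟩).symm.trans (hx ⟨f, hf⟩)

/-- The evaluation at a point, as an algebra homomorphism of the order. -/
noncomputable def h98qEval (𝓗 : Subalgebra (GaloisRep.ratLocalizedAt p) (M → Qb98)) (x : M) :
    𝓗 →ₐ[GaloisRep.ratLocalizedAt p] Qb98 :=
  (Pi.evalAlgHom (GaloisRep.ratLocalizedAt p) (fun _ : M => Qb98) x).comp 𝓗.val

omit [Fact p.Prime] [Finite M] in
@[simp] theorem h98qEval_apply (𝓗 : Subalgebra (GaloisRep.ratLocalizedAt p) (M → Qb98)) (x : M)
    (f : 𝓗) : h98qEval p 𝓗 x f = (f : M → Qb98) x := rfl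

/-- `x ↦ ev_x` is a bijection from `M` onto the points of the order. -/
theorem h98q_zp_eval_bijective (act : GQ98 → M → M)
    (𝓗 : Subalgebra (GaloisRep.ratLocalizedAt p) (M → Qb98))
    (hfg : (Subalgebra.toSubmodule 𝓗).FG)
    (heq : ∀ f ∈ 𝓗, ∀ σ x, f (act σ x) = σ (f x))
    (hsep : ∀ x y, (∀ f ∈ 𝓗, f x = f y) → x = y) :
    Function.Bijective (h98qEval p 𝓗) := by
  constructor
  · intro x y hxy
    refine hsep x y fun f hf => ?_
    have := DFunLike.congr_fun hxy ⟨f, hf⟩
    simpa using this
  · intro φ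
    obtain ⟨x, hx, -⟩ := h98q_zp_points p act 𝓗 hfg heq hsep φ
    exact ⟨x, AlgHom.ext fun f => by rw [h98qEval_apply, hx f]⟩

end zp

end Fermat.Agent.P5
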