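import Fermat.Agent.P5.H93DescIface
import Fermat.Agent.Bridge.Frobenius
import Fermat.Agent.PT.Bridge.Inertia
import Fermat.Agent.LGC.H57Teich

/-!
# P5 (wave 5, S19): block ALG-DESC, leaf DESC-TRACE (helper99)

`h99y_trace : H93dTrace` (exact frozen Prop of `P5/H93DescIface.lean`).

For `n > 0` let `ζ` be a primitive root of unity of order `ℓ ^ n - 1`.  Then `φ ζ = ζ ^ ℓ` for a
Frobenius element `φ` at `A`, the inertia group of `A` fixes `ζ`, and the Vandermonde matrix of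
the nodes `ζ ^ (ℓ ^ j)`, `j < n`, has unit determinant in `A`; `b` is the first column of the
inverse.

* `h99y_vandermonde_solve` : abstract (any commutative ring): nodes with unit differences.
* `h99y_isUnit_of_not_mem_nonunits` : elements of `A` outside the maximal ideal are units.
-/

set_option autoImplicit false

open AlgebraicCurve ModularCurve

noncomputable section

namespace Fermat.Agent.P5

open Fermat.Agent.S37

/-- nodes with unit differences: the Vandermonde system `∑ i, b i * x j ^ i = δ_{j,0}` has a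
solution in the ring. -/
theorem h99y_vandermonde_solve {R : Type*} [CommRing R] {n : ℕ} (hn : 0 < n) (x : Fin n → R)
    (hu : ∀ i j : Fin n, i < j → IsUnit (x j - x i)) :
    ∃ b : Fin n → R, ∀ j : Fin n, ∑ i : Fin n, b i * (x j) ^ (i : ℕ) =
      if (j : ℕ) = 0 then 1 else 0 := by
  classical
  have hdet : IsUnit (Matrix.vandermonde x).det := by
    rw [Matrix.det_vandermonde]
    refine IsUnit.prod_univ_iff.2 fun i => ?_
    refine IsUnit.prod_iff.2 fun j hj => ?_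
    exact hu i j (Finset.mem_Ioi.1 hj)
  refine ⟨(Matrix.vandermonde x)⁻¹.mulVec (Pi.single (⟨0, hn⟩ : Fin n) (1 : R)), fun j => ?_⟩
  have h1 : (Matrix.vandermonde x).mulVec
      ((Matrix.vandermonde x)⁻¹.mulVec (Pi.single (⟨0, hn⟩ : Fin n) (1 : R))) =
      Pi.single (⟨0, hn⟩ : Fin n) (1 : R) := by
    rw [Matrix.mulVec_mulVec, Matrix.mul_nonsing_inv _ hdet, Matrix.one_mulVec]
  have h2 := congrFun h1 j
  have h3 : ((Matrix.vandermonde x).mulVec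
      ((Matrix.vandermonde x)⁻¹.mulVec (Pi.single (⟨0, hn⟩ : Fin n) (1 : R)))) j =
      ∑ i : Fin n, ((Matrix.vandermonde x)⁻¹.mulVec (Pi.single (⟨0, hn⟩ : Fin n) (1 : R))) i *
        (x j) ^ (i : ℕ) := by
    simp only [Matrix.mulVec, dotProduct, Matrix.vandermonde_apply]
    exact Finset.sum_congr rfl fun i _ => mul_comm _ _
  rw [← h3, h2, Pi.single_apply]
  by_cases hj : (j : ℕ) = 0
  · have : j = ⟨0, hn⟩ := Fin.ext hj
    rw [if_pos this, if_pos hj]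
  · have : j ≠ ⟨0, hn⟩ := fun h => hj (by rw [h])
    rw [if_neg this, if_neg hj]

/-- an element of `A` outside the maximal ideal is a unit of `A`. -/
theorem h99y_isUnit_of_not_mem_nonunits {L : Type*} [Field L] (A : ValuationSubring L) (a : A)
    (h : (a : L) ∉ A.nonunits) : IsUnit a := by
  by_contra hu
  apply h
  rw [ValuationSubring.coe_mem_nonunits_iff, IsLocalRing.mem_maximalIdeal, mem_nonunits_iff]
  exact hu

/-- `ℓ ^ i < ℓ ^ n - 1` for `i + 1 < n`, `2 ≤ ℓ`. -/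
theorem h99y_pow_lt {ℓ n i : ℕ} (hℓ : 2 ≤ ℓ) (hi : i + 1 < n) : ℓ ^ i < ℓ ^ n - 1 := by
  have h1 : ℓ ^ (i + 2) ≤ ℓ ^ n := Nat.pow_le_pow_right (by omega) (by omega)
  have h2 : ℓ ^ (i + 2) = ℓ ^ i * ℓ * ℓ := by ring
  have h3 : 1 ≤ ℓ ^ i := Nat.one_le_pow _ _ (by omega)
  have h4 : ℓ ^ i * 2 ≤ ℓ ^ i * ℓ := Nat.mul_le_mul_left _ hℓ
  have h5 : ℓ ^ i * ℓ * 2 ≤ ℓ ^ i * ℓ * ℓ := Nat.mul_le_mul_left _ hℓ
  omega

/-- **DESC-TRACE.** -/
theorem h99y_trace : H93dTrace := by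
  intro ℓ A hℓ hA φ hφ n hn
  have hℓ2 : 2 ≤ ℓ := hℓ.two_le
  have hpow : 2 ≤ ℓ ^ n := le_trans hℓ2 (Nat.le_self_pow hn.ne' ℓ)
  have hm0 : 0 < ℓ ^ n - 1 := by omega
  have hm1 : ℓ ^ n - 1 + 1 = ℓ ^ n := by omega
  have hnd : ¬ ℓ ∣ ℓ ^ n - 1 := by
    intro h
    have h1 : ℓ ∣ ℓ ^ n := dvd_pow_self ℓ hn.ne'
    have h2 : ℓ ∣ ℓ ^ n - (ℓ ^ n - 1) := Nat.dvd_sub h1 h
    have h3 : ℓ ^ n - (ℓ ^ n - 1) = 1 := by omega
    rw [h3, Nat.dvd_one] at h2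
    omega
  have hA' : ((ℓ : ℕ) : Kbar) ∈ A.nonunits := hA
  have : NeZero (((ℓ ^ n - 1 : ℕ) : ℚ)) := ⟨by exact_mod_cast hm0.ne'⟩
  obtain ⟨ζ, hζ⟩ := HasEnoughRootsOfUnity.exists_primitiveRoot Kbar (ℓ ^ n - 1)
  have hζ1 : ζ ^ (ℓ ^ n - 1) = 1 := hζ.pow_eq_one
  have hζint : IsIntegral ℤ ζ :=
    ⟨Polynomial.X ^ (ℓ ^ n - 1) - 1, Polynomial.monic_X_pow_sub_C (1 : ℤ) hm0.ne', by
      simp [hζ1]⟩
  have hζA : ζ ∈ A := Fermat.Agent.S54.mem_valuationSubring_of_isIntegral A hζint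
  -- Frobenius
  have hfrob : φ ζ = ζ ^ ℓ := by
    refine Fermat.Agent.PT.Bridge.h23b_eq_of_sub_mem_nonunits_of_not_dvd A hm0 hℓ hnd hA' ?_ ?_
      (Fermat.Agent.Bridge.frob_sub_pow_mem_nonunits hφ hζA)
    · rw [← map_pow, hζ1, map_one]
    · rw [← pow_mul, mul_comm, pow_mul, hζ1, one_pow]
  -- the nodes
  have hpowone : ∀ e : ℕ, (ζ ^ e) ^ (ℓ ^ n - 1) = 1 := fun e => by
    rw [← pow_mul, mul_comm, pow_mul, hζ1, one_pow]
  have hunit : ∀ i j : Fin n, i < j →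
      IsUnit ((⟨ζ ^ (ℓ ^ (j : ℕ)), A.pow_mem hζA _⟩ : A) - ⟨ζ ^ (ℓ ^ (i : ℕ)), A.pow_mem hζA _⟩) := by
    intro i j hij
    refine h99y_isUnit_of_not_mem_nonunits A _ fun hmem => ?_
    have hmem' : ζ ^ (ℓ ^ (j : ℕ)) - ζ ^ (ℓ ^ (i : ℕ)) ∈ A.nonunits := hmem
    have heq := Fermat.Agent.PT.Bridge.h23b_eq_of_sub_mem_nonunits_of_not_dvd A hm0 hℓ hnd hA'
      (hpowone _) (hpowone _) hmem'
    have hij' : (i : ℕ) < (j : ℕ) := hij
    have hjn : (j : ℕ) < n := j.2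
    have hlt_j : ℓ ^ (j : ℕ) < ℓ ^ n - 1 := by
      have h1 : ℓ ^ (j : ℕ) ≤ ℓ ^ (n - 1) := Nat.pow_le_pow_right (by omega) (by omega)
      have h2 : ℓ ^ (n - 1) < ℓ ^ n - 1 := by
        have := h99y_pow_lt (ℓ := ℓ) (n := n) (i := n - 2) hℓ2 (by omega)
        have h3 : ℓ ^ (n - 2) ≤ ℓ ^ (n - 1) := Nat.pow_le_pow_right (by omega) (by omega)
        have h4 : ℓ ^ n = ℓ ^ (n - 1) * ℓ := by
          rw [← pow_succ]; congr 1; omega
        have h5 : ℓ ^ (n - 1) * 2 ≤ ℓ ^ (n - 1) * ℓ := Nat.mul_le_mul_left _ hℓ2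
        have h6 : 2 ≤ ℓ ^ (n - 1) := le_trans hℓ2 (Nat.le_self_pow (by omega) ℓ)
        omega
      omega
    have hlt_i : ℓ ^ (i : ℕ) < ℓ ^ n - 1 :=
      lt_of_le_of_lt (Nat.pow_le_pow_right (by omega) hij'.le) hlt_j
    have h7 : ℓ ^ (j : ℕ) = ℓ ^ (i : ℕ) := hζ.pow_inj hlt_j hlt_i heq
    have h8 : (j : ℕ) = (i : ℕ) := Nat.pow_right_injective hℓ2 h7
    omega
  obtain ⟨bA, hbA⟩ := h99y_vandermonde_solve hn
    (fun j : Fin n => (⟨ζ ^ (ℓ ^ (j : ℕ)), A.pow_mem hζA _⟩ : A)) hunit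
  refine ⟨ζ, fun i => (bA i : Kbar), hζA, fun i => (bA i).2, hfrob, ?_, ?_, ?_⟩
  · rw [← hm1, pow_succ, hζ1, one_mul]
  · intro ι hι
    exact Fermat.Agent.LGC.h57_inertia_fix_root A hm0 hℓ hnd hA' hι hζ1
  · intro j
    have h := congrArg (fun a : A => (a : Kbar)) (hbA j)
    rw [show ((if (j : ℕ) = 0 then (1 : A) else 0 : A) : Kbar) =
      if (j : ℕ) = 0 then 1 else 0 by split_ifs <;> simp] at h
    rw [← h]
    push_cast
    rfl

end Fermat.Agent.P5
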