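import Fermat.Agent.P5.Skeleton
import Fermat.Agent.Jac.FinalTFL

/-!
# Wave 5, pillar (P): TOP — S19 from the frozen blocks (helper98)

* `h98p_s19_of_order : H98pAdapter → (orders on all J₀(N)[ℓ^k], ℓ ∤ N) → S19`;
* `h98p_ordZ_of : H98pDescent → H96LawStatement → H98pLevel → orders on all J₀(N)[ℓ^k]`;
* `h98p_s19_of : H98pAdapter → H98pDescent → H96LawStatement → H98pLevel → S19`.

The finiteness of `J₀(N)[ℓ^k]` and the continuity of the Galois action are the landed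
`Fermat.Agent.Jac.torsionFiniteLevel`.
-/

set_option autoImplicit false
set_option linter.style.haveILetI false

open ModularCurve

noncomputable section

namespace Fermat.Agent.P5

theorem h98p_mem_iff (N ℓ k : ℕ) (x : JZero N) :
    x ∈ Submodule.torsionBy ℤ (JZero N) ((ℓ : ℤ) ^ k) ↔ (ℓ ^ k) • x = 0 := by
  rw [Submodule.mem_torsionBy_iff]
  have : ((ℓ : ℤ) ^ k) • x = (ℓ ^ k) • x := by
    rw [← natCast_zsmul]
    push_cast
    rfl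
  rw [this]

/-- `J₀(N)[ℓ^k]` is finite. -/
theorem h98p_finite (N : ℕ) [NeZero N] (ℓ : ℕ) [hℓ : Fact ℓ.Prime] (k : ℕ) :
    Finite (H98pM N ℓ k) := by
  have h := (Fermat.Agent.Jac.torsionFiniteLevel N (ℓ ^ k) (pow_pos hℓ.out.pos k)).1
  have : {x : JZero N | (ℓ ^ k) • x = 0} =
      ((Submodule.torsionBy ℤ (JZero N) ((ℓ : ℤ) ^ k) : Submodule ℤ (JZero N)) :
        Set (JZero N)) := by
    ext x
    exact (h98p_mem_iff N ℓ k x).symm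
  rw [this] at h
  exact h.to_subtype

/-- The Galois action on `J₀(N)[ℓ^k]` is a continuous action by automorphisms. -/
theorem h98p_isGalAct (N : ℕ) [NeZero N] (ℓ : ℕ) [hℓ : Fact ℓ.Prime] (k : ℕ) :
    H98pIsGalAct (h98pAct N ℓ k) where
  one x := Subtype.ext (by rw [h96m_act_coe, one_smul])
  mul σ τ x := Subtype.ext (by rw [h96m_act_coe, h96m_act_coe, h96m_act_coe, mul_smul])
  add σ x y := Subtype.ext (by
    rw [h96m_act_coe, Submodule.coe_add, Submodule.coe_add, smul_add, h96m_act_coe,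
      h96m_act_coe])
  cont := by
    obtain ⟨L, hL, hfix⟩ := (Fermat.Agent.Jac.torsionFiniteLevel N (ℓ ^ k)
      (pow_pos hℓ.out.pos k)).2
    exact ⟨L, hL, fun σ hσ x => Subtype.ext (by
      rw [h96m_act_coe]
      exact hfix σ hσ _ ((h98p_mem_iff N ℓ k _).mp x.2))⟩

/-- **TOP.** S19 from the adapter and function orders on all `J₀(N)[ℓ^k]`, `ℓ ∤ N`. -/
theorem h98p_s19_of_order (hAd : H98pAdapter)
    (hOrd : ∀ (N : ℕ) [NeZero N] (ℓ : ℕ) [Fact ℓ.Prime], ¬ ℓ ∣ N → ∀ k : ℕ, H98pOrdZ N ℓ k)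
    (p : ℕ) [NeZero p] (ℓ : ℕ) [Fact ℓ.Prime] (hℓp : ¬ ℓ ∣ p) (k : ℕ) :
    ∃ (H : Type) (_ : CommRing H) (_ : HopfAlgebra (GaloisRep.ratLocalizedAt ℓ) H),
      Module.Finite (GaloisRep.ratLocalizedAt ℓ) H ∧ Module.Flat (GaloisRep.ratLocalizedAt ℓ) H ∧
      Coalgebra.IsCocomm (GaloisRep.ratLocalizedAt ℓ) H ∧
      ∃ e : WithConv (H →ₐ[GaloisRep.ratLocalizedAt ℓ] AlgebraicClosure ℚ) ≃
          ↥(Submodule.torsionBy ℤ (JZero p) ((ℓ : ℤ) ^ k)),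
        (∀ f g, e (f * g) = e f + e g) ∧
        ∀ (σ : AlgebraicClosure ℚ ≃ₐ[ℚ] AlgebraicClosure ℚ)
          (f g : WithConv (H →ₐ[GaloisRep.ratLocalizedAt ℓ] AlgebraicClosure ℚ)),
          (∀ h : H, g h = σ (f h)) → ((e g : JZero p)) = σ • (e f : JZero p) := by
  haveI := h98p_finite p ℓ k
  obtain ⟨H, i1, i2, h1, h2, h3, e, he1, he2⟩ :=
    hAd ℓ (H98pM p ℓ k) (h98pAct p ℓ k) (hOrd p ℓ hℓp k)
  exact ⟨H, i1, i2, h1, h2, h3, e, he1, fun σ f g hfg => by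
    rw [he2 σ f g hfg, h96m_act_coe]⟩

/-- Orders on all `J₀(N)[ℓ^k]` from DESC, LAW and LEVEL (+ GEO inside LEVEL). -/
theorem h98p_ordZ_of (hDe : H98pDescent) (hLaw : H96LawStatement) (hLev : H98pLevel)
    (N : ℕ) [NeZero N] (ℓ : ℕ) [hℓ : Fact ℓ.Prime] (hℓN : ¬ ℓ ∣ N) (k : ℕ) :
    H98pOrdZ N ℓ k := by
  obtain ⟨N', hN', -, ⟨A, hA, hGeo⟩, hres⟩ := hLev N ℓ hℓN
  refine hres k ?_
  haveI := h98p_finite N' ℓ k
  obtain ⟨G, hG⟩ := hLaw N' A ℓ hℓ.out hA hGeo ((ℓ : ℤ) ^ k) (h98p_finite N' ℓ k)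
  exact hDe ℓ (H98pM N' ℓ k) (h98pAct N' ℓ k) (h98p_isGalAct N' ℓ k) A hA G hG

/-- **TOP, full chain.** -/
theorem h98p_s19_of (hAd : H98pAdapter) (hDe : H98pDescent) (hLaw : H96LawStatement)
    (hLev : H98pLevel)
    (p : ℕ) [NeZero p] (ℓ : ℕ) [Fact ℓ.Prime] (hℓp : ¬ ℓ ∣ p) (k : ℕ) :
    ∃ (H : Type) (_ : CommRing H) (_ : HopfAlgebra (GaloisRep.ratLocalizedAt ℓ) H),
      Module.Finite (GaloisRep.ratLocalizedAt ℓ) H ∧ Module.Flat (GaloisRep.ratLocalizedAt ℓ) H ∧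
      Coalgebra.IsCocomm (GaloisRep.ratLocalizedAt ℓ) H ∧
      ∃ e : WithConv (H →ₐ[GaloisRep.ratLocalizedAt ℓ] AlgebraicClosure ℚ) ≃
          ↥(Submodule.torsionBy ℤ (JZero p) ((ℓ : ℤ) ^ k)),
        (∀ f g, e (f * g) = e f + e g) ∧
        ∀ (σ : AlgebraicClosure ℚ ≃ₐ[ℚ] AlgebraicClosure ℚ)
          (f g : WithConv (H →ₐ[GaloisRep.ratLocalizedAt ℓ] AlgebraicClosure ℚ)),
          (∀ h : H, g h = σ (f h)) → ((e g : JZero p)) = σ • (e f : JZero p) :=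
  h98p_s19_of_order hAd (fun N _ ℓ _ hℓN k => h98p_ordZ_of hDe hLaw hLev N ℓ hℓN k) p ℓ hℓp k

end Fermat.Agent.P5
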